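import Mathlib
import Fermat.Prelude.Def_ModularCurve_LaurentCoeff

/-!
# S18 glue (helper85): the Gauss valuation subring of a field of Laurent series

`R` a valuation ring with fraction field `K`, `res : R →+* κ` a ring hom to a field with kernel
`(π)`.  For an intermediate field `F` of `K((q))/K` generated by series with coefficients in `R`
the set
`V = {x ∈ F | ∃ s t ∈ R((q)), s̄ ≠ 0, s·x = t}`
is a valuation subring of `F` (the Gauss valuation), its maximal ideal is `π V`, a series of `F`
with coefficients in `R` lies in `V`, and it lies in `π V` iff all its coefficients are divisible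
by `π`.  No input from S28 is needed.
-/

set_option autoImplicit false

open ModularCurve

namespace Fermat.Agent.S18

section Series

variable {R K κ : Type*} [CommRing R] [IsDomain R] [Field K] [Algebra R K] [IsFractionRing R K]
  [Field κ]

omit [IsDomain R] in
theorem gv85_emb_injective :
    Function.Injective (coeffMap (algebraMap R K) : LaurentSeries R → LaurentSeries K) := by
  intro x y h
  ext n
  have h1 := congrArg (fun z => z.coeff n) h
  simp only [coeffMap_coeff] at h1
  exact IsFractionRing.injective R K h1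

theorem gv85_coeffMap_C {S T : Type*} [CommRing S] [CommRing T] (f : S →+* T) (c : S) :
    coeffMap f (HahnSeries.C c : LaurentSeries S) = HahnSeries.C (f c) :=
  HahnSeries.map_C c f

omit [IsDomain R] in
theorem gv85_coeff_C_mul (c : R) (y : LaurentSeries R) (n : ℤ) :
    (HahnSeries.C c * y).coeff n = c * y.coeff n := by
  rw [HahnSeries.C_mul_eq_smul, HahnSeries.coeff_smul, smul_eq_mul]

/-- Division of a series by a common divisor of its coefficients. -/
theorem gv85_exists_div (y : LaurentSeries R) (c : R) (hc : c ≠ 0) (h : ∀ n, c ∣ y.coeff n) :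
    ∃ y' : LaurentSeries R, y = HahnSeries.C c * y' := by
  choose r hr using h
  have hsupp : Function.support r ⊆ y.support := by
    intro n hn
    rw [Function.mem_support] at hn
    rw [HahnSeries.mem_support, hr n]
    exact mul_ne_zero hc hn
  refine ⟨⟨r, y.isPWO_support.mono hsupp⟩, ?_⟩
  ext n
  rw [gv85_coeff_C_mul]
  exact hr n

variable (res : R →+* κ) (π : R)

omit [IsDomain R] in
theorem gv85_red_C_mul (hres : ∀ r, res r = 0 ↔ π ∣ r) (y : LaurentSeries R) :
    coeffMap res (HahnSeries.C π * y) = 0 := by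
  rw [map_mul, gv85_coeffMap_C, (hres π).mpr dvd_rfl, HahnSeries.C_zero, zero_mul]

/-- A series reduces to zero iff it is divisible by `π`. -/
theorem gv85_red_eq_zero (hres : ∀ r, res r = 0 ↔ π ∣ r) (hπ0 : π ≠ 0) (y : LaurentSeries R)
    (hy : coeffMap res y = 0) : ∃ y' : LaurentSeries R, y = HahnSeries.C π * y' := by
  apply gv85_exists_div y π hπ0
  intro n
  have h1 := congrArg (fun z => z.coeff n) hy
  simp only [coeffMap_coeff, HahnSeries.coeff_zero] at h1
  exact (hres _).mp h1

/-- A nonzero series is a power of `π` times a series with nonzero reduction. -/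
theorem gv85_exists_pow_mul (hres : ∀ r, res r = 0 ↔ π ∣ r) (hπ0 : π ≠ 0)
    (hfin : ∀ r : R, r ≠ 0 → ∃ n : ℕ, ¬ π ^ (n + 1) ∣ r) (y : LaurentSeries R) (hy : y ≠ 0) :
    ∃ (k : ℕ) (y' : LaurentSeries R), y = HahnSeries.C (π ^ k) * y' ∧ coeffMap res y' ≠ 0 := by
  classical
  have hex : ∃ k : ℕ, ∃ n : ℤ, ¬ π ^ (k + 1) ∣ y.coeff n := by
    obtain ⟨n, hn⟩ : ∃ n, y.coeff n ≠ 0 := by
      by_contra hcon
      push Not at hcon
      exact hy (HahnSeries.ext (funext hcon))
    obtain ⟨k, hk⟩ := hfin _ hn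
    exact ⟨k, n, hk⟩
  have hspec := Nat.find_spec hex
  have hmin : ∀ m : ℕ, m < Nat.find hex → ¬ ∃ n : ℤ, ¬ π ^ (m + 1) ∣ y.coeff n :=
    fun m hm => Nat.find_min hex hm
  set k := Nat.find hex with hk
  have hdiv : ∀ n, π ^ k ∣ y.coeff n := by
    intro n
    rcases Nat.eq_zero_or_pos k with h0 | hpos
    · rw [h0, pow_zero]; exact one_dvd _
    · have h1 := hmin (k - 1) (by omega)
      push Not at h1
      have h2 := h1 n
      rwa [Nat.sub_add_cancel hpos] at h2
  obtain ⟨y', hy'⟩ := gv85_exists_div y (π ^ k) (pow_ne_zero _ hπ0) hdiv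
  refine ⟨k, y', hy', fun h0 => ?_⟩
  obtain ⟨y'', hy''⟩ := gv85_red_eq_zero res π hres hπ0 y' h0
  obtain ⟨n, hn⟩ := hspec
  apply hn
  rw [hy', hy'', gv85_coeff_C_mul, gv85_coeff_C_mul, pow_succ]
  exact ⟨y''.coeff n, by ring⟩

end Series

section Valuation

variable {R K κ : Type*} [CommRing R] [IsDomain R] [Field K] [Algebra R K] [IsFractionRing R K]
  [Field κ]
variable (res : R →+* κ)

/-- The Gauss subring of `F`. -/
def gv85_subring (F : IntermediateField K (LaurentSeries K)) : Subring F where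
  carrier := {x | ∃ s t : LaurentSeries R, coeffMap res s ≠ 0 ∧
    coeffMap (algebraMap R K) s * (x : LaurentSeries K) = coeffMap (algebraMap R K) t}
  mul_mem' := by
    rintro x y ⟨s, t, hs, hst⟩ ⟨s', t', hs', hst'⟩
    refine ⟨s * s', t * t', ?_, ?_⟩
    · rw [map_mul]; exact mul_ne_zero hs hs'
    · rw [map_mul, map_mul, ← hst, ← hst']
      push_cast
      ring
  one_mem' := ⟨1, 1, by rw [map_one]; exact one_ne_zero, by simp⟩
  add_mem' := by
    rintro x y ⟨s, t, hs, hst⟩ ⟨s', t', hs', hst'⟩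
    refine ⟨s * s', s' * t + s * t', ?_, ?_⟩
    · rw [map_mul]; exact mul_ne_zero hs hs'
    · rw [map_mul, map_add, map_mul, map_mul, ← hst, ← hst']
      push_cast
      ring
  zero_mem' := ⟨1, 0, by rw [map_one]; exact one_ne_zero, by simp⟩
  neg_mem' := by
    rintro x ⟨s, t, hs, hst⟩
    refine ⟨s, -t, hs, ?_⟩
    rw [map_neg, ← hst]
    push_cast
    ring

omit [IsDomain R] [IsFractionRing R K] in
theorem gv85_mem_subring (F : IntermediateField K (LaurentSeries K)) (x : F) :
    x ∈ gv85_subring res F ↔ ∃ s t : LaurentSeries R, coeffMap res s ≠ 0 ∧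
      coeffMap (algebraMap R K) s * (x : LaurentSeries K) = coeffMap (algebraMap R K) t :=
  Iff.rfl

/-- "Every element of `F` is a constant times a quotient of two `R`-integral series with nonzero
reductions". -/
def gv85_HF (F : IntermediateField K (LaurentSeries K)) : Prop :=
  ∀ x : F, x ≠ 0 → ∃ (a b : LaurentSeries R) (c : K), c ≠ 0 ∧ coeffMap res a ≠ 0 ∧
    coeffMap res b ≠ 0 ∧
    (x : LaurentSeries K) * coeffMap (algebraMap R K) b =
      HahnSeries.C c * coeffMap (algebraMap R K) a

omit [IsDomain R] [IsFractionRing R K] in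
theorem gv85_coe_algebraMap (F : IntermediateField K (LaurentSeries K)) (c : K) :
    ((algebraMap K F c : F) : LaurentSeries K) = HahnSeries.C c := by
  rw [IntermediateField.coe_algebraMap_apply, algebraMap_laurentSeries_eq_single,
    HahnSeries.C_apply]

omit [IsDomain R] [IsFractionRing R K] in
theorem gv85_coe_inv_mul (F : IntermediateField K (LaurentSeries K)) (c : K) (x : F) :
    (((algebraMap K F c)⁻¹ * x : F) : LaurentSeries K) =
      (HahnSeries.C c)⁻¹ * (x : LaurentSeries K) := by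
  rw [← gv85_coe_algebraMap F c]; rfl

variable [ValuationRing R]

/-- **The Gauss valuation subring** of `F`. -/
def gv85_V (F : IntermediateField K (LaurentSeries K)) (hF : gv85_HF res F) :
    ValuationSubring F :=
  { gv85_subring res F with
    mem_or_inv_mem' := by
      intro x
      by_cases hx : x = 0
      · left
        rw [hx]
        exact (gv85_subring res F).zero_mem
      obtain ⟨a, b, c, hc, ha, hb, hab⟩ := hF x hx
      have hxL : (x : LaurentSeries K) ≠ 0 := fun h => hx (Subtype.ext h)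
      rcases ValuationRing.isInteger_or_isInteger R c with ⟨r, hr⟩ | ⟨r, hr⟩
      · left
        refine ⟨b, HahnSeries.C r * a, hb, ?_⟩
        rw [map_mul, gv85_coeffMap_C, hr, ← hab, mul_comm]
      · right
        refine ⟨a, HahnSeries.C r * b, ha, ?_⟩
        rw [map_mul, gv85_coeffMap_C, hr]
        have h1 : (((x⁻¹ : F) : F) : LaurentSeries K) = (x : LaurentSeries K)⁻¹ := rfl
        rw [h1]
        have h2 : coeffMap (algebraMap R K) a =
            HahnSeries.C c⁻¹ * ((x : LaurentSeries K) * coeffMap (algebraMap R K) b) := by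
          rw [hab, ← mul_assoc, ← map_mul, inv_mul_cancel₀ hc, map_one, one_mul]
        rw [h2]
        field_simp }

theorem gv85_mem_V (F : IntermediateField K (LaurentSeries K)) (hF : gv85_HF res F) (x : F) :
    x ∈ gv85_V res F hF ↔ ∃ s t : LaurentSeries R, coeffMap res s ≠ 0 ∧
      coeffMap (algebraMap R K) s * (x : LaurentSeries K) = coeffMap (algebraMap R K) t :=
  Iff.rfl

/-- Series of `F` with coefficients in `R` lie in `V`. -/
theorem gv85_mem_V_of_integral (F : IntermediateField K (LaurentSeries K)) (hF : gv85_HF res F)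
    (x : F) (y : LaurentSeries R) (hxy : (x : LaurentSeries K) = coeffMap (algebraMap R K) y) :
    x ∈ gv85_V res F hF :=
  ⟨1, y, by rw [map_one]; exact one_ne_zero, by rw [map_one, one_mul, hxy]⟩

variable (π : R)

/-- `π⁻¹ ∉ V`. -/
theorem gv85_pi_inv_not_mem (hres : ∀ r, res r = 0 ↔ π ∣ r) (hπ0 : π ≠ 0)
    (F : IntermediateField K (LaurentSeries K)) (hF : gv85_HF res F) :
    (algebraMap K F (algebraMap R K π))⁻¹ ∉ gv85_V res F hF := by
  rintro ⟨s, t, hs, hst⟩
  have hπK : algebraMap R K π ≠ 0 := fun h =>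
    hπ0 (IsFractionRing.injective R K (by rw [h, map_zero]))
  have h1 : (((algebraMap K F (algebraMap R K π))⁻¹ : F) : LaurentSeries K) =
      (HahnSeries.C (algebraMap R K π))⁻¹ := by
    rw [← gv85_coe_algebraMap F]; rfl
  rw [h1] at hst
  have hC0 : (HahnSeries.C (algebraMap R K π) : LaurentSeries K) ≠ 0 := HahnSeries.C_ne_zero hπK
  have h2 : coeffMap (algebraMap R K) s = coeffMap (algebraMap R K) (HahnSeries.C π * t) := by
    rw [map_mul, gv85_coeffMap_C, ← hst]
    field_simp
  have h3 := gv85_emb_injective h2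
  apply hs
  rw [h3]
  exact gv85_red_C_mul res π hres t

/-- The maximal ideal of `V` is `π V`. -/
theorem gv85_hmax (hres : ∀ r, res r = 0 ↔ π ∣ r) (hπ0 : π ≠ 0)
    (F : IntermediateField K (LaurentSeries K)) (hF : gv85_HF res F) (x : F)
    (hx : x ∈ gv85_V res F hF) (hx' : x⁻¹ ∉ gv85_V res F hF) :
    (algebraMap K F (algebraMap R K π))⁻¹ * x ∈ gv85_V res F hF := by
  obtain ⟨s, t, hs, hst⟩ := hx
  by_cases hx0 : x = 0
  · rw [hx0, mul_zero]; exact (gv85_V res F hF).zero_mem
  have hxL : (x : LaurentSeries K) ≠ 0 := fun h => hx0 (Subtype.ext h)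
  have hπK : algebraMap R K π ≠ 0 := fun h =>
    hπ0 (IsFractionRing.injective R K (by rw [h, map_zero]))
  have hC0 : (HahnSeries.C (algebraMap R K π) : LaurentSeries K) ≠ 0 := HahnSeries.C_ne_zero hπK
  have ht : coeffMap res t = 0 := by
    by_contra ht
    apply hx'
    refine ⟨t, s, ht, ?_⟩
    have h1 : (((x⁻¹ : F) : F) : LaurentSeries K) = (x : LaurentSeries K)⁻¹ := rfl
    rw [h1, ← hst]
    field_simp
  obtain ⟨t', ht'⟩ := gv85_red_eq_zero res π hres hπ0 t ht
  refine ⟨s, t', hs, ?_⟩
  have h1 : (((algebraMap K F (algebraMap R K π))⁻¹ * x : F) : LaurentSeries K) =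
      (HahnSeries.C (algebraMap R K π))⁻¹ * (x : LaurentSeries K) := gv85_coe_inv_mul F _ x
  rw [h1, mul_left_comm, hst, ht', map_mul, gv85_coeffMap_C, ← mul_assoc, inv_mul_cancel₀ hC0,
    one_mul]

/-- **GAUSS**: an `R`-integral series of `F` lies in `π V` iff its reduction vanishes. -/
theorem gv85_gauss (hres : ∀ r, res r = 0 ↔ π ∣ r) (hπ0 : π ≠ 0)
    (F : IntermediateField K (LaurentSeries K)) (hF : gv85_HF res F)
    (x : F) (y : LaurentSeries R) (hxy : (x : LaurentSeries K) = coeffMap (algebraMap R K) y) :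
    (algebraMap K F (algebraMap R K π))⁻¹ * x ∈ gv85_V res F hF ↔ coeffMap res y = 0 := by
  have hπK : algebraMap R K π ≠ 0 := fun h =>
    hπ0 (IsFractionRing.injective R K (by rw [h, map_zero]))
  have hC0 : (HahnSeries.C (algebraMap R K π) : LaurentSeries K) ≠ 0 := HahnSeries.C_ne_zero hπK
  have h1 : (((algebraMap K F (algebraMap R K π))⁻¹ * x : F) : LaurentSeries K) =
      (HahnSeries.C (algebraMap R K π))⁻¹ * (x : LaurentSeries K) := gv85_coe_inv_mul F _ x
  constructor
  · rintro ⟨s, t, hs, hst⟩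
    rw [h1, hxy] at hst
    have h2 : coeffMap (algebraMap R K) (s * y) = coeffMap (algebraMap R K) (HahnSeries.C π * t) := by
      rw [map_mul, map_mul, gv85_coeffMap_C, ← hst]
      field_simp
    have h3 := gv85_emb_injective h2
    have h4 : coeffMap res s * coeffMap res y = 0 := by
      rw [← map_mul, h3]
      exact gv85_red_C_mul res π hres t
    exact (mul_eq_zero.mp h4).resolve_left hs
  · intro hy
    obtain ⟨y', hy'⟩ := gv85_red_eq_zero res π hres hπ0 y hy
    refine ⟨1, y', by rw [map_one]; exact one_ne_zero, ?_⟩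
    rw [map_one, one_mul, h1, hxy, hy', map_mul, gv85_coeffMap_C, ← mul_assoc, inv_mul_cancel₀ hC0,
      one_mul]

end Valuation

section Adjoin

variable {R K κ : Type*} [CommRing R] [IsDomain R] [Field K] [Algebra R K] [IsFractionRing R K]
  [Field κ]
variable (res : R →+* κ) (π : R)

/-- Series with bounded denominators form a `K`-subalgebra. -/
def gv85_bdd : Subalgebra K (LaurentSeries K) where
  carrier := {z | ∃ (d : R) (y : LaurentSeries R), d ≠ 0 ∧
    HahnSeries.C (algebraMap R K d) * z = coeffMap (algebraMap R K) y}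
  mul_mem' := by
    rintro z z' ⟨d, y, hd, hdy⟩ ⟨d', y', hd', hdy'⟩
    refine ⟨d * d', y * y', mul_ne_zero hd hd', ?_⟩
    rw [map_mul, map_mul, map_mul, ← hdy, ← hdy']
    ring
  add_mem' := by
    rintro z z' ⟨d, y, hd, hdy⟩ ⟨d', y', hd', hdy'⟩
    refine ⟨d * d', HahnSeries.C d' * y + HahnSeries.C d * y', mul_ne_zero hd hd', ?_⟩
    rw [map_mul, map_mul, map_add, map_mul, map_mul, gv85_coeffMap_C, gv85_coeffMap_C, ← hdy,
      ← hdy']
    ring
  algebraMap_mem' := by
    intro c
    obtain ⟨a, b, hb, rfl⟩ := IsFractionRing.div_surjective (A := R) c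
    have hb0 : b ≠ 0 := nonZeroDivisors.ne_zero hb
    have hbK : algebraMap R K b ≠ 0 := IsFractionRing.to_map_ne_zero_of_mem_nonZeroDivisors hb
    refine ⟨b, HahnSeries.C a, hb0, ?_⟩
    rw [algebraMap_laurentSeries_eq_single, ← HahnSeries.C_apply, ← map_mul, gv85_coeffMap_C,
      mul_div_cancel₀ _ hbK]

/-- Nonzero series with bounded denominators are constants times integral series with nonzero
reduction. -/
theorem gv85_bdd_normal (hres : ∀ r, res r = 0 ↔ π ∣ r) (hπ0 : π ≠ 0)
    (hfin : ∀ r : R, r ≠ 0 → ∃ n : ℕ, ¬ π ^ (n + 1) ∣ r) (z : LaurentSeries K)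
    (hz : z ∈ gv85_bdd (R := R) (K := K)) (hz0 : z ≠ 0) :
    ∃ (c : K) (a : LaurentSeries R), c ≠ 0 ∧ coeffMap res a ≠ 0 ∧
      z = HahnSeries.C c * coeffMap (algebraMap R K) a := by
  obtain ⟨d, y, hd, hdy⟩ := hz
  have hdK : algebraMap R K d ≠ 0 := fun h =>
    hd (IsFractionRing.injective R K (by rw [h, map_zero]))
  have hπK : algebraMap R K π ≠ 0 := fun h =>
    hπ0 (IsFractionRing.injective R K (by rw [h, map_zero]))
  have hCd : (HahnSeries.C (algebraMap R K d) : LaurentSeries K) ≠ 0 := HahnSeries.C_ne_zero hdK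
  have hy0 : y ≠ 0 := by
    rintro rfl
    rw [map_zero] at hdy
    exact hz0 ((mul_eq_zero.mp hdy).resolve_left hCd)
  obtain ⟨k, y', hy', hred⟩ := gv85_exists_pow_mul res π hres hπ0 hfin y hy0
  refine ⟨algebraMap R K (π ^ k) / algebraMap R K d, y', ?_, hred, ?_⟩
  · rw [map_pow]
    exact div_ne_zero (pow_ne_zero _ hπK) hdK
  · have h1 : HahnSeries.C (algebraMap R K d) * z =
        HahnSeries.C (algebraMap R K (π ^ k)) * coeffMap (algebraMap R K) y' := by
      rw [hdy, hy', map_mul, gv85_coeffMap_C]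
    rw [map_div₀, div_mul_eq_mul_div, ← h1]
    field_simp

/-- **(HF) holds for fields generated by `R`-integral series.** -/
theorem gv85_HF_adjoin (hres : ∀ r, res r = 0 ↔ π ∣ r) (hπ0 : π ≠ 0)
    (hfin : ∀ r : R, r ≠ 0 → ∃ n : ℕ, ¬ π ^ (n + 1) ∣ r) (S : Set (LaurentSeries K))
    (hS : ∀ x ∈ S, ∃ y : LaurentSeries R, x = coeffMap (algebraMap R K) y) :
    gv85_HF res (IntermediateField.adjoin K S) := by
  intro x hx
  have hxL : (x : LaurentSeries K) ≠ 0 := fun h => hx (Subtype.ext h)
  obtain ⟨r, hr, s, hs, hrs⟩ := IntermediateField.mem_adjoin_iff_div.mp x.2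
  have hle : Algebra.adjoin K S ≤ gv85_bdd (R := R) (K := K) := by
    apply Algebra.adjoin_le
    intro z hz
    obtain ⟨y, rfl⟩ := hS z hz
    exact ⟨1, y, one_ne_zero, by rw [map_one, map_one, one_mul]⟩
  have hs0 : s ≠ 0 := by
    rintro rfl
    rw [div_zero] at hrs
    exact hxL hrs
  have hr0 : r ≠ 0 := by
    rintro rfl
    rw [zero_div] at hrs
    exact hxL hrs
  obtain ⟨c₁, a₁, hc₁, ha₁, h₁⟩ := gv85_bdd_normal res π hres hπ0 hfin r (hle hr) hr0
  obtain ⟨c₂, a₂, hc₂, ha₂, h₂⟩ := gv85_bdd_normal res π hres hπ0 hfin s (hle hs) hs0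
  refine ⟨a₁, a₂, c₁ / c₂, div_ne_zero hc₁ hc₂, ha₁, ha₂, ?_⟩
  have hC2 : (HahnSeries.C c₂ : LaurentSeries K) ≠ 0 := HahnSeries.C_ne_zero hc₂
  have ha20 : coeffMap (algebraMap R K) a₂ ≠ 0 := by
    intro h
    rw [h, mul_zero] at h₂
    exact hs0 h₂
  rw [hrs, h₁, h₂, map_div₀]
  field_simp

end Adjoin

end Fermat.Agent.S18
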