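import Mathlib
import Fermat.Agent.S23.T
import Fermat.Agent.S16.LevelOneSturm
import Fermat.Agent.Lib.Gamma0Cosets
import Fermat.Prelude.Thm_ModularForm_sturm_bound_Gamma0

/-!
# Integral `q`-series that are `q`-expansions of forms on `Γ₀(p)` (S18, helper70)

`h70_IsQExp p k P` : the integral power series `P` is the `q`-expansion of a modular form of
weight `k` on `Γ₀(p)`.  The class of such series contains `E₄`, `Δ(q)`, `Δ(q^p)`, is closed under
sums, differences, products, and satisfies the Sturm bound (`h70_IsQExp.eq_zero`, `p` prime):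
a series in it whose coefficients `0, …, ⌊k (p + 1) / 12⌋` vanish is zero.
-/

set_option autoImplicit false

open UpperHalfPlane ModularForm CongruenceSubgroup Matrix
open scoped MatrixGroups ModularForm

namespace Fermat.Agent.S18

open Fermat.Agent.S16

noncomputable section

/-- A level-one form, viewed as a form on `Γ₀(p)`. -/
def h70_res (p : ℕ) {k : ℤ} (g : ModularForm 𝒮ℒ k) : ModularForm (Gamma0 p) k where
  toFun := g
  slash_action_eq' γ hγ := g.slash_action_eq' γ (Subgroup.map_le_range _ _ hγ)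
  holo' := g.holo'
  bdd_at_cusps' hc := g.bdd_at_cusps' (hc.mono (Subgroup.map_le_range _ _))

theorem h70_res_qExpansion (p : ℕ) {k : ℤ} (g : ModularForm 𝒮ℒ k) :
    qExpansion 1 (h70_res p g) = qExpansion 1 g := rfl

section V

variable {p : ℕ} [NeZero p] {k : ℤ}

/-- The slash translate `H ∣[k] diag(p, 1)`, as a modular form of level `Γ₀(p)`. -/
def h70_VAux (p : ℕ) [NeZero p] {k : ℤ} (H : ModularForm 𝒮ℒ k) : ModularForm (Gamma0 p) k where
  toFun := ⇑H ∣[k] heckeDiagMatrix p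
  slash_action_eq' γ hγ :=
    (ModularForm.translate H (heckeDiagMatrix p)).slash_action_eq' γ
      (Fermat.Agent.S23.Gamma0_le_conj p hγ)
  holo' := (ModularForm.translate H (heckeDiagMatrix p)).holo'
  bdd_at_cusps' hc :=
    (ModularForm.translate H (heckeDiagMatrix p)).bdd_at_cusps'
      (hc.mono (Fermat.Agent.S23.Gamma0_le_conj p))

/-- The form `z ↦ H(p z)` of weight `k` and level `Γ₀(p)`. -/
def h70_V (p : ℕ) [NeZero p] {k : ℤ} (H : ModularForm 𝒮ℒ k) : ModularForm (Gamma0 p) k :=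
  (((p : ℂ) ^ (k - 1))⁻¹ : ℂ) • h70_VAux p H

theorem h70_V_apply (H : ModularForm 𝒮ℒ k) (z : ℍ) :
    h70_V p H z = H (heckeDiagMatrix p • z) := by
  have hp : p ≠ 0 := NeZero.ne p
  have hp' : (p : ℂ) ≠ 0 := by exact_mod_cast hp
  show ((p : ℂ) ^ (k - 1))⁻¹ • (⇑H ∣[k] heckeDiagMatrix p) z = _
  rw [slash_heckeDiagMatrix_apply k hp, smul_eq_mul, ← mul_assoc,
    inv_mul_cancel₀ (zpow_ne_zero _ hp'), one_mul]

theorem h70_V_hasSum (H : ModularForm 𝒮ℒ k) (τ : ℍ) :
    HasSum (fun n : ℕ => (PowerSeries.expand p (NeZero.ne p) (qExpansion 1 H)).coeff n •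
      Function.Periodic.qParam 1 (τ : ℂ) ^ n) (h70_V p H τ) := by
  have hp : p ≠ 0 := NeZero.ne p
  have h := ModularForm.hasSum_qExpansion H one_pos one_mem_strictPeriods_SL
    (heckeDiagMatrix p • τ)
  rw [Fermat.Agent.S23.qParam_heckeDiagMatrix_smul, ← h70_V_apply] at h
  have hinj : Function.Injective (fun m : ℕ => p * m) :=
    fun a b hab => Nat.eq_of_mul_eq_mul_left (Nat.pos_of_ne_zero hp) hab
  rw [← hinj.hasSum_iff]
  · convert h using 1
    funext m
    simp only [Function.comp_apply, smul_eq_mul, PowerSeries.coeff_expand_mul, pow_mul]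
  · intro n hn
    have hnd : ¬ p ∣ n := fun ⟨m, hm⟩ => hn ⟨m, hm.symm⟩
    simp [PowerSeries.coeff_expand, hnd]

theorem h70_V_qExpansion (H : ModularForm 𝒮ℒ k) :
    qExpansion 1 (h70_V p H) = PowerSeries.expand p (NeZero.ne p) (qExpansion 1 H) := by
  ext n
  exact (ModularFormClass.qExpansion_coeff_unique one_pos
    (CongruenceSubgroup.one_mem_strictPeriods_Gamma0 p) (h70_V_hasSum H) n).symm

end V

/-- `P` is the `q`-expansion of a modular form of weight `k` on `Γ₀(p)`. -/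
def h70_IsQExp (p : ℕ) (k : ℤ) (P : PowerSeries ℤ) : Prop :=
  ∃ F : ModularForm (Gamma0 p) k, qExpansion 1 F = P.map (Int.castRingHom ℂ)

section closure

variable {p : ℕ}

theorem h70_IsQExp.of_levelOne (p : ℕ) {k : ℤ} {P : PowerSeries ℤ} (g : ModularForm 𝒮ℒ k)
    (hg : qExpansion 1 g = P.map (Int.castRingHom ℂ)) : h70_IsQExp p k P :=
  ⟨h70_res p g, hg⟩

theorem h70_IsQExp.of_levelOne_expand (p : ℕ) [NeZero p] {k : ℤ} {P : PowerSeries ℤ}
    (g : ModularForm 𝒮ℒ k) (hg : qExpansion 1 g = P.map (Int.castRingHom ℂ)) :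
    h70_IsQExp p k (PowerSeries.expand p (NeZero.ne p) P) :=
  ⟨h70_V p g, by rw [h70_V_qExpansion, hg, PowerSeries.map_expand]⟩

theorem h70_IsQExp.weight {k k' : ℤ} {P : PowerSeries ℤ} (h : h70_IsQExp p k P) (hk : k = k') :
    h70_IsQExp p k' P := hk ▸ h

theorem h70_IsQExp.congr {k : ℤ} {P Q : PowerSeries ℤ} (h : h70_IsQExp p k P) (hPQ : P = Q) :
    h70_IsQExp p k Q := hPQ ▸ h

theorem h70_IsQExp.add {k : ℤ} {P Q : PowerSeries ℤ} (hP : h70_IsQExp p k P)
    (hQ : h70_IsQExp p k Q) : h70_IsQExp p k (P + Q) := by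
  obtain ⟨F, hF⟩ := hP
  obtain ⟨G, hG⟩ := hQ
  exact ⟨F + G, by
    rw [FunLike.coe_add,
      ModularForm.qExpansion_add one_pos (CongruenceSubgroup.one_mem_strictPeriods_Gamma0 p),
      hF, hG, map_add]⟩

theorem h70_IsQExp.sub {k : ℤ} {P Q : PowerSeries ℤ} (hP : h70_IsQExp p k P)
    (hQ : h70_IsQExp p k Q) : h70_IsQExp p k (P - Q) := by
  obtain ⟨F, hF⟩ := hP
  obtain ⟨G, hG⟩ := hQ
  exact ⟨F - G, by
    rw [FunLike.coe_sub,
      ModularForm.qExpansion_sub one_pos (CongruenceSubgroup.one_mem_strictPeriods_Gamma0 p),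
      hF, hG, map_sub]⟩

theorem h70_IsQExp.const_mul {k : ℤ} {P : PowerSeries ℤ} (c : ℤ) (hP : h70_IsQExp p k P) :
    h70_IsQExp p k (PowerSeries.C c * P) := by
  obtain ⟨F, hF⟩ := hP
  refine ⟨(c : ℂ) • F, ?_⟩
  rw [FunLike.coe_smul,
    ModularForm.qExpansion_smul one_pos (CongruenceSubgroup.one_mem_strictPeriods_Gamma0 p),
    hF, map_mul, PowerSeries.map_C, PowerSeries.smul_eq_C_mul]
  rfl

variable [NeZero p]

theorem h70_IsQExp.mul {k₁ k₂ : ℤ} {P Q : PowerSeries ℤ} (hP : h70_IsQExp p k₁ P)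
    (hQ : h70_IsQExp p k₂ Q) : h70_IsQExp p (k₁ + k₂) (P * Q) := by
  obtain ⟨F, hF⟩ := hP
  obtain ⟨G, hG⟩ := hQ
  exact ⟨F.mul G, by
    rw [ModularForm.qExpansion_mul one_pos (CongruenceSubgroup.one_mem_strictPeriods_Gamma0 p),
      hF, hG, map_mul]⟩

end closure

/-- The integral series `E₄ = 1 + 240 ∑ σ₃(n) qⁿ`. -/
def h70_E4 : PowerSeries ℤ := 1 + 240 * sturmA

/-- `E₄ = 1 + 240 ∑ σ₃(n) qⁿ`. -/
theorem h70_IsQExp_E4 (p : ℕ) : h70_IsQExp p 4 h70_E4 :=
  h70_IsQExp.of_levelOne p E₄ sturm_E4_qExpansion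

/-- `E₄(q^p)`. -/
theorem h70_IsQExp_E4_expand (p : ℕ) [NeZero p] :
    h70_IsQExp p 4 (PowerSeries.expand p (NeZero.ne p) h70_E4) :=
  h70_IsQExp.of_levelOne_expand p E₄ sturm_E4_qExpansion

/-- `Δ(q)`. -/
theorem h70_IsQExp_Delta (p : ℕ) : h70_IsQExp p 12 sturmDelta :=
  h70_IsQExp.of_levelOne p (CuspForm.discriminant : ModularForm 𝒮ℒ 12) sturm_delta_qExpansion

/-- `Δ(q^p)`. -/
theorem h70_IsQExp_Delta_expand (p : ℕ) [NeZero p] :
    h70_IsQExp p 12 (PowerSeries.expand p (NeZero.ne p) sturmDelta) :=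
  h70_IsQExp.of_levelOne_expand p (CuspForm.discriminant : ModularForm 𝒮ℒ 12)
    sturm_delta_qExpansion

/-- The index of `Γ₀(p)` in `SL(2, ℤ)` is `p + 1` for a prime `p`. -/
theorem h70_index_Gamma0_prime (p : ℕ) (hp : p.Prime) : (Gamma0 p).index = p + 1 := by
  have : NeZero p := ⟨hp.ne_zero⟩
  have h1 : (Gamma0 p).index = Nat.card (SL(2, ℤ) ⧸ Gamma0 p) := rfl
  rw [h1, Fermat.Agent.Lib.card_quotient_Gamma0 p]
  have h2 := Fermat.Agent.Lib.G0C.dedekindPsi_prime_pow hp (e := 1) one_pos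
  simpa using h2

/-- **Sturm bound** for integral `q`-expansions of forms on `Γ₀(p)`, `p` prime. -/
theorem h70_IsQExp.eq_zero {p : ℕ} (hp : p.Prime) {k : ℤ} {P : PowerSeries ℤ}
    (h : h70_IsQExp p k P) (B : ℕ) (hB : (k * ((p : ℤ) + 1)).toNat / 12 < B)
    (h0 : ∀ n, n < B → PowerSeries.coeff n P = 0) : P = 0 := by
  have : NeZero p := ⟨hp.ne_zero⟩
  obtain ⟨F, hF⟩ := h
  have hF0 : F = 0 := by
    apply ModularForm.sturm_bound_Gamma0 p
    intro n hn
    rw [h70_index_Gamma0_prime p hp] at hn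
    have hn' : n < B := lt_of_le_of_lt (by simpa using hn) hB
    rw [hF, PowerSeries.coeff_map, h0 n hn', map_zero]
  have h1 : P.map (Int.castRingHom ℂ) = 0 := by
    rw [← hF, hF0, FunLike.coe_zero, qExpansion_zero]
  ext n
  have h2 := congrArg (PowerSeries.coeff n) h1
  simpa using h2

end

end Fermat.Agent.S18
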