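import Mathlib

/-!
# Truncated integral power series arithmetic on coefficient lists (S18, helper70)

`h70_Rep n f l` says that the list `l` carries the first `n` coefficients of `f : ℤ⟦X⟧`.
The list operations `h70_lmul`, `h70_ladd`, `h70_lsub`, `h70_lexpand` are computable, so that
identities between explicit lists are checked by kernel evaluation (`decide +kernel`).
-/

set_option autoImplicit false

namespace Fermat.Agent.S18

/-- `l` carries the first `n` coefficients of `f`. -/
def h70_Rep (n : ℕ) (f : PowerSeries ℤ) (l : List ℤ) : Prop :=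
  ∀ i, i < n → PowerSeries.coeff i f = l.getD i 0

/-- The `i`-th coefficient of the product of two coefficient lists. -/
def h70_lmulCoeff (a b : List ℤ) (i : ℕ) : ℤ :=
  ((List.range (i + 1)).map fun j => a.getD j 0 * b.getD (i - j) 0).sum

/-- Truncated product of coefficient lists. -/
def h70_lmul (n : ℕ) (a b : List ℤ) : List ℤ := (List.range n).map (h70_lmulCoeff a b)

/-- Truncated sum of coefficient lists. -/
def h70_ladd (n : ℕ) (a b : List ℤ) : List ℤ :=
  (List.range n).map fun i => a.getD i 0 + b.getD i 0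

/-- Truncated difference of coefficient lists. -/
def h70_lsub (n : ℕ) (a b : List ℤ) : List ℤ :=
  (List.range n).map fun i => a.getD i 0 - b.getD i 0

/-- Truncated substitution `q ↦ q^p` on coefficient lists. -/
def h70_lexpand (n p : ℕ) (a : List ℤ) : List ℤ :=
  (List.range n).map fun i => if p ∣ i then a.getD (i / p) 0 else 0

theorem h70_getD_map_range (n : ℕ) (F : ℕ → ℤ) (i : ℕ) (hi : i < n) :
    ((List.range n).map F).getD i 0 = F i := by
  simp [List.getD_eq_getElem?_getD, hi]

theorem h70_list_sum_range (m : ℕ) (g : ℕ → ℤ) :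
    ((List.range m).map g).sum = ∑ j ∈ Finset.range m, g j := rfl

theorem h70_Rep.of_eq {n : ℕ} {f : PowerSeries ℤ} {a b : List ℤ} (h : h70_Rep n f a)
    (hab : a = b) : h70_Rep n f b := hab ▸ h

theorem h70_Rep.congr {n : ℕ} {f g : PowerSeries ℤ} {a : List ℤ} (h : h70_Rep n f a)
    (hfg : f = g) : h70_Rep n g a := hfg ▸ h

theorem h70_Rep.mono {n m : ℕ} {f : PowerSeries ℤ} {a : List ℤ} (h : h70_Rep n f a)
    (hmn : m ≤ n) : h70_Rep m f a := fun i hi => h i (lt_of_lt_of_le hi hmn)

theorem h70_Rep.mul {n : ℕ} {f g : PowerSeries ℤ} {a b : List ℤ} (hf : h70_Rep n f a)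
    (hg : h70_Rep n g b) : h70_Rep n (f * g) (h70_lmul n a b) := by
  intro i hi
  rw [h70_lmul, h70_getD_map_range n _ i hi, h70_lmulCoeff, PowerSeries.coeff_mul,
    Finset.Nat.sum_antidiagonal_eq_sum_range_succ_mk, h70_list_sum_range]
  refine Finset.sum_congr rfl fun j hj => ?_
  have hj' : j < i + 1 := Finset.mem_range.mp hj
  rw [hf j (by omega), hg (i - j) (by omega)]

theorem h70_Rep.add {n : ℕ} {f g : PowerSeries ℤ} {a b : List ℤ} (hf : h70_Rep n f a)
    (hg : h70_Rep n g b) : h70_Rep n (f + g) (h70_ladd n a b) := by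
  intro i hi
  rw [h70_ladd, h70_getD_map_range n _ i hi, map_add, hf i hi, hg i hi]

theorem h70_Rep.sub {n : ℕ} {f g : PowerSeries ℤ} {a b : List ℤ} (hf : h70_Rep n f a)
    (hg : h70_Rep n g b) : h70_Rep n (f - g) (h70_lsub n a b) := by
  intro i hi
  rw [h70_lsub, h70_getD_map_range n _ i hi, map_sub, hf i hi, hg i hi]

theorem h70_Rep.expand {n : ℕ} {f : PowerSeries ℤ} {a : List ℤ} (hf : h70_Rep n f a)
    (p : ℕ) (hp : p ≠ 0) : h70_Rep n (PowerSeries.expand p hp f) (h70_lexpand n p a) := by
  intro i hi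
  rw [h70_lexpand, h70_getD_map_range n _ i hi, PowerSeries.coeff_expand]
  split_ifs with h
  · exact hf _ (lt_of_le_of_lt (Nat.div_le_self i p) hi)
  · rfl

/-- A constant series. -/
theorem h70_Rep.const (n : ℕ) (c : ℤ) : h70_Rep n (PowerSeries.C c) [c] := by
  intro i _
  rw [PowerSeries.coeff_C]
  rcases i with _ | i
  · simp
  · simp

/-- The series `1`. -/
theorem h70_Rep.one (n : ℕ) : h70_Rep n 1 [1] := by
  have h := h70_Rep.const n 1
  rwa [map_one] at h

/-- A numeral. -/
theorem h70_Rep.ofNat (n c : ℕ) [c.AtLeastTwo] :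
    h70_Rep n (OfNat.ofNat c : PowerSeries ℤ) [(OfNat.ofNat c : ℤ)] := by
  have h := h70_Rep.const n (OfNat.ofNat c : ℤ)
  rwa [map_ofNat] at h

/-- The series `mk F`, with its coefficients tabulated. -/
theorem h70_Rep.mk (n : ℕ) (F : ℕ → ℤ) : h70_Rep n (PowerSeries.mk F) ((List.range n).map F) := by
  intro i hi
  rw [PowerSeries.coeff_mk, h70_getD_map_range n _ i hi]

/-- A series all of whose first `n` coefficients vanish. -/
theorem h70_Rep.coeff_eq_zero {n : ℕ} {f : PowerSeries ℤ} (hf : h70_Rep n f (List.replicate n 0))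
    (i : ℕ) (hi : i < n) : PowerSeries.coeff i f = 0 := by
  rw [hf i hi, List.getD_eq_getElem?_getD, List.getElem?_replicate]
  simp [hi]

end Fermat.Agent.S18
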