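import Mathlib
import Fermat.Agent.S18.TruncCalc70
import Fermat.Agent.S18.HauptForms70

/-!
# The first 17 coefficients of `E₄`, `E₄³`, `Δ`, `E₄(q²)³`, `E₄(q³)³` (S18, helper70)

Machine-generated tables, each step checked by kernel evaluation (`decide +kernel`).
-/

set_option autoImplicit false

namespace Fermat.Agent.S18

open Fermat.Agent.S16

theorem h70_repA : h70_Rep 17 (sturmA) [0, 1, 9, 28, 73, 126, 252, 344, 585, 757, 1134, 1332, 2044, 2198, 3096, 3528, 4681] :=
  (h70_Rep.mk _ _).of_eq (by decide +kernel)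

theorem h70_repB : h70_Rep 17 (sturmB) [0, 1, 33, 244, 1057, 3126, 8052, 16808, 33825, 59293, 103158, 161052, 257908, 371294, 554664, 762744, 1082401] :=
  (h70_Rep.mk _ _).of_eq (by decide +kernel)

theorem h70_repDd : h70_Rep 17 (sturmD) [0, 0, -2, -18, -82, -250, -650, -1372, -2770, -4878, -8502, -13310, -21322, -30758, -45964, -63268, -89810] :=
  (h70_Rep.mk _ _).of_eq (by decide +kernel)

theorem h70_repA2 : h70_Rep 17 ((sturmA) * (sturmA)) [0, 0, 1, 18, 137, 650, 2350, 6860, 17609, 39870, 83976, 162382, 301070, 522886, 885284, 1424468, 2254537] :=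
  (h70_repA.mul h70_repA).of_eq (by decide +kernel)

theorem h70_repA3 : h70_Rep 17 (((sturmA) * (sturmA)) * (sturmA)) [0, 0, 0, 1, 27, 327, 2460, 13476, 58731, 214741, 685182, 1954953, 5095048, 12285903, 27778566, 59311440, 120695979] :=
  (h70_repA2.mul h70_repA).of_eq (by decide +kernel)

theorem h70_repB2 : h70_Rep 17 ((sturmB) * (sturmB)) [0, 0, 1, 66, 1577, 18218, 135550, 738236, 3207785, 11714718, 37347144, 106499470, 277489886, 668981686, 1512360404, 3228797252, 6570019945] :=
  (h70_repB.mul h70_repB).of_eq (by decide +kernel)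

theorem h70_rep100A2 : h70_Rep 17 ((100) * ((sturmA) * (sturmA))) [0, 0, 100, 1800, 13700, 65000, 235000, 686000, 1760900, 3987000, 8397600, 16238200, 30107000, 52288600, 88528400, 142446800, 225453700] :=
  ((h70_Rep.ofNat 17 100).mul h70_repA2).of_eq (by decide +kernel)

theorem h70_rep8000A3 : h70_Rep 17 ((8000) * (((sturmA) * (sturmA)) * (sturmA))) [0, 0, 0, 8000, 216000, 2616000, 19680000, 107808000, 469848000, 1717928000, 5481456000, 15639624000, 40760384000, 98287224000, 222228528000, 474491520000, 965567832000] :=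
  ((h70_Rep.ofNat 17 8000).mul h70_repA3).of_eq (by decide +kernel)

theorem h70_rep147B2 : h70_Rep 17 ((147) * ((sturmB) * (sturmB))) [0, 0, 147, 9702, 231819, 2678046, 19925850, 108520692, 471544395, 1722063546, 5490030168, 15655422090, 40791013242, 98340307842, 222316979388, 474633196044, 965792931915] :=
  ((h70_Rep.ofNat 17 147).mul h70_repB2).of_eq (by decide +kernel)

theorem h70_rep5Dd : h70_Rep 17 ((5) * (sturmD)) [0, 0, -10, -90, -410, -1250, -3250, -6860, -13850, -24390, -42510, -66550, -106610, -153790, -229820, -316340, -449050] :=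
  ((h70_Rep.ofNat 17 5).mul h70_repDd).of_eq (by decide +kernel)

theorem h70_repS1 : h70_Rep 17 ((sturmB) + ((100) * ((sturmA) * (sturmA)))) [0, 1, 133, 2044, 14757, 68126, 243052, 702808, 1794725, 4046293, 8500758, 16399252, 30364908, 52659894, 89083064, 143209544, 226536101] :=
  (h70_repB.add h70_rep100A2).of_eq (by decide +kernel)

theorem h70_repS2 : h70_Rep 17 (((sturmB) + ((100) * ((sturmA) * (sturmA)))) + ((8000) * (((sturmA) * (sturmA)) * (sturmA)))) [0, 1, 133, 10044, 230757, 2684126, 19923052, 108510808, 471642725, 1721974293, 5489956758, 15656023252, 40790748908, 98339883894, 222317611064, 474634729544, 965794368101] :=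
  (h70_repS1.add h70_rep8000A3).of_eq (by decide +kernel)

theorem h70_repS3 : h70_Rep 17 ((((sturmB) + ((100) * ((sturmA) * (sturmA)))) + ((8000) * (((sturmA) * (sturmA)) * (sturmA)))) - ((147) * ((sturmB) * (sturmB)))) [0, 1, -14, 342, -1062, 6080, -2798, -9884, 98330, -89253, -73410, 601162, -264334, -423948, 631676, 1533500, 1436186] :=
  (h70_repS2.sub h70_rep147B2).of_eq (by decide +kernel)

theorem h70_repS4 : h70_Rep 17 (((((sturmB) + ((100) * ((sturmA) * (sturmA)))) + ((8000) * (((sturmA) * (sturmA)) * (sturmA)))) - ((147) * ((sturmB) * (sturmB)))) + ((5) * (sturmD))) [0, 1, -24, 252, -1472, 4830, -6048, -16744, 84480, -113643, -115920, 534612, -370944, -577738, 401856, 1217160, 987136] :=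
  (h70_repS3.add h70_rep5Dd).of_eq (by decide +kernel)

theorem h70_repDelta : h70_Rep 17 (sturmDelta) [0, 1, -24, 252, -1472, 4830, -6048, -16744, 84480, -113643, -115920, 534612, -370944, -577738, 401856, 1217160, 987136] :=
  h70_repS4.congr (by unfold sturmDelta; ring)

theorem h70_rep240A : h70_Rep 17 ((240) * (sturmA)) [0, 240, 2160, 6720, 17520, 30240, 60480, 82560, 140400, 181680, 272160, 319680, 490560, 527520, 743040, 846720, 1123440] :=
  ((h70_Rep.ofNat 17 240).mul h70_repA).of_eq (by decide +kernel)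

theorem h70_repE4raw : h70_Rep 17 ((1) + ((240) * (sturmA))) [1, 240, 2160, 6720, 17520, 30240, 60480, 82560, 140400, 181680, 272160, 319680, 490560, 527520, 743040, 846720, 1123440] :=
  ((h70_Rep.one 17).add h70_rep240A).of_eq (by decide +kernel)

theorem h70_repE4 : h70_Rep 17 (h70_E4) [1, 240, 2160, 6720, 17520, 30240, 60480, 82560, 140400, 181680, 272160, 319680, 490560, 527520, 743040, 846720, 1123440] :=
  h70_repE4raw.congr (by unfold h70_E4; ring)

theorem h70_repE4sq : h70_Rep 17 ((h70_E4) * (h70_E4)) [1, 480, 61920, 1050240, 7926240, 37500480, 135480960, 395301120, 1014559200, 2296875360, 4837561920, 9353842560, 17342613120, 30119288640, 50993844480, 82051050240, 129863578080] :=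
  (h70_repE4.mul h70_repE4).of_eq (by decide +kernel)

theorem h70_repE4cu : h70_Rep 17 (((h70_E4) * (h70_E4)) * (h70_E4)) [1, 720, 179280, 16954560, 396974160, 4632858720, 34413301440, 187477879680, 814940600400, 2975469665040, 9486467837280, 27053330840640, 70485969919680, 169930679355360, 384163875688320, 820167497170560, 1668890801059920] :=
  (h70_repE4sq.mul h70_repE4).of_eq (by decide +kernel)

theorem h70_repE4x2 : h70_Rep 17 (PowerSeries.expand 2 two_ne_zero (h70_E4)) [1, 0, 240, 0, 2160, 0, 6720, 0, 17520, 0, 30240, 0, 60480, 0, 82560, 0, 140400] :=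
  (h70_repE4.expand 2 two_ne_zero).of_eq (by decide +kernel)

theorem h70_repE4x2sq : h70_Rep 17 ((PowerSeries.expand 2 two_ne_zero (h70_E4)) * (PowerSeries.expand 2 two_ne_zero (h70_E4))) [1, 0, 480, 0, 61920, 0, 1050240, 0, 7926240, 0, 37500480, 0, 135480960, 0, 395301120, 0, 1014559200] :=
  (h70_repE4x2.mul h70_repE4x2).of_eq (by decide +kernel)

theorem h70_repE4x2cu : h70_Rep 17 (((PowerSeries.expand 2 two_ne_zero (h70_E4)) * (PowerSeries.expand 2 two_ne_zero (h70_E4))) * (PowerSeries.expand 2 two_ne_zero (h70_E4))) [1, 0, 720, 0, 179280, 0, 16954560, 0, 396974160, 0, 4632858720, 0, 34413301440, 0, 187477879680, 0, 814940600400] :=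
  (h70_repE4x2sq.mul h70_repE4x2).of_eq (by decide +kernel)

theorem h70_repE4x3 : h70_Rep 17 (PowerSeries.expand 3 three_ne_zero (h70_E4)) [1, 0, 0, 240, 0, 0, 2160, 0, 0, 6720, 0, 0, 17520, 0, 0, 30240, 0] :=
  (h70_repE4.expand 3 three_ne_zero).of_eq (by decide +kernel)

theorem h70_repE4x3sq : h70_Rep 17 ((PowerSeries.expand 3 three_ne_zero (h70_E4)) * (PowerSeries.expand 3 three_ne_zero (h70_E4))) [1, 0, 0, 480, 0, 0, 61920, 0, 0, 1050240, 0, 0, 7926240, 0, 0, 37500480, 0] :=
  (h70_repE4x3.mul h70_repE4x3).of_eq (by decide +kernel)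

theorem h70_repE4x3cu : h70_Rep 17 (((PowerSeries.expand 3 three_ne_zero (h70_E4)) * (PowerSeries.expand 3 three_ne_zero (h70_E4))) * (PowerSeries.expand 3 three_ne_zero (h70_E4))) [1, 0, 0, 720, 0, 0, 179280, 0, 0, 16954560, 0, 0, 396974160, 0, 0, 4632858720, 0] :=
  (h70_repE4x3sq.mul h70_repE4x3).of_eq (by decide +kernel)

end Fermat.Agent.S18
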