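import Mathlib
import Fermat.Agent.S18.HauptCoeffs70

/-!
# The level 2 Hauptmodul identities, integral power series form (S18 row B1, helper70)

With `E₄ = h70_E4 = 1 + 240 ∑ σ₃(n) qⁿ` and `Δ = sturmDelta` in `ℤ⟦q⟧`:

* `h70_level2_identity`        : `E₄(q)³ · Δ(q) · Δ(q²) = (Δ(q) + 256 Δ(q²))³`;
* `h70_level2_identity_fricke` : `E₄(q²)³ · Δ(q) · Δ(q²) = (Δ(q) + 16 Δ(q²))³`.

Both are proved by the Sturm bound in `M₃₆(Γ₀(2))` (coefficients `0, …, 9`); the coefficient
tables are machine generated and checked by kernel evaluation.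
-/

set_option autoImplicit false

namespace Fermat.Agent.S18

open Fermat.Agent.S16

theorem h70_l2_D : h70_Rep 10 (sturmDelta) [0, 1, -24, 252, -1472, 4830, -6048, -16744, 84480, -113643, -115920, 534612, -370944, -577738, 401856, 1217160, 987136] :=
  h70_repDelta.mono (by norm_num)

theorem h70_l2_E : h70_Rep 10 (((h70_E4) * (h70_E4)) * (h70_E4)) [1, 720, 179280, 16954560, 396974160, 4632858720, 34413301440, 187477879680, 814940600400, 2975469665040, 9486467837280, 27053330840640, 70485969919680, 169930679355360, 384163875688320, 820167497170560, 1668890801059920] :=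
  h70_repE4cu.mono (by norm_num)

theorem h70_l2_E2 : h70_Rep 10 (((PowerSeries.expand 2 two_ne_zero (h70_E4)) * (PowerSeries.expand 2 two_ne_zero (h70_E4))) * (PowerSeries.expand 2 two_ne_zero (h70_E4))) [1, 0, 720, 0, 179280, 0, 16954560, 0, 396974160, 0, 4632858720, 0, 34413301440, 0, 187477879680, 0, 814940600400] :=
  h70_repE4x2cu.mono (by norm_num)

theorem h70_l2_D2 : h70_Rep 10 (PowerSeries.expand 2 two_ne_zero (sturmDelta)) [0, 0, 1, 0, -24, 0, 252, 0, -1472, 0] :=
  (h70_l2_D.expand 2 two_ne_zero).of_eq (by decide +kernel)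

theorem h70_l2_DD2 : h70_Rep 10 ((sturmDelta) * (PowerSeries.expand 2 two_ne_zero (sturmDelta))) [0, 0, 0, 1, -24, 228, -896, -966, 23232, -70632] :=
  (h70_l2_D.mul h70_l2_D2).of_eq (by decide +kernel)

theorem h70_l2_L : h70_Rep 10 ((((h70_E4) * (h70_E4)) * (h70_E4)) * ((sturmDelta) * (PowerSeries.expand 2 two_ne_zero (sturmDelta)))) [0, 0, 0, 1, 696, 162228, 12815104, 30294474, -1190188608, -1613013192] :=
  (h70_l2_E.mul h70_l2_DD2).of_eq (by decide +kernel)

theorem h70_l2_256D2 : h70_Rep 10 ((256) * (PowerSeries.expand 2 two_ne_zero (sturmDelta))) [0, 0, 256, 0, -6144, 0, 64512, 0, -376832, 0] :=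
  ((h70_Rep.ofNat 10 256).mul h70_l2_D2).of_eq (by decide +kernel)

theorem h70_l2_S : h70_Rep 10 ((sturmDelta) + ((256) * (PowerSeries.expand 2 two_ne_zero (sturmDelta)))) [0, 1, 232, 252, -7616, 4830, 58464, -16744, -292352, -113643] :=
  (h70_l2_D.add h70_l2_256D2).of_eq (by decide +kernel)

theorem h70_l2_S2 : h70_Rep 10 (((sturmDelta) + ((256) * (PowerSeries.expand 2 two_ne_zero (sturmDelta)))) * ((sturmDelta) + ((256) * (PowerSeries.expand 2 two_ne_zero (sturmDelta))))) [0, 0, 1, 464, 54328, 101696, -3460660, -1480416, 87531584, -52458624] :=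
  (h70_l2_S.mul h70_l2_S).of_eq (by decide +kernel)

theorem h70_l2_S3 : h70_Rep 10 ((((sturmDelta) + ((256) * (PowerSeries.expand 2 two_ne_zero (sturmDelta)))) * ((sturmDelta) + ((256) * (PowerSeries.expand 2 two_ne_zero (sturmDelta))))) * ((sturmDelta) + ((256) * (PowerSeries.expand 2 two_ne_zero (sturmDelta))))) [0, 0, 0, 1, 696, 162228, 12815104, 30294474, -1190188608, -1613013192] :=
  (h70_l2_S2.mul h70_l2_S).of_eq (by decide +kernel)

theorem h70_l2_P : h70_Rep 10 (((((h70_E4) * (h70_E4)) * (h70_E4)) * ((sturmDelta) * (PowerSeries.expand 2 two_ne_zero (sturmDelta)))) - ((((sturmDelta) + ((256) * (PowerSeries.expand 2 two_ne_zero (sturmDelta)))) * ((sturmDelta) + ((256) * (PowerSeries.expand 2 two_ne_zero (sturmDelta))))) * ((sturmDelta) + ((256) * (PowerSeries.expand 2 two_ne_zero (sturmDelta)))))) [0, 0, 0, 0, 0, 0, 0, 0, 0, 0] :=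
  (h70_l2_L.sub h70_l2_S3).of_eq (by decide +kernel)

theorem h70_l2_FL : h70_Rep 10 ((((PowerSeries.expand 2 two_ne_zero (h70_E4)) * (PowerSeries.expand 2 two_ne_zero (h70_E4))) * (PowerSeries.expand 2 two_ne_zero (h70_E4))) * ((sturmDelta) * (PowerSeries.expand 2 two_ne_zero (sturmDelta)))) [0, 0, 0, 1, -24, 948, -18176, 342474, -4924608, 57064248] :=
  (h70_l2_E2.mul h70_l2_DD2).of_eq (by decide +kernel)

theorem h70_l2_16D2 : h70_Rep 10 ((16) * (PowerSeries.expand 2 two_ne_zero (sturmDelta))) [0, 0, 16, 0, -384, 0, 4032, 0, -23552, 0] :=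
  ((h70_Rep.ofNat 10 16).mul h70_l2_D2).of_eq (by decide +kernel)

theorem h70_l2_FS : h70_Rep 10 ((sturmDelta) + ((16) * (PowerSeries.expand 2 two_ne_zero (sturmDelta)))) [0, 1, -8, 252, -1856, 4830, -2016, -16744, 60928, -113643] :=
  (h70_l2_D.add h70_l2_16D2).of_eq (by decide +kernel)

theorem h70_l2_FS2 : h70_Rep 10 (((sturmDelta) + ((16) * (PowerSeries.expand 2 two_ne_zero (sturmDelta)))) * ((sturmDelta) + ((16) * (PowerSeries.expand 2 two_ne_zero (sturmDelta))))) [0, 0, 1, -16, 568, -7744, 102860, -1016736, 5877824, -18555264] :=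
  (h70_l2_FS.mul h70_l2_FS).of_eq (by decide +kernel)

theorem h70_l2_FS3 : h70_Rep 10 ((((sturmDelta) + ((16) * (PowerSeries.expand 2 two_ne_zero (sturmDelta)))) * ((sturmDelta) + ((16) * (PowerSeries.expand 2 two_ne_zero (sturmDelta))))) * ((sturmDelta) + ((16) * (PowerSeries.expand 2 two_ne_zero (sturmDelta))))) [0, 0, 0, 1, -24, 948, -18176, 342474, -4924608, 57064248] :=
  (h70_l2_FS2.mul h70_l2_FS).of_eq (by decide +kernel)

theorem h70_l2_FP : h70_Rep 10 (((((PowerSeries.expand 2 two_ne_zero (h70_E4)) * (PowerSeries.expand 2 two_ne_zero (h70_E4))) * (PowerSeries.expand 2 two_ne_zero (h70_E4))) * ((sturmDelta) * (PowerSeries.expand 2 two_ne_zero (sturmDelta)))) - ((((sturmDelta) + ((16) * (PowerSeries.expand 2 two_ne_zero (sturmDelta)))) * ((sturmDelta) + ((16) * (PowerSeries.expand 2 two_ne_zero (sturmDelta))))) * ((sturmDelta) + ((16) * (PowerSeries.expand 2 two_ne_zero (sturmDelta)))))) [0, 0, 0, 0, 0, 0, 0, 0, 0, 0] :=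
  (h70_l2_FL.sub h70_l2_FS3).of_eq (by decide +kernel)

/-- The difference of the two sides is the `q`-expansion of a form in `M₃₆(Γ₀(2))`. -/
theorem h70_l2_isQExp : h70_IsQExp 2 36
    (((((h70_E4) * (h70_E4)) * (h70_E4)) * ((sturmDelta) * (PowerSeries.expand 2 two_ne_zero (sturmDelta)))) - ((((sturmDelta) + ((256) * (PowerSeries.expand 2 two_ne_zero (sturmDelta)))) * ((sturmDelta) + ((256) * (PowerSeries.expand 2 two_ne_zero (sturmDelta))))) * ((sturmDelta) + ((256) * (PowerSeries.expand 2 two_ne_zero (sturmDelta)))))) := by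
  have hE := h70_IsQExp_E4 2
  have hD := h70_IsQExp_Delta 2
  have hD2 : h70_IsQExp 2 12 (PowerSeries.expand 2 two_ne_zero sturmDelta) :=
    h70_IsQExp_Delta_expand 2
  have hS : h70_IsQExp 2 12 (sturmDelta + 256 * PowerSeries.expand 2 two_ne_zero sturmDelta) :=
    hD.add ((hD2.const_mul 256).congr (by rw [map_ofNat]))
  have hL := ((hE.mul hE).mul hE).mul (hD.mul hD2)
  have hR := (hS.mul hS).mul hS
  exact (hL.weight (by norm_num)).sub (hR.weight (by norm_num))

/-- **Level 2 Hauptmodul identity**, polynomial form: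
`E₄(q)³ · Δ(q) · Δ(q²) = (Δ(q) + 256 Δ(q²))³` in `ℤ⟦q⟧`. -/
theorem h70_level2_identity :
    h70_E4 ^ 3 * (sturmDelta * PowerSeries.expand 2 two_ne_zero sturmDelta) =
      (sturmDelta + 256 * PowerSeries.expand 2 two_ne_zero sturmDelta) ^ 3 := by
  have h0 := h70_l2_isQExp.eq_zero Nat.prime_two 10 (by decide)
    (fun n hn => h70_Rep.coeff_eq_zero h70_l2_P n hn)
  linear_combination h0

/-- The difference of the two sides of the Fricke companion is the `q`-expansion of a form in
`M₃₆(Γ₀(2))`. -/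
theorem h70_l2_isQExp_fricke : h70_IsQExp 2 36
    (((((PowerSeries.expand 2 two_ne_zero (h70_E4)) * (PowerSeries.expand 2 two_ne_zero (h70_E4))) * (PowerSeries.expand 2 two_ne_zero (h70_E4))) * ((sturmDelta) * (PowerSeries.expand 2 two_ne_zero (sturmDelta)))) - ((((sturmDelta) + ((16) * (PowerSeries.expand 2 two_ne_zero (sturmDelta)))) * ((sturmDelta) + ((16) * (PowerSeries.expand 2 two_ne_zero (sturmDelta))))) * ((sturmDelta) + ((16) * (PowerSeries.expand 2 two_ne_zero (sturmDelta)))))) := by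
  have hE : h70_IsQExp 2 4 (PowerSeries.expand 2 two_ne_zero h70_E4) := h70_IsQExp_E4_expand 2
  have hD := h70_IsQExp_Delta 2
  have hD2 : h70_IsQExp 2 12 (PowerSeries.expand 2 two_ne_zero sturmDelta) :=
    h70_IsQExp_Delta_expand 2
  have hS : h70_IsQExp 2 12 (sturmDelta + 16 * PowerSeries.expand 2 two_ne_zero sturmDelta) :=
    hD.add ((hD2.const_mul 16).congr (by rw [map_ofNat]))
  have hL := ((hE.mul hE).mul hE).mul (hD.mul hD2)
  have hR := (hS.mul hS).mul hS
  exact (hL.weight (by norm_num)).sub (hR.weight (by norm_num))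

/-- **Level 2 Hauptmodul identity, Fricke companion**, polynomial form:
`E₄(q²)³ · Δ(q) · Δ(q²) = (Δ(q) + 16 Δ(q²))³` in `ℤ⟦q⟧`. -/
theorem h70_level2_identity_fricke :
    PowerSeries.expand 2 two_ne_zero h70_E4 ^ 3 *
        (sturmDelta * PowerSeries.expand 2 two_ne_zero sturmDelta) =
      (sturmDelta + 16 * PowerSeries.expand 2 two_ne_zero sturmDelta) ^ 3 := by
  have h0 := h70_l2_isQExp_fricke.eq_zero Nat.prime_two 10 (by decide)
    (fun n hn => h70_Rep.coeff_eq_zero h70_l2_FP n hn)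
  linear_combination h0

end Fermat.Agent.S18
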