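import Mathlib
import Fermat.Agent.S18.Haupt2Ser70
import Fermat.Agent.S24.EtaBridge
import Fermat.Agent.S28.Defs

/-!
# The level 2 Hauptmodul `h = Δ(q)/Δ(q²)` (S18 row B1, helper70)

Formal `q`-series over an arbitrary commutative ring `R` (objects of the Prelude and of
`S28/Defs`):  `h70_h2 R = DeltaSer R * qE R 2 (DeltaInv R)`  (`= Δ(q)/Δ(q²) = q⁻¹ - 24 + ⋯`).

* `h70_j_mul_h2_sq`      : `j · h² = (h + 256)³`;
* `h70_j2_mul_h2`        : `j(q²) · h = (h + 16)³`   (Fricke companion);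
* `h70_j_sub_1728_mul_h2_sq` : `(j - 1728) · h² = (h + 64) (h - 512)²`;
* `h70_h2_mem_full`      : over `ℚ`, `h ∈ modularFunctionFieldFull 2 = ℚ(j(q), j(q²))`;
* `h70_adjoin_h2`        : `ℚ(h) = modularFunctionFieldFull 2`.

Bridges between the `S16` and the Prelude vocabularies:
`h70_sturmDelta_eq : sturmDelta = X * dedekindEtaUnit`, `h70_E4_eq : h70_E4 = eisenstein4`.
-/

set_option autoImplicit false

open UpperHalfPlane ModularForm ModularCurve

namespace Fermat.Agent.S18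

open Fermat.Agent.S16 Fermat.Agent.S24 Fermat.Agent.S28

/-! ### Bridges: `sturmDelta = X · dedekindEtaUnit`, `h70_E4 = eisenstein4` -/

/-- `∑ eₙ qⁿ = ∏ (1 - qⁿ)²⁴` on the unit disc, `eₙ` the coefficients of `dedekindEtaUnit`. -/
theorem h70_hasSum_eta24 (q : ℂ) (hq : ‖q‖ < 1) :
    HasSum (fun n : ℕ => ((PowerSeries.coeff n dedekindEtaUnit : ℤ) : ℂ) * q ^ n)
      ((∏' n : ℕ, (1 - q ^ (n + 1))) ^ 24) := by
  have hF : AnalyticAt ℂ (fun q : ℂ => ∏' n : ℕ, (1 - q ^ (n + 1))) 0 :=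
    ModularForm.differentiableOn_tprod_one_sub_pow.analyticAt aj5_ball_mem_nhds
  have h1 : aj5_ts (fun q : ℂ => (∏' n : ℕ, (1 - q ^ (n + 1))) ^ 24) =
      PowerSeries.map (Int.castRingHom ℂ) dedekindEtaUnit := by
    rw [aj5_ts_pow hF, aj5_ts_tprod, dedekindEtaUnit, map_pow]
  have h := aj5_hasSum_ts (ModularForm.differentiableOn_tprod_one_sub_pow.fun_pow 24) hq
  rw [h1] at h
  simpa [PowerSeries.coeff_map] using h

/-- `Δ(τ) = ∑ cₙ qⁿ` with `cₙ` the coefficients of `X * dedekindEtaUnit`. -/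
theorem h70_hasSum_discriminant (τ : ℍ) :
    HasSum (fun n : ℕ =>
      PowerSeries.coeff n ((PowerSeries.X * dedekindEtaUnit).map (Int.castRingHom ℂ)) •
        Function.Periodic.qParam 1 (τ : ℂ) ^ n) (CuspForm.discriminant τ) := by
  have hq : ‖Function.Periodic.qParam 1 (τ : ℂ)‖ < 1 :=
    Function.Periodic.norm_qParam_lt_one one_pos τ.im_pos
  have hΔ : CuspForm.discriminant τ = Function.Periodic.qParam 1 τ *
      (∏' n : ℕ, (1 - Function.Periodic.qParam 1 (τ : ℂ) ^ (n + 1))) ^ 24 := by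
    rw [CuspForm.coe_discriminant, ModularForm.discriminant_eq_q_prod,
      (ModularForm.multipliable_one_sub_pow hq).tprod_pow]
  rw [hΔ]
  have h1 := (h70_hasSum_eta24 _ hq).mul_left (Function.Periodic.qParam 1 (τ : ℂ))
  have h2 : HasSum (fun m : ℕ => (fun n : ℕ =>
      PowerSeries.coeff n ((PowerSeries.X * dedekindEtaUnit).map (Int.castRingHom ℂ)) •
        Function.Periodic.qParam 1 (τ : ℂ) ^ n) (m + 1))
      (Function.Periodic.qParam 1 (τ : ℂ) *
        (∏' n : ℕ, (1 - Function.Periodic.qParam 1 (τ : ℂ) ^ (n + 1))) ^ 24) := by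
    have hfun : (fun m : ℕ => (fun n : ℕ =>
        PowerSeries.coeff n ((PowerSeries.X * dedekindEtaUnit).map (Int.castRingHom ℂ)) •
          Function.Periodic.qParam 1 (τ : ℂ) ^ n) (m + 1)) =
        fun i : ℕ => Function.Periodic.qParam 1 (τ : ℂ) *
          (((PowerSeries.coeff i dedekindEtaUnit : ℤ) : ℂ) *
            Function.Periodic.qParam 1 (τ : ℂ) ^ i) := by
      funext m
      simp only [PowerSeries.coeff_map, PowerSeries.coeff_succ_X_mul, smul_eq_mul, pow_succ,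
        eq_intCast]
      ring
    rw [hfun]
    exact h1
  refine (Nat.succ_injective.hasSum_iff ?_).mp h2
  intro x hx
  have hx0 : x = 0 := by
    rcases x with _ | x
    · rfl
    · exact absurd ⟨x, rfl⟩ hx
  subst hx0
  simp

/-- The `q`-expansion of `Δ` is `q ∏ (1 - qⁿ)²⁴`, as a formal identity. -/
theorem h70_qExpansion_discriminant :
    qExpansion 1 CuspForm.discriminant =
      (PowerSeries.X * dedekindEtaUnit).map (Int.castRingHom ℂ) := by
  ext n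
  exact (ModularFormClass.qExpansion_coeff_unique one_pos one_mem_strictPeriods_SL
    (f := CuspForm.discriminant) h70_hasSum_discriminant n).symm

/-- `Δ = q ∏ (1 - qⁿ)²⁴` in `ℤ⟦q⟧`. -/
theorem h70_sturmDelta_eq : sturmDelta = PowerSeries.X * dedekindEtaUnit := by
  have h : sturmDelta.map (Int.castRingHom ℂ) =
      (PowerSeries.X * dedekindEtaUnit).map (Int.castRingHom ℂ) := by
    rw [← sturm_delta_qExpansion, h70_qExpansion_discriminant]
  ext n
  have h2 := congrArg (PowerSeries.coeff n) h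
  rw [PowerSeries.coeff_map, PowerSeries.coeff_map] at h2
  exact Int.cast_injective h2

/-- `E₄ = 1 + 240 ∑ σ₃(n) qⁿ` is the Prelude series `eisenstein4`. -/
theorem h70_E4_eq : h70_E4 = eisenstein4 := by
  have h : h70_E4.map (Int.castRingHom ℂ) = eisenstein4.map (Int.castRingHom ℂ) := by
    rw [← aj5_qExpansion_E4]
    exact sturm_E4_qExpansion.symm
  ext n
  have h2 := congrArg (PowerSeries.coeff n) h
  rw [PowerSeries.coeff_map, PowerSeries.coeff_map] at h2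
  exact Int.cast_injective h2

/-! ### Laurent series forms -/

section Laurent

/-- `q ↦ q^p` on Laurent series restricts to `PowerSeries.expand` on power series. -/
theorem h70_qE_ofPowerSeries (R : Type*) [CommRing R] (p : ℕ) (hp : p ≠ 0) (f : PowerSeries R) :
    qE R p (HahnSeries.ofPowerSeries ℤ R f) =
      HahnSeries.ofPowerSeries ℤ R (PowerSeries.expand p hp f) := by
  haveI : NeZero p := ⟨hp⟩
  have hp0 : 0 < p := Nat.pos_of_ne_zero hp
  rw [qE_of_neZero]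
  ext k
  by_cases hk : (p : ℤ) ∣ k
  · obtain ⟨m, rfl⟩ := hk
    rw [qExpand_coeff_mul]
    rcases lt_or_ge m 0 with hm | hm
    · have hpm : (p : ℤ) * m < 0 := mul_neg_of_pos_of_neg (by exact_mod_cast hp0) hm
      rw [ofPowerSeries_coeff_of_neg _ hm, ofPowerSeries_coeff_of_neg _ hpm]
    · lift m to ℕ using hm
      rw [show (p : ℤ) * (m : ℤ) = ((p * m : ℕ) : ℤ) by push_cast; ring,
        HahnSeries.ofPowerSeries_apply_coeff, HahnSeries.ofPowerSeries_apply_coeff,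
        PowerSeries.coeff_expand_mul]
  · rw [qExpand_coeff_of_not_dvd p _ hk]
    rcases lt_or_ge k 0 with hk0 | hk0
    · exact (ofPowerSeries_coeff_of_neg _ hk0).symm
    · lift k to ℕ using hk0
      rw [HahnSeries.ofPowerSeries_apply_coeff, PowerSeries.coeff_expand_of_not_dvd]
      intro h
      exact hk (by exact_mod_cast h)

theorem h70_map_castRingHom_int (f : PowerSeries ℤ) :
    PowerSeries.map (Int.castRingHom ℤ) f = f := by
  ext n
  simp

/-- `Δ` over `ℤ` is the power series `sturmDelta`. -/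
theorem h70_DeltaSer_int : DeltaSer ℤ = HahnSeries.ofPowerSeries ℤ ℤ sturmDelta := by
  rw [DeltaSer, h70_map_castRingHom_int, h70_sturmDelta_eq, map_mul, HahnSeries.ofPowerSeries_X]

/-- `j · Δ = E₄³` over `ℤ`. -/
theorem h70_jq_mul_DeltaSer_int :
    jqModC ℤ * DeltaSer ℤ = HahnSeries.ofPowerSeries ℤ ℤ (h70_E4 ^ 3) := by
  have h1 : (HahnSeries.single (-1 : ℤ) (1 : ℤ) : LaurentSeries ℤ) * HahnSeries.single (1 : ℤ) 1 =
      1 := by
    rw [HahnSeries.single_mul_single]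
    simp
  have h2 : HahnSeries.ofPowerSeries ℤ ℤ jNum * HahnSeries.ofPowerSeries ℤ ℤ dedekindEtaUnit =
      HahnSeries.ofPowerSeries ℤ ℤ (h70_E4 ^ 3) := by
    rw [← map_mul, jNum, mul_assoc, mul_comm dedekindEtaUnitInv, dedekindEtaUnit_mul_inv, mul_one,
      h70_E4_eq]
  calc jqModC ℤ * DeltaSer ℤ
      = (HahnSeries.single (-1 : ℤ) (1 : ℤ) * HahnSeries.single (1 : ℤ) 1) *
          (HahnSeries.ofPowerSeries ℤ ℤ jNum * HahnSeries.ofPowerSeries ℤ ℤ dedekindEtaUnit) := by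
        rw [jqModC, DeltaSer, h70_map_castRingHom_int, h70_map_castRingHom_int]
        ring
    _ = HahnSeries.ofPowerSeries ℤ ℤ (h70_E4 ^ 3) := by rw [h1, h2, one_mul]

variable (R : Type*) [CommRing R]

/-- The level 2 Hauptmodul `h = Δ(q)/Δ(q²) = q⁻¹ - 24 + ⋯` as a formal Laurent series over `R`. -/
noncomputable def h70_h2 : LaurentSeries R := DeltaSer R * qE R 2 (DeltaInv R)

variable {R} in
theorem h70_coeffMap_h2 {S : Type*} [CommRing S] (φ : R →+* S) :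
    coeffMap φ (h70_h2 R) = h70_h2 S := by
  rw [h70_h2, map_mul, coeffMap_qE, coeffMap_DeltaSer, coeffMap_DeltaInv, h70_h2]

/-- `Δ(q²) · (1/Δ)(q²) = 1`. -/
theorem h70_qE_DeltaSer_mul_inv (p : ℕ) : qE R p (DeltaSer R) * qE R p (DeltaInv R) = 1 := by
  rw [← map_mul, DeltaSer_mul_DeltaInv, map_one]

/-- `h = Δ(q)/Δ(q²)`: `h · Δ(q²) = Δ(q)`. -/
theorem h70_h2_mul_qE_DeltaSer : h70_h2 R * qE R 2 (DeltaSer R) = DeltaSer R := by
  rw [h70_h2, mul_assoc, mul_comm (qE R 2 (DeltaInv R)), h70_qE_DeltaSer_mul_inv, mul_one]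

/-- The inverse of `h` is `Δ(q²)/Δ(q)`. -/
theorem h70_h2_mul_inv : h70_h2 R * (qE R 2 (DeltaSer R) * DeltaInv R) = 1 := by
  rw [← mul_assoc, h70_h2_mul_qE_DeltaSer, DeltaSer_mul_DeltaInv]

theorem h70_j_mul_h2_sq_int : jqModC ℤ * h70_h2 ℤ ^ 2 = (h70_h2 ℤ + 256) ^ 3 := by
  have H1 := h70_jq_mul_DeltaSer_int
  have H2 := congrArg (HahnSeries.ofPowerSeries ℤ ℤ) h70_level2_identity
  have H3 := h70_qE_DeltaSer_mul_inv ℤ 2
  have HD2 : qE ℤ 2 (DeltaSer ℤ) =
      HahnSeries.ofPowerSeries ℤ ℤ (PowerSeries.expand 2 two_ne_zero sturmDelta) := by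
    rw [h70_DeltaSer_int, h70_qE_ofPowerSeries]
  simp only [map_mul, map_pow, map_add, map_ofNat] at H1 H2
  rw [← h70_DeltaSer_int, ← HD2] at H2
  rw [h70_h2]
  linear_combination DeltaSer ℤ * qE ℤ 2 (DeltaInv ℤ) ^ 2 * H1 + qE ℤ 2 (DeltaInv ℤ) ^ 3 * H2 +
    (256 * ((DeltaSer ℤ * qE ℤ 2 (DeltaInv ℤ) +
          256 * (qE ℤ 2 (DeltaSer ℤ) * qE ℤ 2 (DeltaInv ℤ))) ^ 2 +
        (DeltaSer ℤ * qE ℤ 2 (DeltaInv ℤ) + 256 * (qE ℤ 2 (DeltaSer ℤ) * qE ℤ 2 (DeltaInv ℤ))) *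
          (DeltaSer ℤ * qE ℤ 2 (DeltaInv ℤ) + 256) +
        (DeltaSer ℤ * qE ℤ 2 (DeltaInv ℤ) + 256) ^ 2) -
      HahnSeries.ofPowerSeries ℤ ℤ h70_E4 ^ 3 * DeltaSer ℤ * qE ℤ 2 (DeltaInv ℤ) ^ 2) * H3

/-- `j(q²) · Δ(q²) = E₄(q²)³` over `ℤ`. -/
theorem h70_jq2_mul_DeltaSer2_int :
    qE ℤ 2 (jqModC ℤ) * qE ℤ 2 (DeltaSer ℤ) =
      HahnSeries.ofPowerSeries ℤ ℤ (PowerSeries.expand 2 two_ne_zero h70_E4) ^ 3 := by
  rw [← map_mul, h70_jq_mul_DeltaSer_int, map_pow, map_pow, h70_qE_ofPowerSeries]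

theorem h70_j2_mul_h2_int : qE ℤ 2 (jqModC ℤ) * h70_h2 ℤ = (h70_h2 ℤ + 16) ^ 3 := by
  have H1 := h70_jq2_mul_DeltaSer2_int
  have H2 := congrArg (HahnSeries.ofPowerSeries ℤ ℤ) h70_level2_identity_fricke
  have H3 := h70_qE_DeltaSer_mul_inv ℤ 2
  have HD2 : qE ℤ 2 (DeltaSer ℤ) =
      HahnSeries.ofPowerSeries ℤ ℤ (PowerSeries.expand 2 two_ne_zero sturmDelta) := by
    rw [h70_DeltaSer_int, h70_qE_ofPowerSeries]
  simp only [map_mul, map_pow, map_add, map_ofNat] at H2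
  rw [← h70_DeltaSer_int, ← HD2] at H2
  rw [h70_h2]
  linear_combination DeltaSer ℤ * qE ℤ 2 (DeltaInv ℤ) ^ 2 * H1 + qE ℤ 2 (DeltaInv ℤ) ^ 3 * H2 +
    (16 * ((DeltaSer ℤ * qE ℤ 2 (DeltaInv ℤ) +
          16 * (qE ℤ 2 (DeltaSer ℤ) * qE ℤ 2 (DeltaInv ℤ))) ^ 2 +
        (DeltaSer ℤ * qE ℤ 2 (DeltaInv ℤ) + 16 * (qE ℤ 2 (DeltaSer ℤ) * qE ℤ 2 (DeltaInv ℤ))) *
          (DeltaSer ℤ * qE ℤ 2 (DeltaInv ℤ) + 16) +
        (DeltaSer ℤ * qE ℤ 2 (DeltaInv ℤ) + 16) ^ 2) -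
      HahnSeries.ofPowerSeries ℤ ℤ (PowerSeries.expand 2 two_ne_zero h70_E4) ^ 3 * DeltaSer ℤ *
        qE ℤ 2 (DeltaInv ℤ) ^ 2 -
      qE ℤ 2 (jqModC ℤ) * DeltaSer ℤ * qE ℤ 2 (DeltaInv ℤ)) * H3

/-- **Level 2 Hauptmodul identity**: `j · h² = (h + 256)³` for `h = Δ(q)/Δ(q²)`, over any
commutative ring. -/
theorem h70_j_mul_h2_sq : jqModC R * h70_h2 R ^ 2 = (h70_h2 R + 256) ^ 3 := by
  have h := congrArg (coeffMap (Int.castRingHom R)) h70_j_mul_h2_sq_int
  simpa only [map_mul, map_pow, map_add, map_ofNat, coeffMap_jqModC, h70_coeffMap_h2] using h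

/-- **Level 2 Hauptmodul identity, Fricke companion**: `j(q²) · h = (h + 16)³`, over any
commutative ring. -/
theorem h70_j2_mul_h2 : qE R 2 (jqModC R) * h70_h2 R = (h70_h2 R + 16) ^ 3 := by
  have h := congrArg (coeffMap (Int.castRingHom R)) h70_j2_mul_h2_int
  simpa only [map_mul, map_pow, map_add, map_ofNat, coeffMap_qE, coeffMap_jqModC,
    h70_coeffMap_h2] using h

/-- `(j - 1728) · h² = (h + 64) (h - 512)²`, over any commutative ring. -/
theorem h70_j_sub_1728_mul_h2_sq :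
    (jqModC R - 1728) * h70_h2 R ^ 2 = (h70_h2 R + 64) * (h70_h2 R - 512) ^ 2 := by
  linear_combination h70_j_mul_h2_sq R

end Laurent

/-! ### `h ∈ ℚ(j(q), j(q²))` -/

section Membership

/-- Over `ℚ`: `j · h² = (h + 256)³` with the Prelude `jq`. -/
theorem h70_jq_mul_h2_sq : jq * h70_h2 ℚ ^ 2 = (h70_h2 ℚ + 256) ^ 3 :=
  h70_j_mul_h2_sq ℚ

/-- Over `ℚ`: `j(q²) · h = (h + 16)³` with the Prelude `jq`, `qExpand`. -/
theorem h70_jq2_mul_h2 : qExpand ℚ 2 jq * h70_h2 ℚ = (h70_h2 ℚ + 16) ^ 3 := by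
  have h := h70_j2_mul_h2 ℚ
  rwa [qE_of_neZero] at h

theorem h70_h2_ne_zero (R : Type*) [CommRing R] [Nontrivial R] : h70_h2 R ≠ 0 := by
  intro h
  have h1 := h70_h2_mul_inv R
  rw [h, zero_mul] at h1
  exact zero_ne_one h1

/-- The linear relation `a(j, j₂) · h + b(j, j₂) = 0` obtained by eliminating between the two
cubic equations of `h` over `ℚ(j)` and `ℚ(j₂)`. -/
theorem h70_h2_linear :
    (jq ^ 2 * qExpand ℚ 2 jq - 768 * jq ^ 2 - 1488 * (jq * qExpand ℚ 2 jq) - 25067520 * jq -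
        qExpand ℚ 2 jq ^ 2 + 161280 * qExpand ℚ 2 jq - 19906560000) * h70_h2 ℚ =
      4096 * jq ^ 2 + 799211520 * jq + 16773120 * qExpand ℚ 2 jq + 2707292160000 := by
  have H1 := h70_jq_mul_h2_sq
  have H2 := h70_jq2_mul_h2
  linear_combination
    (-(-48 * jq - qExpand ℚ 2 jq - 161280 + (720 - jq) * h70_h2 ℚ)) * H1 +
      (-48 * jq - qExpand ℚ 2 jq - 161280 + (720 - jq) ^ 2 + (720 - jq) * h70_h2 ℚ) * H2

theorem h70_b_ne_zero :
    (4096 * jq ^ 2 + 799211520 * jq + 16773120 * qExpand ℚ 2 jq + 2707292160000 :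
      LaurentSeries ℚ) ≠ 0 := by
  intro h
  have h1 := congrArg (fun f : LaurentSeries ℚ => f.coeff (-2)) h
  have e1 : (jq ^ 2).coeff (-2 : ℤ) = 1 := by
    have := coeff_jq_pow_self 2
    simpa using this
  have e2 : jq.coeff (-2 : ℤ) = 0 := coeff_jq_of_lt (by norm_num)
  have e3 : (qExpand ℚ 2 jq).coeff (-2 : ℤ) = 1 := by
    have := qExpand_coeff_mul (R := ℚ) 2 jq (-1)
    simpa using this
  have c1 : (4096 : LaurentSeries ℚ) = HahnSeries.C (4096 : ℚ) := by simp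
  have c2 : (799211520 : LaurentSeries ℚ) = HahnSeries.C (799211520 : ℚ) := by simp
  have c3 : (16773120 : LaurentSeries ℚ) = HahnSeries.C (16773120 : ℚ) := by simp
  have c4 : (2707292160000 : LaurentSeries ℚ) = HahnSeries.C (2707292160000 : ℚ) := by simp
  rw [c1, c2, c3, c4] at h1
  simp only [HahnSeries.coeff_add, HahnSeries.C_mul_eq_smul, HahnSeries.coeff_smul, e1, e2, e3,
    HahnSeries.coeff_zero, smul_eq_mul] at h1
  rw [HahnSeries.C_apply, HahnSeries.coeff_single_of_ne (by norm_num)] at h1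
  norm_num at h1

/-- **The Hauptmodul lies in the Prelude function field of level 2**:
`h = Δ(q)/Δ(q²) ∈ ℚ(j(q), j(q²))`. -/
theorem h70_h2_mem_full : h70_h2 ℚ ∈ modularFunctionFieldFull 2 := by
  have hj : jq ∈ modularFunctionFieldFull 2 := by
    have h := jqd_mem_full 2 (one_dvd 2)
    rwa [qExpand_one_apply] at h
  have hj2 : qExpand ℚ 2 jq ∈ modularFunctionFieldFull 2 := jqd_mem_full 2 dvd_rfl
  have hlin := h70_h2_linear
  have hb := h70_b_ne_zero
  set a : LaurentSeries ℚ := jq ^ 2 * qExpand ℚ 2 jq - 768 * jq ^ 2 -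
    1488 * (jq * qExpand ℚ 2 jq) - 25067520 * jq - qExpand ℚ 2 jq ^ 2 +
    161280 * qExpand ℚ 2 jq - 19906560000 with ha
  set b : LaurentSeries ℚ := 4096 * jq ^ 2 + 799211520 * jq + 16773120 * qExpand ℚ 2 jq +
    2707292160000 with hb'
  have ha0 : a ≠ 0 := by
    intro h0
    rw [h0, zero_mul] at hlin
    exact hb hlin.symm
  have hamem : a ∈ modularFunctionFieldFull 2 := by
    rw [ha]
    exact sub_mem (add_mem (sub_mem (sub_mem (sub_mem (sub_mem (mul_mem (pow_mem hj 2) hj2)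
      (mul_mem (ofNat_mem _ 768) (pow_mem hj 2))) (mul_mem (ofNat_mem _ 1488) (mul_mem hj hj2)))
      (mul_mem (ofNat_mem _ 25067520) hj)) (pow_mem hj2 2)) (mul_mem (ofNat_mem _ 161280) hj2))
      (ofNat_mem _ 19906560000)
  have hbmem : b ∈ modularFunctionFieldFull 2 := by
    rw [hb']
    exact add_mem (add_mem (add_mem (mul_mem (ofNat_mem _ 4096) (pow_mem hj 2))
      (mul_mem (ofNat_mem _ 799211520) hj)) (mul_mem (ofNat_mem _ 16773120) hj2))
      (ofNat_mem _ 2707292160000)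
  have hh : h70_h2 ℚ = b / a := by
    rw [eq_div_iff ha0, mul_comm]
    exact hlin
  rw [hh]
  exact div_mem hbmem hamem

/-- `ℚ(h) = ℚ(j(q), j(q²))`: the level 2 function field of the Prelude is the rational function
field in the Hauptmodul `h = Δ(q)/Δ(q²)`. -/
theorem h70_adjoin_h2 :
    IntermediateField.adjoin ℚ {h70_h2 ℚ} = modularFunctionFieldFull 2 := by
  apply le_antisymm
  · rw [IntermediateField.adjoin_le_iff]
    rintro x rfl
    exact h70_h2_mem_full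
  · have hh : h70_h2 ℚ ∈ IntermediateField.adjoin ℚ {h70_h2 ℚ} :=
      IntermediateField.subset_adjoin ℚ _ rfl
    have h0 : h70_h2 ℚ ≠ 0 := h70_h2_ne_zero ℚ
    rw [modularFunctionFieldFull, IntermediateField.adjoin_le_iff]
    rintro x ⟨d, hne, hd, rfl⟩
    haveI := hne
    rcases (Nat.dvd_prime Nat.prime_two).mp hd with rfl | rfl
    · rw [qExpand_one_apply]
      have e : jq = (h70_h2 ℚ + 256) ^ 3 / h70_h2 ℚ ^ 2 := by
        rw [eq_div_iff (pow_ne_zero 2 h0)]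
        exact h70_jq_mul_h2_sq
      rw [e]
      exact div_mem (pow_mem (add_mem hh (ofNat_mem _ 256)) 3) (pow_mem hh 2)
    · have e : qExpand ℚ 2 jq = (h70_h2 ℚ + 16) ^ 3 / h70_h2 ℚ := by
        rw [eq_div_iff h0]
        exact h70_jq2_mul_h2
      rw [e]
      exact div_mem (pow_mem (add_mem hh (ofNat_mem _ 16)) 3) hh

end Membership

end Fermat.Agent.S18
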