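import Mathlib
import Fermat.Prelude.Def_ModularCurve_X0

/-!
# S18, row B2 (helper53): the level 3 Hauptmodul lies in `K(j(q), j(q³))`

Abstract form: in any field extension `L / K` (`K` of characteristic zero), if `t` is
transcendental over `K` and

  `j * t ^ 3 = (t + 27) * (t + 243) ^ 3`,   `j3 * t = (t + 27) * (t + 3) ^ 3`,

then `t ∈ K(j, j3)` (`h53m_mem_adjoin`).  The proof is an explicit elimination certificate
`α(j, j3) * t + β(j, j3) = 0` (`h53m_cert`, valid in every commutative ring) together with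
`t ^ 16 * β(j, j3) = P(t)` for an explicit polynomial `P` with `P(1) ≠ 0` (`h53m_t16_beta`).

Also: a Laurent series with a simple pole and leading coefficient `1` is transcendental over the
coefficient ring (`h53m_transcendental_of_pole`), so the hypothesis on `t` is automatic for every
presentation of the Hauptmodul `q⁻¹ ∏ (1 - qⁿ)^12 / (1 - q^(3n))^12`.
-/

set_option autoImplicit false

namespace Fermat.Agent.S18

section Certificate

variable {R : Type*} [CommRing R]

/-- The coefficient `α(j, k)` of the linear relation `α t + β = 0`. -/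
def h53m_alpha (j k : R) : R :=
    -1 * j ^ 5 * k ^ 2 + 1 * j ^ 2 * k ^ 3 + 3672 * j ^ 4 * k ^ 2 - 1440 * j * k ^ 3 - 4802436
      * j ^ 3 * k ^ 2 + 518400 * k ^ 3 + 1512 * j ^ 5 * k + 2734670160 * j ^ 2 * k ^ 2 +
      2199927357 * j ^ 4 * k - 607750387200 * j * k ^ 2 + 6287091255360 * j ^ 3 * k +
      19110670848000 * k ^ 2 - 374706 * j ^ 5 - 12148776475948800 * j ^ 2 * k + 3513587135760 *
      j ^ 4 + 4430048196934656000 * j * k - 578039691371443200 * j ^ 3 + 170148916887552000000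
      * k + 3468720924518404608000 * j ^ 2 - 4101236057280872448000000 * j +
      1369513028852121600000000000

/-- The constant term `β(j, k)` of the linear relation `α t + β = 0`. -/
def h53m_beta (j k : R) : R :=
    729 * j ^ 5 * k + 387419760 * j ^ 2 * k ^ 2 + 13944460716 * j ^ 4 * k - 557884454400 * j *
      k ^ 2 + 35694226104480 * j ^ 3 * k + 200838403584000 * k ^ 2 - 551124 * j ^ 5 -
      108392996345702400 * j ^ 2 * k + 16877673339120 * j ^ 4 + 79754306454770688000 * j * k -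
      10379169493558848000 * j ^ 3 - 18302525195157504000000 * k + 86248560322019464704000 * j
      ^ 2 - 108081439958057877504000000 * j + 36976851779007283200000000000

/-- `t ^ 16 * β(j, k)` as a polynomial expression in `t` alone. -/
def h53m_Pfun (t : R) : R :=
    729 * ((t + 27) * (t + 243) ^ 3) ^ 5 * ((t + 27) * (t + 3) ^ 3) + 387419760 * ((t + 27) *
      (t + 243) ^ 3) ^ 2 * ((t + 27) * (t + 3) ^ 3) ^ 2 * t ^ 8 + 13944460716 * ((t + 27) * (t
      + 243) ^ 3) ^ 4 * ((t + 27) * (t + 3) ^ 3) * t ^ 3 - 557884454400 * ((t + 27) * (t + 243)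
      ^ 3) * ((t + 27) * (t + 3) ^ 3) ^ 2 * t ^ 11 + 35694226104480 * ((t + 27) * (t + 243) ^
      3) ^ 3 * ((t + 27) * (t + 3) ^ 3) * t ^ 6 + 200838403584000 * ((t + 27) * (t + 3) ^ 3) ^
      2 * t ^ 14 - 551124 * ((t + 27) * (t + 243) ^ 3) ^ 5 * t - 108392996345702400 * ((t + 27)
      * (t + 243) ^ 3) ^ 2 * ((t + 27) * (t + 3) ^ 3) * t ^ 9 + 16877673339120 * ((t + 27) * (t
      + 243) ^ 3) ^ 4 * t ^ 4 + 79754306454770688000 * ((t + 27) * (t + 243) ^ 3) * ((t + 27) *
      (t + 3) ^ 3) * t ^ 12 - 10379169493558848000 * ((t + 27) * (t + 243) ^ 3) ^ 3 * t ^ 7 -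
      18302525195157504000000 * ((t + 27) * (t + 3) ^ 3) * t ^ 15 + 86248560322019464704000 *
      ((t + 27) * (t + 243) ^ 3) ^ 2 * t ^ 10 - 108081439958057877504000000 * ((t + 27) * (t +
      243) ^ 3) * t ^ 13 + 36976851779007283200000000000 * t ^ 16

/-- **Elimination certificate.** -/
theorem h53m_cert (j k t : R) (hA : j * t ^ 3 = (t + 27) * (t + 243) ^ 3)
    (hB : k * t = (t + 27) * (t + 3) ^ 3) :
    h53m_alpha j k * t + h53m_beta j k = 0 := by
  unfold h53m_alpha h53m_beta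
  linear_combination
    (-1 * j ^ 3 * k * t ^ 2 + 2160 * j ^ 2 * k * t ^ 2 - 270 * j ^ 4 * t ^ 2 - 1555200 * j * k * t ^ 2 - 25429680 * j ^ 3 * t ^ 2 + 373248000 * k * t ^ 2 + 17132083200 * j ^ 2 * t ^ 2 + 15281146368000 * j * t ^ 2 - 10319560704000000 * t ^ 2 - 1 * j ^ 4 * k * t + 2880 * j ^ 3 * k * t - 2913840 * j ^ 2 * k * t - 8964 * j ^ 4 * t + 1209945600 * j * k * t + 158494320 * j ^ 3 * t - 166841856000 * k * t + 2055056832000 * j ^ 2 * t - 3192389024256000 * j * t + 1176429920256000000 * t - 1 * j ^ 2 * k ^ 2 - 36 * j ^ 4 * k + 1440 * j * k ^ 2 - 92124 * j ^ 3 * k - 518400 * k ^ 2 + 279776160 * j ^ 2 * k - 45684 * j ^ 4 - 205858713600 * j * k + 26779844160 * j ^ 3 + 47241999360000 * k - 222607701273600 * j ^ 2 + 278975282042880000 * j - 95445616951296000000) * hA +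
    (1 * j ^ 3 * k * t ^ 2 - 2160 * j ^ 2 * k * t ^ 2 + 270 * j ^ 4 * t ^ 2 + 1555200 * j * k * t ^ 2 + 25429680 * j ^ 3 * t ^ 2 - 373248000 * k * t ^ 2 - 17132083200 * j ^ 2 * t ^ 2 - 15281146368000 * j * t ^ 2 + 10319560704000000 * t ^ 2 - 270 * j ^ 5 * t - 196560 * j ^ 2 * k * t - 25226316 * j ^ 4 * t + 283046400 * j * k * t + 35282958480 * j ^ 3 * t - 101896704000 * k * t + 890989632000 * j ^ 2 * t - 18129597064704000 * j * t + 6253653786624000000 * t - 1 * j ^ 5 * k + 1 * j ^ 2 * k ^ 2 + 3672 * j ^ 4 * k - 1440 * j * k ^ 2 - 4802436 * j ^ 3 * k + 518400 * k ^ 2 + 756 * j ^ 5 + 2715539040 * j ^ 2 * k + 1126535364 * j ^ 4 - 580201574400 * j * k + 5636726677440 * j ^ 3 + 9193098240000 * k - 7922962188518400 * j ^ 2 + 959904104785920000 * j + 1009345912897536000000) * hB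

theorem h53m_t16_beta (j k t : R) (hA : j * t ^ 3 = (t + 27) * (t + 243) ^ 3)
    (hB : k * t = (t + 27) * (t + 3) ^ 3) :
    t ^ 16 * h53m_beta j k = h53m_Pfun t := by
  unfold h53m_beta h53m_Pfun
  rw [← hA, ← hB]
  ring

theorem h53m_alpha_map {S : Type*} [CommRing S] (f : R →+* S) (j k : R) :
    f (h53m_alpha j k) = h53m_alpha (f j) (f k) := by
  simp only [h53m_alpha, map_add, map_sub, map_mul, map_pow, map_ofNat, map_neg, map_one]

theorem h53m_beta_map {S : Type*} [CommRing S] (f : R →+* S) (j k : R) :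
    f (h53m_beta j k) = h53m_beta (f j) (f k) := by
  simp only [h53m_beta, map_add, map_sub, map_mul, map_pow, map_ofNat]

theorem h53m_Pfun_map {S : Type*} [CommRing S] (f : R →+* S) (t : R) :
    f (h53m_Pfun t) = h53m_Pfun (f t) := by
  simp only [h53m_Pfun, map_add, map_sub, map_mul, map_pow, map_ofNat]

end Certificate

section Membership

variable {K L : Type*} [Field K] [Field L] [Algebra K L]

theorem h53m_beta_ne_zero_of (j j3 t : L) (ht : Transcendental K t)
    (hP : h53m_Pfun (Polynomial.X : Polynomial K) ≠ 0)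
    (hA : j * t ^ 3 = (t + 27) * (t + 243) ^ 3) (hB : j3 * t = (t + 27) * (t + 3) ^ 3) :
    h53m_beta j j3 ≠ 0 := by
  intro h0
  have h1 : h53m_Pfun t = 0 := by rw [← h53m_t16_beta j j3 t hA hB, h0, mul_zero]
  have h2 := h53m_Pfun_map ((Polynomial.aeval t : Polynomial K →ₐ[K] L) : Polynomial K →+* L)
    (Polynomial.X : Polynomial K)
  rw [RingHom.coe_coe, Polynomial.aeval_X, h1] at h2
  exact hP (transcendental_iff.mp ht _ h2)

theorem h53m_Pfun_X_ne_zero [CharZero K] : h53m_Pfun (Polynomial.X : Polynomial K) ≠ 0 := by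
  intro h
  have h1 := h53m_Pfun_map (Polynomial.evalRingHom (1 : K)) (Polynomial.X : Polynomial K)
  rw [h, map_zero, Polynomial.coe_evalRingHom, Polynomial.eval_X] at h1
  have h2 : h53m_Pfun (1 : K) =
      ((9553897401623396967248040442776710193293159301120 : ℕ) : K) := by
    unfold h53m_Pfun
    norm_num
  rw [h2] at h1
  exact absurd h1.symm (Nat.cast_ne_zero.mpr (by norm_num))

/-- Membership, with the non-vanishing of the auxiliary polynomial as a hypothesis. -/
theorem h53m_mem_adjoin_of (j j3 t : L) (ht : Transcendental K t)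
    (hP : h53m_Pfun (Polynomial.X : Polynomial K) ≠ 0)
    (hA : j * t ^ 3 = (t + 27) * (t + 243) ^ 3) (hB : j3 * t = (t + 27) * (t + 3) ^ 3) :
    t ∈ IntermediateField.adjoin K ({j, j3} : Set L) := by
  have hj : j ∈ IntermediateField.adjoin K ({j, j3} : Set L) :=
    IntermediateField.subset_adjoin K _ (Set.mem_insert _ _)
  have hk : j3 ∈ IntermediateField.adjoin K ({j, j3} : Set L) :=
    IntermediateField.subset_adjoin K _ (Set.mem_insert_of_mem _ rfl)
  set F := IntermediateField.adjoin K ({j, j3} : Set L) with hF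
  have ha : algebraMap F L (h53m_alpha (⟨j, hj⟩ : F) ⟨j3, hk⟩) = h53m_alpha j j3 :=
    h53m_alpha_map (algebraMap F L) ⟨j, hj⟩ ⟨j3, hk⟩
  have hb : algebraMap F L (h53m_beta (⟨j, hj⟩ : F) ⟨j3, hk⟩) = h53m_beta j j3 :=
    h53m_beta_map (algebraMap F L) ⟨j, hj⟩ ⟨j3, hk⟩
  have hcert := h53m_cert j j3 t hA hB
  have hbne := h53m_beta_ne_zero_of j j3 t ht hP hA hB
  have hane : h53m_alpha j j3 ≠ 0 := by
    intro h0
    rw [h0, zero_mul, zero_add] at hcert
    exact hbne hcert
  have ht' : t = algebraMap F L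
      (-h53m_beta (⟨j, hj⟩ : F) ⟨j3, hk⟩ / h53m_alpha (⟨j, hj⟩ : F) ⟨j3, hk⟩) := by
    rw [map_div₀, map_neg, ha, hb, eq_div_iff hane]
    linear_combination hcert
  rw [ht']
  exact (-h53m_beta (⟨j, hj⟩ : F) ⟨j3, hk⟩ / h53m_alpha (⟨j, hj⟩ : F) ⟨j3, hk⟩).2

/-- **Level 3 membership.** If `t` is transcendental over a field `K` of characteristic zero and
`j * t ^ 3 = (t + 27) * (t + 243) ^ 3`, `j3 * t = (t + 27) * (t + 3) ^ 3`, then `t ∈ K(j, j3)`. -/
theorem h53m_mem_adjoin [CharZero K] (j j3 t : L) (ht : Transcendental K t)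
    (hA : j * t ^ 3 = (t + 27) * (t + 243) ^ 3) (hB : j3 * t = (t + 27) * (t + 3) ^ 3) :
    t ∈ IntermediateField.adjoin K ({j, j3} : Set L) :=
  h53m_mem_adjoin_of j j3 t ht h53m_Pfun_X_ne_zero hA hB

end Membership

section Pole

variable (S : Type*) [CommRing S]

theorem h53m_algebraMap_eq_C : algebraMap S (LaurentSeries S) = HahnSeries.C := by
  refine RingHom.ext fun c => ?_
  have h1 : algebraMap S (PowerSeries S) c = PowerSeries.C c := by simp
  rw [HahnSeries.algebraMap_apply', h1, HahnSeries.ofPowerSeries_C]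

variable {S}

theorem h53m_pole_pow (u : PowerSeries S) (n : ℕ) :
    (HahnSeries.single (-1 : ℤ) (1 : S) * HahnSeries.ofPowerSeries ℤ S u) ^ n =
      HahnSeries.single (-(n : ℤ)) 1 * HahnSeries.ofPowerSeries ℤ S (u ^ n) := by
  have h : n • (-1 : ℤ) = -(n : ℤ) := by simp
  rw [mul_pow, HahnSeries.single_pow, one_pow, h, ← map_pow]

theorem h53m_coeff_pole_pow_self (u : PowerSeries S) (hu : PowerSeries.constantCoeff u = 1)
    (n : ℕ) :
    ((HahnSeries.single (-1 : ℤ) (1 : S) * HahnSeries.ofPowerSeries ℤ S u) ^ n).coeff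
      (-(n : ℤ)) = 1 := by
  rw [h53m_pole_pow, HahnSeries.coeff_single_mul, one_mul, sub_neg_eq_add, neg_add_cancel,
    show (0 : ℤ) = ((0 : ℕ) : ℤ) from rfl, HahnSeries.ofPowerSeries_apply_coeff,
    PowerSeries.coeff_zero_eq_constantCoeff, map_pow, hu, one_pow]

theorem h53m_coeff_pole_pow_of_lt (u : PowerSeries S) {n : ℕ} {m : ℤ} (hm : m < -(n : ℤ)) :
    ((HahnSeries.single (-1 : ℤ) (1 : S) * HahnSeries.ofPowerSeries ℤ S u) ^ n).coeff m = 0 := by
  rw [h53m_pole_pow, HahnSeries.coeff_single_mul, one_mul]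
  exact ModularCurve.ofPowerSeries_coeff_of_neg _ (by omega)

/-- Leading coefficient of a polynomial in a series with a simple pole. -/
theorem h53m_coeff_eval₂_pole (u : PowerSeries S) (hu : PowerSeries.constantCoeff u = 1)
    (P : Polynomial S) :
    (Polynomial.eval₂ HahnSeries.C
      (HahnSeries.single (-1 : ℤ) (1 : S) * HahnSeries.ofPowerSeries ℤ S u) P).coeff
        (-(P.natDegree : ℤ)) = P.leadingCoeff := by
  rw [Polynomial.eval₂_eq_sum_range, HahnSeries.coeff_sum, Finset.sum_range_succ]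
  rw [Finset.sum_eq_zero, zero_add, HahnSeries.C_mul_eq_smul, HahnSeries.coeff_smul,
    h53m_coeff_pole_pow_self u hu, smul_eq_mul, mul_one, Polynomial.leadingCoeff]
  intro i hi
  rw [Finset.mem_range] at hi
  rw [HahnSeries.C_mul_eq_smul, HahnSeries.coeff_smul, h53m_coeff_pole_pow_of_lt u (by omega),
    smul_zero]

/-- A Laurent series `q⁻¹ · u(q)` with `u(0) = 1` is transcendental over the coefficient ring. -/
theorem h53m_transcendental_of_pole (u : PowerSeries S) (hu : PowerSeries.constantCoeff u = 1) :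
    Transcendental S (HahnSeries.single (-1 : ℤ) (1 : S) * HahnSeries.ofPowerSeries ℤ S u) := by
  rintro ⟨P, hP0, hP⟩
  apply hP0
  have h1 := h53m_coeff_eval₂_pole u hu P
  rw [Polynomial.aeval_def, h53m_algebraMap_eq_C] at hP
  rw [hP, HahnSeries.coeff_zero] at h1
  exact Polynomial.leadingCoeff_eq_zero.mp h1.symm

end Pole

end Fermat.Agent.S18
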