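import Mathlib
import Fermat.Prelude.Def_ModularCurve_X0ModL

/-!
# S18, rows B1/B2: the Hauptmodul lies in the modular function field (helper80)

Abstract field lemmas (explicit elimination, no degree count):

* `h80_mem_adjoin3` : `j h³ = (h + 27)(h + 243)³`, `j₃ h = (h + 27)(h + 3)³` ⟹ `h ∈ K(j, j₃)`;
* `h80_mem_adjoin2` : `j h² = (h + 256)³`, `j₂ h = (h + 16)³` ⟹ `h ∈ K(j, j₂)`;

each under two explicit non-vanishing side conditions, which are then discharged for the Prelude
expansions `j = jqModC K`, `j_p = qExpand K p (jqModC K)` (`K` a field), giving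

* `h80_mem_adjoin3_jqModC`, `h80_mem_fullC3`, `h80_mem_adjoin3_jq`, `h80_mem_full3` (level 3);
* `h80_mem_adjoin2_jqModC`, `h80_mem_fullC2`, `h80_mem_adjoin2_jq`, `h80_mem_full2` (level 2):

ANY Laurent series `h` satisfying the two relations lies in `modularFunctionFieldFull N`
(`3 ∣ N` resp. `2 ∣ N`).

Method (level 3): with `h' = 729 / h`, `w = h + h'`, `v = h - h'` one has
`j = h'³ + 36 h'² + 270 h' + 756 + h`, `j₃ = h³ + 36 h² + 270 h + 756 + h'`, hence
`j + j₃ = w³ + 36 w² - 1916 w - 50976`, `j₃ - j = v (w² + 36 w - 460)`, `v² = w² - 2916`;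
Euclid's algorithm on the cubic and the sextic for `w` gives `w` linearly, then
`v = (j₃ - j) / (w² + 36 w - 460)` and `h = (w + v) / 2`.  Level 2 is the same with
`h' = 4096 / h`, `j + j₂ = w² + 49 w - 6656`, `j₂ - j = v (w + 47)`, `v² = w² - 16384`.
-/

set_option autoImplicit false

namespace Fermat.Agent.S18

/-- **Level 3, abstract membership.**  If `j h³ = (h + 27)(h + 243)³` and
`j₃ h = (h + 27)(h + 3)³` in a field of characteristic zero, then `h` is a rational function of
`j` and `j₃` (explicit elimination), provided the two displayed quantities do not vanish. -/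
theorem h80_mem_adjoin3 {K F : Type*} [Field K] [Field F] [Algebra K F] [CharZero F]
    (j j3 h : F) (h1 : j * h ^ 3 = (h + 27) * (h + 243) ^ 3)
    (h2 : j3 * h = (h + 27) * (h + 3) ^ 3) (hne : j ≠ j3)
    (hΛ : j ^ 2 + j3 ^ 2 + 196102 * j * j3 - 102931200 * (j + j3) + 262144000000000 ≠ 0) :
    h ∈ IntermediateField.adjoin K {j, j3} := by
  have hjL : j ∈ IntermediateField.adjoin K {j, j3} :=
    IntermediateField.subset_adjoin K _ (Set.mem_insert _ _)
  have hj3L : j3 ∈ IntermediateField.adjoin K {j, j3} :=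
    IntermediateField.subset_adjoin K _ (Set.mem_insert_of_mem _ rfl)
  generalize IntermediateField.adjoin K {j, j3} = L at hjL hj3L ⊢
  have hh0 : h ≠ 0 := by
    rintro rfl
    norm_num at h1
  obtain ⟨h', hh'⟩ : ∃ h' : F, h * h' = 729 := ⟨729 / h, by field_simp⟩
  have ej : j = h' ^ 3 + 36 * h' ^ 2 + 270 * h' + 756 + h := by
    apply mul_left_cancel₀ (pow_ne_zero 3 hh0)
    linear_combination h1 - (h ^ 2 * h' ^ 2 + 729 * h * h' + 531441 + 36 * h ^ 2 * h' + 26244 * h
      + 270 * h ^ 2) * hh'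
  have ej3 : j3 = h ^ 3 + 36 * h ^ 2 + 270 * h + 756 + h' := by
    apply mul_left_cancel₀ hh0
    linear_combination h2 - hh'
  obtain ⟨w, hw⟩ : ∃ w : F, w = h + h' := ⟨_, rfl⟩
  obtain ⟨v, hv⟩ : ∃ v : F, v = h - h' := ⟨_, rfl⟩
  have hC3 : w ^ 3 + 36 * w ^ 2 - 1916 * w - 50976 - (j + j3) = 0 := by
    rw [ej, ej3, hw]
    linear_combination (3 * h + 3 * h' + 72) * hh'
  have hδ : j3 - j = v * (w ^ 2 + 36 * w - 460) := by
    rw [ej, ej3, hw, hv]
    linear_combination (h' - h) * hh'
  have hv2 : v ^ 2 = w ^ 2 - 2916 := by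
    rw [hw, hv]
    linear_combination (-4 : F) * hh'
  have hS6 : (w ^ 2 - 2916) * (w ^ 2 + 36 * w - 460) ^ 2 - (j3 - j) ^ 2 = 0 := by
    rw [hδ, mul_pow, hv2]
    ring
  have hlin : w * (784416 * (j + j3) ^ 2 - 1646899200 * (j + j3) - 784400 * (j3 - j) ^ 2
        + 4194304000000000) =
      4 * (j + j3) ^ 3 + 76509504 * (j + j3) ^ 2 - 4 * (j + j3) * (j3 - j) ^ 2
        + 370403123200 * (j + j3) - 76521600 * (j3 - j) ^ 2 - 226492416000000000 := by
    linear_combination (615283360000 + (-784400 * w + 4 * (j + j3) + 76521600) *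
      (w ^ 3 + 36 * w ^ 2 - 1920 * w + (j + j3) - 54000)) * hC3
      - (-784400 * w + 4 * (j + j3) + 76521600) * hS6
  have hDen : 784416 * (j + j3) ^ 2 - 1646899200 * (j + j3) - 784400 * (j3 - j) ^ 2
        + 4194304000000000 ≠ 0 := by
    have e : 784416 * (j + j3) ^ 2 - 1646899200 * (j + j3) - 784400 * (j3 - j) ^ 2
        + 4194304000000000 = 16 * (j ^ 2 + j3 ^ 2 + 196102 * j * j3 - 102931200 * (j + j3)
          + 262144000000000) := by ring
    rw [e]
    exact mul_ne_zero (by norm_num) hΛ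
  have hwL : w ∈ L := by
    rw [(eq_div_iff hDen).mpr hlin]
    refine div_mem ?_ ?_
    all_goals
      repeat' first
        | exact hjL | exact hj3L | exact ofNat_mem L _
        | apply sub_mem | apply add_mem | apply mul_mem | apply pow_mem
  have hm : w ^ 2 + 36 * w - 460 ≠ 0 := by
    intro h0
    apply hne
    rw [h0, mul_zero] at hδ
    linear_combination -hδ
  have hvL : v ∈ L := by
    rw [(eq_div_iff hm).mpr hδ.symm]
    refine div_mem (sub_mem hj3L hjL) ?_
    repeat' first
      | exact hwL | exact ofNat_mem L _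
      | apply sub_mem | apply add_mem | apply mul_mem | apply pow_mem
  have hfin : h = (w + v) / 2 := by
    rw [hw, hv]
    ring
  rw [hfin]
  exact div_mem (add_mem hwL hvL) (ofNat_mem L 2)

/-! ### The Prelude objects: `j = jqModC K`, `j₃ = qExpand K 3 (jqModC K)` -/

open ModularCurve

/-- `qExpand` of a power series is the expanded power series. -/
theorem h80_qExpand_ofPowerSeries {R : Type*} [CommRing R] (N : ℕ) [NeZero N]
    (f : PowerSeries R) :
    qExpand R N (HahnSeries.ofPowerSeries ℤ R f) =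
      HahnSeries.ofPowerSeries ℤ R (PowerSeries.expand N (NeZero.ne N) f) := by
  ext k
  by_cases hk : (N : ℤ) ∣ k
  · obtain ⟨m, rfl⟩ := hk
    rw [qExpand_coeff_mul]
    rcases lt_or_ge m 0 with hm | hm
    · rw [ofPowerSeries_coeff_of_neg _ hm, ofPowerSeries_coeff_of_neg _
        (mul_neg_of_pos_of_neg (by exact_mod_cast Nat.pos_of_ne_zero (NeZero.ne N)) hm)]
    · lift m to ℕ using hm
      rw [HahnSeries.ofPowerSeries_apply_coeff,
        show (N : ℤ) * (m : ℤ) = ((N * m : ℕ) : ℤ) by push_cast; rfl,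
        HahnSeries.ofPowerSeries_apply_coeff, PowerSeries.coeff_expand_mul]
  · rw [qExpand_coeff_of_not_dvd N _ hk]
    rcases lt_or_ge k 0 with hk0 | hk0
    · rw [ofPowerSeries_coeff_of_neg _ hk0]
    · lift k to ℕ using hk0
      rw [HahnSeries.ofPowerSeries_apply_coeff, PowerSeries.coeff_expand_of_not_dvd]
      exact fun h => hk (Int.natCast_dvd_natCast.mpr h)

section Concrete

variable (K : Type*) [Field K]

/-- `j(q) ≠ j(q³)` (coefficient of `q⁻³`). -/
theorem h80_jq_ne : jqModC K ≠ qExpand K 3 (jqModC K) := by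
  intro h
  have h1 : (jqModC K).coeff (-3) = (qExpand K 3 (jqModC K)).coeff (-3) :=
    congrArg (fun x : LaurentSeries K => x.coeff (-3)) h
  rw [coeff_jqModC_of_lt K (by norm_num), show (-3 : ℤ) = ((3 : ℕ) : ℤ) * (-1) by norm_num,
    qExpand_coeff_mul, coeff_jqModC_neg_one] at h1
  exact zero_ne_one h1

/-- The denominator of the elimination does not vanish (coefficient of `q⁻⁶`). -/
theorem h80_Lambda_ne :
    jqModC K ^ 2 + (qExpand K 3 (jqModC K)) ^ 2 + 196102 * jqModC K * qExpand K 3 (jqModC K)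
      - 102931200 * (jqModC K + qExpand K 3 (jqModC K)) + 262144000000000 ≠ 0 := by
  set A : PowerSeries K := jNum.map (Int.castRingHom K) with hA
  set B : PowerSeries K := PowerSeries.expand 3 (by norm_num) A with hB
  set t : LaurentSeries K := HahnSeries.single 1 1 with ht
  have htX : HahnSeries.ofPowerSeries ℤ K PowerSeries.X = t := HahnSeries.ofPowerSeries_X
  have e1 : HahnSeries.ofPowerSeries ℤ K A = jqModC K * t := by
    rw [jqModC, mul_comm, ← mul_assoc, ht, HahnSeries.single_mul_single]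
    simp [hA]
  have e3 : HahnSeries.ofPowerSeries ℤ K B = qExpand K 3 (jqModC K) * t ^ 3 := by
    rw [jqModC, map_mul, qExpand_single, h80_qExpand_ofPowerSeries, mul_comm, ← mul_assoc, ht,
      HahnSeries.single_pow, HahnSeries.single_mul_single]
    simp [hB, hA]
  intro h0
  have key : HahnSeries.ofPowerSeries ℤ K
      (PowerSeries.X ^ 4 * A ^ 2 + B ^ 2 + 196102 * PowerSeries.X ^ 2 * A * B
        - 102931200 * (PowerSeries.X ^ 5 * A + PowerSeries.X ^ 3 * B)
        + 262144000000000 * PowerSeries.X ^ 6) = 0 := by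
    simp only [map_add, map_sub, map_mul, map_pow, map_ofNat, htX, e1, e3]
    linear_combination t ^ 6 * h0
  have hP := HahnSeries.ofPowerSeries_injective (key.trans (map_zero _).symm)
  have hc := congrArg PowerSeries.constantCoeff hP
  simp only [hB, hA, map_add, map_sub, map_mul, map_pow, PowerSeries.constantCoeff_X,
    PowerSeries.constantCoeff_expand] at hc
  rw [← PowerSeries.coeff_zero_eq_constantCoeff, PowerSeries.coeff_map,
    PowerSeries.coeff_zero_eq_constantCoeff, constantCoeff_jNum] at hc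
  simp at hc

variable [CharZero K]

/-- **Level 3 membership** for the Prelude `j`-expansions over a field of characteristic zero. -/
theorem h80_mem_adjoin3_jqModC (h : LaurentSeries K)
    (h1 : jqModC K * h ^ 3 = (h + 27) * (h + 243) ^ 3)
    (h2 : qExpand K 3 (jqModC K) * h = (h + 27) * (h + 3) ^ 3) :
    h ∈ IntermediateField.adjoin K {jqModC K, qExpand K 3 (jqModC K)} :=
  haveI : CharZero (LaurentSeries K) :=
    charZero_of_injective_algebraMap (algebraMap K (LaurentSeries K)).injective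
  h80_mem_adjoin3 _ _ h h1 h2 (h80_jq_ne K) (h80_Lambda_ne K)

/-- **Level 3 membership** in the full modular function field of level `N`, `3 ∣ N`. -/
theorem h80_mem_fullC3 (N : ℕ) [NeZero N] (hN : 3 ∣ N) (h : LaurentSeries K)
    (h1 : jqModC K * h ^ 3 = (h + 27) * (h + 243) ^ 3)
    (h2 : qExpand K 3 (jqModC K) * h = (h + 27) * (h + 3) ^ 3) :
    h ∈ modularFunctionFieldFullC K N := by
  have hle : IntermediateField.adjoin K {jqModC K, qExpand K 3 (jqModC K)} ≤
      modularFunctionFieldFullC K N := by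
    rw [IntermediateField.adjoin_le_iff]
    rintro x (rfl | rfl)
    · exact jqModC_mem_full K N
    · exact jqModCd_mem_full K N hN
  exact hle (h80_mem_adjoin3_jqModC K h h1 h2)

end Concrete

/-- **Level 3 membership** over `ℚ`: a Laurent series `h` with `j h³ = (h + 27)(h + 243)³` and
`j(q³) h = (h + 27)(h + 3)³` lies in `ℚ(j(q), j(q³))`. -/
theorem h80_mem_adjoin3_jq (h : LaurentSeries ℚ)
    (h1 : jq * h ^ 3 = (h + 27) * (h + 243) ^ 3)
    (h2 : qExpand ℚ 3 jq * h = (h + 27) * (h + 3) ^ 3) :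
    h ∈ IntermediateField.adjoin ℚ {jq, qExpand ℚ 3 jq} :=
  h80_mem_adjoin3_jqModC ℚ h h1 h2

/-- **Level 3 membership** in `modularFunctionFieldFull N`, `3 ∣ N`. -/
theorem h80_mem_full3 (N : ℕ) [NeZero N] (hN : 3 ∣ N) (h : LaurentSeries ℚ)
    (h1 : jq * h ^ 3 = (h + 27) * (h + 243) ^ 3)
    (h2 : qExpand ℚ 3 jq * h = (h + 27) * (h + 3) ^ 3) :
    h ∈ modularFunctionFieldFull N :=
  h80_mem_fullC3 ℚ N hN h h1 h2


/-! ### Level 2 -/

/-- **Level 2, abstract membership.**  If `j h² = (h + 256)³` and `j₂ h = (h + 16)³` in a field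
of characteristic zero, then `h` is a rational function of `j` and `j₂` (explicit elimination),
provided the two displayed quantities do not vanish. -/
theorem h80_mem_adjoin2 {K F : Type*} [Field K] [Field F] [Algebra K F] [CharZero F]
    (j j2 h : F) (h1 : j * h ^ 2 = (h + 256) ^ 3) (h2 : j2 * h = (h + 16) ^ 3) (hne : j ≠ j2)
    (hΛ : j + j2 + 191025 ≠ 0) :
    h ∈ IntermediateField.adjoin K {j, j2} := by
  have hjL : j ∈ IntermediateField.adjoin K {j, j2} :=
    IntermediateField.subset_adjoin K _ (Set.mem_insert _ _)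
  have hj2L : j2 ∈ IntermediateField.adjoin K {j, j2} :=
    IntermediateField.subset_adjoin K _ (Set.mem_insert_of_mem _ rfl)
  generalize IntermediateField.adjoin K {j, j2} = L at hjL hj2L ⊢
  have hh0 : h ≠ 0 := by
    rintro rfl
    norm_num at h1
  obtain ⟨h', hh'⟩ : ∃ h' : F, h * h' = 4096 := ⟨4096 / h, by field_simp⟩
  have ej : j = h' ^ 2 + 48 * h' + 768 + h := by
    apply mul_left_cancel₀ (pow_ne_zero 2 hh0)
    linear_combination h1 - (h * h' + 4096 + 48 * h) * hh'
  have ej2 : j2 = h ^ 2 + 48 * h + 768 + h' := by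
    apply mul_left_cancel₀ hh0
    linear_combination h2 - hh'
  obtain ⟨w, hw⟩ : ∃ w : F, w = h + h' := ⟨_, rfl⟩
  obtain ⟨v, hv⟩ : ∃ v : F, v = h - h' := ⟨_, rfl⟩
  have hC2 : w ^ 2 + 49 * w - 6656 - (j + j2) = 0 := by
    rw [ej, ej2, hw]
    linear_combination (2 : F) * hh'
  have hδ : j2 - j = v * (w + 47) := by
    rw [ej, ej2, hw, hv]
    ring
  have hv2 : v ^ 2 = w ^ 2 - 16384 := by
    rw [hw, hv]
    linear_combination (-4 : F) * hh'
  have hS4 : (w ^ 2 - 16384) * (w + 47) ^ 2 - (j2 - j) ^ 2 = 0 := by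
    rw [hδ, mul_pow, hv2]
    ring
  have hlin : w * (4 * (j + j2) + 764100) =
      (j + j2) ^ 2 - 3068 * (j + j2) - (j2 - j) ^ 2 - 100915200 := by
    linear_combination (w ^ 2 + 45 * w + (j + j2) - 9724) * hC2 - hS4
  have hDen : 4 * (j + j2) + 764100 ≠ 0 := by
    have e : 4 * (j + j2) + 764100 = 4 * (j + j2 + 191025) := by ring
    rw [e]
    exact mul_ne_zero (by norm_num) hΛ
  have hwL : w ∈ L := by
    rw [(eq_div_iff hDen).mpr hlin]
    refine div_mem ?_ ?_
    all_goals
      repeat' first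
        | exact hjL | exact hj2L | exact ofNat_mem L _
        | apply sub_mem | apply add_mem | apply mul_mem | apply pow_mem
  have hm : w + 47 ≠ 0 := by
    intro h0
    apply hne
    rw [h0, mul_zero] at hδ
    linear_combination -hδ
  have hvL : v ∈ L := by
    rw [(eq_div_iff hm).mpr hδ.symm]
    exact div_mem (sub_mem hj2L hjL) (add_mem hwL (ofNat_mem L 47))
  have hfin : h = (w + v) / 2 := by
    rw [hw, hv]
    ring
  rw [hfin]
  exact div_mem (add_mem hwL hvL) (ofNat_mem L 2)

section Concrete2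

variable (K : Type*) [Field K]

/-- `j(q) ≠ j(q²)` (coefficient of `q⁻²`). -/
theorem h80_jq_ne2 : jqModC K ≠ qExpand K 2 (jqModC K) := by
  intro h
  have h1 : (jqModC K).coeff (-2) = (qExpand K 2 (jqModC K)).coeff (-2) :=
    congrArg (fun x : LaurentSeries K => x.coeff (-2)) h
  rw [coeff_jqModC_of_lt K (by norm_num), show (-2 : ℤ) = ((2 : ℕ) : ℤ) * (-1) by norm_num,
    qExpand_coeff_mul, coeff_jqModC_neg_one] at h1
  exact zero_ne_one h1

/-- The denominator of the level-2 elimination does not vanish (coefficient of `q⁻²`). -/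
theorem h80_Lambda_ne2 : jqModC K + qExpand K 2 (jqModC K) + 191025 ≠ 0 := by
  intro h
  have h1 : (jqModC K + qExpand K 2 (jqModC K) + 191025).coeff (-2) = 0 := by
    rw [h]; rfl
  have hc : ((191025 : LaurentSeries K)).coeff (-2) = 0 := by
    rw [show (191025 : LaurentSeries K) = HahnSeries.C (191025 : K) from (map_ofNat _ _).symm,
      HahnSeries.C_apply, HahnSeries.coeff_single_of_ne (by norm_num)]
  rw [HahnSeries.coeff_add, HahnSeries.coeff_add, hc, coeff_jqModC_of_lt K (by norm_num),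
    show (-2 : ℤ) = ((2 : ℕ) : ℤ) * (-1) by norm_num, qExpand_coeff_mul,
    coeff_jqModC_neg_one] at h1
  simp at h1

variable [CharZero K]

/-- **Level 2 membership** for the Prelude `j`-expansions over a field of characteristic zero. -/
theorem h80_mem_adjoin2_jqModC (h : LaurentSeries K)
    (h1 : jqModC K * h ^ 2 = (h + 256) ^ 3)
    (h2 : qExpand K 2 (jqModC K) * h = (h + 16) ^ 3) :
    h ∈ IntermediateField.adjoin K {jqModC K, qExpand K 2 (jqModC K)} :=
  haveI : CharZero (LaurentSeries K) :=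
    charZero_of_injective_algebraMap (algebraMap K (LaurentSeries K)).injective
  h80_mem_adjoin2 _ _ h h1 h2 (h80_jq_ne2 K) (h80_Lambda_ne2 K)

/-- **Level 2 membership** in the full modular function field of level `N`, `2 ∣ N`. -/
theorem h80_mem_fullC2 (N : ℕ) [NeZero N] (hN : 2 ∣ N) (h : LaurentSeries K)
    (h1 : jqModC K * h ^ 2 = (h + 256) ^ 3)
    (h2 : qExpand K 2 (jqModC K) * h = (h + 16) ^ 3) :
    h ∈ modularFunctionFieldFullC K N := by
  have hle : IntermediateField.adjoin K {jqModC K, qExpand K 2 (jqModC K)} ≤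
      modularFunctionFieldFullC K N := by
    rw [IntermediateField.adjoin_le_iff]
    rintro x (rfl | rfl)
    · exact jqModC_mem_full K N
    · exact jqModCd_mem_full K N hN
  exact hle (h80_mem_adjoin2_jqModC K h h1 h2)

end Concrete2

/-- **Level 2 membership** over `ℚ`: a Laurent series `h` with `j h² = (h + 256)³` and
`j(q²) h = (h + 16)³` lies in `ℚ(j(q), j(q²))`. -/
theorem h80_mem_adjoin2_jq (h : LaurentSeries ℚ)
    (h1 : jq * h ^ 2 = (h + 256) ^ 3) (h2 : qExpand ℚ 2 jq * h = (h + 16) ^ 3) :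
    h ∈ IntermediateField.adjoin ℚ {jq, qExpand ℚ 2 jq} :=
  h80_mem_adjoin2_jqModC ℚ h h1 h2

/-- **Level 2 membership** in `modularFunctionFieldFull N`, `2 ∣ N`. -/
theorem h80_mem_full2 (N : ℕ) [NeZero N] (hN : 2 ∣ N) (h : LaurentSeries ℚ)
    (h1 : jq * h ^ 2 = (h + 256) ^ 3) (h2 : qExpand ℚ 2 jq * h = (h + 16) ^ 3) :
    h ∈ modularFunctionFieldFull N :=
  h80_mem_fullC2 ℚ N hN h h1 h2

end Fermat.Agent.S18
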