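import Mathlib
import Fermat.Prelude.Def_ModularCurve_ArithmeticGalois
import Fermat.Agent.S18.Haupt2
import Fermat.Agent.S18.HauptMem_80
import Fermat.Agent.S18.Haupt3Mem53
import Fermat.Agent.S24.AsmBridgeB

/-!
# The level 2 Hauptmodul in the Prelude function fields (S18 row B1, helper70)

Level 2 mirror of the level 3 package `Haupt3R_34` / `Haupt3Mem_34` / `Haupt3Mem53b`, for the
Hauptmodul `h70_h2 R = Δ(q)/Δ(q²)` of `Haupt2.lean` (any commutative ring `R`):

* `h70_h2_eq_pole`        : `h = q⁻¹ · u`, `u = h70_u2` an integral power series, `u(0) = 1`;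
* `h70_h2inv`, `h70_h2_mul_h2inv`, `h70_h2_isUnit`, `h70_h2inv_eq_inv`;
* `h70_h2_transcendental` : `h` is transcendental over `R`;
* `h70_j2_mul_h2'`, `h70_j2_sub_1728_mul_h2` : the Fricke side, `qExpand` form;
* `h70_h2_mem_adjoin`, `h70_h2_mem_fullC`, `h70_h2inv_mem_fullC` (`K` a field of characteristic
  zero, `2 ∣ M`), `h70_h2_mem_fullM`, `h70_h2_mem_baseChange`, `h70_h2_mem_bar`;
* `h70_h2bar M h2 : ↥(modularFunctionFieldBar M)` with `h70_h2bar_rel`, `h70_h2bar_rel2`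
  (the hypotheses `hrel` of `hh_level2` / `g94_hcodim2`), `h70_h2bar_transcendental`,
  `h70_h2bar_ne_zero`.
-/

set_option autoImplicit false

open ModularCurve

namespace Fermat.Agent.S18

open Fermat.Agent.S28

/-- `u = ∏ (1 - qⁿ)²⁴ / (1 - q²ⁿ)²⁴`, so that `h = q⁻¹ u`. -/
noncomputable def h70_u2 : PowerSeries ℤ :=
  dedekindEtaUnit * PowerSeries.expand 2 two_ne_zero dedekindEtaUnitInv

/-- `v = 1/u`, so that `1/h = q v`. -/
noncomputable def h70_v2 : PowerSeries ℤ :=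
  dedekindEtaUnitInv * PowerSeries.expand 2 two_ne_zero dedekindEtaUnit

theorem h70_u2_mul_v2 : h70_u2 * h70_v2 = 1 := by
  have h1 := dedekindEtaUnit_mul_inv
  have h2 := congrArg (PowerSeries.expand 2 two_ne_zero) dedekindEtaUnit_mul_inv
  rw [map_mul, map_one] at h2
  unfold h70_u2 h70_v2
  linear_combination (PowerSeries.expand 2 two_ne_zero dedekindEtaUnitInv *
    PowerSeries.expand 2 two_ne_zero dedekindEtaUnit) * h1 + h2

theorem h70_constantCoeff_u2 : PowerSeries.constantCoeff h70_u2 = 1 := by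
  rw [h70_u2, map_mul, PowerSeries.constantCoeff_expand, constantCoeff_dedekindEtaUnit,
    constantCoeff_dedekindEtaUnitInv, mul_one]

section Ring

variable (R : Type*) [CommRing R]

/-- `h = q⁻¹ · u` with `u` an integral power series with constant coefficient `1`. -/
theorem h70_h2_eq_pole :
    h70_h2 R = HahnSeries.single (-1 : ℤ) (1 : R) *
      HahnSeries.ofPowerSeries ℤ R (h70_u2.map (Int.castRingHom R)) := by
  have h1 : qE R 2 (HahnSeries.single (-1 : ℤ) (1 : R)) = HahnSeries.single (-2 : ℤ) (1 : R) := by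
    rw [qE_of_neZero, qExpand_single]
    norm_num
  have h2 : (HahnSeries.single (1 : ℤ) (1 : R) : LaurentSeries R) * HahnSeries.single (-2 : ℤ) 1 =
      HahnSeries.single (-1 : ℤ) 1 := by
    rw [HahnSeries.single_mul_single]
    norm_num
  rw [h70_h2, DeltaSer, DeltaInv, map_mul, h1, h70_qE_ofPowerSeries R 2 two_ne_zero, h70_u2,
    map_mul, map_mul, PowerSeries.map_expand, ← h2]
  ring

/-- The inverse of the level 2 Hauptmodul: `1/h = Δ(q²)/Δ(q)`. -/
noncomputable def h70_h2inv : LaurentSeries R := qE R 2 (DeltaSer R) * DeltaInv R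

theorem h70_h2_mul_h2inv : h70_h2 R * h70_h2inv R = 1 := h70_h2_mul_inv R

theorem h70_h2_isUnit : IsUnit (h70_h2 R) :=
  IsUnit.of_mul_eq_one _ (h70_h2_mul_h2inv R)

variable {R} in
theorem h70_coeffMap_h2inv {S : Type*} [CommRing S] (φ : R →+* S) :
    coeffMap φ (h70_h2inv R) = h70_h2inv S := by
  rw [h70_h2inv, map_mul, coeffMap_qE, coeffMap_DeltaSer, coeffMap_DeltaInv, h70_h2inv]

/-- The level 2 Hauptmodul is transcendental over the coefficient ring. -/
theorem h70_h2_transcendental : Transcendental R (h70_h2 R) := by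
  rw [h70_h2_eq_pole]
  refine h53m_transcendental_of_pole _ ?_
  rw [← PowerSeries.coeff_zero_eq_constantCoeff_apply, PowerSeries.coeff_map,
    PowerSeries.coeff_zero_eq_constantCoeff_apply, h70_constantCoeff_u2, map_one]

/-- Fricke companion, `qExpand` form: `j(q²) · h = (h + 16)³`. -/
theorem h70_j2_mul_h2' : qExpand R 2 (jqModC R) * h70_h2 R = (h70_h2 R + 16) ^ 3 := by
  have h := h70_j2_mul_h2 R
  rwa [qE_of_neZero] at h

/-- `(j(q²) - 1728) · h = (h + 64) (h - 8)²`. -/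
theorem h70_j2_sub_1728_mul_h2 :
    (qExpand R 2 (jqModC R) - 1728) * h70_h2 R = (h70_h2 R + 64) * (h70_h2 R - 8) ^ 2 := by
  linear_combination h70_j2_mul_h2' R

end Ring

section Field

variable (K : Type*) [Field K]

theorem h70_h2inv_eq_inv : h70_h2inv K = (h70_h2 K)⁻¹ :=
  (inv_eq_of_mul_eq_one_right (h70_h2_mul_h2inv K)).symm

variable [CharZero K]

/-- `h ∈ K(j(q), j(q²))`. -/
theorem h70_h2_mem_adjoin : h70_h2 K ∈
    IntermediateField.adjoin K ({jqModC K, qExpand K 2 (jqModC K)} : Set (LaurentSeries K)) :=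
  h80_mem_adjoin2_jqModC K (h70_h2 K) (h70_j_mul_h2_sq K) (h70_j2_mul_h2' K)

/-- `h` lies in the function field of `X₀(M)` over `K` whenever `2 ∣ M`. -/
theorem h70_h2_mem_fullC (M : ℕ) [NeZero M] (h2 : 2 ∣ M) :
    h70_h2 K ∈ modularFunctionFieldFullC K M :=
  h80_mem_fullC2 K M h2 (h70_h2 K) (h70_j_mul_h2_sq K) (h70_j2_mul_h2' K)

theorem h70_h2inv_mem_fullC (M : ℕ) [NeZero M] (h2 : 2 ∣ M) :
    h70_h2inv K ∈ modularFunctionFieldFullC K M := by
  rw [h70_h2inv_eq_inv]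
  exact inv_mem (h70_h2_mem_fullC K M h2)

end Field

/-- Over `ℚ`: `h ∈ ℚ(j(q^d) : d ∣ M)` whenever `2 ∣ M`. -/
theorem h70_h2_mem_fullM (M : ℕ) [NeZero M] (h2 : 2 ∣ M) :
    h70_h2 ℚ ∈ modularFunctionFieldFull M := by
  rw [← modularFunctionFieldFullC_rat]
  exact h70_h2_mem_fullC ℚ M h2

section BaseChange

variable (L : Type*) [Field L] [Algebra ℚ L]

theorem h70_coeffEmb_h2 : coeffEmb L (h70_h2 ℚ) = h70_h2 L := by
  rw [coeffEmb, h70_coeffMap_h2]

/-- `h` with coefficients in `L` lies in the base change of the function field of `X₀(M)`. -/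
theorem h70_h2_mem_baseChange (M : ℕ) [NeZero M] (h2 : 2 ∣ M) :
    h70_h2 L ∈ laurentBaseChange L (modularFunctionFieldFull M) := by
  rw [← h70_coeffEmb_h2]
  exact coeffEmb_mem_laurentBaseChange L (h70_h2_mem_fullM M h2)

theorem h70_h2inv_mem_baseChange (M : ℕ) [NeZero M] (h2 : 2 ∣ M) :
    h70_h2inv L ∈ laurentBaseChange L (modularFunctionFieldFull M) := by
  rw [h70_h2inv_eq_inv]
  exact inv_mem (h70_h2_mem_baseChange L M h2)

end BaseChange

/-- `h ∈ F(M)_{ℚ̄}` for `2 ∣ M`. -/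
theorem h70_h2_mem_bar (M : ℕ) [NeZero M] (h2 : 2 ∣ M) :
    h70_h2 (AlgebraicClosure ℚ) ∈ modularFunctionFieldBar M :=
  h70_h2_mem_baseChange (AlgebraicClosure ℚ) M h2

open Fermat.Agent.S24

theorem h70_JJ_one : JJ 1 = jqModC Kbar := by
  rw [JJ_of_neZero, qExpand_one_apply, ← jqModC_rat, coeffEmb, coeffMap_jqModC]

theorem h70_JJ_two : JJ 2 = qExpand Kbar 2 (jqModC Kbar) := by
  rw [JJ_of_neZero, ← jqModC_rat, coeffEmb, coeffMap_qExpand, coeffMap_jqModC]

/-- The level 2 Hauptmodul as an element of `F(M)_ℚbar`, `2 ∣ M`. -/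
noncomputable def h70_h2bar (M : ℕ) [NeZero M] (h2 : 2 ∣ M) : ↥(modularFunctionFieldBar M) :=
  ⟨h70_h2 Kbar, h70_h2_mem_bar M h2⟩

theorem h70_h2bar_coe (M : ℕ) [NeZero M] (h2 : 2 ∣ M) :
    ((h70_h2bar M h2 : ↥(modularFunctionFieldBar M)) : LaurentSeries Kbar) = h70_h2 Kbar := rfl

/-- `j h² = (h + 256)³` in `F(M)_ℚbar`: the hypothesis `hrel` of `hh_level2` / `g94_hcodim2`. -/
theorem h70_h2bar_rel (M : ℕ) [NeZero M] (h2 : 2 ∣ M) :
    (⟨JJ 1, asmAb_JJ_mem M 1 (one_dvd M)⟩ : ↥(modularFunctionFieldBar M)) * h70_h2bar M h2 ^ 2 =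
      (h70_h2bar M h2 + 256) ^ 3 := by
  apply Subtype.ext
  push_cast
  rw [h70_h2bar_coe, h70_JJ_one]
  exact h70_j_mul_h2_sq Kbar

/-- `j(q²) h = (h + 16)³` in `F(M)_ℚbar`. -/
theorem h70_h2bar_rel2 (M : ℕ) [NeZero M] (h2 : 2 ∣ M) :
    (⟨JJ 2, asmAb_JJ_mem M 2 h2⟩ : ↥(modularFunctionFieldBar M)) * h70_h2bar M h2 =
      (h70_h2bar M h2 + 16) ^ 3 := by
  apply Subtype.ext
  push_cast
  rw [h70_h2bar_coe, h70_JJ_two]
  exact h70_j2_mul_h2' Kbar

/-- The Hauptmodul is transcendental over `ℚbar` inside `F(M)_ℚbar`. -/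
theorem h70_h2bar_transcendental (M : ℕ) [NeZero M] (h2 : 2 ∣ M) :
    Transcendental Kbar (h70_h2bar M h2) := by
  intro halg
  refine h70_h2_transcendental Kbar ?_
  have h := halg.algebraMap (A := LaurentSeries Kbar)
  exact h

/-- The Hauptmodul is a unit of `F(M)_ℚbar` (it is nonzero). -/
theorem h70_h2bar_ne_zero (M : ℕ) [NeZero M] (h2 : 2 ∣ M) : h70_h2bar M h2 ≠ 0 := by
  intro h0
  have h1 := congrArg (fun x : ↥(modularFunctionFieldBar M) => (x : LaurentSeries Kbar)) h0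
  simp only [h70_h2bar_coe, ZeroMemClass.coe_zero] at h1
  exact (h70_h2_isUnit Kbar).ne_zero h1

end Fermat.Agent.S18
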