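import Mathlib

/-!
# Kernel-evaluable truncated power series arithmetic over `ℤ`

`h34_tr N f` is the list of the first `N` coefficients of `f : PowerSeries ℤ`.  The operations
`h34_mul`, `h34_add`, `h34_sub`, `h34_smul`, `h34_V` on lists of integers compute the truncation
of a product, sum, difference, scalar multiple and of the substitution `q ↦ q ^ d`; they are
plain structural recursions, so closed instances are decided by kernel reduction.
-/

set_option autoImplicit false

namespace Fermat.Agent.S18

/-- The first `N` coefficients of an integral power series. -/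
noncomputable def h34_tr (N : ℕ) (f : PowerSeries ℤ) : List ℤ :=
  (List.range N).map fun n => PowerSeries.coeff n f

/-- The `n`-th Cauchy product coefficient of two coefficient lists. -/
def h34_cm (a b : List ℤ) (n : ℕ) : ℤ :=
  ((List.range (n + 1)).map fun i => a.getD i 0 * b.getD (n - i) 0).sum

/-- Truncated product. -/
def h34_mul (N : ℕ) (a b : List ℤ) : List ℤ := (List.range N).map (h34_cm a b)

/-- Truncated sum. -/
def h34_add (N : ℕ) (a b : List ℤ) : List ℤ :=
  (List.range N).map fun n => a.getD n 0 + b.getD n 0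

/-- Truncated difference. -/
def h34_sub (N : ℕ) (a b : List ℤ) : List ℤ :=
  (List.range N).map fun n => a.getD n 0 - b.getD n 0

/-- Truncated scalar multiple. -/
def h34_smul (N : ℕ) (c : ℤ) (a : List ℤ) : List ℤ :=
  (List.range N).map fun n => c * a.getD n 0

/-- Truncated substitution `q ↦ q ^ d`. -/
def h34_V (d N : ℕ) (a : List ℤ) : List ℤ :=
  (List.range N).map fun n => if n % d = 0 then a.getD (n / d) 0 else 0

/-- The formal substitution `q ↦ q ^ d` on integral power series. -/
noncomputable def h34_Vser (d : ℕ) (f : PowerSeries ℤ) : PowerSeries ℤ :=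
  PowerSeries.mk fun n => if n % d = 0 then PowerSeries.coeff (n / d) f else 0

theorem h34_tr_getD (N : ℕ) (f : PowerSeries ℤ) {i : ℕ} (hi : i < N) :
    (h34_tr N f).getD i 0 = PowerSeries.coeff i f := by
  simp [h34_tr, List.getD_eq_getElem?_getD, hi]

theorem h34_list_sum_range (g : ℕ → ℤ) (n : ℕ) :
    ((List.range n).map g).sum = ∑ i ∈ Finset.range n, g i := by
  induction n with
  | zero => simp
  | succ n ih => rw [List.range_succ, List.map_append, List.sum_append, ih, Finset.sum_range_succ]; simp

theorem h34_tr_mul (N : ℕ) (f g : PowerSeries ℤ) :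
    h34_tr N (f * g) = h34_mul N (h34_tr N f) (h34_tr N g) := by
  unfold h34_mul
  conv_lhs => rw [h34_tr]
  refine List.map_congr_left fun n hn => ?_
  have hn' : n < N := List.mem_range.mp hn
  rw [h34_cm, h34_list_sum_range, PowerSeries.coeff_mul,
    Finset.Nat.sum_antidiagonal_eq_sum_range_succ_mk]
  refine Finset.sum_congr rfl fun i hi => ?_
  have hi' : i < n + 1 := Finset.mem_range.mp hi
  rw [h34_tr_getD N f (by omega), h34_tr_getD N g (by omega)]

theorem h34_tr_add (N : ℕ) (f g : PowerSeries ℤ) :
    h34_tr N (f + g) = h34_add N (h34_tr N f) (h34_tr N g) := by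
  unfold h34_add
  conv_lhs => rw [h34_tr]
  refine List.map_congr_left fun n hn => ?_
  have hn' : n < N := List.mem_range.mp hn
  rw [h34_tr_getD N f hn', h34_tr_getD N g hn', map_add]

theorem h34_tr_sub (N : ℕ) (f g : PowerSeries ℤ) :
    h34_tr N (f - g) = h34_sub N (h34_tr N f) (h34_tr N g) := by
  unfold h34_sub
  conv_lhs => rw [h34_tr]
  refine List.map_congr_left fun n hn => ?_
  have hn' : n < N := List.mem_range.mp hn
  rw [h34_tr_getD N f hn', h34_tr_getD N g hn', map_sub]

theorem h34_tr_smul (N : ℕ) (c : ℤ) (f : PowerSeries ℤ) :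
    h34_tr N (c • f) = h34_smul N c (h34_tr N f) := by
  unfold h34_smul
  conv_lhs => rw [h34_tr]
  refine List.map_congr_left fun n hn => ?_
  have hn' : n < N := List.mem_range.mp hn
  rw [h34_tr_getD N f hn', map_zsmul, smul_eq_mul]

theorem h34_tr_Vser (d N : ℕ) (f : PowerSeries ℤ) :
    h34_tr N (h34_Vser d f) = h34_V d N (h34_tr N f) := by
  unfold h34_V
  conv_lhs => rw [h34_tr]
  refine List.map_congr_left fun n hn => ?_
  have hn' : n < N := List.mem_range.mp hn
  have hnd : n / d < N := lt_of_le_of_lt (Nat.div_le_self n d) hn'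
  rw [h34_tr_getD N f hnd, h34_Vser, PowerSeries.coeff_mk]

theorem h34_tr_one (N : ℕ) :
    h34_tr N (1 : PowerSeries ℤ) = (List.range N).map fun n => if n = 0 then 1 else 0 := by
  unfold h34_tr
  refine List.map_congr_left fun n _ => ?_
  rw [PowerSeries.coeff_one]

theorem h34_coeff_eq_zero_of_tr {N : ℕ} {f : PowerSeries ℤ}
    (h : h34_tr N f = List.replicate N 0) {n : ℕ} (hn : n < N) : PowerSeries.coeff n f = 0 := by
  have h1 := h34_tr_getD N f hn
  rw [h] at h1
  rw [← h1]
  simp [List.getD_eq_getElem?_getD, hn]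

theorem h34_tr_congr {N : ℕ} {f g : PowerSeries ℤ} (h : f = g) : h34_tr N f = h34_tr N g := by
  rw [h]

/-! Sanity checks of kernel evaluation. -/

example : h34_mul 5 [1, 2, 3, 4, 5] [1, -1, 0, 0, 7] = [1, 1, 1, 1, 8] := by decide +kernel

example : h34_V 3 7 [1, 2, 3, 4, 5, 6, 7] = [1, 0, 0, 2, 0, 0, 3] := by decide +kernel

end Fermat.Agent.S18
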