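import Mathlib
import Fermat.Agent.S16.LevelOneSturm
import Fermat.Agent.S18.Haupt3Trunc

/-!
# The two level 3 Hauptmodul identities: the finite coefficient check

With `E = 1 + 240 ∑ σ₃(n) qⁿ`, `D = Δ(q)`, `T = Δ(q³)`, `U = E(q³)` (integral power series) the
first 17 coefficients of

* `(D² + 196830 D T + 3¹⁸ T²)² - D T (E³ - 756 D - 19131876 T)²`
* `(D² + 270 D T + 729 T²)² - D T (U³ - 36 D - 756 T)²`

vanish.  Everything is evaluated by the kernel on literal lists of integers
(file generated by a script; the tables are the truncations of the intermediate products).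
-/

set_option autoImplicit false

namespace Fermat.Agent.S18

open Fermat.Agent.S16

/-- The integral power series `(d² + c₁ d t + c₂ t²)² - d t (x³ - c₃ d - c₄ t)²`. -/
noncomputable def h34_P (x d t : PowerSeries ℤ) (c₁ c₂ c₃ c₄ : ℤ) : PowerSeries ℤ :=
  (d * d + c₁ • (d * t) + c₂ • (t * t)) * (d * d + c₁ • (d * t) + c₂ • (t * t)) -
    d * t * ((x * x * x - c₃ • d - c₄ • t) * (x * x * x - c₃ • d - c₄ • t))

/-- The integral `q`-expansion of `E₄`. -/
noncomputable def h34_E : PowerSeries ℤ := 1 + (240 : ℤ) • sturmA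

theorem h34_E_eq : h34_E = 1 + 240 * sturmA := by
  unfold h34_E
  simp [zsmul_eq_mul]

theorem h34_sturmDelta_eq : sturmDelta = sturmB + (100 : ℤ) • (sturmA * sturmA) +
    (8000 : ℤ) • (sturmA * sturmA * sturmA) - (147 : ℤ) • (sturmB * sturmB) +
    (5 : ℤ) • sturmD := by
  unfold sturmDelta
  simp only [zsmul_eq_mul]
  push_cast
  ring

theorem h34_trA : h34_tr 17 (sturmA) =
    [0, 1, 9, 28, 73, 126, 252, 344, 585, 757, 1134, 1332, 2044, 2198, 3096, 3528, 4681] := by
  unfold h34_tr sturmA
  simp only [PowerSeries.coeff_mk]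
  decide +kernel

theorem h34_trB : h34_tr 17 (sturmB) =
    [0, 1, 33, 244, 1057, 3126, 8052, 16808, 33825, 59293, 103158, 161052, 257908, 371294, 554664, 762744, 1082401] := by
  unfold h34_tr sturmB
  simp only [PowerSeries.coeff_mk]
  decide +kernel

theorem h34_trSD : h34_tr 17 (sturmD) =
    [0, 0, -2, -18, -82, -250, -650, -1372, -2770, -4878, -8502, -13310, -21322, -30758, -45964, -63268, -89810] := by
  unfold h34_tr sturmD
  simp only [PowerSeries.coeff_mk]
  decide +kernel

theorem h34_trE : h34_tr 17 (h34_E) =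
    [1, 240, 2160, 6720, 17520, 30240, 60480, 82560, 140400, 181680, 272160, 319680, 490560, 527520, 743040, 846720, 1123440] := by
  unfold h34_E
  rw [h34_tr_add, h34_tr_smul, h34_tr_one, h34_trA]
  decide +kernel

theorem h34_trAA : h34_tr 17 (sturmA * sturmA) =
    [0, 0, 1, 18, 137, 650, 2350, 6860, 17609, 39870, 83976, 162382, 301070, 522886, 885284, 1424468, 2254537] := by
  rw [h34_tr_mul, h34_trA]
  decide +kernel

theorem h34_trAAA : h34_tr 17 (sturmA * sturmA * sturmA) =
    [0, 0, 0, 1, 27, 327, 2460, 13476, 58731, 214741, 685182, 1954953, 5095048, 12285903, 27778566, 59311440, 120695979] := by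
  rw [h34_tr_mul, h34_trAA, h34_trA]
  decide +kernel

theorem h34_trBB : h34_tr 17 (sturmB * sturmB) =
    [0, 0, 1, 66, 1577, 18218, 135550, 738236, 3207785, 11714718, 37347144, 106499470, 277489886, 668981686, 1512360404, 3228797252, 6570019945] := by
  rw [h34_tr_mul, h34_trB]
  decide +kernel

theorem h34_trD : h34_tr 17 (sturmDelta) =
    [0, 1, -24, 252, -1472, 4830, -6048, -16744, 84480, -113643, -115920, 534612, -370944, -577738, 401856, 1217160, 987136] := by
  rw [h34_sturmDelta_eq, h34_tr_add, h34_tr_sub, h34_tr_add, h34_tr_add, h34_tr_smul, h34_tr_smul,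
    h34_tr_smul, h34_tr_smul, h34_trAA, h34_trAAA, h34_trBB, h34_trB, h34_trSD]
  decide +kernel

theorem h34_trT : h34_tr 17 (h34_Vser 3 sturmDelta) =
    [0, 0, 0, 1, 0, 0, -24, 0, 0, 252, 0, 0, -1472, 0, 0, 4830, 0] := by
  rw [h34_tr_Vser, h34_trD]
  decide +kernel

theorem h34_trU : h34_tr 17 (h34_Vser 3 h34_E) =
    [1, 0, 0, 240, 0, 0, 2160, 0, 0, 6720, 0, 0, 17520, 0, 0, 30240, 0] := by
  rw [h34_tr_Vser, h34_trE]
  decide +kernel

theorem h34_trDD : h34_tr 17 (sturmDelta * sturmDelta) =
    [0, 0, 1, -48, 1080, -15040, 143820, -985824, 4857920, -16295040, 28412910, 38671600, -424520544, 1268350272, -1211937160, -4306546080, 18293091840] := by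
  rw [h34_tr_mul, h34_trD]
  decide +kernel

theorem h34_trDT : h34_tr 17 (sturmDelta * h34_Vser 3 sturmDelta) =
    [0, 0, 0, 0, 1, -24, 252, -1496, 5406, -12096, 18836, -37488, 95013, -86480, -240420, 461448, 156468] := by
  rw [h34_tr_mul, h34_trD, h34_trT]
  decide +kernel

theorem h34_trTT : h34_tr 17 (h34_Vser 3 sturmDelta * h34_Vser 3 sturmDelta) =
    [0, 0, 0, 0, 0, 0, 1, 0, 0, -48, 0, 0, 1080, 0, 0, -15040, 0] := by
  rw [h34_tr_mul, h34_trT]
  decide +kernel

theorem h34_traXX : h34_tr 17 (h34_E * h34_E) =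
    [1, 480, 61920, 1050240, 7926240, 37500480, 135480960, 395301120, 1014559200, 2296875360, 4837561920, 9353842560, 17342613120, 30119288640, 50993844480, 82051050240, 129863578080] := by
  rw [h34_tr_mul, h34_trE]
  decide +kernel

theorem h34_traXXX : h34_tr 17 (h34_E * h34_E * h34_E) =
    [1, 720, 179280, 16954560, 396974160, 4632858720, 34413301440, 187477879680, 814940600400, 2975469665040, 9486467837280, 27053330840640, 70485969919680, 169930679355360, 384163875688320, 820167497170560, 1668890801059920] := by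
  rw [h34_tr_mul, h34_traXX, h34_trE]
  decide +kernel

theorem h34_traa : h34_tr 17 (sturmDelta * sturmDelta + (196830 : ℤ) • (sturmDelta * h34_Vser 3 sturmDelta) +
    (387420489 : ℤ) • (h34_Vser 3 sturmDelta * h34_Vser 3 sturmDelta)) =
    [0, 0, 1, -48, 197910, -4738960, 437165469, -295443504, 1068920900, -20993334192, 3735902790, -7340091440, 436691016366, -15753508128, -48533805760, -5740283890800, 49090688280] := by
  rw [h34_tr_add, h34_tr_add, h34_tr_smul, h34_tr_smul, h34_trDD, h34_trDT, h34_trTT]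
  decide +kernel

theorem h34_traaa : h34_tr 17 ((sturmDelta * sturmDelta + (196830 : ℤ) • (sturmDelta * h34_Vser 3 sturmDelta) +
    (387420489 : ℤ) • (h34_Vser 3 sturmDelta * h34_Vser 3 sturmDelta)) *
    (sturmDelta * sturmDelta + (196830 : ℤ) • (sturmDelta * h34_Vser 3 sturmDelta) +
    (387420489 : ℤ) • (h34_Vser 3 sturmDelta * h34_Vser 3 sturmDelta))) =
    [0, 0, 0, 0, 1, -96, 398124, -28477280, 40497639198, -1918333919232, 195527078239364, -4260506392772544, 194338960283947653, -276756497621582912, 1222330942278791628, -19025088944838264288, 17056116962597468244] := by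
  rw [h34_tr_mul, h34_traa]
  decide +kernel

theorem h34_trab : h34_tr 17 (h34_E * h34_E * h34_E - (756 : ℤ) • sturmDelta -
    (19131876 : ℤ) • h34_Vser 3 sturmDelta) =
    [1, -36, 197424, -2367828, 398086992, 4629207240, 34877038752, 187490538144, 814876733520, 2970734346396, 9486555472800, 27052926673968, 70514412474816, 169931116125288, 384163571885184, 820074170036520, 1668890054785104] := by
  rw [h34_tr_sub, h34_tr_sub, h34_tr_smul, h34_tr_smul, h34_traXXX, h34_trD, h34_trT]
  decide +kernel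

theorem h34_trabb : h34_tr 17 ((h34_E * h34_E * h34_E - (756 : ℤ) • sturmDelta -
    (19131876 : ℤ) • h34_Vser 3 sturmDelta) *
    (h34_E * h34_E * h34_E - (756 : ℤ) • sturmDelta -
    (19131876 : ℤ) • h34_Vser 3 sturmDelta)) =
    [1, -72, 396144, -18950184, 39942893376, -954335999088, 162526913211024, -59505997601088, 150310179590128992, 3594466247553264312, 48631417400980693152, 469494553014161059680, 3590732165460948648864, 22953669471447451867728, 126950632927311897842688, 621886626324436636458576, 2745675023060155245187104] := by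
  rw [h34_tr_mul, h34_trab]
  decide +kernel

theorem h34_trar : h34_tr 17 (sturmDelta * h34_Vser 3 sturmDelta * ((h34_E * h34_E * h34_E - (756 : ℤ) • sturmDelta -
    (19131876 : ℤ) • h34_Vser 3 sturmDelta) *
    (h34_E * h34_E * h34_E - (756 : ℤ) • sturmDelta -
    (19131876 : ℤ) • h34_Vser 3 sturmDelta))) =
    [0, 0, 0, 0, 1, -96, 398124, -28477280, 40497639198, -1918333919232, 195527078239364, -4260506392772544, 194338960283947653, -276756497621582912, 1222330942278791628, -19025088944838264288, 17056116962597468244] := by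
  rw [h34_tr_mul, h34_trDT, h34_trabb]
  decide +kernel

theorem h34_traP : h34_tr 17 (h34_P (h34_E) sturmDelta (h34_Vser 3 sturmDelta) 196830 387420489 756 19131876) =
    List.replicate 17 0 := by
  unfold h34_P
  rw [h34_tr_sub, h34_traaa, h34_trar]
  decide +kernel

theorem h34_trbXX : h34_tr 17 (h34_Vser 3 h34_E * h34_Vser 3 h34_E) =
    [1, 0, 0, 480, 0, 0, 61920, 0, 0, 1050240, 0, 0, 7926240, 0, 0, 37500480, 0] := by
  rw [h34_tr_mul, h34_trU]
  decide +kernel

theorem h34_trbXXX : h34_tr 17 (h34_Vser 3 h34_E * h34_Vser 3 h34_E * h34_Vser 3 h34_E) =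
    [1, 0, 0, 720, 0, 0, 179280, 0, 0, 16954560, 0, 0, 396974160, 0, 0, 4632858720, 0] := by
  rw [h34_tr_mul, h34_trbXX, h34_trU]
  decide +kernel

theorem h34_trba : h34_tr 17 (sturmDelta * sturmDelta + (270 : ℤ) • (sturmDelta * h34_Vser 3 sturmDelta) +
    (729 : ℤ) • (h34_Vser 3 sturmDelta * h34_Vser 3 sturmDelta)) =
    [0, 0, 1, -48, 1350, -21520, 212589, -1389744, 6317540, -19595952, 33498630, 28549840, -398079714, 1245000672, -1276850560, -4192919280, 18335338200] := by
  rw [h34_tr_add, h34_tr_add, h34_tr_smul, h34_tr_smul, h34_trDD, h34_trDT, h34_trTT]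
  decide +kernel

theorem h34_trbaa : h34_tr 17 ((sturmDelta * sturmDelta + (270 : ℤ) • (sturmDelta * h34_Vser 3 sturmDelta) +
    (729 : ℤ) • (h34_Vser 3 sturmDelta * h34_Vser 3 sturmDelta)) *
    (sturmDelta * sturmDelta + (270 : ℤ) • (sturmDelta * h34_Vser 3 sturmDelta) +
    (729 : ℤ) • (h34_Vser 3 sturmDelta * h34_Vser 3 sturmDelta))) =
    [0, 0, 0, 0, 1, -96, 5004, -172640, 4313598, -81292032, 1183151204, -13547815104, 124014231333, -918863335232, 5547786538668, -27215285112288, 106195231483284] := by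
  rw [h34_tr_mul, h34_trba]
  decide +kernel

theorem h34_trbb : h34_tr 17 (h34_Vser 3 h34_E * h34_Vser 3 h34_E * h34_Vser 3 h34_E - (36 : ℤ) • sturmDelta -
    (756 : ℤ) • h34_Vser 3 sturmDelta) =
    [1, -36, 864, -9108, 52992, -173880, 415152, 602784, -3041280, 20855196, 4173120, -19246032, 411440976, 20798568, -14466816, 4585389480, -35536896] := by
  rw [h34_tr_sub, h34_tr_sub, h34_tr_smul, h34_tr_smul, h34_trbXXX, h34_trD, h34_trT]
  decide +kernel

theorem h34_trbbb : h34_tr 17 ((h34_Vser 3 h34_E * h34_Vser 3 h34_E * h34_Vser 3 h34_E - (36 : ℤ) • sturmDelta -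
    (756 : ℤ) • h34_Vser 3 sturmDelta) *
    (h34_Vser 3 h34_E * h34_Vser 3 h34_E * h34_Vser 3 h34_E - (36 : ℤ) • sturmDelta -
    (756 : ℤ) • h34_Vser 3 sturmDelta)) =
    [1, -72, 3024, -80424, 1508256, -19901808, 187875504, -1294452288, 6643449792, -24688613448, 56504850912, 10610978400, -730078502976, 3629589741648, -7912128114432, 2710010642256, 87421775197824] := by
  rw [h34_tr_mul, h34_trbb]
  decide +kernel

theorem h34_trbr : h34_tr 17 (sturmDelta * h34_Vser 3 sturmDelta * ((h34_Vser 3 h34_E * h34_Vser 3 h34_E * h34_Vser 3 h34_E - (36 : ℤ) • sturmDelta -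
    (756 : ℤ) • h34_Vser 3 sturmDelta) *
    (h34_Vser 3 h34_E * h34_Vser 3 h34_E * h34_Vser 3 h34_E - (36 : ℤ) • sturmDelta -
    (756 : ℤ) • h34_Vser 3 sturmDelta))) =
    [0, 0, 0, 0, 1, -96, 5004, -172640, 4313598, -81292032, 1183151204, -13547815104, 124014231333, -918863335232, 5547786538668, -27215285112288, 106195231483284] := by
  rw [h34_tr_mul, h34_trDT, h34_trbbb]
  decide +kernel

theorem h34_trbP : h34_tr 17 (h34_P (h34_Vser 3 h34_E) sturmDelta (h34_Vser 3 sturmDelta) 270 729 36 756) =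
    List.replicate 17 0 := by
  unfold h34_P
  rw [h34_tr_sub, h34_trbaa, h34_trbr]
  decide +kernel

end Fermat.Agent.S18
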