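import Mathlib
import Fermat.Agent.S20.Forms
import Fermat.Agent.S20.Separation
import Fermat.Agent.Lib.Gamma0Cosets
import Fermat.Agent.S16.LevelOneSturm
import Fermat.Agent.S18.Haupt3Trunc
import Fermat.Agent.S18.Haupt3Check
import Fermat.Prelude.Thm_ModularForm_sturm_bound_Gamma0
import Fermat.Prelude.Thm_CongruenceSubgroup_one_mem_strictPeriods_Gamma0

/-!
# The two level 3 Hauptmodul identities as identities of integral power series

`E = E₄(q)`, `U = E₄(q³)`, `D = Δ(q)`, `T = Δ(q³)`: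

* `h34_Pa_zero : (D² + 196830 D T + 3¹⁸ T²)² = D T (E³ - 756 D - 19131876 T)²`
* `h34_Pb_zero : (D² + 270 D T + 729 T²)² = D T (U³ - 36 D - 756 T)²`

(stated as `h34_P … = 0`).  Proof: both sides are `q`-expansions of modular forms of weight `48`
on `Γ₀(3)` (index `4`), so by the Sturm bound of the Prelude it suffices to compare the
coefficients of `q⁰, …, q¹⁶`, which is done in `Haupt3Check`.
-/

set_option autoImplicit false

open UpperHalfPlane ModularForm MatrixGroups CongruenceSubgroup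
open scoped Manifold

namespace Fermat.Agent.S18

open Fermat.Agent.S20 Fermat.Agent.S16

section Vop

variable {k : ℤ} {F : Type*} [FunLike F ℍ ℂ] [ModularFormClass F 𝒮ℒ k]

/-- `f ∣[k] diag(3,1)` as a modular form on `Γ₀(3)`, for `f` of level one. -/
noncomputable def h34_tw (f : F) : ModularForm (G0 3) k where
  toFun := (f : ℍ → ℂ) ∣[k] dN 3
  slash_action_eq' A hA :=
    (ModularForm.translate f (dN 3)).slash_action_eq' A (G0_le_conj 3 hA)
  holo' := (ModularForm.translate f (dN 3)).holo'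
  bdd_at_cusps' hc :=
    (ModularForm.translate f (dN 3)).bdd_at_cusps' (hc.mono (G0_le_conj 3))

/-- `τ ↦ f (3 τ)` as a modular form on `Γ₀(3)`, for `f` of level one. -/
noncomputable def h34_V3 (f : F) : ModularForm (G0 3) k :=
  ((3 : ℂ) ^ (k - 1))⁻¹ • h34_tw f

/-- Restriction of a level-one form to `Γ₀(3)`. -/
noncomputable def h34_res (f : F) : ModularForm (G0 3) k where
  toFun := f
  slash_action_eq' := by
    rintro _ ⟨γ, -, rfl⟩
    exact SlashInvariantFormClass.slash_action_eq f _ ⟨γ, rfl⟩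
  holo' := ModularFormClass.holo f
  bdd_at_cusps' := fun hc =>
    ModularFormClass.bdd_at_cusps f ((Subgroup.IsArithmetic.isCusp_iff_isCusp_SL2Z _).mp hc)

theorem h34_res_qExpansion (f : F) : qExpansion 1 (h34_res f) = qExpansion 1 f := rfl

theorem h34_dN_smul_coe (τ : ℍ) : ((dN 3 • τ : ℍ) : ℂ) = 3 * (τ : ℂ) := by
  have hdet : 0 < ((dN 3).det : ℝ) := by
    rw [dN_det]; norm_num
  rw [UpperHalfPlane.coe_smul_of_det_pos hdet]
  simp [UpperHalfPlane.num, UpperHalfPlane.denom, dN_coe]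

theorem h34_V3_apply (f : F) (τ : ℍ) : h34_V3 f τ = f (dN 3 • τ) := by
  have hdet : 0 < ((dN 3).det : ℝ) := by
    rw [dN_det]; norm_num
  have hσ : UpperHalfPlane.σ (dN 3) = .refl ℝ ℂ := by
    rw [UpperHalfPlane.σ, if_pos hdet]
  have hden : UpperHalfPlane.denom (dN 3) τ = 1 := by
    simp [UpperHalfPlane.denom, dN_coe]
  have h3 : ((3 : ℂ) ^ (k - 1)) ≠ 0 := zpow_ne_zero _ (by norm_num)
  show ((3 : ℂ) ^ (k - 1))⁻¹ • (((f : ℍ → ℂ) ∣[k] dN 3) τ) = f (dN 3 • τ)
  rw [ModularForm.slash_apply, hσ, dN_det, hden]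
  simp only [ContinuousAlgEquiv.refl_apply, one_zpow, mul_one, smul_eq_mul]
  have : ((|((3 : ℕ) : ℝ)| : ℝ) : ℂ) = 3 := by norm_num
  rw [this, mul_comm (f (dN 3 • τ)), ← mul_assoc, inv_mul_cancel₀ h3, one_mul]

theorem h34_qParam_dN (τ : ℍ) :
    Function.Periodic.qParam 1 ((dN 3 • τ : ℍ) : ℂ) = Function.Periodic.qParam 1 (τ : ℂ) ^ 3 := by
  rw [h34_dN_smul_coe]
  simp only [Function.Periodic.qParam]
  rw [← Complex.exp_nat_mul]
  congr 1
  push_cast
  ring

/-- The `q`-expansion of `f (3 τ)` is obtained from that of `f` by `q ↦ q³`. -/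
theorem h34_V3_qExpansion_coeff (f : F) (n : ℕ) :
    (qExpansion 1 (h34_V3 f)).coeff n =
      if n % 3 = 0 then (qExpansion 1 f).coeff (n / 3) else 0 := by
  symm
  refine ModularFormClass.qExpansion_coeff_unique
    (c := fun n => if n % 3 = 0 then (qExpansion 1 f).coeff (n / 3) else 0)
    one_pos (one_mem_strictPeriods_Gamma0 3) (f := h34_V3 f) (fun τ => ?_) n
  have h1 := ModularForm.hasSum_qExpansion f one_pos one_mem_strictPeriods_SL (dN 3 • τ)
  rw [h34_qParam_dN] at h1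
  rw [h34_V3_apply]
  have hinj : Function.Injective (fun m : ℕ => 3 * m) := fun a b hab => by
    simpa using hab
  refine (Function.Injective.hasSum_iff hinj ?_).mp ?_
  · intro x hx
    have hx3 : ¬ x % 3 = 0 := by
      intro h0
      exact hx ⟨x / 3, by simp only; omega⟩
    simp [hx3]
  · have heq : ((fun n : ℕ => (if n % 3 = 0 then (qExpansion 1 f).coeff (n / 3) else 0) •
          Function.Periodic.qParam 1 (τ : ℂ) ^ n) ∘ fun m : ℕ => 3 * m) =
        fun m : ℕ => (qExpansion 1 f).coeff m * (Function.Periodic.qParam 1 (τ : ℂ) ^ 3) ^ m := by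
      funext m
      simp [pow_mul]
    rw [heq]
    exact h1

theorem h34_V3_qExpansion (f : F) (s : PowerSeries ℤ)
    (hs : qExpansion 1 f = s.map (Int.castRingHom ℂ)) :
    qExpansion 1 (h34_V3 f) = (h34_Vser 3 s).map (Int.castRingHom ℂ) := by
  ext n
  rw [h34_V3_qExpansion_coeff, hs, PowerSeries.coeff_map, PowerSeries.coeff_map, h34_Vser,
    PowerSeries.coeff_mk]
  split_ifs <;> simp

end Vop

/-! ### The weight 48 forms -/

section Forms

theorem h34_qe_mul {a b : ℤ} (f : ModularForm (G0 3) a) (g : ModularForm (G0 3) b) :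
    qExpansion 1 (f.mul g) = qExpansion 1 f * qExpansion 1 g :=
  ModularForm.qExpansion_mul one_pos (one_mem_strictPeriods_Gamma0 3) f g

theorem h34_qe_add {a : ℤ} (f g : ModularForm (G0 3) a) :
    qExpansion 1 (f + g : ModularForm (G0 3) a) = qExpansion 1 f + qExpansion 1 g :=
  ModularForm.qExpansion_add one_pos (one_mem_strictPeriods_Gamma0 3) f g

theorem h34_qe_sub {a : ℤ} (f g : ModularForm (G0 3) a) :
    qExpansion 1 (f - g : ModularForm (G0 3) a) = qExpansion 1 f - qExpansion 1 g :=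
  ModularForm.qExpansion_sub one_pos (one_mem_strictPeriods_Gamma0 3) f g

theorem h34_qe_smul {a : ℤ} (c : ℂ) (f : ModularForm (G0 3) a) :
    qExpansion 1 (c • f : ModularForm (G0 3) a) = c • qExpansion 1 f :=
  ModularForm.qExpansion_smul one_pos (one_mem_strictPeriods_Gamma0 3) c f

/-- The form `(D² + c₁ D T + c₂ T²)² - D T (X³ - c₃ D - c₄ T)²` of weight `48` on `Γ₀(3)`. -/
noncomputable def h34_Phi (X : ModularForm (G0 3) 4) (D T : ModularForm (G0 3) 12)
    (c₁ c₂ c₃ c₄ : ℤ) : ModularForm (G0 3) (12 + 12 + (12 + 12)) :=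
  (D.mul D + (c₁ : ℂ) • D.mul T + (c₂ : ℂ) • T.mul T).mul
      (D.mul D + (c₁ : ℂ) • D.mul T + (c₂ : ℂ) • T.mul T) -
    (D.mul T).mul
      ((mcast (show (4 : ℤ) + 4 + 4 = 12 by norm_num) ((X.mul X).mul X) - (c₃ : ℂ) • D -
          (c₄ : ℂ) • T).mul
        (mcast (show (4 : ℤ) + 4 + 4 = 12 by norm_num) ((X.mul X).mul X) - (c₃ : ℂ) • D -
          (c₄ : ℂ) • T))

theorem h34_Phi_qExpansion (X : ModularForm (G0 3) 4) (D T : ModularForm (G0 3) 12)
    (c₁ c₂ c₃ c₄ : ℤ) (x d t : PowerSeries ℤ)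
    (hX : qExpansion 1 X = x.map (Int.castRingHom ℂ))
    (hD : qExpansion 1 D = d.map (Int.castRingHom ℂ))
    (hT : qExpansion 1 T = t.map (Int.castRingHom ℂ)) :
    qExpansion 1 (h34_Phi X D T c₁ c₂ c₃ c₄) =
      (h34_P x d t c₁ c₂ c₃ c₄).map (Int.castRingHom ℂ) := by
  unfold h34_Phi h34_P
  simp only [h34_qe_sub, h34_qe_mul, h34_qe_add, h34_qe_smul, ModularForm.qExpansion_mcast,
    hX, hD, hT]
  simp only [map_sub, map_mul, map_add, map_zsmul, Int.cast_smul_eq_zsmul]

theorem h34_index : (Gamma0 3).index = 4 := by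
  rw [Subgroup.index, Fermat.Agent.Lib.card_quotient_Gamma0]
  decide +kernel

/-- Sturm bound in weight `48` on `Γ₀(3)`: seventeen vanishing coefficients suffice. -/
theorem h34_sturm (X : ModularForm (G0 3) 4) (D T : ModularForm (G0 3) 12)
    (c₁ c₂ c₃ c₄ : ℤ) (x d t : PowerSeries ℤ)
    (hX : qExpansion 1 X = x.map (Int.castRingHom ℂ))
    (hD : qExpansion 1 D = d.map (Int.castRingHom ℂ))
    (hT : qExpansion 1 T = t.map (Int.castRingHom ℂ))
    (hzero : h34_tr 17 (h34_P x d t c₁ c₂ c₃ c₄) = List.replicate 17 0) :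
    h34_P x d t c₁ c₂ c₃ c₄ = 0 := by
  have hq := h34_Phi_qExpansion X D T c₁ c₂ c₃ c₄ x d t hX hD hT
  have hΦ : h34_Phi X D T c₁ c₂ c₃ c₄ = 0 := by
    apply ModularForm.sturm_bound_Gamma0 3
    intro n hn
    rw [h34_index] at hn
    have hn' : n < 17 := by
      norm_num at hn
      omega
    rw [hq, PowerSeries.coeff_map, h34_coeff_eq_zero_of_tr hzero hn']
    simp
  have h0 : (h34_P x d t c₁ c₂ c₃ c₄).map (Int.castRingHom ℂ) = 0 := by
    rw [← hq, hΦ]
    exact qExpansion_zero 1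
  ext n
  have h1 := congrArg (PowerSeries.coeff n) h0
  simpa using h1

end Forms

/-! ### The two identities -/

theorem h34_qExpansion_E : qExpansion 1 E₄ = h34_E.map (Int.castRingHom ℂ) := by
  rw [sturm_E4_qExpansion, h34_E_eq]

/-- `(D² + 196830 D T + 3¹⁸ T²)² = D T (E³ - 756 D - 19131876 T)²`. -/
theorem h34_Pa_zero :
    h34_P h34_E sturmDelta (h34_Vser 3 sturmDelta) 196830 387420489 756 19131876 = 0 :=
  h34_sturm (h34_res E₄) (h34_res CuspForm.discriminant) (h34_V3 CuspForm.discriminant)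
    _ _ _ _ _ _ _ h34_qExpansion_E sturm_delta_qExpansion
    (h34_V3_qExpansion _ _ sturm_delta_qExpansion) h34_traP

/-- `(D² + 270 D T + 729 T²)² = D T (U³ - 36 D - 756 T)²`. -/
theorem h34_Pb_zero :
    h34_P (h34_Vser 3 h34_E) sturmDelta (h34_Vser 3 sturmDelta) 270 729 36 756 = 0 :=
  h34_sturm (h34_V3 E₄) (h34_res CuspForm.discriminant) (h34_V3 CuspForm.discriminant)
    _ _ _ _ _ _ _ (h34_V3_qExpansion _ _ h34_qExpansion_E) sturm_delta_qExpansion
    (h34_V3_qExpansion _ _ sturm_delta_qExpansion) h34_trbP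

end Fermat.Agent.S18
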