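import Mathlib
import Fermat.Agent.S18.Haupt3Form
import Fermat.Agent.S24.KleinJ

/-!
# The level 3 Hauptmodul identities on the Prelude objects

`a = η(q)¹²`, `b = q η(q³)¹²` (integral power series, `η = etaProd`), `h₃ = a / b`
(`= q⁻¹ ∏ ((1 - qⁿ)/(1 - q³ⁿ))¹²`, a Laurent series over `ℚ`).

* `h34_ps_j`, `h34_ps_j3`: the two identities in `PowerSeries ℤ`;
* `h34_haupt3_j : jq * h₃³ = (h₃ + 27) (h₃ + 243)³`;
* `h34_haupt3_j3 : j(q³) * h₃ = (h₃ + 27) (h₃ + 3)³`;
* `h34_haupt3_1728 : (jq - 1728) * h₃³ = (h₃² - 486 h₃ - 19683)²`.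
-/

set_option autoImplicit false

open UpperHalfPlane ModularForm ModularCurve

namespace Fermat.Agent.S18

open Fermat.Agent.S16 Fermat.Agent.S24

/-! ### Bridges between the integral series of S16 and of the Prelude -/

theorem h34_Vser_eq_expand (f : PowerSeries ℤ) :
    h34_Vser 3 f = PowerSeries.expand 3 three_ne_zero f := by
  ext n
  rw [h34_Vser, PowerSeries.coeff_mk, PowerSeries.coeff_expand]
  simp [Nat.dvd_iff_mod_eq_zero]

theorem h34_qExpansion_discriminant :
    qExpansion 1 CuspForm.discriminant =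
      PowerSeries.X * PowerSeries.map (Int.castRingHom ℂ) dedekindEtaUnit := by
  have hgerm : cuspFunction 1 ModularForm.discriminant =ᶠ[nhds 0]
      ((fun q : ℂ => q) * fun q : ℂ => ∏' n : ℕ, (1 - q ^ (n + 1)) ^ 24) := by
    filter_upwards [Metric.ball_mem_nhds (0 : ℂ) one_pos] with q hq
    exact ModularForm.discriminant_cuspFunction_eqOn hq
  show qExpansion 1 ModularForm.discriminant = _
  rw [wpA1_qExpansion_eq, wpA1_taylor_congr hgerm,
    wpA1_taylor_mul (f := fun q : ℂ => q) analyticAt_id wpA1_analyticAt_tprod_pow,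
    wpA1_taylor_id, wpA1_taylor_tprod_pow]

theorem h34_sturmDelta_eq_eta : sturmDelta = PowerSeries.X * dedekindEtaUnit := by
  have h := sturm_delta_qExpansion
  rw [h34_qExpansion_discriminant] at h
  ext n
  have h1 := congrArg (PowerSeries.coeff n) h
  have hX : (PowerSeries.X : PowerSeries ℂ) = PowerSeries.map (Int.castRingHom ℂ) PowerSeries.X := by
    simp
  rw [hX, ← map_mul, PowerSeries.coeff_map, PowerSeries.coeff_map] at h1
  exact Int.cast_injective (α := ℂ) (by simpa using h1.symm)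

theorem h34_E_eq_eisenstein4 : h34_E = eisenstein4 := by
  ext n
  rw [h34_E, eisenstein4, map_add, map_zsmul, PowerSeries.coeff_one, sturmA,
    PowerSeries.coeff_mk, PowerSeries.coeff_mk]
  split_ifs with h
  · simp
  · rw [ArithmeticFunction.sigma_apply]
    push_cast
    simp

/-! ### The unsquared identities in `PowerSeries ℤ` -/

/-- `a = η(q)¹²`. -/
noncomputable def h34_a : PowerSeries ℤ := etaProd ^ 12

/-- `b' = η(q³)¹²`. -/
noncomputable def h34_b' : PowerSeries ℤ := (PowerSeries.expand 3 three_ne_zero etaProd) ^ 12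

/-- `b = q η(q³)¹²`. -/
noncomputable def h34_b : PowerSeries ℤ := PowerSeries.X * h34_b'

theorem h34_constantCoeff_a : PowerSeries.constantCoeff h34_a = 1 := by
  rw [h34_a, map_pow, constantCoeff_etaProd, one_pow]

theorem h34_constantCoeff_b' : PowerSeries.constantCoeff h34_b' = 1 := by
  rw [h34_b', map_pow, PowerSeries.constantCoeff_expand, constantCoeff_etaProd, one_pow]

theorem h34_constantCoeff_b : PowerSeries.constantCoeff h34_b = 0 := by
  rw [h34_b, map_mul, PowerSeries.constantCoeff_X, zero_mul]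

theorem h34_D_eq : sturmDelta = PowerSeries.X * h34_a ^ 2 := by
  rw [h34_sturmDelta_eq_eta, dedekindEtaUnit, h34_a, ← pow_mul]

theorem h34_T_eq : h34_Vser 3 sturmDelta = PowerSeries.X * h34_b ^ 2 := by
  rw [h34_Vser_eq_expand, h34_sturmDelta_eq_eta, dedekindEtaUnit, map_mul, map_pow,
    PowerSeries.expand_X, h34_b, h34_b']
  ring

/-- The sign determination: a relation `(X p)² = (a b r)²` between power series with constant
coefficients `1` for `p, a, r` and `b = X b'`, `b'(0) = 1`, forces `X p = a b r`. -/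
theorem h34_sign (p r : PowerSeries ℤ) (hp : PowerSeries.constantCoeff p = 1)
    (hr : PowerSeries.constantCoeff r = 1)
    (h : (PowerSeries.X * p) ^ 2 = (h34_a * h34_b * r) ^ 2) :
    PowerSeries.X * p = h34_a * h34_b * r := by
  have h1 : (PowerSeries.X * p - h34_a * h34_b * r) * (PowerSeries.X * p + h34_a * h34_b * r) = 0 := by
    linear_combination h
  rcases mul_eq_zero.mp h1 with h2 | h2
  · exact sub_eq_zero.mp h2
  · exfalso
    have h3 : PowerSeries.X * (p + h34_a * h34_b' * r) = 0 := by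
      rw [← h2, h34_b]
      ring
    have h4 : p + h34_a * h34_b' * r = 0 := by
      rcases mul_eq_zero.mp h3 with h5 | h5
      · exact absurd h5 PowerSeries.X_ne_zero
      · exact h5
    have h5 := congrArg PowerSeries.constantCoeff h4
    rw [map_add, map_mul, map_mul, hp, hr, h34_constantCoeff_a, h34_constantCoeff_b', map_zero] at h5
    norm_num at h5

/-- `E₄³ a b = q (a + 27 b) (a + 243 b)³`, i.e. `j h₃³ = (h₃ + 27) (h₃ + 243)³`. -/
theorem h34_ps_j : eisenstein4 ^ 3 * h34_a * h34_b =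
    PowerSeries.X * ((h34_a + 27 * h34_b) * (h34_a + 243 * h34_b) ^ 3) := by
  have h0 := h34_Pa_zero
  rw [h34_P, h34_E_eq_eisenstein4, h34_T_eq, h34_D_eq] at h0
  simp only [zsmul_eq_mul] at h0
  push_cast at h0
  have hsq : (PowerSeries.X * (h34_a ^ 4 + 196830 * (h34_a ^ 2 * h34_b ^ 2) + 387420489 * h34_b ^ 4)) ^ 2 =
      (h34_a * h34_b * (eisenstein4 ^ 3 - 756 * (PowerSeries.X * h34_a ^ 2) -
        19131876 * (PowerSeries.X * h34_b ^ 2))) ^ 2 := by
    have hX2 : (PowerSeries.X : PowerSeries ℤ) ^ 2 ≠ 0 := pow_ne_zero 2 PowerSeries.X_ne_zero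
    apply mul_left_cancel₀ hX2
    linear_combination h0
  have hPQ := h34_sign _ _ ?_ ?_ hsq
  · linear_combination (-1 : PowerSeries ℤ) * hPQ
  · simp [h34_constantCoeff_a, h34_constantCoeff_b]
  · simp [h34_constantCoeff_a, h34_constantCoeff_b, constantCoeff_eisenstein4]

/-- `E₄(q³)³ a b = q (a + 27 b) (a + 3 b)³`, i.e. `j(q³) h₃ = (h₃ + 27) (h₃ + 3)³`. -/
theorem h34_ps_j3 : (PowerSeries.expand 3 three_ne_zero eisenstein4) ^ 3 * h34_a * h34_b =
    PowerSeries.X * ((h34_a + 27 * h34_b) * (h34_a + 3 * h34_b) ^ 3) := by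
  have h0 := h34_Pb_zero
  rw [h34_P, h34_E_eq_eisenstein4, h34_T_eq, h34_D_eq, h34_Vser_eq_expand] at h0
  simp only [zsmul_eq_mul] at h0
  push_cast at h0
  have hsq : (PowerSeries.X * (h34_a ^ 4 + 270 * (h34_a ^ 2 * h34_b ^ 2) + 729 * h34_b ^ 4)) ^ 2 =
      (h34_a * h34_b * ((PowerSeries.expand 3 three_ne_zero eisenstein4) ^ 3 -
        36 * (PowerSeries.X * h34_a ^ 2) - 756 * (PowerSeries.X * h34_b ^ 2))) ^ 2 := by
    have hX2 : (PowerSeries.X : PowerSeries ℤ) ^ 2 ≠ 0 := pow_ne_zero 2 PowerSeries.X_ne_zero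
    apply mul_left_cancel₀ hX2
    linear_combination h0
  have hPQ := h34_sign _ _ ?_ ?_ hsq
  · linear_combination (-1 : PowerSeries ℤ) * hPQ
  · simp [h34_constantCoeff_a, h34_constantCoeff_b]
  · simp [h34_constantCoeff_a, h34_constantCoeff_b, constantCoeff_eisenstein4]

/-! ### Laurent series over `ℚ` -/

/-- The coefficient embedding `ℤ⟦q⟧ → ℚ((q))`. -/
noncomputable def h34_iota : PowerSeries ℤ →+* LaurentSeries ℚ :=
  (HahnSeries.ofPowerSeries ℤ ℚ).comp (PowerSeries.map (Int.castRingHom ℚ))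

theorem h34_iota_apply (f : PowerSeries ℤ) :
    h34_iota f = HahnSeries.ofPowerSeries ℤ ℚ (f.map (Int.castRingHom ℚ)) := rfl

theorem h34_iota_X : h34_iota PowerSeries.X = HahnSeries.single 1 1 := by
  rw [h34_iota_apply, PowerSeries.map_X, HahnSeries.ofPowerSeries_X]

theorem h34_iota_injective : Function.Injective h34_iota := by
  intro f g hfg
  have h1 : f.map (Int.castRingHom ℚ) = g.map (Int.castRingHom ℚ) :=
    HahnSeries.ofPowerSeries_injective hfg
  ext n
  have h2 := congrArg (PowerSeries.coeff n) h1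
  rw [PowerSeries.coeff_map, PowerSeries.coeff_map] at h2
  exact Int.cast_injective (α := ℚ) (by simpa using h2)

theorem h34_iota_coeff_nat (f : PowerSeries ℤ) (n : ℕ) :
    (h34_iota f).coeff (n : ℤ) = ((PowerSeries.coeff n f : ℤ) : ℚ) := by
  rw [h34_iota_apply, HahnSeries.ofPowerSeries_apply_coeff, PowerSeries.coeff_map, eq_intCast]

theorem h34_iota_coeff_neg (f : PowerSeries ℤ) {k : ℤ} (hk : k < 0) :
    (h34_iota f).coeff k = 0 :=
  ofPowerSeries_coeff_of_neg _ hk

/-- `ι (f (q³)) = (ι f)(q³)`: `PowerSeries.expand 3` corresponds to the Prelude's `qExpand ℚ 3`. -/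
theorem h34_iota_expand (f : PowerSeries ℤ) :
    h34_iota (PowerSeries.expand 3 three_ne_zero f) = qExpand ℚ 3 (h34_iota f) := by
  ext k
  by_cases hk : ((3 : ℕ) : ℤ) ∣ k
  · obtain ⟨m, rfl⟩ := hk
    rw [qExpand_coeff_mul]
    rcases lt_or_ge m 0 with hm | hm
    · rw [h34_iota_coeff_neg _ hm, h34_iota_coeff_neg _ (by push_cast; omega)]
    · obtain ⟨n, rfl⟩ := Int.eq_ofNat_of_zero_le hm
      rw [show ((3 : ℕ) : ℤ) * (n : ℤ) = ((3 * n : ℕ) : ℤ) by push_cast; ring,
        h34_iota_coeff_nat, h34_iota_coeff_nat, PowerSeries.coeff_expand_mul]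
  · rw [qExpand_coeff_of_not_dvd 3 _ hk]
    rcases lt_or_ge k 0 with hk0 | hk0
    · exact h34_iota_coeff_neg _ hk0
    · obtain ⟨n, rfl⟩ := Int.eq_ofNat_of_zero_le hk0
      rw [h34_iota_coeff_nat, PowerSeries.coeff_expand_of_not_dvd, Int.cast_zero]
      intro h3
      exact hk (by exact_mod_cast h3)

theorem h34_iota_X_ne_zero : h34_iota PowerSeries.X ≠ 0 := by
  rw [Ne, ← map_zero h34_iota]
  exact fun h => PowerSeries.X_ne_zero (h34_iota_injective h)

theorem h34_b'_ne_zero : h34_b' ≠ 0 := by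
  intro h
  have := h34_constantCoeff_b'
  rw [h, map_zero] at this
  exact zero_ne_one this

theorem h34_a_ne_zero : h34_a ≠ 0 := by
  intro h
  have := h34_constantCoeff_a
  rw [h, map_zero] at this
  exact zero_ne_one this

theorem h34_iota_b_ne_zero : h34_iota h34_b ≠ 0 := by
  rw [Ne, ← map_zero h34_iota]
  intro h
  have h1 := h34_iota_injective h
  rw [h34_b] at h1
  rcases mul_eq_zero.mp h1 with h2 | h2
  · exact PowerSeries.X_ne_zero h2
  · exact h34_b'_ne_zero h2

theorem h34_iota_a_ne_zero : h34_iota h34_a ≠ 0 := by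
  rw [Ne, ← map_zero h34_iota]
  exact fun h => h34_a_ne_zero (h34_iota_injective h)

/-- `j · q · η²⁴ = E₄³` in `ℚ((q))`. -/
theorem h34_jq_mul : jq * h34_iota PowerSeries.X * h34_iota h34_a ^ 2 = h34_iota eisenstein4 ^ 3 := by
  have h1 : h34_iota jNum = HahnSeries.ofPowerSeries ℤ ℚ jNumQ := rfl
  have h2 : jq = HahnSeries.single (-1 : ℤ) 1 * h34_iota jNum := by rw [h1, jq]
  have h3 : (HahnSeries.single (-1 : ℤ) (1 : ℚ)) * h34_iota PowerSeries.X = 1 := by
    rw [h34_iota_X, HahnSeries.single_mul_single]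
    simp
  have h4 : h34_iota jNum * h34_iota h34_a ^ 2 = h34_iota eisenstein4 ^ 3 := by
    rw [← map_pow, ← map_mul, ← map_pow, jNum, h34_a, ← pow_mul]
    have h5 : eisenstein4 ^ 3 * dedekindEtaUnitInv * etaProd ^ (12 * 2) = eisenstein4 ^ 3 := by
      have h6 := dedekindEtaUnit_mul_inv
      rw [dedekindEtaUnit] at h6
      linear_combination eisenstein4 ^ 3 * h6
    rw [h5]
  rw [h2]
  linear_combination h34_iota jNum * h34_iota h34_a ^ 2 * h3 + h4

/-- The level 3 Hauptmodul `h₃ = q⁻¹ ∏ ((1 - qⁿ)/(1 - q³ⁿ))¹² = η(q)¹² / (q η(q³)¹²)`. -/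
noncomputable def h34_h3 : LaurentSeries ℚ := h34_iota h34_a / h34_iota h34_b

theorem h34_h3_ne_zero : h34_h3 ≠ 0 :=
  div_ne_zero h34_iota_a_ne_zero h34_iota_b_ne_zero

/-- `j h₃³ = (h₃ + 27) (h₃ + 243)³`. -/
theorem h34_haupt3_j : jq * h34_h3 ^ 3 = (h34_h3 + 27) * (h34_h3 + 243) ^ 3 := by
  have h1 := congrArg h34_iota h34_ps_j
  simp only [map_mul, map_pow, map_add, map_ofNat] at h1
  rw [← h34_jq_mul] at h1
  have hX := h34_iota_X_ne_zero
  have hB := h34_iota_b_ne_zero
  have key : jq * h34_iota h34_a ^ 3 * h34_iota h34_b =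
      (h34_iota h34_a + 27 * h34_iota h34_b) * (h34_iota h34_a + 243 * h34_iota h34_b) ^ 3 := by
    apply mul_left_cancel₀ hX
    linear_combination h1
  unfold h34_h3
  field_simp
  linear_combination key

/-- `j(q³) h₃ = (h₃ + 27) (h₃ + 3)³`. -/
theorem h34_haupt3_j3 : qExpand ℚ 3 jq * h34_h3 = (h34_h3 + 27) * (h34_h3 + 3) ^ 3 := by
  have h1 := congrArg h34_iota h34_ps_j3
  simp only [map_mul, map_pow, map_add, map_ofNat] at h1
  have h2 := congrArg (qExpand ℚ 3) h34_jq_mul
  simp only [map_mul, map_pow] at h2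
  rw [← h34_iota_expand, ← h34_iota_expand, ← h34_iota_expand, PowerSeries.expand_X] at h2
  have h3 : PowerSeries.expand 3 three_ne_zero h34_a = h34_b' := by
    rw [h34_a, map_pow, h34_b']
  rw [h3, map_pow] at h2
  have hb : h34_iota h34_b = h34_iota PowerSeries.X * h34_iota h34_b' := by
    rw [h34_b, map_mul]
  have hX := h34_iota_X_ne_zero
  have hB := h34_iota_b_ne_zero
  have key : qExpand ℚ 3 jq * h34_iota h34_a * h34_iota h34_b ^ 3 =
      (h34_iota h34_a + 27 * h34_iota h34_b) * (h34_iota h34_a + 3 * h34_iota h34_b) ^ 3 := by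
    apply mul_left_cancel₀ hX
    rw [← h2] at h1
    rw [hb] at h1 ⊢
    linear_combination h1
  unfold h34_h3
  field_simp
  linear_combination key

/-- `(j - 1728) h₃³ = (h₃² - 486 h₃ - 19683)²`. -/
theorem h34_haupt3_1728 :
    (jq - 1728) * h34_h3 ^ 3 = (h34_h3 ^ 2 - 486 * h34_h3 - 19683) ^ 2 := by
  linear_combination h34_haupt3_j

/-- `(j(q³) - 1728) h₃ = (h₃² + 18 h₃ - 27)²`. -/
theorem h34_haupt3_j3_1728 :
    (qExpand ℚ 3 jq - 1728) * h34_h3 = (h34_h3 ^ 2 + 18 * h34_h3 - 27) ^ 2 := by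
  linear_combination h34_haupt3_j3

/-! ### Integrality of `h₃` and of `h₃⁻¹` -/

/-- `u = η(q)¹² / η(q³)¹²`, an integral power series with constant coefficient `1`. -/
noncomputable def h34_u : PowerSeries ℤ := h34_a * PowerSeries.invOfUnit h34_b' 1

/-- `v = η(q³)¹² / η(q)¹²`, the inverse of `u`. -/
noncomputable def h34_v : PowerSeries ℤ := h34_b' * PowerSeries.invOfUnit h34_a 1

theorem h34_a_mul_inv : h34_a * PowerSeries.invOfUnit h34_a 1 = 1 :=
  PowerSeries.mul_invOfUnit _ _ (by rw [h34_constantCoeff_a]; rfl)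

theorem h34_b'_mul_inv : h34_b' * PowerSeries.invOfUnit h34_b' 1 = 1 :=
  PowerSeries.mul_invOfUnit _ _ (by rw [h34_constantCoeff_b']; rfl)

theorem h34_u_mul_v : h34_u * h34_v = 1 := by
  rw [h34_u, h34_v]
  linear_combination PowerSeries.invOfUnit h34_b' 1 * h34_b' * h34_a_mul_inv + h34_b'_mul_inv

theorem h34_constantCoeff_u : PowerSeries.constantCoeff h34_u = 1 := by
  have h := congrArg PowerSeries.constantCoeff h34_b'_mul_inv
  rw [map_mul, h34_constantCoeff_b', one_mul, map_one] at h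
  rw [h34_u, map_mul, h34_constantCoeff_a, h, one_mul]

theorem h34_constantCoeff_v : PowerSeries.constantCoeff h34_v = 1 := by
  have h := congrArg PowerSeries.constantCoeff h34_a_mul_inv
  rw [map_mul, h34_constantCoeff_a, one_mul, map_one] at h
  rw [h34_v, map_mul, h34_constantCoeff_b', h, one_mul]

/-- `h₃ = q⁻¹ u` with `u ∈ ℤ⟦q⟧`, `u(0) = 1`. -/
theorem h34_h3_eq : h34_h3 = HahnSeries.single (-1 : ℤ) 1 * h34_iota h34_u := by
  have h3 : (HahnSeries.single (-1 : ℤ) (1 : ℚ)) * h34_iota PowerSeries.X = 1 := by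
    rw [h34_iota_X, HahnSeries.single_mul_single]
    simp
  have h1 := congrArg h34_iota h34_b'_mul_inv
  rw [map_mul, map_one] at h1
  have hb : h34_iota h34_b = h34_iota PowerSeries.X * h34_iota h34_b' := by
    rw [h34_b, map_mul]
  rw [h34_h3, div_eq_iff h34_iota_b_ne_zero, hb, h34_u, map_mul]
  linear_combination (-h34_iota h34_a * h34_iota h34_b' * h34_iota (PowerSeries.invOfUnit h34_b' 1)) * h3 -
    h34_iota h34_a * h1

/-- `h₃⁻¹ = q v` with `v ∈ ℤ⟦q⟧`, `v(0) = 1`. -/
theorem h34_h3_inv_eq : h34_h3⁻¹ = HahnSeries.single (1 : ℤ) 1 * h34_iota h34_v := by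
  have h3 : (HahnSeries.single (-1 : ℤ) (1 : ℚ)) * HahnSeries.single (1 : ℤ) (1 : ℚ) = 1 := by
    rw [HahnSeries.single_mul_single]
    simp
  have h1 := congrArg h34_iota h34_u_mul_v
  rw [map_mul, map_one] at h1
  refine inv_eq_of_mul_eq_one_right ?_
  rw [h34_h3_eq]
  linear_combination h34_iota h34_u * h34_iota h34_v * h3 + h1

/-- The eta quotient form of `h₃`. -/
theorem h34_h3_eq_eta : h34_h3 = HahnSeries.single (-1 : ℤ) 1 *
    (h34_iota etaProd / qExpand ℚ 3 (h34_iota etaProd)) ^ 12 := by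
  have hs : (HahnSeries.single (-1 : ℤ) (1 : ℚ)) * HahnSeries.single (1 : ℤ) (1 : ℚ) = 1 := by
    rw [HahnSeries.single_mul_single]
    simp
  have hη3 : qExpand ℚ 3 (h34_iota etaProd) ≠ 0 := by
    rw [← h34_iota_expand]
    intro h
    apply h34_b'_ne_zero
    have h1 := h34_iota_injective (h.trans (map_zero h34_iota).symm)
    rw [h34_b', h1]
    simp
  rw [h34_h3, div_eq_iff h34_iota_b_ne_zero, h34_a, h34_b, h34_b', map_pow, map_mul, map_pow,
    h34_iota_expand, h34_iota_X, div_pow]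
  field_simp
  linear_combination (-h34_iota etaProd ^ 12) * hs

end Fermat.Agent.S18
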