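import Mathlib
import Fermat.Agent.S18.Haupt3_34
import Fermat.Prelude.Def_ModularCurve_X0ModL

/-!
# The level 3 Hauptmodul over an arbitrary commutative ring

`h34_u = η(q)¹²/η(q³)¹² ∈ ℤ⟦q⟧` (constant coefficient `1`, inverse `h34_v`).

* `h34_ps_jNum  : jNum * u³ = (u + 27 q) (u + 243 q)³` and
  `h34_ps_jNum3 : jNum(q³) * u = (u + 27 q) (u + 3 q)³` in `ℤ⟦q⟧`;
* for every commutative ring `R`, `h34_h3R R = q⁻¹ u ∈ R((q))` is a unit and
  `jqModC R * h₃³ = (h₃ + 27) (h₃ + 243)³`, `qExpand R 3 (jqModC R) * h₃ = (h₃ + 27) (h₃ + 3)³`,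
  compatibly with `coeffMap`; `h34_h3R ℚ = h34_h3`.
-/

set_option autoImplicit false

open ModularCurve

namespace Fermat.Agent.S18

theorem h34_u_mul_b' : h34_u * h34_b' = h34_a := by
  rw [h34_u]
  linear_combination h34_a * h34_b'_mul_inv

theorem h34_a_sq_mul_inv : (h34_u * h34_b') ^ 2 * dedekindEtaUnitInv = 1 := by
  rw [h34_u_mul_b', h34_a, ← pow_mul]
  exact dedekindEtaUnit_mul_inv

theorem h34_X_mul_b'_pow_ne_zero : (PowerSeries.X : PowerSeries ℤ) * h34_b' ^ 4 ≠ 0 :=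
  mul_ne_zero PowerSeries.X_ne_zero (pow_ne_zero 4 h34_b'_ne_zero)

/-- `jNum * u³ = (u + 27 q) (u + 243 q)³` in `ℤ⟦q⟧`. -/
theorem h34_ps_jNum : jNum * h34_u ^ 3 =
    (h34_u + 27 * PowerSeries.X) * (h34_u + 243 * PowerSeries.X) ^ 3 := by
  have e3 := h34_ps_j
  rw [← h34_u_mul_b', h34_b] at e3
  have e2 := h34_a_sq_mul_inv
  apply mul_left_cancel₀ h34_X_mul_b'_pow_ne_zero
  rw [jNum]
  linear_combination e3 + (eisenstein4 ^ 3 * h34_u * h34_b' ^ 2 * PowerSeries.X) * e2

/-- `jNum(q³) * u = (u + 27 q) (u + 3 q)³` in `ℤ⟦q⟧`. -/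
theorem h34_ps_jNum3 : PowerSeries.expand 3 three_ne_zero jNum * h34_u =
    (h34_u + 27 * PowerSeries.X) * (h34_u + 3 * PowerSeries.X) ^ 3 := by
  have e3 := h34_ps_j3
  rw [← h34_u_mul_b', h34_b] at e3
  have e2 : h34_b' ^ 2 * PowerSeries.expand 3 three_ne_zero dedekindEtaUnitInv = 1 := by
    have h := congrArg (PowerSeries.expand 3 three_ne_zero) dedekindEtaUnit_mul_inv
    rw [map_mul, map_one, dedekindEtaUnit, map_pow] at h
    rw [h34_b', ← pow_mul]
    exact h
  apply mul_left_cancel₀ h34_X_mul_b'_pow_ne_zero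
  rw [jNum, map_mul, map_pow]
  linear_combination e3 + (PowerSeries.X * h34_b' ^ 2 *
    (PowerSeries.expand 3 three_ne_zero eisenstein4) ^ 3 * h34_u) * e2

section General

variable (R : Type*) [CommRing R]

/-- The coefficient map `ℤ⟦q⟧ → R((q))`. -/
noncomputable def h34_iotaR : PowerSeries ℤ →+* LaurentSeries R :=
  (HahnSeries.ofPowerSeries ℤ R).comp (PowerSeries.map (Int.castRingHom R))

theorem h34_iotaR_apply (f : PowerSeries ℤ) :
    h34_iotaR R f = HahnSeries.ofPowerSeries ℤ R (f.map (Int.castRingHom R)) := rfl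

theorem h34_iotaR_X : h34_iotaR R PowerSeries.X = HahnSeries.single 1 1 := by
  rw [h34_iotaR_apply, PowerSeries.map_X, HahnSeries.ofPowerSeries_X]

theorem h34_iotaR_coeff_nat (f : PowerSeries ℤ) (n : ℕ) :
    (h34_iotaR R f).coeff (n : ℤ) = ((PowerSeries.coeff n f : ℤ) : R) := by
  rw [h34_iotaR_apply, HahnSeries.ofPowerSeries_apply_coeff, PowerSeries.coeff_map, eq_intCast]

theorem h34_iotaR_coeff_neg (f : PowerSeries ℤ) {k : ℤ} (hk : k < 0) :
    (h34_iotaR R f).coeff k = 0 :=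
  ofPowerSeries_coeff_of_neg _ hk

theorem h34_iotaR_expand (f : PowerSeries ℤ) :
    h34_iotaR R (PowerSeries.expand 3 three_ne_zero f) = qExpand R 3 (h34_iotaR R f) := by
  ext k
  by_cases hk : ((3 : ℕ) : ℤ) ∣ k
  · obtain ⟨m, rfl⟩ := hk
    rw [qExpand_coeff_mul]
    rcases lt_or_ge m 0 with hm | hm
    · rw [h34_iotaR_coeff_neg _ _ hm, h34_iotaR_coeff_neg _ _ (by push_cast; omega)]
    · obtain ⟨n, rfl⟩ := Int.eq_ofNat_of_zero_le hm
      rw [show ((3 : ℕ) : ℤ) * (n : ℤ) = ((3 * n : ℕ) : ℤ) by push_cast; ring,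
        h34_iotaR_coeff_nat, h34_iotaR_coeff_nat, PowerSeries.coeff_expand_mul]
  · rw [qExpand_coeff_of_not_dvd 3 _ hk]
    rcases lt_or_ge k 0 with hk0 | hk0
    · exact h34_iotaR_coeff_neg _ _ hk0
    · obtain ⟨n, rfl⟩ := Int.eq_ofNat_of_zero_le hk0
      rw [h34_iotaR_coeff_nat, PowerSeries.coeff_expand_of_not_dvd, Int.cast_zero]
      intro h3
      exact hk (by exact_mod_cast h3)

theorem h34_single_mul_single :
    (HahnSeries.single (-1 : ℤ) (1 : R)) * HahnSeries.single (1 : ℤ) (1 : R) = 1 := by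
  rw [HahnSeries.single_mul_single]
  simp

theorem h34_jqModC_eq : jqModC R = HahnSeries.single (-1 : ℤ) 1 * h34_iotaR R jNum := rfl

/-- The level 3 Hauptmodul `q⁻¹ ∏ ((1 - qⁿ)/(1 - q³ⁿ))¹²` with coefficients in `R`. -/
noncomputable def h34_h3R : LaurentSeries R := HahnSeries.single (-1 : ℤ) 1 * h34_iotaR R h34_u

/-- Its inverse `q ∏ ((1 - q³ⁿ)/(1 - qⁿ))¹²`. -/
noncomputable def h34_h3Rinv : LaurentSeries R := HahnSeries.single (1 : ℤ) 1 * h34_iotaR R h34_v

theorem h34_h3R_mul_inv : h34_h3R R * h34_h3Rinv R = 1 := by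
  have h1 := congrArg (h34_iotaR R) h34_u_mul_v
  rw [map_mul, map_one] at h1
  rw [h34_h3R, h34_h3Rinv]
  linear_combination h34_iotaR R h34_u * h34_iotaR R h34_v * h34_single_mul_single R + h1

theorem h34_h3R_isUnit : IsUnit (h34_h3R R) :=
  IsUnit.of_mul_eq_one _ (h34_h3R_mul_inv R)

/-- `j h₃³ = (h₃ + 27) (h₃ + 243)³` over any commutative ring. -/
theorem h34_h3R_j : jqModC R * h34_h3R R ^ 3 = (h34_h3R R + 27) * (h34_h3R R + 243) ^ 3 := by
  have h1 := congrArg (h34_iotaR R) h34_ps_jNum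
  simp only [map_mul, map_pow, map_add, map_ofNat, h34_iotaR_X] at h1
  have hs := h34_single_mul_single R
  rw [h34_jqModC_eq, h34_h3R]
  set s := HahnSeries.single (-1 : ℤ) (1 : R) with hs_def
  set t := HahnSeries.single (1 : ℤ) (1 : R) with ht_def
  set U := h34_iotaR R h34_u with hU_def
  set J := h34_iotaR R jNum with hJ_def
  have e : (s * U + 27) * (s * U + 243) ^ 3 =
      s ^ 4 * ((U + 27 * t) * (U + 243 * t) ^ 3) := by
    have h27 : s * U + 27 = s * (U + 27 * t) := by linear_combination (-27 : LaurentSeries R) * hs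
    have h243 : s * U + 243 = s * (U + 243 * t) := by
      linear_combination (-243 : LaurentSeries R) * hs
    rw [h27, h243]
    ring
  rw [e, ← h1]
  ring

/-- `j(q³) h₃ = (h₃ + 27) (h₃ + 3)³` over any commutative ring. -/
theorem h34_h3R_j3 :
    qExpand R 3 (jqModC R) * h34_h3R R = (h34_h3R R + 27) * (h34_h3R R + 3) ^ 3 := by
  have h1 := congrArg (h34_iotaR R) h34_ps_jNum3
  simp only [map_mul, map_pow, map_add, map_ofNat, h34_iotaR_X, h34_iotaR_expand] at h1
  have hs := h34_single_mul_single R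
  have hq : qExpand R 3 (jqModC R) =
      HahnSeries.single (-1 : ℤ) (1 : R) ^ 3 * qExpand R 3 (h34_iotaR R jNum) := by
    rw [h34_jqModC_eq, map_mul, qExpand_single, HahnSeries.single_pow]
    simp
  rw [hq, h34_h3R]
  set s := HahnSeries.single (-1 : ℤ) (1 : R) with hs_def
  set t := HahnSeries.single (1 : ℤ) (1 : R) with ht_def
  set U := h34_iotaR R h34_u with hU_def
  set J3 := qExpand R 3 (h34_iotaR R jNum) with hJ_def
  have e : (s * U + 27) * (s * U + 3) ^ 3 =
      s ^ 4 * ((U + 27 * t) * (U + 3 * t) ^ 3) := by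
    have h27 : s * U + 27 = s * (U + 27 * t) := by linear_combination (-27 : LaurentSeries R) * hs
    have h3 : s * U + 3 = s * (U + 3 * t) := by
      linear_combination (-3 : LaurentSeries R) * hs
    rw [h27, h3]
    ring
  rw [e, ← h1]
  ring

/-- `(j - 1728) h₃³ = (h₃² - 486 h₃ - 19683)²` over any commutative ring. -/
theorem h34_h3R_1728 : (jqModC R - 1728) * h34_h3R R ^ 3 =
    (h34_h3R R ^ 2 - 486 * h34_h3R R - 19683) ^ 2 := by
  linear_combination h34_h3R_j R

/-- `(j(q³) - 1728) h₃ = (h₃² + 18 h₃ - 27)²` over any commutative ring. -/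
theorem h34_h3R_j3_1728 : (qExpand R 3 (jqModC R) - 1728) * h34_h3R R =
    (h34_h3R R ^ 2 + 18 * h34_h3R R - 27) ^ 2 := by
  linear_combination h34_h3R_j3 R

variable {R} in
theorem h34_coeffMap_iotaR {S : Type*} [CommRing S] (f : R →+* S) (p : PowerSeries ℤ) :
    coeffMap f (h34_iotaR R p) = h34_iotaR S p := by
  rw [h34_iotaR_apply, coeffMap_ofPowerSeries, h34_iotaR_apply,
    ← RingHom.comp_apply (PowerSeries.map f) (PowerSeries.map (Int.castRingHom R)),
    ← PowerSeries.map_comp, RingHom.ext_int (f.comp (Int.castRingHom R)) (Int.castRingHom S)]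

variable {R} in
/-- The Hauptmodul is compatible with change of coefficients. -/
theorem h34_coeffMap_h3R {S : Type*} [CommRing S] (f : R →+* S) :
    coeffMap f (h34_h3R R) = h34_h3R S := by
  rw [h34_h3R, map_mul, coeffMap_single, map_one, h34_coeffMap_iotaR, h34_h3R]

variable {R} in
theorem h34_coeffMap_h3Rinv {S : Type*} [CommRing S] (f : R →+* S) :
    coeffMap f (h34_h3Rinv R) = h34_h3Rinv S := by
  rw [h34_h3Rinv, map_mul, coeffMap_single, map_one, h34_coeffMap_iotaR, h34_h3Rinv]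

end General

/-- Over `ℚ` this is the Hauptmodul `h34_h3` of `Haupt3_34`. -/
theorem h34_h3R_rat : h34_h3R ℚ = h34_h3 := h34_h3_eq.symm

end Fermat.Agent.S18
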