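import Mathlib
import Fermat.Agent.S18.Haupt3R_34
import Fermat.Agent.S18.Haupt3Mem53

/-!
# The level 3 Hauptmodul lies in the function field of `X₀(M)` for `3 ∣ M`

Instantiation of the abstract elimination lemma `h53m_mem_adjoin` (helper53) at the Hauptmodul
`h34_h3R K` of `Haupt3R_34`:

* `h34_h3R_transcendental : Transcendental K (h34_h3R K)` (any field `K`);
* `h34_h3R_mem_adjoin : h34_h3R K ∈ K(j(q), j(q³))` (`K` of characteristic zero);
* `h34_h3R_mem_fullC : h34_h3R K ∈ modularFunctionFieldFullC K M` for `3 ∣ M`;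
* `h34_h3_mem_full : h34_h3 ∈ modularFunctionFieldFull M` (over `ℚ`);
* `h34_h3R_mem_baseChange : h34_h3R L ∈ laurentBaseChange L (modularFunctionFieldFull M)`,
  in particular `h34_h3R_mem_bar : h34_h3R ℚ̄ ∈ modularFunctionFieldBar M`;
* the same for the inverse `h34_h3Rinv`.
-/

set_option autoImplicit false

open ModularCurve

namespace Fermat.Agent.S18

section Field

variable (K : Type*) [Field K]

theorem h34_h3R_eq_pole :
    h34_h3R K = HahnSeries.single (-1 : ℤ) (1 : K) *
      HahnSeries.ofPowerSeries ℤ K (h34_u.map (Int.castRingHom K)) := rfl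

/-- The Hauptmodul is transcendental over the constants (any characteristic). -/
theorem h34_h3R_transcendental : Transcendental K (h34_h3R K) := by
  rw [h34_h3R_eq_pole]
  refine h53m_transcendental_of_pole _ ?_
  rw [← PowerSeries.coeff_zero_eq_constantCoeff, PowerSeries.coeff_map,
    PowerSeries.coeff_zero_eq_constantCoeff, h34_constantCoeff_u, map_one]

theorem h34_h3R_ne_zero : h34_h3R K ≠ 0 := (h34_h3R_isUnit K).ne_zero

theorem h34_h3Rinv_eq_inv : h34_h3Rinv K = (h34_h3R K)⁻¹ :=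
  (inv_eq_of_mul_eq_one_right (h34_h3R_mul_inv K)).symm

variable [CharZero K]

/-- `h₃ ∈ K(j(q), j(q³))`. -/
theorem h34_h3R_mem_adjoin : h34_h3R K ∈
    IntermediateField.adjoin K ({jqModC K, qExpand K 3 (jqModC K)} : Set (LaurentSeries K)) :=
  h53m_mem_adjoin _ _ _ (h34_h3R_transcendental K) (h34_h3R_j K) (h34_h3R_j3 K)

/-- `h₃` lies in the function field of `X₀(M)` over `K` whenever `3 ∣ M`. -/
theorem h34_h3R_mem_fullC (M : ℕ) [NeZero M] (h3 : 3 ∣ M) :
    h34_h3R K ∈ modularFunctionFieldFullC K M := by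
  have hle : IntermediateField.adjoin K
      ({jqModC K, qExpand K 3 (jqModC K)} : Set (LaurentSeries K)) ≤
        modularFunctionFieldFullC K M := by
    rw [IntermediateField.adjoin_le_iff]
    rintro x (rfl | rfl)
    · exact jqModC_mem_full K M
    · exact jqModCd_mem_full K M h3
  exact hle (h34_h3R_mem_adjoin K)

theorem h34_h3Rinv_mem_fullC (M : ℕ) [NeZero M] (h3 : 3 ∣ M) :
    h34_h3Rinv K ∈ modularFunctionFieldFullC K M := by
  rw [h34_h3Rinv_eq_inv]
  exact inv_mem (h34_h3R_mem_fullC K M h3)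

end Field

/-- Over `ℚ`: `h₃ ∈ ℚ(j(q^d) : d ∣ M)` whenever `3 ∣ M`. -/
theorem h34_h3_mem_full (M : ℕ) [NeZero M] (h3 : 3 ∣ M) : h34_h3 ∈ modularFunctionFieldFull M := by
  rw [← h34_h3R_rat, ← modularFunctionFieldFullC_rat]
  exact h34_h3R_mem_fullC ℚ M h3

section BaseChange

variable (L : Type*) [Field L] [Algebra ℚ L]

theorem h34_coeffEmb_h3 : coeffEmb L h34_h3 = h34_h3R L := by
  rw [← h34_h3R_rat, coeffEmb, h34_coeffMap_h3R]

/-- `h₃` with coefficients in `L` lies in the base change of the function field of `X₀(M)`. -/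
theorem h34_h3R_mem_baseChange (M : ℕ) [NeZero M] (h3 : 3 ∣ M) :
    h34_h3R L ∈ laurentBaseChange L (modularFunctionFieldFull M) := by
  rw [← h34_coeffEmb_h3]
  exact coeffEmb_mem_laurentBaseChange L (h34_h3_mem_full M h3)

theorem h34_h3Rinv_mem_baseChange (M : ℕ) [NeZero M] (h3 : 3 ∣ M) :
    h34_h3Rinv L ∈ laurentBaseChange L (modularFunctionFieldFull M) := by
  rw [h34_h3Rinv_eq_inv]
  exact inv_mem (h34_h3R_mem_baseChange L M h3)

end BaseChange

/-- `h₃ ∈ F(M)_{ℚ̄}` for `3 ∣ M`. -/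
theorem h34_h3R_mem_bar (M : ℕ) [NeZero M] (h3 : 3 ∣ M) :
    h34_h3R (AlgebraicClosure ℚ) ∈ modularFunctionFieldBar M :=
  h34_h3R_mem_baseChange (AlgebraicClosure ℚ) M h3

end Fermat.Agent.S18
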