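import Mathlib

/-!
S18, generic glue (helper87): "the two charts only share the constants".

* `cap87_adjoin_inf`      : `K[h] ∩ K[h⁻¹] = K` for transcendental `h`.
* `cap87_isAlgebraic`     : integral over `K[h]` and over `K[h⁻¹]` implies algebraic over `K`.
* `cap87_laurent_const`   : `K` is algebraically closed in `K((q))` (any field `K`).
* `cap87_const`           : consumer form for intermediate fields of `K((q))`.
-/

set_option autoImplicit false

open Polynomial IntermediateField

namespace Fermat.Agent.S18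

section cap87_field

variable {K F : Type*} [Field K] [Field F] [Algebra K F]

theorem cap87_ne_zero (h : F) (hh : Transcendental K h) : h ≠ 0 := by
  rintro rfl
  exact hh isAlgebraic_zero

theorem cap87_transcendental_inv (h : F) (hh : Transcendental K h) : Transcendental K h⁻¹ := by
  intro halg
  apply hh
  have := halg.inv
  rwa [inv_inv] at this

/-- `K[h] ∩ K[h⁻¹] = K` for transcendental `h`. -/
theorem cap87_adjoin_inf (h : F) (hh : Transcendental K h) (x : F)
    (h1 : x ∈ Algebra.adjoin K {h}) (h2 : x ∈ Algebra.adjoin K {h⁻¹}) :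
    ∃ c : K, x = algebraMap K F c := by
  rw [Algebra.adjoin_singleton_eq_range_aeval] at h1 h2
  obtain ⟨p, rfl⟩ := h1
  obtain ⟨p', hp'⟩ := h2
  have hh0 : h ≠ 0 := cap87_ne_zero h hh
  let _ : Invertible h⁻¹ := invertibleOfNonzero (inv_ne_zero hh0)
  have key := eval₂_reverse_mul_pow (algebraMap K F) h⁻¹ p'
  have hinv : ⅟(h⁻¹) = h := by rw [invOf_eq_inv, inv_inv]
  rw [hinv] at key
  have e1 : aeval h (p * X ^ p'.natDegree) = aeval h p'.reverse := by
    rw [map_mul, map_pow, aeval_X]
    have h3 : aeval h p = aeval h p'.reverse * (h⁻¹) ^ p'.natDegree := by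
      rw [aeval_def h p'.reverse, key]
      exact hp'.symm
    rw [h3, mul_assoc, ← mul_pow, inv_mul_cancel₀ hh0, one_pow, mul_one]
  have e2 : p * X ^ p'.natDegree = p'.reverse := (transcendental_iff_injective.mp hh) e1
  by_cases hp0 : p = 0
  · exact ⟨0, by simp [hp0]⟩
  have hdeg : (p * X ^ p'.natDegree).natDegree = p.natDegree + p'.natDegree :=
    natDegree_mul_X_pow _ hp0
  have hle : p.natDegree + p'.natDegree ≤ p'.natDegree := by
    rw [← hdeg, e2]
    exact reverse_natDegree_le p'
  have hp1 : p.natDegree = 0 := by omega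
  refine ⟨p.coeff 0, ?_⟩
  conv_lhs => rw [eq_C_of_natDegree_eq_zero hp1]
  exact aeval_C h (p.coeff 0)

theorem cap87_isPrincipalIdealRing (h : F) (hh : Transcendental K h) :
    IsPrincipalIdealRing (Algebra.adjoin K {h}) := by
  let e : Polynomial K ≃ₐ[K] Algebra.adjoin K {h} :=
    (AlgEquiv.ofInjective (Polynomial.aeval h) (transcendental_iff_injective.mp hh)).trans
      (Subalgebra.equivOfEq _ _ (Algebra.adjoin_singleton_eq_range_aeval K h).symm)
  exact IsPrincipalIdealRing.of_surjective e.toRingEquiv.toRingHom e.surjective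

open scoped IntermediateField.algebraAdjoinAdjoin in
/-- The coefficients of the minimal polynomial over `K(h)` of an element integral over `K[h]`
lie in `K[h]`. -/
theorem cap87_coeff_mem (h : F) (hh : Transcendental K h) (x : F)
    (h1 : IsIntegral (Algebra.adjoin K {h}) x) (n : ℕ) :
    (((minpoly K⟮h⟯ x).coeff n : K⟮h⟯) : F) ∈ Algebra.adjoin K {h} := by
  have : IsPrincipalIdealRing (Algebra.adjoin K {h}) := cap87_isPrincipalIdealRing h hh
  have h2 := minpoly.isIntegrallyClosed_eq_field_fractions' K⟮h⟯ h1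
  rw [h2, coeff_map]
  exact ((minpoly (Algebra.adjoin K {h}) x).coeff n).2

theorem cap87_minpoly_congr {E₁ E₂ : IntermediateField K F} (hE : E₁ = E₂) (x : F) (n : ℕ) :
    (((minpoly E₁ x).coeff n : E₁) : F) = (((minpoly E₂ x).coeff n : E₂) : F) := by
  subst hE
  rfl

theorem cap87_adjoin_inv (h : F) : K⟮h⁻¹⟯ = K⟮h⟯ := by
  apply le_antisymm
  · rw [adjoin_simple_le_iff]
    exact inv_mem (mem_adjoin_simple_self K h)
  · rw [adjoin_simple_le_iff]
    have := inv_mem (mem_adjoin_simple_self K h⁻¹)
    rwa [inv_inv] at this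

open scoped IntermediateField.algebraAdjoinAdjoin in
/-- An element integral over both `K[h]` and `K[h⁻¹]` (`h` transcendental) is algebraic over `K`.
No finiteness, separability or characteristic hypothesis. -/
theorem cap87_isAlgebraic (h : F) (hh : Transcendental K h) (x : F)
    (h1 : IsIntegral (Algebra.adjoin K {h}) x) (h2 : IsIntegral (Algebra.adjoin K {h⁻¹}) x) :
    IsAlgebraic K x := by
  have hh' : Transcendental K h⁻¹ := cap87_transcendental_inv h hh
  have hE : K⟮h⁻¹⟯ = K⟮h⟯ := cap87_adjoin_inv h
  have c1 := cap87_coeff_mem h hh x h1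
  have c2 := cap87_coeff_mem h⁻¹ hh' x h2
  have c2' : ∀ n, (((minpoly K⟮h⟯ x).coeff n : K⟮h⟯) : F) ∈ Algebra.adjoin K {h⁻¹} := by
    intro n
    rw [← cap87_minpoly_congr hE x n]
    exact c2 n
  have hxE : IsIntegral K⟮h⟯ x := h1.tower_top
  have hlift : (minpoly K⟮h⟯ x).map (algebraMap K⟮h⟯ F) ∈ Polynomial.lifts (algebraMap K F) := by
    rw [lifts_iff_coeff_lifts]
    intro n
    obtain ⟨c, hc⟩ := cap87_adjoin_inf h hh _ (c1 n) (c2' n)
    refine ⟨c, ?_⟩
    rw [coeff_map, ← hc]
    rfl
  obtain ⟨Q, hQ⟩ := (mem_lifts _).mp hlift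
  refine ⟨Q, ?_, ?_⟩
  · rintro rfl
    rw [Polynomial.map_zero] at hQ
    have h0 : minpoly K⟮h⟯ x = 0 :=
      (Polynomial.map_eq_zero (algebraMap K⟮h⟯ F)).mp hQ.symm
    exact minpoly.ne_zero hxE h0
  · rw [aeval_def, ← eval_map, hQ, eval_map, ← aeval_def, minpoly.aeval]

end cap87_field

section cap87_ring

variable {R K F : Type*} [CommRing R] [Field K] [Field F]
  [Algebra R K] [Algebra R F] [Algebra K F] [IsScalarTower R K F]

/-- Integrality over `R[h]` implies integrality over `K[h]`. -/
theorem cap87_isIntegral_adjoin_tower (h x : F) (hx : IsIntegral (Algebra.adjoin R {h}) x) :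
    IsIntegral (Algebra.adjoin K {h}) x := by
  have hle : Algebra.adjoin R {h} ≤ (Algebra.adjoin K {h}).restrictScalars R := by
    apply Algebra.adjoin_le
    intro y hy
    rw [Set.mem_singleton_iff] at hy
    subst hy
    exact (Subalgebra.mem_restrictScalars R).mpr (Algebra.self_mem_adjoin_singleton K y)
  let ψ : Algebra.adjoin R {h} →+* Algebra.adjoin K {h} :=
    (algebraMap (Algebra.adjoin R {h}) F).codRestrict (Algebra.adjoin K {h}) (fun a => hle a.2)
  obtain ⟨p, hp, hpe⟩ := hx
  refine ⟨p.map ψ, hp.map ψ, ?_⟩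
  rw [eval₂_map]
  exact hpe

/-- A constant which is integral over `R[h]` (`h` transcendental) is integral over `R`
("evaluate at `h = 0`"). -/
theorem cap87_isIntegral_const (h : F) (hh : Transcendental K h) (c : K)
    (hc : IsIntegral (Algebra.adjoin R {h}) (algebraMap K F c)) : IsIntegral R c := by
  obtain ⟨p, hp, hpe⟩ := hc
  -- the surjection `R[X] → R[h]`
  let θ' : R[X] →+* Algebra.adjoin R {h} :=
    ((Subalgebra.equivOfEq _ _ (Algebra.adjoin_singleton_eq_range_aeval R h).symm).toAlgHom.comp
      (Polynomial.aeval (R := R) h).rangeRestrict).toRingHom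
  have hθ' : Function.Surjective θ' := by
    intro y
    obtain ⟨z, hz⟩ := (Polynomial.aeval (R := R) h).rangeRestrict_surjective
      ((Subalgebra.equivOfEq _ _ (Algebra.adjoin_singleton_eq_range_aeval R h)) y)
    refine ⟨z, ?_⟩
    apply Subtype.ext
    have := congrArg Subtype.val hz
    exact this
  have hθ'coe : ∀ z : R[X], ((θ' z : Algebra.adjoin R {h}) : F) = aeval h z := fun z => rfl
  have hlift : p ∈ Polynomial.lifts θ' := by
    rw [lifts_iff_coeff_lifts]
    intro n
    exact hθ' _
  obtain ⟨P, hPmap, -, hPmonic⟩ := lifts_and_degree_eq_and_monic hlift hp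
  rw [← hPmap, eval₂_map] at hpe
  -- factor through `K[X]`
  let Θ : K[X] →+* F := (Polynomial.aeval (R := K) h).toRingHom
  have hΘ : Function.Injective Θ := transcendental_iff_injective.mp hh
  let μ : R[X] →+* K[X] := Polynomial.mapRingHom (algebraMap R K)
  have hfac : (algebraMap (Algebra.adjoin R {h}) F).comp θ' = Θ.comp μ := by
    refine Polynomial.ringHom_ext (fun z => ?_) ?_
    · show ((θ' (C z) : Algebra.adjoin R {h}) : F) = aeval h ((C z : R[X]).map (algebraMap R K))
      rw [hθ'coe, aeval_C, Polynomial.map_C, aeval_C, IsScalarTower.algebraMap_apply R K F]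
    · show ((θ' X : Algebra.adjoin R {h}) : F) = aeval h ((X : R[X]).map (algebraMap R K))
      rw [hθ'coe, aeval_X, Polynomial.map_X, aeval_X]
  have hcc : algebraMap K F c = Θ (C c) := (aeval_C (R := K) h c).symm
  rw [hfac, hcc, ← Polynomial.hom_eval₂] at hpe
  have h0 : eval₂ μ (C c) P = 0 := hΘ (by rw [hpe, map_zero])
  have h1 := congrArg (Polynomial.evalRingHom (0 : K)) h0
  rw [Polynomial.hom_eval₂, map_zero] at h1
  have hev : (Polynomial.evalRingHom (0 : K)).comp μ =
      (algebraMap R K).comp (Polynomial.evalRingHom (0 : R)) := by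
    refine Polynomial.ringHom_ext (fun z => ?_) ?_
    · simp [μ]
    · simp [μ]
  have hevc : Polynomial.evalRingHom (0 : K) (C c) = c := by simp
  rw [hev, hevc, ← eval₂_map] at h1
  exact ⟨P.map (Polynomial.evalRingHom (0 : R)), hPmonic.map _, h1⟩

/-- `B₁ ∩ B₂ = R` for the integral closures of `R[h]` and `R[h⁻¹]`, when `R` is integrally
closed with fraction field `K`, `h` is transcendental over `K` and `K` is algebraically closed
in `F`. -/
theorem cap87_const_of_isIntegrallyClosed [IsDomain R] [IsIntegrallyClosed R] [IsFractionRing R K]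
    (hK : ∀ y : F, IsAlgebraic K y → ∃ c : K, y = algebraMap K F c)
    (h : F) (hh : Transcendental K h) (x : F)
    (h1 : IsIntegral (Algebra.adjoin R {h}) x) (h2 : IsIntegral (Algebra.adjoin R {h⁻¹}) x) :
    ∃ r : R, x = algebraMap R F r := by
  have ha : IsAlgebraic K x :=
    cap87_isAlgebraic h hh x (cap87_isIntegral_adjoin_tower h x h1)
      (cap87_isIntegral_adjoin_tower h⁻¹ x h2)
  obtain ⟨c, rfl⟩ := hK x ha
  have hc : IsIntegral R c := cap87_isIntegral_const h hh c h1
  obtain ⟨r, rfl⟩ := IsIntegrallyClosed.isIntegral_iff.mp hc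
  exact ⟨r, (IsScalarTower.algebraMap_apply R K F r).symm⟩

end cap87_ring

section cap87_laurent

variable {K : Type*} [Field K]

/-- `K` is algebraically closed in `K((q))`, for every field `K`. -/
theorem cap87_laurent_const (x : LaurentSeries K) (hx : IsAlgebraic K x) :
    ∃ c : K, x = algebraMap K (LaurentSeries K) c := by
  have hint : IsIntegral K x := hx.isIntegral
  have hcomp : (algebraMap (PowerSeries K) (LaurentSeries K)).comp (algebraMap K (PowerSeries K)) =
      algebraMap K (LaurentSeries K) := by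
    rfl
  have hint' : IsIntegral (PowerSeries K) x := by
    obtain ⟨P, hP, hPx⟩ := hint
    refine ⟨P.map (algebraMap K (PowerSeries K)), hP.map _, ?_⟩
    rw [eval₂_map, hcomp]
    exact hPx
  obtain ⟨p, hp⟩ := IsIntegrallyClosed.isIntegral_iff.mp hint'
  refine ⟨PowerSeries.constantCoeff p, ?_⟩
  by_contra hne
  set y : PowerSeries K := p - algebraMap K (PowerSeries K) (PowerSeries.constantCoeff p) with hy
  have hy0 : y ≠ 0 := by
    intro h0
    apply hne
    rw [← hp, ← hcomp, RingHom.comp_apply]
    congr 1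
    exact sub_eq_zero.mp h0
  have hyint : IsIntegral K y := by
    have hinj : Function.Injective (algebraMap (PowerSeries K) (LaurentSeries K)) :=
      IsFractionRing.injective _ _
    have h1 : IsIntegral K (algebraMap (PowerSeries K) (LaurentSeries K) y) := by
      rw [hy, map_sub, hp, ← RingHom.comp_apply, hcomp]
      exact hint.sub isIntegral_algebraMap
    obtain ⟨P, hP, hPx⟩ := h1
    refine ⟨P, hP, hinj ?_⟩
    rw [map_zero, Polynomial.hom_eval₂, hcomp]
    exact hPx
  have h0 := minpoly.coeff_zero_ne_zero hyint hy0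
  have h1 : aeval y (minpoly K y) = 0 := minpoly.aeval K y
  have hcc : (PowerSeries.constantCoeff (R := K)).comp (algebraMap K (PowerSeries K)) =
      RingHom.id K := by
    ext a : 1
    simp
  have h2 := congrArg (PowerSeries.constantCoeff (R := K)) h1
  rw [aeval_def, Polynomial.hom_eval₂, hcc, map_zero] at h2
  have hy1 : PowerSeries.constantCoeff y = 0 := by
    rw [hy, map_sub]
    simp
  rw [hy1, eval₂_id, ← coeff_zero_eq_eval_zero] at h2
  exact h0 h2

/-- Consumer form: in an intermediate field `K ⊆ F ⊆ K((q))`, an element integral over `K[h]`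
and over `K[h⁻¹]` (`h` transcendental) is a constant. -/
theorem cap87_const (F : IntermediateField K (LaurentSeries K)) (h x : F)
    (hh : Transcendental K h)
    (h1 : IsIntegral (Algebra.adjoin K {h}) x) (h2 : IsIntegral (Algebra.adjoin K {h⁻¹}) x) :
    ∃ c : K, x = algebraMap K F c := by
  have ha : IsAlgebraic K x := cap87_isAlgebraic h hh x h1 h2
  have ha' : IsAlgebraic K (x : LaurentSeries K) :=
    (isAlgebraic_algebraMap_iff (algebraMap F (LaurentSeries K)).injective).mpr ha
  obtain ⟨c, hc⟩ := cap87_laurent_const _ ha'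
  exact ⟨c, Subtype.ext hc⟩

/-- `K` is algebraically closed in every intermediate field of `K((q))` (the hypothesis `hK` of
`cap87_const_of_isIntegrallyClosed`). -/
theorem cap87_algClosed_in (F : IntermediateField K (LaurentSeries K)) (y : F)
    (hy : IsAlgebraic K y) : ∃ c : K, y = algebraMap K F c := by
  have ha' : IsAlgebraic K (y : LaurentSeries K) :=
    (isAlgebraic_algebraMap_iff (algebraMap F (LaurentSeries K)).injective).mpr hy
  obtain ⟨c, hc⟩ := cap87_laurent_const _ ha'
  exact ⟨c, Subtype.ext hc⟩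

/-- `R`-model version of `cap87_const`: `R` integrally closed with fraction field `K`,
`F ⊆ K((q))`; an element integral over `R[h]` and over `R[h⁻¹]` lies in `R`. -/
theorem cap87_const_R {R : Type*} [CommRing R] [IsDomain R] [IsIntegrallyClosed R]
    [Algebra R K] [IsFractionRing R K] (F : IntermediateField K (LaurentSeries K))
    [Algebra R F] [IsScalarTower R K F] (h x : F) (hh : Transcendental K h)
    (h1 : IsIntegral (Algebra.adjoin R {h}) x) (h2 : IsIntegral (Algebra.adjoin R {h⁻¹}) x) :
    ∃ r : R, x = algebraMap R F r :=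
  cap87_const_of_isIntegrallyClosed (cap87_algClosed_in F) h hh x h1 h2

end cap87_laurent

end Fermat.Agent.S18
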