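import Fermat.Agent.S18.RElimConst29
import Fermat.Agent.S18.ConstCap87

/-!
S18 (helper29): `J` is transcendental in `F_k = modularFunctionFieldFullC k N`, for every field `k`
(companion of `relimc_finite`: `F_k` is finite over `k(J)`).
-/

set_option autoImplicit false

open HahnSeries IntermediateField AlgebraicCurve ModularCurve

namespace Fermat.Agent.S18

variable (k : Type) [Field k] (N : ℕ)

theorem relimc_J_coe : ((relimc_J k N : modularFunctionFieldFullC k N) : LaurentSeries k) =
    jqModC k := rfl

/-- `J` is transcendental over `k` as a Laurent series. -/
theorem relimc_jqModC_transcendental : Transcendental k (jqModC k) := by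
  intro halg
  obtain ⟨c, hc⟩ := cap87_laurent_const _ halg
  have h1 := congrArg (fun s : LaurentSeries k => s.coeff (-1)) hc
  simp only [coeff_jqModC_neg_one, algebraMap_laurentSeries_eq_single] at h1
  rw [HahnSeries.coeff_single_of_ne (by decide)] at h1
  exact one_ne_zero h1

/-- `J` is transcendental over `k` as an element of `F_k`. -/
theorem relimc_J_transcendental : Transcendental k (relimc_J k N) := by
  intro halg
  exact relimc_jqModC_transcendental k
    (halg.algHom (IntermediateField.val (modularFunctionFieldFullC k N)))

end Fermat.Agent.S18
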