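import Mathlib

/-!
# S18, glue module (LP): from the local generator lemma to the `LP` / `NBAR` / `VAL`
hypotheses of the two-chart lemma (helper7)

Everything is elementwise inside a field `F`; Mathlib only.

* `lp7_primeVal` : for a noetherian subring `D` of `F` with `F = Frac D` and a prime element
  `p` of `D`, the localisation `D_(p)` as a `ValuationSubring F`; it is a principal ideal ring,
  is not `⊤`, contains `D`, and contains `q⁻¹` for every `q ∈ D` not divisible by `p`.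
* `lp7_loc` : the localisation `B_n` of a subring `B` of `F` at a prime ideal, as a subring.
-/

set_option autoImplicit false

namespace Fermat.Agent.S18

section PrimeVal

variable {F : Type*} [Field F]

/-- The localisation of the subring `D` at the prime element `p`, as a subring of `F`. -/
def lp7_primeLoc (D : Subring F) (p : F)
    (hp1 : ¬ ∃ z ∈ D, 1 = p * z)
    (hpr : ∀ x ∈ D, ∀ y ∈ D, (∃ z ∈ D, x * y = p * z) → (∃ z ∈ D, x = p * z) ∨ (∃ z ∈ D, y = p * z)) :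
    Subring F where
  carrier := {x | ∃ a ∈ D, ∃ b ∈ D, (¬ ∃ z ∈ D, b = p * z) ∧ x * b = a}
  mul_mem' := by
    rintro x y ⟨a, ha, b, hb, hpb, hx⟩ ⟨a', ha', b', hb', hpb', hy⟩
    refine ⟨a * a', D.mul_mem ha ha', b * b', D.mul_mem hb hb', ?_, ?_⟩
    · intro h
      rcases hpr b hb b' hb' h with h1 | h1
      · exact hpb h1
      · exact hpb' h1
    · rw [← hx, ← hy]; ring
  one_mem' := ⟨1, D.one_mem, 1, D.one_mem, hp1, by ring⟩
  add_mem' := by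
    rintro x y ⟨a, ha, b, hb, hpb, hx⟩ ⟨a', ha', b', hb', hpb', hy⟩
    refine ⟨a * b' + a' * b, D.add_mem (D.mul_mem ha hb') (D.mul_mem ha' hb), b * b',
      D.mul_mem hb hb', ?_, ?_⟩
    · intro h
      rcases hpr b hb b' hb' h with h1 | h1
      · exact hpb h1
      · exact hpb' h1
    · rw [← hx, ← hy]; ring
  zero_mem' := ⟨0, D.zero_mem, 1, D.one_mem, hp1, by ring⟩
  neg_mem' := by
    rintro x ⟨a, ha, b, hb, hpb, hx⟩
    exact ⟨-a, D.neg_mem ha, b, hb, hpb, by rw [← hx]; ring⟩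

theorem lp7_mem_primeLoc (D : Subring F) (p : F)
    (hp1 : ¬ ∃ z ∈ D, 1 = p * z)
    (hpr : ∀ x ∈ D, ∀ y ∈ D, (∃ z ∈ D, x * y = p * z) → (∃ z ∈ D, x = p * z) ∨ (∃ z ∈ D, y = p * z))
    (x : F) : x ∈ lp7_primeLoc D p hp1 hpr ↔
      ∃ a ∈ D, ∃ b ∈ D, (¬ ∃ z ∈ D, b = p * z) ∧ x * b = a := Iff.rfl

/-- Factoring out the maximal power of a non-unit `p` in a noetherian domain `D ⊆ F`. -/
theorem lp7_max_power (D : Subring F) [IsNoetherianRing D] (p : F) (hpD : p ∈ D)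
    (hp1 : ¬ ∃ z ∈ D, 1 = p * z) (a : F) (ha : a ∈ D) (ha0 : a ≠ 0) :
    ∃ k : ℕ, ∃ a' ∈ D, (¬ ∃ z ∈ D, a' = p * z) ∧ a = p ^ k * a' := by
  have hnu : ¬ IsUnit (⟨p, hpD⟩ : D) := by
    intro hu
    obtain ⟨z, hz⟩ := hu.exists_right_inv
    exact hp1 ⟨z, z.2, by simpa using (congrArg Subtype.val hz).symm⟩
  have ha0' : (⟨a, ha⟩ : D) ≠ 0 := fun h => ha0 (congrArg Subtype.val h)
  obtain ⟨n, a', hnd, hEq⟩ := WfDvdMonoid.max_power_factor' ha0' hnu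
  refine ⟨n, a', a'.2, ?_, ?_⟩
  · rintro ⟨z, hz, hz'⟩
    exact hnd ⟨⟨z, hz⟩, Subtype.ext hz'⟩
  · simpa using congrArg Subtype.val hEq


/-- `D_(p)` as a valuation subring of `F = Frac D`. -/
def lp7_primeVal (D : Subring F) [IsNoetherianRing D] (p : F) (hpD : p ∈ D) (hp0 : p ≠ 0)
    (hp1 : ¬ ∃ z ∈ D, 1 = p * z)
    (hpr : ∀ x ∈ D, ∀ y ∈ D, (∃ z ∈ D, x * y = p * z) → (∃ z ∈ D, x = p * z) ∨ (∃ z ∈ D, y = p * z))
    (hfrac : ∀ x : F, ∃ a ∈ D, ∃ b ∈ D, b ≠ 0 ∧ x * b = a) : ValuationSubring F :=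
  { lp7_primeLoc D p hp1 hpr with
    mem_or_inv_mem' := by
      intro x
      by_cases hx : x = 0
      · left; rw [hx]; exact (lp7_primeLoc D p hp1 hpr).zero_mem
      obtain ⟨a, ha, b, hb, hb0, hxb⟩ := hfrac x
      have ha0 : a ≠ 0 := by rw [← hxb]; exact mul_ne_zero hx hb0
      obtain ⟨i, a', ha', hpa', rfl⟩ := lp7_max_power D p hpD hp1 a ha ha0
      obtain ⟨j, b', hb', hpb', rfl⟩ := lp7_max_power D p hpD hp1 b hb hb0
      have hb'0 : b' ≠ 0 := fun h => hb0 (by rw [h, mul_zero])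
      have ha'0 : a' ≠ 0 := fun h => ha0 (by rw [h, mul_zero])
      rcases le_total j i with hji | hij
      · left
        refine ⟨p ^ (i - j) * a', D.mul_mem (D.pow_mem hpD _) ha', b', hb', hpb', ?_⟩
        have hpj : p ^ j ≠ 0 := pow_ne_zero _ hp0
        apply mul_left_cancel₀ hpj
        have : p ^ j * (p ^ (i - j) * a') = p ^ i * a' := by
          rw [← mul_assoc, ← pow_add, Nat.add_sub_cancel' hji]
        rw [this, ← hxb]; ring
      · right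
        refine ⟨p ^ (j - i) * b', D.mul_mem (D.pow_mem hpD _) hb', a', ha', hpa', ?_⟩
        have hpi : p ^ i ≠ 0 := pow_ne_zero _ hp0
        apply mul_left_cancel₀ hpi
        apply mul_left_cancel₀ hx
        have h1 : x * (p ^ i * (x⁻¹ * a')) = p ^ i * a' := by
          field_simp
        have h2 : x * (p ^ i * (p ^ (j - i) * b')) = x * (p ^ j * b') := by
          rw [← mul_assoc (p ^ i), ← pow_add, Nat.add_sub_cancel' hij]
        rw [h1, h2, hxb] }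

section PrimeValLemmas

variable (D : Subring F) [IsNoetherianRing D] (p : F) (hpD : p ∈ D) (hp0 : p ≠ 0)
    (hp1 : ¬ ∃ z ∈ D, 1 = p * z)
    (hpr : ∀ x ∈ D, ∀ y ∈ D, (∃ z ∈ D, x * y = p * z) → (∃ z ∈ D, x = p * z) ∨ (∃ z ∈ D, y = p * z))
    (hfrac : ∀ x : F, ∃ a ∈ D, ∃ b ∈ D, b ≠ 0 ∧ x * b = a)

include hpD hp0 hp1 hpr hfrac

theorem lp7_mem_primeVal (x : F) : x ∈ lp7_primeVal D p hpD hp0 hp1 hpr hfrac ↔
    ∃ a ∈ D, ∃ b ∈ D, (¬ ∃ z ∈ D, b = p * z) ∧ x * b = a := Iff.rfl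

theorem lp7_le_primeVal (x : F) (hx : x ∈ D) : x ∈ lp7_primeVal D p hpD hp0 hp1 hpr hfrac :=
  ⟨x, hx, 1, D.one_mem, hp1, mul_one x⟩

theorem lp7_inv_mem_primeVal (q : F) (hq : q ∈ D) (hpq : ¬ ∃ z ∈ D, q = p * z) :
    q⁻¹ ∈ lp7_primeVal D p hpD hp0 hp1 hpr hfrac := by
  have hq0 : q ≠ 0 := fun h => hpq ⟨0, D.zero_mem, by rw [h, mul_zero]⟩
  exact ⟨1, D.one_mem, q, hq, hpq, inv_mul_cancel₀ hq0⟩

theorem lp7_p_inv_not_mem : p⁻¹ ∉ lp7_primeVal D p hpD hp0 hp1 hpr hfrac := by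
  rintro ⟨a, ha, b, hb, hpb, hab⟩
  apply hpb
  refine ⟨a, ha, ?_⟩
  rw [← hab]; field_simp

theorem lp7_primeVal_ne_top : lp7_primeVal D p hpD hp0 hp1 hpr hfrac ≠ ⊤ := by
  intro h
  apply lp7_p_inv_not_mem D p hpD hp0 hp1 hpr hfrac
  rw [h]; exact ValuationSubring.mem_top _

/-- Every nonzero element of `D_(p)` is `p ^ k` times a unit. -/
theorem lp7_primeVal_factor (x : F) (hx : x ∈ lp7_primeVal D p hpD hp0 hp1 hpr hfrac)
    (hx0 : x ≠ 0) : ∃ k : ℕ, ∃ e : F, e ∈ lp7_primeVal D p hpD hp0 hp1 hpr hfrac ∧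
      e⁻¹ ∈ lp7_primeVal D p hpD hp0 hp1 hpr hfrac ∧ x = p ^ k * e := by
  obtain ⟨a, ha, b, hb, hpb, hab⟩ := hx
  have hb0 : b ≠ 0 := fun h => hpb ⟨0, D.zero_mem, by rw [h, mul_zero]⟩
  have ha0 : a ≠ 0 := by rw [← hab]; exact mul_ne_zero hx0 hb0
  obtain ⟨k, a', ha', hpa', rfl⟩ := lp7_max_power D p hpD hp1 a ha ha0
  have ha'0 : a' ≠ 0 := fun h => ha0 (by rw [h, mul_zero])
  refine ⟨k, a' / b, ⟨a', ha', b, hb, hpb, by field_simp⟩, ⟨b, hb, a', ha', hpa', by field_simp⟩, ?_⟩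
  field_simp
  rw [hab]

/-- A unit of `D_(p)` is a quotient of two elements of `D` not divisible by `p`. -/
theorem lp7_primeVal_unit (e : F) (he0 : e ≠ 0)
    (he : e ∈ lp7_primeVal D p hpD hp0 hp1 hpr hfrac)
    (he' : e⁻¹ ∈ lp7_primeVal D p hpD hp0 hp1 hpr hfrac) :
    ∃ a ∈ D, ∃ b ∈ D, (¬ ∃ z ∈ D, a = p * z) ∧ (¬ ∃ z ∈ D, b = p * z) ∧ e * b = a := by
  obtain ⟨a, ha, b, hb, hpb, hab⟩ := he
  obtain ⟨a', ha', b', hb', hpb', hab'⟩ := he'
  refine ⟨a, ha, b, hb, ?_, hpb, hab⟩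
  rintro ⟨z, hz, hz'⟩
  have h1 : a * a' = b * b' := by
    rw [← hab, ← hab']; field_simp
  rcases hpr b hb b' hb' ⟨z * a', D.mul_mem hz ha', by rw [← h1, hz']; ring⟩ with h2 | h2
  · exact hpb h2
  · exact hpb' h2

/-- `D_(p)` is a principal ideal ring. -/
theorem lp7_primeVal_isPrincipalIdealRing :
    IsPrincipalIdealRing (lp7_primeVal D p hpD hp0 hp1 hpr hfrac) := by
  classical
  set O := lp7_primeVal D p hpD hp0 hp1 hpr hfrac with hO
  have hpO : p ∈ O := lp7_le_primeVal D p hpD hp0 hp1 hpr hfrac p hpD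
  refine ⟨fun I => ?_⟩
  by_cases hI : I = ⊥
  · exact ⟨0, by rw [hI]; simp⟩
  obtain ⟨x, hxI, hx0⟩ : ∃ x ∈ I, x ≠ 0 := Submodule.exists_mem_ne_zero_of_ne_bot hI
  have hex : ∃ n : ℕ, (⟨p, hpO⟩ : O) ^ n ∈ I := by
    have hx0' : (x : F) ≠ 0 := fun h => hx0 (Subtype.ext h)
    obtain ⟨k, e, he, he', hxe⟩ := lp7_primeVal_factor D p hpD hp0 hp1 hpr hfrac (x : F) x.2 hx0'
    refine ⟨k, ?_⟩
    have : (⟨p, hpO⟩ : O) ^ k = (⟨e⁻¹, he'⟩ : O) * x := by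
      apply Subtype.ext
      have he0 : e ≠ 0 := by
        rintro rfl
        exact hx0' (by rw [hxe, mul_zero])
      simp only [SubmonoidClass.coe_pow, MulMemClass.coe_mul]
      rw [hxe]; field_simp
    rw [this]
    exact I.mul_mem_left _ hxI
  refine ⟨(⟨p, hpO⟩ : O) ^ Nat.find hex, le_antisymm ?_ ?_⟩
  · intro y hyI
    by_cases hy0 : y = 0
    · rw [hy0]; exact Submodule.zero_mem _
    have hy0' : (y : F) ≠ 0 := fun h => hy0 (Subtype.ext h)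
    obtain ⟨k, e, he, he', hye⟩ := lp7_primeVal_factor D p hpD hp0 hp1 hpr hfrac (y : F) y.2 hy0'
    have he0 : e ≠ 0 := by
      rintro rfl
      exact hy0' (by rw [hye, mul_zero])
    have hk : (⟨p, hpO⟩ : O) ^ k ∈ I := by
      have : (⟨p, hpO⟩ : O) ^ k = (⟨e⁻¹, he'⟩ : O) * y := by
        apply Subtype.ext
        simp only [SubmonoidClass.coe_pow, MulMemClass.coe_mul]
        rw [hye]; field_simp
      rw [this]
      exact I.mul_mem_left _ hyI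
    have hle : Nat.find hex ≤ k := Nat.find_min' hex hk
    rw [Submodule.mem_span_singleton]
    refine ⟨(⟨p, hpO⟩ : O) ^ (k - Nat.find hex) * ⟨e, he⟩, ?_⟩
    apply Subtype.ext
    simp only [smul_eq_mul, SubmonoidClass.coe_pow, MulMemClass.coe_mul]
    rw [hye, mul_right_comm, ← pow_add, Nat.sub_add_cancel hle]
  · rw [Submodule.span_singleton_le_iff_mem]
    exact Nat.find_spec hex

end PrimeValLemmas

end PrimeVal

section Loc

variable {F : Type*} [Field F]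

/-- The localisation of the subring `B` at the prime ideal `n`, as a subring of `F`. -/
def lp7_loc (B : Subring F) (n : Ideal B) [hn : n.IsPrime] : Subring F where
  carrier := {x | ∃ s : B, s ∉ n ∧ (s : F) * x ∈ B}
  mul_mem' := by
    rintro x y ⟨s, hs, hsx⟩ ⟨t, ht, hty⟩
    refine ⟨s * t, fun h => (hn.mem_or_mem h).elim hs ht, ?_⟩
    have : ((s * t : B) : F) * (x * y) = ((s : F) * x) * ((t : F) * y) := by push_cast; ring
    rw [this]; exact B.mul_mem hsx hty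
  one_mem' := ⟨1, (Ideal.ne_top_iff_one n).mp hn.ne_top, by simp⟩
  add_mem' := by
    rintro x y ⟨s, hs, hsx⟩ ⟨t, ht, hty⟩
    refine ⟨s * t, fun h => (hn.mem_or_mem h).elim hs ht, ?_⟩
    have : ((s * t : B) : F) * (x + y) = (t : F) * ((s : F) * x) + (s : F) * ((t : F) * y) := by
      push_cast; ring
    rw [this]; exact B.add_mem (B.mul_mem t.2 hsx) (B.mul_mem s.2 hty)
  zero_mem' := ⟨1, (Ideal.ne_top_iff_one n).mp hn.ne_top, by simp⟩
  neg_mem' := by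
    rintro x ⟨s, hs, hsx⟩
    refine ⟨s, hs, ?_⟩
    rw [mul_neg]; exact B.neg_mem hsx

variable (B : Subring F) (n : Ideal B) [hn : n.IsPrime]

theorem lp7_mem_loc (x : F) : x ∈ lp7_loc B n ↔ ∃ s : B, s ∉ n ∧ (s : F) * x ∈ B := Iff.rfl

theorem lp7_le_loc (x : F) (hx : x ∈ B) : x ∈ lp7_loc B n :=
  ⟨1, (Ideal.ne_top_iff_one n).mp hn.ne_top, by simpa using hx⟩

omit hn in
theorem lp7_ne_zero_of_not_mem (s : B) (hs : s ∉ n) : (s : F) ≠ 0 := by
  intro h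
  apply hs
  have : s = 0 := Subtype.ext h
  rw [this]; exact n.zero_mem

theorem lp7_inv_mem_loc (s : B) (hs : s ∉ n) : (s : F)⁻¹ ∈ lp7_loc B n :=
  ⟨s, hs, by rw [mul_inv_cancel₀ (lp7_ne_zero_of_not_mem B n s hs)]; exact B.one_mem⟩

/-- The localisation of a noetherian ring is noetherian. -/
theorem lp7_loc_isNoetherianRing [IsNoetherianRing B] : IsNoetherianRing (lp7_loc B n) := by
  rw [isNoetherianRing_iff_ideal_fg]
  intro I
  let ι : B →+* lp7_loc B n := Subring.inclusion (fun x hx => lp7_le_loc B n x hx)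
  have hfg : (I.comap ι).FG := (isNoetherianRing_iff_ideal_fg B).mp inferInstance _
  have hI : I = (I.comap ι).map ι := by
    apply le_antisymm
    · intro x hx
      obtain ⟨s, hs, hsx⟩ := x.2
      have hy : (⟨(s : F) * x, hsx⟩ : B) ∈ I.comap ι := by
        rw [Ideal.mem_comap]
        have : ι ⟨(s : F) * x, hsx⟩ = ι s * x := Subtype.ext rfl
        rw [this]; exact I.mul_mem_left _ hx
      have hx' : x = (⟨(s : F)⁻¹, lp7_inv_mem_loc B n s hs⟩ : lp7_loc B n) *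
          ι ⟨(s : F) * x, hsx⟩ := by
        apply Subtype.ext
        have hs0 := lp7_ne_zero_of_not_mem B n s hs
        show (x : F) = (s : F)⁻¹ * ((s : F) * x)
        field_simp
      rw [hx']
      exact Ideal.mul_mem_left _ _ (Ideal.mem_map_of_mem ι hy)
    · exact Ideal.map_comap_le
  rw [hI]; exact Ideal.FG.map hfg ι

section Transfer

variable (V : ValuationSubring F) (π : F) (hπB : π ∈ B)

/-- `B_n ⊆ V` when `π ∈ n`, `m_V = π V` and `B ∩ π V = π B`. -/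
theorem lp7_loc_le (hBV : ∀ x ∈ B, x ∈ V) (hπn : (⟨π, hπB⟩ : B) ∈ n)
    (hmax : ∀ x ∈ V, x⁻¹ ∉ V → ∃ y ∈ V, x = π * y)
    (hsat : ∀ x ∈ B, (∃ y ∈ V, x = π * y) → ∃ y ∈ B, x = π * y) :
    ∀ x ∈ lp7_loc B n, x ∈ V := by
  rintro x ⟨s, hs, hsx⟩
  have hs0 := lp7_ne_zero_of_not_mem B n s hs
  have hsinv : (s : F)⁻¹ ∈ V := by
    by_contra hcon
    obtain ⟨y, hy, hsy⟩ := hsat s s.2 (hmax s (hBV s s.2) hcon)
    apply hs
    have : s = ⟨π, hπB⟩ * ⟨y, hy⟩ := Subtype.ext hsy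
    rw [this]; exact n.mul_mem_right _ hπn
  have : x = (s : F)⁻¹ * ((s : F) * x) := by field_simp
  rw [this]; exact V.mul_mem _ _ hsinv (hBV _ hsx)

/-- `π` lies in the Jacobson radical of `B_n` when `π ∈ n`. -/
theorem lp7_loc_jac (hπn : (⟨π, hπB⟩ : B) ∈ n) :
    ∀ x ∈ lp7_loc B n, ∃ y ∈ lp7_loc B n, (1 + π * x) * y = 1 := by
  rintro x ⟨s, hs, hsx⟩
  have hs0 := lp7_ne_zero_of_not_mem B n s hs
  set t : B := s + ⟨π, hπB⟩ * ⟨(s : F) * x, hsx⟩ with ht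
  have htn : t ∉ n := by
    intro h
    apply hs
    have : s = t - ⟨π, hπB⟩ * ⟨(s : F) * x, hsx⟩ := by rw [ht]; ring
    rw [this]; exact n.sub_mem h (n.mul_mem_right _ hπn)
  have ht0 := lp7_ne_zero_of_not_mem B n t htn
  have htv : (t : F) = (s : F) + π * ((s : F) * x) := rfl
  refine ⟨(s : F) * (t : F)⁻¹, (lp7_loc B n).mul_mem (lp7_le_loc B n _ s.2)
    (lp7_inv_mem_loc B n t htn), ?_⟩
  have : (1 + π * x) * ((s : F) * (t : F)⁻¹) = (t : F) * (t : F)⁻¹ := by rw [htv]; ring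
  rw [this, mul_inv_cancel₀ ht0]

/-- `SAT` passes to the localisation. -/
theorem lp7_loc_sat (hBV : ∀ x ∈ B, x ∈ V)
    (hsat : ∀ x ∈ B, (∃ y ∈ V, x = π * y) → ∃ y ∈ B, x = π * y) :
    ∀ x ∈ lp7_loc B n, (∃ y ∈ V, x = π * y) → ∃ y ∈ lp7_loc B n, x = π * y := by
  rintro x ⟨s, hs, hsx⟩ ⟨y, hyV, rfl⟩
  have hs0 := lp7_ne_zero_of_not_mem B n s hs
  obtain ⟨z, hz, hsz⟩ := hsat _ hsx ⟨(s : F) * y, V.mul_mem _ _ (hBV s s.2) hyV, by ring⟩
  refine ⟨(s : F)⁻¹ * z, (lp7_loc B n).mul_mem (lp7_inv_mem_loc B n s hs) (lp7_le_loc B n z hz), ?_⟩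
  have : π * ((s : F)⁻¹ * z) = (s : F)⁻¹ * (π * z) := by ring
  rw [this, ← hsz]; field_simp

/-- `ROOT` passes to the localisation. -/
theorem lp7_loc_root (m : ℕ) (hm : 0 < m) (hroot : ∀ x : F, x ^ m ∈ B → x ∈ B) :
    ∀ x : F, x ^ m ∈ lp7_loc B n → x ∈ lp7_loc B n := by
  rintro x ⟨s, hs, hsx⟩
  refine ⟨s, hs, hroot _ ?_⟩
  obtain ⟨k, rfl⟩ := Nat.exists_eq_succ_of_ne_zero hm.ne'
  have : ((s : F) * x) ^ (k + 1) = (s : F) ^ k * ((s : F) * x ^ (k + 1)) := by ring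
  rw [this]; exact B.mul_mem (B.pow_mem s.2 _) hsx

/-- `VAL` at `n` for `B` gives `VAL` for the localisation. -/
theorem lp7_loc_val
    (hval : ∀ x ∈ B, ∀ y ∈ B, ∃ s : B, s ∉ n ∧
      ((∃ a ∈ B, ∃ b ∈ B, (s : F) * x = y * a + π * b) ∨
        (∃ a ∈ B, ∃ b ∈ B, (s : F) * y = x * a + π * b))) :
    ∀ x ∈ lp7_loc B n, ∀ y ∈ lp7_loc B n,
      (∃ a ∈ lp7_loc B n, ∃ b ∈ lp7_loc B n, x = y * a + π * b) ∨
        (∃ a ∈ lp7_loc B n, ∃ b ∈ lp7_loc B n, y = x * a + π * b) := by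
  rintro x ⟨s, hs, hsx⟩ y ⟨t, ht, hty⟩
  have hs0 := lp7_ne_zero_of_not_mem B n s hs
  have ht0 := lp7_ne_zero_of_not_mem B n t ht
  obtain ⟨r, hr, h | h⟩ := hval _ hsx _ hty
  · left
    obtain ⟨a, ha, b, hb, hab⟩ := h
    have hr0 := lp7_ne_zero_of_not_mem B n r hr
    refine ⟨(r : F)⁻¹ * (s : F)⁻¹ * ((t : F) * a), ?_, (r : F)⁻¹ * (s : F)⁻¹ * b, ?_, ?_⟩
    · exact (lp7_loc B n).mul_mem ((lp7_loc B n).mul_mem (lp7_inv_mem_loc B n r hr)
        (lp7_inv_mem_loc B n s hs)) (lp7_le_loc B n _ (B.mul_mem t.2 ha))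
    · exact (lp7_loc B n).mul_mem ((lp7_loc B n).mul_mem (lp7_inv_mem_loc B n r hr)
        (lp7_inv_mem_loc B n s hs)) (lp7_le_loc B n _ hb)
    · have : y * ((r : F)⁻¹ * (s : F)⁻¹ * ((t : F) * a)) + π * ((r : F)⁻¹ * (s : F)⁻¹ * b) =
          (r : F)⁻¹ * (s : F)⁻¹ * ((t : F) * y * a + π * b) := by ring
      rw [this, ← hab]; field_simp
  · right
    obtain ⟨a, ha, b, hb, hab⟩ := h
    have hr0 := lp7_ne_zero_of_not_mem B n r hr
    refine ⟨(r : F)⁻¹ * (t : F)⁻¹ * ((s : F) * a), ?_, (r : F)⁻¹ * (t : F)⁻¹ * b, ?_, ?_⟩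
    · exact (lp7_loc B n).mul_mem ((lp7_loc B n).mul_mem (lp7_inv_mem_loc B n r hr)
        (lp7_inv_mem_loc B n t ht)) (lp7_le_loc B n _ (B.mul_mem s.2 ha))
    · exact (lp7_loc B n).mul_mem ((lp7_loc B n).mul_mem (lp7_inv_mem_loc B n r hr)
        (lp7_inv_mem_loc B n t ht)) (lp7_le_loc B n _ hb)
    · have : x * ((r : F)⁻¹ * (t : F)⁻¹ * ((s : F) * a)) + π * ((r : F)⁻¹ * (t : F)⁻¹ * b) =
          (r : F)⁻¹ * (t : F)⁻¹ * ((s : F) * x * a + π * b) := by ring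
      rw [this, ← hab]; field_simp

include hπB in
/-- `V1` for the localisation, from the valuation-subring form of `m ∣ ord_P u`. -/
theorem lp7_loc_V1 [IsNoetherianRing B] (m : ℕ) (hm : 0 < m) (u : F) (hu0 : u ≠ 0)
    (hfrac : ∀ x : F, ∃ a ∈ B, ∃ b ∈ B, b ≠ 0 ∧ x * b = a)
    (hord : ∀ O : ValuationSubring F, O ≠ ⊤ → IsPrincipalIdealRing O → (∀ x ∈ B, x ∈ O) →
      π⁻¹ ∈ O → ∃ ε w : F, ε ∈ O ∧ ε⁻¹ ∈ O ∧ u = ε * w ^ m) :
    ∀ p ∈ lp7_loc B n, p ≠ 0 →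
      (∀ x ∈ lp7_loc B n, ∀ y ∈ lp7_loc B n, (∃ z ∈ lp7_loc B n, x * y = p * z) →
        (∃ z ∈ lp7_loc B n, x = p * z) ∨ (∃ z ∈ lp7_loc B n, y = p * z)) →
      (¬ ∃ z ∈ lp7_loc B n, π = p * z) →
      ∃ g0 : F, ∃ a ∈ lp7_loc B n, ∃ b ∈ lp7_loc B n, (¬ ∃ z ∈ lp7_loc B n, a = p * z) ∧
        (¬ ∃ z ∈ lp7_loc B n, b = p * z) ∧ g0 ^ m * u * b = a := by
  intro p hpD hp0 hpr hpπ
  have := lp7_loc_isNoetherianRing B n
  have hπD : π ∈ lp7_loc B n := lp7_le_loc B n π hπB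
  have hp1 : ¬ ∃ z ∈ lp7_loc B n, 1 = p * z := by
    rintro ⟨z, hz, hz'⟩
    exact hpπ ⟨z * π, (lp7_loc B n).mul_mem hz hπD, by rw [← mul_assoc, ← hz', one_mul]⟩
  have hfracD : ∀ x : F, ∃ a ∈ lp7_loc B n, ∃ b ∈ lp7_loc B n, b ≠ 0 ∧ x * b = a := by
    intro x
    obtain ⟨a, ha, b, hb, hb0, hab⟩ := hfrac x
    exact ⟨a, lp7_le_loc B n a ha, b, lp7_le_loc B n b hb, hb0, hab⟩
  obtain ⟨ε, w, hε, hε', huw⟩ := hord (lp7_primeVal (lp7_loc B n) p hpD hp0 hp1 hpr hfracD)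
    (lp7_primeVal_ne_top _ p hpD hp0 hp1 hpr hfracD)
    (lp7_primeVal_isPrincipalIdealRing _ p hpD hp0 hp1 hpr hfracD)
    (fun x hx => lp7_le_primeVal _ p hpD hp0 hp1 hpr hfracD x (lp7_le_loc B n x hx))
    (lp7_inv_mem_primeVal _ p hpD hp0 hp1 hpr hfracD π hπD hpπ)
  have hε0 : ε ≠ 0 := by rintro rfl; exact hu0 (by rw [huw, zero_mul])
  have hw0 : w ≠ 0 := by
    rintro rfl
    exact hu0 (by rw [huw, zero_pow hm.ne', mul_zero])
  obtain ⟨a, ha, b, hb, hpa, hpb, hab⟩ :=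
    lp7_primeVal_unit _ p hpD hp0 hp1 hpr hfracD ε hε0 hε hε'
  refine ⟨w⁻¹, a, ha, b, hb, hpa, hpb, ?_⟩
  rw [← hab, huw, inv_pow]
  field_simp

/-- From the conclusion of the local generator lemma for `B_n` to `LP` at `n`. -/
theorem lp7_LP_of_local (m : ℕ) (hm : 0 < m) (u : F)
    (hloc : ∃ g : F, g ^ m * u ∈ lp7_loc B n ∧ ∃ d ∈ lp7_loc B n, g ^ m * u * d = 1) :
    ∃ f : F, ∃ hf : f ^ m * u ∈ B, (⟨f ^ m * u, hf⟩ : B) ∉ n := by
  obtain ⟨g, ⟨s, hs, hsc⟩, d, ⟨t, ht, htd⟩, hcd⟩ := hloc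
  obtain ⟨k, rfl⟩ := Nat.exists_eq_succ_of_ne_zero hm.ne'
  have hf : ((s : F) * g) ^ (k + 1) * u ∈ B := by
    have : ((s : F) * g) ^ (k + 1) * u = (s : F) ^ k * ((s : F) * (g ^ (k + 1) * u)) := by ring
    rw [this]; exact B.mul_mem (B.pow_mem s.2 _) hsc
  refine ⟨(s : F) * g, hf, ?_⟩
  intro hmem
  have h1 : (t * s ^ (k + 1) : B) = ⟨_, hf⟩ * ⟨(t : F) * d, htd⟩ := by
    apply Subtype.ext
    have : ((s : F) * g) ^ (k + 1) * u * ((t : F) * d) =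
        (t : F) * (s : F) ^ (k + 1) * (g ^ (k + 1) * u * d) := by ring
    show ((t * s ^ (k + 1) : B) : F) = ((s : F) * g) ^ (k + 1) * u * ((t : F) * d)
    rw [this, hcd, mul_one]; push_cast; ring
  have h2 : (t * s ^ (k + 1) : B) ∈ n := by rw [h1]; exact n.mul_mem_right _ hmem
  rcases hn.mem_or_mem h2 with h3 | h3
  · exact ht h3
  · exact hs (hn.mem_of_pow_mem _ h3)

end Transfer

end Loc

section Dedekind

variable {F : Type*} [Field F] (B : Subring F) (π : F) (hπB : π ∈ B)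

/-- `VAL` at a prime `n ∋ π` of `B` when `B / π` is a Dedekind domain. -/
theorem lp7_val_of_dedekind [IsDedekindDomain (B ⧸ Ideal.span {(⟨π, hπB⟩ : B)})]
    (n : Ideal B) [hn : n.IsPrime] (hπn : (⟨π, hπB⟩ : B) ∈ n) :
    ∀ x ∈ B, ∀ y ∈ B, ∃ s : B, s ∉ n ∧
      ((∃ a ∈ B, ∃ b ∈ B, (s : F) * x = y * a + π * b) ∨
        (∃ a ∈ B, ∃ b ∈ B, (s : F) * y = x * a + π * b)) := by
  intro x hx y hy
  set I : Ideal B := Ideal.span {(⟨π, hπB⟩ : B)} with hI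
  have hIn : I ≤ n := by
    rw [hI, Ideal.span_le]
    rintro z hz
    rw [Set.mem_singleton_iff.mp hz]; exact hπn
  have hsurj : Function.Surjective (Ideal.Quotient.mk I) := Ideal.Quotient.mk_surjective
  have hker : RingHom.ker (Ideal.Quotient.mk I) ≤ n := by rw [Ideal.mk_ker]; exact hIn
  have hprime : (n.map (Ideal.Quotient.mk I)).IsPrime := Ideal.map_isPrime_of_surjective hsurj hker
  have hcomap : (n.map (Ideal.Quotient.mk I)).comap (Ideal.Quotient.mk I) = n := by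
    rw [Ideal.comap_map_of_surjective _ hsurj, ← RingHom.ker_eq_comap_bot]
    exact sup_eq_left.mpr hker
  -- elementwise translation of an identity in the quotient
  have key : ∀ s a : B, Ideal.Quotient.mk I (s * ⟨x, hx⟩) = Ideal.Quotient.mk I (⟨y, hy⟩ * a) →
      ∃ a ∈ B, ∃ b ∈ B, (s : F) * x = y * a + π * b := by
    intro s a h
    rw [Ideal.Quotient.eq, hI, Ideal.mem_span_singleton'] at h
    obtain ⟨b, hb⟩ := h
    refine ⟨a, a.2, b, b.2, ?_⟩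
    have := congrArg Subtype.val hb
    push_cast at this
    linear_combination -this
  have key' : ∀ s a : B, Ideal.Quotient.mk I (s * ⟨y, hy⟩) = Ideal.Quotient.mk I (⟨x, hx⟩ * a) →
      ∃ a ∈ B, ∃ b ∈ B, (s : F) * y = x * a + π * b := by
    intro s a h
    rw [Ideal.Quotient.eq, hI, Ideal.mem_span_singleton'] at h
    obtain ⟨b, hb⟩ := h
    refine ⟨a, a.2, b, b.2, ?_⟩
    have := congrArg Subtype.val hb
    push_cast at this
    linear_combination -this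
  by_cases hbot : n.map (Ideal.Quotient.mk I) = ⊥
  · -- the quotient is localised at the zero ideal
    by_cases hxn : (⟨x, hx⟩ : B) ∈ n
    · have hx0 : Ideal.Quotient.mk I ⟨x, hx⟩ = 0 := by
        have : Ideal.Quotient.mk I ⟨x, hx⟩ ∈ n.map (Ideal.Quotient.mk I) :=
          Ideal.mem_map_of_mem _ hxn
        rw [hbot] at this
        exact this
      refine ⟨1, (Ideal.ne_top_iff_one n).mp hn.ne_top, Or.inl (key 1 0 ?_)⟩
      rw [one_mul, hx0, mul_zero, map_zero]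
    · refine ⟨⟨x, hx⟩, hxn, Or.inr (key' ⟨x, hx⟩ ⟨y, hy⟩ rfl)⟩
  · have := hprime
    have hdvr : IsDiscreteValuationRing (Localization.AtPrime (n.map (Ideal.Quotient.mk I))) :=
      IsLocalization.AtPrime.isDiscreteValuationRing_of_dedekind_domain (B ⧸ I) hbot _
    have hinj : Function.Injective (algebraMap (B ⧸ I)
        (Localization.AtPrime (n.map (Ideal.Quotient.mk I)))) :=
      IsLocalization.injective (R := B ⧸ I) (M := (n.map (Ideal.Quotient.mk I)).primeCompl)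
        (Localization.AtPrime (n.map (Ideal.Quotient.mk I)))
        (Ideal.primeCompl_le_nonZeroDivisors _)
    have hvr : ValuationRing (Localization.AtPrime (n.map (Ideal.Quotient.mk I))) :=
      inferInstance
    obtain ⟨c, hc⟩ := hvr.toPreValuationRing.cond
      (algebraMap (B ⧸ I) (Localization.AtPrime (n.map (Ideal.Quotient.mk I)))
        (Ideal.Quotient.mk I ⟨x, hx⟩))
      (algebraMap (B ⧸ I) (Localization.AtPrime (n.map (Ideal.Quotient.mk I)))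
        (Ideal.Quotient.mk I ⟨y, hy⟩))
    obtain ⟨⟨abar, sbar⟩, hc'⟩ := IsLocalization.surj (n.map (Ideal.Quotient.mk I)).primeCompl c
    obtain ⟨a, rfl⟩ := hsurj abar
    obtain ⟨s, hs⟩ := hsurj sbar.1
    have hsn : s ∉ n := by
      intro h
      have : Ideal.Quotient.mk I s ∈ n.map (Ideal.Quotient.mk I) := Ideal.mem_map_of_mem _ h
      rw [hs] at this
      exact sbar.2 this
    simp only at hc'
    refine ⟨s, hsn, ?_⟩
    rcases hc with hc | hc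
    · -- x̄ * c = ȳ, so s * y ≡ x * a
      right
      apply key' s a
      apply hinj
      rw [map_mul, map_mul, map_mul, map_mul, hs, ← hc, ← hc']
      ring
    · left
      apply key s a
      apply hinj
      rw [map_mul, map_mul, map_mul, map_mul, hs, ← hc, ← hc']
      ring

include hπB in
/-- `V = B_(π)`: every element of `V` is a quotient `a / b` with `a, b ∈ B` and `b` a unit of
`V` (equivalently `b ∉ π B`). -/
theorem lp7_V_eq_loc [IsNoetherianRing B] (V : ValuationSubring F) (hBV : ∀ x ∈ B, x ∈ V)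
    (hmax : ∀ x ∈ V, x⁻¹ ∉ V → ∃ y ∈ V, x = π * y) (hπV : π⁻¹ ∉ V)
    (hsat : ∀ x ∈ B, (∃ y ∈ V, x = π * y) → ∃ y ∈ B, x = π * y)
    (hfrac : ∀ x : F, ∃ a ∈ B, ∃ b ∈ B, b ≠ 0 ∧ x * b = a) :
    ∀ x ∈ V, ∃ a ∈ B, ∃ b ∈ B, b⁻¹ ∈ V ∧ b ≠ 0 ∧ (¬ ∃ z ∈ B, b = π * z) ∧ x * b = a := by
  intro x hxV
  have hπ0 : π ≠ 0 := by
    rintro rfl
    exact hπV (by rw [inv_zero]; exact V.zero_mem)
  have hp1 : ¬ ∃ z ∈ B, 1 = π * z := by
    rintro ⟨z, hz, hz'⟩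
    apply hπV
    have : π⁻¹ = z := by
      rw [inv_eq_iff_eq_inv]
      exact eq_inv_of_mul_eq_one_left hz'.symm
    rw [this]; exact hBV z hz
  have hunit : ∀ c ∈ B, (¬ ∃ z ∈ B, c = π * z) → c⁻¹ ∈ V := by
    intro c hc hpc
    by_contra hcon
    exact hpc (hsat c hc (hmax c (hBV c hc) hcon))
  by_cases hx0 : x = 0
  · exact ⟨0, B.zero_mem, 1, B.one_mem, by rw [inv_one]; exact V.one_mem, one_ne_zero, hp1,
      by rw [hx0, zero_mul]⟩
  obtain ⟨a, ha, b, hb, hb0, hab⟩ := hfrac x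
  have ha0 : a ≠ 0 := by rw [← hab]; exact mul_ne_zero hx0 hb0
  obtain ⟨i, a', ha', hpa', rfl⟩ := lp7_max_power B π hπB hp1 a ha ha0
  obtain ⟨j, b', hb', hpb', rfl⟩ := lp7_max_power B π hπB hp1 b hb hb0
  have hb'0 : b' ≠ 0 := fun h => hb0 (by rw [h, mul_zero])
  rcases le_or_gt j i with hji | hij
  · refine ⟨π ^ (i - j) * a', B.mul_mem (B.pow_mem hπB _) ha', b', hb', hunit b' hb' hpb', hb'0,
      hpb', ?_⟩
    apply mul_left_cancel₀ (pow_ne_zero j hπ0)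
    have : π ^ j * (π ^ (i - j) * a') = π ^ i * a' := by
      rw [← mul_assoc, ← pow_add, Nat.add_sub_cancel' hji]
    rw [this, ← hab]; ring
  · exfalso
    apply hpa'
    apply hsat a' ha'
    refine ⟨x * π ^ (j - i - 1) * b', V.mul_mem _ _ (V.mul_mem _ _ hxV (pow_mem (hBV π hπB) _))
      (hBV b' hb'), ?_⟩
    apply mul_left_cancel₀ (pow_ne_zero i hπ0)
    have : π ^ i * (π * (x * π ^ (j - i - 1) * b')) = x * (π ^ (i + 1 + (j - i - 1)) * b') := by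
      rw [pow_add, pow_succ]; ring
    rw [this, ← hab]
    congr 3
    omega

/-- `NBAR` when `B / π` is a Dedekind domain (only integral closedness is used). -/
theorem lp7_nbar_of_dedekind [IsNoetherianRing B]
    [IsDedekindDomain (B ⧸ Ideal.span {(⟨π, hπB⟩ : B)})]
    (V : ValuationSubring F) (hBV : ∀ x ∈ B, x ∈ V)
    (hmax : ∀ x ∈ V, x⁻¹ ∉ V → ∃ y ∈ V, x = π * y) (hπV : π⁻¹ ∉ V)
    (hsat : ∀ x ∈ B, (∃ y ∈ V, x = π * y) → ∃ y ∈ B, x = π * y)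
    (hfrac : ∀ x : F, ∃ a ∈ B, ∃ b ∈ B, b ≠ 0 ∧ x * b = a) (m : ℕ) (hm : 0 < m) :
    ∀ x ∈ V, (∃ b ∈ B, ∃ v ∈ V, x ^ m = b + π * v) → ∃ b ∈ B, ∃ v ∈ V, x = b + π * v := by
  rintro x hxV ⟨c, hc, v, hv, hxm⟩
  obtain ⟨A, hA, b, hb, hbinv, hb0, hpb, hxb⟩ :=
    lp7_V_eq_loc B π hπB V hBV hmax hπV hsat hfrac x hxV
  set I : Ideal B := Ideal.span {(⟨π, hπB⟩ : B)} with hI
  have h1 : ∃ z ∈ B, A ^ m - c * b ^ m = π * z := by
    apply hsat _ (B.sub_mem (B.pow_mem hA _) (B.mul_mem hc (B.pow_mem hb _)))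
    refine ⟨v * b ^ m, V.mul_mem _ _ hv (pow_mem (hBV b hb) _), ?_⟩
    rw [← hxb, mul_pow, hxm]; ring
  obtain ⟨z, hz, hz'⟩ := h1
  have hq : (Ideal.Quotient.mk I ⟨A, hA⟩) ^ m =
      Ideal.Quotient.mk I ⟨c, hc⟩ * (Ideal.Quotient.mk I ⟨b, hb⟩) ^ m := by
    rw [← map_pow, ← map_pow, ← map_mul, Ideal.Quotient.eq, hI, Ideal.mem_span_singleton']
    refine ⟨⟨z, hz⟩, Subtype.ext ?_⟩
    push_cast
    rw [hz']; ring
  have hbq : Ideal.Quotient.mk I ⟨b, hb⟩ ≠ 0 := by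
    intro h
    rw [Ideal.Quotient.eq_zero_iff_mem, hI, Ideal.mem_span_singleton'] at h
    obtain ⟨z, hz⟩ := h
    refine hpb ⟨z, z.2, ?_⟩
    have := congrArg Subtype.val hz
    push_cast at this
    rw [← this]; ring
  have hbK : algebraMap (B ⧸ I) (FractionRing (B ⧸ I)) (Ideal.Quotient.mk I ⟨b, hb⟩) ≠ 0 := by
    intro h
    exact hbq ((map_eq_zero_iff _ (IsFractionRing.injective (B ⧸ I) (FractionRing (B ⧸ I)))).mp h)
  have hξ : IsIntegral (B ⧸ I)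
      ((algebraMap (B ⧸ I) (FractionRing (B ⧸ I)) (Ideal.Quotient.mk I ⟨A, hA⟩) /
        algebraMap (B ⧸ I) (FractionRing (B ⧸ I)) (Ideal.Quotient.mk I ⟨b, hb⟩)) ^ m) := by
    have : (algebraMap (B ⧸ I) (FractionRing (B ⧸ I)) (Ideal.Quotient.mk I ⟨A, hA⟩) /
        algebraMap (B ⧸ I) (FractionRing (B ⧸ I)) (Ideal.Quotient.mk I ⟨b, hb⟩)) ^ m =
        algebraMap (B ⧸ I) (FractionRing (B ⧸ I)) (Ideal.Quotient.mk I ⟨c, hc⟩) := by
      rw [div_pow, ← map_pow (algebraMap (B ⧸ I) (FractionRing (B ⧸ I)))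
        (Ideal.Quotient.mk I ⟨A, hA⟩), hq, map_mul, map_pow]
      field_simp
    rw [this]; exact isIntegral_algebraMap
  obtain ⟨dbar, hd⟩ := IsIntegrallyClosed.exists_algebraMap_eq_of_isIntegral_pow hm hξ
  obtain ⟨d, rfl⟩ := Ideal.Quotient.mk_surjective dbar
  have h2 : Ideal.Quotient.mk I (d * ⟨b, hb⟩) = Ideal.Quotient.mk I ⟨A, hA⟩ := by
    apply IsFractionRing.injective (B ⧸ I) (FractionRing (B ⧸ I))
    rw [map_mul, map_mul, hd]; field_simp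
  rw [Ideal.Quotient.eq, hI, Ideal.mem_span_singleton'] at h2
  obtain ⟨e, he⟩ := h2
  refine ⟨d, d.2, -(e : F) * b⁻¹, V.mul_mem _ _ (V.neg_mem _ (hBV e e.2)) hbinv, ?_⟩
  have he' := congrArg Subtype.val he
  push_cast at he'
  have : x = A * b⁻¹ := by rw [← hxb]; field_simp
  rw [this]
  field_simp
  linear_combination he'

end Dedekind

end Fermat.Agent.S18
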