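import Mathlib

/-!
# S18, row A7: the local generator lemma (`lg33_local`)

`D` is a noetherian subring of a field `F` (think: a localisation `B_n` of a chart of the normal
model at a closed point of the special fibre), `π ∈ Jac(D)`, `V` a valuation subring with
`m_V = π V` (the Gauss valuation), `D / π D` a valuation ring (`hval`), `D` "saturated" in `V`
(`hsat`) and closed under `m`-th roots (`hroot`).  If `u` is a unit of `V` whose order at every
principal prime `p ∤ π` of `D` is divisible by `m` (`hV1`), then `g ^ m * u` is a unit of `D`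
for some `g : F`.

Everything is elementwise inside the field; no quotient or localisation types occur.
-/

set_option autoImplicit false

namespace Fermat.Agent.S18

open Submodule in
/-- Nakayama for "uniserial mod `J`" modules: a finitely generated submodule `N` in which any two
elements are comparable modulo `J • N` (`J` in the Jacobson radical) is cyclic. -/
theorem lg33_cyclic_of_chain {R M : Type*} [CommRing R] [AddCommGroup M] [Module R M]
    (J : Ideal R) (hJ : J ≤ Ideal.jacobson ⊥) (N : Submodule R M) (hN : N.FG)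
    (hchain : ∀ x ∈ N, ∀ y ∈ N, x ∈ (R ∙ y) ⊔ J • N ∨ y ∈ (R ∙ x) ⊔ J • N) :
    ∃ g ∈ N, N = R ∙ g := by
  obtain ⟨S, hSfin, hS⟩ := Submodule.fg_def.mp hN
  have key : ∀ T : Set M, T.Finite → T ⊆ N → ∃ g ∈ N, ∀ s ∈ T, s ∈ (R ∙ g) ⊔ J • N := by
    intro T hT
    induction T, hT using Set.Finite.induction_on with
    | empty => intro _; exact ⟨0, N.zero_mem, fun s hs => absurd hs (Set.notMem_empty s)⟩
    | @insert a T _ _ ih =>
      intro hTN
      obtain ⟨g, hgN, hg⟩ := ih (fun s hs => hTN (Set.mem_insert_of_mem a hs))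
      have haN : a ∈ N := hTN (Set.mem_insert a T)
      rcases hchain g hgN a haN with h | h
      · refine ⟨a, haN, fun s hs => ?_⟩
        rcases Set.mem_insert_iff.mp hs with rfl | hs
        · exact Submodule.mem_sup_left (Submodule.mem_span_singleton_self _)
        · have hle : (R ∙ g) ⊔ J • N ≤ (R ∙ a) ⊔ J • N :=
            sup_le ((Submodule.span_singleton_le_iff_mem _ _).mpr h) le_sup_right
          exact hle (hg s hs)
      · refine ⟨g, hgN, fun s hs => ?_⟩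
        rcases Set.mem_insert_iff.mp hs with rfl | hs
        · exact h
        · exact hg s hs
  obtain ⟨g, hgN, hg⟩ := key S hSfin (by rw [← hS]; exact Submodule.subset_span)
  refine ⟨g, hgN, le_antisymm ?_ ((Submodule.span_singleton_le_iff_mem _ _).mpr hgN)⟩
  apply Submodule.le_of_le_smul_of_le_jacobson_bot hN hJ
  rw [← hS]
  apply Submodule.span_le.mpr
  intro s hs
  rw [hS]
  exact hg s hs


/-- **Local generator lemma** (row A7 of the S18 project; `tc_local` of the two-chart argument).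
See the module docstring. -/
theorem lg33_local {F : Type*} [Field F] (D : Subring F) [IsNoetherianRing D]
    (V : ValuationSubring F) (hDV : ∀ x ∈ D, x ∈ V) (π : F) (hπD : π ∈ D) (hπ0 : π ≠ 0)
    (hjac : ∀ x ∈ D, ∃ y ∈ D, (1 + π * x) * y = 1)
    (hmax : ∀ x ∈ V, x⁻¹ ∉ V → ∃ y ∈ V, x = π * y) (hπV : π⁻¹ ∉ V)
    (hsat : ∀ x ∈ D, (∃ y ∈ V, x = π * y) → ∃ y ∈ D, x = π * y)
    (m : ℕ) (hm : 0 < m) (hroot : ∀ x : F, x ^ m ∈ D → x ∈ D)
    (hval : ∀ x ∈ D, ∀ y ∈ D, (∃ a ∈ D, ∃ b ∈ D, x = y * a + π * b) ∨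
      (∃ a ∈ D, ∃ b ∈ D, y = x * a + π * b))
    (u : F) (hu0 : u ≠ 0) (huV : u ∈ V) (huV' : u⁻¹ ∈ V)
    (a0 b0 : F) (ha0 : a0 ∈ D) (hb0 : b0 ∈ D) (hb00 : b0 ≠ 0) (hu : u * b0 = a0)
    (hV1 : ∀ p ∈ D, p ≠ 0 →
      (∀ x ∈ D, ∀ y ∈ D, (∃ z ∈ D, x * y = p * z) → (∃ z ∈ D, x = p * z) ∨ (∃ z ∈ D, y = p * z)) →
      (¬ ∃ z ∈ D, π = p * z) →
      ∃ g0 : F, ∃ a ∈ D, ∃ b ∈ D, (¬ ∃ z ∈ D, a = p * z) ∧ (¬ ∃ z ∈ D, b = p * z) ∧
        g0 ^ m * u * b = a) :
    ∃ g : F, g ^ m * u ∈ D ∧ ∃ d ∈ D, g ^ m * u * d = 1 := by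
  classical
  obtain ⟨m', rfl⟩ : ∃ m', m = m' + 1 := ⟨m - 1, by omega⟩
  set π' : D := ⟨π, hπD⟩ with hπ'
  set J : Ideal D := Ideal.span {π'} with hJdef
  have hJ : J ≤ Ideal.jacobson ⊥ := by
    rw [hJdef, Ideal.span_le, Set.singleton_subset_iff]
    refine Ideal.mem_jacobson_bot.mpr fun y => ?_
    obtain ⟨z, hzD, hz⟩ := hjac y.1 y.2
    refine IsUnit.of_mul_eq_one (⟨z, hzD⟩ : D) ?_
    apply Subtype.ext
    simp only [Subring.coe_mul, Subring.coe_add, Subring.coe_one, hπ']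
    linear_combination hz
  have hπmemV : π ∈ V := hDV π hπD
  -- the fractional ideal `I = {f | f ^ m * u ∈ D}`
  have hadd : ∀ f₁ f₂ : F, f₁ ^ (m' + 1) * u ∈ D → f₂ ^ (m' + 1) * u ∈ D →
      ∀ i, i ≤ m' + 1 → f₁ ^ i * f₂ ^ (m' + 1 - i) * u ∈ D := by
    intro f₁ f₂ h₁ h₂ i hi
    apply hroot
    have : (f₁ ^ i * f₂ ^ (m' + 1 - i) * u) ^ (m' + 1) =
        (f₁ ^ (m' + 1) * u) ^ i * (f₂ ^ (m' + 1) * u) ^ (m' + 1 - i) := by
      have hsplit : u ^ (m' + 1) = u ^ i * u ^ (m' + 1 - i) := by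
        rw [← pow_add]; congr 1; omega
      rw [mul_pow, mul_pow, mul_pow, mul_pow, hsplit, ← pow_mul, ← pow_mul, ← pow_mul, ← pow_mul,
        mul_comm i (m' + 1), mul_comm (m' + 1 - i) (m' + 1)]
      ring
    rw [this]
    exact D.mul_mem (D.pow_mem h₁ _) (D.pow_mem h₂ _)
  let I : Submodule D F :=
    { carrier := {f | f ^ (m' + 1) * u ∈ D}
      add_mem' := by
        intro f₁ f₂ h₁ h₂
        show (f₁ + f₂) ^ (m' + 1) * u ∈ D
        rw [add_pow, Finset.sum_mul]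
        refine D.sum_mem fun i hi => ?_
        have hi' : i ≤ m' + 1 := Nat.lt_succ_iff.mp (Finset.mem_range.mp hi)
        have := D.mul_mem (hadd f₁ f₂ h₁ h₂ i hi') (natCast_mem D ((m' + 1).choose i))
        convert this using 1
        ring
      zero_mem' := by
        show (0 : F) ^ (m' + 1) * u ∈ D
        rw [zero_pow (Nat.succ_ne_zero m'), zero_mul]; exact D.zero_mem
      smul_mem' := by
        intro d f hf
        show (d • f) ^ (m' + 1) * u ∈ D
        have hsm : d • f = (d : F) * f := rfl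
        have : (d • f) ^ (m' + 1) * u = (d : F) ^ (m' + 1) * (f ^ (m' + 1) * u) := by
          rw [hsm, mul_pow]; ring
        rw [this]
        exact D.mul_mem (D.pow_mem d.2 _) hf }
  have hmemI : ∀ f : F, f ∈ I ↔ f ^ (m' + 1) * u ∈ D := fun f => Iff.rfl
  -- `I ⊆ V`
  have hIV : ∀ f ∈ I, f ∈ V := by
    intro f hf
    by_cases hf0 : f = 0
    · rw [hf0]; exact V.zero_mem
    rcases V.mem_or_inv_mem f with h | h
    · exact h
    · have h1 : f ^ (m' + 1) ∈ V := by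
        have : f ^ (m' + 1) = f ^ (m' + 1) * u * u⁻¹ := by field_simp
        rw [this]
        exact V.mul_mem _ _ (hDV _ ((hmemI f).mp hf)) huV'
      have h2 : f = f ^ (m' + 1) * (f⁻¹) ^ m' := by
        rw [pow_succ, mul_assoc, mul_comm f, ← mul_assoc, ← mul_pow, mul_inv_cancel₀ hf0, one_pow,
          one_mul]
      rw [h2]
      exact V.mul_mem _ _ h1 (V.pow_mem h _)
  -- iterated saturation
  have hsatn : ∀ n : ℕ, ∀ x ∈ D, ∀ z ∈ V, x = π ^ n * z → z ∈ D := by
    intro n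
    induction n with
    | zero => intro x hx z _ h; rw [pow_zero, one_mul] at h; rwa [← h]
    | succ n ih =>
      intro x hx z hz h
      obtain ⟨y, hyD, hy⟩ := hsat x hx ⟨π ^ n * z, V.mul_mem _ _ (V.pow_mem hπmemV n) hz, by
        rw [h, pow_succ]; ring⟩
      refine ih y hyD z hz ?_
      have : π * y = π * (π ^ n * z) := by rw [← hy, h, pow_succ]; ring
      exact mul_left_cancel₀ hπ0 this
  -- `I ∩ π V = π I`
  have hIπ : ∀ f ∈ I, ∀ y ∈ V, f = π * y → y ∈ I := by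
    intro f hf y hy hfy
    rw [hmemI] at hf ⊢
    refine hsatn (m' + 1) _ hf _ (V.mul_mem _ _ (V.pow_mem hy _) huV) ?_
    rw [hfy]; ring
  have hπI : ∀ f ∈ I, ∀ y ∈ V, f = π * y → f ∈ J • I := by
    intro f hf y hy hfy
    have hyI : y ∈ I := hIπ f hf y hy hfy
    have : f = π' • y := by rw [hfy]; rfl
    rw [this]
    exact Submodule.smul_mem_smul (Ideal.mem_span_singleton_self π') hyI
  have hunitV : ∀ x ∈ V, (¬ ∃ y ∈ V, x = π * y) → x⁻¹ ∈ V := by
    intro x hx h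
    by_contra hinv
    exact h (hmax x hx hinv)
  -- the chain condition on `I`
  have hchainI : ∀ f₁ ∈ I, ∀ f₂ ∈ I,
      f₁ ∈ (D ∙ f₂) ⊔ J • I ∨ f₂ ∈ (D ∙ f₁) ⊔ J • I := by
    intro f₁ hf₁ f₂ hf₂
    by_cases h1 : ∃ y ∈ V, f₁ = π * y
    · obtain ⟨y, hy, hfy⟩ := h1
      exact Or.inl (Submodule.mem_sup_right (hπI f₁ hf₁ y hy hfy))
    by_cases h2 : ∃ y ∈ V, f₂ = π * y
    · obtain ⟨y, hy, hfy⟩ := h2
      exact Or.inr (Submodule.mem_sup_right (hπI f₂ hf₂ y hy hfy))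
    have hf₁V : f₁ ∈ V := hIV f₁ hf₁
    have hf₁inv : f₁⁻¹ ∈ V := hunitV f₁ hf₁V h1
    have hf₁0 : f₁ ≠ 0 := by
      rintro rfl
      exact h1 ⟨0, V.zero_mem, by rw [mul_zero]⟩
    -- `w = f₁ ^ m' * u` is a unit of `V`
    have hw0 : f₁ ^ m' * u ≠ 0 := mul_ne_zero (pow_ne_zero _ hf₁0) hu0
    have hwinv : (f₁ ^ m' * u)⁻¹ ∈ V := by
      rw [mul_inv, ← inv_pow]
      exact V.mul_mem _ _ (V.pow_mem hf₁inv _) huV'
    have hx : f₁ ^ (m' + 1) * u ∈ D := (hmemI f₁).mp hf₁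
    have hy : f₁ ^ m' * f₂ * u ∈ D := by
      have := hadd f₁ f₂ hx ((hmemI f₂).mp hf₂) m' (Nat.le_succ m')
      have h1' : m' + 1 - m' = 1 := by omega
      rwa [h1', pow_one] at this
    have hdiff : ∀ a ∈ D, ∀ b ∈ D, ∀ e ∈ I, f₁ ^ m' * u * e = π * b → e ∈ J • I := by
      intro a _ b hb e he heq
      refine hπI e he ((f₁ ^ m' * u)⁻¹ * b) (V.mul_mem _ _ hwinv (hDV b hb)) ?_
      field_simp
      rw [← heq]; ring
    rcases hval _ hx _ hy with ⟨a, haD, b, hbD, hab⟩ | ⟨a, haD, b, hbD, hab⟩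
    · left
      have he : f₁ - (⟨a, haD⟩ : D) • f₂ ∈ I := I.sub_mem hf₁ (I.smul_mem _ hf₂)
      have hmem : f₁ - (⟨a, haD⟩ : D) • f₂ ∈ J • I := by
        refine hdiff a haD b hbD _ he ?_
        show f₁ ^ m' * u * (f₁ - a * f₂) = π * b
        have : f₁ ^ m' * u * (f₁ - a * f₂) = f₁ ^ (m' + 1) * u - f₁ ^ m' * f₂ * u * a := by
          rw [pow_succ]; ring
        rw [this, hab]; ring
      have : f₁ = (⟨a, haD⟩ : D) • f₂ + (f₁ - (⟨a, haD⟩ : D) • f₂) := by ring
      rw [this]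
      exact Submodule.add_mem _
        (Submodule.mem_sup_left (Submodule.smul_mem _ _ (Submodule.mem_span_singleton_self _)))
        (Submodule.mem_sup_right hmem)
    · right
      have he : f₂ - (⟨a, haD⟩ : D) • f₁ ∈ I := I.sub_mem hf₂ (I.smul_mem _ hf₁)
      have hmem : f₂ - (⟨a, haD⟩ : D) • f₁ ∈ J • I := by
        refine hdiff a haD b hbD _ he ?_
        show f₁ ^ m' * u * (f₂ - a * f₁) = π * b
        have : f₁ ^ m' * u * (f₂ - a * f₁) = f₁ ^ m' * f₂ * u - f₁ ^ (m' + 1) * u * a := by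
          rw [pow_succ]; ring
        rw [this, hab]; ring
      have : f₂ = (⟨a, haD⟩ : D) • f₁ + (f₂ - (⟨a, haD⟩ : D) • f₁) := by ring
      rw [this]
      exact Submodule.add_mem _
        (Submodule.mem_sup_left (Submodule.smul_mem _ _ (Submodule.mem_span_singleton_self _)))
        (Submodule.mem_sup_right hmem)
  -- `I` is finitely generated: `a0 • I ⊆ D`
  have ha00 : a0 ≠ 0 := by rw [← hu]; exact mul_ne_zero hu0 hb00
  have ha0I : ∀ f ∈ I, a0 * f ∈ D := by
    intro f hf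
    apply hroot
    have : (a0 * f) ^ (m' + 1) = f ^ (m' + 1) * u * (a0 ^ m' * b0) := by
      rw [← hu]; ring
    rw [this]
    exact D.mul_mem ((hmemI f).mp hf) (D.mul_mem (D.pow_mem ha0 _) hb0)
  have hIFG : I.FG := by
    let φ : I →ₗ[D] D :=
      { toFun := fun f => ⟨a0 * f.1, ha0I f.1 f.2⟩
        map_add' := fun f₁ f₂ => by
          apply Subtype.ext
          simp [mul_add]
        map_smul' := fun d f => by
          apply Subtype.ext
          show a0 * ((d : F) * (f : F)) = (d : F) * (a0 * (f : F))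
          ring }
    have hφ : Function.Injective φ := by
      intro f₁ f₂ h
      have h' : a0 * (f₁ : F) = a0 * (f₂ : F) := congrArg Subtype.val h
      exact Subtype.ext (mul_left_cancel₀ ha00 h')
    have : IsNoetherian D I := isNoetherian_of_injective φ hφ
    exact Module.Finite.iff_fg.mp inferInstance
  obtain ⟨g, hgI, hIg⟩ := lg33_cyclic_of_chain J hJ I hIFG hchainI
  have hmemg : ∀ f ∈ I, ∃ d ∈ D, f = d * g := by
    intro f hf
    rw [hIg, Submodule.mem_span_singleton] at hf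
    obtain ⟨d, rfl⟩ := hf
    exact ⟨d.1, d.2, rfl⟩
  have hb0I : b0 ∈ I := by
    rw [hmemI]
    have : b0 ^ (m' + 1) * u = b0 ^ m' * a0 := by rw [← hu]; ring
    rw [this]
    exact D.mul_mem (D.pow_mem hb0 _) ha0
  have hg0 : g ≠ 0 := by
    rintro rfl
    obtain ⟨d, _, hd⟩ := hmemg b0 hb0I
    exact hb00 (by rw [hd, mul_zero])
  have hgV : g ∈ V := hIV g hgI
  have hcD : g ^ (m' + 1) * u ∈ D := (hmemI g).mp hgI
  have hc0 : g ^ (m' + 1) * u ≠ 0 := mul_ne_zero (pow_ne_zero _ hg0) hu0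
  refine ⟨g, hcD, ?_⟩
  by_contra hc
  -- (a) `c ∉ π D`
  have hcπ : ¬ ∃ z ∈ D, g ^ (m' + 1) * u = π * z := by
    rintro ⟨z, hzD, hz⟩
    have hginv : g⁻¹ ∉ V := by
      intro hginv
      apply hπV
      have : π⁻¹ = z * ((g⁻¹) ^ (m' + 1) * u⁻¹) := by
        have hz0 : z ≠ 0 := by
          rintro rfl
          rw [mul_zero] at hz
          exact hc0 hz
        rw [inv_pow, ← mul_inv, hz]
        field_simp
      rw [this]
      exact V.mul_mem _ _ (hDV z hzD) (V.mul_mem _ _ (V.pow_mem hginv _) huV')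
    obtain ⟨y, hyV, hy⟩ := hmax g hgV hginv
    obtain ⟨d, hdD, hd⟩ := hmemg y (hIπ g hgI y hyV hy)
    apply hπV
    have : π⁻¹ = d := by
      have h1 : g = π * d * g := by rw [mul_assoc, ← hd, ← hy]
      have h2 : π * d = 1 := by
        have : 1 * g = π * d * g := by rw [one_mul]; exact h1
        exact (mul_right_cancel₀ hg0 this).symm
      exact inv_eq_of_mul_eq_one_right h2
    rw [this]
    exact hDV d hdD
  -- (b) `π` is prime in `D`
  have hπprime : ∀ x ∈ D, ∀ y ∈ D, (∃ z ∈ D, x * y = π * z) →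
      (∃ z ∈ D, x = π * z) ∨ (∃ z ∈ D, y = π * z) := by
    intro x hx y hy ⟨z, hzD, hz⟩
    by_cases hx0 : x = 0
    · exact Or.inl ⟨0, D.zero_mem, by rw [hx0, mul_zero]⟩
    by_cases hxinv : x⁻¹ ∈ V
    · right
      refine hsat y hy ⟨x⁻¹ * z, V.mul_mem _ _ hxinv (hDV z hzD), ?_⟩
      have : y = x⁻¹ * (x * y) := by field_simp
      rw [this, hz]; ring
    · left
      exact hsat x hx (hmax x (hDV x hx) hxinv)
  -- (c) no power of `π` is a multiple of `c`
  have hdisj : ∀ n : ℕ, ∀ d ∈ D, π ^ n ≠ g ^ (m' + 1) * u * d := by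
    intro n
    induction n with
    | zero =>
      intro d hd h
      exact hc ⟨d, hd, by rw [← h, pow_zero]⟩
    | succ n ih =>
      intro d hd h
      have h' : ∃ z ∈ D, g ^ (m' + 1) * u * d = π * z :=
        ⟨π ^ n, D.pow_mem hπD n, by rw [← h, pow_succ]; ring⟩
      rcases hπprime _ hcD d hd h' with hcase | ⟨z, hzD, hz⟩
      · exact hcπ hcase
      · refine ih z hzD ?_
        have : π * π ^ n = π * (g ^ (m' + 1) * u * z) := by
          rw [← pow_succ', h, hz]; ring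
        exact mul_left_cancel₀ hπ0 this
  -- (d) a prime `P ∋ c` avoiding `π`
  set c' : D := ⟨g ^ (m' + 1) * u, hcD⟩ with hc'
  obtain ⟨P, hPprime, hcP, hPdisj⟩ := Ideal.exists_le_prime_disjoint (Ideal.span {c'})
    (Submonoid.powers π') (by
      rw [Set.disjoint_left]
      rintro x hx ⟨n, rfl⟩
      obtain ⟨d, hd⟩ := Ideal.mem_span_singleton'.mp hx
      apply hdisj n d.1 d.2
      have := congrArg Subtype.val hd
      simp only [Subring.coe_mul, Subring.coe_pow, hπ', hc'] at this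
      rw [← this]; ring)
  have hc'P : c' ∈ P := hcP (Ideal.mem_span_singleton_self c')
  have hπP : π' ∉ P := fun h =>
    Set.disjoint_left.mp hPdisj h ⟨1, pow_one π'⟩
  -- (e), (f) `P` is principal
  have hchainP : ∀ x ∈ P, ∀ y ∈ P, x ∈ (D ∙ y) ⊔ J • P ∨ y ∈ (D ∙ x) ⊔ J • P := by
    have aux : ∀ x ∈ P, ∀ y ∈ P, ∀ a ∈ D, ∀ b ∈ D, (x : F) = y * a + π * b →
        x ∈ (D ∙ y) ⊔ J • P := by
      intro x hx y hy a haD b hbD hab
      have hxe : x = ⟨a, haD⟩ * y + π' * ⟨b, hbD⟩ := by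
        apply Subtype.ext
        simp only [Subring.coe_add, Subring.coe_mul, hπ', hab]; ring
      have hbP : (⟨b, hbD⟩ : D) ∈ P := by
        have : π' * ⟨b, hbD⟩ ∈ P := by
          have h2 : π' * ⟨b, hbD⟩ = x - ⟨a, haD⟩ * y := by rw [hxe]; ring
          rw [h2]
          exact P.sub_mem hx (P.mul_mem_left _ hy)
        exact (hPprime.mem_or_mem this).resolve_left hπP
      rw [hxe]
      refine Submodule.add_mem _ (Submodule.mem_sup_left ?_) (Submodule.mem_sup_right ?_)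
      · exact Submodule.mem_span_singleton.mpr ⟨⟨a, haD⟩, rfl⟩
      · exact Submodule.smul_mem_smul (Ideal.mem_span_singleton_self π') hbP
    intro x hx y hy
    rcases hval x.1 x.2 y.1 y.2 with ⟨a, haD, b, hbD, hab⟩ | ⟨a, haD, b, hbD, hab⟩
    · exact Or.inl (aux x hx y hy a haD b hbD hab)
    · exact Or.inr (aux y hy x hx a haD b hbD hab)
  obtain ⟨p, hpP, hPp⟩ := lg33_cyclic_of_chain J hJ P (IsNoetherian.noetherian P) hchainP
  have hmemP : ∀ x : D, x ∈ P ↔ ∃ z ∈ D, (x : F) = p * z := by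
    intro x
    rw [hPp, Submodule.mem_span_singleton]
    constructor
    · rintro ⟨d, rfl⟩
      exact ⟨d.1, d.2, by simp [mul_comm]⟩
    · rintro ⟨z, hzD, hz⟩
      exact ⟨⟨z, hzD⟩, Subtype.ext (by simp [hz, mul_comm])⟩
  have hp0 : (p : F) ≠ 0 := by
    intro hp0
    obtain ⟨z, _, hz⟩ := (hmemP c').mp hc'P
    rw [hp0, zero_mul] at hz
    exact hc0 hz
  have hpprime : ∀ x ∈ D, ∀ y ∈ D, (∃ z ∈ D, x * y = p * z) →
      (∃ z ∈ D, x = p * z) ∨ (∃ z ∈ D, y = p * z) := by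
    intro x hx y hy h
    have : (⟨x, hx⟩ : D) * ⟨y, hy⟩ ∈ P := (hmemP _).mpr h
    rcases hPprime.mem_or_mem this with h1 | h1
    · exact Or.inl ((hmemP _).mp h1)
    · exact Or.inr ((hmemP _).mp h1)
  have hpπ : ¬ ∃ z ∈ D, π = p * z := fun h => hπP ((hmemP π').mpr h)
  have hp1 : ¬ ∃ z ∈ D, (1 : F) = p * z := by
    intro h
    apply hPprime.ne_top
    rw [Ideal.eq_top_iff_one]
    exact (hmemP 1).mpr h
  -- (g) the divisibility hypothesis at `p`
  obtain ⟨g0, a, haD, b, hbD, hpa, hpb, hg0eq⟩ := hV1 p.1 p.2 hp0 hpprime hpπ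
  have ha0' : a ≠ 0 := by
    rintro rfl
    exact hpa ⟨0, D.zero_mem, by rw [mul_zero]⟩
  have hg00 : g0 ≠ 0 := by
    rintro rfl
    rw [zero_pow (Nat.succ_ne_zero m'), zero_mul, zero_mul] at hg0eq
    exact ha0' hg0eq.symm
  -- (h) `p ^ m ∣ c`
  have hab : a / g0 ^ (m' + 1) = u * b := by
    rw [← hg0eq]; field_simp
  have hxpow : (g / g0 * a) ^ (m' + 1) = g ^ (m' + 1) * u * (b * a ^ m') := by
    have : (g / g0 * a) ^ (m' + 1) = g ^ (m' + 1) * (a / g0 ^ (m' + 1)) * a ^ m' := by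
      rw [mul_pow, div_pow, pow_succ a]; field_simp
    rw [this, hab]; ring
  have hxD : g / g0 * a ∈ D := by
    apply hroot
    rw [hxpow]
    exact D.mul_mem hcD (D.mul_mem hbD (D.pow_mem haD _))
  have hpdvd_pow : ∀ n : ℕ, ∀ y ∈ D, (∃ z ∈ D, y ^ (n + 1) = p * z) → ∃ z ∈ D, y = p * z := by
    intro n
    induction n with
    | zero => intro y _ h; simpa using h
    | succ n ih =>
      intro y hy h
      have h' : ∃ z ∈ D, y ^ (n + 1) * y = p * z := by rwa [← pow_succ]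
      rcases hpprime _ (D.pow_mem hy _) y hy h' with h1 | h1
      · exact ih y hy h1
      · exact h1
  have hnotdvd_pow : ∀ n : ℕ, ¬ ∃ z ∈ D, a ^ n = p * z := by
    intro n
    induction n with
    | zero => simpa using hp1
    | succ n ih =>
      intro h
      have h' : ∃ z ∈ D, a ^ n * a = p * z := by rwa [← pow_succ]
      rcases hpprime _ (D.pow_mem haD _) a haD h' with h1 | h1
      · exact ih h1
      · exact hpa h1
  have hnotdvd_e : ¬ ∃ z ∈ D, b * a ^ m' = p * z := by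
    intro h
    rcases hpprime b hbD _ (D.pow_mem haD _) h with h1 | h1
    · exact hpb h1
    · exact hnotdvd_pow m' h1
  have hcancel : ∀ k : ℕ, ∀ y ∈ D, (∃ z ∈ D, y * (b * a ^ m') = (p : F) ^ k * z) →
      ∃ z ∈ D, y = (p : F) ^ k * z := by
    intro k
    induction k with
    | zero => intro y hy _; exact ⟨y, hy, by rw [pow_zero, one_mul]⟩
    | succ k ih =>
      intro y hy ⟨z, hzD, hz⟩
      have h' : ∃ z' ∈ D, y * (b * a ^ m') = p * z' :=
        ⟨(p : F) ^ k * z, D.mul_mem (D.pow_mem p.2 _) hzD, by rw [hz, pow_succ]; ring⟩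
      rcases hpprime y hy _ (D.mul_mem hbD (D.pow_mem haD _)) h' with ⟨y', hy'D, hy'⟩ | h1
      · obtain ⟨z', hz'D, hz'⟩ := ih y' hy'D ⟨z, hzD, by
          have : (p : F) * (y' * (b * a ^ m')) = p * ((p : F) ^ k * z) := by
            rw [← mul_assoc, ← hy', hz, pow_succ]; ring
          exact mul_left_cancel₀ hp0 this⟩
        exact ⟨z', hz'D, by rw [hy', hz', pow_succ]; ring⟩
      · exact absurd h1 hnotdvd_e
  obtain ⟨x', hx'D, hx'⟩ := hpdvd_pow m' _ hxD (by
    obtain ⟨z, hzD, hz⟩ := (hmemP c').mp hc'P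
    refine ⟨z * (b * a ^ m'), D.mul_mem hzD (D.mul_mem hbD (D.pow_mem haD _)), ?_⟩
    rw [hxpow]
    have hz' : g ^ (m' + 1) * u = p * z := hz
    rw [hz']; ring)
  obtain ⟨c'', hc''D, hc''⟩ := hcancel (m' + 1) _ hcD ⟨x' ^ (m' + 1), D.pow_mem hx'D _, by
    rw [← hxpow, hx', mul_pow]⟩
  -- (i) `g / p ∈ I = g D`, so `p` is a unit: contradiction
  have hgpI : g * (p : F)⁻¹ ∈ I := by
    rw [hmemI]
    have : (g * (p : F)⁻¹) ^ (m' + 1) * u = c'' := by
      rw [mul_pow, mul_right_comm, hc'', inv_pow]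
      field_simp
    rw [this]; exact hc''D
  obtain ⟨d, hdD, hd⟩ := hmemg _ hgpI
  apply hp1
  refine ⟨d, hdD, ?_⟩
  have h1 : (p : F)⁻¹ = d := by
    have : g * (p : F)⁻¹ = g * d := by rw [hd, mul_comm]
    exact mul_left_cancel₀ hg0 this
  rw [← h1, mul_inv_cancel₀ hp0]

end Fermat.Agent.S18
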