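import Mathlib
import Fermat.Agent.S18.LPGlue7
import Fermat.Agent.S18.LocalGen

/-!
# S18, glue module (LP), main statements (helper7)

`lp7_LP`, `lp7_nbar`: the hypotheses `hLP` and `hbar` of the two-chart lemma `tc_main`
(TwoChart.lean) for a chart `B` (a `Subalgebra R F`), from

* `B` noetherian with `B / π` a Dedekind domain,
* `m_V = π V`, `B ∩ π V = π B` (SAT), `B` closed under `m`-th roots (ROOT), `F = Frac B`,
* the valuation-subring form of `m ∣ ord_P u` for all places `P` trivial on `B[1/π]`.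
-/

set_option autoImplicit false

namespace Fermat.Agent.S18

section SubringLP

variable {F : Type*} [Field F]

/-- `LP` at a prime `n ∋ π` of a noetherian subring `B ⊆ F`, from `VAL` at `n`. -/
theorem lp7_LP_subring (B : Subring F) [IsNoetherianRing B] (V : ValuationSubring F)
    (hBV : ∀ x ∈ B, x ∈ V) (π : F) (hπB : π ∈ B) (hπ0 : π ≠ 0)
    (hmax : ∀ x ∈ V, x⁻¹ ∉ V → ∃ y ∈ V, x = π * y) (hπV : π⁻¹ ∉ V)
    (hsat : ∀ x ∈ B, (∃ y ∈ V, x = π * y) → ∃ y ∈ B, x = π * y)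
    (m : ℕ) (hm : 0 < m) (hroot : ∀ x : F, x ^ m ∈ B → x ∈ B)
    (hfrac : ∀ x : F, ∃ a ∈ B, ∃ b ∈ B, b ≠ 0 ∧ x * b = a)
    (n : Ideal B) [hn : n.IsPrime] (hπn : (⟨π, hπB⟩ : B) ∈ n)
    (hval : ∀ x ∈ B, ∀ y ∈ B, ∃ s : B, s ∉ n ∧
      ((∃ a ∈ B, ∃ b ∈ B, (s : F) * x = y * a + π * b) ∨
        (∃ a ∈ B, ∃ b ∈ B, (s : F) * y = x * a + π * b)))
    (u : F) (hu0 : u ≠ 0) (huV : u ∈ V) (huV' : u⁻¹ ∈ V)
    (hord : ∀ O : ValuationSubring F, O ≠ ⊤ → IsPrincipalIdealRing O → (∀ x ∈ B, x ∈ O) →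
      π⁻¹ ∈ O → ∃ ε w : F, ε ∈ O ∧ ε⁻¹ ∈ O ∧ u = ε * w ^ m) :
    ∃ f : F, ∃ hf : f ^ m * u ∈ B, (⟨f ^ m * u, hf⟩ : B) ∉ n := by
  have := lp7_loc_isNoetherianRing B n
  obtain ⟨a0, ha0, b0, hb0, hb00, hab0⟩ := hfrac u
  apply lp7_LP_of_local B n m hm u
  exact lg33_local (lp7_loc B n) V (lp7_loc_le B n V π hπB hBV hπn hmax hsat) π
    (lp7_le_loc B n π hπB) hπ0 (lp7_loc_jac B n π hπB hπn) hmax hπV
    (lp7_loc_sat B n V π hBV hsat) m hm (lp7_loc_root B n m hm hroot)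
    (lp7_loc_val B n π hval) u hu0 huV huV' a0 b0 (lp7_le_loc B n a0 ha0)
    (lp7_le_loc B n b0 hb0) hb00 hab0 (lp7_loc_V1 B n π hπB m hm u hu0 hfrac hord)

/-- `LP` at a prime `n ∋ π` of a noetherian subring `B ⊆ F` with `B / π` Dedekind. -/
theorem lp7_LP_subring_dedekind (B : Subring F) [IsNoetherianRing B] (V : ValuationSubring F)
    (hBV : ∀ x ∈ B, x ∈ V) (π : F) (hπB : π ∈ B) (hπ0 : π ≠ 0)
    [IsDedekindDomain (B ⧸ Ideal.span {(⟨π, hπB⟩ : B)})]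
    (hmax : ∀ x ∈ V, x⁻¹ ∉ V → ∃ y ∈ V, x = π * y) (hπV : π⁻¹ ∉ V)
    (hsat : ∀ x ∈ B, (∃ y ∈ V, x = π * y) → ∃ y ∈ B, x = π * y)
    (m : ℕ) (hm : 0 < m) (hroot : ∀ x : F, x ^ m ∈ B → x ∈ B)
    (hfrac : ∀ x : F, ∃ a ∈ B, ∃ b ∈ B, b ≠ 0 ∧ x * b = a)
    (n : Ideal B) [hn : n.IsPrime] (hπn : (⟨π, hπB⟩ : B) ∈ n)
    (u : F) (hu0 : u ≠ 0) (huV : u ∈ V) (huV' : u⁻¹ ∈ V)
    (hord : ∀ O : ValuationSubring F, O ≠ ⊤ → IsPrincipalIdealRing O → (∀ x ∈ B, x ∈ O) →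
      π⁻¹ ∈ O → ∃ ε w : F, ε ∈ O ∧ ε⁻¹ ∈ O ∧ u = ε * w ^ m) :
    ∃ f : F, ∃ hf : f ^ m * u ∈ B, (⟨f ^ m * u, hf⟩ : B) ∉ n :=
  lp7_LP_subring B V hBV π hπB hπ0 hmax hπV hsat m hm hroot hfrac n hπn
    (lp7_val_of_dedekind B π hπB n hπn) u hu0 huV huV' hord

end SubringLP

section SubalgebraLP

variable {R F : Type*} [CommRing R] [Field F] [Algebra R F]

/-- Elements of `1 + π V` are units of `V` (when `m_V = π V`). -/
theorem lp7_unit_of_one_add (π : F) (hπ0 : π ≠ 0) (V : ValuationSubring F) (hπV : π⁻¹ ∉ V)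
    (hmax : ∀ x ∈ V, x⁻¹ ∉ V → π⁻¹ * x ∈ V) (u : F) (hu : π⁻¹ * (u - 1) ∈ V) :
    u ≠ 0 ∧ u ∈ V ∧ u⁻¹ ∈ V := by
  have huV : u ∈ V := by
    have h1 : u = 1 + π * (π⁻¹ * (u - 1)) := by field_simp; ring
    have hπ : π ∈ V := by
      rcases V.mem_or_inv_mem π with h | h
      · exact h
      · exact absurd h hπV
    rw [h1]; exact V.add_mem _ _ V.one_mem (V.mul_mem _ _ hπ hu)
  have key : ∀ y ∈ V, u = π * y → False := by
    intro y hy huy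
    apply hπV
    have : π⁻¹ = y - π⁻¹ * (u - 1) := by
      rw [huy]; field_simp; ring
    rw [this]; exact V.toSubring.sub_mem hy hu
  refine ⟨?_, huV, ?_⟩
  · rintro rfl
    exact key 0 V.zero_mem (by rw [mul_zero])
  · by_contra hcon
    exact key _ (hmax u huV hcon) (by field_simp)

/-- **`LP` for `tc_main`.**  `B` a noetherian chart with `B / π` Dedekind; `u ∈ 1 + π V` with
`m ∣ ord_O u` (valuation-subring form) for every discrete valuation subring `O ⊇ B[1/π]`. -/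
theorem lp7_LP (π : R) (B : Subalgebra R F) [IsNoetherianRing B]
    [IsDedekindDomain (B ⧸ Ideal.span {algebraMap R B π})]
    (V : ValuationSubring F) (hBV : ∀ x ∈ B, x ∈ V)
    (hπ0 : algebraMap R F π ≠ 0) (hπV : (algebraMap R F π)⁻¹ ∉ V)
    (hmax : ∀ x ∈ V, x⁻¹ ∉ V → (algebraMap R F π)⁻¹ * x ∈ V)
    (hsat : ∀ x ∈ B, (algebraMap R F π)⁻¹ * x ∈ V → (algebraMap R F π)⁻¹ * x ∈ B)
    (m : ℕ) (hm : 0 < m) (hroot : ∀ x : F, x ^ m ∈ B → x ∈ B)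
    (hfrac : ∀ x : F, ∃ a ∈ B, ∃ b ∈ B, b ≠ 0 ∧ x * b = a)
    (u : F) (hu : (algebraMap R F π)⁻¹ * (u - 1) ∈ V)
    (hord : ∀ O : ValuationSubring F, O ≠ ⊤ → IsPrincipalIdealRing O → (∀ x ∈ B, x ∈ O) →
      (algebraMap R F π)⁻¹ ∈ O → ∃ ε w : F, ε ∈ O ∧ ε⁻¹ ∈ O ∧ u = ε * w ^ m) :
    ∀ n : Ideal B, n.IsMaximal → algebraMap R B π ∈ n →
      ∃ f : F, ∃ hf : f ^ m * u ∈ B, (⟨f ^ m * u, hf⟩ : B) ∉ n := by
  intro n hnmax hπn
  obtain ⟨hu0, huV, huV'⟩ := lp7_unit_of_one_add _ hπ0 V hπV hmax u hu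
  have hπB : algebraMap R F π ∈ B.toSubring := B.algebraMap_mem π
  have hmax' : ∀ x ∈ V, x⁻¹ ∉ V → ∃ y ∈ V, x = algebraMap R F π * y :=
    fun x hx hx' => ⟨_, hmax x hx hx', by field_simp⟩
  have hsat' : ∀ x ∈ B.toSubring, (∃ y ∈ V, x = algebraMap R F π * y) →
      ∃ y ∈ B.toSubring, x = algebraMap R F π * y := by
    rintro x hx ⟨y, hy, rfl⟩
    have h1 : (algebraMap R F π)⁻¹ * (algebraMap R F π * y) = y := by field_simp
    refine ⟨y, ?_, rfl⟩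
    have := hsat _ hx (by rw [h1]; exact hy)
    rwa [h1] at this
  have hn : (show Ideal B.toSubring from n).IsPrime := hnmax.isPrime
  exact @lp7_LP_subring_dedekind F _ B.toSubring ‹IsNoetherianRing B› V hBV (algebraMap R F π) hπB
    hπ0 ‹IsDedekindDomain (B ⧸ Ideal.span {algebraMap R B π})› hmax' hπV hsat' m hm hroot hfrac
    n hn hπn u hu0 huV huV' hord

/-- **`NBAR` for `tc_main`.**  `B` a noetherian chart with `B / π` Dedekind (integrally closed). -/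
theorem lp7_nbar (π : R) (B : Subalgebra R F) [IsNoetherianRing B]
    [IsDedekindDomain (B ⧸ Ideal.span {algebraMap R B π})]
    (V : ValuationSubring F) (hBV : ∀ x ∈ B, x ∈ V)
    (hπ0 : algebraMap R F π ≠ 0) (hπV : (algebraMap R F π)⁻¹ ∉ V)
    (hmax : ∀ x ∈ V, x⁻¹ ∉ V → (algebraMap R F π)⁻¹ * x ∈ V)
    (hsat : ∀ x ∈ B, (algebraMap R F π)⁻¹ * x ∈ V → (algebraMap R F π)⁻¹ * x ∈ B)
    (hfrac : ∀ x : F, ∃ a ∈ B, ∃ b ∈ B, b ≠ 0 ∧ x * b = a) (m : ℕ) (hm : 0 < m) :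
    ∀ x ∈ V, (∃ b ∈ B, (algebraMap R F π)⁻¹ * (x ^ m - b) ∈ V) →
      ∃ b ∈ B, (algebraMap R F π)⁻¹ * (x - b) ∈ V := by
  rintro x hxV ⟨c, hc, hcv⟩
  have hπB : algebraMap R F π ∈ B.toSubring := B.algebraMap_mem π
  have hmax' : ∀ x ∈ V, x⁻¹ ∉ V → ∃ y ∈ V, x = algebraMap R F π * y :=
    fun x hx hx' => ⟨_, hmax x hx hx', by field_simp⟩
  have hsat' : ∀ x ∈ B.toSubring, (∃ y ∈ V, x = algebraMap R F π * y) →
      ∃ y ∈ B.toSubring, x = algebraMap R F π * y := by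
    rintro x hx ⟨y, hy, rfl⟩
    have h1 : (algebraMap R F π)⁻¹ * (algebraMap R F π * y) = y := by field_simp
    refine ⟨y, ?_, rfl⟩
    have := hsat _ hx (by rw [h1]; exact hy)
    rwa [h1] at this
  obtain ⟨b, hb, v, hv, hxb⟩ := @lp7_nbar_of_dedekind F _ B.toSubring (algebraMap R F π) hπB
    ‹IsNoetherianRing B› ‹IsDedekindDomain (B ⧸ Ideal.span {algebraMap R B π})› V hBV hmax' hπV
    hsat' hfrac m hm x hxV
    ⟨c, hc, _, hcv, by field_simp; ring⟩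
  refine ⟨b, hb, ?_⟩
  have : (algebraMap R F π)⁻¹ * (x - b) = v := by rw [hxb]; field_simp; ring
  rw [this]; exact hv

end SubalgebraLP

end Fermat.Agent.S18
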