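import Mathlib

/-!
# S18 — the abstract two-chart lemma (row A6 of the S18 plan)

Everything is stated elementwise inside a field `F` with a valuation subring `V`
(the Gauss valuation ring), an element `π` of the base ring `R`, and `R`-subalgebras
`B₁ B₂ B₁₂` of `F` (the two affine charts and their intersection).
"`x ∈ π V`" is written `(algebraMap R F π)⁻¹ * x ∈ V`.
-/

namespace Fermat.Agent.S18

section basic

variable {F : Type*} [Field F]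

/-- `(1+x)^m = 1 + m x + x^2 q` with `q` in any subring containing `x`. -/
theorem tc_one_add_pow (S : Subring F) (x : F) (hx : x ∈ S) (m : ℕ) :
    ∃ q ∈ S, (1 + x) ^ m = 1 + (m : F) * x + x ^ 2 * q := by
  induction m with
  | zero => exact ⟨0, S.zero_mem, by simp⟩
  | succ k ih =>
    obtain ⟨q, hq, h⟩ := ih
    refine ⟨(k : F) + q * (1 + x),
      S.add_mem (natCast_mem S k) (S.mul_mem hq (S.add_mem S.one_mem hx)), ?_⟩
    rw [pow_succ, h]; push_cast; ring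

/-- valuation of a nonzero nonunit is `< 1`. -/
theorem tc_val_lt_one (V : ValuationSubring F) (p : F) (hpV : p⁻¹ ∉ V) :
    V.valuation p < 1 := by
  by_contra h
  replace h := not_lt.mp h
  apply hpV
  rw [← V.valuation_le_one_iff, map_inv₀]
  exact inv_le_one_of_one_le₀ h

theorem tc_mem_of_nonunit (V : ValuationSubring F) (p : F) (hpV : p⁻¹ ∉ V) : p ∈ V := by
  rcases V.mem_or_inv_mem p with h | h
  · exact h
  · exact absurd h hpV

/-- `1 + p y` is a unit of `V`. -/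
theorem tc_val_one_add (V : ValuationSubring F) (p : F) (hpV : p⁻¹ ∉ V)
    (y : F) (hy : y ∈ V) : V.valuation (1 + p * y) = 1 := by
  apply Valuation.map_one_add_of_lt
  rw [map_mul]
  have h1 : V.valuation y ≤ 1 := (V.valuation_le_one_iff y).mpr hy
  calc V.valuation p * V.valuation y ≤ V.valuation p * 1 := by gcongr
    _ = V.valuation p := mul_one _
    _ < 1 := tc_val_lt_one V p hpV

/-- membership in `p^n V` via valuations. -/
theorem tc_mem_iff_val (V : ValuationSubring F) (p : F) (hp0 : p ≠ 0) (n : ℕ) (x : F) :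
    (p⁻¹) ^ n * x ∈ V ↔ V.valuation x ≤ V.valuation p ^ n := by
  rw [← V.valuation_le_one_iff, map_mul, map_pow, map_inv₀]
  have hvp : V.valuation p ≠ 0 := (Valuation.ne_zero_iff _).mpr hp0
  have hpos : (0 : V.ValueGroup) < V.valuation p ^ n := by
    exact pow_pos (zero_lt_iff.mpr hvp) n
  rw [inv_pow, inv_mul_le_iff₀ hpos, mul_one]

/-- root closedness of a valuation ring. -/
theorem tc_mem_of_pow_mem (V : ValuationSubring F) (m : ℕ) (hm0 : 0 < m) (f : F)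
    (hf : f ^ m ∈ V) : f ∈ V := by
  rcases V.mem_or_inv_mem f with h | h
  · exact h
  · obtain ⟨d, rfl⟩ : ∃ d, m = d + 1 := ⟨m - 1, by omega⟩
    by_cases hf0 : f = 0
    · rw [hf0]; exact V.zero_mem
    have : f = f ^ (d + 1) * (f⁻¹) ^ d := by
      rw [pow_succ, inv_pow]; field_simp
    rw [this]
    exact V.mul_mem _ _ hf (V.pow_mem h d)

end basic

section twisted

variable {R : Type*} [CommRing R] {F : Type*} [Field F] [Algebra R F]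

/-- the twisted module `I(B) = {f | f^m u ∈ B}`. -/
def tcI (m : ℕ) (u : F) (B : Subalgebra R F) : Set F := {f | f ^ m * u ∈ B}

theorem tcI_def (m : ℕ) (u : F) (B : Subalgebra R F) (f : F) :
    f ∈ tcI m u B ↔ f ^ m * u ∈ B := Iff.rfl

theorem tcI_zero (m : ℕ) (hm0 : 0 < m) (u : F) (B : Subalgebra R F) : (0 : F) ∈ tcI m u B := by
  rw [tcI_def, zero_pow hm0.ne', zero_mul]; exact B.zero_mem

theorem tcI_mul (m : ℕ) (u : F) (B : Subalgebra R F) (b f : F) (hb : b ∈ B)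
    (hf : f ∈ tcI m u B) : b * f ∈ tcI m u B := by
  rw [tcI_def] at hf ⊢
  have : (b * f) ^ m * u = b ^ m * (f ^ m * u) := by ring
  rw [this]; exact B.mul_mem (B.pow_mem hb m) hf

theorem tcI_neg (m : ℕ) (u : F) (B : Subalgebra R F) (f : F)
    (hf : f ∈ tcI m u B) : -f ∈ tcI m u B := by
  have := tcI_mul m u B (-1) f (B.neg_mem B.one_mem) hf
  simpa using this

theorem tcI_mono (m : ℕ) (u : F) {B B' : Subalgebra R F} (h : B ≤ B') :
    tcI m u B ⊆ tcI m u B' := fun _ hf => h hf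

theorem tcI_add (m : ℕ) (u : F) (B : Subalgebra R F)
    (hroot : ∀ x : F, x ^ m ∈ B → x ∈ B) (f g : F)
    (hf : f ∈ tcI m u B) (hg : g ∈ tcI m u B) : f + g ∈ tcI m u B := by
  rw [tcI_def] at hf hg ⊢
  rw [add_pow, Finset.sum_mul]
  refine B.sum_mem ?_
  intro k hk
  have hkm : k ≤ m := Nat.lt_succ_iff.mp (Finset.mem_range.mp hk)
  have ht : f ^ k * g ^ (m - k) * u ∈ B := by
    apply hroot
    obtain ⟨d, rfl⟩ := Nat.exists_eq_add_of_le hkm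
    have hd : k + d - k = d := by omega
    rw [hd]
    have : (f ^ k * g ^ d * u) ^ (k + d) = (f ^ (k + d) * u) ^ k * (g ^ (k + d) * u) ^ d := by
      ring
    rw [this]
    exact B.mul_mem (B.pow_mem hf k) (B.pow_mem hg d)
  have : f ^ k * g ^ (m - k) * (m.choose k : F) * u
      = (m.choose k : F) * (f ^ k * g ^ (m - k) * u) := by ring
  rw [this]
  exact B.mul_mem (natCast_mem B _) ht

/-- `I(B)` as an `R`-submodule of `F`. -/
def tcIsub (m : ℕ) (hm0 : 0 < m) (u : F) (B : Subalgebra R F)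
    (hroot : ∀ x : F, x ^ m ∈ B → x ∈ B) : Submodule R F where
  carrier := tcI m u B
  add_mem' := fun {f g} hf hg => tcI_add m u B hroot f g hf hg
  zero_mem' := tcI_zero m hm0 u B
  smul_mem' := fun c f hf => by
    rw [Algebra.smul_def]
    exact tcI_mul m u B _ f (B.algebraMap_mem c) hf

theorem tcIsub_mem (m : ℕ) (hm0 : 0 < m) (u : F) (B : Subalgebra R F)
    (hroot : ∀ x : F, x ^ m ∈ B → x ∈ B) (f : F) :
    f ∈ tcIsub m hm0 u B hroot ↔ f ^ m * u ∈ B := Iff.rfl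

/-- congruence of powers modulo `p V`. -/
theorem tc_pow_sub_pow_mem (V : ValuationSubring F) (p : F) (x y : F) (hx : x ∈ V) (hy : y ∈ V)
    (h : p⁻¹ * (x - y) ∈ V) (m : ℕ) : p⁻¹ * (x ^ m - y ^ m) ∈ V := by
  have h1 : x ^ m - y ^ m = (∑ i ∈ Finset.range m, x ^ i * y ^ (m - 1 - i)) * (x - y) :=
    (geom_sum₂_mul x y m).symm
  have h2 : p⁻¹ * (x ^ m - y ^ m)
      = (∑ i ∈ Finset.range m, x ^ i * y ^ (m - 1 - i)) * (p⁻¹ * (x - y)) := by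
    rw [h1]; ring
  rw [h2]
  refine V.mul_mem _ _ ?_ h
  exact V.toSubring.sum_mem fun i _ => V.mul_mem _ _ (V.pow_mem hx _) (V.pow_mem hy _)

/-- `u ≡ 1 mod p V` implies `u ∈ V`. -/
theorem tc_mem_of_cong_one (V : ValuationSubring F) (p : F) (hp0 : p ≠ 0) (hpV : p⁻¹ ∉ V)
    (u : F) (hu : p⁻¹ * (u - 1) ∈ V) : u ∈ V := by
  have : u = 1 + p * (p⁻¹ * (u - 1)) := by field_simp; ring
  rw [this]
  exact V.add_mem _ _ V.one_mem (V.mul_mem _ _ (tc_mem_of_nonunit V p hpV) hu)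

/-- `u ≡ 1 mod p V` implies `v(u) = 1`. -/
theorem tc_val_of_cong_one (V : ValuationSubring F) (p : F) (hp0 : p ≠ 0) (hpV : p⁻¹ ∉ V)
    (u : F) (hu : p⁻¹ * (u - 1) ∈ V) : V.valuation u = 1 := by
  have : u = 1 + p * (p⁻¹ * (u - 1)) := by field_simp; ring
  rw [this]
  exact tc_val_one_add V p hpV _ hu

theorem tc_inv_mem_of_cong_one (V : ValuationSubring F) (p : F) (hp0 : p ≠ 0) (hpV : p⁻¹ ∉ V)
    (u : F) (hu : p⁻¹ * (u - 1) ∈ V) : u⁻¹ ∈ V := by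
  rw [← V.valuation_le_one_iff, map_inv₀, tc_val_of_cong_one V p hp0 hpV u hu, inv_one]

theorem tc_ne_zero_of_cong_one (V : ValuationSubring F) (p : F) (hp0 : p ≠ 0) (hpV : p⁻¹ ∉ V)
    (u : F) (hu : p⁻¹ * (u - 1) ∈ V) : u ≠ 0 := by
  intro h
  have := tc_val_of_cong_one V p hp0 hpV u hu
  rw [h, map_zero] at this
  exact zero_ne_one this

/-- Step (a): the reduction of `I(B)` contains `1`. -/
theorem tc_exists_one (m : ℕ) (hm0 : 0 < m) (V : ValuationSubring F) (p : F) (hp0 : p ≠ 0)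
    (hpV : p⁻¹ ∉ V) (B : Subalgebra R F) (hpB : p ∈ B) (hBV : ∀ x ∈ B, x ∈ V)
    (hsat : ∀ x ∈ B, p⁻¹ * x ∈ V → p⁻¹ * x ∈ B)
    (hroot : ∀ x : F, x ^ m ∈ B → x ∈ B)
    (hbar : ∀ x ∈ V, (∃ b ∈ B, p⁻¹ * (x ^ m - b) ∈ V) → ∃ b ∈ B, p⁻¹ * (x - b) ∈ V)
    (u : F) (hu : p⁻¹ * (u - 1) ∈ V)
    (hLP : ∀ n : Ideal B, n.IsMaximal → (⟨p, hpB⟩ : B) ∈ n →
      ∃ f : F, ∃ hf : f ^ m * u ∈ B, (⟨f ^ m * u, hf⟩ : B) ∉ n) :
    ∃ f : F, f ^ m * u ∈ B ∧ p⁻¹ * (f - 1) ∈ V := by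
  classical
  have huinv : u⁻¹ ∈ V := tc_inv_mem_of_cong_one V p hp0 hpV u hu
  have hu0 : u ≠ 0 := tc_ne_zero_of_cong_one V p hp0 hpV u hu
  let J : Ideal B :=
    { carrier := {b | ∃ f : F, f ^ m * u ∈ B ∧ p⁻¹ * (f - (b : F)) ∈ V}
      add_mem' := by
        rintro a b ⟨f, hf, hfa⟩ ⟨g, hg, hgb⟩
        refine ⟨f + g, tcI_add m u B hroot f g hf hg, ?_⟩
        have : p⁻¹ * (f + g - ((a + b : B) : F)) = p⁻¹ * (f - a) + p⁻¹ * (g - b) := by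
          push_cast; ring
        rw [this]; exact V.add_mem _ _ hfa hgb
      zero_mem' := ⟨0, tcI_zero m hm0 u B, by simp [V.zero_mem]⟩
      smul_mem' := by
        rintro c b ⟨f, hf, hfb⟩
        refine ⟨c * f, tcI_mul m u B c f c.2 hf, ?_⟩
        have : p⁻¹ * ((c : F) * f - ((c • b : B) : F)) = c * (p⁻¹ * (f - b)) := by
          simp only [smul_eq_mul, MulMemClass.coe_mul]; ring
        rw [this]; exact V.mul_mem _ _ (hBV c c.2) hfb }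
  have hJ : J = ⊤ := by
    by_contra hne
    obtain ⟨n, hn, hJn⟩ := Ideal.exists_le_maximal J hne
    have hpn : (⟨p, hpB⟩ : B) ∈ n := by
      apply hJn
      refine ⟨0, tcI_zero m hm0 u B, ?_⟩
      have : p⁻¹ * (0 - p) = -1 := by field_simp; ring
      show p⁻¹ * (0 - p) ∈ V
      rw [this]; exact V.neg_mem _ V.one_mem
    obtain ⟨f, hf, hfn⟩ := hLP n hn hpn
    have hfmV : f ^ m ∈ V := by
      have : f ^ m = (f ^ m * u) * u⁻¹ := by field_simp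
      rw [this]; exact V.mul_mem _ _ (hBV _ hf) huinv
    have hfV : f ∈ V := tc_mem_of_pow_mem V m hm0 f hfmV
    have hfu : p⁻¹ * (f ^ m - f ^ m * u) ∈ V := by
      have : p⁻¹ * (f ^ m - f ^ m * u) = -(f ^ m) * (p⁻¹ * (u - 1)) := by ring
      rw [this]; exact V.mul_mem _ _ (V.neg_mem _ hfmV) hu
    obtain ⟨b', hb', hfb'⟩ := hbar f hfV ⟨f ^ m * u, hf, hfu⟩
    have hb'J : (⟨b', hb'⟩ : B) ∈ J := ⟨f, hf, hfb'⟩
    have hb'n : (⟨b', hb'⟩ : B) ∈ n := hJn hb'J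
    have hdiff : p⁻¹ * (f ^ m * u - b' ^ m) ∈ B := by
      apply hsat _ (B.sub_mem hf (B.pow_mem hb' m))
      have h1 := tc_pow_sub_pow_mem V p f b' hfV (hBV _ hb') hfb' m
      have : p⁻¹ * (f ^ m * u - b' ^ m)
          = p⁻¹ * (f ^ m - b' ^ m) - p⁻¹ * (f ^ m - f ^ m * u) := by ring
      rw [this]; exact V.toSubring.sub_mem h1 hfu
    apply hfn
    have : (⟨f ^ m * u, hf⟩ : B)
        = (⟨b', hb'⟩ : B) ^ m + (⟨p, hpB⟩ : B) * ⟨_, hdiff⟩ := by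
      apply Subtype.ext
      simp only [Subalgebra.coe_add, Subalgebra.coe_pow, Subalgebra.coe_mul]
      field_simp; ring
    rw [this]
    exact n.add_mem (n.pow_mem_of_mem hb'n m hm0) (n.mul_mem_right _ hpn)
  have h1 : (1 : B) ∈ J := by rw [hJ]; trivial
  obtain ⟨f, hf, hf1⟩ := h1
  exact ⟨f, hf, by simpa using hf1⟩

/-- Step (b): Hensel improvement of the congruence `e^m u ≡ 1`. -/
theorem tc_hensel (m : ℕ) (V : ValuationSubring F) (p : F) (hp0 : p ≠ 0)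
    (hpV : p⁻¹ ∉ V) (B : Subalgebra R F) (hpB : p ∈ B) (hBV : ∀ x ∈ B, x ∈ V)
    (hsat : ∀ x ∈ B, p⁻¹ * x ∈ V → p⁻¹ * x ∈ B)
    (u : F) (hu : p⁻¹ * (u - 1) ∈ V)
    (μ : F) (hμB : μ ∈ B) (hμ : (m : F) * μ = 1)
    (f : F) (hf : f ^ m * u ∈ B) (hf1 : p⁻¹ * (f - 1) ∈ V) (k : ℕ) :
    ∃ e : F, p⁻¹ * (e - 1) ∈ V ∧ ∃ b ∈ B, e ^ m * u = 1 + p ^ (k + 1) * b := by
  induction k with
  | zero =>
    refine ⟨f, hf1, p⁻¹ * (f ^ m * u - 1), ?_, ?_⟩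
    · apply hsat _ (B.sub_mem hf B.one_mem)
      have hfV := tc_mem_of_cong_one V p hp0 hpV f hf1
      have h1 := tc_pow_sub_pow_mem V p f 1 hfV V.one_mem hf1 m
      rw [one_pow] at h1
      have : p⁻¹ * (f ^ m * u - 1) = p⁻¹ * (f ^ m - 1) * u + p⁻¹ * (u - 1) := by ring
      rw [this]
      exact V.add_mem _ _ (V.mul_mem _ _ h1 (tc_mem_of_cong_one V p hp0 hpV u hu)) hu
    · field_simp; ring
  | succ k ih =>
    obtain ⟨e, he1, b, hb, heq⟩ := ih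
    have hpVm := tc_mem_of_nonunit V p hpV
    have heV := tc_mem_of_cong_one V p hp0 hpV e he1
    have hyB : p ^ (k + 1) * b ∈ B := B.mul_mem (B.pow_mem hpB _) hb
    have hxB : -(μ * (p ^ (k + 1) * b)) ∈ B := B.neg_mem (B.mul_mem hμB hyB)
    obtain ⟨q, hq, hpow⟩ := tc_one_add_pow B.toSubring (-(μ * (p ^ (k + 1) * b))) hxB m
    have hqB : q ∈ B := hq
    refine ⟨e * (1 + -(μ * (p ^ (k + 1) * b))), ?_,
      p ^ k * b ^ 2 * (-1 + μ ^ 2 * q * (1 + p ^ (k + 1) * b)), ?_, ?_⟩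
    · have : p⁻¹ * (e * (1 + -(μ * (p ^ (k + 1) * b))) - 1)
          = p⁻¹ * (e - 1) - e * μ * p ^ k * b := by
        field_simp; ring
      rw [this]
      exact V.toSubring.sub_mem he1 (V.mul_mem _ _ (V.mul_mem _ _ (V.mul_mem _ _ heV
        (hBV _ hμB)) (V.pow_mem hpVm k)) (hBV _ hb))
    · exact B.mul_mem (B.mul_mem (B.pow_mem hpB _) (B.pow_mem hb 2))
        (B.add_mem (B.neg_mem B.one_mem)
          (B.mul_mem (B.mul_mem (B.pow_mem hμB 2) hqB) (B.add_mem B.one_mem hyB)))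
    · have : (e * (1 + -(μ * (p ^ (k + 1) * b)))) ^ m * u
          = (1 + -(μ * (p ^ (k + 1) * b))) ^ m * (e ^ m * u) := by rw [mul_pow]; ring
      rw [this, heq, hpow]
      have hmμ : (m : F) * (-(μ * (p ^ (k + 1) * b))) = -(p ^ (k + 1) * b) := by
        rw [mul_neg, ← mul_assoc, hμ, one_mul]
      rw [hmμ]
      ring

/-- Step (c): two solutions of `e^m u ≡ 1 mod p^n` that are `≡ 1 mod p` agree mod `p^n`. -/
theorem tc_diff_mem (m : ℕ) (V : ValuationSubring F) (p : F) (hp0 : p ≠ 0) (hpV : p⁻¹ ∉ V)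
    (μ : F) (hμV : μ ∈ V) (hμ : (m : F) * μ = 1)
    (u : F) (hu : p⁻¹ * (u - 1) ∈ V)
    (e₁ e₂ b₁ b₂ : F) (h₁ : p⁻¹ * (e₁ - 1) ∈ V) (h₂ : p⁻¹ * (e₂ - 1) ∈ V)
    (hb₁ : b₁ ∈ V) (hb₂ : b₂ ∈ V) (n : ℕ)
    (he₁ : e₁ ^ m * u = 1 + p ^ n * b₁) (he₂ : e₂ ^ m * u = 1 + p ^ n * b₂) :
    (p⁻¹) ^ n * (e₂ - e₁) ∈ V := by
  rw [tc_mem_iff_val V p hp0]
  have he₁V := tc_mem_of_cong_one V p hp0 hpV e₁ h₁
  have he₂V := tc_mem_of_cong_one V p hp0 hpV e₂ h₂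
  have hpVm := tc_mem_of_nonunit V p hpV
  set S := ∑ i ∈ Finset.range m, e₂ ^ i * e₁ ^ (m - 1 - i) with hS
  have hSm : S * (e₂ - e₁) = e₂ ^ m - e₁ ^ m := geom_sum₂_mul e₂ e₁ m
  have hSc : p⁻¹ * (S - m) ∈ V := by
    have : p⁻¹ * (S - m) = ∑ i ∈ Finset.range m, p⁻¹ * (e₂ ^ i * e₁ ^ (m - 1 - i) - 1) := by
      rw [hS, ← Finset.mul_sum, Finset.sum_sub_distrib]; simp
    rw [this]
    refine V.toSubring.sum_mem fun i _ => ?_
    have a1 := tc_pow_sub_pow_mem V p e₂ 1 he₂V V.one_mem h₂ i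
    have a2 := tc_pow_sub_pow_mem V p e₁ 1 he₁V V.one_mem h₁ (m - 1 - i)
    rw [one_pow] at a1 a2
    have : p⁻¹ * (e₂ ^ i * e₁ ^ (m - 1 - i) - 1)
        = e₂ ^ i * (p⁻¹ * (e₁ ^ (m - 1 - i) - 1)) + p⁻¹ * (e₂ ^ i - 1) := by ring
    rw [this]
    exact V.add_mem _ _ (V.mul_mem _ _ (V.pow_mem he₂V i) a2) a1
  have hvp : V.valuation p < 1 := tc_val_lt_one V p hpV
  have hvm : V.valuation (m : F) = 1 := by
    have h1 : V.valuation (m : F) ≤ 1 := (V.valuation_le_one_iff _).mpr (natCast_mem V m)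
    have h2 : V.valuation μ ≤ 1 := (V.valuation_le_one_iff _).mpr hμV
    have h3 : V.valuation (m : F) * V.valuation μ = 1 := by rw [← map_mul, hμ, map_one]
    refine le_antisymm h1 ?_
    calc (1 : V.ValueGroup) = V.valuation (m : F) * V.valuation μ := h3.symm
      _ ≤ V.valuation (m : F) * 1 := by gcongr
      _ = V.valuation (m : F) := mul_one _
  have hvS : V.valuation S = 1 := by
    have : S = p * (p⁻¹ * (S - m)) + m := by field_simp; ring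
    rw [this, Valuation.map_add_eq_of_lt_right, hvm]
    rw [hvm, map_mul]
    calc V.valuation p * V.valuation (p⁻¹ * (S - m)) ≤ V.valuation p * 1 := by
          gcongr; exact (V.valuation_le_one_iff _).mpr hSc
      _ = V.valuation p := mul_one _
      _ < 1 := hvp
  have hvu := tc_val_of_cong_one V p hp0 hpV u hu
  have hd : (e₂ ^ m - e₁ ^ m) * u = p ^ n * (b₂ - b₁) := by
    have : (e₂ ^ m - e₁ ^ m) * u = e₂ ^ m * u - e₁ ^ m * u := by ring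
    rw [this, he₁, he₂]; ring
  have hval : V.valuation (e₂ - e₁) = V.valuation p ^ n * V.valuation (b₂ - b₁) := by
    have h3 : V.valuation (S * (e₂ - e₁) * u) = V.valuation (p ^ n * (b₂ - b₁)) := by
      rw [hSm, hd]
    rw [map_mul, map_mul, hvS, hvu, one_mul, mul_one, map_mul, map_pow] at h3
    exact h3
  rw [hval]
  calc V.valuation p ^ n * V.valuation (b₂ - b₁) ≤ V.valuation p ^ n * 1 := by
        gcongr; exact (V.valuation_le_one_iff _).mpr (V.toSubring.sub_mem hb₂ hb₁)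
    _ = V.valuation p ^ n := mul_one _

/-- iterated saturation. -/
theorem tc_sat_pow (V : ValuationSubring F) (p : F) (hpV : p⁻¹ ∉ V) (hp0 : p ≠ 0)
    (B : Subalgebra R F)
    (hsat : ∀ x ∈ B, p⁻¹ * x ∈ V → p⁻¹ * x ∈ B) (n : ℕ) :
    ∀ x ∈ B, (p⁻¹) ^ n * x ∈ V → (p⁻¹) ^ n * x ∈ B := by
  induction n with
  | zero => intro x hx _; simpa using hx
  | succ k ih =>
    intro x hx hxV
    have h1 : (p⁻¹) ^ k * x ∈ V := by
      have : (p⁻¹) ^ k * x = p * ((p⁻¹) ^ (k + 1) * x) := by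
        rw [pow_succ]; field_simp
      rw [this]; exact V.mul_mem _ _ (tc_mem_of_nonunit V p hpV) hxV
    have h2 := ih x hx h1
    have h3 : (p⁻¹) ^ (k + 1) * x = p⁻¹ * ((p⁻¹) ^ k * x) := by rw [pow_succ]; ring
    rw [h3]
    apply hsat _ h2
    rw [← h3]; exact hxV

/-- saturation of the twisted module. -/
theorem tcI_sat (m : ℕ) (V : ValuationSubring F) (p : F) (hpV : p⁻¹ ∉ V) (hp0 : p ≠ 0)
    (B : Subalgebra R F) (hsat : ∀ x ∈ B, p⁻¹ * x ∈ V → p⁻¹ * x ∈ B)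
    (u : F) (huV : u ∈ V) (n : ℕ) (x : F) (hx : x ∈ tcI m u B) (hxV : (p⁻¹) ^ n * x ∈ V) :
    (p⁻¹) ^ n * x ∈ tcI m u B := by
  rw [tcI_def] at hx ⊢
  have h1 : ((p⁻¹) ^ n * x) ^ m * u = (p⁻¹) ^ (n * m) * (x ^ m * u) := by
    rw [pow_mul]; ring
  rw [h1]
  apply tc_sat_pow V p hpV hp0 B hsat (n * m) _ hx
  rw [← h1]
  exact V.mul_mem _ _ (V.pow_mem hxV m) huV

theorem tc_adjoin_noeth [IsNoetherianRing R] (h : F) :
    IsNoetherianRing (Algebra.adjoin R ({h} : Set F)) := by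
  have hfg : (Algebra.adjoin R ({h} : Set F)).FG := by
    have := Subalgebra.fg_adjoin_finset (R := R) ({h} : Finset F)
    simpa using this
  have : Algebra.FiniteType R (Algebra.adjoin R ({h} : Set F)) :=
    (Subalgebra.fg_iff_finiteType _).mp hfg
  exact Algebra.FiniteType.isNoetherianRing R _

/-- (e1) `I(B)` is finitely generated over `R[h]`. -/
theorem tcI_fg [IsNoetherianRing R] (m : ℕ) (hm0 : 0 < m) (u : F) (B : Subalgebra R F)
    (hroot : ∀ x : F, x ^ m ∈ B → x ∈ B) (h : F) (hh : h ∈ B)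
    (hfin : ∃ G : Finset F, ∀ x ∈ B, x ∈ Submodule.span (Algebra.adjoin R ({h} : Set F)) (G : Set F))
    (hfrac : ∃ a ∈ B, ∃ b ∈ B, a ≠ 0 ∧ u * b = a) :
    ∃ G' : Finset F, (∀ g ∈ G', g ∈ tcI m u B) ∧
      ∀ x ∈ tcI m u B, ∃ c : F → Polynomial R,
        x = ∑ g ∈ G', Polynomial.aeval h (c g) * g := by
  classical
  obtain ⟨G, hG⟩ := hfin
  obtain ⟨a, ha, b, hb, ha0, hab⟩ := hfrac
  have hS₀B : Algebra.adjoin R ({h} : Set F) ≤ B := Algebra.adjoin_le (by simpa using hh)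
  have : IsNoetherianRing (Algebra.adjoin R ({h} : Set F)) := tc_adjoin_noeth h
  let IS : Submodule (Algebra.adjoin R ({h} : Set F)) F :=
    { carrier := tcI m u B
      add_mem' := fun {f g} hf hg => tcI_add m u B hroot f g hf hg
      zero_mem' := tcI_zero m hm0 u B
      smul_mem' := fun c f hf => by
        show (c : F) * f ∈ tcI m u B
        exact tcI_mul m u B _ f (hS₀B c.2) hf }
  have : IsNoetherian (Algebra.adjoin R ({h} : Set F))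
      (Submodule.span (Algebra.adjoin R ({h} : Set F)) (G : Set F)) :=
    isNoetherian_span_of_finite _ (Finset.finite_toSet G)
  let φ : F →ₗ[Algebra.adjoin R ({h} : Set F)] F := LinearMap.mulLeft _ a
  have hle : IS.map φ ≤ Submodule.span (Algebra.adjoin R ({h} : Set F)) (G : Set F) := by
    rintro _ ⟨f, hf, rfl⟩
    apply hG
    apply hroot
    obtain ⟨d, rfl⟩ : ∃ d, m = d + 1 := ⟨m - 1, by omega⟩
    have hf' : f ^ (d + 1) * u ∈ B := hf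
    have : (a * f) ^ (d + 1) = a ^ d * b * (f ^ (d + 1) * u) := by
      rw [mul_pow, pow_succ a, ← hab]; ring
    show (a * f) ^ (d + 1) ∈ B
    rw [this]
    exact B.mul_mem (B.mul_mem (B.pow_mem ha d) hb) hf'
  have hfgmap : (IS.map φ).FG := isNoetherian_submodule.mp inferInstance _ hle
  have hinj : Function.Injective φ := fun x y hxy => mul_left_cancel₀ ha0 hxy
  have hfg : IS.FG := Submodule.fg_of_fg_map_injective φ hinj hfgmap
  obtain ⟨G', hG'⟩ := hfg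
  refine ⟨G', ?_, ?_⟩
  · intro g hg
    have : g ∈ IS := by rw [← hG']; exact Submodule.subset_span hg
    exact this
  · intro x hx
    have hx' : x ∈ Submodule.span (Algebra.adjoin R ({h} : Set F)) (G' : Set F) := by
      rw [hG']; exact hx
    rw [Submodule.mem_span_finset] at hx'
    obtain ⟨c, _, hc⟩ := hx'
    have hex : ∀ g, ∃ q : Polynomial R, Polynomial.aeval h q = (c g : F) := by
      intro g
      have h1 : ((c g : F)) ∈ (Polynomial.aeval (R := R) h).range := by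
        rw [← Algebra.adjoin_singleton_eq_range_aeval]; exact (c g).2
      exact h1
    choose q hq using hex
    refine ⟨q, ?_⟩
    rw [← hc]
    refine Finset.sum_congr rfl fun g _ => ?_
    rw [hq]; rfl

/-- (e3) `I(B₁₂) ⊆ I(B₁) + I(B₂) + W` with `W` a finitely generated `R`-module. -/
theorem tcI_decomp [IsNoetherianRing R] (m : ℕ) (hm0 : 0 < m) (u : F)
    (B₁ B₂ B₁₂ : Subalgebra R F)
    (hroot₁ : ∀ x : F, x ^ m ∈ B₁ → x ∈ B₁) (hroot₂ : ∀ x : F, x ^ m ∈ B₂ → x ∈ B₂)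
    (h112 : B₁ ≤ B₁₂)
    (h : F) (hh0 : h ≠ 0) (hh₁ : h ∈ B₁) (hh₂ : h⁻¹ ∈ B₂)
    (hloc₁ : ∀ x ∈ B₁₂, ∃ k : ℕ, h ^ k * x ∈ B₁)
    (hloc₂ : ∀ x ∈ B₁₂, ∃ k : ℕ, h⁻¹ ^ k * x ∈ B₂)
    (hfin : ∃ G : Finset F, ∀ x ∈ B₁,
      x ∈ Submodule.span (Algebra.adjoin R ({h} : Set F)) (G : Set F))
    (hfrac : ∃ a ∈ B₁, ∃ b ∈ B₁, a ≠ 0 ∧ u * b = a) :
    ∃ W : Submodule R F, W.FG ∧
      ∀ x ∈ tcI m u B₁₂, x ∈ tcIsub m hm0 u B₁ hroot₁ ⊔ tcIsub m hm0 u B₂ hroot₂ ⊔ W := by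
  classical
  obtain ⟨G', hG'mem, hG'span⟩ := tcI_fg m hm0 u B₁ hroot₁ h hh₁ hfin hfrac
  have hk : ∀ g ∈ G', ∃ k : ℕ, h⁻¹ ^ k * (g ^ m * u) ∈ B₂ :=
    fun g hg => hloc₂ _ (h112 (hG'mem g hg))
  choose! kf hkf using hk
  have hI₂ : ∀ g ∈ G', ∀ j, G'.sup kf ≤ j → h⁻¹ ^ j * g ∈ tcI m u B₂ := by
    intro g hg j hj
    rw [tcI_def]
    have hkj : kf g ≤ j * m :=
      le_trans (Finset.le_sup hg) (le_trans hj (Nat.le_mul_of_pos_right j hm0))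
    obtain ⟨d, hd⟩ := Nat.exists_eq_add_of_le hkj
    have : (h⁻¹ ^ j * g) ^ m * u = h⁻¹ ^ d * (h⁻¹ ^ kf g * (g ^ m * u)) := by
      rw [mul_pow, ← pow_mul, hd, pow_add]; ring
    rw [this]
    exact B₂.mul_mem (B₂.pow_mem hh₂ d) (hkf g hg)
  refine ⟨Submodule.span R
    (((G' ×ˢ Finset.range (G'.sup kf)).image (fun gj => h⁻¹ ^ gj.2 * gj.1) : Finset F) : Set F),
    Submodule.fg_span (Finset.finite_toSet _), ?_⟩
  intro x hx
  obtain ⟨k, hk⟩ := hloc₁ _ hx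
  have hkx : h ^ k * x ∈ tcI m u B₁ := by
    rw [tcI_def]
    obtain ⟨d, rfl⟩ : ∃ d, m = d + 1 := ⟨m - 1, by omega⟩
    have : (h ^ k * x) ^ (d + 1) * u = h ^ (k * d) * (h ^ k * (x ^ (d + 1) * u)) := by
      rw [mul_pow, ← pow_mul, Nat.mul_succ, pow_add]; ring
    rw [this]
    exact B₁.mul_mem (B₁.pow_mem hh₁ _) hk
  obtain ⟨c, hc⟩ := hG'span _ hkx
  have hxeq : x = ∑ g ∈ G', h⁻¹ ^ k * (Polynomial.aeval h (c g) * g) := by
    rw [← Finset.mul_sum, ← hc, ← mul_assoc, ← mul_pow, inv_mul_cancel₀ hh0, one_pow, one_mul]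
  rw [hxeq]
  refine Submodule.sum_mem _ fun g hg => ?_
  rw [Polynomial.aeval_eq_sum_range, Finset.sum_mul, Finset.mul_sum]
  refine Submodule.sum_mem _ fun i _ => ?_
  have hterm : h⁻¹ ^ k * ((c g).coeff i • h ^ i * g)
      = (c g).coeff i • (h⁻¹ ^ k * h ^ i * g) := by
    rw [Algebra.smul_def, Algebra.smul_def]; ring
  rw [hterm]
  apply Submodule.smul_mem
  by_cases hik : k ≤ i
  · apply Submodule.mem_sup_left; apply Submodule.mem_sup_left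
    obtain ⟨d, rfl⟩ := Nat.exists_eq_add_of_le hik
    have : h⁻¹ ^ k * h ^ (k + d) * g = h ^ d * g := by
      rw [pow_add, ← mul_assoc, ← mul_pow, inv_mul_cancel₀ hh0, one_pow, one_mul]
    rw [this]
    exact tcI_mul m u B₁ _ g (B₁.pow_mem hh₁ d) (hG'mem g hg)
  · obtain ⟨d, rfl⟩ := Nat.exists_eq_add_of_le (not_le.mp hik).le
    have : h⁻¹ ^ (i + d) * h ^ i * g = h⁻¹ ^ d * g := by
      have h1 : h⁻¹ ^ i * h ^ i = 1 := by rw [← mul_pow, inv_mul_cancel₀ hh0, one_pow]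
      calc h⁻¹ ^ (i + d) * h ^ i * g = h⁻¹ ^ d * (h⁻¹ ^ i * h ^ i) * g := by rw [pow_add]; ring
        _ = h⁻¹ ^ d * g := by rw [h1, mul_one]
    rw [this]
    by_cases hdK : G'.sup kf ≤ d
    · apply Submodule.mem_sup_left; apply Submodule.mem_sup_right
      exact hI₂ g hg d hdK
    · apply Submodule.mem_sup_right
      apply Submodule.subset_span
      rw [Finset.mem_coe, Finset.mem_image]
      exact ⟨(g, d), Finset.mem_product.mpr ⟨hg, Finset.mem_range.mpr (not_le.mp hdK)⟩, rfl⟩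

/-- (e4) bounded torsion exponent modulo a finitely generated module. -/
theorem tc_torsion_bound [IsNoetherianRing R] (π : R) (M W : Submodule R F) (hW : W.FG) :
    ∃ c : ℕ, ∀ x ∈ M ⊔ W, ∀ n : ℕ, π ^ n • x ∈ M → π ^ c • x ∈ M := by
  have hfin : Module.Finite R W := Module.Finite.iff_fg.mpr hW
  have hnoeth : IsNoetherian R W := inferInstance
  let T : ℕ →o Submodule R W :=
    { toFun := fun n => (M.comap (LinearMap.lsmul R F (π ^ n))).comap W.subtype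
      monotone' := by
        intro a b hab w hw
        obtain ⟨d, rfl⟩ := Nat.exists_eq_add_of_le hab
        have hw' : π ^ a • (w : F) ∈ M := hw
        show π ^ (a + d) • (w : F) ∈ M
        rw [pow_add, mul_comm, mul_smul]
        exact M.smul_mem _ hw' }
  obtain ⟨c, hc⟩ := monotone_stabilizes_iff_noetherian.mpr hnoeth T
  refine ⟨c, fun x hx n hn => ?_⟩
  obtain ⟨y, hy, w, hw, rfl⟩ := Submodule.mem_sup.mp hx
  have hwn : π ^ n • w ∈ M := by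
    have : π ^ n • w = π ^ n • (y + w) - π ^ n • y := by rw [smul_add]; abel
    rw [this]; exact M.sub_mem hn (M.smul_mem _ hy)
  have h1 : (⟨w, hw⟩ : W) ∈ T n := hwn
  have h2 : (⟨w, hw⟩ : W) ∈ T (max n c) := T.monotone (le_max_left _ _) h1
  rw [← hc _ (le_max_right _ _)] at h2
  have h3 : π ^ c • w ∈ M := h2
  rw [smul_add]; exact M.add_mem (M.smul_mem _ hy) h3

theorem tcI_subset_V (m : ℕ) (hm0 : 0 < m) (V : ValuationSubring F) (u : F) (huinv : u⁻¹ ∈ V)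
    (hu0 : u ≠ 0) (B : Subalgebra R F) (hBV : ∀ x ∈ B, x ∈ V) (f : F) (hf : f ∈ tcI m u B) :
    f ∈ V := by
  apply tc_mem_of_pow_mem V m hm0
  have : f ^ m = (f ^ m * u) * u⁻¹ := by field_simp
  rw [this]; exact V.mul_mem _ _ (hBV _ hf) huinv

/-- **The two-chart lemma** (row A6 of the S18 plan).  `B₁`, `B₂` are the two affine charts,
`B₁₂` their intersection chart, `V` the Gauss valuation ring, `π` the uniformiser of the base.
If `u ≡ 1 mod π V` is locally an `m`-th power up to units at every closed point of the special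
fibre of both charts (`hLP`), and both charts are `m`-root closed with `m`-root closed
reduction, then there is a global `f₀ ≡ 1 mod π V` with `f₀^m u ∈ B₁ ∩ B₂`. -/
theorem tc_main [IsNoetherianRing R]
    (π : R) (m : ℕ) (hm0 : 0 < m) (hm : IsUnit (m : R))
    (V : ValuationSubring F) (hRV : ∀ r : R, algebraMap R F r ∈ V)
    (hπ0 : algebraMap R F π ≠ 0) (hπV : (algebraMap R F π)⁻¹ ∉ V)
    (B₁ B₂ B₁₂ : Subalgebra R F) (h112 : B₁ ≤ B₁₂) (h212 : B₂ ≤ B₁₂)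
    (h12V : ∀ x ∈ B₁₂, x ∈ V)
    (hsat₁ : ∀ x ∈ B₁, (algebraMap R F π)⁻¹ * x ∈ V → (algebraMap R F π)⁻¹ * x ∈ B₁)
    (hsat₂ : ∀ x ∈ B₂, (algebraMap R F π)⁻¹ * x ∈ V → (algebraMap R F π)⁻¹ * x ∈ B₂)
    (hsat₁₂ : ∀ x ∈ B₁₂, (algebraMap R F π)⁻¹ * x ∈ V → (algebraMap R F π)⁻¹ * x ∈ B₁₂)
    (hroot₁ : ∀ x : F, x ^ m ∈ B₁ → x ∈ B₁) (hroot₂ : ∀ x : F, x ^ m ∈ B₂ → x ∈ B₂)
    (hbar₁ : ∀ x ∈ V, (∃ b ∈ B₁, (algebraMap R F π)⁻¹ * (x ^ m - b) ∈ V) →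
      ∃ b ∈ B₁, (algebraMap R F π)⁻¹ * (x - b) ∈ V)
    (hbar₂ : ∀ x ∈ V, (∃ b ∈ B₂, (algebraMap R F π)⁻¹ * (x ^ m - b) ∈ V) →
      ∃ b ∈ B₂, (algebraMap R F π)⁻¹ * (x - b) ∈ V)
    (u : F) (hu : (algebraMap R F π)⁻¹ * (u - 1) ∈ V)
    (hLP₁ : ∀ n : Ideal B₁, n.IsMaximal → algebraMap R B₁ π ∈ n →
      ∃ f : F, ∃ hf : f ^ m * u ∈ B₁, (⟨f ^ m * u, hf⟩ : B₁) ∉ n)
    (hLP₂ : ∀ n : Ideal B₂, n.IsMaximal → algebraMap R B₂ π ∈ n →
      ∃ f : F, ∃ hf : f ^ m * u ∈ B₂, (⟨f ^ m * u, hf⟩ : B₂) ∉ n)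
    (h : F) (hh0 : h ≠ 0) (hh₁ : h ∈ B₁) (hh₂ : h⁻¹ ∈ B₂)
    (hloc₁ : ∀ x ∈ B₁₂, ∃ k : ℕ, h ^ k * x ∈ B₁)
    (hloc₂ : ∀ x ∈ B₁₂, ∃ k : ℕ, h⁻¹ ^ k * x ∈ B₂)
    (hfin : ∃ G : Finset F, ∀ x ∈ B₁,
      x ∈ Submodule.span (Algebra.adjoin R ({h} : Set F)) (G : Set F))
    (hfrac : ∃ a ∈ B₁, ∃ b ∈ B₁, a ≠ 0 ∧ u * b = a) :
    ∃ f₀ : F, f₀ ^ m * u ∈ B₁ ∧ f₀ ^ m * u ∈ B₂ ∧ (algebraMap R F π)⁻¹ * (f₀ - 1) ∈ V := by
  classical
  obtain ⟨μr, hμr⟩ := hm.exists_right_inv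
  have hμ : (m : F) * algebraMap R F μr = 1 := by
    have := congrArg (algebraMap R F) hμr
    simpa [map_mul, map_natCast] using this
  have hpB₁ : algebraMap R F π ∈ B₁ := B₁.algebraMap_mem π
  have hpB₂ : algebraMap R F π ∈ B₂ := B₂.algebraMap_mem π
  have h1V : ∀ x ∈ B₁, x ∈ V := fun x hx => h12V x (h112 hx)
  have h2V : ∀ x ∈ B₂, x ∈ V := fun x hx => h12V x (h212 hx)
  have huV : u ∈ V := tc_mem_of_cong_one V _ hπ0 hπV u hu
  have huinv : u⁻¹ ∈ V := tc_inv_mem_of_cong_one V _ hπ0 hπV u hu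
  have hu0 : u ≠ 0 := tc_ne_zero_of_cong_one V _ hπ0 hπV u hu
  have hroot₁₂ : ∀ x : F, x ^ m ∈ B₁₂ → x ∈ B₁₂ := by
    intro x hx
    obtain ⟨k, hk⟩ := hloc₁ _ hx
    have h1 : h ^ k * x ∈ B₁ := by
      apply hroot₁
      obtain ⟨d, rfl⟩ : ∃ d, m = d + 1 := ⟨m - 1, by omega⟩
      have : (h ^ k * x) ^ (d + 1) = h ^ (k * d) * (h ^ k * x ^ (d + 1)) := by
        rw [mul_pow, ← pow_mul, Nat.mul_succ, pow_add]; ring
      rw [this]; exact B₁.mul_mem (B₁.pow_mem hh₁ _) hk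
    have : x = h⁻¹ ^ k * (h ^ k * x) := by
      rw [← mul_assoc, ← mul_pow, inv_mul_cancel₀ hh0, one_pow, one_mul]
    rw [this]
    exact B₁₂.mul_mem (B₁₂.pow_mem (h212 hh₂) k) (h112 h1)
  obtain ⟨W, hWfg, hW⟩ := tcI_decomp m hm0 u B₁ B₂ B₁₂ hroot₁ hroot₂ h112 h hh0 hh₁ hh₂
    hloc₁ hloc₂ hfin hfrac
  obtain ⟨c, hc⟩ := tc_torsion_bound π
    (tcIsub m hm0 u B₁ hroot₁ ⊔ tcIsub m hm0 u B₂ hroot₂) W hWfg
  obtain ⟨f₁, hf₁, hf₁1⟩ := tc_exists_one m hm0 V _ hπ0 hπV B₁ hpB₁ h1V hsat₁ hroot₁ hbar₁ u hu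
    hLP₁
  obtain ⟨f₂, hf₂, hf₂1⟩ := tc_exists_one m hm0 V _ hπ0 hπV B₂ hpB₂ h2V hsat₂ hroot₂ hbar₂ u hu
    hLP₂
  obtain ⟨e₁, he₁1, b₁, hb₁, he₁⟩ := tc_hensel m V _ hπ0 hπV B₁ hpB₁ h1V hsat₁ u hu _
    (B₁.algebraMap_mem μr) hμ f₁ hf₁ hf₁1 c
  obtain ⟨e₂, he₂1, b₂, hb₂, he₂⟩ := tc_hensel m V _ hπ0 hπV B₂ hpB₂ h2V hsat₂ u hu _
    (B₂.algebraMap_mem μr) hμ f₂ hf₂ hf₂1 c
  have he₁I : e₁ ∈ tcI m u B₁ := by
    rw [tcI_def, he₁]
    exact B₁.add_mem B₁.one_mem (B₁.mul_mem (B₁.pow_mem hpB₁ _) hb₁)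
  have he₂I : e₂ ∈ tcI m u B₂ := by
    rw [tcI_def, he₂]
    exact B₂.add_mem B₂.one_mem (B₂.mul_mem (B₂.pow_mem hpB₂ _) hb₂)
  have hdV : ((algebraMap R F π)⁻¹) ^ (c + 1) * (e₂ - e₁) ∈ V :=
    tc_diff_mem m V _ hπ0 hπV _ (hRV μr) hμ u hu e₁ e₂ b₁ b₂ he₁1 he₂1 (h1V _ hb₁)
      (h2V _ hb₂) (c + 1) he₁ he₂
  have hd12 : e₂ - e₁ ∈ tcI m u B₁₂ := by
    rw [sub_eq_add_neg]
    exact tcI_add m u B₁₂ hroot₁₂ _ _ (tcI_mono m u h212 he₂I)
      (tcI_neg m u B₁₂ _ (tcI_mono m u h112 he₁I))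
  have hxI : ((algebraMap R F π)⁻¹) ^ (c + 1) * (e₂ - e₁) ∈ tcI m u B₁₂ :=
    tcI_sat m V _ hπV hπ0 B₁₂ hsat₁₂ u huV (c + 1) _ hd12 hdV
  have hxsup := hW _ hxI
  have hpow : π ^ (c + 1) • (((algebraMap R F π)⁻¹) ^ (c + 1) * (e₂ - e₁)) = e₂ - e₁ := by
    rw [Algebra.smul_def, map_pow, ← mul_assoc, ← mul_pow, mul_inv_cancel₀ hπ0, one_pow,
      one_mul]
  have hmem : π ^ (c + 1) • (((algebraMap R F π)⁻¹) ^ (c + 1) * (e₂ - e₁))
      ∈ tcIsub m hm0 u B₁ hroot₁ ⊔ tcIsub m hm0 u B₂ hroot₂ := by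
    rw [hpow, sub_eq_add_neg, add_comm]
    exact Submodule.add_mem_sup (tcI_neg m u B₁ _ he₁I) he₂I
  have hcx := hc _ hxsup (c + 1) hmem
  obtain ⟨a₁, ha₁, a₂, ha₂, hsum⟩ := Submodule.mem_sup.mp hcx
  have ha₁I : a₁ ∈ tcI m u B₁ := ha₁
  have ha₂I : a₂ ∈ tcI m u B₂ := ha₂
  have hkey : e₂ - e₁ = algebraMap R F π * a₁ + algebraMap R F π * a₂ := by
    have hpp : (algebraMap R F π) ^ c * ((algebraMap R F π)⁻¹) ^ c = 1 := by
      rw [← mul_pow, mul_inv_cancel₀ hπ0, one_pow]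
    have h1 : π ^ c • (((algebraMap R F π)⁻¹) ^ (c + 1) * (e₂ - e₁))
        = (algebraMap R F π)⁻¹ * (e₂ - e₁) := by
      rw [Algebra.smul_def, map_pow, pow_succ]
      calc (algebraMap R F π) ^ c * (((algebraMap R F π)⁻¹) ^ c * (algebraMap R F π)⁻¹
            * (e₂ - e₁))
          = ((algebraMap R F π) ^ c * ((algebraMap R F π)⁻¹) ^ c)
            * ((algebraMap R F π)⁻¹ * (e₂ - e₁)) := by ring
        _ = (algebraMap R F π)⁻¹ * (e₂ - e₁) := by rw [hpp, one_mul]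
    rw [h1] at hsum
    calc e₂ - e₁ = algebraMap R F π * ((algebraMap R F π)⁻¹ * (e₂ - e₁)) := by
          rw [← mul_assoc, mul_inv_cancel₀ hπ0, one_mul]
      _ = algebraMap R F π * (a₁ + a₂) := by rw [hsum]
      _ = algebraMap R F π * a₁ + algebraMap R F π * a₂ := mul_add _ _ _
  refine ⟨e₁ + algebraMap R F π * a₁, ?_, ?_, ?_⟩
  · exact tcI_add m u B₁ hroot₁ _ _ he₁I (tcI_mul m u B₁ _ a₁ hpB₁ ha₁I)
  · have h1 : e₁ + algebraMap R F π * a₁ = e₂ + (-algebraMap R F π) * a₂ := by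
      linear_combination -hkey
    rw [h1]
    exact tcI_add m u B₂ hroot₂ _ _ he₂I (tcI_mul m u B₂ _ a₂ (B₂.neg_mem hpB₂) ha₂I)
  · have ha₁V : a₁ ∈ V := tcI_subset_V m hm0 V u huinv hu0 B₁ h1V a₁ ha₁I
    have h1 : (algebraMap R F π)⁻¹ * (e₁ + algebraMap R F π * a₁ - 1)
        = (algebraMap R F π)⁻¹ * (e₁ - 1) + a₁ := by
      calc (algebraMap R F π)⁻¹ * (e₁ + algebraMap R F π * a₁ - 1)
          = (algebraMap R F π)⁻¹ * (e₁ - 1)
            + ((algebraMap R F π)⁻¹ * algebraMap R F π) * a₁ := by ring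
        _ = (algebraMap R F π)⁻¹ * (e₁ - 1) + a₁ := by rw [inv_mul_cancel₀ hπ0, one_mul]
    rw [h1]; exact V.add_mem _ _ he₁1 ha₁V

end twisted

end Fermat.Agent.S18
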