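import Mathlib
import Fermat.Agent.S18.LPGlueMain7
import Fermat.Agent.S18.TwoChart
import Fermat.Prelude.Def_AlgebraicCurve_DivisorClassGroup

/-!
# S18: the two-chart lemma for charts with Dedekind special fibres (helper7)

`lp7_tc_main` = `tc_main` (TwoChart.lean) with the hypotheses `hbar₁ hbar₂ hLP₁ hLP₂` replaced by
"`Bᵢ` noetherian, `Bᵢ / π` Dedekind", `m_V = π V`, `F = Frac B₁` and ONE hypothesis `hord`, the
valuation-subring form of `m ∣ ord_P u` for the places `P` of `F` over `K = Frac R`.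

`lp7_hord_of_place` / `lp7_hord_of_place_dvr` produce `hord` from the Prelude `Place` form.
-/

set_option autoImplicit false

namespace Fermat.Agent.S18

section Wrapper

variable {R F : Type*} [CommRing R] [Field F] [Algebra R F]

/-- **Two-chart lemma, Dedekind-fibre form.** -/
theorem lp7_tc_main [IsNoetherianRing R]
    (π : R) (m : ℕ) (hm0 : 0 < m) (hm : IsUnit (m : R))
    (V : ValuationSubring F) (hRV : ∀ r : R, algebraMap R F r ∈ V)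
    (hπ0 : algebraMap R F π ≠ 0) (hπV : (algebraMap R F π)⁻¹ ∉ V)
    (hmax : ∀ x ∈ V, x⁻¹ ∉ V → (algebraMap R F π)⁻¹ * x ∈ V)
    (B₁ B₂ B₁₂ : Subalgebra R F) (h112 : B₁ ≤ B₁₂) (h212 : B₂ ≤ B₁₂)
    (h12V : ∀ x ∈ B₁₂, x ∈ V)
    (hsat₁ : ∀ x ∈ B₁, (algebraMap R F π)⁻¹ * x ∈ V → (algebraMap R F π)⁻¹ * x ∈ B₁)
    (hsat₂ : ∀ x ∈ B₂, (algebraMap R F π)⁻¹ * x ∈ V → (algebraMap R F π)⁻¹ * x ∈ B₂)
    (hsat₁₂ : ∀ x ∈ B₁₂, (algebraMap R F π)⁻¹ * x ∈ V → (algebraMap R F π)⁻¹ * x ∈ B₁₂)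
    (hroot₁ : ∀ x : F, x ^ m ∈ B₁ → x ∈ B₁) (hroot₂ : ∀ x : F, x ^ m ∈ B₂ → x ∈ B₂)
    [IsNoetherianRing B₁] [IsNoetherianRing B₂]
    [IsDedekindDomain (B₁ ⧸ Ideal.span {algebraMap R B₁ π})]
    [IsDedekindDomain (B₂ ⧸ Ideal.span {algebraMap R B₂ π})]
    (u : F) (hu : (algebraMap R F π)⁻¹ * (u - 1) ∈ V)
    (hord : ∀ O : ValuationSubring F, O ≠ ⊤ → IsPrincipalIdealRing O →
      (∀ r : R, algebraMap R F r ∈ O) → (algebraMap R F π)⁻¹ ∈ O →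
      ∃ ε w : F, ε ∈ O ∧ ε⁻¹ ∈ O ∧ u = ε * w ^ m)
    (h : F) (hh0 : h ≠ 0) (hh₁ : h ∈ B₁) (hh₂ : h⁻¹ ∈ B₂)
    (hloc₁ : ∀ x ∈ B₁₂, ∃ k : ℕ, h ^ k * x ∈ B₁)
    (hloc₂ : ∀ x ∈ B₁₂, ∃ k : ℕ, h⁻¹ ^ k * x ∈ B₂)
    (hfin : ∃ G : Finset F, ∀ x ∈ B₁,
      x ∈ Submodule.span (Algebra.adjoin R ({h} : Set F)) (G : Set F))
    (hfrac : ∀ x : F, ∃ a ∈ B₁, ∃ b ∈ B₁, b ≠ 0 ∧ x * b = a) :
    ∃ f₀ : F, f₀ ^ m * u ∈ B₁ ∧ f₀ ^ m * u ∈ B₂ ∧ (algebraMap R F π)⁻¹ * (f₀ - 1) ∈ V := by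
  have hB₁V : ∀ x ∈ B₁, x ∈ V := fun x hx => h12V x (h112 hx)
  have hB₂V : ∀ x ∈ B₂, x ∈ V := fun x hx => h12V x (h212 hx)
  have hfrac₂ : ∀ x : F, ∃ a ∈ B₂, ∃ b ∈ B₂, b ≠ 0 ∧ x * b = a := by
    intro x
    obtain ⟨a, ha, b, hb, hb0, hab⟩ := hfrac x
    obtain ⟨k, hk⟩ := hloc₂ a (h112 ha)
    obtain ⟨l, hl⟩ := hloc₂ b (h112 hb)
    refine ⟨h⁻¹ ^ (k + l) * a, ?_, h⁻¹ ^ (k + l) * b, ?_, ?_, ?_⟩
    · have : h⁻¹ ^ (k + l) * a = h⁻¹ ^ l * (h⁻¹ ^ k * a) := by rw [pow_add]; ring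
      rw [this]; exact B₂.mul_mem (B₂.pow_mem hh₂ _) hk
    · have : h⁻¹ ^ (k + l) * b = h⁻¹ ^ k * (h⁻¹ ^ l * b) := by rw [pow_add]; ring
      rw [this]; exact B₂.mul_mem (B₂.pow_mem hh₂ _) hl
    · exact mul_ne_zero (pow_ne_zero _ (inv_ne_zero hh0)) hb0
    · rw [← hab]; ring
  obtain ⟨hu0, -, -⟩ := lp7_unit_of_one_add _ hπ0 V hπV hmax u hu
  refine tc_main π m hm0 hm V hRV hπ0 hπV B₁ B₂ B₁₂ h112 h212 h12V hsat₁ hsat₂ hsat₁₂ hroot₁ hroot₂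
    (lp7_nbar π B₁ V hB₁V hπ0 hπV hmax hsat₁ hfrac m hm0)
    (lp7_nbar π B₂ V hB₂V hπ0 hπV hmax hsat₂ hfrac₂ m hm0)
    u hu
    (lp7_LP π B₁ V hB₁V hπ0 hπV hmax hsat₁ m hm0 hroot₁ hfrac u hu
      (fun O h1 h2 h3 h4 => hord O h1 h2 (fun r => h3 _ (B₁.algebraMap_mem r)) h4))
    (lp7_LP π B₂ V hB₂V hπ0 hπV hmax hsat₂ m hm0 hroot₂ hfrac₂ u hu
      (fun O h1 h2 h3 h4 => hord O h1 h2 (fun r => h3 _ (B₂.algebraMap_mem r)) h4))
    h hh0 hh₁ hh₂ hloc₁ hloc₂ hfin ?_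
  obtain ⟨a, ha, b, hb, hb0, hab⟩ := hfrac u
  exact ⟨a, ha, b, hb, by rw [← hab]; exact mul_ne_zero hu0 hb0, hab⟩

end Wrapper

section PlaceForm

open AlgebraicCurve

/-- `m ∣ ord_P u` gives `u = ε * w ^ m` with `ε` a unit of the valuation ring of `P`. -/
theorem lp7_place_factor {K F : Type*} [Field K] [Field F] [Algebra K F] (P : Place K F)
    (u : F) (hu0 : u ≠ 0) (m : ℕ) (h : (m : ℤ) ∣ P.ord u) :
    ∃ ε w : F, ε ∈ P.toValuationSubring ∧ ε⁻¹ ∈ P.toValuationSubring ∧ u = ε * w ^ m := by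
  obtain ⟨ϖ, hϖ⟩ := IsDiscreteValuationRing.exists_irreducible P.toValuationSubring
  obtain ⟨e, he⟩ := P.exists_unit_mul_zpow hu0 hϖ
  obtain ⟨k, hk⟩ := h
  refine ⟨((e : P.toValuationSubring) : F), (ϖ : F) ^ k, (e : P.toValuationSubring).2, ?_, ?_⟩
  · have h1 : ((e : P.toValuationSubring) : F) *
        (((e⁻¹ : P.toValuationSubringˣ) : P.toValuationSubring) : F) = 1 := by
      have h0 : (e : P.toValuationSubring) * ((e⁻¹ : P.toValuationSubringˣ) : P.toValuationSubring)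
          = 1 := e.mul_inv
      have := congrArg (Subtype.val : P.toValuationSubring → F) h0
      rw [MulMemClass.coe_mul] at this
      exact this
    have h2 : ((e : P.toValuationSubring) : F)⁻¹ =
        (((e⁻¹ : P.toValuationSubringˣ) : P.toValuationSubring) : F) :=
      inv_eq_of_mul_eq_one_right h1
    rw [h2]
    exact ((e⁻¹ : P.toValuationSubringˣ) : P.toValuationSubring).2
  · conv_lhs => rw [he, hk]
    rw [mul_comm (m : ℤ) k, zpow_mul, zpow_natCast]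

/-- The valuation-subring form of `m ∣ ord_P u` from the Prelude `Place` form. -/
theorem lp7_hord_of_place {K F : Type*} [Field K] [Field F] [Algebra K F] (u : F) (hu0 : u ≠ 0)
    (m : ℕ) (h : ∀ P : Place K F, (m : ℤ) ∣ P.ord u) :
    ∀ O : ValuationSubring F, O ≠ ⊤ → IsPrincipalIdealRing O → (∀ a : K, algebraMap K F a ∈ O) →
      ∃ ε w : F, ε ∈ O ∧ ε⁻¹ ∈ O ∧ u = ε * w ^ m :=
  fun O hO hPIR hK => lp7_place_factor (⟨O, hK, hO, hPIR⟩ : Place K F) u hu0 m (h _)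

/-- Same, over a discrete valuation ring `R` with fraction field `K`: the valuation subrings
containing `R` and `π⁻¹` contain `K`. -/
theorem lp7_hord_of_place_dvr {R K F : Type*} [CommRing R] [IsDomain R]
    [IsDiscreteValuationRing R] [Field K] [Algebra R K] [IsFractionRing R K] [Field F]
    [Algebra R F] [Algebra K F] [IsScalarTower R K F] (π : R) (hπ : Irreducible π)
    (u : F) (hu0 : u ≠ 0) (m : ℕ) (h : ∀ P : Place K F, (m : ℤ) ∣ P.ord u) :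
    ∀ O : ValuationSubring F, O ≠ ⊤ → IsPrincipalIdealRing O →
      (∀ r : R, algebraMap R F r ∈ O) → (algebraMap R F π)⁻¹ ∈ O →
      ∃ ε w : F, ε ∈ O ∧ ε⁻¹ ∈ O ∧ u = ε * w ^ m := by
  intro O hO hPIR hR hπO
  refine lp7_hord_of_place u hu0 m h O hO hPIR ?_
  intro a
  obtain ⟨r, s, hs, rfl⟩ := IsFractionRing.div_surjective (A := R) a
  have hs0 : s ≠ 0 := nonZeroDivisors.ne_zero hs
  obtain ⟨n, e, rfl⟩ := IsDiscreteValuationRing.eq_unit_mul_pow_irreducible hs0 hπ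
  have h1 : algebraMap K F (algebraMap R K r / algebraMap R K (↑e * π ^ n)) =
      algebraMap R F r * (algebraMap R F ((e⁻¹ : Rˣ) : R) * ((algebraMap R F π)⁻¹) ^ n) := by
    rw [map_div₀, ← IsScalarTower.algebraMap_apply, ← IsScalarTower.algebraMap_apply, map_mul,
      map_pow]
    have he : algebraMap R F (e : R) * algebraMap R F ((e⁻¹ : Rˣ) : R) = 1 := by
      rw [← map_mul, Units.mul_inv, map_one]
    rw [eq_inv_of_mul_eq_one_right he, div_eq_mul_inv, mul_inv, inv_pow]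
  rw [h1]
  exact O.mul_mem _ _ (hR r) (O.mul_mem _ _ (hR _) (pow_mem hπO n))

end PlaceForm

end Fermat.Agent.S18
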