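import Mathlib
import Fermat.Agent.S18.TwoChart
import Fermat.Agent.S18.LPTwoChart7
import Fermat.Agent.S18.ConstCap87

/-!
# S18 — abstract chart package ⟹ statement (**)  (twin of B5-pack / C1 layer L1)

The three charts are the integral closures of `R[h]`, `R[h⁻¹]`, `R[h, h⁻¹]` in `F`, as
`R`-subalgebras (`pk15_chart`).  From the Gauss valuation ring `V`, saturation of the charts,
Dedekind special fibres and the divisibility of all orders of `u` by `m`, we get
`u = c · f₀^(-m)` with `c ∈ R` (`pk15_star`).  All structural hypotheses of `tc_main` that hold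
for integral closures in general (`h112`, `h212`, `h12V`, `hroot`, `hloc₁`, `hloc₂`, `hcap`)
are proved here.
-/

namespace Fermat.Agent.S18

open Polynomial

section chart

variable (R : Type*) [CommRing R] {F : Type*} [Field F] [Algebra R F]

/-- The chart attached to a set `s ⊆ F`: the integral closure of `R[s]` in `F`, as an
`R`-subalgebra of `F`. -/
def pk15_chart (s : Set F) : Subalgebra R F :=
  (integralClosure (Algebra.adjoin R s) F).restrictScalars R

variable {R}

theorem pk15_mem_chart (s : Set F) (x : F) :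
    x ∈ pk15_chart R s ↔ IsIntegral (Algebra.adjoin R s) x := Iff.rfl

/-- integrality goes up along an inclusion of subalgebras. -/
theorem pk15_isIntegral_mono {S T : Subalgebra R F} (hST : S ≤ T) {x : F}
    (hx : IsIntegral S x) : IsIntegral T x := by
  obtain ⟨p, hp, hpx⟩ := hx
  refine ⟨p.map (Subalgebra.inclusion hST).toRingHom, hp.map _, ?_⟩
  rw [eval₂_map]
  exact hpx

theorem pk15_chart_mono {s t : Set F} (hst : s ⊆ t) : pk15_chart R s ≤ pk15_chart R t :=
  fun _ hx => pk15_isIntegral_mono (Algebra.adjoin_mono hst) hx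

theorem pk15_subset_chart (s : Set F) {x : F} (hx : x ∈ s) : x ∈ pk15_chart R s := by
  rw [pk15_mem_chart]
  have h1 : x ∈ Algebra.adjoin R s := Algebra.subset_adjoin hx
  exact isIntegral_algebraMap (R := Algebra.adjoin R s) (x := ⟨x, h1⟩)

/-- a chart generated by elements of a valuation subring `V ⊇ R` lies in `V`. -/
theorem pk15_chart_le_V (V : ValuationSubring F) (hRV : ∀ r : R, algebraMap R F r ∈ V)
    (s : Set F) (hs : ∀ g ∈ s, g ∈ V) : ∀ x ∈ pk15_chart R s, x ∈ V := by
  intro x hx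
  rw [pk15_mem_chart] at hx
  have hSV : ∀ y ∈ Algebra.adjoin R s, y ∈ V := by
    intro y hy
    induction hy using Algebra.adjoin_induction with
    | mem y hy => exact hs y hy
    | algebraMap r => exact hRV r
    | add a b _ _ ha hb => exact V.add_mem _ _ ha hb
    | mul a b _ _ ha hb => exact V.mul_mem _ _ ha hb
  obtain ⟨p, hp, hpx⟩ := hx
  let ι : Algebra.adjoin R s →+* V :=
    { toFun := fun y => ⟨y, hSV y y.2⟩
      map_one' := rfl
      map_mul' := fun _ _ => rfl
      map_zero' := rfl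
      map_add' := fun _ _ => rfl }
  have hint : IsIntegral V x := by
    refine ⟨p.map ι, hp.map _, ?_⟩
    rw [eval₂_map]
    exact hpx
  obtain ⟨y, hy⟩ := IsIntegrallyClosed.isIntegral_iff.mp hint
  rw [← hy]
  exact y.2

theorem pk15_chart_root (s : Set F) (m : ℕ) (hm0 : 0 < m) (x : F)
    (hx : x ^ m ∈ pk15_chart R s) : x ∈ pk15_chart R s :=
  IsIntegral.of_pow hm0 hx

/-- clearing denominators in an integral equation: if `t ∈ S ≤ T`, every element of `T` is
pushed into `S` by a power of `t`, and `x` is integral over `T`, then some `t^k x` is integral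
over `S`. -/
theorem pk15_scale {S T : Subalgebra R F} (hST : S ≤ T) (t : F) (ht : t ∈ S)
    (hloc : ∀ a ∈ T, ∃ k : ℕ, t ^ k * a ∈ S) {x : F} (hx : IsIntegral T x) :
    ∃ k : ℕ, IsIntegral S (t ^ k * x) := by
  classical
  obtain ⟨p, hp, hpx⟩ := hx
  choose! kf hkf using hloc
  -- a uniform exponent for all coefficients
  obtain ⟨K, hK⟩ : ∃ K : ℕ, ∀ i, t ^ K * ((p.coeff i : T) : F) ∈ S := by
    refine ⟨(Finset.range (p.natDegree + 1)).sup (fun i => kf ((p.coeff i : T) : F)), ?_⟩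
    intro i
    by_cases hi : i ≤ p.natDegree
    · have hle : kf ((p.coeff i : T) : F)
          ≤ (Finset.range (p.natDegree + 1)).sup (fun i => kf ((p.coeff i : T) : F)) :=
        Finset.le_sup (f := fun i => kf ((p.coeff i : T) : F))
          (Finset.mem_range.mpr (Nat.lt_succ_of_le hi))
      obtain ⟨d, hd⟩ := Nat.exists_eq_add_of_le hle
      rw [hd, pow_add, mul_comm (t ^ _) (t ^ d), mul_assoc]
      exact S.mul_mem (S.pow_mem ht d) (hkf _ (p.coeff i).2)
    · rw [coeff_eq_zero_of_natDegree_lt (not_le.mp hi)]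
      simp only [ZeroMemClass.coe_zero, mul_zero]
      exact S.zero_mem
  refine ⟨K, ?_⟩
  have htT : t ^ K ∈ T := hST (S.pow_mem ht K)
  -- the scaled polynomial over `T`
  have hq_monic : (scaleRoots p (⟨t ^ K, htT⟩ : T)).Monic := (monic_scaleRoots_iff _).mpr hp
  have hq_eval : (scaleRoots p (⟨t ^ K, htT⟩ : T)).eval₂ (algebraMap T F) (t ^ K * x) = 0 := by
    have := scaleRoots_eval₂_mul (p := p) (algebraMap T F) (r := x) (s := (⟨t ^ K, htT⟩ : T))
    rw [show algebraMap T F ⟨t ^ K, htT⟩ = t ^ K from rfl, hpx, mul_zero] at this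
    exact this
  -- its coefficients lie in `S`
  have hlift : scaleRoots p (⟨t ^ K, htT⟩ : T) ∈ lifts (Subalgebra.inclusion hST).toRingHom := by
    rw [lifts_iff_coeff_lifts]
    intro i
    rw [coeff_scaleRoots]
    have hmem : ((p.coeff i * (⟨t ^ K, htT⟩ : T) ^ (p.natDegree - i) : T) : F) ∈ S := by
      rcases lt_trichotomy i p.natDegree with hi | hi | hi
      · obtain ⟨d, hd⟩ : ∃ d, p.natDegree - i = d + 1 := ⟨p.natDegree - i - 1, by omega⟩
        rw [hd]
        have : ((p.coeff i * (⟨t ^ K, htT⟩ : T) ^ (d + 1) : T) : F)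
            = (t ^ K) ^ d * (t ^ K * ((p.coeff i : T) : F)) := by
          push_cast; ring
        rw [this]
        exact S.mul_mem (S.pow_mem (S.pow_mem ht K) d) (hK i)
      · rw [hi, Nat.sub_self, pow_zero, mul_one]
        have h1 : p.coeff p.natDegree = 1 := hp.coeff_natDegree
        rw [h1]
        exact S.one_mem
      · rw [coeff_eq_zero_of_natDegree_lt hi, zero_mul]
        exact S.zero_mem
    exact ⟨⟨_, hmem⟩, Subtype.ext rfl⟩
  obtain ⟨q, hq, -, hqm⟩ := lifts_and_natDegree_eq_and_monic hlift hq_monic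
  refine ⟨q, hqm, ?_⟩
  have h2 := hq_eval
  rw [← hq, eval₂_map] at h2
  exact h2

/-- `R[h, h⁻¹] = R[h][1/h]`. -/
theorem pk15_adjoin_loc (h : F) (hh0 : h ≠ 0) :
    ∀ a ∈ Algebra.adjoin R ({h, h⁻¹} : Set F), ∃ k : ℕ, h ^ k * a ∈ Algebra.adjoin R ({h} : Set F) := by
  intro a ha
  have hhS : h ∈ Algebra.adjoin R ({h} : Set F) := Algebra.subset_adjoin (Set.mem_singleton h)
  induction ha using Algebra.adjoin_induction with
  | mem y hy =>
    rcases hy with rfl | hy
    · exact ⟨0, by rw [pow_zero, one_mul]; exact hhS⟩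
    · rw [Set.mem_singleton_iff] at hy
      subst hy
      exact ⟨1, by rw [pow_one, mul_inv_cancel₀ hh0]; exact Subalgebra.one_mem _⟩
  | algebraMap r => exact ⟨0, by rw [pow_zero, one_mul]; exact Subalgebra.algebraMap_mem _ r⟩
  | add a b _ _ ha hb =>
    obtain ⟨k, hk⟩ := ha
    obtain ⟨l, hl⟩ := hb
    refine ⟨k + l, ?_⟩
    have : h ^ (k + l) * (a + b) = h ^ l * (h ^ k * a) + h ^ k * (h ^ l * b) := by
      rw [pow_add]; ring
    rw [this]
    exact Subalgebra.add_mem _ (Subalgebra.mul_mem _ (Subalgebra.pow_mem _ hhS l) hk)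
      (Subalgebra.mul_mem _ (Subalgebra.pow_mem _ hhS k) hl)
  | mul a b _ _ ha hb =>
    obtain ⟨k, hk⟩ := ha
    obtain ⟨l, hl⟩ := hb
    refine ⟨k + l, ?_⟩
    have : h ^ (k + l) * (a * b) = (h ^ k * a) * (h ^ l * b) := by rw [pow_add]; ring
    rw [this]
    exact Subalgebra.mul_mem _ hk hl

/-- `hloc₁` of `tc_main` for the charts. -/
theorem pk15_chart_loc (h : F) (hh0 : h ≠ 0) :
    ∀ x ∈ pk15_chart R ({h, h⁻¹} : Set F), ∃ k : ℕ, h ^ k * x ∈ pk15_chart R ({h} : Set F) := by
  intro x hx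
  exact pk15_scale (Algebra.adjoin_mono (by simp)) h
    (Algebra.subset_adjoin (Set.mem_singleton h)) (pk15_adjoin_loc h hh0) hx

/-- `hloc₂` of `tc_main` for the charts. -/
theorem pk15_chart_loc' (h : F) (hh0 : h ≠ 0) :
    ∀ x ∈ pk15_chart R ({h, h⁻¹} : Set F),
      ∃ k : ℕ, h⁻¹ ^ k * x ∈ pk15_chart R ({h⁻¹} : Set F) := by
  intro x hx
  have hset : ({h, h⁻¹} : Set F) = {h⁻¹, h⁻¹⁻¹} := by
    rw [inv_inv]; exact Set.pair_comm _ _
  rw [hset] at hx
  exact pk15_chart_loc h⁻¹ (inv_ne_zero hh0) x hx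

end chart

section star

variable {R K F : Type*} [CommRing R] [IsDomain R] [IsDiscreteValuationRing R]
  [Field K] [Algebra R K] [IsFractionRing R K]
  [Field F] [Algebra R F] [Algebra K F] [IsScalarTower R K F]

/-- `hcap`: the charts at `h` and at `h⁻¹` only share the constants of `R`. -/
theorem pk15_chart_cap (hK : ∀ y : F, IsAlgebraic K y → ∃ c : K, y = algebraMap K F c)
    (h : F) (hh : Transcendental K h) (x : F)
    (h1 : x ∈ pk15_chart R ({h} : Set F)) (h2 : x ∈ pk15_chart R ({h⁻¹} : Set F)) :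
    ∃ r : R, x = algebraMap R F r :=
  cap87_const_of_isIntegrallyClosed hK h hh x h1 h2

/-- **Abstract statement (**)** for the chart package: `R` a discrete valuation ring with
uniformiser `π` and fraction field `K`, `F ⊇ K` a field in which `K` is algebraically closed,
`h ∈ F` transcendental, `V` a valuation subring of `F` with `m_V = π V` containing `R`, `h`,
`h⁻¹`; the three charts are saturated w.r.t. `V`, the two affine charts are noetherian with
Dedekind special fibre, `B₁` is finite over `R[h]` with fraction field `F`.  Then every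
`u ≡ 1 mod π V` all of whose orders (at the places of `F/K`) are divisible by `m` (a unit of
`R`) is `c · f₀^(-m)` with `c ∈ R`. -/
theorem pk15_star (π : R) (hπ : Irreducible π) (m : ℕ) (hm0 : 0 < m) (hm : IsUnit (m : R))
    (hK : ∀ y : F, IsAlgebraic K y → ∃ c : K, y = algebraMap K F c)
    (h : F) (hh : Transcendental K h)
    (V : ValuationSubring F) (hRV : ∀ r : R, algebraMap R F r ∈ V)
    (hπ0 : algebraMap R F π ≠ 0) (hπV : (algebraMap R F π)⁻¹ ∉ V)
    (hmax : ∀ x ∈ V, x⁻¹ ∉ V → (algebraMap R F π)⁻¹ * x ∈ V)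
    (hhV : h ∈ V) (hhV' : h⁻¹ ∈ V)
    (hsat₁ : ∀ x ∈ pk15_chart R ({h} : Set F), (algebraMap R F π)⁻¹ * x ∈ V →
      (algebraMap R F π)⁻¹ * x ∈ pk15_chart R ({h} : Set F))
    (hsat₂ : ∀ x ∈ pk15_chart R ({h⁻¹} : Set F), (algebraMap R F π)⁻¹ * x ∈ V →
      (algebraMap R F π)⁻¹ * x ∈ pk15_chart R ({h⁻¹} : Set F))
    (hsat₁₂ : ∀ x ∈ pk15_chart R ({h, h⁻¹} : Set F), (algebraMap R F π)⁻¹ * x ∈ V →
      (algebraMap R F π)⁻¹ * x ∈ pk15_chart R ({h, h⁻¹} : Set F))
    [IsNoetherianRing (pk15_chart R ({h} : Set F))]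
    [IsNoetherianRing (pk15_chart R ({h⁻¹} : Set F))]
    [IsDedekindDomain (pk15_chart R ({h} : Set F) ⧸
      Ideal.span {algebraMap R (pk15_chart R ({h} : Set F)) π})]
    [IsDedekindDomain (pk15_chart R ({h⁻¹} : Set F) ⧸
      Ideal.span {algebraMap R (pk15_chart R ({h⁻¹} : Set F)) π})]
    (hfin : ∃ G : Finset F, ∀ x ∈ pk15_chart R ({h} : Set F),
      x ∈ Submodule.span (Algebra.adjoin R ({h} : Set F)) (G : Set F))
    (hfrac : ∀ x : F, ∃ a ∈ pk15_chart R ({h} : Set F), ∃ b ∈ pk15_chart R ({h} : Set F),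
      b ≠ 0 ∧ x * b = a)
    (u : F) (hu : (algebraMap R F π)⁻¹ * (u - 1) ∈ V)
    (hord : ∀ P : AlgebraicCurve.Place K F, (m : ℤ) ∣ P.ord u) :
    ∃ (f₀ : F) (c : R), f₀ ≠ 0 ∧ f₀ ^ m * u = algebraMap R F c := by
  have hh0 : h ≠ 0 := cap87_ne_zero h hh
  have hu0 : u ≠ 0 := tc_ne_zero_of_cong_one V _ hπ0 hπV u hu
  have hord' := lp7_hord_of_place_dvr (K := K) π hπ u hu0 m hord
  obtain ⟨f₀, hf₁, hf₂, hf₀⟩ := lp7_tc_main π m hm0 hm V hRV hπ0 hπV hmax
    (pk15_chart R ({h} : Set F)) (pk15_chart R ({h⁻¹} : Set F))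
    (pk15_chart R ({h, h⁻¹} : Set F))
    (pk15_chart_mono (by simp)) (pk15_chart_mono (by simp))
    (pk15_chart_le_V V hRV _ (by
      intro g hg
      rcases hg with rfl | hg
      · exact hhV
      · rw [Set.mem_singleton_iff] at hg; rw [hg]; exact hhV'))
    hsat₁ hsat₂ hsat₁₂
    (fun x hx => pk15_chart_root _ m hm0 x hx) (fun x hx => pk15_chart_root _ m hm0 x hx)
    u hu hord' h hh0 (pk15_subset_chart _ (Set.mem_singleton h))
    (pk15_subset_chart _ (Set.mem_singleton h⁻¹))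
    (pk15_chart_loc h hh0) (pk15_chart_loc' h hh0) hfin hfrac
  obtain ⟨c, hc⟩ := pk15_chart_cap (K := K) hK h hh _ hf₁ hf₂
  exact ⟨f₀, c, tc_ne_zero_of_cong_one V _ hπ0 hπV f₀ hf₀, hc⟩

end star

end Fermat.Agent.S18
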