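import Fermat.Agent.S18.VertSep
import Fermat.Agent.S28.RedCore
import Fermat.Agent.S28.ChartCard

/-!
# S18, row B3b (helper90, independent backup copy): the reduction map over a general base

`R₀` a UFD with fraction field `K` (in the application a DVR `A ∩ K`, `K` a number field), `π` a
prime element, `red : R₀ →+* κ` a ring hom onto/into a field with kernel `(π)`, `M` a level
invertible in `κ`.  For the integral closure `B` of `R₀[j]` in `F(M)_K = K(J(q^d) : d ∣ M)`:

`rm90_exists_red` : a ring hom `φ : B →+* κ((q))` with kernel `π B`, equal to the coefficientwise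
reduction on every element with an `R₀`-integral `q`-expansion, with values in `F(M)_κ`.
-/

set_option autoImplicit false
set_option linter.unusedSectionVars false

open ModularCurve IntermediateField

namespace Fermat.Agent.S18

open Fermat.Agent.S28

noncomputable section

/-! ### Generalities on `coeffMap` -/

theorem rm90_coeffMap_injective {R S : Type*} [CommRing R] [CommRing S] (f : R →+* S)
    (hf : Function.Injective f) : Function.Injective (coeffMap f) := by
  intro x y h
  ext n
  have := congrArg (fun z => z.coeff n) h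
  simp only [coeffMap_coeff] at this
  exact hf this

theorem rm90_coeffMap_algebraMap {R S : Type*} [CommRing R] [CommRing S] (f : R →+* S) (r : R) :
    coeffMap f (algebraMap R (LaurentSeries R) r) = algebraMap S (LaurentSeries S) (f r) := by
  rw [h63_algebraMap_eq_C, h63_algebraMap_eq_C, HahnSeries.C_apply, HahnSeries.C_apply,
    coeffMap_single]

theorem rm90_coeffMap_aeval {R S : Type*} [CommRing R] [CommRing S] (f : R →+* S)
    (a : Polynomial R) :
    coeffMap f (Polynomial.aeval (jqModC R) a) = Polynomial.aeval (jqModC S) (a.map f) := by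
  have h : (coeffMap f).comp
      (Polynomial.aeval (jqModC R) : Polynomial R →ₐ[R] LaurentSeries R).toRingHom =
      ((Polynomial.aeval (jqModC S) : Polynomial S →ₐ[S] LaurentSeries S).toRingHom).comp
        (Polynomial.mapRingHom f) := by
    refine Polynomial.ringHom_ext (fun r => ?_) ?_
    · simp [rm90_coeffMap_algebraMap]
    · simp [coeffMap_jqModC]
  exact congrFun (congrArg DFunLike.coe h) a

theorem rm90_coeffMap_eval {R S : Type*} [CommRing R] [CommRing S] (f : R →+* S) {M : ℕ}
    (P : MvPolynomial M.divisors ℤ) :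
    coeffMap f (MvPolynomial.eval₂ (Int.castRingHom (LaurentSeries R))
      (fun d : M.divisors => JdC R d.1) P) =
      MvPolynomial.eval₂ (Int.castRingHom (LaurentSeries S)) (fun d : M.divisors => JdC S d.1) P := by
  rw [MvPolynomial.eval₂_comp_left]
  congr 1
  · exact RingHom.ext_int _ _
  · funext d
    exact coeffMap_JdC _ _

/-! ### The base objects -/

section Defs

variable (K : Type) [Field K] (R₀ : Type*) [CommRing R₀] [Algebra R₀ K] (M : ℕ) [NeZero M]

/-- `j` as an element of the function field `F(M)_K = K(J(q^d) : d ∣ M)`. -/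
def rm90_j : ↥(modularFunctionFieldFullC K M) := ⟨jqModC K, jqModC_mem_full K M⟩

/-- The constants `R₀ → F(M)_K`. -/
def rm90_c : R₀ →+* ↥(modularFunctionFieldFullC K M) :=
  (algebraMap K ↥(modularFunctionFieldFullC K M)).comp (algebraMap R₀ K)

/-- `R₀[X] → F(M)_K`, `X ↦ j`. -/
def rm90_ev : Polynomial R₀ →+* ↥(modularFunctionFieldFullC K M) :=
  Polynomial.eval₂RingHom (rm90_c K R₀ M) (rm90_j K M)

/-- The elements of `F(M)_K` whose `q`-expansion has coefficients in `R₀`. -/
def rm90_F0 : Subring ↥(modularFunctionFieldFullC K M) :=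
  (coeffMap (algebraMap R₀ K)).range.comap
    (algebraMap ↥(modularFunctionFieldFullC K M) (LaurentSeries K))

theorem rm90_mem_F0_iff (x : ↥(modularFunctionFieldFullC K M)) :
    x ∈ rm90_F0 K R₀ M ↔ ∃ y : LaurentSeries R₀,
      coeffMap (algebraMap R₀ K) y = (x : LaurentSeries K) := Iff.rfl

/-- The `q`-expansion of a polynomial in `j` with coefficients in `R₀`. -/
theorem rm90_coe_ev' (a : Polynomial R₀) :
    ((rm90_ev K R₀ M a : ↥(modularFunctionFieldFullC K M)) : LaurentSeries K) =
      Polynomial.aeval (jqModC K) (a.map (algebraMap R₀ K)) := by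
  have h : (algebraMap ↥(modularFunctionFieldFullC K M) (LaurentSeries K)).comp
      (rm90_ev K R₀ M) =
      ((Polynomial.aeval (jqModC K) : Polynomial K →ₐ[K] LaurentSeries K).toRingHom).comp
        (Polynomial.mapRingHom (algebraMap R₀ K)) := by
    refine Polynomial.ringHom_ext (fun r => ?_) ?_
    · simp [rm90_ev, rm90_c]
    · simp [rm90_ev, rm90_j]
  exact congrFun (congrArg DFunLike.coe h) a

theorem rm90_coe_ev (a : Polynomial R₀) :
    ((rm90_ev K R₀ M a : ↥(modularFunctionFieldFullC K M)) : LaurentSeries K) =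
      coeffMap (algebraMap R₀ K) (Polynomial.aeval (jqModC R₀) a) := by
  rw [rm90_coe_ev', rm90_coeffMap_aeval]

theorem rm90_ev_mem_F0 (a : Polynomial R₀) : rm90_ev K R₀ M a ∈ rm90_F0 K R₀ M :=
  ⟨_, (rm90_coe_ev K R₀ M a).symm⟩

end Defs

/-! ### The reduction map on elements with integral expansions -/

section Rho

variable (K : Type) [Field K] (R₀ : Type*) [CommRing R₀] [Algebra R₀ K] (M : ℕ) [NeZero M]
  (hinj : Function.Injective (algebraMap R₀ K)) {κ : Type*} [Field κ] (red : R₀ →+* κ)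

/-- `R₀((q))` is isomorphic to its image in `K((q))`. -/
def rm90_iotaEquiv : LaurentSeries R₀ ≃+* (coeffMap (algebraMap R₀ K)).range :=
  RingEquiv.ofBijective (coeffMap (algebraMap R₀ K)).rangeRestrict
    ⟨fun _ _ h => rm90_coeffMap_injective _ hinj (congrArg Subtype.val h),
      (coeffMap (algebraMap R₀ K)).rangeRestrict_surjective⟩

/-- Coefficientwise reduction of the elements of `F(M)_K` with `R₀`-integral expansion. -/
def rm90_rho : ↥(rm90_F0 K R₀ M) →+* LaurentSeries κ :=
  (coeffMap red).comp (((rm90_iotaEquiv K R₀ hinj).symm :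
      (coeffMap (algebraMap R₀ K)).range →+* LaurentSeries R₀).comp
    (RingHom.codRestrict ((algebraMap ↥(modularFunctionFieldFullC K M) (LaurentSeries K)).comp
      (rm90_F0 K R₀ M).subtype) (coeffMap (algebraMap R₀ K)).range (fun x => x.2)))

theorem rm90_rho_spec (x : ↥(rm90_F0 K R₀ M)) (y : LaurentSeries R₀)
    (h : coeffMap (algebraMap R₀ K) y =
      ((x : ↥(modularFunctionFieldFullC K M)) : LaurentSeries K)) :
    rm90_rho K R₀ M hinj red x = coeffMap red y := by
  unfold rm90_rho
  rw [RingHom.comp_apply, RingHom.comp_apply]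
  congr 1
  change (rm90_iotaEquiv K R₀ hinj).symm _ = y
  rw [RingEquiv.symm_apply_eq]
  exact Subtype.ext h.symm

theorem rm90_rho_ev (a : Polynomial R₀) :
    rm90_rho K R₀ M hinj red ⟨rm90_ev K R₀ M a, rm90_ev_mem_F0 K R₀ M a⟩ =
      Polynomial.aeval (jqModC κ) (a.map red) := by
  rw [rm90_rho_spec K R₀ M hinj red _ _ (rm90_coe_ev K R₀ M a).symm, rm90_coeffMap_aeval]

end Rho

/-! ### The family of integral polynomial expressions in the `J(q^d)` -/

section Family

variable (K : Type) [Field K] (R₀ : Type*) [CommRing R₀] [Algebra R₀ K] (M : ℕ) [NeZero M]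

theorem rm90_JdC_mem (d : M.divisors) : JdC K d.1 ∈ modularFunctionFieldFullC K M := by
  have : NeZero d.1 := ⟨(Nat.pos_of_mem_divisors d.2).ne'⟩
  rw [JdC_of_neZero]
  exact jqModCd_mem_full K M (Nat.dvd_of_mem_divisors d.2)

/-- `J(q^d)`, `d ∣ M`, as an element of `F(M)_K`. -/
def rm90_Jd (d : M.divisors) : ↥(modularFunctionFieldFullC K M) :=
  ⟨JdC K d.1, rm90_JdC_mem K M d⟩

/-- The value in `F(M)_K` of an integral polynomial at the `J(q^d)`, `d ∣ M`. -/
def rm90_bF (P : MvPolynomial M.divisors ℤ) : ↥(modularFunctionFieldFullC K M) :=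
  MvPolynomial.eval₂ (Int.castRingHom ↥(modularFunctionFieldFullC K M)) (rm90_Jd K M) P

theorem rm90_coe_bF (P : MvPolynomial M.divisors ℤ) :
    ((rm90_bF K M P : ↥(modularFunctionFieldFullC K M)) : LaurentSeries K) =
      MvPolynomial.eval₂ (Int.castRingHom (LaurentSeries K))
        (fun d : M.divisors => JdC K d.1) P := by
  have h1 : ((rm90_bF K M P : ↥(modularFunctionFieldFullC K M)) : LaurentSeries K) =
      (algebraMap ↥(modularFunctionFieldFullC K M) (LaurentSeries K)) (rm90_bF K M P) := rfl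
  rw [h1, rm90_bF, MvPolynomial.eval₂_comp_left]
  congr 1

theorem rm90_bF_mem_F0 (P : MvPolynomial M.divisors ℤ) : rm90_bF K M P ∈ rm90_F0 K R₀ M :=
  ⟨MvPolynomial.eval₂ (Int.castRingHom (LaurentSeries R₀)) (fun d : M.divisors => JdC R₀ d.1) P,
    by rw [rm90_coeffMap_eval]; exact (rm90_coe_bF K M P).symm⟩

theorem rm90_rho_bF (hinj : Function.Injective (algebraMap R₀ K)) {κ : Type*} [Field κ]
    (red : R₀ →+* κ) (P : MvPolynomial M.divisors ℤ) :
    rm90_rho K R₀ M hinj red ⟨rm90_bF K M P, rm90_bF_mem_F0 K R₀ M P⟩ =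
      MvPolynomial.eval₂ (Int.castRingHom (LaurentSeries κ))
        (fun d : M.divisors => JdC κ d.1) P := by
  rw [rm90_rho_spec K R₀ M hinj red _
    (MvPolynomial.eval₂ (Int.castRingHom (LaurentSeries R₀))
      (fun d : M.divisors => JdC R₀ d.1) P)
      (by rw [rm90_coeffMap_eval]; exact (rm90_coe_bF K M P).symm),
    rm90_coeffMap_eval]

end Family

/-! ### The hypotheses of the abstract reduction lemma -/

section Hyp

variable (K : Type) [Field K] (R₀ : Type*) [CommRing R₀] [Algebra R₀ K] (M : ℕ) [NeZero M]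

theorem rm90_transcendental (k : Type*) [Field k] : Transcendental k (jqModC k) :=
  partC_transcendental (jqModC k) (coeff_jqModC_neg_one k) (fun _ hn => coeff_jqModC_of_lt k hn)

theorem rm90_ev_injective (hinj : Function.Injective (algebraMap R₀ K)) :
    Function.Injective (rm90_ev K R₀ M) := by
  rw [injective_iff_map_eq_zero]
  intro a ha
  have h1 : Polynomial.aeval (jqModC K) (a.map (algebraMap R₀ K)) = 0 := by
    rw [← rm90_coe_ev' K R₀ M a, ha]
    rfl
  have h2 := (transcendental_iff.mp (rm90_transcendental K)) _ h1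
  exact Polynomial.map_injective _ hinj (by rw [h2, Polynomial.map_zero])

/-- The rank bound: `R₀[j]`-independent families of `F(M)_K` have at most `ψ(M)` elements. -/
theorem rm90_hcard [IsDomain R₀] [IsFractionRing R₀ K] (n : ℕ)
    (c : Fin n → ↥(modularFunctionFieldFullC K M))
    (hc : letI := (rm90_ev K R₀ M).toAlgebra; LinearIndependent (Polynomial R₀) c) :
    n ≤ dedekindPsi M := by
  let _ := (rm90_ev K R₀ M).toAlgebra
  have hinj : Function.Injective (algebraMap R₀ K) := IsFractionRing.injective R₀ K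
  have hfaith : FaithfulSMul (Polynomial R₀) ↥(modularFunctionFieldFullC K M) :=
    (faithfulSMul_iff_algebraMap_injective _ _).mpr (rm90_ev_injective K R₀ M hinj)
  have hfrac : ∀ x ∈ K⟮jqModC K⟯, partD_IsFrac (Polynomial R₀)
      (algebraMap ↥(modularFunctionFieldFullC K M) (LaurentSeries K)) x := by
    intro x hx
    refine partD_isFrac_adjoin _ {jqModC K} ?_ ?_ hx
    · intro r
      obtain ⟨a, d, hd, hr⟩ := IsFractionRing.div_surjective (A := R₀) r
      have hd0 : d ≠ 0 := nonZeroDivisors.ne_zero hd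
      have hdK : algebraMap R₀ K d ≠ 0 := fun h => hd0 (hinj (by rw [h, map_zero]))
      refine ⟨Polynomial.C d, Polynomial.C a, fun h => hd0 (Polynomial.C_eq_zero.mp h), ?_⟩
      change ((rm90_ev K R₀ M (Polynomial.C d) : ↥(modularFunctionFieldFullC K M)) :
          LaurentSeries K) * algebraMap K (LaurentSeries K) r =
        ((rm90_ev K R₀ M (Polynomial.C a) : ↥(modularFunctionFieldFullC K M)) : LaurentSeries K)
      rw [rm90_coe_ev', rm90_coe_ev', Polynomial.map_C, Polynomial.map_C, Polynomial.aeval_C,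
        Polynomial.aeval_C, ← map_mul, ← hr, mul_div_cancel₀ _ hdK]
    · intro s hs
      rw [Set.mem_singleton_iff] at hs
      subst hs
      refine ⟨1, Polynomial.X, one_ne_zero, ?_⟩
      change ((rm90_ev K R₀ M 1 : ↥(modularFunctionFieldFullC K M)) : LaurentSeries K) *
          jqModC K =
        ((rm90_ev K R₀ M Polynomial.X : ↥(modularFunctionFieldFullC K M)) : LaurentSeries K)
      rw [rm90_coe_ev', rm90_coe_ev', Polynomial.map_one, Polynomial.map_X, map_one,
        Polynomial.aeval_X, one_mul]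
  have hli := partD_linearIndependent_of_isFrac
    (algebraMap ↥(modularFunctionFieldFullC K M) (LaurentSeries K)) K⟮jqModC K⟯ hfrac c hc
  exact vs_card_le M K n _ (fun i => (c i).2) hli

/-- `J(q^d)` is integral over `R₀[j]`. -/
theorem rm90_isIntegral_Jd (d : M.divisors) :
    (rm90_ev K R₀ M).IsIntegralElem (rm90_Jd K M d) := by
  have hA1 : ∀ p : ℕ, p.Prime → ∃ Φ : Polynomial (Polynomial ℤ), Φ.Monic ∧
      Φ.natDegree = p + 1 ∧ Φ.eval₂ (evJ ℤ) (JdC ℤ p) = 0 ∧
      Φ.eval₂ (evJd ℤ p) (jqModC ℤ) = 0 := exists_modular_equation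
  have hB1 : ∀ d : ℕ, d ≠ 0 → ∃ P : Polynomial (Polynomial ℤ), P.Monic ∧
      P.eval₂ (evJ ℤ) (JdC ℤ d) = 0 :=
    exists_monic_JdC_of_modEq fun p hp => let ⟨Φ, hΦ, _, h, _⟩ := hA1 p hp; ⟨Φ, hΦ, h⟩
  obtain ⟨P, hP, h⟩ := hB1 d.1 (Nat.pos_of_mem_divisors d.2).ne'
  have h2 := h58_eval₂_transfer (evJ ℤ) (evJ K) (h58_coeffMap_comp_evJ K) P _ h
  rw [coeffMap_JdC] at h2
  refine ⟨P.map (Polynomial.mapRingHom (Int.castRingHom R₀)), hP.map _, ?_⟩
  rw [Polynomial.eval₂_map]
  apply Subtype.ext
  have h3 := Polynomial.hom_eval₂ P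
    ((rm90_ev K R₀ M).comp (Polynomial.mapRingHom (Int.castRingHom R₀)))
    (algebraMap ↥(modularFunctionFieldFullC K M) (LaurentSeries K)) (rm90_Jd K M d)
  have hcomp : (algebraMap ↥(modularFunctionFieldFullC K M) (LaurentSeries K)).comp
      ((rm90_ev K R₀ M).comp (Polynomial.mapRingHom (Int.castRingHom R₀))) = evJ K :=
    h58_eq_evJ _ (by
      simp [rm90_ev, rm90_j])
  rw [hcomp] at h3
  exact h3.trans h2

/-- The integral polynomial expressions in the `J(q^d)` are integral over `R₀[j]`. -/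
theorem rm90_isIntegral_bF (P : MvPolynomial M.divisors ℤ) :
    (rm90_ev K R₀ M).IsIntegralElem (rm90_bF K M P) := by
  let _ := (rm90_ev K R₀ M).toAlgebra
  change IsIntegral (Polynomial R₀) (rm90_bF K M P)
  induction P using MvPolynomial.induction_on with
  | C a =>
    have e : rm90_bF K M (MvPolynomial.C a) =
        algebraMap (Polynomial R₀) ↥(modularFunctionFieldFullC K M) (a : Polynomial R₀) := by
      rw [rm90_bF, MvPolynomial.eval₂_C, map_intCast]
      rfl
    rw [e]
    exact isIntegral_algebraMap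
  | add p q hp hq =>
    have e : rm90_bF K M (p + q) = rm90_bF K M p + rm90_bF K M q := by
      simp only [rm90_bF, MvPolynomial.eval₂_add]
    rw [e]
    exact hp.add hq
  | mul_X p d hp =>
    have e : rm90_bF K M (p * MvPolynomial.X d) = rm90_bF K M p * rm90_Jd K M d := by
      simp only [rm90_bF, MvPolynomial.eval₂_mul, MvPolynomial.eval₂_X]
    rw [e]
    exact hp.mul (rm90_isIntegral_Jd K R₀ M d)

end Hyp

/-! ### The reduction map on the integral closure of `R₀[j]` -/

section Main

variable (K : Type) [Field K] {R₀ : Type*} [CommRing R₀] [IsDomain R₀]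
  [UniqueFactorizationMonoid R₀] [Algebra R₀ K] [IsFractionRing R₀ K] (M : ℕ) [NeZero M]

theorem rm90_aeval_mem (κ : Type*) [Field κ] (p : Polynomial κ) :
    Polynomial.aeval (jqModC κ) p ∈ modularFunctionFieldFullC κ M :=
  (adjoin_simple_le_iff.mpr (jqModC_mem_full κ M)) (partC_aeval_mem (jqModC κ) p)

/-- **B3b.** The reduction map on the integral closure `B` of `R₀[j]` in
`F(M)_K = K(J(q^d) : d ∣ M)`: a ring hom `φ : B → κ((q))` with kernel `π B`, which is the
coefficientwise reduction on elements with `R₀`-integral `q`-expansion and takes its values in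
`F(M)_κ`. -/
theorem rm90_package (π : R₀) (hπ : Prime π) (κ : Type) [Field κ] (red : R₀ →+* κ)
    (hred : ∀ a : R₀, red a = 0 ↔ π ∣ a) (hM : (M : κ) ≠ 0)
    (B : Subring ↥(modularFunctionFieldFullC K M))
    (hB : ∀ x, x ∈ B ↔ (rm90_ev K R₀ M).IsIntegralElem x) :
    ∃ (m : Fin (dedekindPsi M) → MvPolynomial M.divisors ℤ) (φ : ↥B →+* LaurentSeries κ),
      LinearIndependent (IntermediateField.adjoin κ {jqModC κ})
        (fun i => MvPolynomial.eval₂ (Int.castRingHom (LaurentSeries κ))
          (fun d : M.divisors => JdC κ d.1) (m i)) ∧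
      (∀ x : ↥B, φ x = 0 ↔
        ∃ y : ↥B, (x : ↥(modularFunctionFieldFullC K M)) = rm90_c K R₀ M π * y) ∧
      (∀ (x : ↥B) (y : LaurentSeries R₀),
        coeffMap (algebraMap R₀ K) y =
          ((x : ↥(modularFunctionFieldFullC K M)) : LaurentSeries K) →
        φ x = coeffMap red y) ∧
      (∀ x : ↥B, φ x ∈ modularFunctionFieldFullC κ M) ∧
      (∀ x : ↥(modularFunctionFieldFullC K M), (rm90_ev K R₀ M).IsIntegralElem x →
        ∃ (s : Polynomial R₀) (a : Fin (dedekindPsi M) → Polynomial R₀),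
          ¬ Polynomial.C π ∣ s ∧
          rm90_ev K R₀ M s * x = ∑ i, rm90_ev K R₀ M (a i) * rm90_bF K M (m i)) := by
  classical
  let _ := (rm90_ev K R₀ M).toAlgebra
  have hinj : Function.Injective (algebraMap R₀ K) := IsFractionRing.injective R₀ K
  have hfaith : FaithfulSMul (Polynomial R₀) ↥(modularFunctionFieldFullC K M) :=
    (faithfulSMul_iff_algebraMap_injective _ _).mpr (rm90_ev_injective K R₀ M hinj)
  obtain ⟨m, hm⟩ := vs_exists_independent κ M hM
  have hmem : ∀ a : Polynomial R₀,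
      algebraMap (Polynomial R₀) ↥(modularFunctionFieldFullC K M) a ∈ rm90_F0 K R₀ M :=
    fun a => rm90_ev_mem_F0 K R₀ M a
  have hprime : Prime (Polynomial.C π : Polynomial R₀) := Polynomial.prime_C_iff.mpr hπ
  have hρa : ∀ a : Polynomial R₀, rm90_rho K R₀ M hinj red
      ⟨algebraMap (Polynomial R₀) ↥(modularFunctionFieldFullC K M) a, hmem a⟩ =
      Polynomial.aeval (jqModC κ) (a.map red) := fun a => rm90_rho_ev K R₀ M hinj red a
  have hρℓ : rm90_rho K R₀ M hinj red
      ⟨algebraMap (Polynomial R₀) ↥(modularFunctionFieldFullC K M) (Polynomial.C π),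
        hmem _⟩ = 0 := by
    rw [hρa, Polynomial.map_C, (hred π).mpr dvd_rfl, map_zero, map_zero]
  have hb : ∀ i, rm90_bF K M (m i) ∈ rm90_F0 K R₀ M := fun i => rm90_bF_mem_F0 K R₀ M (m i)
  have hker : ∀ a : Polynomial R₀, Polynomial.aeval (jqModC κ) (a.map red) = 0 →
      Polynomial.C π ∣ a := by
    intro a h3
    have h4 := (transcendental_iff.mp (rm90_transcendental κ)) _ h3
    rw [Polynomial.C_dvd_iff_dvd_coeff]
    intro k
    rw [← hred]
    have h5 := congrArg (fun Q : Polynomial κ => Q.coeff k) h4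
    simpa [Polynomial.coeff_map] using h5
  have hind : ∀ a : Fin (dedekindPsi M) → Polynomial R₀,
      ∑ i, rm90_rho K R₀ M hinj red
          ⟨algebraMap (Polynomial R₀) ↥(modularFunctionFieldFullC K M) (a i), hmem (a i)⟩ *
        rm90_rho K R₀ M hinj red ⟨rm90_bF K M (m i), hb i⟩ = 0 →
      ∀ i, Polynomial.C π ∣ a i := by
    intro a ha i
    have h1 : ∑ i, (⟨Polynomial.aeval (jqModC κ) ((a i).map red),
          partC_aeval_mem (jqModC κ) _⟩ : κ⟮jqModC κ⟯) •
        MvPolynomial.eval₂ (Int.castRingHom (LaurentSeries κ))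
          (fun d : M.divisors => JdC κ d.1) (m i) = 0 := by
      rw [← ha]
      refine Finset.sum_congr rfl fun i _ => ?_
      rw [IntermediateField.smul_def, smul_eq_mul, hρa, rm90_rho_bF]
    have h2 := (Fintype.linearIndependent_iff.mp hm) _ h1 i
    exact hker _ (congrArg Subtype.val h2)
  have hbint' : ∀ i, IsIntegral (Polynomial R₀) (rm90_bF K M (m i)) :=
    fun i => rm90_isIntegral_bF K R₀ M (m i)
  have hbint : ∀ i, ∃ s : Polynomial R₀, ¬ Polynomial.C π ∣ s ∧
      IsIntegral (Polynomial R₀)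
        (algebraMap (Polynomial R₀) ↥(modularFunctionFieldFullC K M) s * rm90_bF K M (m i)) := by
    intro i
    refine ⟨1, hprime.not_dvd_one, ?_⟩
    rw [map_one, one_mul]
    exact hbint' i
  have hcard : ∀ (n : ℕ) (c : Fin n → ↥(modularFunctionFieldFullC K M)),
      LinearIndependent (Polynomial R₀) c → n ≤ Fintype.card (Fin (dedekindPsi M)) := by
    intro n c hc
    rw [Fintype.card_fin]
    exact rm90_hcard K R₀ M n c hc
  have hBint : ∀ x : ↥(modularFunctionFieldFullC K M),
      (∃ y : ↥B, B.subtype y = x) ↔ IsIntegral (Polynomial R₀) x :=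
    fun x => ⟨fun ⟨y, hy⟩ => hy ▸ (hB _).mp y.2, fun hx => ⟨⟨x, (hB x).mpr hx⟩, rfl⟩⟩
  obtain ⟨φ, hφ1, hφ2⟩ := partD_exists_red hprime (rm90_F0 K R₀ M) hmem
    (rm90_rho K R₀ M hinj red) hρℓ (fun i => rm90_bF K M (m i)) hb hind hbint hcard
    B.subtype hBint
  have hCπ : algebraMap (Polynomial R₀) ↥(modularFunctionFieldFullC K M) (Polynomial.C π) =
      rm90_c K R₀ M π := by
    change rm90_ev K R₀ M (Polynomial.C π) = _
    simp [rm90_ev]
  have hli := partD_linearIndependent hprime (rm90_F0 K R₀ M) hmem (rm90_rho K R₀ M hinj red)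
    (fun i => rm90_bF K M (m i)) hb hind
  have hspan := partD_hspan (fun i => rm90_bF K M (m i)) hli hcard
  have hstruct : ∀ x : ↥(modularFunctionFieldFullC K M), IsIntegral (Polynomial R₀) x →
      ∃ (s : Polynomial R₀) (a : Fin (dedekindPsi M) → Polynomial R₀),
        ¬ Polynomial.C π ∣ s ∧
        algebraMap (Polynomial R₀) ↥(modularFunctionFieldFullC K M) s * x =
          ∑ i, algebraMap (Polynomial R₀) ↥(modularFunctionFieldFullC K M) (a i) *
            rm90_bF K M (m i) :=
    fun x hx => partD_span_of_isIntegral hprime (rm90_F0 K R₀ M) hmem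
      (rm90_rho K R₀ M hinj red) hρℓ (fun i => rm90_bF K M (m i)) hb hind hspan hx
  refine ⟨m, φ, hm, ?_, ?_, ?_, hstruct⟩
  · intro x
    rw [hφ1 x, hCπ]
    rfl
  · intro x y hy
    rw [hφ2 x ⟨y, hy⟩]
    exact rm90_rho_spec K R₀ M hinj red _ y hy
  · intro x
    obtain ⟨s, a, hs, hsa⟩ := hstruct x ((hB _).mp x.2)
    -- the elements of `B` involved
    have hevB : ∀ c : Polynomial R₀,
        algebraMap (Polynomial R₀) ↥(modularFunctionFieldFullC K M) c ∈ B :=
      fun c => (hB _).mpr isIntegral_algebraMap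
    have hbB : ∀ i, rm90_bF K M (m i) ∈ B := fun i => (hB _).mpr (hbint' i)
    have heq : (⟨_, hevB s⟩ : ↥B) * x = ∑ i, (⟨_, hevB (a i)⟩ : ↥B) * ⟨_, hbB i⟩ := by
      apply Subtype.ext
      rw [Subring.coe_mul, ← Subring.coe_subtype B, map_sum]
      exact hsa
    have hφs : φ ⟨_, hevB s⟩ = Polynomial.aeval (jqModC κ) (s.map red) := by
      rw [hφ2 _ (hmem s)]
      exact hρa s
    have hφa : ∀ i, φ ⟨_, hevB (a i)⟩ = Polynomial.aeval (jqModC κ) ((a i).map red) := by
      intro i
      rw [hφ2 _ (hmem (a i))]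
      exact hρa (a i)
    have hφb : ∀ i, φ ⟨_, hbB i⟩ = MvPolynomial.eval₂ (Int.castRingHom (LaurentSeries κ))
        (fun d : M.divisors => JdC κ d.1) (m i) := by
      intro i
      rw [hφ2 _ (hb i)]
      exact rm90_rho_bF K R₀ M hinj red (m i)
    have hs0 : Polynomial.aeval (jqModC κ) (s.map red) ≠ 0 := fun h => hs (hker s h)
    have h1 := congrArg φ heq
    rw [map_mul, map_sum, hφs] at h1
    have h2 : φ x = (Polynomial.aeval (jqModC κ) (s.map red))⁻¹ *
        ∑ i, φ (⟨_, hevB (a i)⟩ * ⟨_, hbB i⟩) := by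
      rw [← h1, ← mul_assoc, inv_mul_cancel₀ hs0, one_mul]
    rw [h2]
    refine mul_mem (inv_mem (rm90_aeval_mem M κ _)) (sum_mem fun i _ => ?_)
    rw [map_mul, hφa, hφb]
    refine mul_mem (rm90_aeval_mem M κ _) ?_
    rw [← rm90_coe_bF]
    exact (rm90_bF κ M (m i)).2

/-- **B3b**, short form: the reduction map with kernel `π B`. -/
theorem rm90_exists_red (π : R₀) (hπ : Prime π) (κ : Type) [Field κ] (red : R₀ →+* κ)
    (hred : ∀ a : R₀, red a = 0 ↔ π ∣ a) (hM : (M : κ) ≠ 0)
    (B : Subring ↥(modularFunctionFieldFullC K M))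
    (hB : ∀ x, x ∈ B ↔ (rm90_ev K R₀ M).IsIntegralElem x) :
    ∃ φ : ↥B →+* LaurentSeries κ,
      (∀ x : ↥B, φ x = 0 ↔
        ∃ y : ↥B, (x : ↥(modularFunctionFieldFullC K M)) = rm90_c K R₀ M π * y) ∧
      (∀ (x : ↥B) (y : LaurentSeries R₀),
        coeffMap (algebraMap R₀ K) y =
          ((x : ↥(modularFunctionFieldFullC K M)) : LaurentSeries K) →
        φ x = coeffMap red y) ∧
      (∀ x : ↥B, φ x ∈ modularFunctionFieldFullC κ M) := by
  obtain ⟨_, φ, _, h1, h2, h3, _⟩ := rm90_package K M π hπ κ red hred hM B hB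
  exact ⟨φ, h1, h2, h3⟩

/-- Membership in `B`: polynomials in `j` and integral polynomial expressions in the `J(q^d)`. -/
theorem rm90_ev_mem (B : Subring ↥(modularFunctionFieldFullC K M))
    (hB : ∀ x, x ∈ B ↔ (rm90_ev K R₀ M).IsIntegralElem x) (a : Polynomial R₀) :
    rm90_ev K R₀ M a ∈ B :=
  (hB _).mpr ((rm90_ev K R₀ M).isIntegralElem_map)

theorem rm90_bF_mem (B : Subring ↥(modularFunctionFieldFullC K M))
    (hB : ∀ x, x ∈ B ↔ (rm90_ev K R₀ M).IsIntegralElem x) (P : MvPolynomial M.divisors ℤ) :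
    rm90_bF K M P ∈ B :=
  (hB _).mpr (rm90_isIntegral_bF K R₀ M P)

end Main

end

end Fermat.Agent.S18
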