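import Mathlib
import Fermat.Agent.S18.GaussVal85
import Fermat.Agent.S18.RedMap90
import Fermat.Agent.S18.Pack15

/-!
# S18 glue (helper23): saturation (SAT) of the charts with respect to the Gauss valuation ring

* `sat23_HF`      : hypothesis `gv85_HF` for the modular function field `F(M)_K`.
* `sat23_j`       : SAT on the `j`-line: `x` integral over `R[j]` and `π⁻¹ x ∈ V` (Gauss valuation
                    ring of `GaussVal85`) imply `π⁻¹ x` integral over `R[j]`.  Uses the reduction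
                    map of `RedMap90` with its denominator statement.
* `sat23_chart`   : generic transfer of SAT from the big chart `B₁₂` to a chart `B₁` whose special
                    fibre is a domain (no self-duality needed).
* `sat23_chart12` : SAT for `pk15_chart R {h, h⁻¹}` in the shape of `pk15_star`.
-/

set_option autoImplicit false

open ModularCurve

namespace Fermat.Agent.S18

/-! ### (HF) for the modular function field -/

section HF

variable (K : Type*) [Field K] {R : Type*} [CommRing R] [IsDomain R] [Algebra R K]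
  [IsFractionRing R K] {κ : Type*} [Field κ] (red : R →+* κ) (π : R)

/-- powers of a prime element do not divide a nonzero element indefinitely. -/
theorem sat23_hfin [WfDvdMonoid R] (hπ : Prime π) :
    ∀ r : R, r ≠ 0 → ∃ n : ℕ, ¬ π ^ (n + 1) ∣ r := fun _ hr =>
  FiniteMultiplicity.of_not_isUnit hπ.not_isUnit hr

/-- **(HF)** for `F(M)_K`: every nonzero element is a constant times a quotient of two
`R`-integral series with nonzero reductions. -/
theorem sat23_HF (hres : ∀ r, red r = 0 ↔ π ∣ r) (hπ0 : π ≠ 0)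
    (hfin : ∀ r : R, r ≠ 0 → ∃ n : ℕ, ¬ π ^ (n + 1) ∣ r) (M : ℕ) :
    gv85_HF red (modularFunctionFieldFullC K M) := by
  unfold modularFunctionFieldFullC
  apply gv85_HF_adjoin red π hres hπ0 hfin
  rintro x ⟨d, hd, -, rfl⟩
  exact ⟨qExpand R d (jqModC R), by rw [coeffMap_qExpand, coeffMap_jqModC]⟩

end HF

/-! ### SAT on the `j`-line -/

section JLine

variable (K : Type) [Field K] {R : Type*} [CommRing R] [IsDomain R]
  [UniqueFactorizationMonoid R] [ValuationRing R] [Algebra R K] [IsFractionRing R K]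
  (M : ℕ) [NeZero M]

/-- **SAT on the `j`-line.**  If `x ∈ F(M)_K` is integral over `R[j]` and `π⁻¹ x` lies in the
Gauss valuation ring, then `π⁻¹ x` is integral over `R[j]`. -/
theorem sat23_j (π : R) (hπ : Prime π) (κ : Type) [Field κ] (red : R →+* κ)
    (hred : ∀ a : R, red a = 0 ↔ π ∣ a) (hM : (M : κ) ≠ 0)
    (hF : gv85_HF red (modularFunctionFieldFullC K M))
    (x : ↥(modularFunctionFieldFullC K M)) (hx : (rm90_ev K R M).IsIntegralElem x)
    (hxV : (algebraMap K ↥(modularFunctionFieldFullC K M) (algebraMap R K π))⁻¹ * x ∈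
      gv85_V red (modularFunctionFieldFullC K M) hF) :
    (rm90_ev K R M).IsIntegralElem
      ((algebraMap K ↥(modularFunctionFieldFullC K M) (algebraMap R K π))⁻¹ * x) := by
  classical
  let _ : Algebra (Polynomial R) ↥(modularFunctionFieldFullC K M) := (rm90_ev K R M).toAlgebra
  set B : Subring ↥(modularFunctionFieldFullC K M) :=
    (integralClosure (Polynomial R) ↥(modularFunctionFieldFullC K M)).toSubring with hBdef
  have hB : ∀ y, y ∈ B ↔ (rm90_ev K R M).IsIntegralElem y := fun y => Iff.rfl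
  obtain ⟨m, φ, -, hker, hφ, -, hden⟩ := rm90_package K M π hπ κ red hred hM B hB
  have hπ0 : π ≠ 0 := hπ.ne_zero
  have hπK : algebraMap R K π ≠ 0 := fun h =>
    hπ0 (IsFractionRing.injective R K (by rw [h, map_zero]))
  have hC0 : (HahnSeries.C (algebraMap R K π) : LaurentSeries K) ≠ 0 := HahnSeries.C_ne_zero hπK
  -- the data of `π⁻¹ x ∈ V`
  obtain ⟨s, t, hs, hst⟩ := hxV
  rw [gv85_coe_inv_mul] at hst
  have hst' : coeffMap (algebraMap R K) s * (x : LaurentSeries K) =
      coeffMap (algebraMap R K) (HahnSeries.C π * t) := by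
    rw [map_mul, gv85_coeffMap_C, ← hst]
    field_simp
  -- denominators
  obtain ⟨s₀, a, hs₀, hsum⟩ := hden x hx
  have hxB : x ∈ B := (hB x).mpr hx
  have hs₀B : rm90_ev K R M s₀ ∈ B := rm90_ev_mem K M B hB s₀
  have hyF0 : rm90_ev K R M s₀ * x ∈ rm90_F0 K R M := by
    rw [hsum]
    exact Subring.sum_mem _ fun i _ =>
      Subring.mul_mem _ (rm90_ev_mem_F0 K R M (a i)) (rm90_bF_mem_F0 K R M (m i))
  obtain ⟨Y, hY⟩ := (rm90_mem_F0_iff K R M _).mp hyF0
  -- the reduction of `Y` vanishes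
  have hYred : coeffMap red Y = 0 := by
    have h1 : coeffMap (algebraMap R K) (s * Y) =
        coeffMap (algebraMap R K) (HahnSeries.C π * (t * Polynomial.aeval (jqModC R) s₀)) := by
      have h2 : ((rm90_ev K R M s₀ * x : ↥(modularFunctionFieldFullC K M)) : LaurentSeries K) =
          coeffMap (algebraMap R K) (Polynomial.aeval (jqModC R) s₀) * (x : LaurentSeries K) := by
        rw [← rm90_coe_ev K R M s₀]; rfl
      rw [map_mul, hY, h2, mul_left_comm, hst', ← map_mul]
      congr 1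
      ring
    have h3 := gv85_emb_injective h1
    have h4 : coeffMap red s * coeffMap red Y = 0 := by
      rw [← map_mul, h3]
      exact gv85_red_C_mul red π hred _
    exact (mul_eq_zero.mp h4).resolve_left hs
  -- `φ (s₀ x) = 0`
  have hφy : φ (⟨rm90_ev K R M s₀, hs₀B⟩ * ⟨x, hxB⟩) = 0 := by
    rw [hφ _ Y hY]
    exact hYred
  -- `φ s₀ ≠ 0`
  have hφs : φ ⟨rm90_ev K R M s₀, hs₀B⟩ ≠ 0 := by
    rw [hφ _ (Polynomial.aeval (jqModC R) s₀) (rm90_coe_ev K R M s₀).symm, rm90_coeffMap_aeval]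
    intro h0
    have h5 : s₀.map red = 0 :=
      (transcendental_iff.mp (rm90_transcendental κ)) _ h0
    apply hs₀
    rw [Polynomial.C_dvd_iff_dvd_coeff]
    intro i
    rw [← hred, ← Polynomial.coeff_map, h5, Polynomial.coeff_zero]
  rw [map_mul] at hφy
  have hφx : φ ⟨x, hxB⟩ = 0 := (mul_eq_zero.mp hφy).resolve_left hφs
  obtain ⟨y', hy'⟩ := (hker _).mp hφx
  have hy'' : (algebraMap K ↥(modularFunctionFieldFullC K M) (algebraMap R K π))⁻¹ * x =
      (y' : ↥(modularFunctionFieldFullC K M)) := by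
    have hne : algebraMap K ↥(modularFunctionFieldFullC K M) (algebraMap R K π) ≠ 0 :=
      (_root_.map_ne_zero _).mpr hπK
    have : x = algebraMap K ↥(modularFunctionFieldFullC K M) (algebraMap R K π) * y' := hy'
    rw [this, inv_mul_cancel_left₀ hne]
  rw [hy'']
  exact (hB _).mp y'.2

end JLine

/-! ### Generic transfer of SAT from the big chart to a chart with prime special fibre -/

section Transfer

variable {R F : Type*} [CommRing R] [Field F] [Algebra R F]

/-- **SAT transfer.**  `B₁ ≤ B₁₂` subalgebras of a field `F`, `B₁₂` saturated in `V`, `B₁₂` is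
obtained from `B₁` by inverting `h ∈ B₁`, `h` is a unit of `V`, and `π B₁` is a prime ideal:
then `B₁` is saturated in `V`. -/
theorem sat23_chart (π : R) (V : ValuationSubring F) (hπV : (algebraMap R F π)⁻¹ ∉ V)
    (B₁ B₁₂ : Subalgebra R F) (h112 : B₁ ≤ B₁₂) (h12V : ∀ x ∈ B₁₂, x ∈ V)
    (hsat₁₂ : ∀ x ∈ B₁₂, (algebraMap R F π)⁻¹ * x ∈ V → (algebraMap R F π)⁻¹ * x ∈ B₁₂)
    (h : F) (hh0 : h ≠ 0) (hh₁ : h ∈ B₁) (hhV : h⁻¹ ∈ V)
    (hloc₁ : ∀ x ∈ B₁₂, ∃ k : ℕ, h ^ k * x ∈ B₁)
    (hprime : (Ideal.span {algebraMap R B₁ π}).IsPrime) :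
    ∀ x ∈ B₁, (algebraMap R F π)⁻¹ * x ∈ V → (algebraMap R F π)⁻¹ * x ∈ B₁ := by
  intro x hx hxV
  have hπ0 : algebraMap R F π ≠ 0 := by
    intro h0
    apply hπV
    rw [h0, inv_zero]
    exact V.zero_mem
  have h12 := hsat₁₂ x (h112 hx) hxV
  obtain ⟨k, hk⟩ := hloc₁ _ h12
  -- in `B₁`: `h^k * x = π * z`
  have hmem : (⟨h, hh₁⟩ : B₁) ^ k * ⟨x, hx⟩ ∈ Ideal.span {algebraMap R B₁ π} := by
    rw [Ideal.mem_span_singleton]
    refine ⟨⟨h ^ k * ((algebraMap R F π)⁻¹ * x), hk⟩, Subtype.ext ?_⟩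
    show h ^ k * x = algebraMap R F π * (h ^ k * ((algebraMap R F π)⁻¹ * x))
    field_simp
  rcases hprime.mem_or_mem hmem with hh | hxm
  · exfalso
    have hh' := hprime.mem_of_pow_mem k hh
    rw [Ideal.mem_span_singleton] at hh'
    obtain ⟨w, hw⟩ := hh'
    have hw' : h = algebraMap R F π * (w : F) := congrArg Subtype.val hw
    have hwV : (w : F) ∈ V := h12V _ (h112 w.2)
    have hw0 : (w : F) ≠ 0 := by
      intro h0
      rw [h0, mul_zero] at hw'
      exact hh0 hw'
    apply hπV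
    have : (algebraMap R F π)⁻¹ = (w : F) * h⁻¹ := by
      rw [hw', mul_inv, mul_comm ((algebraMap R F π)⁻¹), ← mul_assoc, mul_inv_cancel₀ hw0,
        one_mul]
    rw [this]
    exact V.mul_mem _ _ hwV hhV
  · rw [Ideal.mem_span_singleton] at hxm
    obtain ⟨w, hw⟩ := hxm
    have hw' : x = algebraMap R F π * (w : F) := congrArg Subtype.val hw
    rw [hw', inv_mul_cancel_left₀ hπ0]
    exact w.2

end Transfer

/-! ### SAT for the two small charts `pk15_chart R {h}`, `pk15_chart R {h⁻¹}` -/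

section Small

variable {R F : Type*} [CommRing R] [Field F] [Algebra R F]

/-- **SAT(B₁)** in the shape of `pk15_star`, from SAT(B₁₂) and `B₁ ⧸ π` a domain. -/
theorem sat23_sat₁ (π : R) (V : ValuationSubring F) (hRV : ∀ r : R, algebraMap R F r ∈ V)
    (hπV : (algebraMap R F π)⁻¹ ∉ V) (h : F) (hh0 : h ≠ 0) (hhV : h ∈ V) (hhV' : h⁻¹ ∈ V)
    (hsat₁₂ : ∀ x ∈ pk15_chart R ({h, h⁻¹} : Set F), (algebraMap R F π)⁻¹ * x ∈ V →
      (algebraMap R F π)⁻¹ * x ∈ pk15_chart R ({h, h⁻¹} : Set F))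
    [IsDomain (pk15_chart R ({h} : Set F) ⧸
      Ideal.span {algebraMap R (pk15_chart R ({h} : Set F)) π})] :
    ∀ x ∈ pk15_chart R ({h} : Set F), (algebraMap R F π)⁻¹ * x ∈ V →
      (algebraMap R F π)⁻¹ * x ∈ pk15_chart R ({h} : Set F) := by
  have h12V : ∀ x ∈ pk15_chart R ({h, h⁻¹} : Set F), x ∈ V :=
    pk15_chart_le_V V hRV _ (by
      intro g hg
      rcases hg with rfl | hg
      · exact hhV
      · rw [Set.mem_singleton_iff] at hg; rw [hg]; exact hhV')
  exact sat23_chart π V hπV _ _ (pk15_chart_mono (by simp)) h12V hsat₁₂ h hh0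
    (pk15_subset_chart _ (Set.mem_singleton h)) hhV' (pk15_chart_loc h hh0)
    ((Ideal.Quotient.isDomain_iff_prime _).mp inferInstance)

/-- **SAT(B₂)** in the shape of `pk15_star`, from SAT(B₁₂) and `B₂ ⧸ π` a domain. -/
theorem sat23_sat₂ (π : R) (V : ValuationSubring F) (hRV : ∀ r : R, algebraMap R F r ∈ V)
    (hπV : (algebraMap R F π)⁻¹ ∉ V) (h : F) (hh0 : h ≠ 0) (hhV : h ∈ V) (hhV' : h⁻¹ ∈ V)
    (hsat₁₂ : ∀ x ∈ pk15_chart R ({h, h⁻¹} : Set F), (algebraMap R F π)⁻¹ * x ∈ V →
      (algebraMap R F π)⁻¹ * x ∈ pk15_chart R ({h, h⁻¹} : Set F))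
    [IsDomain (pk15_chart R ({h⁻¹} : Set F) ⧸
      Ideal.span {algebraMap R (pk15_chart R ({h⁻¹} : Set F)) π})] :
    ∀ x ∈ pk15_chart R ({h⁻¹} : Set F), (algebraMap R F π)⁻¹ * x ∈ V →
      (algebraMap R F π)⁻¹ * x ∈ pk15_chart R ({h⁻¹} : Set F) := by
  have h12V : ∀ x ∈ pk15_chart R ({h, h⁻¹} : Set F), x ∈ V :=
    pk15_chart_le_V V hRV _ (by
      intro g hg
      rcases hg with rfl | hg
      · exact hhV
      · rw [Set.mem_singleton_iff] at hg; rw [hg]; exact hhV')
  exact sat23_chart π V hπV _ _ (pk15_chart_mono (by simp)) h12V hsat₁₂ h⁻¹ (inv_ne_zero hh0)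
    (pk15_subset_chart _ (Set.mem_singleton h⁻¹)) (by rw [inv_inv]; exact hhV)
    (pk15_chart_loc' h hh0) ((Ideal.Quotient.isDomain_iff_prime _).mp inferInstance)

end Small

/-! ### The Hauptmodul relations: `j ∈ R[h, h⁻¹]`, and `h`, `h⁻¹` integral over `R[j]` -/

section Relations

open Polynomial

variable {R F : Type*} [CommRing R] [Field F] (ev : Polynomial R →+* F)

omit [Field F] in
theorem sat23_monic_cubic [Nontrivial R] (a b : R) (k : ℕ) (hk : k < 3) :
    ((X + C a) ^ 3 - C b * X ^ k : Polynomial R).Monic := by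
  apply Monic.sub_of_left ((monic_X_add_C _).pow 3)
  refine lt_of_le_of_lt (degree_C_mul_X_pow_le k _) ?_
  rw [degree_eq_natDegree ((monic_X_add_C a).pow 3).ne_zero, (monic_X_add_C a).natDegree_pow,
    natDegree_X_add_C]
  exact_mod_cast (by omega : k < 3 * 1)

omit [Field F] in
theorem sat23_monic_quartic [Nontrivial R] (a a' b : R) (k : ℕ) (hk : k < 4) :
    ((X + C a) * (X + C a') ^ 3 - C b * X ^ k : Polynomial R).Monic := by
  have hm : ((X + C a) * (X + C a') ^ 3 : Polynomial R).Monic :=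
    (monic_X_add_C _).mul ((monic_X_add_C _).pow 3)
  apply Monic.sub_of_left hm
  refine lt_of_le_of_lt (degree_C_mul_X_pow_le k _) ?_
  rw [degree_eq_natDegree hm.ne_zero, (monic_X_add_C a).natDegree_mul ((monic_X_add_C a').pow 3),
    (monic_X_add_C a').natDegree_pow, natDegree_X_add_C, natDegree_X_add_C]
  exact_mod_cast (by omega : k < 1 + 3 * 1)

/-- level 2: `h` is integral over `R[j]`. -/
theorem sat23_rel2_int (h : F) (hrel : ev X * h ^ 2 = (h + 256) ^ 3) : ev.IsIntegralElem h := by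
  have : Nontrivial (Polynomial R) := ev.domain_nontrivial
  refine ⟨(X + C (256 : Polynomial R)) ^ 3 - C (X : Polynomial R) * X ^ 2,
    sat23_monic_cubic _ _ 2 (by norm_num), ?_⟩
  simp only [eval₂_sub, eval₂_pow, eval₂_add, eval₂_X, eval₂_C, eval₂_mul]
  simp only [map_ofNat]
  rw [hrel, sub_self]

/-- level 2: `h⁻¹` is integral over `R[j]` when `2` is invertible. -/
theorem sat23_rel2_int_inv (h : F) (hh0 : h ≠ 0) (hrel : ev X * h ^ 2 = (h + 256) ^ 3)
    (u : R) (hu : u * 256 = 1) : ev.IsIntegralElem h⁻¹ := by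
  have : Nontrivial (Polynomial R) := ev.domain_nontrivial
  have hc : ev (C u) * 256 = 1 := by
    have := congrArg (fun r => ev (C r)) hu
    simp only [map_mul, map_ofNat, map_one] at this
    exact this
  have hv : ev.IsIntegralElem (256 * h⁻¹) := by
    refine ⟨(X + C (1 : Polynomial R)) ^ 3 - C (C u * X : Polynomial R) * X ^ 1,
      sat23_monic_cubic _ _ 1 (by norm_num), ?_⟩
    simp only [eval₂_sub, eval₂_pow, eval₂_add, eval₂_X, eval₂_C, eval₂_mul]
    simp only [map_one, map_mul, pow_one]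
    have h1 : (256 * h⁻¹ + 1) ^ 3 = (h + 256) ^ 3 * (h⁻¹) ^ 3 := by
      field_simp
      ring
    rw [h1, ← hrel]
    have h2 : ev X * h ^ 2 * h⁻¹ ^ 3 = ev X * h⁻¹ := by
      field_simp
    rw [h2]
    linear_combination (-(ev X) * h⁻¹) * hc
  have : h⁻¹ = ev (C u) * (256 * h⁻¹) := by
    rw [← mul_assoc, hc, one_mul]
  rw [this]
  exact RingHom.IsIntegralElem.mul ev (ev.isIntegralElem_map) hv

/-- level 3: `h` is integral over `R[j]`. -/
theorem sat23_rel3_int (h : F) (hrel : ev X * h ^ 3 = (h + 27) * (h + 243) ^ 3) :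
    ev.IsIntegralElem h := by
  have : Nontrivial (Polynomial R) := ev.domain_nontrivial
  refine ⟨(X + C (27 : Polynomial R)) * (X + C (243 : Polynomial R)) ^ 3
    - C (X : Polynomial R) * X ^ 3, sat23_monic_quartic _ _ _ 3 (by norm_num), ?_⟩
  simp only [eval₂_sub, eval₂_pow, eval₂_add, eval₂_X, eval₂_C, eval₂_mul]
  simp only [map_ofNat]
  rw [hrel, sub_self]

/-- level 3: `h⁻¹` is integral over `R[j]` when `3` is invertible. -/
theorem sat23_rel3_int_inv (h : F) (hh0 : h ≠ 0)
    (hrel : ev X * h ^ 3 = (h + 27) * (h + 243) ^ 3)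
    (u : R) (hu : u * 3 = 1) : ev.IsIntegralElem h⁻¹ := by
  have : Nontrivial (Polynomial R) := ev.domain_nontrivial
  have hc : ev (C u) * 3 = 1 := by
    have := congrArg (fun r => ev (C r)) hu
    simp only [map_mul, map_ofNat, map_one] at this
    exact this
  have hc5 : ev (C u) ^ 5 * 243 = 1 := by
    have : (ev (C u) * 3) ^ 5 = 1 := by rw [hc, one_pow]
    rw [← this]; ring
  have hv : ev.IsIntegralElem (243 * h⁻¹) := by
    refine ⟨(X + C (9 : Polynomial R)) * (X + C (1 : Polynomial R)) ^ 3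
      - C (C (9 * u ^ 5) * X : Polynomial R) * X ^ 1, sat23_monic_quartic _ _ _ 1 (by norm_num), ?_⟩
    simp only [eval₂_sub, eval₂_pow, eval₂_add, eval₂_X, eval₂_C, eval₂_mul]
    simp only [map_one, map_mul, map_ofNat, map_pow, pow_one]
    have h1 : (243 * h⁻¹ + 9) * (243 * h⁻¹ + 1) ^ 3 =
        9 * ((h + 27) * (h + 243) ^ 3) * (h⁻¹) ^ 4 := by
      field_simp
      ring
    rw [h1, ← hrel]
    have h2 : 9 * (ev X * h ^ 3) * h⁻¹ ^ 4 = 9 * ev X * h⁻¹ := by
      field_simp
    rw [h2]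
    linear_combination (-(9 * ev X) * h⁻¹) * hc5
  have : h⁻¹ = ev (C u) ^ 5 * (243 * h⁻¹) := by
    rw [← mul_assoc, hc5, one_mul]
  rw [this]
  exact RingHom.IsIntegralElem.mul ev
    (by rw [← map_pow]; exact ev.isIntegralElem_map) hv

variable [Algebra R F]

/-- level 2: `j ∈ R[h, h⁻¹]`. -/
theorem sat23_rel2_mem (j h : F) (hh0 : h ≠ 0) (hrel : j * h ^ 2 = (h + 256) ^ 3) :
    j ∈ Algebra.adjoin R ({h, h⁻¹} : Set F) := by
  have h1 : j = (h + 256) ^ 3 * (h⁻¹) ^ 2 := by
    rw [← hrel]; field_simp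
  have hh : h ∈ Algebra.adjoin R ({h, h⁻¹} : Set F) := Algebra.subset_adjoin (by simp)
  have hh' : h⁻¹ ∈ Algebra.adjoin R ({h, h⁻¹} : Set F) := Algebra.subset_adjoin (by simp)
  have h256 : (256 : F) ∈ Algebra.adjoin R ({h, h⁻¹} : Set F) := by
    have := (Algebra.adjoin R ({h, h⁻¹} : Set F)).algebraMap_mem 256
    rwa [map_ofNat] at this
  rw [h1]
  exact Subalgebra.mul_mem _ (Subalgebra.pow_mem _ (Subalgebra.add_mem _ hh h256) 3)
    (Subalgebra.pow_mem _ hh' 2)

/-- level 3: `j ∈ R[h, h⁻¹]`. -/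
theorem sat23_rel3_mem (j h : F) (hh0 : h ≠ 0) (hrel : j * h ^ 3 = (h + 27) * (h + 243) ^ 3) :
    j ∈ Algebra.adjoin R ({h, h⁻¹} : Set F) := by
  have h1 : j = (h + 27) * (h + 243) ^ 3 * (h⁻¹) ^ 3 := by
    rw [← hrel]; field_simp
  have hh : h ∈ Algebra.adjoin R ({h, h⁻¹} : Set F) := Algebra.subset_adjoin (by simp)
  have hh' : h⁻¹ ∈ Algebra.adjoin R ({h, h⁻¹} : Set F) := Algebra.subset_adjoin (by simp)
  have h27 : (27 : F) ∈ Algebra.adjoin R ({h, h⁻¹} : Set F) := by
    have := (Algebra.adjoin R ({h, h⁻¹} : Set F)).algebraMap_mem 27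
    rwa [map_ofNat] at this
  have h243 : (243 : F) ∈ Algebra.adjoin R ({h, h⁻¹} : Set F) := by
    have := (Algebra.adjoin R ({h, h⁻¹} : Set F)).algebraMap_mem 243
    rwa [map_ofNat] at this
  rw [h1]
  exact Subalgebra.mul_mem _ (Subalgebra.mul_mem _ (Subalgebra.add_mem _ hh h27)
    (Subalgebra.pow_mem _ (Subalgebra.add_mem _ hh h243) 3)) (Subalgebra.pow_mem _ hh' 3)

end Relations

/-! ### The big chart `R[h, h⁻¹]~` is the integral closure of `R[j]` -/

section Chart12

open Polynomial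

variable {R F : Type*} [CommRing R] [Field F] [Algebra R F] (ev : Polynomial R →+* F)

/-- If `ev : R[X] → F` is an `R`-algebra map, `ev X ∈ R[h, h⁻¹]` and `h`, `h⁻¹` are integral over
`R[X]`, then the integral closure of `R[h, h⁻¹]` is the integral closure of `R[X]`. -/
theorem sat23_chart12_iff (hc : ∀ r : R, ev (C r) = algebraMap R F r) (h : F)
    (hj : ev X ∈ Algebra.adjoin R ({h, h⁻¹} : Set F))
    (hint : ev.IsIntegralElem h) (hint' : ev.IsIntegralElem h⁻¹) (x : F) :
    x ∈ pk15_chart R ({h, h⁻¹} : Set F) ↔ ev.IsIntegralElem x := by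
  let _ : Algebra (Polynomial R) F := ev.toAlgebra
  constructor
  · intro hx
    rw [pk15_mem_chart] at hx
    have hS : ∀ y ∈ Algebra.adjoin R ({h, h⁻¹} : Set F), y ∈ integralClosure (Polynomial R) F := by
      intro y hy
      induction hy using Algebra.adjoin_induction with
      | mem y hy =>
        rcases hy with rfl | hy
        · exact hint
        · rw [Set.mem_singleton_iff.mp hy]; exact hint'
      | algebraMap r =>
        rw [← hc r]
        exact ev.isIntegralElem_map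
      | add a b _ _ ha hb => exact Subalgebra.add_mem _ ha hb
      | mul a b _ _ ha hb => exact Subalgebra.mul_mem _ ha hb
    obtain ⟨p, hp, hpx⟩ := hx
    let ι : Algebra.adjoin R ({h, h⁻¹} : Set F) →+* integralClosure (Polynomial R) F :=
      { toFun := fun y => ⟨y, hS y y.2⟩
        map_one' := rfl
        map_mul' := fun _ _ => rfl
        map_zero' := rfl
        map_add' := fun _ _ => rfl }
    have h1 : IsIntegral (integralClosure (Polynomial R) F) x := by
      refine ⟨p.map ι, hp.map _, ?_⟩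
      rw [eval₂_map]
      exact hpx
    exact isIntegral_trans (R := Polynomial R) (A := integralClosure (Polynomial R) F) x h1
  · intro hx
    rw [pk15_mem_chart]
    have hmem : ∀ a : Polynomial R, ev a ∈ Algebra.adjoin R ({h, h⁻¹} : Set F) := by
      intro a
      induction a using Polynomial.induction_on with
      | C r => rw [hc r]; exact Subalgebra.algebraMap_mem _ r
      | add p q hp hq => rw [map_add]; exact Subalgebra.add_mem _ hp hq
      | monomial n r _ =>
        rw [map_mul, map_pow, hc r]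
        exact Subalgebra.mul_mem _ (Subalgebra.algebraMap_mem _ r) (Subalgebra.pow_mem _ hj _)
    obtain ⟨p, hp, hpx⟩ := hx
    refine ⟨p.map (ev.codRestrict (Algebra.adjoin R ({h, h⁻¹} : Set F)) hmem), hp.map _, ?_⟩
    rw [eval₂_map]
    exact hpx

end Chart12

/-! ### SAT for the three charts in the shape of `pk15_star` -/

section Final

variable (K : Type) [Field K] {R : Type*} [CommRing R] [Algebra R K] (M : ℕ)

theorem sat23_ev_C [Algebra R ↥(modularFunctionFieldFullC K M)]
    [IsScalarTower R K ↥(modularFunctionFieldFullC K M)] (r : R) :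
    rm90_ev K R M (Polynomial.C r) = algebraMap R ↥(modularFunctionFieldFullC K M) r := by
  rw [IsScalarTower.algebraMap_apply R K ↥(modularFunctionFieldFullC K M)]
  simp [rm90_ev, rm90_c]

theorem sat23_ev_X : rm90_ev K R M Polynomial.X = rm90_j K M := by
  simp [rm90_ev]

variable [IsDomain R] [UniqueFactorizationMonoid R] [ValuationRing R] [IsFractionRing R K]
  [NeZero M]
  [Algebra R ↥(modularFunctionFieldFullC K M)] [IsScalarTower R K ↥(modularFunctionFieldFullC K M)]

/-- **SAT(B₁₂)** in the shape of `pk15_star`: the chart `R[h, h⁻¹]~` of `F(M)_K` is saturated in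
the Gauss valuation ring, provided `j ∈ R[h, h⁻¹]` and `h`, `h⁻¹` are integral over `R[j]`. -/
theorem sat23_chart12 (π : R) (hπ : Prime π) (κ : Type) [Field κ] (red : R →+* κ)
    (hred : ∀ a : R, red a = 0 ↔ π ∣ a) (hM : (M : κ) ≠ 0)
    (hF : gv85_HF red (modularFunctionFieldFullC K M))
    (h : ↥(modularFunctionFieldFullC K M))
    (hj : rm90_j K M ∈ Algebra.adjoin R ({h, h⁻¹} : Set ↥(modularFunctionFieldFullC K M)))
    (hint : (rm90_ev K R M).IsIntegralElem h) (hint' : (rm90_ev K R M).IsIntegralElem h⁻¹) :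
    ∀ x ∈ pk15_chart R ({h, h⁻¹} : Set ↥(modularFunctionFieldFullC K M)),
      (algebraMap R ↥(modularFunctionFieldFullC K M) π)⁻¹ * x ∈
        gv85_V red (modularFunctionFieldFullC K M) hF →
      (algebraMap R ↥(modularFunctionFieldFullC K M) π)⁻¹ * x ∈
        pk15_chart R ({h, h⁻¹} : Set ↥(modularFunctionFieldFullC K M)) := by
  intro x hx hxV
  have hiff := sat23_chart12_iff (rm90_ev K R M) (sat23_ev_C K M) h
    (by rw [sat23_ev_X]; exact hj) hint hint'
  rw [hiff] at hx ⊢
  rw [IsScalarTower.algebraMap_apply R K ↥(modularFunctionFieldFullC K M)] at hxV ⊢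
  exact sat23_j K M π hπ κ red hred hM hF x hx hxV

/-- SAT for the big chart at level 2 (`j h² = (h + 256)³`, `2` invertible in `R`). -/
theorem sat23_level2 (π : R) (hπ : Prime π) (κ : Type) [Field κ] (red : R →+* κ)
    (hred : ∀ a : R, red a = 0 ↔ π ∣ a) (hM : (M : κ) ≠ 0)
    (hF : gv85_HF red (modularFunctionFieldFullC K M))
    (h : ↥(modularFunctionFieldFullC K M)) (hh0 : h ≠ 0)
    (hrel : rm90_j K M * h ^ 2 = (h + 256) ^ 3) (u : R) (hu : u * 256 = 1) :
    ∀ x ∈ pk15_chart R ({h, h⁻¹} : Set ↥(modularFunctionFieldFullC K M)),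
      (algebraMap R ↥(modularFunctionFieldFullC K M) π)⁻¹ * x ∈
        gv85_V red (modularFunctionFieldFullC K M) hF →
      (algebraMap R ↥(modularFunctionFieldFullC K M) π)⁻¹ * x ∈
        pk15_chart R ({h, h⁻¹} : Set ↥(modularFunctionFieldFullC K M)) := by
  have hrel' : rm90_ev K R M Polynomial.X * h ^ 2 = (h + 256) ^ 3 := by
    rw [sat23_ev_X]; exact hrel
  exact sat23_chart12 K M π hπ κ red hred hM hF h (sat23_rel2_mem _ h hh0 hrel)
    (sat23_rel2_int _ h hrel') (sat23_rel2_int_inv _ h hh0 hrel' u hu)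

/-- SAT for the big chart at level 3 (`j h³ = (h + 27)(h + 243)³`, `3` invertible in `R`). -/
theorem sat23_level3 (π : R) (hπ : Prime π) (κ : Type) [Field κ] (red : R →+* κ)
    (hred : ∀ a : R, red a = 0 ↔ π ∣ a) (hM : (M : κ) ≠ 0)
    (hF : gv85_HF red (modularFunctionFieldFullC K M))
    (h : ↥(modularFunctionFieldFullC K M)) (hh0 : h ≠ 0)
    (hrel : rm90_j K M * h ^ 3 = (h + 27) * (h + 243) ^ 3) (u : R) (hu : u * 3 = 1) :
    ∀ x ∈ pk15_chart R ({h, h⁻¹} : Set ↥(modularFunctionFieldFullC K M)),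
      (algebraMap R ↥(modularFunctionFieldFullC K M) π)⁻¹ * x ∈
        gv85_V red (modularFunctionFieldFullC K M) hF →
      (algebraMap R ↥(modularFunctionFieldFullC K M) π)⁻¹ * x ∈
        pk15_chart R ({h, h⁻¹} : Set ↥(modularFunctionFieldFullC K M)) := by
  have hrel' : rm90_ev K R M Polynomial.X * h ^ 3 = (h + 27) * (h + 243) ^ 3 := by
    rw [sat23_ev_X]; exact hrel
  exact sat23_chart12 K M π hπ κ red hred hM hF h (sat23_rel3_mem _ h hh0 hrel)
    (sat23_rel3_int _ h hrel') (sat23_rel3_int_inv _ h hh0 hrel' u hu)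

end Final

end Fermat.Agent.S18
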