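import Fermat.Agent.S18.ConstExtPlace25
import Fermat.Agent.S18.RElimJ29

/-!
# S18, row A8 (owner: helper25): constant field extension for the modular function fields

Instantiation of `cx_place_exists` (`ConstExtPlace25`) at
`E0 = modularFunctionFieldFullC K0 M` (any characteristic zero field `K0` with an algebraic
`Algebra K0 ℚ̄` structure, e.g. a number field inside `ℚ̄`) and `E = modularFunctionFieldBar M`,
for ANY ring hom `ι : E0 →+* E` which is `coeffMap (algebraMap K0 ℚ̄)` on underlying Laurent series:

* `cx_modular_place_exists` : every place `P` of `E0 / K0` extends to a place `P'` of `E / ℚ̄` with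
  `ord_{P'} (ι f) = ord_P f` for all `f`.
* `cx_modular_place_dvd` : divisibility of all orders over `ℚ̄` descends to `K0`.
* `cx_iota`, `cx_iota_coe` : the canonical such `ι`.
* `cx_coeffMap_mem_fullC` (functoriality in the constants), `cx_bar_eq_fullC`
  (`modularFunctionFieldBar M = modularFunctionFieldFullC ℚ̄ M`), `cx_modular_hgen`.

All hypotheses of `cx_place_exists` (transcendental coordinate `J`, finiteness over `K0(J)` and
`ℚ̄(J)`, generation) are discharged here (`relimc_finite`, `relimc_J_transcendental` of helper29).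
-/

set_option autoImplicit false
set_option linter.style.haveILetI false
set_option linter.unusedSectionVars false

namespace Fermat.Agent.S18

open AlgebraicCurve ModularCurve IntermediateField

section cx_modular_generic

/-- Transport of finiteness along an equality of intermediate fields. -/
theorem cx_finiteDimensional_transport {K L : Type*} [Field K] [Field L] [Algebra K L]
    {S T : IntermediateField K L} (h : S = T) (y : S) (z : T) (hyz : (y : L) = (z : L))
    [FiniteDimensional K⟮z⟯ T] : FiniteDimensional K⟮y⟯ S := by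
  subst h
  have hy : y = z := Subtype.ext hyz
  subst hy
  infer_instance

/-- `coeffMap` along a field homomorphism maps constants to constants. -/
theorem cx_coeffMap_algebraMap {K1 K2 : Type*} [Field K1] [Field K2] (φ : K1 →+* K2) (c : K1) :
    coeffMap φ (algebraMap K1 (LaurentSeries K1) c) =
      algebraMap K2 (LaurentSeries K2) (φ c) := by
  rw [algebraMap_laurentSeries_eq_single, algebraMap_laurentSeries_eq_single, coeffMap_single]

/-- Functoriality of `modularFunctionFieldFullC` in the constant field. -/
theorem cx_coeffMap_mem_fullC {K1 K2 : Type*} [Field K1] [Field K2] (φ : K1 →+* K2) (M : ℕ)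
    {x : LaurentSeries K1} (hx : x ∈ modularFunctionFieldFullC K1 M) :
    coeffMap φ x ∈ modularFunctionFieldFullC K2 M := by
  let S : IntermediateField K1 (LaurentSeries K1) :=
    { ((modularFunctionFieldFullC K2 M).toSubfield.comap (coeffMap φ)) with
      algebraMap_mem' := fun c => by
        show coeffMap φ (algebraMap K1 (LaurentSeries K1) c) ∈ modularFunctionFieldFullC K2 M
        rw [cx_coeffMap_algebraMap]
        exact IntermediateField.algebraMap_mem _ _ }
  have hle : modularFunctionFieldFullC K1 M ≤ S := by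
    rw [modularFunctionFieldFullC, IntermediateField.adjoin_le_iff]
    rintro y ⟨d, hd, hdM, rfl⟩
    haveI := hd
    show coeffMap φ (qExpand K1 d (jqModC K1)) ∈ modularFunctionFieldFullC K2 M
    rw [coeffMap_qExpand, coeffMap_jqModC]
    exact jqModCd_mem_full K2 M hdM
  exact hle hx

/-- The formal function field over `ℚ̄` in its two presentations. -/
theorem cx_bar_eq_fullC (M : ℕ) :
    modularFunctionFieldBar M = modularFunctionFieldFullC (AlgebraicClosure ℚ) M := by
  apply le_antisymm
  · show laurentBaseChange (AlgebraicClosure ℚ) (modularFunctionFieldFull M) ≤ _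
    unfold laurentBaseChange
    rw [IntermediateField.adjoin_le_iff]
    rintro y ⟨x, hx, rfl⟩
    exact cx_coeffMap_mem_fullC (algebraMap ℚ (AlgebraicClosure ℚ)) M
      (by rwa [modularFunctionFieldFullC_rat])
  · rw [modularFunctionFieldFullC, IntermediateField.adjoin_le_iff]
    rintro y ⟨d, hd, hdM, rfl⟩
    haveI := hd
    have h1 : qExpand (AlgebraicClosure ℚ) d (jqModC (AlgebraicClosure ℚ)) =
        coeffEmb (AlgebraicClosure ℚ) (qExpand ℚ d jq) := by
      rw [coeffEmb, coeffMap_qExpand, ← jqModC_rat, coeffMap_jqModC]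
    rw [h1]
    exact coeffEmb_mem_laurentBaseChange _ (jqd_mem_full M hdM)

end cx_modular_generic

section cx_modular

variable (K0 : Type) [Field K0] [CharZero K0] [Algebra K0 (AlgebraicClosure ℚ)] (M : ℕ)

/-- `ℚ̄` is algebraic over every field mapping to it. -/
theorem cx_isAlgebraic_closure : Algebra.IsAlgebraic K0 (AlgebraicClosure ℚ) := by
  refine ⟨fun y => ?_⟩
  obtain ⟨p, hp0, hp⟩ := (AlgebraicClosure.isAlgebraic ℚ).isAlgebraic y
  refine ⟨p.map (algebraMap ℚ K0), ?_, ?_⟩
  · rwa [Ne, Polynomial.map_eq_zero]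
  · rw [Polynomial.aeval_def, Polynomial.eval₂_map]
    rw [Polynomial.aeval_def] at hp
    rw [← hp]
    congr 1
    exact Subsingleton.elim _ _

/-- The canonical map `F(M)_{K0} → F(M)_{ℚ̄}`: `coeffMap` along `K0 → ℚ̄`. -/
noncomputable def cx_iota :
    ↥(modularFunctionFieldFullC K0 M) →+* ↥(modularFunctionFieldBar M) :=
  ((coeffMap (algebraMap K0 (AlgebraicClosure ℚ))).comp
    (algebraMap ↥(modularFunctionFieldFullC K0 M) (LaurentSeries K0))).codRestrict
      (modularFunctionFieldBar M) (fun f => by
        rw [cx_bar_eq_fullC]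
        exact cx_coeffMap_mem_fullC (algebraMap K0 (AlgebraicClosure ℚ)) M f.2)

theorem cx_iota_coe (f : ↥(modularFunctionFieldFullC K0 M)) :
    ((cx_iota K0 M f : ↥(modularFunctionFieldBar M)) : LaurentSeries (AlgebraicClosure ℚ)) =
      coeffMap (algebraMap K0 (AlgebraicClosure ℚ)) (f : LaurentSeries K0) := rfl

variable {K0 M}

/-- `F(M)_{ℚ̄}` is generated over `ℚ̄` by the image of `F(M)_{K0}`. -/
theorem cx_modular_hgen
    (ι : ↥(modularFunctionFieldFullC K0 M) →+* ↥(modularFunctionFieldBar M))
    (hι : ∀ f : ↥(modularFunctionFieldFullC K0 M),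
      ((ι f : ↥(modularFunctionFieldBar M)) : LaurentSeries (AlgebraicClosure ℚ)) =
        coeffMap (algebraMap K0 (AlgebraicClosure ℚ)) (f : LaurentSeries K0)) :
    IntermediateField.adjoin (AlgebraicClosure ℚ) (Set.range ι) = ⊤ := by
  apply IntermediateField.lift_injective
  rw [lift_top, lift_adjoin]
  apply le_antisymm
  · rw [IntermediateField.adjoin_le_iff]
    rintro y ⟨z, -, rfl⟩
    exact z.2
  · show laurentBaseChange (AlgebraicClosure ℚ) (modularFunctionFieldFull M) ≤ _
    unfold laurentBaseChange
    rw [IntermediateField.adjoin_le_iff]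
    rintro y ⟨x, hx, rfl⟩
    have hx' : coeffMap (algebraMap ℚ K0) x ∈ modularFunctionFieldFullC K0 M :=
      cx_coeffMap_mem_fullC (algebraMap ℚ K0) M (by rwa [modularFunctionFieldFullC_rat])
    have h1 : coeffEmb (AlgebraicClosure ℚ) x =
        ((ι ⟨coeffMap (algebraMap ℚ K0) x, hx'⟩ : ↥(modularFunctionFieldBar M)) :
          LaurentSeries (AlgebraicClosure ℚ)) := by
      rw [hι, coeffEmb]
      show _ = coeffMap (algebraMap K0 (AlgebraicClosure ℚ)) (coeffMap (algebraMap ℚ K0) x)
      rw [coeffMap_coeffMap]
      exact coeffMap_congr (Subsingleton.elim _ _) x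
    rw [h1]
    exact IntermediateField.subset_adjoin _ _ ⟨_, ⟨_, rfl⟩, rfl⟩

/-- **Constant field extension for the modular function fields.**  Every place of
`F(M)_{K0} / K0` extends to a place of `F(M)_{ℚ̄} / ℚ̄` with the same orders (ramification
index one). -/
theorem cx_modular_place_exists [NeZero M]
    (ι : ↥(modularFunctionFieldFullC K0 M) →+* ↥(modularFunctionFieldBar M))
    (hι : ∀ f : ↥(modularFunctionFieldFullC K0 M),
      ((ι f : ↥(modularFunctionFieldBar M)) : LaurentSeries (AlgebraicClosure ℚ)) =
        coeffMap (algebraMap K0 (AlgebraicClosure ℚ)) (f : LaurentSeries K0))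
    (P : Place K0 ↥(modularFunctionFieldFullC K0 M)) :
    ∃ P' : Place (AlgebraicClosure ℚ) ↥(modularFunctionFieldBar M),
      ∀ f : ↥(modularFunctionFieldFullC K0 M), P'.ord (ι f) = P.ord f := by
  haveI := cx_isAlgebraic_closure K0
  haveI := relimc_finite K0 M
  haveI := relimc_finite (AlgebraicClosure ℚ) M
  have hιx : ((ι (relimc_J K0 M) : ↥(modularFunctionFieldBar M)) :
      LaurentSeries (AlgebraicClosure ℚ)) =
      ((relimc_J (AlgebraicClosure ℚ) M : ↥(modularFunctionFieldFullC (AlgebraicClosure ℚ) M)) :
        LaurentSeries (AlgebraicClosure ℚ)) := by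
    rw [hι, relimc_J_coe, relimc_J_coe, coeffMap_jqModC]
  haveI : FiniteDimensional (AlgebraicClosure ℚ)⟮ι (relimc_J K0 M)⟯
      ↥(modularFunctionFieldBar M) :=
    cx_finiteDimensional_transport (cx_bar_eq_fullC M) _ (relimc_J (AlgebraicClosure ℚ) M) hιx
  refine cx_place_exists ι ?_ (relimc_J K0 M) (relimc_J_transcendental K0 M)
    (cx_modular_hgen ι hι) P
  intro c
  apply Subtype.ext
  rw [hι]
  exact cx_coeffMap_algebraMap _ c

/-- **Descent of divisibility of orders** from `F(M)_{ℚ̄}` to `F(M)_{K0}`. -/
theorem cx_modular_place_dvd [NeZero M]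
    (ι : ↥(modularFunctionFieldFullC K0 M) →+* ↥(modularFunctionFieldBar M))
    (hι : ∀ f : ↥(modularFunctionFieldFullC K0 M),
      ((ι f : ↥(modularFunctionFieldBar M)) : LaurentSeries (AlgebraicClosure ℚ)) =
        coeffMap (algebraMap K0 (AlgebraicClosure ℚ)) (f : LaurentSeries K0))
    (m : ℤ) (u : ↥(modularFunctionFieldFullC K0 M))
    (h : ∀ P' : Place (AlgebraicClosure ℚ) ↥(modularFunctionFieldBar M), m ∣ P'.ord (ι u))
    (P : Place K0 ↥(modularFunctionFieldFullC K0 M)) : m ∣ P.ord u := by
  obtain ⟨P', hP'⟩ := cx_modular_place_exists ι hι P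
  rw [← hP' u]
  exact h P'

end cx_modular

end Fermat.Agent.S18
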