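import Mathlib
import Fermat.Prelude.Def_FLTPrelim_Ramification

/-!
# S18 glue (helper23): the base ring `R = A ∩ K₀` is a discrete valuation ring

`A` is a valuation subring of `ℚ̄` (value group `ℚ`, not noetherian).  The commutative algebra of
the S18 project works over a discrete valuation ring; this module provides it:
for a number field `K₀ ⊆ ℚ̄` the valuation subring `A.comap (algebraMap K₀ ℚ̄)` of `K₀` is a DVR,
its maximal ideal is the trace of the maximal ideal of `A`, and its residue field embeds into the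
residue field of `A`.
-/

set_option autoImplicit false

open IsDedekindDomain

namespace Fermat.Agent.S18

section Dedekind

variable {D K : Type*} [CommRing D] [IsDedekindDomain D] [Field K] [Algebra D K]
  [IsFractionRing D K]

/-- A valuation subring `V ≠ ⊤` of the fraction field of a Dedekind domain `D`, containing `D`,
is the valuation subring of a height one prime of `D`. -/
theorem nf23_exists_heightOneSpectrum (V : ValuationSubring K)
    (hDV : ∀ d : D, algebraMap D K d ∈ V) (hV : V ≠ ⊤) :
    ∃ v : HeightOneSpectrum D, V = (v.valuation K).valuationSubring ∧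
      ∀ d : D, d ∈ v.asIdeal ↔ algebraMap D K d ∈ V.nonunits := by
  classical
  -- the centre of `V` on `D`
  let φ : D →+* V := (algebraMap D K).codRestrict V.toSubring hDV
  let P : Ideal D := (IsLocalRing.maximalIdeal V).comap φ
  have hPmem : ∀ d : D, d ∈ P ↔ algebraMap D K d ∈ V.nonunits := by
    intro d
    show φ d ∈ IsLocalRing.maximalIdeal V ↔ _
    rw [← ValuationSubring.coe_mem_nonunits_iff]
    rfl
  have hPprime : P.IsPrime := Ideal.comap_isPrime φ _
  have hPne : P ≠ ⊥ := by
    intro hbot
    apply hV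
    refine SetLike.ext fun x => ⟨fun _ => ValuationSubring.mem_top x, fun _ => ?_⟩
    obtain ⟨a, b, hb, rfl⟩ := IsFractionRing.div_surjective (A := D) x
    have hb0 : b ≠ 0 := nonZeroDivisors.ne_zero hb
    have hbK : algebraMap D K b ≠ 0 :=
      IsFractionRing.to_map_ne_zero_of_mem_nonZeroDivisors hb
    have hbP : b ∉ P := by
      rw [hbot]
      simpa using hb0
    rw [hPmem, ValuationSubring.mem_nonunits_iff_or] at hbP
    push Not at hbP
    rw [div_eq_mul_inv]
    exact V.mul_mem _ _ (hDV a) hbP.2
  let v : HeightOneSpectrum D := ⟨P, hPprime, hPne⟩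
  refine ⟨v, ?_, hPmem⟩
  have hle : (v.valuation K).valuationSubring ≤ V := by
    intro x hx
    obtain ⟨n, d, hnd⟩ := v.exists_primeCompl_mul_eq_of_integer x hx
    have hdP : (d : D) ∉ P := d.2
    rw [hPmem, ValuationSubring.mem_nonunits_iff_or] at hdP
    push Not at hdP
    have hx' : x = algebraMap D K n * (algebraMap D K d)⁻¹ := by
      rw [← hnd, mul_assoc, mul_inv_cancel₀ hdP.1, mul_one]
    rw [hx']
    exact V.mul_mem _ _ (hDV n) hdP.2
  rw [← v.valuationSubringAtPrime_eq_valuationSubring] at hle ⊢
  exact (ValuationSubring.eq_of_le_of_ne_top _ hle hV).symm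

/-- A valuation subring `V ≠ ⊤` of the fraction field of a Dedekind domain `D`, containing `D`,
is a discrete valuation ring. -/
theorem nf23_isDVR_of_dedekind (V : ValuationSubring K)
    (hDV : ∀ d : D, algebraMap D K d ∈ V) (hV : V ≠ ⊤) : IsDiscreteValuationRing V := by
  obtain ⟨v, hv, -⟩ := nf23_exists_heightOneSpectrum V hDV hV
  rw [← v.valuationSubringAtPrime_eq_valuationSubring] at hv
  subst hv
  exact IsLocalization.AtPrime.isDiscreteValuationRing_of_dedekind_domain D v.ne_bot _

end Dedekind

section NumberField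

/-- Every valuation subring `V ≠ ⊤` of a number field is a discrete valuation ring. -/
theorem nf23_isDVR {K : Type*} [Field K] [NumberField K] (V : ValuationSubring K)
    (hV : V ≠ ⊤) : IsDiscreteValuationRing V := by
  refine nf23_isDVR_of_dedekind (D := NumberField.RingOfIntegers K) V (fun d => ?_) hV
  have h1 : IsIntegral ℤ (algebraMap (NumberField.RingOfIntegers K) K d) :=
    NumberField.RingOfIntegers.isIntegral_coe d
  have h2 : IsIntegral V (algebraMap (NumberField.RingOfIntegers K) K d) := h1.tower_top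
  obtain ⟨y, hy⟩ := (IsIntegrallyClosed.isIntegral_iff (R := V) (K := K)).mp h2
  rw [← hy]
  exact y.2

end NumberField

section Comap

variable {K L : Type*} [Field K] [Field L] (f : K →+* L) (A : ValuationSubring L)

/-- The maximal ideal of `A ∩ K` is the trace of the maximal ideal of `A`. -/
theorem nf23_mem_nonunits_comap (x : K) : x ∈ (A.comap f).nonunits ↔ f x ∈ A.nonunits := by
  rw [ValuationSubring.mem_nonunits_iff_or, ValuationSubring.mem_nonunits_iff_or,
    ValuationSubring.mem_comap, map_inv₀, map_eq_zero]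

theorem nf23_comap_ne_top {x : K} (hx : x ≠ 0) (hxA : f x ∈ A.nonunits) : A.comap f ≠ ⊤ := by
  intro htop
  have h1 : x ∈ (A.comap f).nonunits := (nf23_mem_nonunits_comap f A x).mpr hxA
  rw [ValuationSubring.mem_nonunits_iff_or, htop] at h1
  rcases h1 with h1 | h1
  · exact hx h1
  · exact h1 (ValuationSubring.mem_top _)

/-- **The base ring of the S18 project**: for a number field `K` mapping to `L` and a valuation
subring `A` of `L` in which a nonzero natural number `ℓ` is a non-unit, `A ∩ K` is a discrete
valuation ring. -/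
theorem nf23_comap_isDVR [NumberField K] {ℓ : ℕ} (hℓ0 : ℓ ≠ 0) (hℓ : (ℓ : L) ∈ A.nonunits) :
    IsDiscreteValuationRing (A.comap f) := by
  refine nf23_isDVR _ (nf23_comap_ne_top f A (x := (ℓ : K)) (Nat.cast_ne_zero.mpr hℓ0) ?_)
  rwa [map_natCast]

/-- In the Prelude's language: `A.LiesOverPrime ℓ`. -/
theorem nf23_comap_isDVR_of_liesOverPrime [NumberField K] {ℓ : ℕ} (hℓ0 : ℓ ≠ 0)
    (hA : A.LiesOverPrime ℓ) : IsDiscreteValuationRing (A.comap f) :=
  nf23_comap_isDVR f A hℓ0 hA

/-- A uniformiser of `A ∩ K`: it is a non-unit of `A` and it divides, inside `A ∩ K`, every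
element of `K` which is a non-unit of `A`. -/
theorem nf23_exists_uniformizer [IsDiscreteValuationRing (A.comap f)] :
    ∃ ϖ : A.comap f, Irreducible ϖ ∧ f (ϖ : K) ∈ A.nonunits ∧
      ∀ x : K, f x ∈ A.nonunits → ∃ y : A.comap f, x = (ϖ : K) * (y : K) := by
  obtain ⟨ϖ, hϖ⟩ := IsDiscreteValuationRing.exists_irreducible (A.comap f)
  have hmax := hϖ.maximalIdeal_eq
  refine ⟨ϖ, hϖ, ?_, ?_⟩
  · rw [← nf23_mem_nonunits_comap, ValuationSubring.coe_mem_nonunits_iff, hmax]
    exact Ideal.mem_span_singleton_self ϖ
  · intro x hx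
    rw [← nf23_mem_nonunits_comap] at hx
    have hxR : x ∈ A.comap f := ValuationSubring.nonunits_subset hx
    have hx' : (⟨x, hxR⟩ : A.comap f) ∈ IsLocalRing.maximalIdeal (A.comap f) := by
      rw [← ValuationSubring.coe_mem_nonunits_iff]
      exact hx
    rw [hmax, Ideal.mem_span_singleton] at hx'
    obtain ⟨y, hy⟩ := hx'
    exact ⟨y, congrArg Subtype.val hy⟩

/-- The inclusion `A ∩ K → A`. -/
def nf23_comapHom : A.comap f →+* A :=
  (f.comp (A.comap f).subtype).codRestrict A.toSubring fun x => x.2

@[simp]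
theorem nf23_comapHom_coe (x : A.comap f) : (nf23_comapHom f A x : L) = f (x : K) := rfl

theorem nf23_comapHom_injective : Function.Injective (nf23_comapHom f A) := by
  intro x y hxy
  have h := congrArg Subtype.val hxy
  rw [nf23_comapHom_coe, nf23_comapHom_coe] at h
  exact Subtype.ext (f.injective h)

instance nf23_isLocalHom_comapHom : IsLocalHom (nf23_comapHom f A) where
  map_nonunit x hx := by
    by_contra hnu
    have h1 : x ∈ IsLocalRing.maximalIdeal (A.comap f) := hnu
    rw [← ValuationSubring.coe_mem_nonunits_iff, nf23_mem_nonunits_comap] at h1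
    have h2 : nf23_comapHom f A x ∈ IsLocalRing.maximalIdeal A := by
      rw [← ValuationSubring.coe_mem_nonunits_iff]
      exact h1
    exact h2 hx

/-- The embedding of residue fields `κ(A ∩ K) → κ(A)`. -/
noncomputable def nf23_resMap :
    IsLocalRing.ResidueField (A.comap f) →+* IsLocalRing.ResidueField A :=
  IsLocalRing.ResidueField.map (nf23_comapHom f A)

theorem nf23_resMap_residue (x : A.comap f) :
    nf23_resMap f A (IsLocalRing.residue (A.comap f) x) =
      IsLocalRing.residue A (nf23_comapHom f A x) :=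
  IsLocalRing.ResidueField.map_residue _ x

theorem nf23_resMap_comp_residue :
    (nf23_resMap f A).comp (IsLocalRing.residue (A.comap f)) =
      (IsLocalRing.residue A).comp (nf23_comapHom f A) :=
  RingHom.ext fun x => nf23_resMap_residue f A x

theorem nf23_resMap_injective : Function.Injective (nf23_resMap f A) :=
  (nf23_resMap f A).injective

/-- A natural number prime to a natural number `ℓ` that is a non-unit of `A` is a unit of `A`. -/
theorem nf23_natCast_inv_mem {ℓ m : ℕ} (hℓ : (ℓ : L) ∈ A.nonunits) (hm : Nat.Coprime m ℓ) :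
    (m : L) ≠ 0 ∧ (m : L)⁻¹ ∈ A := by
  have hmA : (m : L) ∉ A.nonunits := by
    intro hmn
    have hb : (m : ℤ) * Nat.gcdA m ℓ + (ℓ : ℤ) * Nat.gcdB m ℓ = 1 := by
      have := Nat.gcd_eq_gcd_ab m ℓ
      rw [hm] at this
      exact_mod_cast this.symm
    have hL : (m : L) * ((Nat.gcdA m ℓ : ℤ) : L) + (ℓ : L) * ((Nat.gcdB m ℓ : ℤ) : L) = 1 := by
      exact_mod_cast congrArg (Int.cast : ℤ → L) hb
    have key : ∀ (x : L) (z : ℤ), x ∈ A.nonunits → x * (z : L) ∈ A.nonunits := by
      intro x z hx
      rw [ValuationSubring.mem_nonunits_iff] at hx ⊢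
      rw [map_mul]
      have hz : A.valuation (z : L) ≤ 1 :=
        (A.valuation_le_one_iff _).mpr (intCast_mem A z)
      exact mul_lt_one_of_lt_of_le hx hz
    have h1 : (1 : L) ∈ A.nonunits := by
      rw [← hL]
      exact add_mem (key _ _ hmn) (key _ _ hℓ)
    rw [ValuationSubring.mem_nonunits_iff, map_one] at h1
    exact lt_irrefl _ h1
  rw [ValuationSubring.mem_nonunits_iff_or] at hmA
  push Not at hmA
  exact hmA

/-- `m` prime to `ℓ` is invertible in `A ∩ K`. -/
theorem nf23_exists_natCast_mul_eq_one {ℓ m : ℕ} (hℓ : (ℓ : L) ∈ A.nonunits)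
    (hm : Nat.Coprime m ℓ) : ∃ μ : A.comap f, ((m : ℕ) : A.comap f) * μ = 1 := by
  obtain ⟨hm0, hminv⟩ := nf23_natCast_inv_mem A hℓ hm
  have hmK : (m : K) ≠ 0 := by
    intro h
    apply hm0
    rw [← map_natCast f, h, map_zero]
  have hmem : (m : K)⁻¹ ∈ A.comap f := by
    rw [ValuationSubring.mem_comap, map_inv₀, map_natCast]
    exact hminv
  refine ⟨⟨(m : K)⁻¹, hmem⟩, Subtype.ext ?_⟩
  show ((m : A.comap f) : K) * (m : K)⁻¹ = 1
  rw [show ((m : A.comap f) : K) = (m : K) from rfl, mul_inv_cancel₀ hmK]

end Comap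

section Finite

/-- Finitely many elements of an algebraic extension of `ℚ` lie in a number field. -/
theorem nf23_exists_numberField {L : Type*} [Field L] [Algebra ℚ L] [Algebra.IsAlgebraic ℚ L]
    (S : Finset L) :
    ∃ K₀ : IntermediateField ℚ L, NumberField K₀ ∧ (S : Set L) ⊆ K₀ := by
  refine ⟨IntermediateField.adjoin ℚ (S : Set L), ?_, IntermediateField.subset_adjoin ℚ _⟩
  have hfd : FiniteDimensional ℚ (IntermediateField.adjoin ℚ (S : Set L)) :=
    IntermediateField.finiteDimensional_adjoin (S := (S : Set L)) fun x _ =>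
      (Algebra.IsAlgebraic.isAlgebraic (R := ℚ) x).isIntegral
  refine { to_charZero := inferInstance, to_finiteDimensional := ?_ }
  convert hfd
  exact Subsingleton.elim _ _

end Finite

end Fermat.Agent.S18
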