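import Mathlib
import Fermat.Prelude.Def_ModularCurve_ArithmeticGalois
import Fermat.Prelude.Def_ModularCurve_X0ModL
import Fermat.Agent.S18.NumFieldDVR23

/-!
# S18 (helper27): field of definition of elements of `modularFunctionFieldBar M`

The glue `(G1)`-`(G3)` between the Kummer statement over `(ℚ̄, A)` and the commutative algebra
over a number field `K₀ ⊆ ℚ̄` with the discrete valuation ring `R = A ∩ K₀`.

* `fd27_coeffMap_mem`: `coeffMap φ` maps `modularFunctionFieldFullC K₁ M` into
  `modularFunctionFieldFullC K₂ M` for every field homomorphism `φ : K₁ →+* K₂`.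
* `fd27_bar_eq`: `modularFunctionFieldBar M = modularFunctionFieldFullC ℚ̄ M`.
* `fd27_iota φ M : F_K(M) →+* F_{ℚ̄}(M)` with `fd27_iota_coe`, `fd27_iota_algebraMap`,
  `fd27_iota_adjoin` (the image generates `F_{ℚ̄}(M)` over `ℚ̄`).
* `fd27_exists`, `fd27_exists_pair`: finitely many elements of `modularFunctionFieldBar M`
  (and finitely many algebraic numbers, and roots of unity of given orders) are defined over a
  number field `K₀ ⊆ ℚ̄`: `x = coeffMap (algebraMap K₀ ℚ̄) y`, `y ∈ modularFunctionFieldFullC K₀ M`.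
* `fd27_integral`: integrality of coefficients descends to `R = A ∩ K₀`, compatibly with
  reduction.
* `fd27_S0`: all of the above for the pair `(a, b)` of the Kummer statement.
-/

set_option autoImplicit false

open ModularCurve IntermediateField

namespace Fermat.Agent.S18

local notation "Qbar" => AlgebraicClosure ℚ

theorem fd27_coeffMap_algebraMap {K1 K2 : Type*} [Field K1] [Field K2] (φ : K1 →+* K2)
    (c : K1) :
    coeffMap φ (algebraMap K1 (LaurentSeries K1) c) = algebraMap K2 (LaurentSeries K2) (φ c) := by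
  rw [algebraMap_laurentSeries_eq_single, algebraMap_laurentSeries_eq_single, coeffMap_single]

/-- Functoriality of `modularFunctionFieldFullC` in the constant field. -/
theorem fd27_coeffMap_mem {K1 K2 : Type*} [Field K1] [Field K2] (φ : K1 →+* K2) (M : ℕ)
    {x : LaurentSeries K1} (hx : x ∈ modularFunctionFieldFullC K1 M) :
    coeffMap φ x ∈ modularFunctionFieldFullC K2 M := by
  unfold modularFunctionFieldFullC at hx
  induction hx using IntermediateField.adjoin_induction with
  | mem y hy =>
    obtain ⟨d, hne, hd, rfl⟩ := hy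
    have := hne
    have h1 : coeffMap φ (qExpand K1 d (jqModC K1)) = qExpand K2 d (jqModC K2) :=
      coeffMap_jqNModC φ d
    rw [h1]
    exact jqModCd_mem_full K2 M hd
  | algebraMap c =>
    rw [fd27_coeffMap_algebraMap]
    exact IntermediateField.algebraMap_mem _ _
  | add x y _ _ hx hy => rw [map_add]; exact add_mem hx hy
  | inv x _ hx => rw [map_inv₀]; exact inv_mem hx
  | mul x y _ _ hx hy => rw [map_mul]; exact mul_mem hx hy

/-- `modularFunctionFieldBar M` is the field `ℚ̄(J(q^d) : d ∣ M)`. -/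
theorem fd27_bar_eq (M : ℕ) : modularFunctionFieldBar M = modularFunctionFieldFullC Qbar M := by
  apply le_antisymm
  · unfold modularFunctionFieldBar laurentBaseChange
    rw [IntermediateField.adjoin_le_iff]
    rintro _ ⟨z, hz, rfl⟩
    exact fd27_coeffMap_mem (algebraMap ℚ Qbar) M hz
  · unfold modularFunctionFieldFullC
    rw [IntermediateField.adjoin_le_iff]
    rintro _ ⟨d, hne, hd, rfl⟩
    have := hne
    have h1 : coeffEmb Qbar (qExpand ℚ d (jqModC ℚ)) = qExpand Qbar d (jqModC Qbar) :=
      coeffMap_jqNModC (algebraMap ℚ Qbar) d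
    rw [← h1]
    exact coeffEmb_mem_laurentBaseChange Qbar (jqModCd_mem_full ℚ M hd)

/-- Enlarging the field of definition. -/
theorem fd27_lift {K0 K1 : IntermediateField ℚ Qbar} (h : K0 ≤ K1) (M : ℕ)
    (y : LaurentSeries K0) (hy : y ∈ modularFunctionFieldFullC K0 M) :
    ∃ y' : LaurentSeries K1, y' ∈ modularFunctionFieldFullC K1 M ∧
      coeffMap (algebraMap K1 Qbar) y' = coeffMap (algebraMap K0 Qbar) y := by
  refine ⟨coeffMap (IntermediateField.inclusion h : K0 →+* K1) y, fd27_coeffMap_mem _ M hy, ?_⟩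
  rw [coeffMap_coeffMap]
  exact coeffMap_congr (RingHom.ext fun _ => rfl) y

/-- Every element of `modularFunctionFieldBar M` is defined over a number field. -/
theorem fd27_exists_one (M : ℕ) (x : LaurentSeries Qbar) (hx : x ∈ modularFunctionFieldBar M) :
    ∃ K0 : IntermediateField ℚ Qbar, FiniteDimensional ℚ K0 ∧
      ∃ y : LaurentSeries K0, y ∈ modularFunctionFieldFullC K0 M ∧
        coeffMap (algebraMap K0 Qbar) y = x := by
  unfold modularFunctionFieldBar laurentBaseChange at hx
  induction hx using IntermediateField.adjoin_induction with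
  | mem x hx =>
    obtain ⟨z, hz, rfl⟩ := hx
    refine ⟨⊥, inferInstance, coeffMap (algebraMap ℚ (⊥ : IntermediateField ℚ Qbar)) z,
      fd27_coeffMap_mem _ M hz, ?_⟩
    rw [coeffMap_coeffMap]
    exact coeffMap_congr (RingHom.ext fun _ => rfl) z
  | algebraMap c =>
    have hc : IsIntegral ℚ c := ((AlgebraicClosure.isAlgebraic ℚ).isAlgebraic c).isIntegral
    refine ⟨ℚ⟮c⟯, IntermediateField.adjoin.finiteDimensional hc,
      algebraMap ℚ⟮c⟯ (LaurentSeries ℚ⟮c⟯) ⟨c, mem_adjoin_simple_self ℚ c⟩,
      IntermediateField.algebraMap_mem _ _, ?_⟩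
    rw [fd27_coeffMap_algebraMap]
    rfl
  | add x y _ _ hx hy =>
    obtain ⟨K1, hK1, y1, hy1, rfl⟩ := hx
    obtain ⟨K2, hK2, y2, hy2, rfl⟩ := hy
    obtain ⟨z1, hz1, hz1'⟩ := fd27_lift (le_sup_left : K1 ≤ K1 ⊔ K2) M y1 hy1
    obtain ⟨z2, hz2, hz2'⟩ := fd27_lift (le_sup_right : K2 ≤ K1 ⊔ K2) M y2 hy2
    exact ⟨K1 ⊔ K2, IntermediateField.finiteDimensional_sup K1 K2, z1 + z2, add_mem hz1 hz2,
      by rw [map_add, hz1', hz2']⟩
  | inv x _ hx =>
    obtain ⟨K1, hK1, y1, hy1, rfl⟩ := hx
    exact ⟨K1, hK1, y1⁻¹, inv_mem hy1, by rw [map_inv₀]⟩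
  | mul x y _ _ hx hy =>
    obtain ⟨K1, hK1, y1, hy1, rfl⟩ := hx
    obtain ⟨K2, hK2, y2, hy2, rfl⟩ := hy
    obtain ⟨z1, hz1, hz1'⟩ := fd27_lift (le_sup_left : K1 ≤ K1 ⊔ K2) M y1 hy1
    obtain ⟨z2, hz2, hz2'⟩ := fd27_lift (le_sup_right : K2 ≤ K1 ⊔ K2) M y2 hy2
    exact ⟨K1 ⊔ K2, IntermediateField.finiteDimensional_sup K1 K2, z1 * z2, mul_mem hz1 hz2,
      by rw [map_mul, hz1', hz2']⟩

/-- **(G2), finite form.** Finitely many elements of `modularFunctionFieldBar M` and finitely
many algebraic numbers are defined over one number field `K₀ ⊆ ℚ̄`. -/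
theorem fd27_exists (M : ℕ) (S : Finset (LaurentSeries Qbar))
    (hS : ∀ x ∈ S, x ∈ modularFunctionFieldBar M) (T : Finset Qbar) :
    ∃ K0 : IntermediateField ℚ Qbar, FiniteDimensional ℚ K0 ∧ (∀ t ∈ T, t ∈ K0) ∧
      ∀ x ∈ S, ∃ y : LaurentSeries K0, y ∈ modularFunctionFieldFullC K0 M ∧
        coeffMap (algebraMap K0 Qbar) y = x := by
  classical
  induction S using Finset.induction_on with
  | empty =>
    refine ⟨IntermediateField.adjoin ℚ (T : Set Qbar), ?_, ?_, ?_⟩
    · exact IntermediateField.finiteDimensional_adjoin (S := (T : Set Qbar)) fun x _ =>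
        ((AlgebraicClosure.isAlgebraic ℚ).isAlgebraic x).isIntegral
    · intro t ht
      exact IntermediateField.subset_adjoin ℚ _ (Finset.mem_coe.mpr ht)
    · intro x hx
      exact absurd hx (Finset.notMem_empty x)
  | insert x0 S _ ih =>
    obtain ⟨K1, hK1, hT1, hS1⟩ := ih fun x hx => hS x (Finset.mem_insert_of_mem hx)
    obtain ⟨K2, hK2, y2, hy2, hxy2⟩ := fd27_exists_one M x0 (hS x0 (Finset.mem_insert_self x0 S))
    refine ⟨K1 ⊔ K2, IntermediateField.finiteDimensional_sup K1 K2, ?_, ?_⟩
    · intro t ht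
      exact (le_sup_left : K1 ≤ K1 ⊔ K2) (hT1 t ht)
    · intro x hx
      rcases Finset.mem_insert.mp hx with rfl | hx
      · obtain ⟨z, hz, hz'⟩ := fd27_lift (le_sup_right : K2 ≤ K1 ⊔ K2) M y2 hy2
        exact ⟨z, hz, hz'.trans hxy2⟩
      · obtain ⟨y1, hy1, hxy1⟩ := hS1 x hx
        obtain ⟨z, hz, hz'⟩ := fd27_lift (le_sup_left : K1 ≤ K1 ⊔ K2) M y1 hy1
        exact ⟨z, hz, hz'.trans hxy1⟩

/-- A finite-dimensional intermediate field of `ℚ̄/ℚ` is a number field. -/
theorem fd27_numberField (K0 : IntermediateField ℚ Qbar) (h : FiniteDimensional ℚ K0) :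
    NumberField K0 := by
  refine { to_charZero := inferInstance, to_finiteDimensional := ?_ }
  convert h

/-- `ℚ̄` has primitive roots of unity of every positive order. -/
theorem fd27_exists_primitiveRoot (n : ℕ) (hn : n ≠ 0) : ∃ ζ : Qbar, IsPrimitiveRoot ζ n := by
  have : NeZero ((n : ℕ) : Qbar) := ⟨Nat.cast_ne_zero.mpr hn⟩
  exact HasEnoughRootsOfUnity.exists_primitiveRoot Qbar n

/-- **(G2), consumer form.** Two `A`-integral `q`-series lying in `modularFunctionFieldBar M`
are defined over one number field `K₀ ⊆ ℚ̄`, which can moreover be chosen to contain any given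
finite set `T` of algebraic numbers and primitive roots of unity of any given finite set `ns`
of orders. -/
theorem fd27_exists_pair (A : ValuationSubring Qbar) (M : ℕ) (a b : LaurentSeries A)
    (ha : coeffMap A.subtype a ∈ modularFunctionFieldBar M)
    (hb : coeffMap A.subtype b ∈ modularFunctionFieldBar M) (T : Finset Qbar) (ns : Finset ℕ) :
    ∃ K0 : IntermediateField ℚ Qbar, NumberField K0 ∧ (∀ t ∈ T, t ∈ K0) ∧
      (∀ n ∈ ns, n ≠ 0 → ∃ ζ : K0, IsPrimitiveRoot ζ n) ∧
      ∃ a0 b0 : LaurentSeries K0,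
        a0 ∈ modularFunctionFieldFullC K0 M ∧ b0 ∈ modularFunctionFieldFullC K0 M ∧
        coeffMap (algebraMap K0 Qbar) a0 = coeffMap A.subtype a ∧
        coeffMap (algebraMap K0 Qbar) b0 = coeffMap A.subtype b := by
  classical
  have hroot : ∀ n : ℕ, ∃ ζ : Qbar, n ≠ 0 → IsPrimitiveRoot ζ n := by
    intro n
    by_cases hn : n = 0
    · exact ⟨0, fun h => absurd hn h⟩
    · obtain ⟨ζ, hζ⟩ := fd27_exists_primitiveRoot n hn
      exact ⟨ζ, fun _ => hζ⟩
  choose ζ hζ using hroot
  obtain ⟨K0, hK0, hT, hS⟩ := fd27_exists M {coeffMap A.subtype a, coeffMap A.subtype b}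
    (by
      intro x hx
      rcases Finset.mem_insert.mp hx with rfl | hx
      · exact ha
      · rw [Finset.mem_singleton] at hx
        subst hx
        exact hb) (T ∪ ns.image ζ)
  obtain ⟨a0, ha0, ha0'⟩ := hS _ (Finset.mem_insert_self _ _)
  obtain ⟨b0, hb0, hb0'⟩ := hS _ (Finset.mem_insert_of_mem (Finset.mem_singleton_self _))
  refine ⟨K0, fd27_numberField K0 hK0, fun t ht => hT t (Finset.mem_union_left _ ht), ?_,
    a0, b0, ha0, hb0, ha0', hb0'⟩
  intro n hn hn0
  have hmem : ζ n ∈ K0 := hT _ (Finset.mem_union_right _ (Finset.mem_image_of_mem ζ hn))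
  refine ⟨⟨ζ n, hmem⟩, ?_⟩
  exact IsPrimitiveRoot.of_map_of_injective (f := algebraMap K0 Qbar)
    (hζ n hn0) (algebraMap K0 Qbar).injective

section Iota

variable {K : Type*} [Field K] (φ : K →+* Qbar) (M : ℕ)

/-- **(G1)** The base-change map `ι : F_K(M) → F_{ℚ̄}(M)`, `x ↦ coeffMap φ x`. -/
noncomputable def fd27_iota :
    ↥(modularFunctionFieldFullC K M) →+* ↥(modularFunctionFieldBar M) :=
  ((coeffMap φ).comp (modularFunctionFieldFullC K M).toSubring.subtype).codRestrict
    (modularFunctionFieldBar M).toSubring fun x => by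
      show coeffMap φ (x : LaurentSeries K) ∈ modularFunctionFieldBar M
      rw [fd27_bar_eq]
      exact fd27_coeffMap_mem φ M x.2

@[simp]
theorem fd27_iota_coe (x : ↥(modularFunctionFieldFullC K M)) :
    ((fd27_iota φ M x : ↥(modularFunctionFieldBar M)) : LaurentSeries Qbar) =
      coeffMap φ (x : LaurentSeries K) := rfl

theorem fd27_iota_algebraMap (c : K) :
    fd27_iota φ M (algebraMap K ↥(modularFunctionFieldFullC K M) c) =
      algebraMap Qbar ↥(modularFunctionFieldBar M) (φ c) := by
  apply Subtype.ext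
  rw [fd27_iota_coe]
  exact fd27_coeffMap_algebraMap φ c

theorem fd27_iota_injective : Function.Injective (fd27_iota φ M) :=
  (fd27_iota φ M).injective

/-- **(G1)** `F_{ℚ̄}(M)` is generated over `ℚ̄` by the image of `F_K(M)`. -/
theorem fd27_iota_adjoin :
    IntermediateField.adjoin Qbar (Set.range (fd27_iota φ M)) = ⊤ := by
  rw [eq_top_iff]
  intro x _
  rw [← IntermediateField.mem_lift]
  have hx : (x : LaurentSeries Qbar) ∈ modularFunctionFieldFullC Qbar M := by
    rw [← fd27_bar_eq]
    exact x.2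
  revert hx
  generalize (x : LaurentSeries Qbar) = y
  intro hy
  have hle : modularFunctionFieldFullC Qbar M ≤
      IntermediateField.lift (IntermediateField.adjoin Qbar (Set.range (fd27_iota φ M))) := by
    unfold modularFunctionFieldFullC
    rw [IntermediateField.adjoin_le_iff]
    rintro _ ⟨d, hne, hd, rfl⟩
    have := hne
    have h1 : qExpand Qbar d (jqModC Qbar) =
        ((fd27_iota φ M ⟨qExpand K d (jqModC K), jqModCd_mem_full K M hd⟩ :
          ↥(modularFunctionFieldBar M)) : LaurentSeries Qbar) := by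
      rw [fd27_iota_coe]
      exact (coeffMap_jqNModC φ d).symm
    rw [h1]
    exact (IntermediateField.mem_lift _).mpr
      (IntermediateField.subset_adjoin Qbar _ (Set.mem_range_self _))
  exact hle hy

end Iota

section Integral

/-- Lifting a Laurent series along an injective ring homomorphism, coefficientwise. -/
theorem fd27_exists_coeffMap_eq {R S : Type*} [CommRing R] [CommRing S] (f : R →+* S)
    (hf : Function.Injective f) (x : LaurentSeries S) (h : ∀ n : ℤ, ∃ r : R, f r = x.coeff n) :
    ∃ y : LaurentSeries R, coeffMap f y = x := by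
  choose c hc using h
  have hsupp : Function.support c ⊆ x.support := by
    intro n hn
    rw [Function.mem_support] at hn
    rw [HahnSeries.mem_support, ← hc n]
    exact fun h0 => hn (hf (h0.trans (map_zero f).symm))
  refine ⟨⟨c, x.isPWO_support.mono hsupp⟩, ?_⟩
  ext n
  rw [coeffMap_coeff]
  exact hc n

variable {K L : Type*} [Field K] [Field L] (f : K →+* L) (A : ValuationSubring L)

/-- **(G3)** If the `q`-series `a₀` over `K` becomes the `A`-integral series `a` over `L`,
then `a₀` has coefficients in the valuation subring `R = A ∩ K`, i.e. `a₀` comes from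
`a₁ : LaurentSeries R`; `a₁` maps to `a` under `R → A`, and the reductions agree. -/
theorem fd27_integral (a : LaurentSeries A) (a0 : LaurentSeries K)
    (h : coeffMap f a0 = coeffMap A.subtype a) :
    ∃ a1 : LaurentSeries (A.comap f),
      coeffMap (A.comap f).subtype a1 = a0 ∧
      coeffMap (nf23_comapHom f A) a1 = a ∧
      coeffMap (nf23_resMap f A) (coeffMap (IsLocalRing.residue (A.comap f)) a1) =
        coeffMap (IsLocalRing.residue A) a := by
  have hcoeff : ∀ n : ℤ, f (a0.coeff n) = ((a.coeff n : A) : L) := by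
    intro n
    have := congrArg (fun z : LaurentSeries L => z.coeff n) h
    simpa using this
  obtain ⟨a1, ha1⟩ := fd27_exists_coeffMap_eq (A.comap f).subtype Subtype.val_injective a0
    (fun n => ⟨⟨a0.coeff n, by
      rw [ValuationSubring.mem_comap, hcoeff n]
      exact (a.coeff n).2⟩, rfl⟩)
  have h2 : coeffMap (nf23_comapHom f A) a1 = a := by
    ext n
    rw [coeffMap_coeff, nf23_comapHom_coe, ← hcoeff n, ← ha1, coeffMap_coeff]
    rfl
  refine ⟨a1, ha1, h2, ?_⟩
  rw [coeffMap_coeffMap, nf23_resMap_comp_residue, ← coeffMap_coeffMap, h2]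

/-- `algebraMap`-form of the first clause of `fd27_integral`. -/
theorem fd27_subtype_eq_algebraMap :
    (A.comap f).subtype = algebraMap (A.comap f) K := rfl

end Integral

section Package

/-- `coeffMap` along an injective ring homomorphism is injective. -/
theorem fd27_coeffMap_injective {R S : Type*} [CommRing R] [CommRing S] (f : R →+* S)
    (hf : Function.Injective f) : Function.Injective (coeffMap f) := by
  intro x y hxy
  ext n
  apply hf
  rw [← coeffMap_coeff, ← coeffMap_coeff, hxy]

/-- **The S0 package** for the Kummer statement `(**)`: the two `A`-integral `q`-series `a`, `b`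
(with `a_L, b_L ∈ F_{ℚ̄}(M)`) descend to a number field `K₀ ⊆ ℚ̄` (containing any prescribed
finite set `T` and primitive roots of unity of the prescribed orders `ns`) and to the valuation
subring `R = A ∩ K₀`: there are `a₁ b₁ : LaurentSeries R` with `a₁, b₁ ∈ F_{K₀}(M)` (after
`R ⊆ K₀`), mapping to `a`, `b` under `R → A`, to `a_L`, `b_L` under `ι`, with compatible
reductions (`κ(R) ⊆ κ(A)`). -/
theorem fd27_S0 (A : ValuationSubring Qbar) (M : ℕ) (a b : LaurentSeries A)
    (ha : coeffMap A.subtype a ∈ modularFunctionFieldBar M)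
    (hb : coeffMap A.subtype b ∈ modularFunctionFieldBar M) (T : Finset Qbar) (ns : Finset ℕ) :
    ∃ K0 : IntermediateField ℚ Qbar, NumberField K0 ∧ (∀ t ∈ T, t ∈ K0) ∧
      (∀ n ∈ ns, n ≠ 0 → ∃ ζ : K0, IsPrimitiveRoot ζ n) ∧
      ∃ a1 b1 : LaurentSeries (A.comap (algebraMap K0 Qbar)),
      ∃ (ha1 : coeffMap (A.comap (algebraMap K0 Qbar)).subtype a1 ∈ modularFunctionFieldFullC K0 M)
        (hb1 : coeffMap (A.comap (algebraMap K0 Qbar)).subtype b1 ∈
          modularFunctionFieldFullC K0 M),
        coeffMap (nf23_comapHom (algebraMap K0 Qbar) A) a1 = a ∧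
        coeffMap (nf23_comapHom (algebraMap K0 Qbar) A) b1 = b ∧
        fd27_iota (algebraMap K0 Qbar) M ⟨_, ha1⟩ = ⟨_, ha⟩ ∧
        fd27_iota (algebraMap K0 Qbar) M ⟨_, hb1⟩ = ⟨_, hb⟩ ∧
        coeffMap (nf23_resMap (algebraMap K0 Qbar) A)
            (coeffMap (IsLocalRing.residue (A.comap (algebraMap K0 Qbar))) a1) =
          coeffMap (IsLocalRing.residue A) a ∧
        coeffMap (nf23_resMap (algebraMap K0 Qbar) A)
            (coeffMap (IsLocalRing.residue (A.comap (algebraMap K0 Qbar))) b1) =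
          coeffMap (IsLocalRing.residue A) b := by
  obtain ⟨K0, hK0, hT, hroots, a0, b0, ha0, hb0, ha0', hb0'⟩ :=
    fd27_exists_pair A M a b ha hb T ns
  obtain ⟨a1, ha1, ha1', ha1''⟩ := fd27_integral (algebraMap K0 Qbar) A a a0 ha0'
  obtain ⟨b1, hb1, hb1', hb1''⟩ := fd27_integral (algebraMap K0 Qbar) A b b0 hb0'
  refine ⟨K0, hK0, hT, hroots, a1, b1, by rw [ha1]; exact ha0, by rw [hb1]; exact hb0,
    ha1', hb1', ?_, ?_, ha1'', hb1''⟩
  · apply Subtype.ext
    rw [fd27_iota_coe]
    show coeffMap (algebraMap K0 Qbar) (coeffMap (A.comap (algebraMap K0 Qbar)).subtype a1) = _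
    rw [ha1, ha0']
  · apply Subtype.ext
    rw [fd27_iota_coe]
    show coeffMap (algebraMap K0 Qbar) (coeffMap (A.comap (algebraMap K0 Qbar)).subtype b1) = _
    rw [hb1, hb0']

/-- Transfer of the reduction hypotheses of `(**)` from `A` to `R = A ∩ K`:
equal reductions over `κ(A)` are equal over `κ(R)`. -/
theorem fd27_residue_eq {K L : Type*} [Field K] [Field L] (f : K →+* L) (A : ValuationSubring L)
    (a1 b1 : LaurentSeries (A.comap f))
    (h : coeffMap (IsLocalRing.residue A) (coeffMap (nf23_comapHom f A) a1) =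
      coeffMap (IsLocalRing.residue A) (coeffMap (nf23_comapHom f A) b1)) :
    coeffMap (IsLocalRing.residue (A.comap f)) a1 =
      coeffMap (IsLocalRing.residue (A.comap f)) b1 := by
  apply fd27_coeffMap_injective (nf23_resMap f A) (nf23_resMap_injective f A)
  rw [coeffMap_coeffMap, coeffMap_coeffMap, nf23_resMap_comp_residue, ← coeffMap_coeffMap,
    ← coeffMap_coeffMap, h]

/-- Transfer of the reduction hypotheses of `(**)` from `A` to `R = A ∩ K`:
a nonzero reduction over `κ(A)` is nonzero over `κ(R)`. -/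
theorem fd27_residue_ne_zero {K L : Type*} [Field K] [Field L] (f : K →+* L)
    (A : ValuationSubring L) (a1 : LaurentSeries (A.comap f))
    (h : coeffMap (IsLocalRing.residue A) (coeffMap (nf23_comapHom f A) a1) ≠ 0) :
    coeffMap (IsLocalRing.residue (A.comap f)) a1 ≠ 0 := by
  intro h0
  apply h
  rw [coeffMap_coeffMap, ← nf23_resMap_comp_residue, ← coeffMap_coeffMap, h0, map_zero]

end Package

end Fermat.Agent.S18
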