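import Mathlib
import Fermat.Prelude.Def_ModularCurve_ReductionModL

/-!
S18, row C3 (helper29): the `r`-ELIMINATION WRAPPER.

`relim_main_of`: the frozen statement S18 follows from
* `relim_Star A N m` — the Kummer statement (**): a quotient `a/b` of two `A`-integral `q`-series of
  `F_L` with EQUAL nonzero reductions, whose divisor is divisible by `m`, is an `m`-th power in `F_L`;
* `relim_Const A N` — constants of `F_k`: an element of `F_k` without zeros and poles is constant.
No place-reduction map `r`, no `Pic0` is left in `relim_Star`.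
-/

set_option autoImplicit false

open HahnSeries IntermediateField AlgebraicCurve ModularCurve

namespace Fermat.Agent.S18

noncomputable section

local notation "Q̄" => AlgebraicClosure ℚ

/-- The Kummer statement (**): a quotient of two `A`-integral `q`-series of `F_L` with equal
nonzero reductions (lying in `F_k`) whose divisor is divisible by `m` is an `m`-th power. -/
def relim_Star (A : ValuationSubring Q̄) (N : ℕ) (m : ℕ) : Prop :=
  ∀ (a b : LaurentSeries A)
    (ha : coeffMap A.subtype a ∈ modularFunctionFieldBar N)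
    (hb : coeffMap A.subtype b ∈ modularFunctionFieldBar N),
    coeffMap (IsLocalRing.residue A) a ∈ modularFunctionFieldFullC (IsLocalRing.ResidueField A) N →
    coeffMap (IsLocalRing.residue A) a ≠ 0 →
    coeffMap (IsLocalRing.residue A) a = coeffMap (IsLocalRing.residue A) b →
    (∀ P : Place Q̄ (modularFunctionFieldBar N),
      (m : ℤ) ∣ P.ord ((⟨_, ha⟩ : modularFunctionFieldBar N) / ⟨_, hb⟩)) →
    ∃ v : modularFunctionFieldBar N, v ^ m = (⟨_, ha⟩ : modularFunctionFieldBar N) / ⟨_, hb⟩

/-- Constants of `F_k`: an element without zeros and poles is constant. -/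
def relim_Const (A : ValuationSubring Q̄) (N : ℕ) : Prop :=
  ∀ x : modularFunctionFieldFullC (IsLocalRing.ResidueField A) N, x ≠ 0 →
    (∀ Q : Place (IsLocalRing.ResidueField A)
      (modularFunctionFieldFullC (IsLocalRing.ResidueField A) N), Q.ord x = 0) →
    ∃ c : IsLocalRing.ResidueField A, x = algebraMap _ _ c

section Ring

variable (A : ValuationSubring Q̄) (N : ℕ)

/-- `A`-integral `q`-series lying in `F_L` whose reduction lies in `F_k`. -/
def relim_O : Subring (LaurentSeries A) :=
  (modularFunctionFieldBar N).toSubalgebra.toSubring.comap (coeffMap A.subtype) ⊓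
    (modularFunctionFieldFullC (IsLocalRing.ResidueField A) N).toSubalgebra.toSubring.comap
      (coeffMap (IsLocalRing.residue A))

variable {A N}

theorem relim_mem_O {a : LaurentSeries A} :
    a ∈ relim_O A N ↔ coeffMap A.subtype a ∈ modularFunctionFieldBar N ∧
      coeffMap (IsLocalRing.residue A) a ∈
        modularFunctionFieldFullC (IsLocalRing.ResidueField A) N :=
  Iff.rfl

variable (A N)

/-- generic fibre: `relim_O → F_L`. -/
def relim_iL : relim_O A N →+* modularFunctionFieldBar N :=
  ((coeffMap A.subtype).comp (relim_O A N).subtype).codRestrict (modularFunctionFieldBar N)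
    (fun x => x.2.1)

/-- special fibre: `relim_O → F_k`. -/
def relim_ik : relim_O A N →+* modularFunctionFieldFullC (IsLocalRing.ResidueField A) N :=
  ((coeffMap (IsLocalRing.residue A)).comp (relim_O A N).subtype).codRestrict
    (modularFunctionFieldFullC (IsLocalRing.ResidueField A) N) (fun x => x.2.2)

variable {A N}

@[simp] theorem relim_iL_coe (a : relim_O A N) :
    ((relim_iL A N a : modularFunctionFieldBar N) : LaurentSeries Q̄) = coeffMap A.subtype a.1 := rfl

@[simp] theorem relim_ik_coe (a : relim_O A N) :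
    ((relim_ik A N a : modularFunctionFieldFullC (IsLocalRing.ResidueField A) N) :
      LaurentSeries (IsLocalRing.ResidueField A)) = coeffMap (IsLocalRing.residue A) a.1 := rfl

theorem relim_iL_injective : Function.Injective (relim_iL A N) := by
  intro a b hab
  have h1 : coeffMap A.subtype a.1 = coeffMap A.subtype b.1 := congrArg Subtype.val hab
  apply Subtype.ext
  ext n
  have h2 := congrArg (fun s => s.coeff n) h1
  simp only [coeffMap_coeff] at h2
  exact h2

theorem relim_iL_ne_zero {a : relim_O A N} (ha : relim_ik A N a ≠ 0) : relim_iL A N a ≠ 0 := by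
  intro h
  apply ha
  have : a = 0 := relim_iL_injective (by rw [h, map_zero])
  rw [this, map_zero]

end Ring

section Lift

variable {A : ValuationSubring Q̄} {N : ℕ}

theorem relim_iL_algebraMap (c : A) (hc : HahnSeries.single (0 : ℤ) c ∈ relim_O A N) :
    relim_iL A N ⟨_, hc⟩ = algebraMap Q̄ (modularFunctionFieldBar N) (c : Q̄) := by
  apply Subtype.ext
  rw [relim_iL_coe, coeffMap_single]
  exact (algebraMap_laurentSeries_eq_single Q̄ (c : Q̄)).symm

theorem relim_single_mem (c : A) : HahnSeries.single (0 : ℤ) c ∈ relim_O A N := by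
  refine ⟨?_, ?_⟩
  · show coeffMap A.subtype (HahnSeries.single (0 : ℤ) c) ∈ modularFunctionFieldBar N
    rw [coeffMap_single, ← algebraMap_laurentSeries_eq_single]
    exact (modularFunctionFieldBar N).algebraMap_mem _
  · show coeffMap (IsLocalRing.residue A) (HahnSeries.single (0 : ℤ) c) ∈
      modularFunctionFieldFullC (IsLocalRing.ResidueField A) N
    rw [coeffMap_single, ← algebraMap_laurentSeries_eq_single]
    exact (modularFunctionFieldFullC (IsLocalRing.ResidueField A) N).algebraMap_mem _

theorem relim_ik_single (c : A) :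
    relim_ik A N ⟨_, relim_single_mem (N := N) c⟩ =
      algebraMap (IsLocalRing.ResidueField A) _ (IsLocalRing.residue A c) := by
  apply Subtype.ext
  rw [relim_ik_coe, coeffMap_single]
  exact (algebraMap_laurentSeries_eq_single _ _).symm

theorem relim_gen_mem {d : ℕ} [NeZero d] (hd : d ∣ N) :
    qExpand A d (jqModC A) ∈ relim_O A N := by
  refine ⟨?_, ?_⟩
  · show coeffMap A.subtype (qExpand A d (jqModC A)) ∈ modularFunctionFieldBar N
    rw [coeffMap_qExpand, coeffMap_jqModC]
    have h1 : qExpand Q̄ d (jqModC Q̄) = coeffEmb Q̄ (qExpand ℚ d (jqModC ℚ)) := by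
      rw [coeffEmb, coeffMap_qExpand, coeffMap_jqModC]
    rw [h1]
    exact coeffEmb_mem_laurentBaseChange Q̄ (jqModCd_mem_full ℚ N hd)
  · show coeffMap (IsLocalRing.residue A) (qExpand A d (jqModC A)) ∈
      modularFunctionFieldFullC (IsLocalRing.ResidueField A) N
    rw [coeffMap_qExpand, coeffMap_jqModC]
    exact jqModCd_mem_full _ N hd

/-- every element of `F_k` is a quotient of reductions of elements of `relim_O`. -/
theorem relim_lift (g : LaurentSeries (IsLocalRing.ResidueField A))
    (hg : g ∈ modularFunctionFieldFullC (IsLocalRing.ResidueField A) N) :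
    ∃ a b : relim_O A N, relim_ik A N b ≠ 0 ∧
      g * coeffMap (IsLocalRing.residue A) b.1 = coeffMap (IsLocalRing.residue A) a.1 := by
  unfold modularFunctionFieldFullC at hg
  induction hg using IntermediateField.adjoin_induction with
  | mem x hx =>
    obtain ⟨d, hd0, hdN, rfl⟩ := hx
    refine ⟨⟨_, relim_gen_mem (A := A) hdN⟩, 1, ?_, ?_⟩
    · rw [map_one]; exact one_ne_zero
    · simp only [OneMemClass.coe_one, map_one, mul_one]
      rw [coeffMap_qExpand, coeffMap_jqModC]
  | algebraMap c =>
    obtain ⟨c', rfl⟩ := IsLocalRing.residue_surjective c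
    refine ⟨⟨_, relim_single_mem (N := N) c'⟩, 1, ?_, ?_⟩
    · rw [map_one]; exact one_ne_zero
    · simp only [OneMemClass.coe_one, map_one, mul_one]
      rw [coeffMap_single]
      exact algebraMap_laurentSeries_eq_single _ _
  | add x y _ _ hx hy =>
    obtain ⟨a, b, hb, hab⟩ := hx
    obtain ⟨a', b', hb', hab'⟩ := hy
    refine ⟨a * b' + a' * b, b * b', ?_, ?_⟩
    · rw [map_mul]; exact mul_ne_zero hb hb'
    · simp only [Subring.coe_add, Subring.coe_mul, map_add, map_mul]
      rw [← hab, ← hab']; ring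
  | inv x _ hx =>
    obtain ⟨a, b, hb, hab⟩ := hx
    by_cases hx0 : x = 0
    · refine ⟨0, 1, ?_, ?_⟩
      · rw [map_one]; exact one_ne_zero
      · simp [hx0]
    · have ha : relim_ik A N a ≠ 0 := by
        intro h0
        have h1 : coeffMap (IsLocalRing.residue A) a.1 = 0 := congrArg Subtype.val h0
        have hb1 : coeffMap (IsLocalRing.residue A) b.1 ≠ 0 := fun h => hb (Subtype.ext h)
        rw [h1] at hab
        exact (mul_ne_zero hx0 hb1) hab
      refine ⟨b, a, ha, ?_⟩
      rw [← hab]
      field_simp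
  | mul x y _ _ hx hy =>
    obtain ⟨a, b, hb, hab⟩ := hx
    obtain ⟨a', b', hb', hab'⟩ := hy
    refine ⟨a * a', b * b', ?_, ?_⟩
    · rw [map_mul]; exact mul_ne_zero hb hb'
    · simp only [Subring.coe_mul, map_mul]
      rw [← hab, ← hab']; ring

end Lift

section Main

variable {A : ValuationSubring Q̄} {N : ℕ}

theorem relim_ord_algebraMap {K F : Type*} [Field K] [Field F] [Algebra K F] (v : Place K F)
    (c : K) : v.ord (algebraMap K F c) = 0 := by
  rcases eq_or_ne c 0 with rfl | hc
  · simp
  have hu : IsUnit (algebraMap K v.toValuationSubring c) := (Ne.isUnit hc).map _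
  have := v.ord_coe_unit hu.unit
  rwa [IsUnit.unit_spec, v.coe_algebraMap] at this

theorem relim_ord_pow {K F : Type*} [Field K] [Field F] [Algebra K F] (v : Place K F)
    (f : F) (n : ℕ) : v.ord (f ^ n) = n * v.ord f := by
  rw [← zpow_natCast, v.ord_zpow]

/-- Closure induction: every principal divisor `E` of `F_L` is `div(a) - div(b)` with
`a, b ∈ relim_O`, nonzero reductions, and `r_* E = div(ā) - div(b̄)`. -/
theorem relim_good
    {r : Place Q̄ (modularFunctionFieldBar N) →
      Place (IsLocalRing.ResidueField A)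
        (modularFunctionFieldFullC (IsLocalRing.ResidueField A) N)}
    (hr : IsPlaceReductionModL A N r)
    (hgen : PrincipalGeneratedByIntegral A (IsLocalRing.residue A) N)
    {E : Divisor Q̄ (modularFunctionFieldBar N)}
    (hE : E ∈ Divisor.principal (K := Q̄) (F := modularFunctionFieldBar N)) :
    ∃ a b : relim_O A N, relim_ik A N a ≠ 0 ∧ relim_ik A N b ≠ 0 ∧
      (∀ P, E P = P.ord (relim_iL A N a) - P.ord (relim_iL A N b)) ∧
      (∀ Q, Finsupp.mapDomain r E Q = Q.ord (relim_ik A N a) - Q.ord (relim_ik A N b)) := by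
  have hE' := hgen hE
  clear hE
  induction hE' using AddSubgroup.closure_induction with
  | mem E hE =>
    obtain ⟨y, hy, hyk, hne, hEy⟩ := hE
    refine ⟨⟨y, ⟨hy, hyk⟩⟩, 1, fun h => hne (congrArg Subtype.val h),
      by rw [map_one]; exact one_ne_zero, ?_, ?_⟩
    · intro P
      rw [map_one, Place.ord_one, sub_zero]
      exact hEy P
    · intro Q
      rw [map_one, Place.ord_one, sub_zero]
      exact hr.2 y hy hyk hne E hEy Q
  | zero =>
    exact ⟨1, 1, by rw [map_one]; exact one_ne_zero, by rw [map_one]; exact one_ne_zero,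
      fun P => by simp, fun Q => by simp⟩
  | add E E' _ _ hE hE' =>
    obtain ⟨a, b, ha, hb, h1, h2⟩ := hE
    obtain ⟨a', b', ha', hb', h1', h2'⟩ := hE'
    refine ⟨a * a', b * b', by rw [map_mul]; exact mul_ne_zero ha ha',
      by rw [map_mul]; exact mul_ne_zero hb hb', ?_, ?_⟩
    · intro P
      rw [Finsupp.add_apply, h1, h1', map_mul, map_mul,
        P.ord_mul (relim_iL_ne_zero ha) (relim_iL_ne_zero ha'),
        P.ord_mul (relim_iL_ne_zero hb) (relim_iL_ne_zero hb')]
      ring
    · intro Q
      rw [Finsupp.mapDomain_add, Finsupp.add_apply, h2, h2', map_mul, map_mul,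
        Q.ord_mul ha ha', Q.ord_mul hb hb']
      ring
  | neg E _ hE =>
    obtain ⟨a, b, ha, hb, h1, h2⟩ := hE
    refine ⟨b, a, hb, ha, ?_, ?_⟩
    · intro P
      rw [Finsupp.neg_apply, h1]
      ring
    · intro Q
      have hneg : Finsupp.mapDomain r (-E) = - Finsupp.mapDomain r E := by
        rw [← Finsupp.mapDomain.addMonoidHom_apply, map_neg, Finsupp.mapDomain.addMonoidHom_apply]
      rw [hneg, Finsupp.neg_apply, h2]
      ring

/-- **The `r`-elimination wrapper.** S18 follows from the Kummer statement `relim_Star`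
and the constants statement `relim_Const`. -/
theorem relim_main_of (h : ReductionInputsModL A N) (m : ℕ) (hm0 : m ≠ 0)
    (hstar : relim_Star A N m) (hconst : relim_Const A N)
    (z : JZero N) (hmz : m • z = 0) (hz : reductionModL A N z = 0) : z = 0 := by
  obtain ⟨D, rfl⟩ := Pic0.mk_surjective z
  have hr : IsPlaceReductionModL A N (placeReductionModL h) :=
    isPlaceReductionModL_placeReductionModL h
  have hgen : PrincipalGeneratedByIntegral A (IsLocalRing.residue A) N := h.choose_spec.2
  -- `m • D` is principal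
  have hmD : m • (D : Divisor Q̄ (modularFunctionFieldBar N)) ∈
      Divisor.principal (K := Q̄) (F := modularFunctionFieldBar N) := by
    have h1 : ((m • D : Divisor.degZero (K := Q̄) (F := modularFunctionFieldBar N)) :
        Pic0 Q̄ (modularFunctionFieldBar N)) = 0 := by
      rw [QuotientAddGroup.mk_nsmul]
      exact hmz
    have h2 := (QuotientAddGroup.eq_zero_iff _).mp h1
    rw [AddSubgroup.mem_addSubgroupOf, AddSubgroupClass.coe_nsmul] at h2
    exact h2
  -- `r_* D` is principal
  have hrD : Finsupp.mapDomain (placeReductionModL h)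
      (D : Divisor Q̄ (modularFunctionFieldBar N)) ∈
      Divisor.principal (K := IsLocalRing.ResidueField A)
        (F := modularFunctionFieldFullC (IsLocalRing.ResidueField A) N) := by
    rw [reductionModL_mk h D] at hz
    have h2 := (QuotientAddGroup.eq_zero_iff _).mp hz
    rw [AddSubgroup.mem_addSubgroupOf] at h2
    exact h2
  obtain ⟨gb, hgb0, hgb⟩ := hrD
  obtain ⟨a, b, ha, hb, h1, h2⟩ := relim_good hr hgen hmD
  have h2' : ∀ Q : Place (IsLocalRing.ResidueField A)
      (modularFunctionFieldFullC (IsLocalRing.ResidueField A) N),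
      Q.ord (relim_ik A N a) - Q.ord (relim_ik A N b) = m * Q.ord gb := by
    intro Q
    rw [← h2 Q, Finsupp.mapDomain_smul, Finsupp.smul_apply, hgb Q, nsmul_eq_mul]
  -- the constant
  have hden : relim_ik A N b * gb ^ m ≠ 0 := mul_ne_zero hb (pow_ne_zero _ hgb0)
  have hξ0 : relim_ik A N a / (relim_ik A N b * gb ^ m) ≠ 0 := div_ne_zero ha hden
  have hξord : ∀ Q : Place (IsLocalRing.ResidueField A)
      (modularFunctionFieldFullC (IsLocalRing.ResidueField A) N),
      Q.ord (relim_ik A N a / (relim_ik A N b * gb ^ m)) = 0 := by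
    intro Q
    rw [div_eq_mul_inv, Q.ord_mul ha (inv_ne_zero hden), Q.ord_inv,
      Q.ord_mul hb (pow_ne_zero _ hgb0), relim_ord_pow]
    have := h2' Q
    linarith
  obtain ⟨cb, hcb⟩ := hconst _ hξ0 hξord
  obtain ⟨c, rfl⟩ := IsLocalRing.residue_surjective cb
  obtain ⟨g₁, g₂, hg₂, hg⟩ := relim_lift (A := A) (N := N) gb.1 gb.2
  have hg' : gb * relim_ik A N g₂ = relim_ik A N g₁ := Subtype.ext hg
  have hg₁ : relim_ik A N g₁ ≠ 0 := by
    rw [← hg']
    exact mul_ne_zero hgb0 hg₂
  have hcO : relim_ik A N ⟨_, relim_single_mem (N := N) c⟩ =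
      algebraMap (IsLocalRing.ResidueField A) _ (IsLocalRing.residue A c) := relim_ik_single c
  have hc0 : relim_ik A N ⟨_, relim_single_mem (N := N) c⟩ ≠ 0 := by
    rw [hcO, ← hcb]
    exact hξ0
  have hcne : (c : Q̄) ≠ 0 := by
    intro h0
    apply hc0
    have : c = 0 := Subtype.ext h0
    rw [hcO, this, map_zero, map_zero]
  obtain ⟨a', ha'def⟩ : ∃ a' : relim_O A N, a' = a * g₂ ^ m := ⟨_, rfl⟩
  obtain ⟨b', hb'def⟩ : ∃ b' : relim_O A N,
      b' = ⟨_, relim_single_mem (N := N) c⟩ * b * g₁ ^ m := ⟨_, rfl⟩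
  have hab' : relim_ik A N a' = relim_ik A N b' := by
    rw [ha'def, hb'def]
    simp only [map_mul, map_pow]
    rw [hcO, ← hcb, ← hg']
    field_simp
    ring
  have ha' : relim_ik A N a' ≠ 0 := by
    rw [ha'def]
    simp only [map_mul, map_pow]
    exact mul_ne_zero ha (pow_ne_zero _ hg₂)
  have hb' : relim_ik A N b' ≠ 0 := hab' ▸ ha'
  have hordc : ∀ P : Place Q̄ (modularFunctionFieldBar N),
      P.ord (relim_iL A N ⟨_, relim_single_mem (N := N) c⟩) = 0 := by
    intro P
    rw [relim_iL_algebraMap]
    exact relim_ord_algebraMap P _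
  have hcL : relim_iL A N ⟨_, relim_single_mem (N := N) c⟩ ≠ 0 := relim_iL_ne_zero hc0
  have hdiv : ∀ P : Place Q̄ (modularFunctionFieldBar N),
      P.ord (relim_iL A N a' / relim_iL A N b') =
        m * ((D : Divisor Q̄ (modularFunctionFieldBar N)) P + P.ord (relim_iL A N g₂)
          - P.ord (relim_iL A N g₁)) := by
    intro P
    have e1 := h1 P
    rw [Finsupp.smul_apply, nsmul_eq_mul] at e1
    rw [ha'def, hb'def]
    simp only [map_mul, map_pow]
    rw [div_eq_mul_inv, P.ord_mul (mul_ne_zero (relim_iL_ne_zero ha)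
        (pow_ne_zero _ (relim_iL_ne_zero hg₂)))
      (inv_ne_zero (mul_ne_zero (mul_ne_zero hcL (relim_iL_ne_zero hb))
        (pow_ne_zero _ (relim_iL_ne_zero hg₁)))),
      P.ord_inv, P.ord_mul (relim_iL_ne_zero ha) (pow_ne_zero _ (relim_iL_ne_zero hg₂)),
      P.ord_mul (mul_ne_zero hcL (relim_iL_ne_zero hb)) (pow_ne_zero _ (relim_iL_ne_zero hg₁)),
      P.ord_mul hcL (relim_iL_ne_zero hb), relim_ord_pow, relim_ord_pow, hordc P]
    linarith
  obtain ⟨v, hv⟩ := hstar a'.1 b'.1 a'.2.1 b'.2.1 a'.2.2 (fun h => ha' (Subtype.ext h))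
    (congrArg Subtype.val hab') (fun P => ⟨_, hdiv P⟩)
  have hv' : v ^ m = relim_iL A N a' / relim_iL A N b' := hv
  have hv0 : v ≠ 0 := by
    rintro rfl
    rw [zero_pow hm0] at hv'
    exact div_ne_zero (relim_iL_ne_zero ha') (relim_iL_ne_zero hb') hv'.symm
  have hm0' : (m : ℤ) ≠ 0 := Nat.cast_ne_zero.mpr hm0
  have hordv : ∀ P : Place Q̄ (modularFunctionFieldBar N),
      P.ord v = (D : Divisor Q̄ (modularFunctionFieldBar N)) P + P.ord (relim_iL A N g₂)
          - P.ord (relim_iL A N g₁) := by
    intro P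
    have e := hdiv P
    rw [← hv', relim_ord_pow] at e
    exact mul_left_cancel₀ hm0' e
  show (QuotientAddGroup.mk D : Pic0 Q̄ (modularFunctionFieldBar N)) = 0
  rw [QuotientAddGroup.eq_zero_iff, AddSubgroup.mem_addSubgroupOf]
  refine ⟨v * relim_iL A N g₁ / relim_iL A N g₂,
    div_ne_zero (mul_ne_zero hv0 (relim_iL_ne_zero hg₁)) (relim_iL_ne_zero hg₂), fun P => ?_⟩
  rw [div_eq_mul_inv, P.ord_mul (mul_ne_zero hv0 (relim_iL_ne_zero hg₁))
    (inv_ne_zero (relim_iL_ne_zero hg₂)), P.ord_inv, P.ord_mul hv0 (relim_iL_ne_zero hg₁),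
    hordv P]
  ring

/-- **Prime-exponent form of the wrapper**: it suffices to know `relim_Star` at the PRIME
divisors of `m`. -/
theorem relim_main_prime_of (h : ReductionInputsModL A N) (hconst : relim_Const A N) :
    ∀ (m : ℕ), m ≠ 0 → (∀ p : ℕ, p.Prime → p ∣ m → relim_Star A N p) →
      ∀ z : JZero N, m • z = 0 → reductionModL A N z = 0 → z = 0 := by
  intro m
  induction m using Nat.strong_induction_on with
  | _ m ih =>
    intro hm0 hstar z hmz hz
    by_cases hm1 : m = 1
    · rw [hm1, one_nsmul] at hmz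
      exact hmz
    obtain ⟨p, hp, m', rfl⟩ := Nat.exists_prime_and_dvd hm1
    have hm'0 : m' ≠ 0 := fun h0 => hm0 (by rw [h0, mul_zero])
    have hz' : m' • z = 0 := by
      refine relim_main_of h p hp.ne_zero (hstar p hp (dvd_mul_right p m')) hconst (m' • z) ?_ ?_
      · rw [← mul_nsmul']
        rw [mul_comm] at hmz
        rw [mul_comm]
        exact hmz
      · rw [map_nsmul, hz, nsmul_zero]
    refine ih m' ?_ hm'0 (fun q hq hqm => hstar q hq (Dvd.dvd.mul_left hqm p)) z hz' hz
    calc m' = 1 * m' := (one_mul m').symm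
      _ < p * m' := Nat.mul_lt_mul_of_pos_right hp.one_lt (Nat.pos_of_ne_zero hm'0)

end Main

end

end Fermat.Agent.S18
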