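import Fermat.Agent.S18.NormDescentStar38
import Fermat.Agent.S18.RElim

/-!
S18 support (helper38): the norm descent `N' → N` for helper29's `relim_Star` (`RElim.lean`).

* `nd38_relim_star_descent` : `relim_Star A N' m → relim_Star A N m` for `N ∣ N'` and
  `ψ(N') / ψ(N)` prime to `m`;
* `nd38_relim_star_of_aux` : if `relim_Star A (lcm N p₀) p` holds for `p₀ ∈ {2, 3}`, `p₀ ≠ ℓ`,
  then `relim_Star A N p` (for a prime `p ≠ ℓ`);
* `nd38_relim_of_star` : `nd38_Star A N m → relim_Star A N m`.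
-/

set_option autoImplicit false
set_option synthInstance.maxHeartbeats 400000

open ModularCurve AlgebraicCurve IntermediateField

namespace Fermat.Agent.S18

theorem nd38_relim_of_star {A : ValuationSubring (AlgebraicClosure ℚ)} {N m : ℕ}
    (h : nd38_Star A N m) : relim_Star A N m :=
  fun a b ha hb _ ha0 hab hP => h a b ha hb hab ha0 hP

/-- **Norm descent of `relim_Star`** from level `N'` to level `N ∣ N'` when `ψ(N') / ψ(N)` is
prime to `m`. -/
theorem nd38_relim_star_descent (A : ValuationSubring (AlgebraicClosure ℚ)) {N N' : ℕ} [NeZero N]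
    [NeZero N'] (h : N ∣ N') (m : ℕ) (hcop : Nat.Coprime (dedekindPsi N' / dedekindPsi N) m)
    (hS : relim_Star A N' m) : relim_Star A N m := by
  intro a b ha hb hak ha0 hab hP
  exact nd38_descent_elt h m hcop _ _ ha hb
    (hS a b (nd38_bar_le h ha) (nd38_bar_le h hb) (nd38_fullC_le _ h hak) ha0 hab
      (nd38_ord_dvd_div h m _ _ ha hb hP))

/-- **Assembly form**: `relim_Star` at the auxiliary levels `lcm(N, p₀)`, `p₀ ∈ {2, 3}`,
`p₀ ≠ ℓ`, for the exponent `p ^ a` (`p ≠ ℓ` prime) gives `relim_Star` at level `N`. -/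
theorem nd38_relim_star_pow_of_aux (A : ValuationSubring (AlgebraicClosure ℚ)) (N : ℕ) [NeZero N]
    (ℓ p a : ℕ) (hp : p.Prime) (hne : p ≠ ℓ)
    (hS : ∀ p₀ : ℕ, (p₀ = 2 ∨ p₀ = 3) → p₀ ≠ ℓ → relim_Star A (Nat.lcm N p₀) (p ^ a)) :
    relim_Star A N (p ^ a) := by
  obtain ⟨p₀, hp₀, hp₀ℓ, hcop⟩ := nd38_aux_level N ℓ p hp hne
  have hp₀0 : p₀ ≠ 0 := by rcases hp₀ with rfl | rfl <;> norm_num
  have : NeZero (Nat.lcm N p₀) := ⟨Nat.lcm_ne_zero (NeZero.ne N) hp₀0⟩
  exact nd38_relim_star_descent A (Nat.dvd_lcm_left N p₀) (p ^ a) (hcop a) (hS p₀ hp₀ hp₀ℓ)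

/-- The same for a prime exponent `p ≠ ℓ` (the form consumed by `relim_main_prime_of`). -/
theorem nd38_relim_star_of_aux (A : ValuationSubring (AlgebraicClosure ℚ)) (N : ℕ) [NeZero N]
    (ℓ p : ℕ) (hp : p.Prime) (hne : p ≠ ℓ)
    (hS : ∀ p₀ : ℕ, (p₀ = 2 ∨ p₀ = 3) → p₀ ≠ ℓ → relim_Star A (Nat.lcm N p₀) p) :
    relim_Star A N p := by
  have h1 := nd38_relim_star_pow_of_aux A N ℓ p 1 hp hne (by simpa using hS)
  simpa using h1

/-- **S18 from `relim_Star` at the auxiliary levels** (and the constants of `F_k` at level `N`):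
the shape of the final assembly. -/
theorem nd38_main_of_aux (N : ℕ) [NeZero N] {ℓ : ℕ} (A : ValuationSubring (AlgebraicClosure ℚ))
    (h : ModularCurve.ReductionInputsModL A N) (hconst : relim_Const A N)
    (hS : ∀ p : ℕ, p.Prime → p ≠ ℓ → ∀ p₀ : ℕ, (p₀ = 2 ∨ p₀ = 3) → p₀ ≠ ℓ →
      relim_Star A (Nat.lcm N p₀) p)
    (m : ℕ) (hm : ¬ ℓ ∣ m) (z : ModularCurve.JZero N) (hmz : m • z = 0)
    (hz : ModularCurve.reductionModL A N z = 0) : z = 0 := by
  have hm0 : m ≠ 0 := by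
    rintro rfl
    exact hm (dvd_zero ℓ)
  refine relim_main_prime_of h hconst m hm0 (fun p hp hpm => ?_) z hmz hz
  have hne : p ≠ ℓ := by
    rintro rfl
    exact hm hpm
  exact nd38_relim_star_of_aux A N ℓ p hp hne (hS p hp hne)

end Fermat.Agent.S18
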