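import Mathlib

/-!
# S18 glue (helper85): a DVR criterion for valuation subrings of finite extensions

`K ⊆ F` a finite field extension, `V` a valuation subring of `F`, `t ∈ V` a nonzero non-unit
such that every nonzero element of `K` is a unit of `V` times an integer power of `t`
(i.e. `V ∩ K` is a discrete valuation ring with uniformiser `t`).  Then `V` is a discrete
valuation ring.  (Stichtenoth, Thm 1.1.6; no fundamental inequality is used.)

Applications: valuation subrings of number fields above a rational prime (`K = ℚ`, `t = ℓ`),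
places of function fields in any characteristic (`K = k(x)`, `t = x`).
-/

set_option autoImplicit false

namespace Fermat.Agent.S18

section OrderedLemma

variable {Γ : Type*} [LinearOrderedCommGroupWithZero Γ]

/-- Two distinct values in `[g, 1)` are not congruent modulo the powers of `g`. -/
theorem dv85_ne_of_lt (g α β : Γ) (hg0 : g ≠ 0) (hg : g < 1) (hα : g ≤ α) (hαβ : α < β)
    (hβ : β < 1) (a b : ℤ) : g ^ a * α ≠ g ^ b * β := by
  intro h
  have hgpos : 0 < g := zero_lt_iff.mpr hg0
  have hga : g ^ a ≠ 0 := zpow_ne_zero a hg0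
  have key : α = g ^ (b - a) * β := by
    rw [zpow_sub₀ hg0, div_eq_mul_inv, mul_comm (g ^ b), mul_assoc, ← h, ← mul_assoc,
      inv_mul_cancel₀ hga, one_mul]
  rcases le_or_gt (b - a) 0 with hk | hk
  · have h1 : (1 : Γ) ≤ g ^ (b - a) := one_le_zpow_of_nonpos₀ hgpos hg.le hk
    have h2 : β ≤ g ^ (b - a) * β := by
      calc β = 1 * β := (one_mul β).symm
        _ ≤ g ^ (b - a) * β := by gcongr
    rw [← key] at h2
    exact absurd hαβ (not_lt.mpr h2)
  · have h1 : g ^ (b - a) ≤ g ^ (1 : ℤ) :=
      zpow_le_zpow_right_of_le_one₀ hgpos hg.le (by omega)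
    rw [zpow_one] at h1
    have h2 : g ^ (b - a) * β < g := by
      calc g ^ (b - a) * β ≤ g * β := by gcongr
        _ < g * 1 := by gcongr
        _ = g := mul_one g
    rw [← key] at h2
    exact absurd hα (not_le.mpr h2)

end OrderedLemma

section DvrCriterion

variable {K F : Type*} [Field K] [Field F] [Algebra K F]

/-- Elements of `F` whose values are strictly increasing inside `[v t, 1)` are linearly
independent over `K`, if the values of `K` are powers of `v t`. -/
theorem dv85_linearIndependent (V : ValuationSubring F) (t : F) (ht0 : t ≠ 0)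
    (ht : V.valuation t < 1)
    (hK : ∀ c : K, c ≠ 0 → ∃ k : ℤ, V.valuation (algebraMap K F c) = V.valuation t ^ k)
    {m : ℕ} (f : Fin m → F) (hmono : StrictMono (fun i => V.valuation (f i)))
    (hlo : ∀ i, V.valuation t ≤ V.valuation (f i)) (hhi : ∀ i, V.valuation (f i) < 1) :
    LinearIndependent K f := by
  classical
  rw [Fintype.linearIndependent_iff]
  intro c hc
  by_contra hne
  push Not at hne
  obtain ⟨j, hj⟩ := hne
  set s : Finset (Fin m) := Finset.univ.filter (fun i => c i ≠ 0) with hs
  have hmem : ∀ i, i ∈ s ↔ c i ≠ 0 := fun i => by simp [hs]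
  have hjs : j ∈ s := (hmem j).mpr hj
  obtain ⟨i0, hi0, hmax⟩ := s.exists_max_image (fun i => V.valuation (c i • f i)) ⟨j, hjs⟩
  have hci0 : c i0 ≠ 0 := (hmem i0).mp hi0
  have hg0 : V.valuation t ≠ 0 := (Valuation.ne_zero_iff _).mpr ht0
  have hf0 : ∀ i, f i ≠ 0 := fun i h0 => by
    have h1 := hlo i
    rw [h0, map_zero] at h1
    exact hg0 (le_antisymm h1 zero_le)
  have hval : ∀ i, c i ≠ 0 →
      ∃ k : ℤ, V.valuation (c i • f i) = V.valuation t ^ k * V.valuation (f i) := by
    intro i hi
    obtain ⟨k, hk⟩ := hK (c i) hi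
    exact ⟨k, by rw [Algebra.smul_def, map_mul, hk]⟩
  have hsum : ∑ i, c i • f i = c i0 • f i0 + ∑ i ∈ s.erase i0, c i • f i := by
    rw [Finset.add_sum_erase s (fun i => c i • f i) hi0]
    symm
    apply Finset.sum_subset (Finset.subset_univ _)
    intro i _ hi
    have h0 : c i = 0 := by
      by_contra h
      exact hi ((hmem i).mpr h)
    rw [h0, zero_smul]
  have hne0 : V.valuation (c i0 • f i0) ≠ 0 :=
    (Valuation.ne_zero_iff _).mpr (smul_ne_zero hci0 (hf0 i0))
  have hlt : V.valuation (∑ i ∈ s.erase i0, c i • f i) < V.valuation (c i0 • f i0) := by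
    refine Valuation.map_sum_lt _ hne0 ?_
    intro i hi
    obtain ⟨hii0, his⟩ := Finset.mem_erase.mp hi
    have hci : c i ≠ 0 := (hmem i).mp his
    refine lt_of_le_of_ne (hmax i his) ?_
    obtain ⟨a, ha⟩ := hval i hci
    obtain ⟨b, hb⟩ := hval i0 hci0
    rw [ha, hb]
    rcases lt_or_gt_of_ne hii0 with h | h
    · exact dv85_ne_of_lt _ _ _ hg0 ht (hlo i) (hmono h) (hhi i0) a b
    · exact (dv85_ne_of_lt _ _ _ hg0 ht (hlo i0) (hmono h) (hhi i) b a).symm
  have h1 : V.valuation (∑ i, c i • f i) = V.valuation (c i0 • f i0) := by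
    rw [hsum]
    exact Valuation.map_add_eq_of_lt_left _ hlt
  rw [hc, map_zero] at h1
  exact hne0 h1.symm

/-- There is a largest value below `1`. -/
theorem dv85_exists_max [FiniteDimensional K F] (V : ValuationSubring F) (t : F) (ht0 : t ≠ 0)
    (ht : V.valuation t < 1)
    (hK : ∀ c : K, c ≠ 0 → ∃ k : ℤ, V.valuation (algebraMap K F c) = V.valuation t ^ k) :
    ∃ p : F, V.valuation p < 1 ∧ ∀ y : F, V.valuation y < 1 → V.valuation y ≤ V.valuation p := by
  by_contra hcon
  push Not at hcon
  choose! nxt hnxt1 hnxt2 using hcon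
  have hf1 : ∀ n : ℕ, V.valuation (nxt^[n] t) < 1 := by
    intro n
    induction n with
    | zero => exact ht
    | succ n ih =>
      rw [Function.iterate_succ_apply']
      exact hnxt1 _ ih
  have hmono : StrictMono (fun n : ℕ => V.valuation (nxt^[n] t)) := by
    apply strictMono_nat_of_lt_succ
    intro n
    rw [Function.iterate_succ_apply']
    exact hnxt2 _ (hf1 n)
  have hlo : ∀ n : ℕ, V.valuation t ≤ V.valuation (nxt^[n] t) := fun n => by
    have h := hmono.monotone (Nat.zero_le n)
    simpa using h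
  have hli := dv85_linearIndependent V t ht0 ht hK (m := Module.finrank K F + 1)
    (fun i => nxt^[(i : ℕ)] t) (fun i j hij => hmono hij) (fun i => hlo i) (fun i => hf1 i)
  have h := hli.fintype_card_le_finrank
  simp at h

/-- `F = V[1/t]`: every nonzero element is bounded below by a power of `t`. -/
theorem dv85_exists_pow_le [Algebra.IsAlgebraic K F] (V : ValuationSubring F) (t : F) (ht0 : t ≠ 0)
    (ht : V.valuation t < 1)
    (hK : ∀ c : K, c ≠ 0 → ∃ k : ℤ, V.valuation (algebraMap K F c) = V.valuation t ^ k)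
    (x : F) (hx0 : x ≠ 0) : ∃ N : ℕ, V.valuation t ^ N ≤ V.valuation x := by
  have hg0 : V.valuation t ≠ 0 := (Valuation.ne_zero_iff _).mpr ht0
  have hgpos : 0 < V.valuation t := zero_lt_iff.mpr hg0
  have htV : t ∈ V := (V.valuation_le_one_iff t).mp ht.le
  by_cases hxV : x ∈ V
  · let B : Subalgebra K F :=
      { carrier := {y | ∃ M : ℕ, t ^ M * y ∈ V}
        mul_mem' := by
          rintro a b ⟨M, hM⟩ ⟨M', hM'⟩
          refine ⟨M + M', ?_⟩
          have : t ^ (M + M') * (a * b) = (t ^ M * a) * (t ^ M' * b) := by ring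
          rw [this]
          exact V.mul_mem _ _ hM hM'
        add_mem' := by
          rintro a b ⟨M, hM⟩ ⟨M', hM'⟩
          refine ⟨M + M', ?_⟩
          have : t ^ (M + M') * (a + b) = t ^ M' * (t ^ M * a) + t ^ M * (t ^ M' * b) := by ring
          rw [this]
          exact V.add_mem _ _ (V.mul_mem _ _ (pow_mem htV M') hM) (V.mul_mem _ _ (pow_mem htV M) hM')
        algebraMap_mem' := by
          intro c
          by_cases hc : c = 0
          · exact ⟨0, by simp [hc, V.zero_mem]⟩
          · obtain ⟨k, hk⟩ := hK c hc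
            refine ⟨(-k).toNat, ?_⟩
            rw [← V.valuation_le_one_iff, map_mul, map_pow, hk, ← zpow_natCast, ← zpow_add₀ hg0]
            exact zpow_le_one₀ hgpos ht.le (by omega) }
    have hxB : x ∈ B := ⟨0, by simpa using hxV⟩
    have hinv : ((⟨x, hxB⟩ : B) : F)⁻¹ ∈ B :=
      B.inv_mem_of_algebraic (x := ⟨x, hxB⟩) (Algebra.IsAlgebraic.isAlgebraic x)
    obtain ⟨N, hN⟩ := hinv
    refine ⟨N, ?_⟩
    have h1 := (V.valuation_le_one_iff _).mpr hN
    rw [map_mul, map_pow, map_inv₀] at h1
    have hxpos : 0 < V.valuation x := zero_lt_iff.mpr ((Valuation.ne_zero_iff _).mpr hx0)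
    have h2 := mul_le_mul_of_nonneg_right h1 hxpos.le
    rwa [mul_assoc, inv_mul_cancel₀ hxpos.ne', mul_one, one_mul] at h2
  · refine ⟨0, ?_⟩
    rw [pow_zero]
    have h := (V.valuation_le_one_iff x).not.mpr hxV
    exact (not_le.mp h).le

/-- Every nonzero element of `V` has the value of a power of the generator. -/
theorem dv85_exists_pow [FiniteDimensional K F] (V : ValuationSubring F) (t : F) (ht0 : t ≠ 0)
    (ht : V.valuation t < 1)
    (hK : ∀ c : K, c ≠ 0 → ∃ k : ℤ, V.valuation (algebraMap K F c) = V.valuation t ^ k)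
    (p : F) (hp1 : V.valuation p < 1)
    (hpmax : ∀ y : F, V.valuation y < 1 → V.valuation y ≤ V.valuation p)
    (x : F) (hx0 : x ≠ 0) (hx : V.valuation x ≤ 1) : ∃ n : ℕ, V.valuation x = V.valuation p ^ n := by
  classical
  have hg0 : V.valuation t ≠ 0 := (Valuation.ne_zero_iff _).mpr ht0
  have hgp : V.valuation t ≤ V.valuation p := hpmax t ht
  have hp0 : V.valuation p ≠ 0 := fun h => hg0 (le_antisymm (h ▸ hgp) zero_le)
  have hppos : 0 < V.valuation p := zero_lt_iff.mpr hp0
  -- some power of `p` is below `t`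
  have hpe : ∃ e : ℕ, V.valuation p ^ e ≤ V.valuation t := by
    by_contra hcon
    push Not at hcon
    set n := Module.finrank K F with hn
    have hli := dv85_linearIndependent V t ht0 ht hK (m := n + 1)
      (fun i => p ^ (n + 1 - (i : ℕ)))
      (fun i j hij => by
        simp only [map_pow]
        apply pow_lt_pow_right_of_lt_one₀ hppos hp1
        have h1 : (i : ℕ) < (j : ℕ) := hij
        have h2 := j.2
        omega)
      (fun i => by simp only [map_pow]; exact (hcon _).le)
      (fun i => by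
        simp only [map_pow]
        apply pow_lt_one₀ hppos.le hp1
        have h2 := i.2
        omega)
    have h := hli.fintype_card_le_finrank
    simp [← hn] at h
  obtain ⟨e, he⟩ := hpe
  obtain ⟨N, hN⟩ := dv85_exists_pow_le (K := K) V t ht0 ht hK x hx0
  have hex : ∃ n : ℕ, V.valuation p ^ n ≤ V.valuation x := by
    refine ⟨e * N, ?_⟩
    rw [pow_mul]
    exact (pow_le_pow_left₀ zero_le he N).trans hN
  have hspec := Nat.find_spec hex
  have hmin : ∀ m : ℕ, m < Nat.find hex → ¬ V.valuation p ^ m ≤ V.valuation x :=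
    fun m hm => Nat.find_min hex hm
  set n := Nat.find hex with hnd
  refine ⟨n, le_antisymm ?_ hspec⟩
  rcases Nat.eq_zero_or_pos n with h0 | hpos
  · rw [h0, pow_zero]; exact hx
  · have hlt : V.valuation x < V.valuation p ^ (n - 1) := not_le.mp (hmin (n - 1) (by omega))
    have hpk0 : V.valuation p ^ (n - 1) ≠ 0 := pow_ne_zero _ hp0
    have hy : V.valuation (x / p ^ (n - 1)) < 1 := by
      rw [map_div₀, map_pow]
      exact (div_lt_one₀ (zero_lt_iff.mpr hpk0)).mpr hlt
    have h2 := hpmax _ hy
    rw [map_div₀, map_pow, div_le_iff₀ (zero_lt_iff.mpr hpk0)] at h2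
    have h3 : V.valuation p * V.valuation p ^ (n - 1) = V.valuation p ^ n := by
      rw [← pow_succ']
      congr 1
      omega
    rwa [h3] at h2

/-- **DVR criterion** (valuation form). -/
theorem dv85_isDiscreteValuationRing_of_val [FiniteDimensional K F] (V : ValuationSubring F)
    (t : F) (ht0 : t ≠ 0) (ht : V.valuation t < 1)
    (hK : ∀ c : K, c ≠ 0 → ∃ k : ℤ, V.valuation (algebraMap K F c) = V.valuation t ^ k) :
    IsDiscreteValuationRing V := by
  obtain ⟨p, hp1, hpmax⟩ := dv85_exists_max V t ht0 ht hK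
  have hpV : p ∈ V := (V.valuation_le_one_iff p).mp hp1.le
  have hg0 : V.valuation t ≠ 0 := (Valuation.ne_zero_iff _).mpr ht0
  have hp0v : V.valuation p ≠ 0 := fun h => hg0 (le_antisymm (h ▸ hpmax t ht) zero_le)
  have hp0 : p ≠ 0 := (Valuation.ne_zero_iff _).mp hp0v
  apply IsDiscreteValuationRing.ofHasUnitMulPowIrreducibleFactorization
  refine ⟨⟨p, hpV⟩, ?_, ?_⟩
  · rw [irreducible_iff]
    refine ⟨fun hu => ?_, fun a b hab => ?_⟩
    · have := (V.valuation_eq_one_iff _).mp hu
      exact absurd this hp1.ne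
    · by_contra hcon
      push Not at hcon
      have ha : V.valuation (a : F) < 1 :=
        (V.valuation_lt_one_or_eq_one a).resolve_right
          (fun h => hcon.1 ((V.valuation_eq_one_iff a).mpr h))
      have hb : V.valuation (b : F) < 1 :=
        (V.valuation_lt_one_or_eq_one b).resolve_right
          (fun h => hcon.2 ((V.valuation_eq_one_iff b).mpr h))
      have h1 : V.valuation p = V.valuation (a : F) * V.valuation (b : F) := by
        have := congrArg (fun z : V => V.valuation (z : F)) hab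
        simpa using this
      have h2 : V.valuation (a : F) * V.valuation (b : F) < V.valuation p := by
        calc V.valuation (a : F) * V.valuation (b : F)
            ≤ V.valuation p * V.valuation (b : F) := by
              have := hpmax _ ha
              gcongr
          _ < V.valuation p * 1 := by
              have hppos : 0 < V.valuation p := zero_lt_iff.mpr hp0v
              gcongr
          _ = V.valuation p := mul_one _
      rw [← h1] at h2
      exact lt_irrefl _ h2
  · intro x hx
    have hx0 : (x : F) ≠ 0 := fun h => hx (Subtype.ext h)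
    obtain ⟨n, hn⟩ := dv85_exists_pow V t ht0 ht hK p hp1 hpmax (x : F) hx0 (V.valuation_le_one x)
    refine ⟨n, ?_⟩
    have hval : V.valuation ((x : F) / p ^ n) = 1 := by
      rw [map_div₀, map_pow, hn, div_self (pow_ne_zero _ hp0v)]
    have hmemV : (x : F) / p ^ n ∈ V := (V.valuation_le_one_iff _).mp hval.le
    have hunit : IsUnit (⟨(x : F) / p ^ n, hmemV⟩ : V) := (V.valuation_eq_one_iff _).mpr hval
    refine ⟨hunit.unit, ?_⟩
    apply Subtype.ext
    simp only [IsUnit.unit_spec, MulMemClass.coe_mul, SubmonoidClass.coe_pow]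
    field_simp

/-- **DVR criterion** (membership form): `V` a valuation subring of a finite extension `F` of
`K`, `t ∈ V` a non-unit, every nonzero element of `K` is a unit of `V` times a power of `t`. -/
theorem dv85_isDiscreteValuationRing [FiniteDimensional K F] (V : ValuationSubring F)
    (t : F) (ht : t ∈ V) (ht' : t⁻¹ ∉ V)
    (hK : ∀ c : K, c ≠ 0 → ∃ k : ℤ, algebraMap K F c * t ^ k ∈ V ∧
      (algebraMap K F c * t ^ k)⁻¹ ∈ V) :
    IsDiscreteValuationRing V := by
  have ht0 : t ≠ 0 := by
    rintro rfl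
    exact ht' (by rw [inv_zero]; exact V.zero_mem)
  have hvt0 : V.valuation t ≠ 0 := (Valuation.ne_zero_iff _).mpr ht0
  have htv : V.valuation t < 1 := by
    refine lt_of_le_of_ne ((V.valuation_le_one_iff t).mpr ht) (fun h => ht' ?_)
    rw [← V.valuation_le_one_iff, map_inv₀, h, inv_one]
  refine dv85_isDiscreteValuationRing_of_val (K := K) V t ht0 htv ?_
  intro c hc
  obtain ⟨k, h1, h2⟩ := hK c hc
  have hx0 : algebraMap K F c * t ^ k ≠ 0 :=
    mul_ne_zero ((map_ne_zero _).mpr hc) (zpow_ne_zero k ht0)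
  have e1 : V.valuation (algebraMap K F c * t ^ k) = 1 := by
    apply le_antisymm ((V.valuation_le_one_iff _).mpr h1)
    have h3 := (V.valuation_le_one_iff _).mpr h2
    rw [map_inv₀] at h3
    have hpos : 0 < V.valuation (algebraMap K F c * t ^ k) :=
      zero_lt_iff.mpr ((Valuation.ne_zero_iff _).mpr hx0)
    exact (inv_le_one₀ hpos).mp h3
  refine ⟨-k, ?_⟩
  rw [map_mul, map_zpow₀] at e1
  rw [zpow_neg]
  exact eq_inv_of_mul_eq_one_left e1

end DvrCriterion

section NumberField

variable {K0 : Type*} [Field K0] [CharZero K0]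

/-- In a valuation subring of a characteristic-zero field in which the prime `ℓ` is not a
unit, the value of a nonzero natural number is a power of the value of `ℓ`. -/
theorem dv85_val_natCast (V : ValuationSubring K0) (ℓ : ℕ) (hℓ : ℓ.Prime)
    (hV : V.valuation (ℓ : K0) < 1) (n : ℕ) (hn : n ≠ 0) :
    ∃ i : ℕ, V.valuation (n : K0) = V.valuation (ℓ : K0) ^ i := by
  induction n using Nat.strong_induction_on with
  | _ n ih =>
    by_cases hdvd : ℓ ∣ n
    · obtain ⟨n', rfl⟩ := hdvd
      have hn' : n' ≠ 0 := by rintro rfl; simp at hn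
      have hlt : n' < ℓ * n' := by
        have := hℓ.two_le
        nlinarith [Nat.pos_of_ne_zero hn']
      obtain ⟨i, hi⟩ := ih n' hlt hn'
      exact ⟨i + 1, by rw [Nat.cast_mul, map_mul, hi, pow_succ']⟩
    · refine ⟨0, ?_⟩
      rw [pow_zero]
      have hcop : Nat.gcd n ℓ = 1 :=
        Nat.Coprime.symm ((Nat.Prime.coprime_iff_not_dvd hℓ).mpr hdvd)
      have hbez : (n : ℤ) * Nat.gcdA n ℓ + (ℓ : ℤ) * Nat.gcdB n ℓ = 1 := by
        have h := Nat.gcd_eq_gcd_ab n ℓ
        rw [hcop] at h
        exact_mod_cast h.symm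
      have hbezK : (n : K0) * ((Nat.gcdA n ℓ : ℤ) : K0) + (ℓ : K0) * ((Nat.gcdB n ℓ : ℤ) : K0)
          = 1 := by
        exact_mod_cast congrArg (Int.cast : ℤ → K0) hbez
      have hint : ∀ z : ℤ, V.valuation ((z : ℤ) : K0) ≤ 1 := fun z =>
        (V.valuation_le_one_iff _).mpr (intCast_mem V z)
      have hle : V.valuation (n : K0) ≤ 1 := (V.valuation_le_one_iff _).mpr (natCast_mem V n)
      by_contra hne
      have hlt : V.valuation (n : K0) < 1 := lt_of_le_of_ne hle hne
      have h1 : V.valuation ((n : K0) * ((Nat.gcdA n ℓ : ℤ) : K0)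
          + (ℓ : K0) * ((Nat.gcdB n ℓ : ℤ) : K0)) < 1 := by
        apply Valuation.map_add_lt
        · rw [map_mul]
          calc V.valuation (n : K0) * V.valuation ((Nat.gcdA n ℓ : ℤ) : K0)
              ≤ V.valuation (n : K0) * 1 := by gcongr; exact hint _
            _ < 1 := by rw [mul_one]; exact hlt
        · rw [map_mul]
          calc V.valuation (ℓ : K0) * V.valuation ((Nat.gcdB n ℓ : ℤ) : K0)
              ≤ V.valuation (ℓ : K0) * 1 := by gcongr; exact hint _
            _ < 1 := by rw [mul_one]; exact hV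
      rw [hbezK, map_one] at h1
      exact lt_irrefl _ h1

/-- Same for nonzero rational numbers, with integer exponents. -/
theorem dv85_val_ratCast (V : ValuationSubring K0) (ℓ : ℕ) (hℓ : ℓ.Prime)
    (hV : V.valuation (ℓ : K0) < 1) (c : ℚ) (hc : c ≠ 0) :
    ∃ k : ℤ, V.valuation (algebraMap ℚ K0 c) = V.valuation (ℓ : K0) ^ k := by
  have hnum : c.num.natAbs ≠ 0 := Int.natAbs_ne_zero.mpr (Rat.num_ne_zero.mpr hc)
  obtain ⟨i, hi⟩ := dv85_val_natCast V ℓ hℓ hV c.num.natAbs hnum
  obtain ⟨j, hj⟩ := dv85_val_natCast V ℓ hℓ hV c.den c.den_nz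
  have hnumv : V.valuation ((c.num : ℤ) : K0) = V.valuation (ℓ : K0) ^ i := by
    rw [← hi]
    rcases Int.natAbs_eq c.num with h | h
    · conv_lhs => rw [h]
      simp
    · conv_lhs => rw [h]
      simp
  have hℓ0 : V.valuation (ℓ : K0) ≠ 0 :=
    (Valuation.ne_zero_iff _).mpr (Nat.cast_ne_zero.mpr hℓ.ne_zero)
  refine ⟨(i : ℤ) - j, ?_⟩
  rw [eq_ratCast, Rat.cast_def, map_div₀, hnumv, hj, zpow_sub₀ hℓ0, zpow_natCast, zpow_natCast]

/-- **Valuation subrings of number fields are discrete**: a valuation subring of a finite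
extension of `ℚ` in which a prime number is not a unit is a discrete valuation ring. -/
theorem dv85_numberField [FiniteDimensional ℚ K0] (V : ValuationSubring K0) (ℓ : ℕ)
    (hℓ : ℓ.Prime) (hV : ((ℓ : K0))⁻¹ ∉ V) : IsDiscreteValuationRing V := by
  have hℓ0 : (ℓ : K0) ≠ 0 := Nat.cast_ne_zero.mpr hℓ.ne_zero
  have hv : V.valuation (ℓ : K0) < 1 := by
    refine lt_of_le_of_ne ((V.valuation_le_one_iff _).mpr (natCast_mem V ℓ)) (fun h => hV ?_)
    rw [← V.valuation_le_one_iff, map_inv₀, h, inv_one]
  exact dv85_isDiscreteValuationRing_of_val (K := ℚ) V (ℓ : K0) hℓ0 hv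
    (fun c hc => dv85_val_ratCast V ℓ hℓ hv c hc)

end NumberField

end Fermat.Agent.S18
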