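import Fermat.Agent.S18.RElim
import Fermat.Agent.S18.DvrSub85
import Fermat.Agent.S24.PlacesBasicCore
import Fermat.Agent.S28.ModEq
import Fermat.Agent.S28.JdIntegral
import Fermat.Agent.S28.CharLBridge

/-!
S18, row C3 (helper29), second half: CONSTANTS OF `F_k` (`relim_Const`), separability-free.

* `relimc_isAlgClosed_residue`: the residue field of a valuation subring of an algebraically
  closed field is algebraically closed.
* `relimc_exists_place`: in a function field `F / K` (finite over `K(y)`), every transcendental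
  `f` has a zero at some Prelude `Place` (Chevalley + helper85's DVR criterion; any characteristic).
* `relimc_const`: `K` algebraically closed, `x ≠ 0` without zeros and poles ⟹ `x` constant.
* `relimc_finite`: `F_k = k(J(q^d) : d ∣ N)` is finite over `k(J)` for every field `k`.
* `relim_const`: `relim_Const A N`; `relim_main`, `relim_main_prime`: the wrapper without `Const`.
-/

set_option autoImplicit false

open HahnSeries IntermediateField AlgebraicCurve ModularCurve

namespace Fermat.Agent.S18

noncomputable section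

local notation "Q̄" => AlgebraicClosure ℚ

section Residue

/-- The residue field of a valuation subring of an algebraically closed field is algebraically
closed. -/
theorem relimc_isAlgClosed_residue {L : Type*} [Field L] [IsAlgClosed L]
    (A : ValuationSubring L) : IsAlgClosed (IsLocalRing.ResidueField A) := by
  apply IsAlgClosed.of_exists_root
  intro p hp hirr
  obtain ⟨P, hPmap, hPdeg, hPmonic⟩ := Polynomial.lifts_and_degree_eq_and_monic
    (f := IsLocalRing.residue A)
    ((Polynomial.mem_lifts p).mpr (Polynomial.map_surjective _ IsLocalRing.residue_surjective p)) hp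
  have hdeg : (P.map A.subtype).degree ≠ 0 := by
    rw [Polynomial.degree_map_eq_of_injective A.subtype_injective, hPdeg]
    exact (Polynomial.degree_pos_of_irreducible hirr).ne'
  obtain ⟨α, hα⟩ := IsAlgClosed.exists_root (P.map A.subtype) hdeg
  have hint : IsIntegral A α := ⟨P, hPmonic, by
    rw [Polynomial.IsRoot, Polynomial.eval_map] at hα
    exact hα⟩
  obtain ⟨a, rfl⟩ := (IsIntegrallyClosed.isIntegral_iff (R := A) (K := L)).mp hint
  refine ⟨IsLocalRing.residue A a, ?_⟩
  have h0 : P.eval a = 0 := by
    apply A.subtype_injective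
    rw [Polynomial.IsRoot, Polynomial.eval_map] at hα
    rw [map_zero, ← hα]
    exact (Polynomial.eval₂_at_apply A.subtype a).symm
  rw [← hPmap, Polynomial.eval_map, Polynomial.eval₂_at_apply, h0, map_zero]

end Residue

section Place

variable {K F : Type*} [Field K] [Field F] [Algebra K F]

/-- valuation of a nonzero polynomial in a non-unit `f` (constants being units). -/
theorem relimc_val_aeval (V : ValuationSubring F) (hKV : ∀ c : K, algebraMap K F c ∈ V)
    (f : F) (hfV : V.valuation f < 1) (p : Polynomial K) (hp : p ≠ 0) :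
    ∃ n : ℕ, V.valuation (Polynomial.aeval f p) = V.valuation f ^ n := by
  obtain ⟨q, hpq, hq⟩ := Polynomial.exists_eq_pow_rootMultiplicity_mul_and_not_dvd p hp 0
  rw [map_zero, sub_zero] at hpq hq
  obtain ⟨n, hn⟩ : ∃ n : ℕ, p = Polynomial.X ^ n * q := ⟨_, hpq⟩
  clear hpq
  refine ⟨n, ?_⟩
  have hq0 : q.coeff 0 ≠ 0 := fun h => hq (Polynomial.X_dvd_iff.mpr h)
  have hunit : V.valuation (algebraMap K F (q.coeff 0)) = 1 := by
    apply le_antisymm ((V.valuation_le_one_iff _).mpr (hKV _))
    have h1 : V.valuation (algebraMap K F (q.coeff 0)⁻¹) ≤ 1 :=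
      (V.valuation_le_one_iff _).mpr (hKV _)
    rw [map_inv₀, map_inv₀] at h1
    have hpos : 0 < V.valuation (algebraMap K F (q.coeff 0)) :=
      zero_lt_iff.mpr ((Valuation.ne_zero_iff _).mpr ((map_ne_zero _).mpr hq0))
    exact (inv_le_one₀ hpos).mp h1
  have hmemV : ∀ r : Polynomial K, Polynomial.aeval f r ∈ V := by
    intro r
    have hf : f ∈ V := (V.valuation_le_one_iff f).mp hfV.le
    induction r using Polynomial.induction_on' with
    | add a b ha hb => rw [map_add]; exact V.add_mem _ _ ha hb
    | monomial n c =>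
      rw [Polynomial.aeval_monomial]
      exact V.mul_mem _ _ (hKV c) (pow_mem hf n)
  have hq1 : V.valuation (Polynomial.aeval f q) = 1 := by
    have hdecomp : Polynomial.aeval f q =
        algebraMap K F (q.coeff 0) + Polynomial.aeval f q.divX * f := by
      conv_lhs => rw [← Polynomial.divX_mul_X_add q]
      simp [add_comm]
    rw [hdecomp, Valuation.map_add_eq_of_lt_left, hunit]
    rw [hunit, map_mul]
    calc V.valuation (Polynomial.aeval f q.divX) * V.valuation f
        ≤ 1 * V.valuation f := by
          gcongr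
          exact (V.valuation_le_one_iff _).mpr (hmemV _)
      _ = V.valuation f := one_mul _
      _ < 1 := hfV
  rw [hn, map_mul, map_pow, Polynomial.aeval_X, map_mul, map_pow, hq1, mul_one]

/-- **Existence of zeros.** In a function field `F / K` (finite over `K(y)`), every
transcendental `f` has a zero at some place; no hypothesis on the characteristic. -/
theorem relimc_exists_place (y : F) [FiniteDimensional K⟮y⟯ F] (f : F)
    (hf : Transcendental K f) : ∃ Q : Place K F, 0 < Q.ord f := by
  have hf0 : f ≠ 0 := fun h => hf (h ▸ isAlgebraic_zero)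
  have hfR : f ∈ (Algebra.adjoin K {f}).toSubring := Algebra.self_mem_adjoin_singleton K f
  have hI : Ideal.span {(⟨f, hfR⟩ : (Algebra.adjoin K {f}).toSubring)} ≠ ⊤ := by
    intro htop
    rw [Ideal.span_singleton_eq_top] at htop
    obtain ⟨⟨g, hg⟩, hfg⟩ := isUnit_iff_exists_inv.mp htop
    have hg' : g ∈ (Polynomial.aeval (R := K) f).range := by
      rw [← Algebra.adjoin_singleton_eq_range_aeval]
      exact hg
    obtain ⟨p, rfl⟩ := hg'
    have h1 : f * Polynomial.aeval f p = 1 := congrArg Subtype.val hfg
    apply hf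
    refine ⟨Polynomial.X * p - 1, ?_, by simp [h1]⟩
    intro h0
    have := congrArg (fun q => q.coeff 0) h0
    simp at this
  obtain ⟨V, hRV, hV⟩ := Ideal.image_subset_nonunits_valuationSubring _ hI
  have hfV : V.valuation f < 1 :=
    (V.mem_nonunits_iff).mp (hV ⟨⟨f, hfR⟩, Ideal.subset_span rfl, rfl⟩)
  have hKV : ∀ c : K, algebraMap K F c ∈ V := fun c =>
    hRV (Subalgebra.algebraMap_mem (Algebra.adjoin K {f}) c)
  have : FiniteDimensional K⟮f⟯ F := Fermat.Agent.S24.wp1b_finite_of_transcendental y f hf
  have hDVR : IsDiscreteValuationRing V := by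
    refine dv85_isDiscreteValuationRing_of_val (K := K⟮f⟯) V f hf0 hfV ?_
    intro c hc
    obtain ⟨r, s, hrs⟩ := (IntermediateField.mem_adjoin_simple_iff K (c : F)).mp c.2
    have hc' : (c : F) ≠ 0 := fun h => hc (Subtype.ext h)
    have hr : r ≠ 0 := by
      rintro rfl
      rw [map_zero, zero_div] at hrs
      exact hc' hrs
    have hs : s ≠ 0 := by
      rintro rfl
      rw [map_zero, div_zero] at hrs
      exact hc' hrs
    obtain ⟨n, hn⟩ := relimc_val_aeval V hKV f hfV r hr
    obtain ⟨n', hn'⟩ := relimc_val_aeval V hKV f hfV s hs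
    refine ⟨(n : ℤ) - n', ?_⟩
    have hv0 : V.valuation f ≠ 0 := (Valuation.ne_zero_iff _).mpr hf0
    show V.valuation (c : F) = _
    rw [hrs, map_div₀, hn, hn', zpow_sub₀ hv0, zpow_natCast, zpow_natCast]
  have hne : V ≠ ⊤ := by
    rintro rfl
    have h1 : (⊤ : ValuationSubring F).valuation f⁻¹ ≤ 1 :=
      (ValuationSubring.valuation_le_one_iff _ _).mpr (ValuationSubring.mem_top _)
    rw [map_inv₀] at h1
    have hpos : 0 < (⊤ : ValuationSubring F).valuation f :=
      zero_lt_iff.mpr ((Valuation.ne_zero_iff _).mpr hf0)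
    exact absurd ((inv_le_one₀ hpos).mp h1) (not_le.mpr hfV)
  refine ⟨⟨V, hKV, hne, inferInstance⟩, ?_⟩
  set Q : Place K F := ⟨V, hKV, hne, inferInstance⟩ with hQ
  have hninv : f⁻¹ ∉ Q.toValuationSubring := by
    intro hmem
    have h1 : V.valuation f⁻¹ ≤ 1 := (V.valuation_le_one_iff _).mpr hmem
    rw [map_inv₀] at h1
    have hpos : 0 < V.valuation f := zero_lt_iff.mpr ((Valuation.ne_zero_iff _).mpr hf0)
    exact absurd ((inv_le_one₀ hpos).mp h1) (not_le.mpr hfV)
  have h2 : ¬ 0 ≤ Q.ord f⁻¹ := fun h => hninv ((Fermat.Agent.S24.wp1_mem_iff_ord_nonneg Q f⁻¹).mpr h)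
  rw [Q.ord_inv] at h2
  omega

/-- **Constants.** Over an algebraically closed constant field, a nonzero function without zeros
and poles is constant. -/
theorem relimc_const [IsAlgClosed K] (y : F) [FiniteDimensional K⟮y⟯ F] (x : F)
    (h : ∀ Q : Place K F, Q.ord x = 0) : ∃ c : K, x = algebraMap K F c := by
  by_cases halg : IsAlgebraic K x
  · exact Fermat.Agent.S24.wp1b_exists_eq_algebraMap_of_isAlgebraic halg
  · obtain ⟨Q, hQ⟩ := relimc_exists_place y x halg
    rw [h Q] at hQ
    exact absurd hQ (lt_irrefl 0)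

end Place

section Modular

open Fermat.Agent.S28 in
/-- (B1) of S28: `J(q^d)` is integral over `ℤ[J]`. -/
theorem relimc_hB1 : ∀ d : ℕ, d ≠ 0 → ∃ P : Polynomial (Polynomial ℤ), P.Monic ∧
    P.eval₂ (evJ ℤ) (JdC ℤ d) = 0 :=
  exists_monic_JdC_of_modEq
    (fun p hp => let ⟨Φ, hΦ, _, h, _⟩ := exists_modular_equation p hp; ⟨Φ, hΦ, h⟩)

variable (k : Type) [Field k] (N : ℕ)

/-- `J` as an element of `F_k`. -/
def relimc_J : modularFunctionFieldFullC k N := ⟨jqModC k, jqModC_mem_full k N⟩

open Fermat.Agent.S28 in
/-- `F_k = k(J(q^d) : d ∣ N)` is finite over `k(J)`, for every field `k` and every `N ≠ 0`. -/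
theorem relimc_finite [NeZero N] :
    FiniteDimensional k⟮relimc_J k N⟯ (modularFunctionFieldFullC k N) := by
  classical
  have hfinS : (divisorExpansionsC k N).Finite := by
    refine Set.Finite.subset (Set.Finite.image (fun d => JdC k d) (Finset.finite_toSet N.divisors)) ?_
    rintro x ⟨d, hd0, hdN, rfl⟩
    exact ⟨d, Finset.mem_coe.mpr (Nat.mem_divisors.mpr ⟨hdN, NeZero.ne N⟩), JdC_of_neZero k d⟩
  have hfin : (Subtype.val ⁻¹' (divisorExpansionsC k N) :
      Set (modularFunctionFieldFullC k N)).Finite :=
    Set.Finite.preimage Subtype.val_injective.injOn hfinS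
  have hint : ∀ x ∈ (Subtype.val ⁻¹' (divisorExpansionsC k N) :
      Set (modularFunctionFieldFullC k N)), IsIntegral k⟮relimc_J k N⟯ x := by
    intro x hx
    obtain ⟨d, hd0, hdN, hxd⟩ := hx
    have h1 : IsIntegral k⟮relimc_J k N⟯ (x : LaurentSeries k) := by
      obtain ⟨P, hP, h⟩ := relimc_hB1 d (NeZero.ne d)
      have h' : P.eval₂ (evJ k) (JdC k d) = 0 := by
        have := h58_eval₂_transfer (evJ ℤ) (evJ k) (h58_coeffMap_comp_evJ k) P _ h
        rwa [coeffMap_JdC] at this
      rw [hxd, ← JdC_of_neZero]
      exact h58_isIntegral_of_eval₂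
        (⟨relimc_J k N, mem_adjoin_simple_self k _⟩ : k⟮relimc_J k N⟯) rfl P hP _ h'
    exact (isIntegral_algHom_iff (IsScalarTower.toAlgHom k⟮relimc_J k N⟯
      (modularFunctionFieldFullC k N) (LaurentSeries k)) Subtype.val_injective).mp h1
  have htop : IntermediateField.adjoin k (Subtype.val ⁻¹' (divisorExpansionsC k N) :
      Set (modularFunctionFieldFullC k N)) = ⊤ := by
    apply IntermediateField.lift_injective
    rw [lift_top, lift_adjoin, Set.image_preimage_eq_of_subset]
    · rfl
    · rintro x hx
      exact ⟨⟨x, subset_adjoin k _ hx⟩, rfl⟩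
  have htop' : IntermediateField.adjoin k⟮relimc_J k N⟯ (Subtype.val ⁻¹' (divisorExpansionsC k N) :
      Set (modularFunctionFieldFullC k N)) = ⊤ := adjoin_eq_top_of_adjoin_eq_top k htop
  have : Finite (Subtype.val ⁻¹' (divisorExpansionsC k N) :
      Set (modularFunctionFieldFullC k N)) := hfin.to_subtype
  have hfd : FiniteDimensional k⟮relimc_J k N⟯ (IntermediateField.adjoin k⟮relimc_J k N⟯
      (Subtype.val ⁻¹' (divisorExpansionsC k N) : Set (modularFunctionFieldFullC k N))) :=
    finiteDimensional_adjoin hint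
  rw [htop'] at hfd
  exact LinearEquiv.finiteDimensional
    (topEquiv (F := k⟮relimc_J k N⟯) (E := modularFunctionFieldFullC k N)).toLinearEquiv

end Modular

section Final

variable {A : ValuationSubring Q̄} {N : ℕ} [NeZero N]

variable (A N) in
/-- **Constants of `F_k`** (`k` the residue field of `A`): `relim_Const` holds. -/
theorem relim_const : relim_Const A N := by
  intro x _ hord
  have := relimc_isAlgClosed_residue A
  have := relimc_finite (IsLocalRing.ResidueField A) N
  exact relimc_const (relimc_J _ N) x hord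

/-- **The `r`-elimination wrapper, final form**: S18 follows from the Kummer statement. -/
theorem relim_main (h : ReductionInputsModL A N) (m : ℕ) (hm0 : m ≠ 0)
    (hstar : relim_Star A N m) (z : JZero N) (hmz : m • z = 0)
    (hz : reductionModL A N z = 0) : z = 0 :=
  relim_main_of h m hm0 hstar (relim_const A N) z hmz hz

/-- **The `r`-elimination wrapper, final prime-exponent form.** -/
theorem relim_main_prime (h : ReductionInputsModL A N) (m : ℕ) (hm0 : m ≠ 0)
    (hstar : ∀ p : ℕ, p.Prime → p ∣ m → relim_Star A N p) (z : JZero N) (hmz : m • z = 0)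
    (hz : reductionModL A N z = 0) : z = 0 :=
  relim_main_prime_of h (relim_const A N) m hm0 hstar z hmz hz

end Final

end

end Fermat.Agent.S18
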