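import Mathlib
import Fermat.Agent.S18.Pack15
import Fermat.Agent.S18.FieldDef27
import Fermat.Agent.S18.ConstExtModular25
import Fermat.Agent.S18.NormDescentRElim38
import Fermat.Agent.S18.RElimConst29

/-!
# S18, row C1 (backup twin, helper55): statement `(**)` at level `M` from the chart package

`c1t55_ChartData R K M π` is the *concrete chart package* for the modular function field
`F = modularFunctionFieldFullC K M` over a discrete valuation ring `R` with fraction field `K`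
and uniformiser `π`: a Hauptmodul `h ∈ F`, the Gauss valuation ring `V` (with `m_V = π V` and
the GAUSS criterion for `R`-integral `q`-expansions), saturation of the three charts
`pk15_chart R {h}`, `pk15_chart R {h⁻¹}`, `pk15_chart R {h, h⁻¹}`, and for the two affine charts:
noetherian, Dedekind special fibre, finiteness over `R[h]`, fraction field `F`.
It is exactly the list of hypotheses of `pk15_star` (Pack15.lean) that depends on the modular
input, plus GAUSS.

* `c1t55_abs` : the abstract step over `(R, K)`: two `R`-integral `q`-series of `F` with equal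
  nonzero reductions, whose quotient `u` has all orders divisible by `m` (a unit of `R`), satisfy
  `f₀ ^ m * u = c` with `c ∈ R`.
* `c1t55_star` : `nd38_Star A M m` (statement `(**)` over `(ℚ̄, A)`) from the chart package over
  the rings `A ∩ K₀` (`K₀` a number field): field of definition (`fd27_S0`), descent of the
  divisibility of orders (`cx_modular_place_dvd`), `c1t55_abs`, and an `m`-th root of `c` in `ℚ̄`.
* `c1t55_relim_star` : the same conclusion in the shape `relim_Star A M m`.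
* `c1t55_main` : the statement of S18 from the chart packages at the auxiliary levels
  `lcm N p₀`, `p₀ ∈ {2, 3}`, `p₀ ≠ ℓ`.
-/

set_option autoImplicit false
set_option linter.style.haveILetI false

open ModularCurve AlgebraicCurve IntermediateField

namespace Fermat.Agent.S18

/-- The concrete chart package of the modular function field `F(M)_K` over a discrete valuation
ring `R` with fraction field `K` and uniformiser `π`. -/
def c1t55_ChartData (R K : Type) [CommRing R] [IsDomain R] [IsDiscreteValuationRing R] [Field K]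
    [Algebra R K] (M : ℕ) [Algebra R ↥(modularFunctionFieldFullC K M)] (π : R) : Prop :=
  ∃ (h : ↥(modularFunctionFieldFullC K M)) (V : ValuationSubring ↥(modularFunctionFieldFullC K M)),
    Transcendental K h ∧
    (∀ r : R, algebraMap R ↥(modularFunctionFieldFullC K M) r ∈ V) ∧
    (algebraMap R ↥(modularFunctionFieldFullC K M) π)⁻¹ ∉ V ∧
    (∀ x ∈ V, x⁻¹ ∉ V → (algebraMap R ↥(modularFunctionFieldFullC K M) π)⁻¹ * x ∈ V) ∧
    h ∈ V ∧ h⁻¹ ∈ V ∧
    (∀ x ∈ pk15_chart R ({h} : Set ↥(modularFunctionFieldFullC K M)),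
      (algebraMap R ↥(modularFunctionFieldFullC K M) π)⁻¹ * x ∈ V →
      (algebraMap R ↥(modularFunctionFieldFullC K M) π)⁻¹ * x ∈
        pk15_chart R ({h} : Set ↥(modularFunctionFieldFullC K M))) ∧
    (∀ x ∈ pk15_chart R ({h⁻¹} : Set ↥(modularFunctionFieldFullC K M)),
      (algebraMap R ↥(modularFunctionFieldFullC K M) π)⁻¹ * x ∈ V →
      (algebraMap R ↥(modularFunctionFieldFullC K M) π)⁻¹ * x ∈
        pk15_chart R ({h⁻¹} : Set ↥(modularFunctionFieldFullC K M))) ∧
    (∀ x ∈ pk15_chart R ({h, h⁻¹} : Set ↥(modularFunctionFieldFullC K M)),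
      (algebraMap R ↥(modularFunctionFieldFullC K M) π)⁻¹ * x ∈ V →
      (algebraMap R ↥(modularFunctionFieldFullC K M) π)⁻¹ * x ∈
        pk15_chart R ({h, h⁻¹} : Set ↥(modularFunctionFieldFullC K M))) ∧
    IsNoetherianRing (pk15_chart R ({h} : Set ↥(modularFunctionFieldFullC K M))) ∧
    IsNoetherianRing (pk15_chart R ({h⁻¹} : Set ↥(modularFunctionFieldFullC K M))) ∧
    IsDedekindDomain (pk15_chart R ({h} : Set ↥(modularFunctionFieldFullC K M)) ⧸
      Ideal.span {algebraMap R (pk15_chart R ({h} : Set ↥(modularFunctionFieldFullC K M))) π}) ∧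
    IsDedekindDomain (pk15_chart R ({h⁻¹} : Set ↥(modularFunctionFieldFullC K M)) ⧸
      Ideal.span {algebraMap R (pk15_chart R ({h⁻¹} : Set ↥(modularFunctionFieldFullC K M))) π}) ∧
    (∃ G : Finset ↥(modularFunctionFieldFullC K M),
      ∀ x ∈ pk15_chart R ({h} : Set ↥(modularFunctionFieldFullC K M)),
        x ∈ Submodule.span (Algebra.adjoin R ({h} : Set ↥(modularFunctionFieldFullC K M)))
          (G : Set ↥(modularFunctionFieldFullC K M))) ∧
    (∀ x : ↥(modularFunctionFieldFullC K M),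
      ∃ a ∈ pk15_chart R ({h} : Set ↥(modularFunctionFieldFullC K M)),
      ∃ b ∈ pk15_chart R ({h} : Set ↥(modularFunctionFieldFullC K M)), b ≠ 0 ∧ x * b = a) ∧
    (∀ (x : ↥(modularFunctionFieldFullC K M)) (y : LaurentSeries R),
      (x : LaurentSeries K) = coeffMap (algebraMap R K) y →
      x ∈ V ∧ ((algebraMap R ↥(modularFunctionFieldFullC K M) π)⁻¹ * x ∈ V ↔
        coeffMap (IsLocalRing.residue R) y = 0))

section Abs

variable {R K : Type} [CommRing R] [IsDomain R] [IsDiscreteValuationRing R] [Field K]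
  [Algebra R K] [IsFractionRing R K] {M : ℕ} [Algebra R ↥(modularFunctionFieldFullC K M)]
  [IsScalarTower R K ↥(modularFunctionFieldFullC K M)]

/-- **Abstract step.** Two `R`-integral `q`-series of `F(M)_K` with equal nonzero reductions whose
quotient `u` has all orders divisible by `m` (a unit of `R`): `f₀ ^ m * u` is a constant of `R`. -/
theorem c1t55_abs {π : R} (hπ : Irreducible π) (hpack : c1t55_ChartData R K M π)
    (m : ℕ) (hm0 : 0 < m) (hm : IsUnit (m : R))
    (a b : LaurentSeries R)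
    (ha : coeffMap (algebraMap R K) a ∈ modularFunctionFieldFullC K M)
    (hb : coeffMap (algebraMap R K) b ∈ modularFunctionFieldFullC K M)
    (hab : coeffMap (IsLocalRing.residue R) a = coeffMap (IsLocalRing.residue R) b)
    (ha0 : coeffMap (IsLocalRing.residue R) a ≠ 0)
    (hP : ∀ P : Place K ↥(modularFunctionFieldFullC K M),
      (m : ℤ) ∣ P.ord ((⟨_, ha⟩ : ↥(modularFunctionFieldFullC K M)) / ⟨_, hb⟩)) :
    ∃ (f₀ : ↥(modularFunctionFieldFullC K M)) (c : R), f₀ ≠ 0 ∧
      f₀ ^ m * ((⟨_, ha⟩ : ↥(modularFunctionFieldFullC K M)) / ⟨_, hb⟩) =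
        algebraMap R ↥(modularFunctionFieldFullC K M) c := by
  obtain ⟨h, V, hh, hRV, hπV, hmax, hhV, hhV', hsat₁, hsat₂, hsat₁₂, hN₁, hN₂, hD₁, hD₂, hfin,
    hfrac, hG⟩ := hpack
  have hπ0 : algebraMap R ↥(modularFunctionFieldFullC K M) π ≠ 0 := by
    rw [IsScalarTower.algebraMap_apply R K ↥(modularFunctionFieldFullC K M)]
    intro h0
    have h1 : algebraMap R K π = 0 :=
      (map_eq_zero (algebraMap K ↥(modularFunctionFieldFullC K M))).mp h0
    exact hπ.ne_zero ((map_eq_zero_iff _ (IsFractionRing.injective R K)).mp h1)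
  have hb0 : coeffMap (IsLocalRing.residue R) b ≠ 0 := hab ▸ ha0
  -- Gauss step
  have hxaV : (⟨_, ha⟩ : ↥(modularFunctionFieldFullC K M)) ∈ V := (hG ⟨_, ha⟩ a rfl).1
  have hxbV : (⟨_, hb⟩ : ↥(modularFunctionFieldFullC K M)) ∈ V := (hG ⟨_, hb⟩ b rfl).1
  have hxbV' : (⟨_, hb⟩ : ↥(modularFunctionFieldFullC K M))⁻¹ ∈ V := by
    by_contra hcon
    exact hb0 ((hG ⟨_, hb⟩ b rfl).2.mp (hmax _ hxbV hcon))
  have hsub : (algebraMap R ↥(modularFunctionFieldFullC K M) π)⁻¹ *
      ((⟨_, ha⟩ : ↥(modularFunctionFieldFullC K M)) - ⟨_, hb⟩) ∈ V := by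
    refine (hG ((⟨_, ha⟩ : ↥(modularFunctionFieldFullC K M)) - ⟨_, hb⟩) (a - b) ?_).2.mpr ?_
    · rw [map_sub]; rfl
    · rw [map_sub, hab, sub_self]
  have hxb0 : (⟨_, hb⟩ : ↥(modularFunctionFieldFullC K M)) ≠ 0 := by
    rintro h0
    apply hb0
    have h1 : coeffMap (algebraMap R K) b = 0 := congrArg Subtype.val h0
    have h2 : b = 0 := by
      ext n
      have h3 := congrArg (fun z : LaurentSeries K => z.coeff n) h1
      simp only [coeffMap_coeff, HahnSeries.coeff_zero] at h3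
      exact (map_eq_zero_iff _ (IsFractionRing.injective R K)).mp h3
    rw [h2, map_zero]
  have hu : (algebraMap R ↥(modularFunctionFieldFullC K M) π)⁻¹ *
      ((⟨_, ha⟩ : ↥(modularFunctionFieldFullC K M)) / ⟨_, hb⟩ - 1) ∈ V := by
    have h1 : (algebraMap R ↥(modularFunctionFieldFullC K M) π)⁻¹ *
        ((⟨_, ha⟩ : ↥(modularFunctionFieldFullC K M)) / ⟨_, hb⟩ - 1) =
        (algebraMap R ↥(modularFunctionFieldFullC K M) π)⁻¹ *
          ((⟨_, ha⟩ : ↥(modularFunctionFieldFullC K M)) - ⟨_, hb⟩) *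
          (⟨_, hb⟩ : ↥(modularFunctionFieldFullC K M))⁻¹ := by
      rw [mul_assoc, sub_mul, mul_inv_cancel₀ hxb0, div_eq_mul_inv]
    rw [h1]
    exact V.mul_mem _ _ hsub hxbV'
  exact pk15_star (K := K) π hπ m hm0 hm
    (cap87_algClosed_in (modularFunctionFieldFullC K M)) h hh V hRV hπ0 hπV hmax hhV hhV'
    hsat₁ hsat₂ hsat₁₂ hfin hfrac _ hu hP

end Abs

section Concrete

local notation "Q̄" => AlgebraicClosure ℚ

/-- Core of `c1t55_star` over an abstract number field `K` mapping to `ℚ̄`, `R = A ∩ K`. -/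
theorem c1t55_star_aux {K : Type} [Field K] [NumberField K] [Algebra K Q̄]
    (A : ValuationSubring Q̄) {ℓ : ℕ} (hℓ0 : ℓ ≠ 0) (hA : A.LiesOverPrime ℓ)
    (M : ℕ) [NeZero M] (m : ℕ) (hm0 : 0 < m) (hmℓ : Nat.Coprime m ℓ)
    (hpack : ∀ (R K : Type) [CommRing R] [IsDomain R] [IsDiscreteValuationRing R] [Field K]
      [CharZero K] [Algebra R K] [IsFractionRing R K]
      [Algebra R ↥(modularFunctionFieldFullC K M)]
      [IsScalarTower R K ↥(modularFunctionFieldFullC K M)] (π : R), Irreducible π →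
      (∀ n : ℕ, Nat.Coprime n ℓ → IsUnit (n : R)) → ¬ IsUnit (ℓ : R) →
      c1t55_ChartData R K M π)
    (a1 b1 : LaurentSeries ↥(A.comap (algebraMap K Q̄)))
    (ha1 : coeffMap (A.comap (algebraMap K Q̄)).subtype a1 ∈ modularFunctionFieldFullC K M)
    (hb1 : coeffMap (A.comap (algebraMap K Q̄)).subtype b1 ∈ modularFunctionFieldFullC K M)
    (hab1 : coeffMap (IsLocalRing.residue ↥(A.comap (algebraMap K Q̄))) a1 =
      coeffMap (IsLocalRing.residue ↥(A.comap (algebraMap K Q̄))) b1)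
    (ha10 : coeffMap (IsLocalRing.residue ↥(A.comap (algebraMap K Q̄))) a1 ≠ 0)
    (hP : ∀ P' : Place Q̄ ↥(modularFunctionFieldBar M),
      (m : ℤ) ∣ P'.ord (fd27_iota (algebraMap K Q̄) M ⟨_, ha1⟩ /
        fd27_iota (algebraMap K Q̄) M ⟨_, hb1⟩)) :
    ∃ v : ↥(modularFunctionFieldBar M),
      v ^ m = fd27_iota (algebraMap K Q̄) M ⟨_, ha1⟩ / fd27_iota (algebraMap K Q̄) M ⟨_, hb1⟩ := by
  have hdvr : IsDiscreteValuationRing (A.comap (algebraMap K Q̄)) :=
    nf23_comap_isDVR_of_liesOverPrime (algebraMap K Q̄) A hℓ0 hA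
  obtain ⟨π, hπ⟩ := IsDiscreteValuationRing.exists_irreducible (A.comap (algebraMap K Q̄))
  letI alg : Algebra (A.comap (algebraMap K Q̄)) ↥(modularFunctionFieldFullC K M) :=
    ((algebraMap K ↥(modularFunctionFieldFullC K M)).comp
      (algebraMap (A.comap (algebraMap K Q̄)) K)).toAlgebra
  have htower : IsScalarTower (A.comap (algebraMap K Q̄)) K ↥(modularFunctionFieldFullC K M) :=
    IsScalarTower.of_algebraMap_eq (fun _ => rfl)
  have hunit : ∀ n : ℕ, Nat.Coprime n ℓ → IsUnit ((n : ℕ) : A.comap (algebraMap K Q̄)) := by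
    intro n hn
    obtain ⟨μ, hμ⟩ := nf23_exists_natCast_mul_eq_one (algebraMap K Q̄) A hA hn
    exact IsUnit.of_mul_eq_one _ hμ
  have hℓnu : ¬ IsUnit ((ℓ : ℕ) : A.comap (algebraMap K Q̄)) := by
    intro hu
    have h1 : ((ℓ : K)) ∈ (A.comap (algebraMap K Q̄)).nonunits := by
      rw [nf23_mem_nonunits_comap, map_natCast]
      exact hA
    have h2 : ((ℓ : ℕ) : A.comap (algebraMap K Q̄)) ∈
        IsLocalRing.maximalIdeal (A.comap (algebraMap K Q̄)) := by
      rw [← ValuationSubring.coe_mem_nonunits_iff]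
      exact h1
    exact h2 hu
  have hpk := hpack (A.comap (algebraMap K Q̄)) K π hπ hunit hℓnu
  have hP1 : ∀ P : Place K ↥(modularFunctionFieldFullC K M),
      (m : ℤ) ∣ P.ord ((⟨_, ha1⟩ : ↥(modularFunctionFieldFullC K M)) / ⟨_, hb1⟩) := by
    intro P
    refine cx_modular_place_dvd (K0 := K) (fd27_iota (algebraMap K Q̄) M)
      (fun f => fd27_iota_coe _ _ f) (m : ℤ) _ ?_ P
    intro P'
    rw [map_div₀]
    exact hP P'
  obtain ⟨f₀, c, hf0, hfc⟩ := c1t55_abs hπ hpk m hm0 (hunit m hmℓ) a1 b1 ha1 hb1 hab1 ha10 hP1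
  have hι := congrArg (fd27_iota (algebraMap K Q̄) M) hfc
  rw [map_mul, map_pow, map_div₀] at hι
  have hc : fd27_iota (algebraMap K Q̄) M
      (algebraMap (A.comap (algebraMap K Q̄)) ↥(modularFunctionFieldFullC K M) c) =
      algebraMap Q̄ ↥(modularFunctionFieldBar M) (algebraMap K Q̄ (c : K)) :=
    fd27_iota_algebraMap (algebraMap K Q̄) M (c : K)
  rw [hc] at hι
  obtain ⟨γ, hγ⟩ := IsAlgClosed.exists_pow_nat_eq (algebraMap K Q̄ (c : K)) hm0
  have hf0' : fd27_iota (algebraMap K Q̄) M f₀ ≠ 0 :=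
    (map_ne_zero_iff _ (fd27_iota_injective (algebraMap K Q̄) M)).mpr hf0
  refine ⟨algebraMap Q̄ ↥(modularFunctionFieldBar M) γ * (fd27_iota (algebraMap K Q̄) M f₀)⁻¹, ?_⟩
  rw [mul_pow, ← map_pow, hγ, ← hι, inv_pow, mul_comm, ← mul_assoc,
    inv_mul_cancel₀ (pow_ne_zero m hf0'), one_mul]
  rfl

/-- **C1 (twin).** Statement `(**)` over `(ℚ̄, A)` at level `M` for the exponent `m` prime to
the residue characteristic `ℓ`, from the concrete chart packages over the discrete valuation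
rings of residue characteristic `ℓ`. -/
theorem c1t55_star (A : ValuationSubring Q̄) {ℓ : ℕ} (hℓ0 : ℓ ≠ 0) (hA : A.LiesOverPrime ℓ)
    (M : ℕ) [NeZero M] (m : ℕ) (hm0 : 0 < m) (hmℓ : Nat.Coprime m ℓ)
    (hpack : ∀ (R K : Type) [CommRing R] [IsDomain R] [IsDiscreteValuationRing R] [Field K]
      [CharZero K] [Algebra R K] [IsFractionRing R K]
      [Algebra R ↥(modularFunctionFieldFullC K M)]
      [IsScalarTower R K ↥(modularFunctionFieldFullC K M)] (π : R), Irreducible π →
      (∀ n : ℕ, Nat.Coprime n ℓ → IsUnit (n : R)) → ¬ IsUnit (ℓ : R) →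
      c1t55_ChartData R K M π) :
    nd38_Star A M m := by
  intro a b ha hb hab ha0 hP
  obtain ⟨K0, hK0, -, -, a1, b1, ha1, hb1, haa, hbb, hιa, hιb, hra, hrb⟩ :=
    fd27_S0 A M a b ha hb ∅ ∅
  have hab1 : coeffMap (IsLocalRing.residue (A.comap (algebraMap K0 Q̄))) a1 =
      coeffMap (IsLocalRing.residue (A.comap (algebraMap K0 Q̄))) b1 :=
    fd27_residue_eq (algebraMap K0 Q̄) A a1 b1 (by rw [haa, hbb]; exact hab)
  have ha10 : coeffMap (IsLocalRing.residue (A.comap (algebraMap K0 Q̄))) a1 ≠ 0 :=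
    fd27_residue_ne_zero (algebraMap K0 Q̄) A a1 (by rw [haa]; exact ha0)
  obtain ⟨v, hv⟩ := c1t55_star_aux (K := K0) A hℓ0 hA M m hm0 hmℓ hpack a1 b1 ha1 hb1 hab1 ha10
    (by rw [hιa, hιb]; exact hP)
  exact ⟨v, by rw [hv, hιa, hιb]⟩

/-- The same in the shape `relim_Star` consumed by `relim_main_prime_of`. -/
theorem c1t55_relim_star (A : ValuationSubring Q̄) {ℓ : ℕ} (hℓ0 : ℓ ≠ 0) (hA : A.LiesOverPrime ℓ)
    (M : ℕ) [NeZero M] (m : ℕ) (hm0 : 0 < m) (hmℓ : Nat.Coprime m ℓ)
    (hpack : ∀ (R K : Type) [CommRing R] [IsDomain R] [IsDiscreteValuationRing R] [Field K]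
      [CharZero K] [Algebra R K] [IsFractionRing R K]
      [Algebra R ↥(modularFunctionFieldFullC K M)]
      [IsScalarTower R K ↥(modularFunctionFieldFullC K M)] (π : R), Irreducible π →
      (∀ n : ℕ, Nat.Coprime n ℓ → IsUnit (n : R)) → ¬ IsUnit (ℓ : R) →
      c1t55_ChartData R K M π) :
    relim_Star A M m :=
  nd38_relim_of_star (c1t55_star A hℓ0 hA M m hm0 hmℓ hpack)

/-- **S18 from the concrete chart packages** at the auxiliary levels `lcm N p₀`, `p₀ ∈ {2, 3}`,
`p₀ ≠ ℓ`, over the discrete valuation rings of residue characteristic `ℓ`: the exact conclusion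
of the frozen statement S18. -/
theorem c1t55_main (N : ℕ) [NeZero N] {ℓ : ℕ} [Fact ℓ.Prime] (A : ValuationSubring Q̄)
    (hA : A.LiesOverPrime ℓ) (h : ModularCurve.ReductionInputsModL A N)
    (hpack : ∀ p₀ : ℕ, (p₀ = 2 ∨ p₀ = 3) → p₀ ≠ ℓ →
      ∀ (R K : Type) [CommRing R] [IsDomain R] [IsDiscreteValuationRing R] [Field K]
      [CharZero K] [Algebra R K] [IsFractionRing R K]
      [Algebra R ↥(modularFunctionFieldFullC K (Nat.lcm N p₀))]
      [IsScalarTower R K ↥(modularFunctionFieldFullC K (Nat.lcm N p₀))] (π : R), Irreducible π →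
      (∀ n : ℕ, Nat.Coprime n ℓ → IsUnit (n : R)) → ¬ IsUnit (ℓ : R) →
      c1t55_ChartData R K (Nat.lcm N p₀) π)
    (m : ℕ) (hm : ¬ ℓ ∣ m) (z : ModularCurve.JZero N) (hmz : m • z = 0)
    (hz : ModularCurve.reductionModL A N z = 0) : z = 0 := by
  have hℓ : ℓ.Prime := Fact.out
  refine nd38_main_of_aux N A h (relim_const A N) (fun p hp hpℓ p₀ hp₀ hp₀ℓ => ?_) m hm z hmz hz
  have hp₀0 : p₀ ≠ 0 := by rcases hp₀ with rfl | rfl <;> norm_num
  haveI : NeZero (Nat.lcm N p₀) := ⟨Nat.lcm_ne_zero (NeZero.ne N) hp₀0⟩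
  exact c1t55_relim_star A hℓ.ne_zero hA (Nat.lcm N p₀) p hp.pos
    ((Nat.coprime_primes hp hℓ).mpr hpℓ) (hpack p₀ hp₀ hp₀ℓ)

end Concrete

end Fermat.Agent.S18
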