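import Fermat.Agent.S18.Chart85
import Fermat.Agent.S18.GaussVal85
import Fermat.Agent.S18.Sat23
import Fermat.Agent.S18.StarTwin55
import Fermat.Agent.S18.Haupt2R70
import Fermat.Agent.S18.Haupt3Mem_34
import Fermat.Agent.S18.RElimJ29
import Fermat.Agent.S24.PlacesBasicCore

/-!
# S18, row B5-pack (helper85): the chart package `c1t55_ChartData`

`pk85_chartData_of` assembles the concrete chart package `c1t55_ChartData R K M π`
(StarTwin55.lean) for the modular function field `F = F(M)_K` over a discrete valuation ring `R`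
with fraction field `K` of characteristic zero, from

* the Gauss valuation ring `V = gv85_V (residue R) F _` (GaussVal85.lean),
* a Hauptmodul `h ∈ F` with `R`-integral `q`-expansion `hR` and inverse expansion `hRinv`,
* saturation of the big chart (Sat23.lean),
* the Dedekind special fibres of the two charts (row B5), as hypotheses `hD₁`, `hD₂`.

`pk85_chartData_level2_of`, `pk85_chartData_level3_of`: the same for the explicit Hauptmoduln
of level `2` and `3`; the only remaining hypotheses are the two Dedekind fibres.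
-/

set_option autoImplicit false
set_option linter.unusedSectionVars false
set_option linter.style.haveILetI false

open ModularCurve IntermediateField Polynomial

namespace Fermat.Agent.S18

open Fermat.Agent.S24

section pk85_pack

variable {R K : Type} [CommRing R] [IsDomain R] [IsDiscreteValuationRing R] [Field K]
  [Algebra R K] [IsFractionRing R K] (M : ℕ) [NeZero M]

theorem pk85_res_iff {π : R} (hπ : Irreducible π) (r : R) :
    IsLocalRing.residue R r = 0 ↔ π ∣ r := by
  rw [IsLocalRing.residue_eq_zero_iff, hπ.maximalIdeal_eq, Ideal.mem_span_singleton]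

/-- `(HF)` for the modular function field over a discrete valuation ring. -/
theorem pk85_HF (K : Type) [Field K] [Algebra R K] [IsFractionRing R K] (M : ℕ) {π : R}
    (hπ : Irreducible π) :
    gv85_HF (IsLocalRing.residue R) (modularFunctionFieldFullC K M) :=
  sat23_HF K (IsLocalRing.residue R) π (pk85_res_iff hπ) hπ.ne_zero
    (sat23_hfin π hπ.prime) M

variable [Algebra R ↥(modularFunctionFieldFullC K M)]
  [IsScalarTower R K ↥(modularFunctionFieldFullC K M)]

/-- The Gauss valuation ring contains the constants of `R`. -/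
theorem pk85_hRV {π : R} (hπ : Irreducible π) (r : R) :
    algebraMap R ↥(modularFunctionFieldFullC K M) r ∈
      gv85_V (IsLocalRing.residue R) (modularFunctionFieldFullC K M) (pk85_HF K M hπ) := by
  refine gv85_mem_V_of_integral _ _ _ _ (HahnSeries.C r) ?_
  rw [IsScalarTower.algebraMap_apply R K ↥(modularFunctionFieldFullC K M), gv85_coe_algebraMap,
    gv85_coeffMap_C]

/-- GAUSS in the shape of `c1t55_ChartData`. -/
theorem pk85_gauss {π : R} (hπ : Irreducible π) (x : ↥(modularFunctionFieldFullC K M))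
    (y : LaurentSeries R) (hxy : (x : LaurentSeries K) = coeffMap (algebraMap R K) y) :
    x ∈ gv85_V (IsLocalRing.residue R) (modularFunctionFieldFullC K M) (pk85_HF K M hπ) ∧
    ((algebraMap R ↥(modularFunctionFieldFullC K M) π)⁻¹ * x ∈
        gv85_V (IsLocalRing.residue R) (modularFunctionFieldFullC K M) (pk85_HF K M hπ) ↔
      coeffMap (IsLocalRing.residue R) y = 0) := by
  refine ⟨gv85_mem_V_of_integral _ _ _ x y hxy, ?_⟩
  rw [IsScalarTower.algebraMap_apply R K ↥(modularFunctionFieldFullC K M)]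
  exact gv85_gauss (IsLocalRing.residue R) π (pk85_res_iff hπ) hπ.ne_zero _ _ x y hxy

/-- **The chart package from a Hauptmodul**, modulo the Dedekind fibres. -/
theorem pk85_chartData_of [CharZero K] {π : R} (hπ : Irreducible π)
    (h : ↥(modularFunctionFieldFullC K M)) (hR hRinv : LaurentSeries R)
    (hcoe : (h : LaurentSeries K) = coeffMap (algebraMap R K) hR) (hinv : hR * hRinv = 1)
    (hh : Transcendental K h)
    (hsat₁₂ : ∀ x ∈ pk15_chart R ({h, h⁻¹} : Set ↥(modularFunctionFieldFullC K M)),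
      (algebraMap R ↥(modularFunctionFieldFullC K M) π)⁻¹ * x ∈
        gv85_V (IsLocalRing.residue R) (modularFunctionFieldFullC K M) (pk85_HF K M hπ) →
      (algebraMap R ↥(modularFunctionFieldFullC K M) π)⁻¹ * x ∈
        pk15_chart R ({h, h⁻¹} : Set ↥(modularFunctionFieldFullC K M)))
    (hD₁ : IsDedekindDomain (pk15_chart R ({h} : Set ↥(modularFunctionFieldFullC K M)) ⧸
      Ideal.span {algebraMap R (pk15_chart R ({h} : Set ↥(modularFunctionFieldFullC K M))) π}))
    (hD₂ : IsDedekindDomain (pk15_chart R ({h⁻¹} : Set ↥(modularFunctionFieldFullC K M)) ⧸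
      Ideal.span {algebraMap R (pk15_chart R ({h⁻¹} : Set ↥(modularFunctionFieldFullC K M))) π})) :
    c1t55_ChartData R K M π := by
  set V := gv85_V (IsLocalRing.residue R) (modularFunctionFieldFullC K M) (pk85_HF K M hπ) with hV
  have hconv : ∀ r : R, algebraMap R ↥(modularFunctionFieldFullC K M) r =
      algebraMap K ↥(modularFunctionFieldFullC K M) (algebraMap R K r) :=
    fun r => IsScalarTower.algebraMap_apply R K ↥(modularFunctionFieldFullC K M) r
  have hRV : ∀ r : R, algebraMap R ↥(modularFunctionFieldFullC K M) r ∈ V := pk85_hRV M hπ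
  have hπV : (algebraMap R ↥(modularFunctionFieldFullC K M) π)⁻¹ ∉ V := by
    rw [hconv]
    exact gv85_pi_inv_not_mem (IsLocalRing.residue R) π (pk85_res_iff hπ) hπ.ne_zero _ _
  have hmax : ∀ x ∈ V, x⁻¹ ∉ V →
      (algebraMap R ↥(modularFunctionFieldFullC K M) π)⁻¹ * x ∈ V := by
    intro x hx hx'
    rw [hconv]
    exact gv85_hmax (IsLocalRing.residue R) π (pk85_res_iff hπ) hπ.ne_zero _ _ x hx hx'
  have hhV : h ∈ V := (pk85_gauss M hπ h hR hcoe).1
  have hcoe' : ((h⁻¹ : ↥(modularFunctionFieldFullC K M)) : LaurentSeries K) =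
      coeffMap (algebraMap R K) hRinv := by
    have h1 : coeffMap (algebraMap R K) hR * coeffMap (algebraMap R K) hRinv = 1 := by
      rw [← map_mul, hinv, map_one]
    have h2 : ((h⁻¹ : ↥(modularFunctionFieldFullC K M)) : LaurentSeries K) =
        ((h : ↥(modularFunctionFieldFullC K M)) : LaurentSeries K)⁻¹ := rfl
    rw [h2, hcoe]
    exact inv_eq_of_mul_eq_one_right h1
  have hhV' : h⁻¹ ∈ V := (pk85_gauss M hπ h⁻¹ hRinv hcoe').1
  have hh0 : h ≠ 0 := cap87_ne_zero h hh
  have hh' : Transcendental K h⁻¹ := cap87_transcendental_inv h hh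
  haveI := hD₁
  haveI := hD₂
  have hsat₁ := sat23_sat₁ π V hRV hπV h hh0 hhV hhV' hsat₁₂
  have hsat₂ := sat23_sat₂ π V hRV hπV h hh0 hhV hhV' hsat₁₂
  haveI : FiniteDimensional K⟮relimc_J K M⟯ ↥(modularFunctionFieldFullC K M) := relimc_finite K M
  haveI : FiniteDimensional K⟮h⟯ ↥(modularFunctionFieldFullC K M) :=
    wp1b_finite_of_transcendental (relimc_J K M) h hh
  haveI : FiniteDimensional K⟮h⁻¹⟯ ↥(modularFunctionFieldFullC K M) :=
    wp1b_finite_of_transcendental (relimc_J K M) h⁻¹ hh'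
  obtain ⟨hN₁, hfin, hfrac⟩ := pk85_chart_finite (R := R) (K := K) h hh
  obtain ⟨hN₂, -, -⟩ := pk85_chart_finite (R := R) (K := K) h⁻¹ hh'
  exact ⟨h, V, hh, hRV, hπV, hmax, hhV, hhV', hsat₁, hsat₂, hsat₁₂, hN₁, hN₂, hD₁, hD₂, hfin,
    hfrac, fun x y hxy => pk85_gauss M hπ x y hxy⟩

end pk85_pack

section pk85_levels

/-- The level `3` Hauptmodul as an element of `F(M)_K`, `3 ∣ M`. -/
noncomputable def pk85_h3 (K : Type) [Field K] [CharZero K] (M : ℕ) [NeZero M] (h3 : 3 ∣ M) :
    ↥(modularFunctionFieldFullC K M) := ⟨h34_h3R K, h34_h3R_mem_fullC K M h3⟩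

/-- The level `2` Hauptmodul as an element of `F(M)_K`, `2 ∣ M`. -/
noncomputable def pk85_h2 (K : Type) [Field K] [CharZero K] (M : ℕ) [NeZero M] (h2 : 2 ∣ M) :
    ↥(modularFunctionFieldFullC K M) := ⟨h70_h2 K, h70_h2_mem_fullC K M h2⟩

theorem pk85_h3_coe (K : Type) [Field K] [CharZero K] (M : ℕ) [NeZero M] (h3 : 3 ∣ M) :
    ((pk85_h3 K M h3 : ↥(modularFunctionFieldFullC K M)) : LaurentSeries K) = h34_h3R K := rfl

theorem pk85_h2_coe (K : Type) [Field K] [CharZero K] (M : ℕ) [NeZero M] (h2 : 2 ∣ M) :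
    ((pk85_h2 K M h2 : ↥(modularFunctionFieldFullC K M)) : LaurentSeries K) = h70_h2 K := rfl

theorem pk85_h3_transcendental (K : Type) [Field K] [CharZero K] (M : ℕ) [NeZero M]
    (h3 : 3 ∣ M) : Transcendental K (pk85_h3 K M h3) := fun halg =>
  h34_h3R_transcendental K (halg.algHom (IntermediateField.val (modularFunctionFieldFullC K M)))

theorem pk85_h2_transcendental (K : Type) [Field K] [CharZero K] (M : ℕ) [NeZero M]
    (h2 : 2 ∣ M) : Transcendental K (pk85_h2 K M h2) := fun halg =>
  h70_h2_transcendental K (halg.algHom (IntermediateField.val (modularFunctionFieldFullC K M)))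

theorem pk85_h3_rel (K : Type) [Field K] [CharZero K] (M : ℕ) [NeZero M] (h3 : 3 ∣ M) :
    rm90_j K M * pk85_h3 K M h3 ^ 3 = (pk85_h3 K M h3 + 27) * (pk85_h3 K M h3 + 243) ^ 3 := by
  apply Subtype.ext
  push_cast
  exact h34_h3R_j K

theorem pk85_h2_rel (K : Type) [Field K] [CharZero K] (M : ℕ) [NeZero M] (h2 : 2 ∣ M) :
    rm90_j K M * pk85_h2 K M h2 ^ 2 = (pk85_h2 K M h2 + 256) ^ 3 := by
  apply Subtype.ext
  push_cast
  exact h70_j_mul_h2_sq K

variable {R K : Type} [CommRing R] [IsDomain R] [IsDiscreteValuationRing R] [Field K] [CharZero K]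
  [Algebra R K] [IsFractionRing R K] (M : ℕ) [NeZero M]
  [Algebra R ↥(modularFunctionFieldFullC K M)]
  [IsScalarTower R K ↥(modularFunctionFieldFullC K M)]

theorem pk85_natCast_residue_ne_zero (hMu : IsUnit (M : R)) :
    (M : IsLocalRing.ResidueField R) ≠ 0 := by
  have h1 := hMu.map (IsLocalRing.residue R)
  rw [map_natCast] at h1
  exact h1.ne_zero

theorem pk85_isUnit_of_dvd {p : ℕ} (hp : p ∣ M) (hMu : IsUnit (M : R)) : IsUnit (p : R) := by
  obtain ⟨k, hk⟩ := hp
  have h1 : (M : R) = (p : R) * (k : R) := by rw [hk]; push_cast; ring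
  rw [h1] at hMu
  exact isUnit_of_mul_isUnit_left hMu

/-- **The chart package at level `3 ∣ M`** (`M` a unit of `R`), modulo the Dedekind fibres of the
two charts `R[h]~`, `R[h⁻¹]~`, `h = pk85_h3 K M h3`. -/
theorem pk85_chartData_level3_of {π : R} (hπ : Irreducible π) (h3 : 3 ∣ M)
    (hMu : IsUnit (M : R))
    (hD₁ : IsDedekindDomain
      (pk15_chart R ({pk85_h3 K M h3} : Set ↥(modularFunctionFieldFullC K M)) ⧸
        Ideal.span {algebraMap R
          (pk15_chart R ({pk85_h3 K M h3} : Set ↥(modularFunctionFieldFullC K M))) π}))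
    (hD₂ : IsDedekindDomain
      (pk15_chart R ({(pk85_h3 K M h3)⁻¹} : Set ↥(modularFunctionFieldFullC K M)) ⧸
        Ideal.span {algebraMap R
          (pk15_chart R ({(pk85_h3 K M h3)⁻¹} : Set ↥(modularFunctionFieldFullC K M))) π})) :
    c1t55_ChartData R K M π := by
  have hM := pk85_natCast_residue_ne_zero (R := R) M hMu
  have h3u : IsUnit ((3 : ℕ) : R) := pk85_isUnit_of_dvd M h3 hMu
  obtain ⟨u, hu⟩ := h3u.exists_left_inv
  have hu' : u * 3 = 1 := by rw [← hu]; push_cast; ring
  have hh := pk85_h3_transcendental K M h3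
  exact pk85_chartData_of M hπ (pk85_h3 K M h3) (h34_h3R R) (h34_h3Rinv R)
    (h34_coeffMap_h3R (algebraMap R K)).symm (h34_h3R_mul_inv R) hh
    (sat23_level3 K M π hπ.prime (IsLocalRing.ResidueField R) (IsLocalRing.residue R)
      (pk85_res_iff hπ) hM (pk85_HF K M hπ) _ (cap87_ne_zero _ hh) (pk85_h3_rel K M h3) u hu')
    hD₁ hD₂

/-- **The chart package at level `2 ∣ M`** (`M` a unit of `R`), modulo the Dedekind fibres of the
two charts `R[h]~`, `R[h⁻¹]~`, `h = pk85_h2 K M h2`. -/
theorem pk85_chartData_level2_of {π : R} (hπ : Irreducible π) (h2 : 2 ∣ M)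
    (hMu : IsUnit (M : R))
    (hD₁ : IsDedekindDomain
      (pk15_chart R ({pk85_h2 K M h2} : Set ↥(modularFunctionFieldFullC K M)) ⧸
        Ideal.span {algebraMap R
          (pk15_chart R ({pk85_h2 K M h2} : Set ↥(modularFunctionFieldFullC K M))) π}))
    (hD₂ : IsDedekindDomain
      (pk15_chart R ({(pk85_h2 K M h2)⁻¹} : Set ↥(modularFunctionFieldFullC K M)) ⧸
        Ideal.span {algebraMap R
          (pk15_chart R ({(pk85_h2 K M h2)⁻¹} : Set ↥(modularFunctionFieldFullC K M))) π})) :
    c1t55_ChartData R K M π := by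
  have hM := pk85_natCast_residue_ne_zero (R := R) M hMu
  have h2u : IsUnit ((2 : ℕ) : R) := pk85_isUnit_of_dvd M h2 hMu
  have h256u : IsUnit ((256 : ℕ) : R) := by
    have : ((256 : ℕ) : R) = ((2 : ℕ) : R) ^ 8 := by push_cast; norm_num
    rw [this]
    exact h2u.pow 8
  obtain ⟨u, hu⟩ := h256u.exists_left_inv
  have hu' : u * 256 = 1 := by rw [← hu]; push_cast; ring
  have hh := pk85_h2_transcendental K M h2
  exact pk85_chartData_of M hπ (pk85_h2 K M h2) (h70_h2 R) (h70_h2inv R)
    (h70_coeffMap_h2 (algebraMap R K)).symm (h70_h2_mul_h2inv R) hh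
    (sat23_level2 K M π hπ.prime (IsLocalRing.ResidueField R) (IsLocalRing.residue R)
      (pk85_res_iff hπ) hM (pk85_HF K M hπ) _ (cap87_ne_zero _ hh) (pk85_h2_rel K M h2) u hu')
    hD₁ hD₂

end pk85_levels

end Fermat.Agent.S18
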