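import Mathlib

/-!
# S18, row A4 (helper44): self-duality in codimension one at unramified primes

Setting (that of the purity lemma, `Purity.lean`): `O` a noetherian domain, `E = Frac O`,
`L / E` finite separable, `C` the integral closure of `O` in `L`.  For a prime element `p` of
`O` of residue characteristic zero such that `C` is unramified over `(p)` (`e = 1` at every
prime of `C` over `(p)`), every element `y` of the trace dual of `C` lies in `C_(p)`:
there is `s : O`, `¬ p ∣ s`, with `s * y ∈ C`.

The proof localises at `(p)`: `A = O_(p)` (realised as a subalgebra of `E`) is a discrete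
valuation ring, `B = integralClosure A L` is a Dedekind domain, the different of `B / A` is
prime to every prime over `p` (Mathlib: `not_dvd_differentIdeal_of_isCoprime_of_isSeparable`),
hence contains an element of `A` outside `pA` by lying-over.

Exports: `sd44_hcodim_of_unramified` (hypothesis on the primes of `C` over `(p)`),
`sd44_hcodim_of_valuation` (hypothesis on the discrete valuation subrings of `L` dominating
`O_(p)`), and the Dedekind-level statements `sd44_dedekind_core`, `sd44_dedekind_selfdual_at`.
All names are prefixed `sd44_`.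
-/

set_option autoImplicit false
set_option linter.style.haveILetI false
set_option linter.unusedSectionVars false
set_option linter.unusedVariables false
set_option linter.deprecated false

namespace Fermat.Agent.S18

open scoped nonZeroDivisors

attribute [local instance] FractionRing.liftAlgebra FractionRing.isScalarTower_liftAlgebra
  Ideal.Quotient.field

section Dedekind

variable {A K L B : Type*} [CommRing A] [IsDedekindDomain A] [Field K] [Algebra A K]
  [IsFractionRing A K] [Field L] [Algebra K L] [Algebra A L] [IsScalarTower A K L]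
  [FiniteDimensional K L] [Algebra.IsSeparable K L]
  [CommRing B] [Algebra A B] [Algebra B L] [IsScalarTower A B L] [IsIntegralClosure B A L]

/-- Core: if no prime of `B` over `p` divides the different, the trace dual of `B` localises
into `B` at `p`. -/
theorem sd44_dedekind_core [IsDedekindDomain B] [IsFractionRing B L]
    [Module.IsTorsionFree A B] [Module.Finite A B]
    (p : Ideal A) [p.IsPrime]
    (hunr : ∀ P : Ideal B, P.IsPrime → P.comap (algebraMap A B) = p → ¬ P ∣ differentIdeal A B)
    (y : L) (hy : ∀ b : B, Algebra.trace K L (y * algebraMap B L b) ∈ (algebraMap A K).range) :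
    ∃ s : A, s ∉ p ∧ algebraMap A L s * y ∈ (algebraMap B L).range := by
  have hint : Algebra.IsIntegral A B := IsIntegralClosure.isIntegral_algebra A L
  -- an element of the different outside `p`
  have hex : ∃ s : A, s ∉ p ∧ algebraMap A B s ∈ differentIdeal A B := by
    by_contra hcon
    push Not at hcon
    have hle : (differentIdeal A B).comap (algebraMap A B) ≤ p := by
      intro s hs
      by_contra hsp
      exact hcon s hsp hs
    obtain ⟨Q, hQ, hQp, hQc⟩ :=
      Ideal.exists_ideal_over_prime_of_isIntegral p (differentIdeal A B) hle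
    exact hunr Q hQp hQc (Ideal.dvd_iff_le.mpr hQ)
  obtain ⟨s, hsp, hsD⟩ := hex
  refine ⟨s, hsp, ?_⟩
  have hy' : y ∈ Submodule.traceDual A K (1 : Submodule B L) := by
    rw [Submodule.mem_traceDual]
    intro a ha
    obtain ⟨b, rfl⟩ := Submodule.mem_one.mp ha
    exact hy b
  have hmem : algebraMap B L (algebraMap A B s) ∈
      (1 / Submodule.traceDual A K (1 : Submodule B L) : Submodule B L) := by
    rw [← coeSubmodule_differentIdeal A K]
    exact ⟨_, hsD, rfl⟩
  have := Submodule.mem_div_iff_forall_mul_mem.mp hmem y hy'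
  rw [← IsScalarTower.algebraMap_apply] at this
  obtain ⟨b, hb⟩ := Submodule.mem_one.mp this
  exact ⟨b, hb⟩

/-- Dedekind form: `p` a nonzero maximal ideal of `A`; every maximal ideal `P` of `B` over `p`
has `e = 1` (`pB ⊄ P²`) and separable residue field extension.  Then the trace dual of `B`
localises into `B` at `p`. -/
theorem sd44_dedekind_selfdual_at [IsDomain B]
    (p : Ideal A) [p.IsMaximal] (hp0 : p ≠ ⊥)
    (hunr : ∀ (P : Ideal B) [P.IsMaximal] [P.LiesOver p],
      ¬ (p.map (algebraMap A B) ≤ P ^ 2) ∧ Algebra.IsSeparable (A ⧸ p) (B ⧸ P))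
    (y : L) (hy : ∀ b : B, Algebra.trace K L (y * algebraMap B L b) ∈ (algebraMap A K).range) :
    ∃ s : A, s ∉ p ∧ algebraMap A L s * y ∈ (algebraMap B L).range := by
  have : IsDedekindDomain B := IsIntegralClosure.isDedekindDomain A K L B
  have : IsFractionRing B L := IsIntegralClosure.isFractionRing_of_finite_extension A K L B
  have : Module.Finite A B := IsIntegralClosure.finite A K L B
  have : Module.IsTorsionFree A L := .trans_faithfulSMul A K L
  have : Module.IsTorsionFree A B := IsIntegralClosure.isTorsionFree A L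
  have hsepF : Algebra.IsSeparable (FractionRing A) (FractionRing B) := by
    have H : RingHom.comp (algebraMap (FractionRing A) (FractionRing B))
        ↑(FractionRing.algEquiv A K).symm.toRingEquiv =
          RingHom.comp ↑(FractionRing.algEquiv B L).symm.toRingEquiv (algebraMap K L) := by
      apply IsLocalization.ringHom_ext A⁰
      ext
      simp only [RingHom.coe_comp, RingHom.coe_coe,
        AlgEquiv.coe_ringEquiv, Function.comp_apply, AlgEquiv.commutes,
        ← IsScalarTower.algebraMap_apply]
      rw [IsScalarTower.algebraMap_apply A B L, AlgEquiv.commutes,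
        ← IsScalarTower.algebraMap_apply]
    exact Algebra.IsSeparable.of_equiv_equiv _ _ H
  refine sd44_dedekind_core p (fun P hP hPp => ?_) y hy
  have hP0 : P ≠ ⊥ := by
    rintro rfl
    apply hp0
    rw [← hPp]
    exact Ideal.comap_bot_of_injective _ (FaithfulSMul.algebraMap_injective A B)
  have hPmax : P.IsMaximal := hP.isMaximal hP0
  have hPover : P.LiesOver p := ⟨hPp.symm⟩
  obtain ⟨he, hsep⟩ := hunr P
  obtain ⟨Q, hQ⟩ : P ∣ p.map (algebraMap A B) :=
    Ideal.dvd_iff_le.mpr (Ideal.map_le_iff_le_comap.mpr hPp.ge)
  have hcop : IsCoprime P Q := by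
    rw [Ideal.isCoprime_iff_sup_eq]
    by_contra hne
    have hle : Q ≤ P := by
      have := hPmax.eq_of_le hne le_sup_left
      rw [this]
      exact le_sup_right
    apply he
    rw [hQ, pow_two]
    exact Ideal.mul_mono_right hle
  exact not_dvd_differentIdeal_of_isCoprime_of_isSeparable A P Q hcop hQ.symm

end Dedekind

section AtPrime

variable {O A : Type*} [CommRing O] [IsDomain O] [IsNoetherianRing O]
  [CommRing A] [IsDomain A] [Algebra O A]

theorem sd44_span_isPrime {p : O} (hp : Prime p) : (Ideal.span {p}).IsPrime :=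
  (Ideal.span_singleton_prime hp.ne_zero).mpr hp

/-- The localisation of a noetherian domain at a principal prime is a principal ideal ring. -/
theorem sd44_atPrime_pid (p : O) (hp : Prime p)
    [hI : (Ideal.span {p}).IsPrime] [IsLocalization.AtPrime A (Ideal.span {p})] :
    IsPrincipalIdealRing A ∧ (Ideal.span {algebraMap O A p}).IsMaximal ∧
      (Ideal.span {algebraMap O A p}).comap (algebraMap O A) = Ideal.span {p} := by
  haveI : IsLocalRing A := IsLocalization.AtPrime.isLocalRing A (Ideal.span {p})
  haveI : IsNoetherianRing A :=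
    IsLocalization.isNoetherianRing (Ideal.span {p}).primeCompl A inferInstance
  have hmax : IsLocalRing.maximalIdeal A = Ideal.span {algebraMap O A p} := by
    rw [← IsLocalization.AtPrime.map_eq_maximalIdeal (Ideal.span {p}) A, Ideal.map_span,
      Set.image_singleton]
  refine ⟨?_, ?_, ?_⟩
  · refine ((tfae_of_isNoetherianRing_of_isLocalRing_of_isDomain A).out 4 0).mp ?_
    rw [hmax]
    exact ⟨⟨_, rfl⟩⟩
  · rw [← hmax]
    infer_instance
  · rw [← hmax]
    exact IsLocalization.AtPrime.comap_maximalIdeal A (Ideal.span {p})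

end AtPrime

section Main

variable {O E L C : Type*} [CommRing O] [IsDomain O] [IsNoetherianRing O]
  [Field E] [Algebra O E] [IsFractionRing O E]
  [Field L] [Algebra E L] [Algebra O L] [IsScalarTower O E L] [FiniteDimensional E L]
  [Algebra.IsSeparable E L]
  [CommRing C] [Algebra O C] [Algebra C L] [IsScalarTower O C L] [IsIntegralClosure C O L]

/-- Abstract form: `A` is a model of `O_(p)` sitting between `O` and `E`. -/
theorem sd44_hcodim_aux {A : Type*} [CommRing A] [IsDomain A] [Algebra O A] [Algebra A E]
    [IsScalarTower O A E] [Algebra A L] [IsScalarTower A E L] [IsScalarTower O A L]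
    (p : O) (hp : Prime p) [(Ideal.span {p}).IsPrime]
    [IsLocalization.AtPrime A (Ideal.span {p})]
    (hchar : ∀ n : ℕ, n ≠ 0 → ¬ p ∣ (n : O))
    (hunr : ∀ P : Ideal (integralClosure A L), P.IsMaximal →
      algebraMap A (integralClosure A L) (algebraMap O A p) ∈ P →
      algebraMap A (integralClosure A L) (algebraMap O A p) ∉ P ^ 2)
    (y : L) (hy : ∀ c : C, Algebra.trace E L (y * algebraMap C L c) ∈ (algebraMap O E).range) :
    ∃ s : O, ¬ p ∣ s ∧ algebraMap O L s * y ∈ (algebraMap C L).range := by
  obtain ⟨hpid, hmax, hcomap⟩ := sd44_atPrime_pid (A := A) p hp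
  haveI := hpid
  haveI := hmax
  haveI : IsFractionRing A E :=
    IsFractionRing.isFractionRing_of_isDomain_of_isLocalization (Ideal.span {p}).primeCompl A E
  have hinjOE : Function.Injective (algebraMap O E) := IsFractionRing.injective O E
  have hinjAE : Function.Injective (algebraMap A E) := IsFractionRing.injective A E
  have hinjOA : Function.Injective (algebraMap O A) := by
    intro a b hab
    apply hinjOE
    rw [IsScalarTower.algebraMap_apply O A E, hab, ← IsScalarTower.algebraMap_apply O A E]
  have hp0 : Ideal.span {algebraMap O A p} ≠ ⊥ := by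
    rw [Ne, Ideal.span_singleton_eq_bot]
    intro h0
    exact hp.ne_zero (hinjOA (by rw [h0, map_zero]))
  have hmemA : ∀ x : O, algebraMap O A x ∈ Ideal.span {algebraMap O A p} ↔ p ∣ x := by
    intro x
    rw [← Ideal.mem_comap, hcomap, Ideal.mem_span_singleton]
  haveI : CharZero (A ⧸ Ideal.span {algebraMap O A p}) := by
    refine charZero_of_inj_zero (fun n hn => ?_)
    by_contra hn0
    apply hchar n hn0
    rw [← hmemA, ← Ideal.Quotient.eq_zero_iff_mem]
    simpa using hn
  haveI hint : Algebra.IsIntegral A (integralClosure A L) :=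
    IsIntegralClosure.isIntegral_algebra A L
  -- multiples of integral elements
  have hmult : ∀ z : L, IsIntegral A z →
      ∃ m : O, ¬ p ∣ m ∧ ∃ c : C, algebraMap C L c = algebraMap O L m * z := by
    intro z hz
    obtain ⟨m, hm⟩ := IsIntegral.exists_multiple_integral_of_isLocalization
      (Ideal.span {p}).primeCompl z hz
    obtain ⟨c, hc⟩ := (IsIntegralClosure.isIntegral_iff (A := C)).mp hm
    refine ⟨m, ?_, c, ?_⟩
    · have := m.2
      rwa [Ideal.mem_primeCompl_iff, Ideal.mem_span_singleton] at this
    · rw [hc, Submonoid.smul_def, Algebra.smul_def]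
  have key := sd44_dedekind_selfdual_at (A := A) (K := E) (L := L) (B := integralClosure A L)
    (Ideal.span {algebraMap O A p}) hp0 (fun P _ hPover => ⟨?_, ?_⟩) y ?_
  · obtain ⟨a, ha, b, hb⟩ := key
    obtain ⟨x, s, rfl⟩ := IsLocalization.exists_mk'_eq (Ideal.span {p}).primeCompl a
    have hs : ¬ p ∣ (s : O) := by
      have := s.2
      rwa [Ideal.mem_primeCompl_iff, Ideal.mem_span_singleton] at this
    have hx : ¬ p ∣ x := by
      intro hpx
      apply ha
      have : IsLocalization.mk' A x s ∈ Ideal.span {algebraMap O A p} := by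
        rw [IsLocalization.mk'_eq_mul_mk'_one]
        exact Ideal.mul_mem_right _ _ ((hmemA x).mpr hpx)
      exact this
    obtain ⟨m, hm, c, hc⟩ := hmult (b : L) b.2
    refine ⟨m * x, ?_, algebraMap O C s * c, ?_⟩
    · intro hdvd
      rcases hp.dvd_or_dvd hdvd with h | h
      · exact hm h
      · exact hx h
    · have hb' : algebraMap A L (IsLocalization.mk' A x s) * y = (b : L) := hb.symm
      have hxs : algebraMap O L x = algebraMap O L s * algebraMap A L (IsLocalization.mk' A x s) := by
        rw [IsScalarTower.algebraMap_apply O A L, IsScalarTower.algebraMap_apply O A L s,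
          ← map_mul, mul_comm, IsLocalization.mk'_spec]
      rw [map_mul, hc, ← IsScalarTower.algebraMap_apply O C L, map_mul, hxs, ← hb']
      ring
  · -- e = 1
    intro hle
    have hmemP : algebraMap A (integralClosure A L) (algebraMap O A p) ∈ P := by
      have h1 : algebraMap O A p ∈ Ideal.span {algebraMap O A p} := Ideal.subset_span rfl
      rw [hPover.over] at h1
      exact h1
    apply hunr P inferInstance hmemP
    apply hle
    exact Ideal.mem_map_of_mem _ (Ideal.subset_span rfl)
  · infer_instance
  · intro b
    obtain ⟨m, hm, c, hc⟩ := hmult (b : L) b.2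
    obtain ⟨x, hx⟩ := hy c
    have hm0 : algebraMap O E m ≠ 0 := by
      intro h0
      apply hm
      have : m = 0 := hinjOE (by rw [h0, map_zero])
      rw [this]
      exact dvd_zero p
    have hmM : m ∈ (Ideal.span {p}).primeCompl := by
      rw [Ideal.mem_primeCompl_iff, Ideal.mem_span_singleton]
      exact hm
    refine ⟨IsLocalization.mk' A x ⟨m, hmM⟩, ?_⟩
    have hb' : algebraMap (integralClosure A L) L b = (b : L) := rfl
    have h1 : algebraMap O E m * Algebra.trace E L (y * (b : L)) = algebraMap O E x := by
      rw [hx, hc, ← smul_eq_mul, ← map_smul, Algebra.smul_def,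
        ← IsScalarTower.algebraMap_apply O E L]
      congr 1
      ring
    have h2 : algebraMap O E m * algebraMap A E (IsLocalization.mk' A x ⟨m, hmM⟩) =
        algebraMap O E x := by
      rw [IsScalarTower.algebraMap_apply O A E, ← map_mul, mul_comm,
        IsLocalization.mk'_spec, ← IsScalarTower.algebraMap_apply O A E]
    rw [hb']
    exact mul_left_cancel₀ hm0 (h2.trans h1.symm)

/-- The integral closure of `O_(p)` in `L` is a Dedekind domain with fraction field `L`. -/
theorem sd44_aux_inst {A : Type*} [CommRing A] [IsDomain A] [Algebra O A] [Algebra A E]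
    [IsScalarTower O A E] [Algebra A L] [IsScalarTower A E L] [IsScalarTower O A L]
    (p : O) (hp : Prime p) [(Ideal.span {p}).IsPrime]
    [IsLocalization.AtPrime A (Ideal.span {p})] :
    IsDedekindDomain (integralClosure A L) ∧ IsFractionRing (integralClosure A L) L := by
  obtain ⟨hpid, hmax, hcomap⟩ := sd44_atPrime_pid (A := A) p hp
  haveI := hpid
  haveI : IsFractionRing A E :=
    IsFractionRing.isFractionRing_of_isDomain_of_isLocalization (Ideal.span {p}).primeCompl A E
  exact ⟨IsIntegralClosure.isDedekindDomain A E L _,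
    IsIntegralClosure.isFractionRing_of_finite_extension A E L _⟩

open IsDedekindDomain IsDedekindDomain.HeightOneSpectrum WithZero in
/-- Valuation-subring form, abstract `A`. -/
theorem sd44_hcodim_aux_val {A : Type*} [CommRing A] [IsDomain A] [Algebra O A] [Algebra A E]
    [IsScalarTower O A E] [Algebra A L] [IsScalarTower A E L] [IsScalarTower O A L]
    (p : O) (hp : Prime p) [(Ideal.span {p}).IsPrime]
    [IsLocalization.AtPrime A (Ideal.span {p})]
    (hchar : ∀ n : ℕ, n ≠ 0 → ¬ p ∣ (n : O))
    (hunr : ∀ W : ValuationSubring L, IsPrincipalIdealRing W →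
      (∀ x : O, algebraMap O L x ∈ W) → (∀ s : O, ¬ p ∣ s → (algebraMap O L s)⁻¹ ∈ W) →
      (algebraMap O L p)⁻¹ ∉ W → ∀ x ∈ W, x⁻¹ ∉ W → x * (algebraMap O L p)⁻¹ ∈ W)
    (y : L) (hy : ∀ c : C, Algebra.trace E L (y * algebraMap C L c) ∈ (algebraMap O E).range) :
    ∃ s : O, ¬ p ∣ s ∧ algebraMap O L s * y ∈ (algebraMap C L).range := by
  obtain ⟨hB1, hB2⟩ := sd44_aux_inst (E := E) (L := L) (A := A) p hp
  haveI := hB1
  haveI := hB2
  refine sd44_hcodim_aux (A := A) p hp hchar (fun P hP hpP hpP2 => ?_) y hy
  have hinjOL : Function.Injective (algebraMap O L) := by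
    rw [IsScalarTower.algebraMap_eq O E L]
    exact (algebraMap E L).injective.comp (IsFractionRing.injective O E)
  have hpL0 : algebraMap O L p ≠ 0 := fun h0 => hp.ne_zero (hinjOL (by rw [h0, map_zero]))
  have hOL : ∀ x : O, algebraMap O L x =
      algebraMap (integralClosure A L) L
        (algebraMap A (integralClosure A L) (algebraMap O A x)) := by
    intro x
    rw [IsScalarTower.algebraMap_apply O A L]
    rfl
  have hP0 : P ≠ ⊥ := by
    rintro rfl
    have h0 : algebraMap A (integralClosure A L) (algebraMap O A p) = 0 := by simpa using hpP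
    apply hpL0
    rw [hOL, h0, map_zero]
  let w : HeightOneSpectrum (integralClosure A L) := ⟨P, hP.isPrime, hP0⟩
  have hWpid : IsPrincipalIdealRing ((w.valuation L).valuationSubring) := by
    rw [show (w.valuation L).valuationSubring = valuationSubringAtPrime L w from
      (valuationSubringAtPrime_eq_valuationSubring (K := L) w).symm]
    infer_instance
  have h1 : ∀ x : O, algebraMap O L x ∈ (w.valuation L).valuationSubring := by
    intro x
    rw [Valuation.mem_valuationSubring_iff, hOL]
    exact w.valuation_le_one _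
  have h2 : ∀ s : O, ¬ p ∣ s → (algebraMap O L s)⁻¹ ∈ (w.valuation L).valuationSubring := by
    intro s hs
    have hnot : algebraMap A (integralClosure A L) (algebraMap O A s) ∉ w.asIdeal := by
      intro hmem
      have hsM : s ∈ (Ideal.span {p}).primeCompl := by
        rw [Ideal.mem_primeCompl_iff, Ideal.mem_span_singleton]
        exact hs
      have hu : IsUnit (algebraMap O A s) :=
        IsLocalization.map_units A (⟨s, hsM⟩ : (Ideal.span {p}).primeCompl)
      exact hP.ne_top (Ideal.eq_top_of_isUnit_mem _ hmem (hu.map _))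
    have hv1 : w.valuation L (algebraMap (integralClosure A L) L
        (algebraMap A (integralClosure A L) (algebraMap O A s))) = 1 :=
      (valuation_eq_one_iff_notMem (K := L) (v := w)).mpr hnot
    rw [Valuation.mem_valuationSubring_iff, map_inv₀, hOL, hv1, inv_one]
  have hvp : w.valuation L (algebraMap O L p) < 1 := by
    rw [hOL]
    exact (w.valuation_lt_one_iff_mem _).mpr hpP
  have hvp0 : w.valuation L (algebraMap O L p) ≠ 0 := (Valuation.ne_zero_iff _).mpr hpL0
  have h3 : (algebraMap O L p)⁻¹ ∉ (w.valuation L).valuationSubring := by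
    rw [Valuation.mem_valuationSubring_iff, map_inv₀, not_le]
    exact (one_lt_inv₀ (zero_lt_iff.mpr hvp0)).mpr hvp
  obtain ⟨ϖ, hϖ⟩ := w.valuation_exists_uniformizer L
  have h5 : ϖ ∈ (w.valuation L).valuationSubring := by
    rw [Valuation.mem_valuationSubring_iff, hϖ, ← WithZero.exp_zero, WithZero.exp_le_exp]
    omega
  have h6 : ϖ⁻¹ ∉ (w.valuation L).valuationSubring := by
    rw [Valuation.mem_valuationSubring_iff, map_inv₀, hϖ, not_le, ← WithZero.exp_neg,
      ← WithZero.exp_zero, WithZero.exp_lt_exp]
    omega
  have h4 := hunr _ hWpid h1 h2 h3 ϖ h5 h6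
  rw [Valuation.mem_valuationSubring_iff, map_mul, map_inv₀, hϖ,
    mul_inv_le_iff₀ (zero_lt_iff.mpr hvp0), one_mul] at h4
  have h7 : w.valuation L (algebraMap O L p) ≤ exp (-((2 : ℕ) : ℤ)) := by
    rw [hOL, valuation_of_algebraMap]
    exact (w.intValuation_le_pow_iff_mem _ 2).mpr hpP2
  have h8 := h4.trans h7
  rw [WithZero.exp_le_exp] at h8
  omega

open IsDedekindDomain IsDedekindDomain.HeightOneSpectrum WithZero in
/-- Ideal form, abstract `A`. -/
theorem sd44_hcodim_aux_ideal {A : Type*} [CommRing A] [IsDomain A] [Algebra O A] [Algebra A E]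
    [IsScalarTower O A E] [Algebra A L] [IsScalarTower A E L] [IsScalarTower O A L]
    (p : O) (hp : Prime p) [(Ideal.span {p}).IsPrime]
    [IsLocalization.AtPrime A (Ideal.span {p})]
    (hchar : ∀ n : ℕ, n ≠ 0 → ¬ p ∣ (n : O))
    (hunr : ∀ Q : Ideal C, Q.IsPrime → Q.comap (algebraMap O C) = Ideal.span {p} →
      ∀ x ∈ Q, ∃ t : C, t ∉ Q ∧ t * x ∈ Ideal.span {algebraMap O C p})
    (y : L) (hy : ∀ c : C, Algebra.trace E L (y * algebraMap C L c) ∈ (algebraMap O E).range) :
    ∃ s : O, ¬ p ∣ s ∧ algebraMap O L s * y ∈ (algebraMap C L).range := by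
  obtain ⟨hB1, hB2⟩ := sd44_aux_inst (E := E) (L := L) (A := A) p hp
  haveI := hB1
  haveI := hB2
  obtain ⟨hpid, hmax, hcomap⟩ := sd44_atPrime_pid (A := A) p hp
  refine sd44_hcodim_aux (A := A) p hp hchar (fun P hP hpP hpP2 => ?_) y hy
  have hinjOL : Function.Injective (algebraMap O L) := by
    rw [IsScalarTower.algebraMap_eq O E L]
    exact (algebraMap E L).injective.comp (IsFractionRing.injective O E)
  have hpL0 : algebraMap O L p ≠ 0 := fun h0 => hp.ne_zero (hinjOL (by rw [h0, map_zero]))
  have hOL : ∀ x : O, algebraMap O L x =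
      algebraMap (integralClosure A L) L
        (algebraMap A (integralClosure A L) (algebraMap O A x)) := by
    intro x
    rw [IsScalarTower.algebraMap_apply O A L]
    rfl
  have hP0 : P ≠ ⊥ := by
    rintro rfl
    have h0 : algebraMap A (integralClosure A L) (algebraMap O A p) = 0 := by simpa using hpP
    apply hpL0
    rw [hOL, h0, map_zero]
  let w : HeightOneSpectrum (integralClosure A L) := ⟨P, hP.isPrime, hP0⟩
  -- the map `C → B`
  have hfmem : ∀ c : C, algebraMap C L c ∈ integralClosure A L := fun c =>
    ((IsIntegralClosure.isIntegral_iff (R := O) (A := C) (B := L)).mpr ⟨c, rfl⟩).tower_top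
  let f : C →+* integralClosure A L := RingHom.codRestrict (algebraMap C L) _ hfmem
  have hfO : ∀ x : O, f (algebraMap O C x) =
      algebraMap A (integralClosure A L) (algebraMap O A x) := by
    intro x
    apply Subtype.ext
    show algebraMap C L (algebraMap O C x) = algebraMap A L (algebraMap O A x)
    rw [← IsScalarTower.algebraMap_apply O C L, ← IsScalarTower.algebraMap_apply O A L]
  have hunitM : ∀ s : O, ¬ p ∣ s →
      algebraMap A (integralClosure A L) (algebraMap O A s) ∉ P := by
    intro s hs hmem
    have hsM : s ∈ (Ideal.span {p}).primeCompl := by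
      rw [Ideal.mem_primeCompl_iff, Ideal.mem_span_singleton]
      exact hs
    have hu : IsUnit (algebraMap O A s) :=
      IsLocalization.map_units A (⟨s, hsM⟩ : (Ideal.span {p}).primeCompl)
    exact hP.ne_top (Ideal.eq_top_of_isUnit_mem _ hmem (hu.map _))
  have hQ : (P.comap f).comap (algebraMap O C) = Ideal.span {p} := by
    ext x
    rw [Ideal.mem_comap, Ideal.mem_comap, hfO, Ideal.mem_span_singleton]
    constructor
    · intro hx
      by_contra hpx
      exact hunitM x hpx hx
    · rintro ⟨z, rfl⟩
      rw [map_mul, map_mul]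
      exact Ideal.mul_mem_right _ _ hpP
  obtain ⟨ϖ, hϖ⟩ := w.intValuation_exists_uniformizer
  have hϖP : ϖ ∈ P := by
    have : w.intValuation ϖ < 1 := by
      rw [hϖ, ← WithZero.exp_zero, WithZero.exp_lt_exp]
      omega
    exact (w.intValuation_lt_one_iff_mem ϖ).mp this
  obtain ⟨m, hm⟩ := IsIntegral.exists_multiple_integral_of_isLocalization
    (Ideal.span {p}).primeCompl (ϖ : L) ϖ.2
  obtain ⟨c, hc⟩ := (IsIntegralClosure.isIntegral_iff (A := C)).mp hm
  have hmp : ¬ p ∣ (m : O) := by
    have := m.2
    rwa [Ideal.mem_primeCompl_iff, Ideal.mem_span_singleton] at this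
  have hfc : f c = algebraMap A (integralClosure A L) (algebraMap O A m) * ϖ := by
    apply Subtype.ext
    show algebraMap C L c = algebraMap A L (algebraMap O A m) * (ϖ : L)
    rw [hc, Submonoid.smul_def, Algebra.smul_def, IsScalarTower.algebraMap_apply O A L]
  have hcQ : c ∈ P.comap f := by
    rw [Ideal.mem_comap, hfc]
    exact Ideal.mul_mem_left _ _ hϖP
  obtain ⟨t, htQ, htx⟩ := hunr (P.comap f) (Ideal.comap_isPrime f P) hQ c hcQ
  obtain ⟨c', hc'⟩ := Ideal.mem_span_singleton.mp htx
  have hval : w.intValuation (f t * f c) = exp (-1 : ℤ) := by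
    rw [map_mul, hfc, map_mul, hϖ, intValuation_eq_one_iff.mpr (show f t ∉ w.asIdeal from htQ),
      intValuation_eq_one_iff.mpr (show _ ∉ w.asIdeal from hunitM m hmp), one_mul, one_mul]
  have hmem2 : f t * f c ∈ w.asIdeal ^ 2 := by
    rw [← map_mul, hc', map_mul, hfO]
    exact Ideal.mul_mem_right _ _ hpP2
  have h7 := (w.intValuation_le_pow_iff_mem _ 2).mpr hmem2
  rw [hval, WithZero.exp_le_exp] at h7
  omega

end Main

section Final

variable {O E L C : Type*} [CommRing O] [IsDomain O] [IsNoetherianRing O]
  [Field E] [Algebra O E] [IsFractionRing O E]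
  [Field L] [Algebra E L] [Algebra O L] [IsScalarTower O E L] [FiniteDimensional E L]
  [Algebra.IsSeparable E L]
  [CommRing C] [Algebra O C] [Algebra C L] [IsScalarTower O C L] [IsIntegralClosure C O L]

/-- **Self-duality in codimension one at a characteristic-zero prime, ideal form.**
`O` a noetherian domain, `E = Frac O`, `L/E` finite separable, `C` the integral closure of `O`
in `L`, `p` a prime element of `O` with residue characteristic zero.  Suppose `p` generates the
maximal ideal of `C_Q` for every prime `Q` of `C` lying over `(p)` (i.e. `e(Q|p) = 1`).  Then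
the trace dual of `C` is contained in `C_(p)`. -/
theorem sd44_hcodim_of_unramified (p : O) (hp : Prime p)
    (hchar : ∀ n : ℕ, n ≠ 0 → ¬ p ∣ (n : O))
    (hunr : ∀ Q : Ideal C, Q.IsPrime → Q.comap (algebraMap O C) = Ideal.span {p} →
      ∀ x ∈ Q, ∃ t : C, t ∉ Q ∧ t * x ∈ Ideal.span {algebraMap O C p}) :
    ∀ y : L, (∀ c : C, Algebra.trace E L (y * algebraMap C L c) ∈ (algebraMap O E).range) →
      ∃ s : O, ¬ p ∣ s ∧ algebraMap O L s * y ∈ (algebraMap C L).range := by
  intro y hy
  haveI : (Ideal.span {p}).IsPrime := sd44_span_isPrime hp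
  exact sd44_hcodim_aux_ideal (E := E)
    (A := Localization.subalgebra E (Ideal.span {p}).primeCompl
      (Ideal.primeCompl_le_nonZeroDivisors _)) p hp hchar hunr y hy

/-- **Self-duality in codimension one at a characteristic-zero prime, valuation form.**
Same setting; the hypothesis is that `p` is a uniformizer of every discrete valuation subring
`W` of `L` dominating `O_(p)`: whenever `O ⊆ W`, every `s ∈ O` not divisible by `p` is a unit
of `W` and `p` is a non-unit of `W`, then every non-unit of `W` is divisible by `p` in `W`. -/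
theorem sd44_hcodim_of_valuation (p : O) (hp : Prime p)
    (hchar : ∀ n : ℕ, n ≠ 0 → ¬ p ∣ (n : O))
    (hunr : ∀ W : ValuationSubring L, IsPrincipalIdealRing W →
      (∀ x : O, algebraMap O L x ∈ W) → (∀ s : O, ¬ p ∣ s → (algebraMap O L s)⁻¹ ∈ W) →
      (algebraMap O L p)⁻¹ ∉ W → ∀ x ∈ W, x⁻¹ ∉ W → x * (algebraMap O L p)⁻¹ ∈ W) :
    ∀ y : L, (∀ c : C, Algebra.trace E L (y * algebraMap C L c) ∈ (algebraMap O E).range) →
      ∃ s : O, ¬ p ∣ s ∧ algebraMap O L s * y ∈ (algebraMap C L).range := by
  intro y hy
  haveI : (Ideal.span {p}).IsPrime := sd44_span_isPrime hp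
  exact sd44_hcodim_aux_val (E := E)
    (A := Localization.subalgebra E (Ideal.span {p}).primeCompl
      (Ideal.primeCompl_le_nonZeroDivisors _)) p hp hchar hunr y hy

end Final

end Fermat.Agent.S18
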