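import Mathlib

/-!
# S18, row A3 (helper27): tame ramification at the level of valuations ("Abhyankar at a DVR")

Everything is stated for an arbitrary valuation `v : Valuation L Γ` on the top field, so the
results plug into `ValuationSubring`s, `Place`s, `HeightOneSpectrum.valuation`, ... alike.

* `td_etale`: `O` a DVR with uniformiser `t`, `E = Frac O`, `E1 = E[θ]`, `g ∈ O[X]` with
  `g(θ) = 0`, `v` a valuation on `E1`, `≤ 1` on `O`, `v t < 1`, `v θ ≤ 1`, `v (g'(θ)) = 1`.
  Then `v y < 1 → v y ≤ v t` (the extension is unramified at `v`).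
* `td_discrete`: if moreover `E1 / E` is algebraic, every `y ≠ 0` has `v y = v t ^ n`, `n : ℤ`.
* `td_eisenstein`: the totally ramified step.
* `td_abhyankar`: `x = u t^e`, `e ∣ M`, `M` a unit, `L = E[s]`, `s ^ M = x`: every `y ≠ 0` of `L`
  has `v y = v s ^ n` (`s` is a uniformiser of `v`; the place `s = 0` of `K(s)` is unramified).
-/

set_option autoImplicit false

open Polynomial

namespace Fermat.Agent.S18

section etale

variable {O E1 Γ : Type*} [CommRing O] [IsDomain O] [IsDiscreteValuationRing O]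
  [Field E1] [Algebra O E1] [LinearOrderedCommGroupWithZero Γ]

/-- The structure of the "centre" ideal `{P : v (P(θ)) < 1}` of `O[X]`: it is generated by `t`
and one more polynomial. -/
theorem td_centre_gen (t : O) (ht : Irreducible t) (θ : E1) (v : Valuation E1 Γ)
    (hO : ∀ a : O, v (algebraMap O E1 a) ≤ 1) (hθ : v θ ≤ 1) :
    ∃ G : O[X], v (aeval θ G) < 1 ∧
      ∀ P : O[X], v (aeval θ P) < 1 → ∃ a b : O[X], P = a * G + C t * b := by
  classical
  have hle : ∀ P : O[X], v (aeval θ P) ≤ 1 := by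
    intro P
    rw [aeval_eq_sum_range]
    refine v.map_sum_le fun i _ => ?_
    rw [Algebra.smul_def, map_mul, map_pow]
    exact mul_le_one' (hO _) (pow_le_one' hθ i)
  -- the centre ideal
  let I : Ideal O[X] :=
    { carrier := {P | v (aeval θ P) < 1}
      add_mem' := fun {a b} ha hb => by
        simp only [Set.mem_ofPred_eq, map_add] at *
        exact lt_of_le_of_lt (v.map_add _ _) (max_lt ha hb)
      zero_mem' := by simp
      smul_mem' := fun c x hx => by
        simp only [Set.mem_ofPred_eq, smul_eq_mul, map_mul] at *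
        exact lt_of_le_of_lt (mul_le_of_le_one_left' (hle c)) hx }
  have hI : ∀ P : O[X], P ∈ I ↔ v (aeval θ P) < 1 := fun P => Iff.rfl
  have hmax : (Ideal.span {t}).IsMaximal := PrincipalIdealRing.isMaximal_of_irreducible ht
  let _ : Field (O ⧸ Ideal.span {t}) := Ideal.Quotient.field _
  let φ : O[X] →+* (O ⧸ Ideal.span {t})[X] := mapRingHom (Ideal.Quotient.mk (Ideal.span {t}))
  have hφ : Function.Surjective φ := map_surjective _ Ideal.Quotient.mk_surjective
  obtain ⟨gbar, hgbar⟩ := (IsPrincipalIdealRing.principal (I.map φ)).principal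
  have hgmem : gbar ∈ I.map φ := by rw [hgbar]; exact Submodule.mem_span_singleton_self _
  obtain ⟨G, hGI, hGφ⟩ := (Ideal.mem_map_iff_of_surjective φ hφ).1 hgmem
  refine ⟨G, (hI G).1 hGI, fun P hP => ?_⟩
  have hPmem : φ P ∈ I.map φ := Ideal.mem_map_of_mem φ ((hI P).2 hP)
  rw [hgbar, Submodule.mem_span_singleton] at hPmem
  obtain ⟨abar, habar⟩ := hPmem
  obtain ⟨a, rfl⟩ := hφ abar
  have hker : φ (P - a * G) = 0 := by
    rw [map_sub, map_mul, hGφ, ← habar, smul_eq_mul, sub_self]
  have hdvd : C t ∣ P - a * G := by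
    rw [C_dvd_iff_dvd_coeff]
    intro i
    have h1 : (φ (P - a * G)).coeff i = 0 := by rw [hker, coeff_zero]
    rw [show (φ (P - a * G)).coeff i = Ideal.Quotient.mk (Ideal.span {t}) ((P - a * G).coeff i) from
      coeff_map _ _, Ideal.Quotient.eq_zero_iff_mem, Ideal.mem_span_singleton] at h1
    exact h1
  obtain ⟨b, hb⟩ := hdvd
  exact ⟨a, b, by rw [← hb]; ring⟩

omit [IsDomain O] [IsDiscreteValuationRing O] in
theorem td_aeval_le_one (θ : E1) (v : Valuation E1 Γ)
    (hO : ∀ a : O, v (algebraMap O E1 a) ≤ 1) (hθ : v θ ≤ 1) (P : O[X]) :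
    v (aeval θ P) ≤ 1 := by
  rw [aeval_eq_sum_range]
  refine v.map_sum_le fun i _ => ?_
  rw [Algebra.smul_def, map_mul, map_pow]
  exact mul_le_one' (hO _) (pow_le_one' hθ i)

/-- **Unramifiedness of a monogenic extension with unit derivative** (valuation form).
`O` a DVR with uniformiser `t`; `θ` a root of `g ∈ O[X]` generating `E1` (in the form `hgen`);
`v` a valuation on `E1` with `v ≤ 1` on `O[θ]`, `v t < 1` and `v (g'(θ)) = 1`.
Then every element of the maximal ideal of `v` is divisible by `t`. -/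
theorem td_etale (t : O) (ht : Irreducible t) (θ : E1) (g : O[X]) (hg : aeval θ g = 0)
    (v : Valuation E1 Γ) (hO : ∀ a : O, v (algebraMap O E1 a) ≤ 1)
    (ht0 : algebraMap O E1 t ≠ 0) (ht1 : v (algebraMap O E1 t) < 1) (hθ : v θ ≤ 1)
    (hder : v (aeval θ (derivative g)) = 1)
    (hgen : ∀ y : E1, ∃ (P : O[X]) (n : ℕ), y * algebraMap O E1 t ^ n = aeval θ P)
    (y : E1) (hy : v y < 1) : v y ≤ v (algebraMap O E1 t) := by
  obtain ⟨G, hG, hgen'⟩ := td_centre_gen t ht θ v hO hθ
  have hle : ∀ P : O[X], v (aeval θ P) ≤ 1 := td_aeval_le_one θ v hO hθ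
  obtain ⟨Q, H, hQH⟩ := hgen' g (by rw [hg, map_zero]; exact zero_lt_one)
  have hd : derivative g = derivative Q * G + Q * derivative G + C t * derivative H := by
    rw [hQH, derivative_add, derivative_mul, derivative_C_mul]
  have hQ1 : v (aeval θ Q) = 1 := by
    by_contra hne
    have hlt : v (aeval θ Q) < 1 := lt_of_le_of_ne (hle Q) hne
    have hlt' : v (aeval θ (derivative g)) < 1 := by
      rw [hd]
      simp only [map_add, map_mul, aeval_C]
      refine lt_of_le_of_lt (v.map_add _ _) (max_lt (lt_of_le_of_lt (v.map_add _ _)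
        (max_lt ?_ ?_)) ?_)
      · rw [map_mul]; exact (mul_le_of_le_one_left' (hle _)).trans_lt hG
      · rw [map_mul]; exact (mul_le_of_le_one_right' (hle _)).trans_lt hlt
      · rw [map_mul]; exact (mul_le_of_le_one_right' (hle _)).trans_lt ht1
    exact absurd hder (ne_of_lt hlt')
  have h1 : aeval θ Q * aeval θ G = -(algebraMap O E1 t * aeval θ H) := by
    have h0 : aeval θ Q * aeval θ G + algebraMap O E1 t * aeval θ H = 0 := by
      rw [← hg, hQH]; simp
    exact eq_neg_of_add_eq_zero_left h0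
  have hGt : v (aeval θ G) ≤ v (algebraMap O E1 t) := by
    have h2 : v (aeval θ Q * aeval θ G) = v (algebraMap O E1 t) * v (aeval θ H) := by
      rw [h1, v.map_neg, map_mul]
    rw [map_mul, hQ1, one_mul] at h2
    rw [h2]; exact mul_le_of_le_one_right' (hle H)
  have hstar : ∀ P : O[X], v (aeval θ P) < 1 → v (aeval θ P) ≤ v (algebraMap O E1 t) := by
    intro P hP
    obtain ⟨a, b, rfl⟩ := hgen' P hP
    simp only [map_add, map_mul, aeval_C]
    refine le_trans (v.map_add _ _) (max_le ?_ ?_)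
    · rw [map_mul]; exact le_trans (mul_le_of_le_one_left' (hle a)) hGt
    · rw [map_mul]; exact mul_le_of_le_one_right' (hle b)
  have key : ∀ n : ℕ, ∀ (P : O[X]) (y : E1), y * algebraMap O E1 t ^ n = aeval θ P → v y ≤ 1 →
      ∃ (c : E1) (P' : O[X]), v c = 1 ∧ c * y = aeval θ P' := by
    intro n
    induction n with
    | zero => intro P y h _; exact ⟨1, P, map_one v, by simpa using h⟩
    | succ n ih =>
      intro P y h hy
      have hPlt : v (aeval θ P) < 1 := by
        rw [← h, map_mul, map_pow, pow_succ, ← mul_assoc]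
        refine (mul_le_of_le_one_left' ?_).trans_lt ht1
        exact mul_le_one' hy (pow_le_one' ht1.le n)
      obtain ⟨a, b, hab⟩ := hgen' P hPlt
      have h3 : (y * aeval θ Q) * algebraMap O E1 t ^ n = aeval θ (b * Q - a * H) := by
        apply mul_right_cancel₀ ht0
        calc y * aeval θ Q * algebraMap O E1 t ^ n * algebraMap O E1 t
            = (y * algebraMap O E1 t ^ (n + 1)) * aeval θ Q := by ring
          _ = aeval θ P * aeval θ Q := by rw [h]
          _ = aeval θ a * (aeval θ Q * aeval θ G)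
                + algebraMap O E1 t * aeval θ b * aeval θ Q := by
              rw [hab]; simp only [map_add, map_mul, aeval_C]; ring
          _ = aeval θ (b * Q - a * H) * algebraMap O E1 t := by
              rw [h1]; simp only [map_sub, map_mul]; ring
      obtain ⟨c', P', hc', hP'⟩ := ih _ _ h3 (by rw [map_mul, hQ1, mul_one]; exact hy)
      exact ⟨c' * aeval θ Q, P', by rw [map_mul, hc', hQ1, one_mul], by rw [← hP']; ring⟩
  obtain ⟨P, n, hPn⟩ := hgen y
  obtain ⟨c, P', hc, hP'⟩ := key n P y hPn hy.le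
  have h4 : v (aeval θ P') = v y := by rw [← hP', map_mul, hc, one_mul]
  rw [← h4]; exact hstar P' (by rw [h4]; exact hy)

end etale

section discrete

variable {O E1 Γ : Type*} [CommRing O] [IsDomain O] [IsDiscreteValuationRing O]
  [Field E1] [Algebra O E1] [LinearOrderedCommGroupWithZero Γ]

omit [IsDomain O] [IsDiscreteValuationRing O] in
theorem td_unit_val (v : Valuation E1 Γ) (hO : ∀ a : O, v (algebraMap O E1 a) ≤ 1) (u : Oˣ) :
    v (algebraMap O E1 (u : O)) = 1 := by
  refine le_antisymm (hO _) ?_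
  have h1 : v (algebraMap O E1 (u : O)) * v (algebraMap O E1 ((u⁻¹ : Oˣ) : O)) = 1 := by
    rw [← map_mul, ← map_mul, Units.mul_inv, map_one, map_one]
  calc (1 : Γ) = v (algebraMap O E1 (u : O)) * v (algebraMap O E1 ((u⁻¹ : Oˣ) : O)) := h1.symm
    _ ≤ v (algebraMap O E1 (u : O)) := mul_le_of_le_one_right' (hO _)

/-- If the maximal ideal of `v` is generated by the uniformiser `t` of the DVR `O` below and the
extension is algebraic, then the value group of `v` is generated by `v t`. -/
theorem td_discrete (t : O) (ht : Irreducible t)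
    (hinj : Function.Injective (algebraMap O E1)) (halg : ∀ y : E1, IsAlgebraic O y)
    (v : Valuation E1 Γ) (hO : ∀ a : O, v (algebraMap O E1 a) ≤ 1)
    (ht1 : v (algebraMap O E1 t) < 1)
    (hdiv : ∀ y : E1, v y < 1 → v y ≤ v (algebraMap O E1 t))
    (y : E1) (hy : y ≠ 0) : ∃ n : ℤ, v y = v (algebraMap O E1 t) ^ n := by
  have ht0 : algebraMap O E1 t ≠ 0 := by
    intro h; exact ht.ne_zero (hinj (by rw [h, map_zero]))
  have hτ0 : v (algebraMap O E1 t) ≠ 0 := (v.ne_zero_iff).2 ht0
  have hτpos : 0 < v (algebraMap O E1 t) := zero_lt_iff.2 hτ0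
  -- the case `v y ≤ 1`
  have hA : ∀ y : E1, y ≠ 0 → v y ≤ 1 → ∃ n : ℕ, v y = v (algebraMap O E1 t) ^ n := by
    intro y hy hy1
    by_contra hne
    push Not at hne
    have hall : ∀ n : ℕ, v y ≤ v (algebraMap O E1 t) ^ n := by
      intro n
      induction n with
      | zero => simpa using hy1
      | succ n ih =>
        have hlt : v y < v (algebraMap O E1 t) ^ n := lt_of_le_of_ne ih (hne n)
        have hpos : 0 < v (algebraMap O E1 t) ^ n := pow_pos hτpos n
        have h1 : v (y / algebraMap O E1 t ^ n) < 1 := by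
          rw [map_div₀, map_pow, div_lt_one₀ hpos]; exact hlt
        have h2 := hdiv _ h1
        rw [map_div₀, map_pow, div_le_iff₀ hpos] at h2
        rw [pow_succ']; exact h2
    obtain ⟨p, hp0, hp⟩ := halg y
    obtain ⟨q, hpq, hq⟩ := exists_eq_pow_rootMultiplicity_mul_and_not_dvd p hp0 0
    rw [C_0, sub_zero] at hpq hq
    have hq0 : q.coeff 0 ≠ 0 := fun h => hq (X_dvd_iff.2 h)
    have hqy : aeval y q = 0 := by
      rw [hpq, map_mul, map_pow, aeval_X] at hp
      exact (mul_eq_zero.1 hp).resolve_left (pow_ne_zero _ hy)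
    have h3 : v (algebraMap O E1 (q.coeff 0)) ≤ v y := by
      have h : aeval y q.divX * y + algebraMap O E1 (q.coeff 0) = 0 := by
        rw [← hqy]; conv_rhs => rw [← divX_mul_X_add q]
        simp
      have h' : algebraMap O E1 (q.coeff 0) = -(aeval y q.divX * y) :=
        eq_neg_of_add_eq_zero_right h
      rw [h', v.map_neg, map_mul]
      exact mul_le_of_le_one_left' (td_aeval_le_one y v hO hy1 _)
    obtain ⟨k, u, hk⟩ := IsDiscreteValuationRing.associated_pow_irreducible hq0 ht
    have h4 : v (algebraMap O E1 (q.coeff 0)) = v (algebraMap O E1 t) ^ k := by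
      have : v (algebraMap O E1 (q.coeff 0 * (u : O))) = v (algebraMap O E1 t) ^ k := by
        rw [hk, map_pow, map_pow]
      rwa [map_mul, map_mul, td_unit_val v hO u, mul_one] at this
    have h5 : v (algebraMap O E1 t) ^ k ≤ v (algebraMap O E1 t) ^ (k + 1) :=
      h4 ▸ h3.trans (hall (k + 1))
    rw [pow_succ] at h5
    have h6 : v (algebraMap O E1 t) ^ k * v (algebraMap O E1 t) <
        v (algebraMap O E1 t) ^ k * 1 :=
      mul_lt_mul_of_pos_left ht1 (pow_pos hτpos k)
    rw [mul_one] at h6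
    exact absurd h5 (not_le.2 h6)
  rcases le_or_gt (v y) 1 with h | h
  · obtain ⟨n, hn⟩ := hA y hy h
    exact ⟨n, by rw [hn, zpow_natCast]⟩
  · have hy' : v y⁻¹ ≤ 1 := by
      rw [map_inv₀]; exact inv_le_one_of_one_le₀ h.le
    obtain ⟨n, hn⟩ := hA y⁻¹ (inv_ne_zero hy) hy'
    refine ⟨-n, ?_⟩
    rw [zpow_neg, zpow_natCast, ← hn, map_inv₀, inv_inv]

end discrete

section eisenstein

variable {E2 L Γ : Type*} [Field E2] [Field L] [Algebra E2 L] [LinearOrderedCommGroupWithZero Γ]

/-- **Totally ramified (Eisenstein) step**, valuation form: if the values of `v` on `E2` are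
powers of `τ`, `v s ^ d = τ`, and `L` is spanned over `E2` by `1, s, …, s^(d-1)`, then the values
of `v` on `L` are powers of `v s`. -/
theorem td_eisenstein (v : Valuation L Γ) (s : L) (d : ℕ) (hd : 0 < d) (τ : Γ) (hτ : τ ≠ 0)
    (hs : v s ^ d = τ) (hs1 : v s < 1)
    (hval : ∀ a : E2, a ≠ 0 → ∃ n : ℤ, v (algebraMap E2 L a) = τ ^ n)
    (hspan : ∀ y : L, ∃ a : ℕ → E2, y = ∑ i ∈ Finset.range d, algebraMap E2 L (a i) * s ^ i)
    (y : L) (hy : y ≠ 0) : ∃ n : ℤ, v y = v s ^ n := by
  classical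
  obtain ⟨a, rfl⟩ := hspan y
  have hσ0 : v s ≠ 0 := by
    intro h; rw [h, zero_pow hd.ne'] at hs; exact hτ hs.symm
  have hσpos : 0 < v s := zero_lt_iff.2 hσ0
  have hinj : Function.Injective (fun n : ℤ => v s ^ n) := zpow_right_injective₀ hσpos hs1.ne
  -- exponent of each nonzero term
  have hterm : ∀ i : ℕ, a i ≠ 0 → ∃ n : ℤ,
      v (algebraMap E2 L (a i) * s ^ i) = v s ^ ((d : ℤ) * n + i) := by
    intro i hi
    obtain ⟨n, hn⟩ := hval (a i) hi
    refine ⟨n, ?_⟩
    rw [map_mul, map_pow, hn, ← hs, zpow_add₀ hσ0, zpow_mul, zpow_natCast, zpow_natCast]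
  choose! n hn using hterm
  set S : Finset ℕ := (Finset.range d).filter (fun i => a i ≠ 0) with hS
  have hsum : ∑ i ∈ Finset.range d, algebraMap E2 L (a i) * s ^ i =
      ∑ i ∈ S, algebraMap E2 L (a i) * s ^ i := by
    rw [hS, Finset.sum_filter]
    refine Finset.sum_congr rfl fun i _ => ?_
    by_cases h : a i = 0
    · simp [h]
    · simp [h]
  rw [hsum] at hy ⊢
  have hSne : S.Nonempty := by
    rw [Finset.nonempty_iff_ne_empty]
    intro h; rw [h, Finset.sum_empty] at hy; exact hy rfl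
  obtain ⟨i0, hi0, hmax⟩ := Finset.exists_max_image S
    (fun i => v (algebraMap E2 L (a i) * s ^ i)) hSne
  have hmem : ∀ i ∈ S, i < d ∧ a i ≠ 0 := by
    intro i hi
    rw [hS, Finset.mem_filter, Finset.mem_range] at hi
    exact hi
  have hlt : ∀ i ∈ S.erase i0, v (algebraMap E2 L (a i) * s ^ i) <
      v (algebraMap E2 L (a i0) * s ^ i0) := by
    intro i hi
    rw [Finset.mem_erase] at hi
    refine lt_of_le_of_ne (hmax i hi.2) fun heq => hi.1 ?_
    rw [hn i (hmem i hi.2).2, hn i0 (hmem i0 hi0).2] at heq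
    have h1 : (d : ℤ) * n i + i = (d : ℤ) * n i0 + i0 := hinj heq
    have h2 : ((i : ℤ)) % d = (i0 : ℤ) % d := by
      have := congrArg (fun z : ℤ => z % (d : ℤ)) h1
      simpa [Int.add_mul_emod_self_left, Int.mul_add_emod_self_left, add_comm] using this
    rw [Int.emod_eq_of_lt (by positivity) (by exact_mod_cast (hmem i hi.2).1),
      Int.emod_eq_of_lt (by positivity) (by exact_mod_cast (hmem i0 hi0).1)] at h2
    exact_mod_cast h2
  have hne0 : v (algebraMap E2 L (a i0) * s ^ i0) ≠ 0 := by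
    rw [hn i0 (hmem i0 hi0).2]; exact zpow_ne_zero _ hσ0
  have hrest : v (∑ i ∈ S.erase i0, algebraMap E2 L (a i) * s ^ i) <
      v (algebraMap E2 L (a i0) * s ^ i0) := v.map_sum_lt hne0 hlt
  refine ⟨(d : ℤ) * n i0 + i0, ?_⟩
  rw [← Finset.add_sum_erase S _ hi0, v.map_add_eq_of_lt_left hrest, hn i0 (hmem i0 hi0).2]

end eisenstein

section abhyankar

open IntermediateField

theorem td_pow_eq_one {Γ : Type*} [LinearOrderedCommGroupWithZero Γ] {x : Γ} {e : ℕ}
    (he : e ≠ 0) (h : x ^ e = 1) : x = 1 := by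
  rcases lt_trichotomy x 1 with h1 | h1 | h1
  · exact absurd h (ne_of_lt (pow_lt_one₀ zero_le h1 he))
  · exact h1
  · exact absurd h (ne_of_gt (one_lt_pow₀ h1 he))

variable {O E : Type*} [CommRing O] [IsDomain O] [IsDiscreteValuationRing O]
  [Field E] [Algebra O E] [IsFractionRing O E]

/-- Clearing denominators: if `E1 = E[θ]` then every element of `E1` is `P(θ) / t ^ n` with
`P ∈ O[X]`. This is the hypothesis `hgen` of `td_etale`. -/
theorem td_gen_of_adjoin {E1 : Type*} [Field E1] [Algebra E E1] [Algebra O E1]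
    [IsScalarTower O E E1] (t : O) (ht : Irreducible t) (θ : E1)
    (hgen : Algebra.adjoin E {θ} = ⊤) (y : E1) :
    ∃ (P : O[X]) (n : ℕ), y * algebraMap O E1 t ^ n = aeval θ P := by
  have hy : y ∈ Algebra.adjoin E {θ} := by rw [hgen]; exact Algebra.mem_top
  rw [Algebra.adjoin_singleton_eq_range_aeval, AlgHom.mem_range] at hy
  obtain ⟨p, rfl⟩ := hy
  obtain ⟨b, hb, hbp⟩ := IsLocalization.integerNormalization_spec (nonZeroDivisors O) p
  have hb0 : b ≠ 0 := nonZeroDivisors.ne_zero hb
  obtain ⟨n, u, hn⟩ := IsDiscreteValuationRing.associated_pow_irreducible hb0 ht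
  refine ⟨IsLocalization.integerNormalization (nonZeroDivisors O) p * C (u : O), n, ?_⟩
  have hbp' : b • p = C (algebraMap O E b) * p := by
    rw [← smul_eq_C_mul, algebraMap_smul]
  have h1 : aeval θ (IsLocalization.integerNormalization (nonZeroDivisors O) p) =
      algebraMap O E1 b * aeval θ p := by
    rw [← aeval_map_algebraMap E θ, hbp, hbp', map_mul, aeval_C,
      ← IsScalarTower.algebraMap_apply]
  rw [map_mul, aeval_C, h1]
  calc aeval θ p * algebraMap O E1 t ^ n = aeval θ p * algebraMap O E1 (t ^ n) := by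
        rw [map_pow]
    _ = algebraMap O E1 b * aeval θ p * algebraMap O E1 (u : O) := by
        rw [← hn, map_mul]; ring

variable {L Γ : Type*} [Field L] [Algebra E L] [Algebra O L] [IsScalarTower O E L]
  [LinearOrderedCommGroupWithZero Γ]

/-- **Abhyankar's lemma at a DVR, valuation form.** `O` a DVR with uniformiser `t` and fraction
field `E`; `x = u · t ^ e` with `u` a unit; `L = E[s]` with `s ^ (e * d) = x` and `e * d` a unit
of `O` (tameness). Then for every valuation `v` of `L` which is `≤ 1` on `O` with `v t < 1`: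
`v s ^ d = v t` (the ramification index is `d`) and the value group of `v` is generated by `v s`
(so `s` is a uniformiser: the extension `L / E(s)`-side is unramified at `s = 0`). -/
theorem td_abhyankar (t : O) (ht : Irreducible t) (u : Oˣ) (e d : ℕ) (he : 0 < e) (hd : 0 < d)
    (hM : IsUnit (((e * d : ℕ) : O)))
    (s : L) (hs : s ^ (e * d) = algebraMap O L ((u : O) * t ^ e))
    (hgen : Algebra.adjoin E {s} = ⊤)
    (v : Valuation L Γ) (hO : ∀ a : O, v (algebraMap O L a) ≤ 1)
    (ht1 : v (algebraMap O L t) < 1) :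
    v s ^ d = v (algebraMap O L t) ∧ v s < 1 ∧ ∀ y : L, y ≠ 0 → ∃ n : ℤ, v y = v s ^ n := by
  have hinjOL : Function.Injective (algebraMap O L) := by
    rw [IsScalarTower.algebraMap_eq O E L]
    exact (algebraMap E L).injective.comp (IsFractionRing.injective O E)
  have hτ0 : algebraMap O L t ≠ 0 := fun h => ht.ne_zero (hinjOL (by rw [h, map_zero]))
  have hvτ0 : v (algebraMap O L t) ≠ 0 := (v.ne_zero_iff).2 hτ0
  -- the unit `w = s^d / t`, an `e`-th root of `u`
  set w : L := s ^ d / algebraMap O L t with hw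
  have hwe : w ^ e = algebraMap O L (u : O) := by
    rw [hw, div_pow, ← pow_mul, mul_comm d e, hs, map_mul, map_pow, mul_div_assoc,
      div_self (pow_ne_zero _ hτ0), mul_one]
  have hvw : v w = 1 := by
    apply td_pow_eq_one he.ne'
    rw [← map_pow, hwe, td_unit_val v hO u]
  have hsd : s ^ d = w * algebraMap O L t := by
    rw [hw, div_mul_cancel₀ _ hτ0]
  have hvsd : v s ^ d = v (algebraMap O L t) := by
    rw [← map_pow, hsd, map_mul, hvw, one_mul]
  have hvs1 : v s < 1 := by
    by_contra hcon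
    have h1 : 1 ≤ v s ^ d := one_le_pow_of_one_le' (not_lt.1 hcon) d
    rw [hvsd] at h1
    exact absurd ht1 (not_lt.2 h1)
  refine ⟨hvsd, hvs1, ?_⟩
  -- the intermediate field `E2 = E(w)`
  have hwint : IsIntegral E w := by
    refine ⟨X ^ e - C (algebraMap O E (u : O)), monic_X_pow_sub_C _ he.ne', ?_⟩
    rw [eval₂_sub, eval₂_pow, eval₂_X, eval₂_C, hwe, ← IsScalarTower.algebraMap_apply, sub_self]
  have : IsScalarTower O E⟮w⟯ L := IsScalarTower.of_algebraMap_eq fun _ => rfl
  have : Algebra.IsAlgebraic E E⟮w⟯ := isAlgebraic_adjoin_simple hwint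
  let θ : E⟮w⟯ := AdjoinSimple.gen E w
  have hθ : (θ : L) = w := AdjoinSimple.coe_gen E w
  let v2 : Valuation E⟮w⟯ Γ := v.comap (algebraMap E⟮w⟯ L)
  have hv2 : ∀ a : E⟮w⟯, v2 a = v (a : L) := fun a => rfl
  have hO2 : ∀ a : O, v2 (algebraMap O E⟮w⟯ a) ≤ 1 := fun a => hO a
  have hinj2 : Function.Injective (algebraMap O E⟮w⟯) := by
    intro a b hab
    exact hinjOL (congrArg (fun z : E⟮w⟯ => (z : L)) hab)
  have ht02 : algebraMap O E⟮w⟯ t ≠ 0 := fun h => ht.ne_zero (hinj2 (by rw [h, map_zero]))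
  have hgen2 : Algebra.adjoin E {θ} = ⊤ := by
    have h1 : E⟮w⟯.toSubalgebra = Algebra.adjoin E {w} :=
      adjoin_simple_toSubalgebra_of_isAlgebraic hwint.isAlgebraic
    rw [eq_top_iff]
    rintro ⟨z, hz⟩ -
    have hz' : z ∈ Algebra.adjoin E {w} := by rw [← h1]; exact hz
    rw [Algebra.adjoin_singleton_eq_range_aeval, AlgHom.mem_range] at hz' ⊢
    obtain ⟨p, hp⟩ := hz'
    refine ⟨p, Subtype.ext ?_⟩
    have h2 : aeval (algebraMap E⟮w⟯ L θ) p = algebraMap E⟮w⟯ L (aeval θ p) :=
      aeval_algebraMap_apply L θ p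
    have h3 : algebraMap E⟮w⟯ L θ = w := hθ
    rw [h3, hp] at h2
    exact h2.symm
  have heO : IsUnit ((e : ℕ) : O) := by
    rw [Nat.cast_mul] at hM
    exact isUnit_of_mul_isUnit_left hM
  have hder : v2 (aeval θ (derivative (X ^ e - C (u : O) : O[X]))) = 1 := by
    rw [derivative_sub, derivative_C, sub_zero, derivative_X_pow, map_mul, map_pow, aeval_X,
      aeval_C, map_mul, map_pow, hv2 θ, hθ, hvw, one_pow, mul_one]
    obtain ⟨ue, hue⟩ := heO
    have := td_unit_val v2 hO2 ue
    rwa [hue] at this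
  have hg : aeval θ (X ^ e - C (u : O) : O[X]) = 0 := by
    rw [map_sub, map_pow, aeval_X, aeval_C]
    apply Subtype.ext
    change ((θ ^ e - algebraMap O E⟮w⟯ (u : O) : E⟮w⟯) : L) = 0
    push_cast
    rw [hθ, hwe]
    exact sub_self _
  have hdiv : ∀ y : E⟮w⟯, v2 y < 1 → v2 y ≤ v2 (algebraMap O E⟮w⟯ t) :=
    td_etale t ht θ _ hg v2 hO2 ht02 ht1 (by rw [hv2, hθ, hvw]) hder
      (td_gen_of_adjoin t ht θ hgen2)
  have halg2 : ∀ y : E⟮w⟯, IsAlgebraic O y := fun y =>
    (IsFractionRing.isAlgebraic_iff O E E⟮w⟯).2 (Algebra.IsAlgebraic.isAlgebraic y)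
  have hval : ∀ a : E⟮w⟯, a ≠ 0 →
      ∃ n : ℤ, v (algebraMap E⟮w⟯ L a) = v (algebraMap O L t) ^ n :=
    fun a ha => td_discrete t ht hinj2 halg2 v2 hO2 ht1 hdiv a ha
  -- the spanning property
  have hspan : ∀ y : L, ∃ a : ℕ → E⟮w⟯,
      y = ∑ i ∈ Finset.range d, algebraMap E⟮w⟯ L (a i) * s ^ i := by
    intro y
    have hy : y ∈ Algebra.adjoin E {s} := by rw [hgen]; exact Algebra.mem_top
    rw [Algebra.adjoin_singleton_eq_range_aeval, AlgHom.mem_range] at hy
    obtain ⟨p, rfl⟩ := hy
    set q : E⟮w⟯[X] := X ^ d - C (θ * algebraMap O E⟮w⟯ t) with hq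
    have hqm : q.Monic := monic_X_pow_sub_C _ hd.ne'
    have hqdeg : q.natDegree = d := natDegree_X_pow_sub_C
    have hq1 : q ≠ 1 := by
      intro h
      have := hqdeg
      rw [h, natDegree_one] at this
      exact hd.ne' this.symm
    have hqs : aeval s q = 0 := by
      rw [hq, map_sub, map_pow, aeval_X, aeval_C, hsd]
      change w * algebraMap O L t - ((θ * algebraMap O E⟮w⟯ t : E⟮w⟯) : L) = 0
      push_cast
      rw [hθ]
      exact sub_self _
    set r : E⟮w⟯[X] := (p.map (algebraMap E E⟮w⟯)) %ₘ q with hr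
    have hrdeg : r.natDegree < d := hqdeg ▸ natDegree_modByMonic_lt _ hqm hq1
    have hrs : aeval s r = aeval s p := by
      have h1 := congrArg (aeval s) (modByMonic_add_div (p.map (algebraMap E E⟮w⟯)) q)
      rw [map_add, map_mul, hqs, zero_mul, add_zero, aeval_map_algebraMap] at h1
      exact h1
    refine ⟨fun i => r.coeff i, ?_⟩
    rw [← hrs, aeval_eq_sum_range' hrdeg]
    exact Finset.sum_congr rfl fun i _ => Algebra.smul_def _ _
  exact td_eisenstein v s d hd _ hvτ0 hvsd hvs1 hval hspan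

end abhyankar

end Fermat.Agent.S18
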