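import Mathlib
import Fermat.Prelude.Def_AlgebraicCurve_DivisorClassGroup
import Fermat.Agent.S18.TameDVR
import Fermat.Agent.S18.SelfDual

/-!
# S18, row A3 in `hcodim` shape (helper27)

`ab27_hcodim_of_tame`: setting of `SelfDual.lean` / `Purity.lean` (`O` noetherian domain,
`E = Frac O`, `L / E` finite separable, `C` the integral closure of `O` in `L`), `p` a prime
element of `O` of residue characteristic `0`; `F ⊆ L` a subfield with `L = F[s]`, `s` the image
of `p`, and `s ^ e = z ∈ F`.  If every place `v` of `F` (over a field `K0 ⊆ O_(p)`) at which `z`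
vanishes has `v.ord z ∣ e` (tameness of `F` over the `z`-line at `z = 0`), then `C` is
trace-self-dual at `p` (helper72's `hcodim` shape).

In the S18 application: `O = R[S]`, `p = S`, `F = F'_{K0}`, `z = h, h⁻¹, h - c₀, …`,
`L = F(z^{1/e})`.
-/

set_option autoImplicit false

open Polynomial AlgebraicCurve

namespace Fermat.Agent.S18

section aux

variable {L : Type*} [Field L]

theorem ab27_val_lt_one (W : ValuationSubring L) {x : L} (hx : x ∈ W) (hxi : x⁻¹ ∉ W) :
    W.valuation x < 1 := by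
  refine lt_of_le_of_ne ((W.valuation_le_one_iff x).2 hx) fun h => hxi ?_
  rw [← W.valuation_le_one_iff, map_inv₀, h, inv_one]

theorem ab27_mem_of_val_le (W : ValuationSubring L) {x y : L} (hy : y ≠ 0)
    (h : W.valuation x ≤ W.valuation y) : x * y⁻¹ ∈ W := by
  rw [← W.valuation_le_one_iff, map_mul, map_inv₀]
  have hy0 : W.valuation y ≠ 0 := (Valuation.ne_zero_iff _).2 hy
  exact mul_inv_le_one_of_le₀ h zero_le

/-- The restriction of a discrete valuation subring to a subfield on which it is non-trivial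
is a principal ideal ring. -/
theorem ab27_comap_isPID {F : Type*} [Field F] [Algebra F L]
    (W : ValuationSubring L) [IsPrincipalIdealRing W] (z : F)
    (hzW : algebraMap F L z ∈ W) (hzi : (algebraMap F L z)⁻¹ ∉ W) :
    IsPrincipalIdealRing (W.comap (algebraMap F L)) := by
  classical
  set V : ValuationSubring F := W.comap (algebraMap F L) with hV
  set v := W.valuation with hv
  have hz0 : algebraMap F L z ≠ 0 := by
    intro h; rw [h, inv_zero] at hzi; exact hzi W.zero_mem
  -- `W` is a DVR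
  have hWnf : ¬ IsField W := by
    intro hf
    have hne : (⟨algebraMap F L z, hzW⟩ : W) ≠ 0 := fun h => hz0 (congrArg Subtype.val h)
    obtain ⟨b, hb⟩ := hf.mul_inv_cancel hne
    have hb' : algebraMap F L z * (b : L) = 1 := congrArg Subtype.val hb
    have : (algebraMap F L z)⁻¹ = (b : L) := by
      rw [eq_comm, ← mul_eq_one_iff_eq_inv₀ hz0, mul_comm]; exact hb'
    exact hzi (this ▸ b.2)
  have : IsDiscreteValuationRing W :=
    { not_a_field' := by
        rw [ne_eq, ← IsLocalRing.isField_iff_maximalIdeal_eq]; exact hWnf }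
  obtain ⟨ϖ, hϖ⟩ := IsDiscreteValuationRing.exists_irreducible W
  have hϖ0 : (ϖ : L) ≠ 0 := fun h => hϖ.ne_zero (Subtype.ext h)
  have hvϖ0 : v (ϖ : L) ≠ 0 := (Valuation.ne_zero_iff _).2 hϖ0
  have hvϖpos : 0 < v (ϖ : L) := zero_lt_iff.2 hvϖ0
  have hvϖ1 : v (ϖ : L) < 1 := by
    apply ab27_val_lt_one W ϖ.2
    intro h
    exact hϖ.not_isUnit (.of_mul_eq_one ⟨_, h⟩ (Subtype.ext (mul_inv_cancel₀ hϖ0)))
  -- every nonzero element has value a power of `v ϖ`
  have hpow : ∀ x : L, x ≠ 0 → ∃ n : ℤ, v x = v (ϖ : L) ^ n := by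
    intro x hx
    obtain ⟨n, u, hu⟩ :=
      IsDiscreteValuationRing.exists_units_eq_smul_zpow_of_irreducible (K := L) hϖ hx
    refine ⟨n, ?_⟩
    rw [Units.smul_def, Algebra.smul_def] at hu
    have hu1 : v (algebraMap W L (u : W)) = 1 := by
      have h1 : v ((u : W) : L) ≤ 1 := (W.valuation_le_one_iff _).2 (u : W).2
      have h2 : v (((u⁻¹ : Wˣ) : W) : L) ≤ 1 := (W.valuation_le_one_iff _).2 ((u⁻¹ : Wˣ) : W).2
      have h3 : v ((u : W) : L) * v (((u⁻¹ : Wˣ) : W) : L) = 1 := by
        rw [← map_mul]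
        have : ((u : W) : L) * (((u⁻¹ : Wˣ) : W) : L) = 1 :=
          congrArg Subtype.val (Units.mul_inv u)
        rw [this, map_one]
      refine le_antisymm h1 ?_
      calc (1 : _) = v ((u : W) : L) * v (((u⁻¹ : Wˣ) : W) : L) := h3.symm
        _ ≤ v ((u : W) : L) := mul_le_of_le_one_right' h2
    rw [hu, map_mul, hu1, one_mul, map_zpow₀]
    rfl
  have hinj : Function.Injective (fun n : ℤ => v (ϖ : L) ^ n) :=
    zpow_right_injective₀ hvϖpos hvϖ1.ne
  -- exponents of nonzero elements of `V`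
  have hmemV : ∀ a : F, a ∈ V ↔ algebraMap F L a ∈ W := fun a => Iff.rfl
  have hexp : ∀ a : V, a ≠ 0 → ∃ n : ℕ, v (algebraMap F L (a : F)) = v (ϖ : L) ^ n := by
    intro a ha
    have ha0 : algebraMap F L (a : F) ≠ 0 := by
      intro h
      exact ha (Subtype.ext ((algebraMap F L).injective (by rw [h]; simp)))
    obtain ⟨n, hn⟩ := hpow _ ha0
    have hle : v (algebraMap F L (a : F)) ≤ 1 := (W.valuation_le_one_iff _).2 a.2
    have hn0 : 0 ≤ n := by
      by_contra hneg
      have : 1 < v (ϖ : L) ^ n := one_lt_zpow_of_neg₀ hvϖpos hvϖ1 (not_le.1 hneg)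
      rw [← hn] at this
      exact absurd hle (not_le.2 this)
    exact ⟨n.toNat, by rw [hn, ← zpow_natCast, Int.toNat_of_nonneg hn0]⟩
  refine ⟨fun I => ?_⟩
  by_cases hI : I = ⊥
  · exact ⟨0, by rw [hI]; simp⟩
  obtain ⟨x0, hx0I, hx0⟩ := Submodule.exists_mem_ne_zero_of_ne_bot hI
  -- the minimal exponent in `I`
  have hex : ∃ n : ℕ, ∃ x : V, x ∈ I ∧ x ≠ 0 ∧ v (algebraMap F L (x : F)) = v (ϖ : L) ^ n := by
    obtain ⟨n, hn⟩ := hexp x0 hx0
    exact ⟨n, x0, hx0I, hx0, hn⟩
  obtain ⟨x, hxI, hxne, hxn⟩ := Nat.find_spec hex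
  refine ⟨x, le_antisymm ?_ ?_⟩
  · intro y hyI
    rw [Submodule.mem_span_singleton]
    by_cases hy0 : y = 0
    · exact ⟨0, by rw [hy0, zero_smul]⟩
    obtain ⟨m, hm⟩ := hexp y hy0
    have hmin : Nat.find hex ≤ m := Nat.find_min' hex ⟨y, hyI, hy0, hm⟩
    have hxF : (x : F) ≠ 0 := fun h => hxne (Subtype.ext h)
    have hxL : algebraMap F L (x : F) ≠ 0 := by
      intro h; exact hxF ((algebraMap F L).injective (by rw [h, map_zero]))
    have hle : v (algebraMap F L (y : F)) ≤ v (algebraMap F L (x : F)) := by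
      rw [hm, hxn]
      exact pow_le_pow_of_le_one zero_le hvϖ1.le hmin
    have hq : (y : F) * (x : F)⁻¹ ∈ V := by
      rw [hmemV, map_mul, map_inv₀]
      exact ab27_mem_of_val_le W hxL hle
    refine ⟨⟨_, hq⟩, Subtype.ext ?_⟩
    change (y : F) * (x : F)⁻¹ * (x : F) = (y : F)
    rw [inv_mul_cancel_right₀ hxF]
  · rw [Submodule.span_le, Set.singleton_subset_iff]; exact hxI

end aux

section main

variable {O E L C : Type*} [CommRing O] [IsDomain O] [IsNoetherianRing O]
  [Field E] [Algebra O E] [IsFractionRing O E]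
  [Field L] [Algebra E L] [Algebra O L] [IsScalarTower O E L] [FiniteDimensional E L]
  [Algebra.IsSeparable E L]
  [CommRing C] [Algebra O C] [Algebra C L] [IsScalarTower O C L] [IsIntegralClosure C O L]

/-- **Abhyankar's lemma in `hcodim` shape** (valuation-subring form of the tameness hypothesis).
`p` a prime element of `O` of residue characteristic `0`; `F ⊆ L` with `L = F[s]`, `s` the image
of `p`, `s ^ e = z ∈ F`.  Hypothesis `htame`: for every discrete valuation subring `V` of `F`
in which all positive integers are units and `z` is a non-unit, `z = u · t ^ k` with `t` a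
uniformiser of `V`, `u` a unit of `V` and `k ∣ e`.  Then `C` is trace-self-dual at `p`. -/
theorem ab27_hcodim_of_tame_val {F : Type*} [Field F] [Algebra F L]
    (p : O) (hp : Prime p) (hchar : ∀ n : ℕ, n ≠ 0 → ¬ p ∣ (n : O))
    (z : F) (e : ℕ) (he : 0 < e) (hz : algebraMap F L z = algebraMap O L p ^ e)
    (hgen : Algebra.adjoin F {algebraMap O L p} = ⊤)
    (htame : ∀ W : ValuationSubring L, IsPrincipalIdealRing W →
      (∀ x : O, algebraMap O L x ∈ W) → (∀ s : O, ¬ p ∣ s → (algebraMap O L s)⁻¹ ∈ W) →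
      (algebraMap O L p)⁻¹ ∉ W →
      IsPrincipalIdealRing (W.comap (algebraMap F L)) →
      ∃ (t : W.comap (algebraMap F L)) (u : (W.comap (algebraMap F L))ˣ) (k : ℕ),
        Irreducible t ∧ 0 < k ∧ k ∣ e ∧ z = ((u : W.comap (algebraMap F L)) : F) * (t : F) ^ k) :
    ∀ y : L, (∀ c : C, Algebra.trace E L (y * algebraMap C L c) ∈ (algebraMap O E).range) →
      ∃ s : O, ¬ p ∣ s ∧ algebraMap O L s * y ∈ (algebraMap C L).range := by
  classical
  apply sd44_hcodim_of_valuation p hp hchar
  intro W hWpid hOW hunitW hpW x hxW hxinv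
  have hinjOL : Function.Injective (algebraMap O L) := by
    rw [IsScalarTower.algebraMap_eq O E L]
    exact (algebraMap E L).injective.comp (IsFractionRing.injective O E)
  set s : L := algebraMap O L p with hs
  have hs0 : s ≠ 0 := fun h => hp.ne_zero (hinjOL (by rw [← hs, h, map_zero]))
  have hzW : algebraMap F L z ∈ W := by rw [hz]; exact pow_mem (hOW p) e
  have hzi : (algebraMap F L z)⁻¹ ∉ W := by
    rw [hz]
    intro h
    apply hpW
    have h1 : s⁻¹ = (s ^ e)⁻¹ * s ^ (e - 1) := by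
      obtain ⟨e', rfl⟩ := Nat.exists_eq_succ_of_ne_zero he.ne'
      rw [Nat.succ_sub_one, pow_succ, mul_inv, mul_comm (s ^ e')⁻¹, mul_assoc,
        inv_mul_cancel₀ (pow_ne_zero _ hs0), mul_one]
    rw [h1]
    exact W.mul_mem _ _ h (pow_mem (hOW p) _)
  set V : ValuationSubring F := W.comap (algebraMap F L)
  have hVpid : IsPrincipalIdealRing V :=
    @ab27_comap_isPID L _ F _ _ W hWpid z hzW hzi
  obtain ⟨t, u, k, ht, hk, ⟨d, hkd⟩, hzut⟩ := htame W hWpid hOW hunitW hpW hVpid
  have hd : 0 < d := by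
    rcases Nat.eq_zero_or_pos d with h | h
    · rw [h, mul_zero] at hkd; exact absurd hkd he.ne'
    · exact h
  -- `V` is a DVR
  have hVnf : ¬ IsField V := fun hf => by
    obtain ⟨b, hb⟩ := hf.mul_inv_cancel ht.ne_zero
    exact ht.not_isUnit (.of_mul_eq_one b hb)
  have : IsDiscreteValuationRing V :=
    { not_a_field' := by
        rw [ne_eq, ← IsLocalRing.isField_iff_maximalIdeal_eq]; exact hVnf }
  let _ : Algebra V L := ((algebraMap F L).comp (algebraMap V F)).toAlgebra
  have : IsScalarTower V F L := IsScalarTower.of_algebraMap_eq fun _ => rfl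
  have halg : ∀ a : V, algebraMap V L a = algebraMap F L (a : F) := fun _ => rfl
  -- positive integers are units of `V`
  have hnat : ∀ n : ℕ, n ≠ 0 → IsUnit ((n : ℕ) : V) := by
    intro n hn
    have hnO : (n : O) ≠ 0 := fun h => hchar n hn (h ▸ dvd_zero p)
    have hnL : (n : L) ≠ 0 := by
      intro h
      exact hnO (hinjOL (by rw [map_natCast, h, map_zero]))
    have hnF : (n : F) ≠ 0 := by
      intro h
      apply hnL
      have := congrArg (algebraMap F L) h
      rwa [map_natCast, map_zero] at this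
    have hmem : ((n : F))⁻¹ ∈ V := by
      show algebraMap F L ((n : F))⁻¹ ∈ W
      rw [map_inv₀, map_natCast]
      have := hunitW (n : O) (hchar n hn)
      rwa [map_natCast] at this
    refine .of_mul_eq_one ⟨_, hmem⟩ (Subtype.ext ?_)
    show ((n : V) : F) * ((n : F))⁻¹ = 1
    rw [show ((n : V) : F) = (n : F) by simp, mul_inv_cancel₀ hnF]
  have hM : IsUnit (((k * d : ℕ) : V)) := hnat _ (by rw [← hkd]; exact he.ne')
  have hsk : s ^ (k * d) = algebraMap V L ((u : V) * t ^ k) := by
    rw [← hkd, ← hz, hzut, halg]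
    simp
  have hO : ∀ a : V, W.valuation (algebraMap V L a) ≤ 1 := fun a =>
    (W.valuation_le_one_iff _).2 a.2
  have ht1 : W.valuation (algebraMap V L t) < 1 := by
    apply ab27_val_lt_one W t.2
    intro h
    have htF : (t : F) ≠ 0 := fun h0 => ht.ne_zero (Subtype.ext h0)
    have hmem : ((t : F))⁻¹ ∈ V := by
      show algebraMap F L ((t : F))⁻¹ ∈ W
      rw [map_inv₀]; exact h
    exact ht.not_isUnit (.of_mul_eq_one ⟨_, hmem⟩ (Subtype.ext (mul_inv_cancel₀ htF)))
  obtain ⟨-, hs1, hval⟩ := td_abhyankar (O := V) (E := F) (L := L) t ht u k d hk hd hM s hsk hgen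
    W.valuation hO ht1
  -- conclusion
  by_cases hx0 : x = 0
  · rw [hx0, zero_mul]; exact W.zero_mem
  have hxlt : W.valuation x < 1 := ab27_val_lt_one W hxW hxinv
  obtain ⟨n, hn⟩ := hval x hx0
  have hvs0 : W.valuation s ≠ 0 := (Valuation.ne_zero_iff _).2 hs0
  have hvspos : 0 < W.valuation s := zero_lt_iff.2 hvs0
  have hn1 : 1 ≤ n := by
    by_contra hcon
    have hn0 : n ≤ 0 := by omega
    have : 1 ≤ W.valuation s ^ n := one_le_zpow_of_nonpos₀ hvspos hs1.le hn0
    rw [← hn] at this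
    exact absurd hxlt (not_lt.2 this)
  have hle : W.valuation x ≤ W.valuation s := by
    rw [hn]
    calc W.valuation s ^ n ≤ W.valuation s ^ (1 : ℤ) :=
          zpow_le_zpow_right_of_le_one₀ hvspos hs1.le hn1
      _ = W.valuation s := zpow_one _
  exact ab27_mem_of_val_le W hs0 hle

/-- **Abhyankar's lemma in `hcodim` shape, `Place` form.**  Setting of `SelfDual.lean`
(`O` noetherian domain, `E = Frac O`, `L / E` finite separable, `C` the integral closure of `O`
in `L`); `p` a prime element of `O` of residue characteristic `0`; `K0` a field contained in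
`O_(p)` (hypothesis `hK0`); `F ⊆ L` a `K0`-subfield with `L = F[s]`, `s` the image of `p`,
`s ^ e = z ∈ F`.  If `v.ord z ∣ e` for every place `v` of `F / K0` at which `z` vanishes, then
`C` is trace-self-dual at `p`. -/
theorem ab27_hcodim_of_tame {K0 F : Type*} [Field K0] [Field F] [Algebra K0 F] [Algebra F L]
    [Algebra K0 L] [IsScalarTower K0 F L]
    (p : O) (hp : Prime p) (hchar : ∀ n : ℕ, n ≠ 0 → ¬ p ∣ (n : O))
    (hK0 : ∀ a : K0, ∃ x y : O, ¬ p ∣ y ∧
      algebraMap O L y * algebraMap K0 L a = algebraMap O L x)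
    (z : F) (e : ℕ) (he : 0 < e) (hz : algebraMap F L z = algebraMap O L p ^ e)
    (hgen : Algebra.adjoin F {algebraMap O L p} = ⊤)
    (htame : ∀ v : Place K0 F, 0 < v.ord z → v.ord z ∣ (e : ℤ)) :
    ∀ y : L, (∀ c : C, Algebra.trace E L (y * algebraMap C L c) ∈ (algebraMap O E).range) →
      ∃ s : O, ¬ p ∣ s ∧ algebraMap O L s * y ∈ (algebraMap C L).range := by
  classical
  apply ab27_hcodim_of_tame_val (E := E) (C := C) p hp hchar z e he hz hgen
  intro W hWpid hOW hunitW hpW hVpid
  have hinjOL : Function.Injective (algebraMap O L) := by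
    rw [IsScalarTower.algebraMap_eq O E L]
    exact (algebraMap E L).injective.comp (IsFractionRing.injective O E)
  set s : L := algebraMap O L p with hs
  have hs0 : s ≠ 0 := fun h => hp.ne_zero (hinjOL (by rw [← hs, h, map_zero]))
  have hzi : (algebraMap F L z)⁻¹ ∉ W := by
    rw [hz]
    intro h
    apply hpW
    have h1 : s⁻¹ = (s ^ e)⁻¹ * s ^ (e - 1) := by
      obtain ⟨e', rfl⟩ := Nat.exists_eq_succ_of_ne_zero he.ne'
      rw [Nat.succ_sub_one, pow_succ, mul_inv, mul_comm (s ^ e')⁻¹, mul_assoc,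
        inv_mul_cancel₀ (pow_ne_zero _ hs0), mul_one]
    rw [h1]
    exact W.mul_mem _ _ h (pow_mem (hOW p) _)
  have hz0 : z ≠ 0 := by
    intro h
    rw [h, map_zero, inv_zero] at hzi
    exact hzi W.zero_mem
  have hzV : z⁻¹ ∉ W.comap (algebraMap F L) := by
    intro h
    apply hzi
    have : algebraMap F L z⁻¹ ∈ W := h
    rwa [map_inv₀] at this
  have hK0V : ∀ a : K0, algebraMap K0 F a ∈ W.comap (algebraMap F L) := by
    intro a
    obtain ⟨x, y, hy, hxy⟩ := hK0 a
    show algebraMap F L (algebraMap K0 F a) ∈ W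
    rw [← IsScalarTower.algebraMap_apply]
    have hy0 : algebraMap O L y ≠ 0 := by
      intro h
      have : y = 0 := hinjOL (by rw [h, map_zero])
      exact hy (this ▸ dvd_zero p)
    have h1 : algebraMap K0 L a = (algebraMap O L y)⁻¹ * algebraMap O L x := by
      rw [← hxy, inv_mul_cancel_left₀ hy0]
    rw [h1]
    exact W.mul_mem _ _ (hunitW y hy) (hOW x)
  have hVtop : W.comap (algebraMap F L) ≠ ⊤ := by
    intro h
    apply hzV
    rw [h]
    exact ValuationSubring.mem_top _
  obtain ⟨P, hP⟩ : ∃ P : Place K0 F, P.toValuationSubring = W.comap (algebraMap F L) :=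
    ⟨⟨W.comap (algebraMap F L), hK0V, hVtop, hVpid⟩, rfl⟩
  rw [← hP] at hzV ⊢
  obtain ⟨ϖ, hϖ⟩ := IsDiscreteValuationRing.exists_irreducible P.toValuationSubring
  obtain ⟨u, hu⟩ := P.exists_unit_mul_zpow hz0 hϖ
  have hϖ0 : (ϖ : F) ≠ 0 := fun h => hϖ.ne_zero (Subtype.ext h)
  have hpos : 0 < P.ord z := by
    by_contra hcon
    have hle : P.ord z ≤ 0 := not_lt.1 hcon
    apply hzV
    obtain ⟨n, hn⟩ : ∃ n : ℕ, P.ord z = -(n : ℤ) := ⟨(-P.ord z).toNat, by omega⟩
    have hu0 : (((u : P.toValuationSubringˣ) : P.toValuationSubring) : F) *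
        (((u⁻¹ : P.toValuationSubringˣ) : P.toValuationSubring) : F) = 1 :=
      congrArg Subtype.val (Units.mul_inv u)
    have hzinv : z⁻¹ = (((u⁻¹ : P.toValuationSubringˣ) : P.toValuationSubring) : F) *
        (ϖ : F) ^ n := by
      rw [hu, hn, zpow_neg, zpow_natCast, mul_inv, inv_inv, inv_eq_of_mul_eq_one_right hu0]
    rw [hzinv]
    exact P.toValuationSubring.mul_mem _ _
      ((u⁻¹ : P.toValuationSubringˣ) : P.toValuationSubring).2 (pow_mem ϖ.2 n)
  obtain ⟨k, hk⟩ : ∃ k : ℕ, P.ord z = (k : ℤ) := ⟨(P.ord z).toNat, by omega⟩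
  have hkpos : 0 < k := by omega
  have hkdvd : k ∣ e := by
    have := htame P hpos
    rw [hk] at this
    exact Int.natCast_dvd_natCast.1 this
  refine ⟨ϖ, u, k, hϖ, hkpos, hkdvd, ?_⟩
  rw [hk, zpow_natCast] at hu
  exact hu

end main

end Fermat.Agent.S18
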