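import Fermat.Agent.S18.NormalFibre51

/-!
# S18: bridge from the `hcodim` shape (pl72 / sd44 / sd62) to `PurSelfDualAt` (helper51)

`pur_selfDualAt_of_hcodim` : if every element of the trace dual of `C` (any model of the integral
closure of `O` in `L`) has a multiple by some `s ∉ (p)` in `C`, then `PurSelfDualAt O E L p`.
-/

set_option autoImplicit false

namespace Fermat.Agent.S18

section Bridge

variable {O E L : Type*} [CommRing O] [IsDomain O] [UniqueFactorizationMonoid O]
  [IsNoetherianRing O]
  [Field E] [Algebra O E] [IsFractionRing O E]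
  [Field L] [Algebra E L] [Algebra O L] [IsScalarTower O E L]
  [FiniteDimensional E L] [Algebra.IsSeparable E L]
  {C : Type*} [CommRing C] [Algebra O C] [Algebra C L] [IsScalarTower O C L]
  [IsIntegralClosure C O L]

/-- The `hcodim` shape at a prime element `p` implies `PurSelfDualAt O E L p`. -/
theorem pur_selfDualAt_of_hcodim {p : O} (hp : Prime p)
    (h : ∀ y : L, (∀ c : C, Algebra.trace E L (y * algebraMap C L c) ∈ (algebraMap O E).range) →
      ∃ s : O, ¬ p ∣ s ∧ algebraMap O L s * y ∈ (algebraMap C L).range) :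
    PurSelfDualAt O E L p := by
  classical
  intro y hy
  haveI : Module.Finite O C := IsIntegralClosure.finite O E L C
  obtain ⟨S, hS⟩ := (Module.Finite.fg_top : (⊤ : Submodule O C).FG)
  have hy' : ∀ c : C, ∃ a s : O, ¬ p ∣ s ∧
      Algebra.trace E L (y * algebraMap C L c) * algebraMap O E s = algebraMap O E a :=
    fun c => hy _ (IsIntegralClosure.isIntegral_iff.mpr ⟨c, rfl⟩)
  choose a s hs has using hy'
  set s₀ : O := ∏ c ∈ S, s c with hs₀
  have hps₀ : ¬ p ∣ s₀ := by
    rw [hs₀, hp.dvd_finsetProd_iff]
    rintro ⟨c, -, hc⟩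
    exact hs c hc
  -- the `O`-linear functional `c ↦ Tr (s₀ y c)`
  let lin : C →ₗ[O] E :=
    { toFun := fun c => Algebra.trace E L (algebraMap O L s₀ * y * algebraMap C L c)
      map_add' := fun c₁ c₂ => by
        rw [map_add (algebraMap C L), mul_add, map_add]
      map_smul' := fun r c => by
        have h1 : algebraMap C L (r • c) = algebraMap O L r * algebraMap C L c := by
          rw [Algebra.smul_def, map_mul (algebraMap C L), ← IsScalarTower.algebraMap_apply]
        rw [h1, RingHom.id_apply,
          show algebraMap O L s₀ * y * (algebraMap O L r * algebraMap C L c)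
            = algebraMap O L r * (algebraMap O L s₀ * y * algebraMap C L c) by ring,
          pur_trace_smul, Algebra.smul_def] }
  have hle : Submodule.span O (S : Set C) ≤
      Submodule.comap lin (LinearMap.range (Algebra.linearMap O E)) := by
    rw [Submodule.span_le]
    intro c hc
    refine ⟨(∏ c' ∈ S.erase c, s c') * a c, ?_⟩
    change algebraMap O E ((∏ c' ∈ S.erase c, s c') * a c)
      = Algebra.trace E L (algebraMap O L s₀ * y * algebraMap C L c)
    have h1 : s₀ = s c * ∏ c' ∈ S.erase c, s c' := by
      rw [hs₀, Finset.mul_prod_erase S s (Finset.mem_coe.mp hc)]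
    rw [mul_assoc, pur_trace_smul, h1, map_mul (algebraMap O E), map_mul (algebraMap O E),
      ← has c]
    ring
  have htr : ∀ c : C, Algebra.trace E L (algebraMap O L s₀ * y * algebraMap C L c)
      ∈ (algebraMap O E).range := by
    intro c
    have hc : c ∈ Submodule.span O (S : Set C) := by rw [hS]; exact Submodule.mem_top
    obtain ⟨r, hr⟩ := hle hc
    exact ⟨r, hr⟩
  obtain ⟨s₁, hs₁, c, hc⟩ := h (algebraMap O L s₀ * y) htr
  refine ⟨s₁ * s₀, fun hdvd => (hp.dvd_or_dvd hdvd).elim hs₁ hps₀, ?_⟩
  rw [map_mul, mul_assoc, ← hc]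
  exact IsIntegralClosure.isIntegral_iff.mpr ⟨c, rfl⟩

end Bridge

end Fermat.Agent.S18
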