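/-
S18 / B5-ζ (helper39): plumbing for the base chart `O = R[X]` of the smoothness assembly,
written against the signatures of `NormalFibre51` (helper51).  Generic, Mathlib only.

`R` a commutative ring, `π : R` with `(π)` a maximal ideal (e.g. a uniformiser of a DVR).
* `pb39_quotEquiv` : `R[X] ⧸ (C π) ≃+* (R ⧸ π)[X]`;
* `pb39_quot_pir` : `R[X] ⧸ (C π)` is a principal ideal ring;
* `pb39_exists_monic_lift` : every prime of `R[X] ⧸ (C π)` is associated to the class of a monic
  `z` with `(C π, z)` a maximal ideal;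
* `pb39_span_linear_isMaximal`, `pb39_assoc_of_linear_mem`, `pb39_prime_trichotomy` :
  the closed points on the sections `X = 0`, `X = c`;
* `pb39_not_dvd_sections` : primes through an off-section point do not divide `C π * X * (X - c)`.
-/
import Mathlib

set_option autoImplicit false
set_option linter.unusedSectionVars false
set_option linter.unusedVariables false
set_option linter.style.haveILetI false

open Polynomial

namespace Fermat.Agent.S18

section PolyBase

variable {R : Type*} [CommRing R]

/-- In a DVR, the ideal of a uniformiser is maximal. -/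
theorem pb39_isMaximal_of_dvr [IsDomain R] [IsDiscreteValuationRing R] {π : R}
    (hπ : Irreducible π) : (Ideal.span {π}).IsMaximal := by
  have hmax : IsLocalRing.maximalIdeal R = Ideal.span {π} :=
    (IsDiscreteValuationRing.irreducible_iff_uniformizer π).mp hπ
  exact hmax ▸ IsLocalRing.maximalIdeal.isMaximal R

/-- Reduction of the coefficients modulo `π`. -/
noncomputable def pb39_red (π : R) : R[X] →+* (R ⧸ Ideal.span {π})[X] :=
  Polynomial.mapRingHom (Ideal.Quotient.mk (Ideal.span {π}))

theorem pb39_red_apply (π : R) (f : R[X]) :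
    pb39_red π f = f.map (Ideal.Quotient.mk (Ideal.span {π})) := rfl

theorem pb39_red_surjective (π : R) : Function.Surjective (pb39_red π) :=
  Polynomial.map_surjective _ Ideal.Quotient.mk_surjective

theorem pb39_ker_red (π : R) : RingHom.ker (pb39_red π) = Ideal.span {(C π : R[X])} := by
  unfold pb39_red
  rw [Polynomial.ker_mapRingHom, Ideal.mk_ker, Ideal.map_span, Set.image_singleton]

theorem pb39_red_eq_zero_iff (π : R) (f : R[X]) : pb39_red π f = 0 ↔ C π ∣ f := by
  rw [← RingHom.mem_ker, pb39_ker_red, Ideal.mem_span_singleton]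

/-- `R[X] ⧸ (C π) ≃+* (R ⧸ π)[X]`. -/
noncomputable def pb39_quotEquiv (π : R) :
    (R[X] ⧸ Ideal.span {(C π : R[X])}) ≃+* (R ⧸ Ideal.span {π})[X] :=
  RingEquiv.ofBijective
    (Ideal.Quotient.lift (Ideal.span {(C π : R[X])}) (pb39_red π)
      (fun a ha => by rwa [← pb39_ker_red, RingHom.mem_ker] at ha))
    ⟨RingHom.lift_injective_of_ker_le_ideal _ _ (pb39_ker_red π).le,
      Ideal.Quotient.lift_surjective_of_surjective _ _ (pb39_red_surjective π)⟩

theorem pb39_quotEquiv_mk (π : R) (f : R[X]) :
    pb39_quotEquiv π (Ideal.Quotient.mk _ f) = f.map (Ideal.Quotient.mk (Ideal.span {π})) := by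
  rfl

variable {π : R}

/-- `R[X] ⧸ (C π)` is a principal ideal ring. -/
theorem pb39_quot_pir (hmax : (Ideal.span {π}).IsMaximal) :
    IsPrincipalIdealRing (R[X] ⧸ Ideal.span {(C π : R[X])}) := by
  letI : Field (R ⧸ Ideal.span {π}) := Ideal.Quotient.field _
  exact IsPrincipalIdealRing.of_surjective (pb39_quotEquiv π).symm.toRingHom
    (pb39_quotEquiv π).symm.surjective

/-- `(C π, z) = red⁻¹ (red z)`. -/
theorem pb39_span_pair_eq_comap (π : R) (z : R[X]) :
    Ideal.span {C π, z} = (Ideal.span {pb39_red π z}).comap (pb39_red π) := by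
  have h2 : (Ideal.span {z} : Ideal R[X]).map (pb39_red π) = Ideal.span {pb39_red π z} := by
    rw [Ideal.map_span, Set.image_singleton]
  rw [← h2, Ideal.comap_map_of_surjective _ (pb39_red_surjective π), ← RingHom.ker_eq_comap_bot,
    pb39_ker_red, ← Ideal.span_union, Set.union_comm]
  rfl

theorem pb39_mem_span_pair_iff (π : R) (z f : R[X]) :
    f ∈ Ideal.span {C π, z} ↔ pb39_red π z ∣ pb39_red π f := by
  rw [pb39_span_pair_eq_comap, Ideal.mem_comap, Ideal.mem_span_singleton]

/-- If `z` is irreducible modulo `π`, then `(C π, z)` is a maximal ideal of `R[X]`. -/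
theorem pb39_span_isMaximal (hmax : (Ideal.span {π}).IsMaximal) {z : R[X]}
    (hz : Irreducible (z.map (Ideal.Quotient.mk (Ideal.span {π})))) :
    (Ideal.span {C π, z}).IsMaximal := by
  letI : Field (R ⧸ Ideal.span {π}) := Ideal.Quotient.field _
  rw [pb39_span_pair_eq_comap]
  haveI : (Ideal.span {pb39_red π z}).IsMaximal :=
    PrincipalIdealRing.isMaximal_of_irreducible hz
  exact Ideal.comap_isMaximal_of_surjective _ (pb39_red_surjective π)

/-- The closed point `X = a` of the special fibre. -/
theorem pb39_span_linear_isMaximal (hmax : (Ideal.span {π}).IsMaximal) (a : R) :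
    (Ideal.span {C π, X - C a}).IsMaximal := by
  letI : Field (R ⧸ Ideal.span {π}) := Ideal.Quotient.field _
  apply pb39_span_isMaximal hmax
  rw [Polynomial.map_sub, Polynomial.map_X, Polynomial.map_C]
  exact Polynomial.irreducible_X_sub_C _

/-- The closed point `X = 0` of the special fibre. -/
theorem pb39_span_X_isMaximal (hmax : (Ideal.span {π}).IsMaximal) :
    (Ideal.span {C π, (X : R[X])}).IsMaximal := by
  have := pb39_span_linear_isMaximal hmax (0 : R)
  rwa [map_zero, sub_zero] at this

/-- Every prime of `R[X] ⧸ (C π)` is associated to the class of a monic polynomial `z`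
with `(C π, z)` maximal. -/
theorem pb39_exists_monic_lift (hmax : (Ideal.span {π}).IsMaximal)
    (ζ : R[X] ⧸ Ideal.span {(C π : R[X])}) (hζ : Prime ζ) :
    ∃ z : R[X], z.Monic ∧ Associated (Ideal.Quotient.mk (Ideal.span {(C π : R[X])}) z) ζ ∧
      (Ideal.span {C π, z}).IsMaximal := by
  letI : Field (R ⧸ Ideal.span {π}) := Ideal.Quotient.field _
  set ψ := pb39_quotEquiv π with hψ
  have hp : Prime (ψ ζ) := (MulEquiv.prime_iff ψ.toMulEquiv).mpr hζ
  have hirr : Irreducible (ψ ζ) := hp.irreducible
  have hne : ψ ζ ≠ 0 := hp.ne_zero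
  have hlc : (ψ ζ).leadingCoeff ≠ 0 := leadingCoeff_ne_zero.mpr hne
  set m := ψ ζ * C (ψ ζ).leadingCoeff⁻¹ with hm
  have hmonic : m.Monic := monic_mul_leadingCoeff_inv hne
  have hunit : IsUnit (C (ψ ζ).leadingCoeff⁻¹ : (R ⧸ Ideal.span {π})[X]) :=
    (isUnit_C.mpr (IsUnit.mk0 _ (inv_ne_zero hlc)))
  have hassoc : Associated (ψ ζ) m := ⟨hunit.unit, rfl⟩
  have hmirr : Irreducible m := hassoc.irreducible hirr
  obtain ⟨z, hzm, -, hzmonic⟩ := lifts_and_natDegree_eq_and_monic
    ((mem_lifts _).mpr (pb39_red_surjective π m)) hmonic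
  refine ⟨z, hzmonic, ?_, pb39_span_isMaximal hmax (hzm ▸ hmirr)⟩
  have h1 : ψ (Ideal.Quotient.mk _ z) = m := by rw [hψ, pb39_quotEquiv_mk, hzm]
  have h2 : Associated (ψ (Ideal.Quotient.mk _ z)) (ψ ζ) := h1 ▸ hassoc.symm
  obtain ⟨u, hu⟩ := h2
  refine ⟨Units.map ψ.symm.toRingHom.toMonoidHom u, ?_⟩
  apply ψ.injective
  rw [map_mul, ← hu]
  congr 1
  simp

/-- Two generators of the same closed point are associated modulo `π`. -/
theorem pb39_assoc_of_span_eq (hπ : Prime π) {z z' : R[X]}
    (h : Ideal.span {C π, z} = Ideal.span {C π, z'}) :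
    Associated (Ideal.Quotient.mk (Ideal.span {(C π : R[X])}) z)
      (Ideal.Quotient.mk (Ideal.span {(C π : R[X])}) z') := by
  have hC : Prime (C π : R[X]) := Polynomial.prime_C_iff.mpr hπ
  haveI : (Ideal.span {(C π : R[X])}).IsPrime := (Ideal.span_singleton_prime hC.ne_zero).mpr hC
  haveI : IsDomain (R[X] ⧸ Ideal.span {(C π : R[X])}) := Ideal.Quotient.isDomain _
  rw [← Ideal.span_singleton_eq_span_singleton]
  have key : ∀ w : R[X], (Ideal.span {C π, w}).map (Ideal.Quotient.mk (Ideal.span {(C π : R[X])}))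
      = Ideal.span {Ideal.Quotient.mk (Ideal.span {(C π : R[X])}) w} := by
    intro w
    rw [Ideal.map_span, Set.image_pair,
      Ideal.Quotient.eq_zero_iff_mem.mpr (Ideal.mem_span_singleton_self (C π))]
    apply le_antisymm
    · rw [Ideal.span_le]
      rintro x (rfl | rfl)
      · exact Ideal.zero_mem _
      · exact Ideal.mem_span_singleton_self _
    · exact Ideal.span_mono (by simp)
  rw [← key z, ← key z', h]

/-- A closed point containing `X - C a` is the point `X = a`. -/
theorem pb39_assoc_of_linear_mem (hπ : Prime π) (hmax : (Ideal.span {π}).IsMaximal) {z : R[X]}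
    (a : R) (ha : X - C a ∈ Ideal.span {C π, z}) (hne : Ideal.span {C π, z} ≠ ⊤) :
    Associated (Ideal.Quotient.mk (Ideal.span {(C π : R[X])}) (X - C a))
      (Ideal.Quotient.mk (Ideal.span {(C π : R[X])}) z) := by
  apply pb39_assoc_of_span_eq hπ
  apply (pb39_span_linear_isMaximal hmax a).eq_of_le hne
  rw [Ideal.span_le]
  rintro x (rfl | rfl)
  · exact Ideal.subset_span (by simp)
  · exact ha

/-- Trichotomy for the closed points of the special fibre of the line: the point `X = 0`, the
point `X = c`, or a point off these two sections. -/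
theorem pb39_prime_trichotomy (hπ : Prime π) (hmax : (Ideal.span {π}).IsMaximal) (c : R)
    (ζ : R[X] ⧸ Ideal.span {(C π : R[X])}) (hζ : Prime ζ) :
    Associated (Ideal.Quotient.mk (Ideal.span {(C π : R[X])}) X) ζ ∨
    Associated (Ideal.Quotient.mk (Ideal.span {(C π : R[X])}) (X - C c)) ζ ∨
    ∃ z : R[X], z.Monic ∧ Associated (Ideal.Quotient.mk (Ideal.span {(C π : R[X])}) z) ζ ∧
      (Ideal.span {C π, z}).IsMaximal ∧ X ∉ Ideal.span {C π, z} ∧
      X - C c ∉ Ideal.span {C π, z} := by
  obtain ⟨z, hzmonic, hzζ, hzmax⟩ := pb39_exists_monic_lift hmax ζ hζ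
  by_cases h0 : X ∈ Ideal.span {C π, z}
  · left
    have h0' : X - C (0 : R) ∈ Ideal.span {C π, z} := by rwa [map_zero, sub_zero]
    have := pb39_assoc_of_linear_mem hπ hmax 0 h0' hzmax.ne_top
    rw [map_zero, sub_zero] at this
    exact this.trans hzζ
  · by_cases hc : X - C c ∈ Ideal.span {C π, z}
    · right; left
      exact (pb39_assoc_of_linear_mem hπ hmax c hc hzmax.ne_top).trans hzζ
    · right; right
      exact ⟨z, hzmonic, hzζ, hzmax, h0, hc⟩

/-- A prime element through an off-section point, not associated to `π`, divides none of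
`C π`, `X`, `X - C c`. -/
theorem pb39_not_dvd_sections [IsDomain R] (hπ : Prime π) {I : Ideal R[X]} {p : R[X]} (hp : Prime p)
    (hpI : p ∈ I) (hpπ : ¬ Associated p (C π)) (hX : X ∉ I) (c : R) (hXc : X - C c ∉ I) :
    ¬ p ∣ C π * X * (X - C c) := by
  have hC : Prime (C π : R[X]) := Polynomial.prime_C_iff.mpr hπ
  intro h
  rcases hp.dvd_or_dvd h with h1 | h1
  · rcases hp.dvd_or_dvd h1 with h2 | h2
    · exact hpπ (hp.irreducible.associated_of_dvd hC.irreducible h2)
    · obtain ⟨q, hq⟩ := h2
      exact hX (hq ▸ I.mul_mem_right _ hpI)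
  · obtain ⟨q, hq⟩ := h1
    exact hXc (hq ▸ I.mul_mem_right _ hpI)

/-- Membership in the closed point `(π, X - a)` is tested by evaluation at `a`. -/
theorem pb39_mem_span_linear_iff (π a : R) (f : R[X]) :
    f ∈ Ideal.span {C π, X - C a} ↔ π ∣ f.eval a := by
  constructor
  · intro hf
    obtain ⟨u, v, huv⟩ := Ideal.mem_span_pair.mp hf
    refine ⟨u.eval a, ?_⟩
    rw [← huv]
    simp [mul_comm]
  · rintro ⟨r, hr⟩
    obtain ⟨q, hq⟩ : ∃ q : R[X], f = C (f.eval a) + (X - C a) * q := by
      refine ⟨f /ₘ (X - C a), ?_⟩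
      have := modByMonic_add_div f (X - C a)
      rw [modByMonic_X_sub_C_eq_C_eval] at this
      exact this.symm
    rw [Ideal.mem_span_pair]
    refine ⟨C r, q, ?_⟩
    rw [hr, C_mul] at hq
    rw [hq]
    ring

/-- Membership in the closed point `(π, X)` is tested by evaluation at `0`. -/
theorem pb39_mem_span_X_iff (π : R) (f : R[X]) :
    f ∈ Ideal.span {C π, (X : R[X])} ↔ π ∣ f.eval 0 := by
  have := pb39_mem_span_linear_iff π 0 f
  rwa [map_zero, sub_zero] at this

end PolyBase

end Fermat.Agent.S18
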