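/-
S18 / B5-ζ (helper39): the concrete Kummer layer over the base chart `O = R[X]`.

* `kl39_KR R e a` : a copy of `R[X]` ("`R[S]`"), an `R[X]`-algebra via `X ↦ S ^ e + a`, so that
  `S ^ e = X - a`.  It is finite, integral and torsion-free over `R[X]`.
* for a field `F` with `[Algebra R[X] F]` and an irreducible factor `g` of
  `T ^ e - (x - a)` over `F` (`x` the image of `X`): `AdjoinRoot g` is an algebra over
  `kl39_KR R e a` (`S ↦ root g`), compatibly with `R[X] → F → AdjoinRoot g`;
* `kl39_exists_factor` : over a local ring `R` in which `e` is a unit, `g` can be chosen with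
  `(g.natDegree : R)` a unit (no roots of unity needed).
-/
import Fermat.Agent.S18.PolyBase39

set_option autoImplicit false
set_option linter.unusedSectionVars false
set_option linter.unusedVariables false
set_option linter.style.haveILetI false

open Polynomial

universe u

namespace Fermat.Agent.S18

/-- The Kummer ring `R[S]`: a copy of `R[X]`, regarded as an `R[X]`-algebra through
`X ↦ S ^ e + a`. -/
def kl39_KR (R : Type u) [CommRing R] (e : ℕ) (a : R) : Type u := Polynomial R

section KR

variable {R : Type u} [CommRing R] (e : ℕ) (a : R)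

noncomputable instance kl39_commRing : CommRing (kl39_KR R e a) :=
  inferInstanceAs (CommRing R[X])

instance kl39_isDomain [IsDomain R] : IsDomain (kl39_KR R e a) :=
  inferInstanceAs (IsDomain R[X])

instance kl39_ufm [IsDomain R] [UniqueFactorizationMonoid R] :
    UniqueFactorizationMonoid (kl39_KR R e a) :=
  inferInstanceAs (UniqueFactorizationMonoid R[X])

instance kl39_noeth [IsNoetherianRing R] : IsNoetherianRing (kl39_KR R e a) :=
  inferInstanceAs (IsNoetherianRing R[X])

/-- The identification `R[X] ≃+* R[S]` (as rings, *not* as `R[X]`-algebras). -/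
noncomputable def kl39_of : R[X] ≃+* kl39_KR R e a := RingEquiv.refl _

/-- The variable `S` of the Kummer ring. -/
noncomputable def kl39_S : kl39_KR R e a := kl39_of e a X

noncomputable instance kl39_algebra : Algebra R[X] (kl39_KR R e a) :=
  ((kl39_of e a).toRingHom.comp
    (Polynomial.eval₂RingHom (C : R →+* R[X]) (X ^ e + C a : R[X]))).toAlgebra

theorem kl39_algebraMap_apply (f : R[X]) :
    algebraMap R[X] (kl39_KR R e a) f = kl39_of e a (f.comp (X ^ e + C a)) := rfl

theorem kl39_algebraMap_C (r : R) :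
    algebraMap R[X] (kl39_KR R e a) (C r) = kl39_of e a (C r) := by
  rw [kl39_algebraMap_apply, C_comp]

theorem kl39_algebraMap_X :
    algebraMap R[X] (kl39_KR R e a) X = kl39_S e a ^ e + kl39_of e a (C a) := by
  rw [kl39_algebraMap_apply, X_comp, map_add, map_pow]
  rfl

/-- `S ^ e = X - a`. -/
theorem kl39_S_pow : kl39_S e a ^ e = algebraMap R[X] (kl39_KR R e a) (X - C a) := by
  rw [map_sub, kl39_algebraMap_X, kl39_algebraMap_C, add_sub_cancel_right]

theorem kl39_algebraMap_natCast (n : ℕ) :
    algebraMap R[X] (kl39_KR R e a) (n : R[X]) = (n : kl39_KR R e a) := map_natCast _ n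

theorem kl39_of_natCast (n : ℕ) : kl39_of e a (C (n : R)) = (n : kl39_KR R e a) := by
  rw [← kl39_algebraMap_C, map_natCast C n, map_natCast]

/-- Divisibility in `R[S]` is divisibility in `R[X]`. -/
theorem kl39_of_dvd_iff (f g : R[X]) : kl39_of e a f ∣ kl39_of e a g ↔ f ∣ g :=
  map_dvd_iff (kl39_of e a)

theorem kl39_prime_of_iff (f : R[X]) : Prime (kl39_of e a f) ↔ Prime f :=
  MulEquiv.prime_iff (kl39_of e a).toMulEquiv

/-- `S` is a prime element. -/
theorem kl39_prime_S [IsDomain R] : Prime (kl39_S e a) :=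
  (kl39_prime_of_iff e a X).mpr Polynomial.prime_X

/-- The image of `C π` is a prime element. -/
theorem kl39_prime_pi [IsDomain R] {π : R} (hπ : Prime π) :
    Prime (algebraMap R[X] (kl39_KR R e a) (C π)) := by
  rw [kl39_algebraMap_C]
  exact (kl39_prime_of_iff e a _).mpr (Polynomial.prime_C_iff.mpr hπ)

/-- `π ∤ S`. -/
theorem kl39_pi_not_dvd_S {π : R} (hπ : ¬ IsUnit π) :
    ¬ algebraMap R[X] (kl39_KR R e a) (C π) ∣ kl39_S e a := by
  rw [kl39_algebraMap_C]
  unfold kl39_S
  rw [kl39_of_dvd_iff, C_dvd_iff_dvd_coeff]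
  intro h
  have h1 := h 1
  rw [coeff_X_one] at h1
  exact hπ (isUnit_of_dvd_one h1)

/-- Constants not divisible by `S`. -/
theorem kl39_S_not_dvd_C {r : R} (hr : r ≠ 0) : ¬ kl39_S e a ∣ kl39_of e a (C r) := by
  unfold kl39_S
  rw [kl39_of_dvd_iff, X_dvd_iff, coeff_C_zero]
  exact hr

/-- Residue characteristic zero at `S`. -/
theorem kl39_S_not_dvd_natCast [CharZero R] (n : ℕ) (hn : n ≠ 0) :
    ¬ kl39_S e a ∣ (n : kl39_KR R e a) := by
  rw [← kl39_of_natCast]
  exact kl39_S_not_dvd_C e a (by exact_mod_cast hn)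

/-- A natural number which is a unit of `R` is a unit of `R[S]`. -/
theorem kl39_isUnit_natCast {n : ℕ} (hn : IsUnit (n : R)) : IsUnit (n : kl39_KR R e a) := by
  rw [← kl39_of_natCast]
  exact (hn.map C).map (kl39_of e a)

/-- Membership in the closed point `(π, S)` of the Kummer line. -/
theorem kl39_mem_span_iff {π : R} (f : R[X]) :
    kl39_of e a f ∈ Ideal.span {algebraMap R[X] (kl39_KR R e a) (C π), kl39_S e a} ↔
      f ∈ Ideal.span {C π, (X : R[X])} := by
  rw [kl39_algebraMap_C]
  rfl

/-- The closed point `(π, S)` of the Kummer line is a maximal ideal. -/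
theorem kl39_span_isMaximal {π : R} (hmax : (Ideal.span {π}).IsMaximal) :
    (Ideal.span {algebraMap R[X] (kl39_KR R e a) (C π), kl39_S e a}).IsMaximal := by
  rw [kl39_algebraMap_C]
  exact pb39_span_X_isMaximal hmax

/-- `R[S] ⧸ (π)` is a principal ideal ring. -/
theorem kl39_quot_pir {π : R} (hmax : (Ideal.span {π}).IsMaximal) :
    IsPrincipalIdealRing
      (kl39_KR R e a ⧸ Ideal.span {algebraMap R[X] (kl39_KR R e a) (C π)}) := by
  rw [kl39_algebraMap_C]
  exact pb39_quot_pir hmax

/-- The structure map `R[X] → R[S]` is injective. -/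
theorem kl39_algebraMap_injective [IsDomain R] (he : 0 < e) :
    Function.Injective (algebraMap R[X] (kl39_KR R e a)) := by
  rw [injective_iff_map_eq_zero]
  intro f hf
  rw [kl39_algebraMap_apply] at hf
  have hf' : f.comp (X ^ e + C a) = 0 := (kl39_of e a).injective (by rw [hf, map_zero])
  rcases comp_eq_zero_iff.mp hf' with h | ⟨-, h⟩
  · exact h
  · exfalso
    have h1 := congrArg natDegree h
    rw [natDegree_C, natDegree_X_pow_add_C] at h1
    omega

/-- `(f ∘ (S^e + a))(0) = f(a)`. -/
theorem kl39_eval_zero_comp (he : 0 < e) (f : R[X]) :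
    (f.comp (X ^ e + C a)).eval 0 = f.eval a := by
  rw [eval_comp]
  simp [he.ne']

/-- The closed point `(π, S)` lies over the closed point `(π, X - a)`. -/
theorem kl39_algebraMap_mem_span_iff (he : 0 < e) {π : R} (f : R[X]) :
    algebraMap R[X] (kl39_KR R e a) f ∈
        Ideal.span {algebraMap R[X] (kl39_KR R e a) (C π), kl39_S e a} ↔
      f ∈ Ideal.span {C π, X - C a} := by
  rw [kl39_algebraMap_apply e a f, kl39_mem_span_iff, pb39_mem_span_X_iff,
    pb39_mem_span_linear_iff, kl39_eval_zero_comp e a he]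

/-- `π ∣ f(S^e + a)` in `R[S]` only if `π ∣ f` in `R[X]`. -/
theorem kl39_pi_dvd_of_dvd_map [IsDomain R] (he : 0 < e) {π : R} (hπ : Prime π) (f : R[X])
    (h : algebraMap R[X] (kl39_KR R e a) (C π) ∣ algebraMap R[X] (kl39_KR R e a) f) :
    C π ∣ f := by
  rw [kl39_algebraMap_C, kl39_algebraMap_apply, kl39_of_dvd_iff] at h
  haveI : (Ideal.span {π}).IsPrime := (Ideal.span_singleton_prime hπ.ne_zero).mpr hπ
  haveI : IsDomain (R ⧸ Ideal.span {π}) := Ideal.Quotient.isDomain _
  rw [← pb39_red_eq_zero_iff] at h ⊢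
  rw [pb39_red_apply, Polynomial.map_comp] at h
  rcases comp_eq_zero_iff.mp h with h1 | ⟨-, h1⟩
  · exact h1
  · exfalso
    have h2 := congrArg natDegree h1
    rw [natDegree_C, Polynomial.map_add, Polynomial.map_pow, Polynomial.map_X, Polynomial.map_C,
      natDegree_X_pow_add_C] at h2
    omega

/-- `S` is integral over `R[X]`. -/
theorem kl39_isIntegral_S (he : 0 < e) : IsIntegral R[X] (kl39_S e a) := by
  refine ⟨X ^ e - C (X - C a), monic_X_pow_sub_C _ he.ne', ?_⟩
  rw [eval₂_sub, eval₂_pow, eval₂_X, eval₂_C, kl39_S_pow, sub_self]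

/-- `R[S]` is generated by `S` as an `R[X]`-algebra. -/
theorem kl39_adjoin_S : Algebra.adjoin R[X] {kl39_S e a} = ⊤ := by
  rw [eq_top_iff]
  rintro x -
  obtain ⟨f, rfl⟩ := (kl39_of e a).surjective x
  induction f using Polynomial.induction_on' with
  | add p q hp hq => rw [map_add]; exact Subalgebra.add_mem _ hp hq
  | monomial n r =>
    have h1 : kl39_of e a (monomial n r)
        = algebraMap R[X] (kl39_KR R e a) (C r) * kl39_S e a ^ n := by
      rw [kl39_algebraMap_C, ← C_mul_X_pow_eq_monomial, map_mul, map_pow]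
      rfl
    rw [h1]
    have h2 : kl39_S e a ∈ Algebra.adjoin R[X] {kl39_S e a} :=
      Algebra.subset_adjoin (Set.mem_singleton _)
    exact Subalgebra.mul_mem _ (Subalgebra.algebraMap_mem _ _) (Subalgebra.pow_mem _ h2 n)

/-- `R[S]` is integral over `R[X]`. -/
theorem kl39_isIntegral (he : 0 < e) : Algebra.IsIntegral R[X] (kl39_KR R e a) := by
  refine ⟨fun x => ?_⟩
  have h1 : Algebra.adjoin R[X] {kl39_S e a} ≤ integralClosure R[X] (kl39_KR R e a) :=
    Algebra.adjoin_le (by
      rintro _ rfl
      exact kl39_isIntegral_S e a he)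
  exact h1 (by rw [kl39_adjoin_S]; trivial)

/-- `R[S]` is a finite `R[X]`-module. -/
theorem kl39_finite (he : 0 < e) : Module.Finite R[X] (kl39_KR R e a) := by
  haveI := kl39_isIntegral e a he
  haveI : Algebra.FiniteType R[X] (kl39_KR R e a) :=
    ⟨⟨{kl39_S e a}, by rw [Finset.coe_singleton]; exact kl39_adjoin_S e a⟩⟩
  exact Algebra.IsIntegral.finite

/-- `R[S]` is a torsion-free `R[X]`-module. -/
theorem kl39_isTorsionFree [IsDomain R] (he : 0 < e) :
    Module.IsTorsionFree R[X] (kl39_KR R e a) := by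
  rw [Module.isTorsionFree_iff_smul_eq_zero]
  intro r m h
  rw [Algebra.smul_def, mul_eq_zero] at h
  rcases h with h | h
  · left
    exact kl39_algebraMap_injective e a he (by rw [h, map_zero])
  · exact Or.inr h

end KR

section Field

variable {R : Type u} [CommRing R] (e : ℕ) (a : R)
variable {F : Type*} [Field F] [Algebra R[X] F] (g : F[X])

/-- `R[S] → AdjoinRoot g`, `S ↦ root g`, constants through `R[X] → F`. -/
noncomputable def kl39_toL : kl39_KR R e a →+* AdjoinRoot g :=
  (Polynomial.eval₂RingHom ((algebraMap R[X] (AdjoinRoot g)).comp C) (AdjoinRoot.root g)).comp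
    (kl39_of e a).symm.toRingHom

noncomputable instance kl39_algebraL : Algebra (kl39_KR R e a) (AdjoinRoot g) :=
  (kl39_toL e a g).toAlgebra

theorem kl39_algebraMapL_of (f : R[X]) :
    algebraMap (kl39_KR R e a) (AdjoinRoot g) (kl39_of e a f)
      = f.eval₂ ((algebraMap R[X] (AdjoinRoot g)).comp C) (AdjoinRoot.root g) := rfl

theorem kl39_algebraMapL_S :
    algebraMap (kl39_KR R e a) (AdjoinRoot g) (kl39_S e a) = AdjoinRoot.root g := by
  unfold kl39_S
  rw [kl39_algebraMapL_of, eval₂_X]

theorem kl39_algebraMapL_C (r : R) :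
    algebraMap (kl39_KR R e a) (AdjoinRoot g) (kl39_of e a (C r))
      = algebraMap R[X] (AdjoinRoot g) (C r) := by
  rw [kl39_algebraMapL_of, eval₂_C]
  rfl

variable {e a g}

/-- `root g ^ e = x - a`. -/
theorem kl39_root_pow (hg : g ∣ X ^ e - C (algebraMap R[X] F (X - C a))) :
    AdjoinRoot.root g ^ e = algebraMap R[X] (AdjoinRoot g) (X - C a) := by
  have h1 := AdjoinRoot.mk_eq_zero.mpr hg
  rw [map_sub, map_pow, AdjoinRoot.mk_X, AdjoinRoot.mk_C, sub_eq_zero] at h1
  rw [h1]
  rfl

/-- The two maps `R[X] → AdjoinRoot g` (through `F` and through `R[S]`) agree. -/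
theorem kl39_isScalarTower (hg : g ∣ X ^ e - C (algebraMap R[X] F (X - C a))) :
    IsScalarTower R[X] (kl39_KR R e a) (AdjoinRoot g) := by
  apply IsScalarTower.of_algebraMap_eq
  have key : algebraMap R[X] (AdjoinRoot g)
      = (algebraMap (kl39_KR R e a) (AdjoinRoot g)).comp (algebraMap R[X] (kl39_KR R e a)) := by
    apply Polynomial.ringHom_ext
    · intro r
      rw [RingHom.comp_apply, kl39_algebraMap_C, kl39_algebraMapL_C]
    · rw [RingHom.comp_apply, kl39_algebraMap_X, map_add, map_pow, kl39_algebraMapL_S,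
        kl39_algebraMapL_C, kl39_root_pow hg, ← map_add, sub_add_cancel]
  intro x
  rw [key]
  rfl

variable (g) in
theorem kl39_finiteDimensional [Fact (Irreducible g)] : FiniteDimensional F (AdjoinRoot g) :=
  (AdjoinRoot.powerBasis (Fact.out : Irreducible g).ne_zero).finite

variable (g) in
theorem kl39_finrank [Fact (Irreducible g)] : Module.finrank F (AdjoinRoot g) = g.natDegree := by
  rw [(AdjoinRoot.powerBasis (Fact.out : Irreducible g).ne_zero).finrank]
  rfl

/-- `R[S] → AdjoinRoot g` is injective when `R[X] → F` is. -/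
theorem kl39_algebraMapL_injective [IsDomain R] [Fact (Irreducible g)] (he : 0 < e)
    (hg : g ∣ X ^ e - C (algebraMap R[X] F (X - C a)))
    (hinj : Function.Injective (algebraMap R[X] F)) :
    Function.Injective (algebraMap (kl39_KR R e a) (AdjoinRoot g)) := by
  haveI := kl39_isScalarTower hg
  haveI := kl39_isIntegral e a he
  rw [RingHom.injective_iff_ker_eq_bot]
  apply Ideal.eq_bot_of_comap_eq_bot (R := R[X])
  rw [eq_bot_iff]
  intro x hx
  rw [Ideal.mem_comap, RingHom.mem_ker, ← IsScalarTower.algebraMap_apply,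
    IsScalarTower.algebraMap_apply R[X] F (AdjoinRoot g)] at hx
  have h1 : algebraMap R[X] F x = 0 :=
    (algebraMap F (AdjoinRoot g)).injective (by rw [hx, map_zero])
  exact hinj (by rw [h1, map_zero])

end Field

section Factor

/-- In a local ring in which `e` is a unit, `T ^ e - w` has a monic irreducible factor whose
degree is a unit.  (The degrees of the irreducible factors add up to `e`, and the non-units of
a local ring are closed under addition.) -/
theorem kl39_exists_factor {R : Type*} [CommRing R] [IsLocalRing R] {F : Type*} [Field F]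
    (w : F) (e : ℕ) (he : IsUnit (e : R)) :
    ∃ g : F[X], g.Monic ∧ Irreducible g ∧ g ∣ X ^ e - C w ∧ IsUnit (g.natDegree : R) := by
  classical
  have he0 : e ≠ 0 := by
    rintro rfl
    rw [Nat.cast_zero] at he
    exact not_isUnit_zero he
  set P : F[X] := X ^ e - C w with hP
  have hPmonic : P.Monic := monic_X_pow_sub_C w he0
  have hP0 : P ≠ 0 := hPmonic.ne_zero
  have hdeg : P.natDegree = e := natDegree_X_pow_sub_C
  -- the irreducible factors
  set t := UniqueFactorizationMonoid.factors P with ht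
  have hprod : Associated t.prod P := UniqueFactorizationMonoid.factors_prod hP0
  have h0t : (0 : F[X]) ∉ t := fun h =>
    (UniqueFactorizationMonoid.irreducible_of_factor _ h).ne_zero rfl
  have hsum : (t.map natDegree).sum = e := by
    rw [← natDegree_multiset_prod _ h0t, ← hdeg]
    exact natDegree_eq_of_degree_eq (degree_eq_degree_of_associated hprod)
  -- some factor has unit degree
  have key : ∀ s : Multiset F[X], (∀ q ∈ s, ¬ IsUnit ((q.natDegree : ℕ) : R)) →
      ¬ IsUnit (((s.map natDegree).sum : ℕ) : R) := by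
    intro s
    induction s using Multiset.induction_on with
    | empty => intro _; simp
    | cons q s ih =>
      intro h
      rw [Multiset.map_cons, Multiset.sum_cons, Nat.cast_add]
      exact IsLocalRing.nonunits_add (h q (Multiset.mem_cons_self q s))
        (ih fun q' hq' => h q' (Multiset.mem_cons_of_mem hq'))
  have hex : ∃ q ∈ t, IsUnit ((q.natDegree : ℕ) : R) := by
    by_contra hcon
    exact key t (fun q hq hu => hcon ⟨q, hq, hu⟩) (hsum ▸ he)
  obtain ⟨q, hqt, hqu⟩ := hex
  have hqirr : Irreducible q := UniqueFactorizationMonoid.irreducible_of_factor q hqt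
  have hqdvd : q ∣ P := UniqueFactorizationMonoid.dvd_of_mem_factors hqt
  have hq0 : q ≠ 0 := hqirr.ne_zero
  have hlc : q.leadingCoeff ≠ 0 := leadingCoeff_ne_zero.mpr hq0
  have hunit : IsUnit (C q.leadingCoeff⁻¹ : F[X]) := isUnit_C.mpr (IsUnit.mk0 _ (inv_ne_zero hlc))
  have hassoc : Associated q (q * C q.leadingCoeff⁻¹) := ⟨hunit.unit, rfl⟩
  refine ⟨q * C q.leadingCoeff⁻¹, monic_mul_leadingCoeff_inv hq0, hassoc.irreducible hqirr,
    hassoc.symm.dvd.trans hqdvd, ?_⟩
  rw [natDegree_mul_C (inv_ne_zero hlc)]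
  exact hqu

end Factor

end Fermat.Agent.S18
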