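import Fermat.Agent.S18.SelfDualDiscr62

/-!
# S18 (helper62): the Kummer step for self-duality, as one theorem

`O ⊆ O'` finite (e.g. `R[X] ⊆ R[S]`, `X - c ↦ S ^ e`), `E ⊆ E'` their fraction fields,
`F / E` finite separable with integral closure `C`, `L = F(σ)` with `σ ^ e = z`, `D` the
integral closure in `L`.  If `C` is self-dual (hcodim shape) at the primes of `O` under `p'`
not dividing `z`, then `D` is self-dual over `O'` at the prime `p'` of `O'`, provided `p'`
divides neither `σ` nor `e`.  Only `p' ∼ σ` is left (Abhyankar).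
-/

set_option autoImplicit false
set_option linter.unusedSectionVars false

namespace Fermat.Agent.S18

open Polynomial

section KummerStep

variable {O : Type*} [CommRing O] [IsDomain O] [UniqueFactorizationMonoid O]
variable {E : Type*} [Field E] [Algebra O E] [IsFractionRing O E]
variable {F : Type*} [Field F] [Algebra E F] [Algebra O F] [IsScalarTower O E F]
  [FiniteDimensional E F] [Algebra.IsSeparable E F]
variable {C : Type*} [CommRing C] [Algebra O C] [Algebra C F] [IsScalarTower O C F]
  [IsIntegralClosure C O F]
variable {O' : Type*} [CommRing O'] [IsDomain O'] [IsIntegrallyClosed O'] [Algebra O O']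
  [Module.Finite O O'] [Module.IsTorsionFree O O']
variable {E' : Type*} [Field E'] [Algebra O' E'] [Algebra E E'] [Algebra O E']
  [IsScalarTower O E E'] [IsScalarTower O O' E']
variable {L : Type*} [Field L] [Algebra F L] [Algebra E L] [Algebra O L] [IsScalarTower E F L]
  [IsScalarTower O E L] [IsScalarTower O F L] [FiniteDimensional E L] [Algebra.IsSeparable E L]
  [Algebra E' L] [Algebra O' L] [IsScalarTower E E' L] [IsScalarTower O O' L]
variable {D : Type*} [CommRing D] [Algebra O D] [Algebra D L] [IsScalarTower O D L]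
  [IsIntegralClosure D O L]

/-- **Kummer step.** See the module docstring.  The hypothesis `hC` is only needed at the
primes `p` of `O` lying under `p'` (`p' ∣ p`) and not dividing `z`. -/
theorem sd62_kummer_step (e : ℕ) (z : O) (σ : O') (hσ : σ ^ e = algebraMap O O' z)
    (hgen : Algebra.adjoin F {algebraMap O' L σ} = ⊤)
    (p' : O') (hp' : Prime p') (hp'σ : ¬ p' ∣ σ) (hp'e : ¬ p' ∣ (e : O'))
    (hC : ∀ p : O, Prime p → p' ∣ algebraMap O O' p → ¬ p ∣ z → ∀ y : F,
      (∀ c : C, Algebra.trace E F (y * algebraMap C F c) ∈ (algebraMap O E).range) →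
      ∃ s : O, ¬ p ∣ s ∧ algebraMap O F s * y ∈ (algebraMap C F).range)
    (y : L)
    (hy : ∀ d : D, Algebra.trace E' L (y * algebraMap D L d) ∈ (algebraMap O' E').range) :
    ∃ s' : O', ¬ p' ∣ s' ∧ algebraMap O' L s' * y ∈ (algebraMap D L).range := by
  have hint : Algebra.IsIntegral O O' := Algebra.IsIntegral.of_finite O O'
  have hfd : FiniteDimensional E E' := FiniteDimensional.left E E' L
  have hfd' : FiniteDimensional E' L := FiniteDimensional.right E E' L
  obtain ⟨p, hp, hp'p, hpp⟩ := sd62_prime_under (O := O) p' hp'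
  -- `p` does not divide `e * z`
  have hpez : ¬ p ∣ (e : O) * z := by
    intro h
    have h1 : p' ∣ algebraMap O O' ((e : O) * z) := hp'p.trans (map_dvd _ h)
    rw [map_mul, map_natCast, ← hσ] at h1
    rcases hp'.dvd_or_dvd h1 with h2 | h2
    · exact hp'e h2
    · exact hp'σ (hp'.dvd_of_dvd_pow h2)
  have hpz : ¬ p ∣ z := fun h => hpez (h.mul_left _)
  have he : e ≠ 0 := by
    rintro rfl
    exact hpez (by simp)
  -- the root
  have hx : IsIntegral O (algebraMap O' L σ) :=
    (Algebra.IsIntegral.isIntegral (R := O) σ).algebraMap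
  have hxe : (algebraMap O' L σ) ^ e = algebraMap O L z := by
    rw [← map_pow, hσ, ← IsScalarTower.algebraMap_apply]
  have hG : aeval (algebraMap O' L σ) (X ^ e - Polynomial.C z : O[X]) = 0 := by
    rw [map_sub, map_pow, aeval_X, aeval_C, hxe, sub_self]
  have hsw : algebraMap O L ((e : O) * z)
      = aeval (algebraMap O' L σ) (derivative (X ^ e - Polynomial.C z : O[X])) * algebraMap O' L σ := by
    rw [derivative_sub, derivative_C, sub_zero, derivative_X_pow, map_mul, map_mul, map_pow,
      aeval_X, aeval_C, map_natCast, ← hxe, mul_assoc, ← pow_succ,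
      Nat.sub_add_cancel (Nat.one_le_iff_ne_zero.mpr he)]
  -- tower step over `O`, then change of base ring
  refine sd62_restrict_base (E := E) (E' := E') (D := D) p p' hpp ?_ y hy
  intro y' hy'
  exact sd62_tower (C := C) (D := D) p hp (hC p hp hp'p hpz) hx hgen (X ^ e - Polynomial.C z) hG
    ((e : O) * z) hpez hx hsw y' hy'

end KummerStep

end Fermat.Agent.S18
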