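import Mathlib

/-!
# S18, generic row (T): normality through a tame Kummer cover, and gluing (helper51)

Pure commutative algebra, no fields needed.  For a monic `f = X^r + c₁ X^(r-1) + ⋯ + c_r`,
`eval x (f.scaleRoots d) = x^r + c₁ d x^(r-1) + ⋯ + c_r d^r`, so "`x / d` is integral" is
expressed by `eval x (f.scaleRoots d) = 0`.

* `kin_mem_pow` : `σ` regular and `Q ⧸ σ` reduced ⟹ `Q` is integrally closed in `Q[1/σ]`.
* `kin_descend` : descent of this property along `B → B'` with a `B`-linear retraction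
  (the normalised trace), where `σ ^ e = z`, modulo `π`.
* `kin_glue` : from prime elements of the base UFD to all non-zero elements.
* `kin_isIntegrallyClosed` : the resulting `IsIntegrallyClosed`.

All names are prefixed `kin_`.
-/

set_option autoImplicit false

open Polynomial

namespace Fermat.Agent.S18

section Abstract

variable {Q : Type*} [CommRing Q]

/-- For monic `f` of degree `n`: `eval x (f.scaleRoots s) = x ^ n + s * t`. -/
theorem kin_eval_scaleRoots (f : Q[X]) (hf : f.Monic) (x s : Q) :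
    ∃ t : Q, eval x (f.scaleRoots s) = x ^ f.natDegree + s * t := by
  refine ⟨∑ i ∈ Finset.range f.natDegree, f.coeff i * s ^ (f.natDegree - i - 1) * x ^ i, ?_⟩
  rw [eval_eq_sum_range, natDegree_scaleRoots, Finset.sum_range_succ, coeff_scaleRoots,
    Nat.sub_self, pow_zero, mul_one, coeff_natDegree, hf.leadingCoeff, one_mul, add_comm,
    Finset.mul_sum]
  congr 1
  refine Finset.sum_congr rfl fun i hi => ?_
  have hi' : i < f.natDegree := Finset.mem_range.mp hi
  have h1 : f.natDegree - i = (f.natDegree - i - 1) + 1 := by omega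
  rw [coeff_scaleRoots]
  conv_lhs => rw [h1, pow_succ]
  ring

/-- If `σ` is regular and `Q ⧸ σ` is reduced, then `Q` is integrally closed in `Q[1/σ]`:
if `x / σ ^ j` satisfies the monic equation `f`, then `σ ^ j ∣ x`. -/
theorem kin_mem_pow {σ : Q} (hreg : ∀ q : Q, σ * q = 0 → q = 0)
    (hred : ∀ (q : Q) (r : ℕ), (∃ t, q ^ r = σ * t) → ∃ t, q = σ * t)
    (f : Q[X]) (hf : f.Monic) (j : ℕ) :
    ∀ x : Q, eval x (f.scaleRoots (σ ^ j)) = 0 → ∃ x' : Q, x = σ ^ j * x' := by
  induction j with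
  | zero => intro x _; exact ⟨x, by rw [pow_zero, one_mul]⟩
  | succ j ih =>
    intro x hx
    rw [pow_succ, scaleRoots_mul] at hx
    have hg : (f.scaleRoots (σ ^ j)).Monic := (monic_scaleRoots_iff _).mpr hf
    obtain ⟨t, ht⟩ := kin_eval_scaleRoots _ hg x σ
    rw [hx] at ht
    obtain ⟨x₁, rfl⟩ := hred x _ ⟨-t, by linear_combination -ht⟩
    have h2 : eval (σ * x₁) ((f.scaleRoots (σ ^ j)).scaleRoots σ)
        = σ ^ (f.scaleRoots (σ ^ j)).natDegree * eval x₁ (f.scaleRoots (σ ^ j)) := by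
      have := scaleRoots_eval₂_mul (p := f.scaleRoots (σ ^ j)) (RingHom.id Q) x₁ σ
      simpa [eval₂_id] using this
    rw [hx] at h2
    have hregpow : ∀ (k : ℕ) (q : Q), σ ^ k * q = 0 → q = 0 := by
      intro k
      induction k with
      | zero => intro q hq; simpa using hq
      | succ k ihk =>
        intro q hq
        rw [pow_succ, mul_assoc] at hq
        exact hreg q (ihk _ hq)
    obtain ⟨x', hx'⟩ := ih x₁ (hregpow _ _ h2.symm)
    exact ⟨x', by rw [hx', pow_succ]; ring⟩

end Abstract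

section Descend

variable {B B' : Type*} [CommRing B] [CommRing B']

/-- **Tame descent.** `φ : B → B'` with a `B`-linear retraction `T` (`T (φ b * b') = b * T b'`,
`T 1 = 1`; e.g. `[L':L]⁻¹ • trace`), `σ ^ e = φ z`.  If `σ` is regular on `B' ⧸ π` and
`B' ⧸ (π, σ)` is reduced, then `B ⧸ π` is integrally closed "at `z`": if
`x ^ r + c₁ z x ^ (r-1) + ⋯ + c_r z ^ r ∈ π B` then `x ∈ π B + z B`. -/
theorem kin_descend (φ : B →+* B') (T : B' →+ B) (hT : ∀ (b : B) (b' : B'), T (φ b * b') = b * T b')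
    (hT1 : T 1 = 1) {π z : B} {σ : B'} {e : ℕ} (hσ : σ ^ e = φ z)
    (hreg : ∀ q u : B', σ * q = φ π * u → ∃ u', q = φ π * u')
    (hred : ∀ (q : B') (r : ℕ) (u v : B'), q ^ r = φ π * u + σ * v →
      ∃ u' v', q = φ π * u' + σ * v')
    (f : B[X]) (hf : f.Monic) (x w : B) (hx : eval x (f.scaleRoots z) = π * w) :
    ∃ x₁ x₂ : B, x = π * x₁ + z * x₂ := by
  have hTφ : ∀ b : B, T (φ b) = b := fun b => by
    have := hT b 1
    rwa [mul_one, hT1, mul_one] at this
  let I : Ideal B' := Ideal.span {φ π}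
  let ψ : B →+* B' ⧸ I := (Ideal.Quotient.mk I).comp φ
  have hmk0 : ∀ q : B', Ideal.Quotient.mk I q = 0 ↔ ∃ u, q = φ π * u := by
    intro q
    rw [Ideal.Quotient.eq_zero_iff_mem, Ideal.mem_span_singleton]
    rfl
  have hregQ : ∀ q : B' ⧸ I, (Ideal.Quotient.mk I σ) * q = 0 → q = 0 := by
    intro q hq
    obtain ⟨q, rfl⟩ := Ideal.Quotient.mk_surjective q
    rw [← map_mul, hmk0] at hq
    obtain ⟨u, hu⟩ := hq
    exact (hmk0 q).mpr (hreg q u hu)
  have hredQ : ∀ (q : B' ⧸ I) (r : ℕ), (∃ t, q ^ r = (Ideal.Quotient.mk I σ) * t) →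
      ∃ t, q = (Ideal.Quotient.mk I σ) * t := by
    rintro q r ⟨t, ht⟩
    obtain ⟨q, rfl⟩ := Ideal.Quotient.mk_surjective q
    obtain ⟨t, rfl⟩ := Ideal.Quotient.mk_surjective t
    rw [← map_pow, ← map_mul, ← sub_eq_zero, ← map_sub, hmk0] at ht
    obtain ⟨u, hu⟩ := ht
    obtain ⟨u', v', huv⟩ := hred q r u t (by linear_combination hu)
    refine ⟨Ideal.Quotient.mk I v', ?_⟩
    rw [← map_mul, ← sub_eq_zero, ← map_sub, hmk0]
    exact ⟨u', by linear_combination huv⟩
  have hfQ : (f.map ψ).Monic := hf.map ψ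
  have hscale : (f.map ψ).scaleRoots ((Ideal.Quotient.mk I σ) ^ e) = (f.scaleRoots z).map ψ := by
    rcases subsingleton_or_nontrivial (B' ⧸ I) with hsub | hnt
    · exact Subsingleton.elim _ _
    · rw [map_scaleRoots _ _ _ (by rw [hf.leadingCoeff, map_one]; exact one_ne_zero),
        ← map_pow, hσ]
      rfl
  have heval : eval (ψ x) ((f.map ψ).scaleRoots ((Ideal.Quotient.mk I σ) ^ e)) = 0 := by
    rw [hscale, eval_map, eval₂_at_apply, hx]
    change Ideal.Quotient.mk I (φ (π * w)) = 0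
    rw [hmk0]
    exact ⟨φ w, map_mul φ π w⟩
  obtain ⟨x', hx'⟩ := kin_mem_pow hregQ hredQ (f.map ψ) hfQ e (ψ x) heval
  obtain ⟨q, rfl⟩ := Ideal.Quotient.mk_surjective x'
  have h1 : Ideal.Quotient.mk I (φ x - φ z * q) = 0 := by
    rw [map_sub, map_mul, ← hσ, map_pow, sub_eq_zero]
    exact hx'
  obtain ⟨u, hu⟩ := (hmk0 _).mp h1
  refine ⟨T u, T q, ?_⟩
  have h2 : φ x = φ π * u + φ z * q := by linear_combination hu
  have h3 := congrArg T h2
  rwa [hTφ, map_add, hT, hT] at h3

end Descend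

section Glue

variable {P Q : Type*} [CommRing P] [IsDomain P] [UniqueFactorizationMonoid P]
  [CommRing Q] [Algebra P Q]

/-- **Gluing.** `Q` torsion-free over the UFD `P`, and integrally closed "at every prime element
`z` of `P`".  Then for every `d ≠ 0` of `P`: if `x / d` satisfies a monic equation over `Q`, then
`d ∣ x` in `Q`. -/
theorem kin_glue (htf : ∀ (d : P) (q : Q), d ≠ 0 → algebraMap P Q d * q = 0 → q = 0)
    (hprime : ∀ z : P, Prime z → ∀ (f : Q[X]) (_ : f.Monic) (x : Q),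
      eval x (f.scaleRoots (algebraMap P Q z)) = 0 → ∃ x', x = algebraMap P Q z * x')
    (d : P) (hd : d ≠ 0) (f : Q[X]) (hf : f.Monic) (x : Q)
    (hx : eval x (f.scaleRoots (algebraMap P Q d)) = 0) : ∃ x', x = algebraMap P Q d * x' := by
  induction d using UniqueFactorizationMonoid.induction_on_prime generalizing f x with
  | h₁ => exact absurd rfl hd
  | h₂ u hu =>
    obtain ⟨u, rfl⟩ := hu
    refine ⟨algebraMap P Q (↑u⁻¹ : P) * x, ?_⟩
    rw [← mul_assoc, ← map_mul, Units.mul_inv, map_one, one_mul]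
  | h₃ a p ha hp ih =>
    rw [mul_comm p a, map_mul, scaleRoots_mul] at hx
    have hg : (f.scaleRoots (algebraMap P Q a)).Monic := (monic_scaleRoots_iff _).mpr hf
    obtain ⟨x₁, rfl⟩ := hprime p hp _ hg x hx
    have h2 : eval (algebraMap P Q p * x₁)
        ((f.scaleRoots (algebraMap P Q a)).scaleRoots (algebraMap P Q p))
        = algebraMap P Q p ^ (f.scaleRoots (algebraMap P Q a)).natDegree *
          eval x₁ (f.scaleRoots (algebraMap P Q a)) := by
      have := scaleRoots_eval₂_mul (p := f.scaleRoots (algebraMap P Q a)) (RingHom.id Q) x₁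
        (algebraMap P Q p)
      simpa [eval₂_id] using this
    rw [hx, ← map_pow] at h2
    have h3 := htf _ _ (pow_ne_zero _ hp.ne_zero) h2.symm
    obtain ⟨x', rfl⟩ := ih ha f hf x₁ h3
    exact ⟨x', by rw [map_mul]; ring⟩

/-- The resulting integral closedness: `Q` a domain, integral and torsion-free over the UFD `P`,
with the conclusion of `kin_glue`. -/
theorem kin_isIntegrallyClosed [IsDomain Q] [Algebra.IsIntegral P Q]
    (hinj : Function.Injective (algebraMap P Q))
    (hglue : ∀ (d : P), d ≠ 0 → ∀ (f : Q[X]) (_ : f.Monic) (x : Q),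
      eval x (f.scaleRoots (algebraMap P Q d)) = 0 → ∃ x', x = algebraMap P Q d * x') :
    IsIntegrallyClosed Q := by
  rw [isIntegrallyClosed_iff (FractionRing Q)]
  intro y hy
  set ι := algebraMap Q (FractionRing Q) with hι
  have hιinj : Function.Injective ι := IsFractionRing.injective Q (FractionRing Q)
  obtain ⟨x, q, hq, rfl⟩ := IsFractionRing.div_surjective Q y
  have hq0 : q ≠ 0 := nonZeroDivisors.ne_zero hq
  obtain ⟨d, hd0, q', hdq⟩ := IsAlgebraic.exists_nonzero_dvd (R := P)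
    (Algebra.IsIntegral.isIntegral q).isAlgebraic hq
  -- `x / q = (x * q') / d`
  have hdQ : algebraMap P Q d ≠ 0 := fun h0 => hd0 (hinj (by rw [h0, map_zero]))
  have hιq : ι q ≠ 0 := fun h0 => hq0 (hιinj (by rw [h0, map_zero]))
  have hιd : ι (algebraMap P Q d) ≠ 0 := fun h0 => hdQ (hιinj (by rw [h0, map_zero]))
  have hy' : ι (algebraMap P Q d) * (ι x / ι q) = ι (x * q') := by
    rw [hdq, map_mul, map_mul]
    field_simp
  obtain ⟨f, hf, hfy⟩ := hy
  have h1 : eval₂ ι (ι (algebraMap P Q d) * (ι x / ι q)) (f.scaleRoots (algebraMap P Q d)) = 0 := by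
    rw [scaleRoots_eval₂_mul, hfy, mul_zero]
  rw [hy', eval₂_at_apply] at h1
  have h2 : eval (x * q') (f.scaleRoots (algebraMap P Q d)) = 0 := hιinj (by rw [h1, map_zero])
  obtain ⟨x', hx'⟩ := hglue d hd0 f hf _ h2
  refine ⟨x', ?_⟩
  have h3 : ι (algebraMap P Q d) * ι x' = ι (algebraMap P Q d) * (ι x / ι q) := by
    rw [hy', ← map_mul, hx']
  exact mul_left_cancel₀ hιd h3

end Glue

end Fermat.Agent.S18
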