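import Fermat.Agent.S18.Purity51
import Fermat.Agent.S18.KummerInv51

/-!
# S18, generic rows (E) + (T), assembled: normality of the fibre `C ⧸ π C` (helper51)

`O` a noetherian UFD, `π` a prime element with `O ⧸ π` a PID, `E = Frac O`, `L / E` finite
separable, `C = integralClosure O L`.

* `PurNormalAt O L π z` : elementary form of "`C ⧸ π C` is integrally closed at `z`".
* `pur_normalAt_of_selfDual` : holds at `z` if `C` is trace-self-dual at every prime element of
  `O` in the prime ideal `(π, z)` ("unramified point").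
* `kin_normalAt_of_tame`, `kin_normalAt_of_tame'` : holds at `z` if it is an unramified point
  after adjoining `σ` with `σ ^ e = z`, `[L' : L]` invertible ("tame point").
* `pur_isIntegrallyClosed_fibre` : if it holds at (a lift of an associate of) every prime of
  `O ⧸ π`, `C` is self-dual at `π` and `π` is prime in `C`, then `C ⧸ π C` is integrally closed.
-/

set_option autoImplicit false

open Polynomial

namespace Fermat.Agent.S18

/-- Elementary form of "`C ⧸ π C` is integrally closed at `z`", `C = integralClosure O L`: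
if `x ^ r + c₁ z x ^ (r-1) + ⋯ + c_r z ^ r ∈ π C`, then `x ∈ π C + z C`. -/
def PurNormalAt (O L : Type*) [CommRing O] [Field L] [Algebra O L] (π z : O) : Prop :=
  ∀ (f : (integralClosure O L)[X]), f.Monic → ∀ x w : integralClosure O L,
    eval x (f.scaleRoots (algebraMap O (integralClosure O L) z))
      = algebraMap O (integralClosure O L) π * w →
    ∃ x₁ x₂ : integralClosure O L,
      x = algebraMap O (integralClosure O L) π * x₁ + algebraMap O (integralClosure O L) z * x₂

section Unramified

variable {O E L : Type*} [CommRing O] [IsDomain O] [UniqueFactorizationMonoid O]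
  [IsNoetherianRing O]
  [Field E] [Algebra O E] [IsFractionRing O E]
  [Field L] [Algebra E L] [Algebra O L] [IsScalarTower O E L]
  [FiniteDimensional E L] [Algebra.IsSeparable E L]

/-- Unramified points are normal points of the fibre. -/
theorem pur_normalAt_of_selfDual {π z : O} (hπ : Prime π)
    [IsPrincipalIdealRing (O ⧸ Ideal.span {π})]
    (hm : (Ideal.span {π, z}).IsPrime)
    (hSD : ∀ p : O, Prime p → p ∈ Ideal.span {π, z} → PurSelfDualAt O E L p) :
    PurNormalAt O L π z := by
  intro f hf x w hx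
  obtain ⟨t, ht⟩ := kin_eval_scaleRoots f hf x (algebraMap O (integralClosure O L) z)
  rw [hx] at ht
  have h1 : (x : L) ^ f.natDegree
      = algebraMap O L π * (w : L) + algebraMap O L z * ((-t : integralClosure O L) : L) := by
    have h2 : x ^ f.natDegree = algebraMap O (integralClosure O L) π * w
        + algebraMap O (integralClosure O L) z * (-t) := by linear_combination -ht
    have h3 := congrArg (Subtype.val) h2
    push_cast at h3
    exact h3
  obtain ⟨d₁, d₂, hd₁, hd₂, hxd⟩ :=
    pur_fibre_reduced (E := E) hπ hm hSD x.2 w.2 (-t).2 h1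
  exact ⟨⟨d₁, hd₁⟩, ⟨d₂, hd₂⟩, Subtype.ext (by push_cast; exact hxd)⟩

end Unramified

section Tame

variable {O L L' : Type*} [CommRing O] [Field L] [Field L'] [Algebra O L] [Algebra O L']
  [Algebra L L'] [IsScalarTower O L L'] [FiniteDimensional L L']

/-- Tame points are normal points of the fibre (hypotheses on the integral closure of `O` in
the Kummer cover `L'`). -/
theorem kin_normalAt_of_tame {π z : O} {σ : L'} {e : ℕ} (he : 0 < e)
    (hσ : σ ^ e = algebraMap O L' z)
    (u : O) (hu : algebraMap O L u * (Module.finrank L L' : L) = 1)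
    (hreg : ∀ q v : L', IsIntegral O q → IsIntegral O v → σ * q = algebraMap O L' π * v →
      ∃ v', IsIntegral O v' ∧ q = algebraMap O L' π * v')
    (hred : ∀ (q : L') (r : ℕ) (v₁ v₂ : L'), IsIntegral O q → IsIntegral O v₁ →
      IsIntegral O v₂ → q ^ r = algebraMap O L' π * v₁ + σ * v₂ →
      ∃ v₁' v₂', IsIntegral O v₁' ∧ IsIntegral O v₂' ∧ q = algebraMap O L' π * v₁' + σ * v₂') :
    PurNormalAt O L π z := by
  intro f hf x w hx
  have hσint : IsIntegral O σ := IsIntegral.of_pow he (hσ ▸ isIntegral_algebraMap)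
  -- the inclusion `C → C'`
  let φ : integralClosure O L →+* integralClosure O L' :=
    { toFun := fun c => ⟨algebraMap L L' (c : L), c.2.algebraMap⟩
      map_one' := Subtype.ext (by simp)
      map_mul' := fun a b => Subtype.ext (by simp)
      map_zero' := Subtype.ext (by simp)
      map_add' := fun a b => Subtype.ext (by simp) }
  have hφ : ∀ c : integralClosure O L, ((φ c : integralClosure O L') : L')
      = algebraMap L L' (c : L) := fun c => rfl
  have hφalg : ∀ r : O, ((φ (algebraMap O (integralClosure O L) r) : integralClosure O L') : L')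
      = algebraMap O L' r := by
    intro r
    rw [hφ, Subalgebra.coe_algebraMap, ← IsScalarTower.algebraMap_apply]
  -- the normalised trace `C' → C`
  let T : integralClosure O L' →+ integralClosure O L :=
    { toFun := fun c' => ⟨algebraMap O L u * Algebra.trace L L' (c' : L'),
        isIntegral_algebraMap.mul (Algebra.isIntegral_trace (R := O) (L := L) c'.2)⟩
      map_zero' := Subtype.ext (by simp)
      map_add' := fun a b => Subtype.ext (by simp [mul_add]) }
  have hT : ∀ (b : integralClosure O L) (b' : integralClosure O L'),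
      T (φ b * b') = b * T b' := by
    intro b b'
    apply Subtype.ext
    change algebraMap O L u * Algebra.trace L L' (algebraMap L L' (b : L) * (b' : L'))
      = (b : L) * (algebraMap O L u * Algebra.trace L L' (b' : L'))
    rw [← Algebra.smul_def (b : L) (b' : L'), map_smul, smul_eq_mul]
    ring
  have hT1 : T 1 = 1 := by
    apply Subtype.ext
    change algebraMap O L u * Algebra.trace L L' ((1 : L')) = 1
    rw [← map_one (algebraMap L L'), Algebra.trace_algebraMap, nsmul_eq_mul, mul_one, hu]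
  let σ' : integralClosure O L' := ⟨σ, hσint⟩
  have hσ' : σ' ^ e = φ (algebraMap O (integralClosure O L) z) := by
    apply Subtype.ext
    rw [hφalg]
    push_cast
    exact hσ
  refine kin_descend φ T hT hT1 hσ' ?_ ?_ f hf x w hx
  · intro q v hqv
    have h1 := congrArg (Subtype.val) hqv
    push_cast at h1
    rw [hφalg] at h1
    obtain ⟨v', hv', hqv'⟩ := hreg q v q.2 v.2 h1
    exact ⟨⟨v', hv'⟩, Subtype.ext (by push_cast; rw [hφalg]; exact hqv')⟩
  · intro q r v₁ v₂ hq
    have h1 := congrArg (Subtype.val) hq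
    push_cast at h1
    rw [hφalg] at h1
    obtain ⟨v₁', v₂', hv₁', hv₂', hq'⟩ := hred q r v₁ v₂ q.2 v₁.2 v₂.2 h1
    exact ⟨⟨v₁', hv₁'⟩, ⟨v₂', hv₂'⟩, Subtype.ext (by push_cast; rw [hφalg]; exact hq')⟩

end Tame

section Tame'

variable {O L O' E' L' : Type*} [CommRing O] [Field L] [Algebra O L]
  [CommRing O'] [IsDomain O'] [UniqueFactorizationMonoid O'] [IsNoetherianRing O']
  [Field E'] [Algebra O' E'] [IsFractionRing O' E']
  [Field L'] [Algebra E' L'] [Algebra O' L'] [IsScalarTower O' E' L']
  [FiniteDimensional E' L'] [Algebra.IsSeparable E' L']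
  [Algebra O O'] [Algebra.IsIntegral O O'] [Algebra O L'] [IsScalarTower O O' L']
  [Algebra L L'] [IsScalarTower O L L'] [FiniteDimensional L L']

/-- Tame points are normal points of the fibre: version where the Kummer cover `L'` is
unramified (trace-self-dual) over a second UFD `O' ∋ σ`, integral over `O`, at the prime ideal
`(π, σ)`, with `σ ^ e = z` and `[L' : L]` invertible in `O`. -/
theorem kin_normalAt_of_tame' {π z : O} {σ : O'} {e : ℕ} (he : 0 < e)
    (hσ : σ ^ e = algebraMap O O' z)
    (u : O) (hu : algebraMap O L u * (Module.finrank L L' : L) = 1)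
    (hπ' : Prime (algebraMap O O' π))
    [IsPrincipalIdealRing (O' ⧸ Ideal.span {algebraMap O O' π})]
    (hπσ : ¬ algebraMap O O' π ∣ σ)
    (hm : (Ideal.span {algebraMap O O' π, σ}).IsPrime)
    (hSD : ∀ p : O', Prime p → p ∈ Ideal.span {algebraMap O O' π, σ} →
      PurSelfDualAt O' E' L' p) :
    PurNormalAt O L π z := by
  have hint : ∀ q : L', IsIntegral O q → IsIntegral O' q := fun q hq => hq.tower_top
  have hint' : ∀ q : L', IsIntegral O' q → IsIntegral O q := fun q hq => isIntegral_trans q hq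
  have hπL : algebraMap O L' π = algebraMap O' L' (algebraMap O O' π) :=
    IsScalarTower.algebraMap_apply O O' L' π
  have hπm : algebraMap O O' π ∈ Ideal.span {algebraMap O O' π, σ} :=
    Ideal.subset_span (by simp)
  refine kin_normalAt_of_tame (σ := algebraMap O' L' σ) he ?_ u hu ?_ ?_
  · rw [← map_pow, hσ, ← IsScalarTower.algebraMap_apply]
  · intro q v hq hv hqv
    rw [hπL] at hqv
    obtain ⟨m'', hm'', hqm⟩ := pur_torsionFree (E := E') hπ' (hSD _ hπ' hπm) hπσ (hint q hq)
      (hint v hv) hqv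
    exact ⟨m'', hint' _ hm'', by rw [hπL]; exact hqm⟩
  · intro q r v₁ v₂ hq hv₁ hv₂ hqr
    rw [hπL] at hqr
    obtain ⟨d₁, d₂, hd₁, hd₂, hqd⟩ := pur_fibre_reduced (E := E') hπ' hm hSD (hint q hq)
      (hint v₁ hv₁) (hint v₂ hv₂) hqr
    exact ⟨d₁, d₂, hint' _ hd₁, hint' _ hd₂, by rw [hπL]; exact hqd⟩

end Tame'

section Master

variable {O E L : Type*} [CommRing O] [IsDomain O] [UniqueFactorizationMonoid O]
  [IsNoetherianRing O]
  [Field E] [Algebra O E] [IsFractionRing O E]
  [Field L] [Algebra E L] [Algebra O L] [IsScalarTower O E L]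
  [FiniteDimensional E L] [Algebra.IsSeparable E L]

/-- **Normality of the fibre.** If `C = integralClosure O L` is trace-self-dual at the prime
`π` (with `O ⧸ π` a PID), `π` is prime in `C`, and every prime of `O ⧸ π` has an associate with
a lift `z` such that `PurNormalAt O L π z`, then `C ⧸ π C` is integrally closed. -/
theorem pur_isIntegrallyClosed_fibre {π : O} (hπ : Prime π)
    [IsPrincipalIdealRing (O ⧸ Ideal.span {π})]
    (hSD : PurSelfDualAt O E L π)
    (hdom : (Ideal.span {algebraMap O (integralClosure O L) π}).IsPrime)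
    (h : ∀ ζ : O ⧸ Ideal.span {π}, Prime ζ →
      ∃ z : O, Associated (Ideal.Quotient.mk (Ideal.span {π}) z) ζ ∧ PurNormalAt O L π z) :
    IsIntegrallyClosed
      (integralClosure O L ⧸ Ideal.span {algebraMap O (integralClosure O L) π}) := by
  classical
  let C := integralClosure O L
  let I : Ideal O := Ideal.span {π}
  let J : Ideal C := Ideal.span {algebraMap O C π}
  haveI hIprime : I.IsPrime := (Ideal.span_singleton_prime hπ.ne_zero).mpr hπ
  haveI : J.IsPrime := hdom
  haveI hQdom : IsDomain (C ⧸ J) := Ideal.Quotient.isDomain J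
  haveI hPdom : IsDomain (O ⧸ I) := Ideal.Quotient.isDomain I
  have hIJ : I ≤ J.comap (algebraMap O C) := by
    rw [Ideal.span_le]
    rintro _ rfl
    exact Ideal.subset_span rfl
  let ψ : O ⧸ I →+* C ⧸ J := Ideal.quotientMap J (algebraMap O C) hIJ
  letI : Algebra (O ⧸ I) (C ⧸ J) := ψ.toAlgebra
  have hψ : ∀ o : O, algebraMap (O ⧸ I) (C ⧸ J) (Ideal.Quotient.mk I o)
      = Ideal.Quotient.mk J (algebraMap O C o) := fun o => Ideal.quotientMap_mk
  have hJ0 : ∀ c : C, Ideal.Quotient.mk J c = 0 ↔ ∃ w, c = algebraMap O C π * w := by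
    intro c
    rw [Ideal.Quotient.eq_zero_iff_mem, Ideal.mem_span_singleton]
    rfl
  have hI0 : ∀ o : O, Ideal.Quotient.mk I o = 0 ↔ π ∣ o := by
    intro o
    rw [Ideal.Quotient.eq_zero_iff_mem, Ideal.mem_span_singleton]
  -- torsion-freeness
  have htf : ∀ (d : O ⧸ I) (q : C ⧸ J), d ≠ 0 → algebraMap (O ⧸ I) (C ⧸ J) d * q = 0 → q = 0 := by
    intro d q hd hdq
    obtain ⟨d, rfl⟩ := Ideal.Quotient.mk_surjective d
    obtain ⟨c, rfl⟩ := Ideal.Quotient.mk_surjective q
    rw [hψ, ← map_mul, hJ0] at hdq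
    obtain ⟨w, hw⟩ := hdq
    have hd' : ¬ π ∣ d := fun hdvd => hd ((hI0 d).mpr hdvd)
    have h1 := congrArg (Subtype.val) hw
    push_cast at h1
    obtain ⟨m'', hm'', hcm⟩ := pur_torsionFree (E := E) hπ hSD hd' c.2 w.2 h1
    exact (hJ0 c).mpr ⟨⟨m'', hm''⟩, Subtype.ext (by push_cast; exact hcm)⟩
  have hinj : Function.Injective (algebraMap (O ⧸ I) (C ⧸ J)) := by
    rw [injective_iff_map_eq_zero]
    intro d hd
    by_contra hd0
    have h1 := htf d 1 hd0 (by rw [mul_one, hd])
    have h2 : (1 : C) ∈ J := Ideal.Quotient.eq_zero_iff_mem.mp (by rw [map_one]; exact h1)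
    exact hdom.ne_top ((Ideal.eq_top_iff_one J).mpr h2)
  -- integrality
  haveI : Algebra.IsIntegral (O ⧸ I) (C ⧸ J) := by
    refine ⟨fun q => ?_⟩
    obtain ⟨c, rfl⟩ := Ideal.Quotient.mk_surjective q
    obtain ⟨g, hg, hgc⟩ := (integralClosure.isIntegral c : IsIntegral O c)
    refine ⟨g.map (Ideal.Quotient.mk I), hg.map _, ?_⟩
    have hcomp : (algebraMap (O ⧸ I) (C ⧸ J)).comp (Ideal.Quotient.mk I)
        = (Ideal.Quotient.mk J).comp (algebraMap O C) := by
      ext o
      exact hψ o
    rw [eval₂_map, hcomp, ← hom_eval₂, hgc, map_zero]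
  -- integral closedness at primes
  have hprime : ∀ ζ : O ⧸ I, Prime ζ → ∀ (f : (C ⧸ J)[X]) (_ : f.Monic) (x : C ⧸ J),
      eval x (f.scaleRoots (algebraMap (O ⧸ I) (C ⧸ J) ζ)) = 0 →
      ∃ x', x = algebraMap (O ⧸ I) (C ⧸ J) ζ * x' := by
    intro ζ hζ f hf x hx
    obtain ⟨z, ⟨v, hv⟩, hN⟩ := h ζ hζ
    -- `ζ = mk z * v`
    rw [← hv, mul_comm, map_mul, scaleRoots_mul] at hx
    have hg : (f.scaleRoots (algebraMap (O ⧸ I) (C ⧸ J) (v : O ⧸ I))).Monic :=
      (monic_scaleRoots_iff _).mpr hf
    obtain ⟨g, hgmap, -, hgmonic⟩ := lifts_and_natDegree_eq_and_monic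
      ((mem_lifts _).mpr (map_surjective (Ideal.Quotient.mk J) Ideal.Quotient.mk_surjective _)) hg
    obtain ⟨x, rfl⟩ := Ideal.Quotient.mk_surjective x
    have hscale : (g.scaleRoots (algebraMap O C z)).map (Ideal.Quotient.mk J)
        = (f.scaleRoots (algebraMap (O ⧸ I) (C ⧸ J) (v : O ⧸ I))).scaleRoots
          (algebraMap (O ⧸ I) (C ⧸ J) (Ideal.Quotient.mk I z)) := by
      rw [map_scaleRoots _ _ _ (by rw [hgmonic.leadingCoeff, map_one]; exact one_ne_zero),
        hgmap, hψ]
    rw [← hscale, eval_map, eval₂_at_apply, hJ0] at hx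
    obtain ⟨w, hw⟩ := hx
    obtain ⟨x₁, x₂, hx12⟩ := hN g hgmonic x w hw
    refine ⟨algebraMap (O ⧸ I) (C ⧸ J) ((v⁻¹ : (O ⧸ I)ˣ) : O ⧸ I) * Ideal.Quotient.mk J x₂, ?_⟩
    have h1 : Ideal.Quotient.mk J x = Ideal.Quotient.mk J (algebraMap O C z) *
        Ideal.Quotient.mk J x₂ := by
      rw [hx12, map_add, map_mul, map_mul, (hJ0 (algebraMap O C π)).mpr ⟨1, (mul_one _).symm⟩,
        zero_mul, zero_add]
    rw [h1, ← hψ, ← hv, ← mul_assoc, ← map_mul, mul_assoc, Units.mul_inv, mul_one]
  exact kin_isIntegrallyClosed hinj (fun d hd f hf x hx => kin_glue htf hprime d hd f hf x hx)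

end Master

end Fermat.Agent.S18
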