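/-
S18 / B5-ζ (helper39): per-chart assembly of the smoothness argument on top of the generic chain
`NormalFibre51` (helper51), the Kummer step `KummerStep62` (helper62), Abhyankar in hcodim shape
`AbhyankarHcodim27` (helper27) and the concrete Kummer layer `KummerLayer39`.

Base chart: `R` a DVR of characteristic zero with uniformiser `π`, `O = R[X]`, `E = Frac O`,
`F / E` finite separable, `K0 = Frac R ⊆ F`.

* `ca39_normalAt_of_tame` : the tame point `(π, X - a)`:  if the integral closure of `R[X]` in
  `F` is trace-self-dual at every prime element through `(π, X - a)` other than `X - a`, and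
  `F` is tamely ramified over the line at `X = a` with indices dividing `e` (a unit of `R`),
  then `PurNormalAt R[X] F (C π) (X - C a)`.
* `ca39_isIntegrallyClosed_fibre` : the chart: two tame sections `X = 0`, `X = c`, self-duality
  elsewhere ⟹ `integralClosure R[X] F ⧸ (π)` is integrally closed.
-/
import Fermat.Agent.S18.KummerLayer39
import Fermat.Agent.S18.NormalFibre51
import Fermat.Agent.S18.Bridge51
import Fermat.Agent.S18.KummerStep62
import Fermat.Agent.S18.AbhyankarHcodim27

set_option autoImplicit false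
set_option linter.unusedSectionVars false
set_option linter.unusedVariables false
set_option linter.style.haveILetI false

open Polynomial AlgebraicCurve

universe u

namespace Fermat.Agent.S18

section Conversions

variable {O E L : Type*} [CommRing O] [IsDomain O] [UniqueFactorizationMonoid O]
  [Field E] [Algebra O E] [IsFractionRing O E]
  [Field L] [Algebra E L] [Algebra O L] [IsScalarTower O E L]

/-- `PurSelfDualAt` only depends on the ideal generated by the prime element. -/
theorem ca39_selfDualAt_of_associated {p q : O} (h : Associated p q)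
    (hp : PurSelfDualAt O E L p) : PurSelfDualAt O E L q := by
  intro y hy
  obtain ⟨s, hs, hint⟩ := hp y (fun c hc => by
    obtain ⟨a, s, hs, has⟩ := hy c hc
    exact ⟨a, s, fun hps => hs (h.dvd_iff_dvd_left.mp hps), has⟩)
  exact ⟨s, fun hqs => hs (h.dvd_iff_dvd_left.mpr hqs), hint⟩

/-- `PurSelfDualAt` implies the `hcodim` shape, for any model `C` of the integral closure. -/
theorem ca39_hcodim_of_selfDualAt {C : Type*} [CommRing C] [Algebra O C] [Algebra C L]
    [IsScalarTower O C L] [IsIntegralClosure C O L] {p : O} (hp : Prime p)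
    (h : PurSelfDualAt O E L p) :
    ∀ y : L, (∀ c : C, Algebra.trace E L (y * algebraMap C L c) ∈ (algebraMap O E).range) →
      ∃ s : O, ¬ p ∣ s ∧ algebraMap O L s * y ∈ (algebraMap C L).range := by
  intro y hy
  obtain ⟨s, hs, hint⟩ := h y (fun c hc => by
    obtain ⟨c', rfl⟩ := (IsIntegralClosure.isIntegral_iff (A := C)).mp hc
    obtain ⟨a, ha⟩ := hy c'
    exact ⟨a, 1, hp.not_dvd_one, by rw [map_one, mul_one, ha]⟩)
  exact ⟨s, hs, (IsIntegralClosure.isIntegral_iff (A := C)).mp hint⟩

end Conversions

section Layer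

variable {R : Type u} [CommRing R] [IsDomain R] [IsDiscreteValuationRing R] [CharZero R]
  {π : R}
  {K0 : Type*} [Field K0] [Algebra R K0] [IsFractionRing R K0]
  {E F : Type*} [Field E] [Algebra R[X] E] [IsFractionRing R[X] E]
  [Field F] [Algebra E F] [Algebra R[X] F] [IsScalarTower R[X] E F]
  [FiniteDimensional E F] [Algebra.IsSeparable E F] [Algebra K0 F]

/-- **The tame point `(π, X - a)`.** -/
theorem ca39_normalAt_of_tame (hπ : Irreducible π)
    (hC : ∀ r : R, algebraMap R[X] F (C r) = algebraMap K0 F (algebraMap R K0 r))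
    (a : R) (e : ℕ) (he : IsUnit (e : R))
    (hSD : ∀ p : R[X], Prime p → p ∈ Ideal.span {C π, X - C a} → ¬ p ∣ X - C a →
      PurSelfDualAt R[X] E F p)
    (htame : ∀ v : Place K0 F, 0 < v.ord (algebraMap R[X] F (X - C a)) →
      v.ord (algebraMap R[X] F (X - C a)) ∣ (e : ℤ)) :
    PurNormalAt R[X] F (C π) (X - C a) := by
  classical
  have hπp : Prime π := hπ.prime
  have hmax : (Ideal.span {π}).IsMaximal := pb39_isMaximal_of_dvr hπ
  have he0 : 0 < e := by
    rcases Nat.eq_zero_or_pos e with h | h
    · rw [h, Nat.cast_zero] at he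
      exact absurd he not_isUnit_zero
    · exact h
  obtain ⟨g, hgmonic, hgirr, hgdvd, hgunit⟩ :=
    kl39_exists_factor (R := R) (algebraMap R[X] F (X - C a)) e he
  haveI : Fact (Irreducible g) := ⟨hgirr⟩
  haveI hST : IsScalarTower R[X] (kl39_KR R e a) (AdjoinRoot g) := kl39_isScalarTower hgdvd
  have hinjF : Function.Injective (algebraMap R[X] F) := by
    rw [IsScalarTower.algebraMap_eq R[X] E F]
    exact (algebraMap E F).injective.comp (IsFractionRing.injective R[X] E)
  have hinjL : Function.Injective (algebraMap (kl39_KR R e a) (AdjoinRoot g)) :=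
    kl39_algebraMapL_injective he0 hgdvd hinjF
  haveI : FaithfulSMul (kl39_KR R e a) (AdjoinRoot g) :=
    (faithfulSMul_iff_algebraMap_injective _ _).mpr hinjL
  letI : Algebra (FractionRing (kl39_KR R e a)) (AdjoinRoot g) := FractionRing.liftAlgebra _ _
  haveI : IsScalarTower (kl39_KR R e a) (FractionRing (kl39_KR R e a)) (AdjoinRoot g) :=
    FractionRing.isScalarTower_liftAlgebra _ _
  haveI := kl39_isIntegral e a he0
  haveI := kl39_finite e a he0
  haveI := kl39_isTorsionFree e a he0
  haveI : FiniteDimensional F (AdjoinRoot g) := kl39_finiteDimensional g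
  -- `E → E'`
  have hinjE' : Function.Injective (algebraMap R[X] (FractionRing (kl39_KR R e a))) := by
    rw [IsScalarTower.algebraMap_eq R[X] (kl39_KR R e a) (FractionRing (kl39_KR R e a))]
    exact (IsFractionRing.injective (kl39_KR R e a) (FractionRing (kl39_KR R e a))).comp
      (kl39_algebraMap_injective e a he0)
  letI : Algebra E (FractionRing (kl39_KR R e a)) := (IsFractionRing.lift hinjE').toAlgebra
  haveI : IsScalarTower R[X] E (FractionRing (kl39_KR R e a)) :=
    IsScalarTower.of_algebraMap_eq (fun x => (IsFractionRing.lift_algebraMap hinjE' x).symm)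
  haveI : IsScalarTower E (FractionRing (kl39_KR R e a)) (AdjoinRoot g) := by
    apply IsScalarTower.of_algebraMap_eq'
    apply IsFractionRing.ringHom_ext (A := R[X])
    intro x
    rw [RingHom.comp_apply, ← IsScalarTower.algebraMap_apply R[X] E (AdjoinRoot g),
      ← IsScalarTower.algebraMap_apply R[X] E (FractionRing (kl39_KR R e a)),
      IsScalarTower.algebraMap_apply R[X] (kl39_KR R e a) (FractionRing (kl39_KR R e a)),
      ← IsScalarTower.algebraMap_apply (kl39_KR R e a) (FractionRing (kl39_KR R e a))
        (AdjoinRoot g),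
      ← IsScalarTower.algebraMap_apply R[X] (kl39_KR R e a) (AdjoinRoot g)]
  -- finiteness and separability
  haveI : FiniteDimensional E (AdjoinRoot g) := FiniteDimensional.trans E F (AdjoinRoot g)
  haveI : FiniteDimensional (FractionRing (kl39_KR R e a)) (AdjoinRoot g) :=
    FiniteDimensional.right E _ _
  haveI : CharZero E :=
    charZero_of_injective_ringHom (f := (algebraMap R[X] E).comp C)
      ((IsFractionRing.injective R[X] E).comp C_injective)
  haveI : CharZero (FractionRing (kl39_KR R e a)) :=
    charZero_of_injective_ringHom (f := (algebraMap R[X] (FractionRing (kl39_KR R e a))).comp C)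
      (hinjE'.comp C_injective)
  haveI : Algebra.IsSeparable (FractionRing (kl39_KR R e a)) (AdjoinRoot g) := inferInstance
  haveI : Algebra.IsSeparable E (AdjoinRoot g) := inferInstance
  haveI := kl39_quot_pir e a hmax
  -- the unit `[L' : F]⁻¹`
  obtain ⟨v, hv⟩ := hgunit.exists_right_inv
  have hu : algebraMap R[X] F (C v) * (Module.finrank F (AdjoinRoot g) : F) = 1 := by
    rw [kl39_finrank g, ← map_natCast (algebraMap R[X] F), ← map_natCast (C : R →+* R[X]),
      ← map_mul, ← map_mul, mul_comm, hv, map_one, map_one]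
  refine kin_normalAt_of_tame' (O := R[X]) (L := F) (O' := kl39_KR R e a)
    (E' := FractionRing (kl39_KR R e a)) (L' := AdjoinRoot g) (σ := kl39_S e a) he0
    (kl39_S_pow e a) (C v) hu (kl39_prime_pi e a hπp) (kl39_pi_not_dvd_S e a hπ.not_isUnit)
    (kl39_span_isMaximal e a hmax).isPrime ?_
  intro p' hp' hp'mem
  have hgen : Algebra.adjoin F {algebraMap (kl39_KR R e a) (AdjoinRoot g) (kl39_S e a)} = ⊤ := by
    rw [kl39_algebraMapL_S]
    exact AdjoinRoot.adjoinRoot_eq_top
  by_cases hS : kl39_S e a ∣ p'
  · -- `p' ∼ S`: Abhyankar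
    have hassoc : Associated (kl39_S e a) p' :=
      (kl39_prime_S e a).irreducible.associated_of_dvd hp'.irreducible hS
    refine ca39_selfDualAt_of_associated hassoc ?_
    refine pur_selfDualAt_of_hcodim (C := integralClosure (kl39_KR R e a) (AdjoinRoot g))
      (kl39_prime_S e a) ?_
    refine ab27_hcodim_of_tame (K0 := K0) (F := F) (kl39_S e a) (kl39_prime_S e a)
      (kl39_S_not_dvd_natCast e a) ?_ (algebraMap R[X] F (X - C a)) e he0 ?_ hgen htame
    · intro b
      obtain ⟨⟨r₁, r₂⟩, hr⟩ := IsLocalization.surj (nonZeroDivisors R) b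
      refine ⟨kl39_of e a (C r₁), kl39_of e a (C (r₂ : R)),
        kl39_S_not_dvd_C e a (nonZeroDivisors.ne_zero r₂.2), ?_⟩
      rw [kl39_algebraMapL_C, kl39_algebraMapL_C,
        IsScalarTower.algebraMap_apply R[X] F (AdjoinRoot g), hC,
        IsScalarTower.algebraMap_apply R[X] F (AdjoinRoot g) (C r₁), hC,
        IsScalarTower.algebraMap_apply K0 F (AdjoinRoot g) b, ← map_mul, ← map_mul, mul_comm]
      rw [show b * algebraMap R K0 (r₂ : R) = algebraMap R K0 r₁ from hr]
    · rw [kl39_algebraMapL_S, kl39_root_pow hgdvd,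
        IsScalarTower.algebraMap_apply R[X] F (AdjoinRoot g)]
  · -- `p'` does not divide `S`: the Kummer step
    have hp'e : ¬ p' ∣ ((e : ℕ) : kl39_KR R e a) := fun h =>
      hp'.not_isUnit (isUnit_of_dvd_unit h (kl39_isUnit_natCast e a he))
    have hp'S : ¬ p' ∣ kl39_S e a := fun h =>
      hS (hp'.irreducible.associated_of_dvd (kl39_prime_S e a).irreducible h).symm.dvd
    have hk := sd62_kummer_step (O := R[X]) (E := E) (F := F) (C := integralClosure R[X] F)
      (O' := kl39_KR R e a) (E' := FractionRing (kl39_KR R e a)) (L := AdjoinRoot g)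
      (D := integralClosure R[X] (AdjoinRoot g)) e (X - C a) (kl39_S e a) (kl39_S_pow e a) hgen
      p' hp' hp'S hp'e
      (fun p hp hp'p hpz => ca39_hcodim_of_selfDualAt hp
        (hSD p hp ((kl39_algebraMap_mem_span_iff e a he0 p).mp (by
          obtain ⟨q, hq⟩ := hp'p
          rw [hq]
          exact Ideal.mul_mem_right _ _ hp'mem)) hpz))
    refine pur_selfDualAt_of_hcodim (C := integralClosure (kl39_KR R e a) (AdjoinRoot g)) hp' ?_
    intro y hy
    obtain ⟨s', hs', d, hd⟩ := hk y (fun d =>
      hy ⟨(d : AdjoinRoot g), (d.2 : IsIntegral R[X] (d : AdjoinRoot g)).tower_top⟩)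
    refine ⟨s', hs', ⟨⟨algebraMap (kl39_KR R e a) (AdjoinRoot g) s' * y, ?_⟩, rfl⟩⟩
    rw [← hd]
    exact (d.2 : IsIntegral R[X] (d : AdjoinRoot g)).tower_top

/-- **The chart.** `R` a DVR of characteristic zero with uniformiser `π`, `K0 = Frac R`,
`F` a finite separable extension of `E = Frac R[X]`.  Suppose the integral closure `B` of `R[X]`
in `F` is trace-self-dual at `π` and at every horizontal prime element other than `X`, `X - c`
(`c` a unit of `R`), that `π B` is a prime ideal, and that `F` is tamely ramified over the line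
at `X = 0` and at `X = c`, with indices dividing `e₀`, `e₁` (units of `R`).  Then `B ⧸ π B` is
integrally closed. -/
theorem ca39_isIntegrallyClosed_fibre (hπ : Irreducible π)
    (hC : ∀ r : R, algebraMap R[X] F (C r) = algebraMap K0 F (algebraMap R K0 r))
    (c : R) (hc : IsUnit c) (e₀ e₁ : ℕ) (he₀ : IsUnit (e₀ : R)) (he₁ : IsUnit (e₁ : R))
    (hV : PurSelfDualAt R[X] E F (C π))
    (hdom : (Ideal.span {algebraMap R[X] (integralClosure R[X] F) (C π)}).IsPrime)
    (hH : ∀ p : R[X], Prime p → ¬ p ∣ C π * X * (X - C c) → PurSelfDualAt R[X] E F p)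
    (htame₀ : ∀ v : Place K0 F, 0 < v.ord (algebraMap R[X] F X) →
      v.ord (algebraMap R[X] F X) ∣ (e₀ : ℤ))
    (htame₁ : ∀ v : Place K0 F, 0 < v.ord (algebraMap R[X] F (X - C c)) →
      v.ord (algebraMap R[X] F (X - C c)) ∣ (e₁ : ℤ)) :
    IsIntegrallyClosed
      (integralClosure R[X] F ⧸ Ideal.span {algebraMap R[X] (integralClosure R[X] F) (C π)}) := by
  have hπp : Prime π := hπ.prime
  have hmax : (Ideal.span {π}).IsMaximal := pb39_isMaximal_of_dvr hπ
  have hCπ : Prime (C π : R[X]) := Polynomial.prime_C_iff.mpr hπp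
  haveI := pb39_quot_pir hmax
  have hπc : ¬ π ∣ c := fun h => hπ.not_isUnit (isUnit_of_dvd_unit h hc)
  -- self-duality at every prime element other than `X`, `X - c`
  have hSDall : ∀ p : R[X], Prime p → ¬ p ∣ X → ¬ p ∣ X - C c → PurSelfDualAt R[X] E F p := by
    intro p hp hX hXc
    by_cases hpπ : p ∣ C π
    · exact ca39_selfDualAt_of_associated
        (hp.irreducible.associated_of_dvd hCπ.irreducible hpπ).symm hV
    · refine hH p hp (fun h => ?_)
      rcases hp.dvd_or_dvd h with h1 | h1
      · rcases hp.dvd_or_dvd h1 with h2 | h2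
        · exact hpπ h2
        · exact hX h2
      · exact hXc h1
  have h0 : (X - C (0 : R) : R[X]) = X := by rw [map_zero, sub_zero]
  refine pur_isIntegrallyClosed_fibre hCπ hV hdom ?_
  intro ζ hζ
  rcases pb39_prime_trichotomy hπp hmax c ζ hζ with h | h | ⟨z, hzmonic, hzζ, hzmax, hzX, hzXc⟩
  · -- the section `X = 0`
    refine ⟨X, h, ?_⟩
    have key := ca39_normalAt_of_tame (K0 := K0) (E := E) (F := F) hπ hC 0 e₀ he₀
      (fun p hp hpmem hpX => by
        rw [h0] at hpmem hpX
        refine hSDall p hp hpX (fun hpc => hπc ?_)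
        have h1 : X - C c ∈ Ideal.span {C π, (X : R[X])} := by
          obtain ⟨q, hq⟩ := hpc
          rw [hq]
          exact Ideal.mul_mem_right _ _ hpmem
        have h2 := (pb39_mem_span_X_iff π _).mp h1
        rw [eval_sub, eval_X, eval_C, zero_sub] at h2
        exact (dvd_neg.mp h2))
      (by rw [h0]; exact htame₀)
    rwa [h0] at key
  · -- the section `X = c`
    refine ⟨X - C c, h, ca39_normalAt_of_tame (K0 := K0) (E := E) (F := F) hπ hC c e₁ he₁
      (fun p hp hpmem hpXc => ?_) htame₁⟩
    refine hSDall p hp (fun hpX => hπc ?_) hpXc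
    have h1 : (X : R[X]) ∈ Ideal.span {C π, X - C c} := by
      obtain ⟨q, hq⟩ := hpX
      have h3 := Ideal.mul_mem_right q _ hpmem
      rwa [← hq] at h3
    have h2 := (pb39_mem_span_linear_iff π c _).mp h1
    rwa [eval_X] at h2
  · -- off the two sections
    refine ⟨z, hzζ, pur_normalAt_of_selfDual (E := E) hCπ hzmax.isPrime ?_⟩
    intro p hp hpmem
    refine hSDall p hp ?_ ?_
    · rintro ⟨q, hq⟩
      exact hzX (hq ▸ Ideal.mul_mem_right _ _ hpmem)
    · rintro ⟨q, hq⟩
      exact hzXc (hq ▸ Ideal.mul_mem_right _ _ hpmem)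

end Layer

end Fermat.Agent.S18
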