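import Fermat.Agent.S18.NormalFibre51

/-!
# S18: the fibre `C ⧸ π C` is a Dedekind domain (helper51)

`pur_isDedekindDomain_of_isIntegrallyClosed` : `C = integralClosure O L`, `π` prime in `O` with
`O ⧸ π` a PID, `π` prime in `C`, `C ⧸ π C` integrally closed ⟹ `C ⧸ π C` is a Dedekind domain.
`pur_isDedekindDomain_fibre` : the same conclusion from the hypotheses of
`pur_isIntegrallyClosed_fibre`.
-/

set_option autoImplicit false

open Polynomial

namespace Fermat.Agent.S18

section Dedekind

variable {O E L : Type*} [CommRing O] [IsDomain O] [UniqueFactorizationMonoid O]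
  [IsNoetherianRing O]
  [Field E] [Algebra O E] [IsFractionRing O E]
  [Field L] [Algebra E L] [Algebra O L] [IsScalarTower O E L]
  [FiniteDimensional E L] [Algebra.IsSeparable E L]

include E in
/-- Noetherian + dimension `≤ 1` are automatic for the fibre; so integrally closed ⟹ Dedekind. -/
theorem pur_isDedekindDomain_of_isIntegrallyClosed {π : O} (hπ : Prime π)
    [IsPrincipalIdealRing (O ⧸ Ideal.span {π})]
    (hdom : (Ideal.span {algebraMap O (integralClosure O L) π}).IsPrime)
    (hic : IsIntegrallyClosed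
      (integralClosure O L ⧸ Ideal.span {algebraMap O (integralClosure O L) π})) :
    IsDedekindDomain
      (integralClosure O L ⧸ Ideal.span {algebraMap O (integralClosure O L) π}) := by
  classical
  let C := integralClosure O L
  let I : Ideal O := Ideal.span {π}
  let J : Ideal C := Ideal.span {algebraMap O C π}
  haveI hIprime : I.IsPrime := (Ideal.span_singleton_prime hπ.ne_zero).mpr hπ
  haveI : J.IsPrime := hdom
  haveI hQdom : IsDomain (C ⧸ J) := Ideal.Quotient.isDomain J
  haveI hPdom : IsDomain (O ⧸ I) := Ideal.Quotient.isDomain I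
  haveI : Module.Finite O C := IsIntegralClosure.finite O E L C
  haveI : IsNoetherianRing C := IsNoetherianRing.of_finite O C
  haveI : IsNoetherianRing (C ⧸ J) := inferInstance
  have hIJ : I ≤ J.comap (algebraMap O C) := by
    rw [Ideal.span_le]
    rintro _ rfl
    exact Ideal.subset_span rfl
  let ψ : O ⧸ I →+* C ⧸ J := Ideal.quotientMap J (algebraMap O C) hIJ
  letI : Algebra (O ⧸ I) (C ⧸ J) := ψ.toAlgebra
  have hψ : ∀ o : O, algebraMap (O ⧸ I) (C ⧸ J) (Ideal.Quotient.mk I o)
      = Ideal.Quotient.mk J (algebraMap O C o) := fun o => Ideal.quotientMap_mk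
  haveI : Algebra.IsIntegral (O ⧸ I) (C ⧸ J) := by
    refine ⟨fun q => ?_⟩
    obtain ⟨c, rfl⟩ := Ideal.Quotient.mk_surjective q
    obtain ⟨g, hg, hgc⟩ := (integralClosure.isIntegral c : IsIntegral O c)
    refine ⟨g.map (Ideal.Quotient.mk I), hg.map _, ?_⟩
    have hcomp : (algebraMap (O ⧸ I) (C ⧸ J)).comp (Ideal.Quotient.mk I)
        = (Ideal.Quotient.mk J).comp (algebraMap O C) := by
      ext o
      exact hψ o
    rw [eval₂_map, hcomp, ← hom_eval₂, hgc, map_zero]
  haveI : Ring.DimensionLEOne (O ⧸ I) := inferInstance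
  haveI : Ring.DimensionLEOne (C ⧸ J) := by
    refine ⟨fun {p} hp0 hpp => ?_⟩
    haveI := hpp
    have hne : p.comap (algebraMap (O ⧸ I) (C ⧸ J)) ≠ ⊥ :=
      fun h0 => hp0 (Ideal.eq_bot_of_comap_eq_bot h0)
    have hmax : (p.comap (algebraMap (O ⧸ I) (C ⧸ J))).IsMaximal :=
      Ring.DimensionLEOne.maximalOfPrime hne (Ideal.comap_isPrime _ _)
    exact Ideal.isMaximal_of_isIntegral_of_isMaximal_comap p hmax
  haveI : IsIntegrallyClosed (C ⧸ J) := hic
  haveI : IsDedekindRing (C ⧸ J) := IsDedekindRing.mk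
  exact IsDedekindDomain.mk

/-- **The fibre is a Dedekind domain** (hypotheses of `pur_isIntegrallyClosed_fibre`). -/
theorem pur_isDedekindDomain_fibre {π : O} (hπ : Prime π)
    [IsPrincipalIdealRing (O ⧸ Ideal.span {π})]
    (hSD : PurSelfDualAt O E L π)
    (hdom : (Ideal.span {algebraMap O (integralClosure O L) π}).IsPrime)
    (h : ∀ ζ : O ⧸ Ideal.span {π}, Prime ζ →
      ∃ z : O, Associated (Ideal.Quotient.mk (Ideal.span {π}) z) ζ ∧ PurNormalAt O L π z) :
    IsDedekindDomain
      (integralClosure O L ⧸ Ideal.span {algebraMap O (integralClosure O L) π}) :=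
  pur_isDedekindDomain_of_isIntegrallyClosed (E := E) hπ hdom
    (pur_isIntegrallyClosed_fibre hπ hSD hdom h)

end Dedekind

end Fermat.Agent.S18
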