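/-
S18 / B5 (helper39): the per-chart assembly `ChartAsm39` in its final `IsDedekindDomain` form
(`Dedekind51.pur_isDedekindDomain_of_isIntegrallyClosed`, helper51).
-/
import Fermat.Agent.S18.ChartAsm39
import Fermat.Agent.S18.Dedekind51

set_option autoImplicit false
set_option linter.unusedSectionVars false
set_option linter.unusedVariables false
set_option linter.style.haveILetI false

open Polynomial AlgebraicCurve

universe u

namespace Fermat.Agent.S18

section ChartDedekind

variable {R : Type u} [CommRing R] [IsDomain R] [IsDiscreteValuationRing R] [CharZero R]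
  {π : R}
  {K0 : Type*} [Field K0] [Algebra R K0] [IsFractionRing R K0]
  {E F : Type*} [Field E] [Algebra R[X] E] [IsFractionRing R[X] E]
  [Field F] [Algebra E F] [Algebra R[X] F] [IsScalarTower R[X] E F]
  [FiniteDimensional E F] [Algebra.IsSeparable E F] [Algebra K0 F]

/-- **The chart, Dedekind form.**  Same hypotheses as `ca39_isIntegrallyClosed_fibre`; the
special fibre `B ⧸ π B` of the integral closure `B` of `R[X]` in `F` is a Dedekind domain. -/
theorem ca39_isDedekindDomain_fibre (hπ : Irreducible π)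
    (hC : ∀ r : R, algebraMap R[X] F (C r) = algebraMap K0 F (algebraMap R K0 r))
    (c : R) (hc : IsUnit c) (e₀ e₁ : ℕ) (he₀ : IsUnit (e₀ : R)) (he₁ : IsUnit (e₁ : R))
    (hV : PurSelfDualAt R[X] E F (C π))
    (hdom : (Ideal.span {algebraMap R[X] (integralClosure R[X] F) (C π)}).IsPrime)
    (hH : ∀ p : R[X], Prime p → ¬ p ∣ C π * X * (X - C c) → PurSelfDualAt R[X] E F p)
    (htame₀ : ∀ v : Place K0 F, 0 < v.ord (algebraMap R[X] F X) →
      v.ord (algebraMap R[X] F X) ∣ (e₀ : ℤ))
    (htame₁ : ∀ v : Place K0 F, 0 < v.ord (algebraMap R[X] F (X - C c)) →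
      v.ord (algebraMap R[X] F (X - C c)) ∣ (e₁ : ℤ)) :
    IsDedekindDomain
      (integralClosure R[X] F ⧸ Ideal.span {algebraMap R[X] (integralClosure R[X] F) (C π)}) := by
  have hCπ : Prime (C π : R[X]) := Polynomial.prime_C_iff.mpr hπ.prime
  haveI := pb39_quot_pir (pb39_isMaximal_of_dvr hπ)
  exact pur_isDedekindDomain_of_isIntegrallyClosed (E := E) hCπ hdom
    (ca39_isIntegrallyClosed_fibre (K0 := K0) (E := E) hπ hC c hc e₀ e₁ he₀ he₁ hV hdom hH
      htame₀ htame₁)

/-- Variant with the horizontal hypothesis in the `hcodim` shape (the literal conclusion of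
`b5h94_hcodim` / `g94_hcodim2` / `g94_hcodim3`, with `B := integralClosure R[X] F`). -/
theorem ca39_isDedekindDomain_fibre' (hπ : Irreducible π)
    (hC : ∀ r : R, algebraMap R[X] F (C r) = algebraMap K0 F (algebraMap R K0 r))
    (c : R) (hc : IsUnit c) (e₀ e₁ : ℕ) (he₀ : IsUnit (e₀ : R)) (he₁ : IsUnit (e₁ : R))
    (hV : PurSelfDualAt R[X] E F (C π))
    (hdom : (Ideal.span {algebraMap R[X] (integralClosure R[X] F) (C π)}).IsPrime)
    (hH : ∀ p : R[X], Prime p → ¬ p ∣ C π * X * (X - C c) →
      ∀ y : F, (∀ b : integralClosure R[X] F,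
          Algebra.trace E F (y * algebraMap (integralClosure R[X] F) F b)
            ∈ (algebraMap R[X] E).range) →
        ∃ s : R[X], ¬ p ∣ s ∧
          algebraMap R[X] F s * y ∈ (algebraMap (integralClosure R[X] F) F).range)
    (htame₀ : ∀ v : Place K0 F, 0 < v.ord (algebraMap R[X] F X) →
      v.ord (algebraMap R[X] F X) ∣ (e₀ : ℤ))
    (htame₁ : ∀ v : Place K0 F, 0 < v.ord (algebraMap R[X] F (X - C c)) →
      v.ord (algebraMap R[X] F (X - C c)) ∣ (e₁ : ℤ)) :
    IsDedekindDomain
      (integralClosure R[X] F ⧸ Ideal.span {algebraMap R[X] (integralClosure R[X] F) (C π)}) :=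
  ca39_isDedekindDomain_fibre (K0 := K0) (E := E) hπ hC c hc e₀ e₁ he₀ he₁ hV hdom
    (fun p hp hpc => pur_selfDualAt_of_hcodim (C := integralClosure R[X] F) hp (hH p hp hpc))
    htame₀ htame₁

end ChartDedekind

end Fermat.Agent.S18
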