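/-
S18 / B5 (helper39): `E`-free form of the per-chart assembly.

For ANY `R[X]`-algebra structure on the function field `F` which is compatible with the
constants (`hC`), with chart coordinate `x := algebraMap R[X] F X` transcendental over
`K0 = Frac R` and `F` finite over `K0(x)`:
* `ci39_injective` : `R[X] → F` is injective;
* `ci39_finiteDimensional`, `ci39_isSeparable` : `F` is finite separable over every model `E` of
  `Frac R[X]` inside `F`;
* `ci39_isDedekindDomain_fibre` : the chart theorem `ca39_isDedekindDomain_fibre'` with the
  fraction field `E` quantified away (hypotheses for every model `E`, as produced by the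
  vertical and horizontal rows).
-/
import Fermat.Agent.S18.ChartDedekind39

set_option autoImplicit false
set_option linter.unusedSectionVars false
set_option linter.unusedVariables false
set_option linter.style.haveILetI false

open Polynomial AlgebraicCurve IntermediateField

universe u

namespace Fermat.Agent.S18

section ChartInst

variable {R : Type u} [CommRing R] [IsDomain R]
  {K0 : Type*} [Field K0] [Algebra R K0] [IsFractionRing R K0]
  {F : Type*} [Field F] [Algebra R[X] F] [Algebra K0 F]

/-- The chart structure map is "evaluate at `x`, constants through `K0`". -/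
theorem ci39_algebraMap_apply
    (hC : ∀ r : R, algebraMap R[X] F (C r) = algebraMap K0 F (algebraMap R K0 r)) (f : R[X]) :
    algebraMap R[X] F f = aeval (algebraMap R[X] F X) (f.map (algebraMap R K0)) := by
  have key : algebraMap R[X] F
      = ((aeval (R := K0) (algebraMap R[X] F X)).toRingHom).comp
          (Polynomial.mapRingHom (algebraMap R K0)) := by
    apply Polynomial.ringHom_ext
    · intro r
      rw [hC]
      simp
    · simp
  conv_lhs => rw [key]
  rfl

/-- `R[X] → F` is injective when the chart coordinate is transcendental. -/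
theorem ci39_injective
    (hC : ∀ r : R, algebraMap R[X] F (C r) = algebraMap K0 F (algebraMap R K0 r))
    (hx : Transcendental K0 (algebraMap R[X] F X)) :
    Function.Injective (algebraMap R[X] F) := by
  intro f g hfg
  rw [ci39_algebraMap_apply hC f, ci39_algebraMap_apply hC g] at hfg
  exact Polynomial.map_injective _ (IsFractionRing.injective R K0)
    (transcendental_iff_injective.mp hx hfg)

variable {E : Type*} [Field E] [Algebra R[X] E] [IsFractionRing R[X] E] [Algebra E F]
  [IsScalarTower R[X] E F]

/-- `F` is finite over every model of `Frac R[X]` when it is finite over `K0(x)`. -/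
theorem ci39_finiteDimensional
    (hC : ∀ r : R, algebraMap R[X] F (C r) = algebraMap K0 F (algebraMap R K0 r))
    [FiniteDimensional K0⟮algebraMap R[X] F X⟯ F] : FiniteDimensional E F := by
  classical
  set x : F := algebraMap R[X] F X with hxdef
  -- the image of `R[X]` lies in `K0(x)`
  have hpoly : ∀ f : R[X], algebraMap R[X] F f ∈ K0⟮x⟯ := by
    intro f
    rw [ci39_algebraMap_apply hC]
    have h1 : aeval x (f.map (algebraMap R K0)) ∈ Algebra.adjoin K0 {x} := by
      rw [Algebra.adjoin_singleton_eq_range_aeval]
      exact ⟨_, rfl⟩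
    exact IntermediateField.algebra_adjoin_le_adjoin K0 {x} h1
  -- the image of `E` lies in `K0(x)`
  have hE : ∀ t : E, algebraMap E F t ∈ K0⟮x⟯ := by
    intro t
    obtain ⟨a, b, hb, rfl⟩ := IsFractionRing.div_surjective (A := R[X]) t
    rw [map_div₀, ← IsScalarTower.algebraMap_apply, ← IsScalarTower.algebraMap_apply]
    exact div_mem (hpoly a) (hpoly b)
  let φ : E →+* K0⟮x⟯ := (algebraMap E F).codRestrict K0⟮x⟯ hE
  -- `φ` is onto
  have hK0 : ∀ k : K0, algebraMap K0 F k ∈ (algebraMap E F).fieldRange := by
    intro k
    obtain ⟨r₁, r₂, hr₂, rfl⟩ := IsFractionRing.div_surjective (A := R) k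
    rw [map_div₀, ← hC, ← hC, IsScalarTower.algebraMap_apply R[X] E F,
      IsScalarTower.algebraMap_apply R[X] E F (C r₂), ← map_div₀]
    exact ⟨_, rfl⟩
  have hle : K0⟮x⟯ ≤ (algebraMap E F).fieldRange.toIntermediateField hK0 := by
    rw [IntermediateField.adjoin_le_iff]
    rintro _ rfl
    exact ⟨algebraMap R[X] E X, (IsScalarTower.algebraMap_apply R[X] E F X).symm⟩
  have hφsurj : Function.Surjective φ := by
    rintro ⟨y, hy⟩
    obtain ⟨t, ht⟩ := hle hy
    exact ⟨t, Subtype.ext ht⟩
  letI : Algebra E K0⟮x⟯ := φ.toAlgebra
  haveI : IsScalarTower E K0⟮x⟯ F := IsScalarTower.of_algebraMap_eq (fun t => rfl)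
  haveI : Module.Finite E K0⟮x⟯ :=
    Module.Finite.of_surjective (Algebra.linearMap E K0⟮x⟯) hφsurj
  exact Module.Finite.trans K0⟮x⟯ F

/-- In characteristic zero, `F` is separable over every model of `Frac R[X]`. -/
theorem ci39_isSeparable [CharZero R] [FiniteDimensional E F] : Algebra.IsSeparable E F := by
  haveI : CharZero E :=
    charZero_of_injective_ringHom (f := (algebraMap R[X] E).comp C)
      ((IsFractionRing.injective R[X] E).comp C_injective)
  infer_instance

end ChartInst

section Final

variable {R : Type u} [CommRing R] [IsDomain R] [IsDiscreteValuationRing R] [CharZero R]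
  {π : R}
  {K0 : Type*} [Field K0] [Algebra R K0] [IsFractionRing R K0]
  {F : Type*} [Field F] [Algebra R[X] F] [Algebra K0 F]

/-- **The chart, `E`-free form.**  `R` a DVR of characteristic zero with uniformiser `π`,
`K0 = Frac R`, `F ⊇ K0` a field with an `R[X]`-algebra structure compatible with the constants,
chart coordinate `x` transcendental over `K0`, `F` finite over `K0(x)`.  Given the vertical
self-duality `hV` and primality `hdom`, the horizontal self-duality `hH` away from the sections
`X = 0`, `X = c` (for every model `E` of `Frac R[X]`), and tameness at the two sections, the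
special fibre of the integral closure of `R[X]` in `F` is a Dedekind domain. -/
theorem ci39_isDedekindDomain_fibre (hπ : Irreducible π)
    (hC : ∀ r : R, algebraMap R[X] F (C r) = algebraMap K0 F (algebraMap R K0 r))
    (hx : Transcendental K0 (algebraMap R[X] F X))
    [FiniteDimensional K0⟮algebraMap R[X] F X⟯ F]
    (c : R) (hc : IsUnit c) (e₀ e₁ : ℕ) (he₀ : IsUnit (e₀ : R)) (he₁ : IsUnit (e₁ : R))
    (hV : ∀ (E : Type u) [Field E] [Algebra R[X] E] [IsFractionRing R[X] E] [Algebra E F]
      [IsScalarTower R[X] E F], PurSelfDualAt R[X] E F (C π))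
    (hdom : (Ideal.span {algebraMap R[X] (integralClosure R[X] F) (C π)}).IsPrime)
    (hH : ∀ (E : Type u) [Field E] [Algebra R[X] E] [IsFractionRing R[X] E] [Algebra E F]
      [IsScalarTower R[X] E F] [FiniteDimensional E F] [Algebra.IsSeparable E F],
      ∀ p : R[X], Prime p → ¬ p ∣ C π * X * (X - C c) →
      ∀ y : F, (∀ b : integralClosure R[X] F,
          Algebra.trace E F (y * algebraMap (integralClosure R[X] F) F b)
            ∈ (algebraMap R[X] E).range) →
        ∃ s : R[X], ¬ p ∣ s ∧
          algebraMap R[X] F s * y ∈ (algebraMap (integralClosure R[X] F) F).range)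
    (htame₀ : ∀ v : Place K0 F, 0 < v.ord (algebraMap R[X] F X) →
      v.ord (algebraMap R[X] F X) ∣ (e₀ : ℤ))
    (htame₁ : ∀ v : Place K0 F, 0 < v.ord (algebraMap R[X] F (X - C c)) →
      v.ord (algebraMap R[X] F (X - C c)) ∣ (e₁ : ℤ)) :
    IsDedekindDomain
      (integralClosure R[X] F ⧸ Ideal.span {algebraMap R[X] (integralClosure R[X] F) (C π)}) := by
  haveI : FaithfulSMul R[X] F :=
    (faithfulSMul_iff_algebraMap_injective _ _).mpr (ci39_injective hC hx)
  letI : Algebra (FractionRing R[X]) F := FractionRing.liftAlgebra _ _
  haveI : IsScalarTower R[X] (FractionRing R[X]) F := FractionRing.isScalarTower_liftAlgebra _ _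
  haveI : FiniteDimensional (FractionRing R[X]) F := ci39_finiteDimensional (K0 := K0) hC
  haveI : Algebra.IsSeparable (FractionRing R[X]) F := ci39_isSeparable (R := R)
  exact ca39_isDedekindDomain_fibre' (K0 := K0) (E := FractionRing R[X]) hπ hC c hc e₀ e₁ he₀ he₁
    (hV (FractionRing R[X])) hdom (hH (FractionRing R[X])) htame₀ htame₁

end Final

end Fermat.Agent.S18
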