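/-
S18 / B5 (helper39): the concrete chart algebra structure `R[X] → F`, `X ↦ x`, constants through
`K0 = Frac R`, as a reducible definition (not an instance: the two charts `x = h`, `x = h⁻¹` give
two structures on the same field), with the facts needed to feed `ChartInst39`.

Usage:
```
letI : Algebra R[X] F := ci39_alg R K0 x
have hC := ci39_alg_C R K0 x          -- the hypothesis `hC` of ChartAsm39 / ChartInst39
have hX := ci39_alg_X R K0 x          -- algebraMap R[X] F X = x
haveI := ci39_alg_finite R K0 x       -- from [FiniteDimensional K0⟮x⟯ F]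
```
-/
import Fermat.Agent.S18.ChartInst39

set_option autoImplicit false
set_option linter.unusedSectionVars false
set_option linter.unusedVariables false
set_option linter.style.haveILetI false

open Polynomial IntermediateField

namespace Fermat.Agent.S18

section ChartAlg

variable (R K0 : Type*) {F : Type*} [CommRing R] [Field K0] [Algebra R K0] [Field F]
  [Algebra K0 F]

/-- The chart algebra structure on `F`: `X ↦ x`, constants through `K0`. -/
@[reducible] noncomputable def ci39_alg (x : F) : Algebra R[X] F :=
  (Polynomial.eval₂RingHom ((algebraMap K0 F).comp (algebraMap R K0)) x).toAlgebra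

theorem ci39_alg_algebraMap (x : F) :
    @algebraMap R[X] F _ _ (ci39_alg R K0 x)
      = Polynomial.eval₂RingHom ((algebraMap K0 F).comp (algebraMap R K0)) x := rfl

theorem ci39_alg_X (x : F) : @algebraMap R[X] F _ _ (ci39_alg R K0 x) X = x := by
  rw [ci39_alg_algebraMap, coe_eval₂RingHom, eval₂_X]

theorem ci39_alg_C (x : F) (r : R) :
    @algebraMap R[X] F _ _ (ci39_alg R K0 x) (C r) = algebraMap K0 F (algebraMap R K0 r) := by
  rw [ci39_alg_algebraMap, coe_eval₂RingHom, eval₂_C]
  rfl

theorem ci39_alg_X_sub_C (x : F) (c : R) :
    @algebraMap R[X] F _ _ (ci39_alg R K0 x) (X - C c)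
      = x - algebraMap K0 F (algebraMap R K0 c) := by
  rw [map_sub, ci39_alg_X, ci39_alg_C]

theorem ci39_alg_transcendental (x : F) (hx : Transcendental K0 x) :
    Transcendental K0 (@algebraMap R[X] F _ _ (ci39_alg R K0 x) X) := by
  rw [ci39_alg_X]
  exact hx

theorem ci39_alg_finite (x : F) [h : FiniteDimensional K0⟮x⟯ F] :
    FiniteDimensional K0⟮@algebraMap R[X] F _ _ (ci39_alg R K0 x) X⟯ F := by
  rw [ci39_alg_X]
  exact h

end ChartAlg

end Fermat.Agent.S18
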