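import Mathlib
import Fermat.Agent.S18.Haupt2Ser70
import Fermat.Agent.S18.Haupt3R_34
import Fermat.Agent.S18.HauptMem_80
import Fermat.Agent.S18.Haupt3Mem53

/-!
# The level 2 Hauptmodul over an arbitrary commutative ring (same shape as `Haupt3R_34`)

`h₂ = Δ(q)/Δ(q²) = q⁻¹ ∏ ((1 - qⁿ)/(1 - q²ⁿ))²⁴ = q⁻¹ u₂`, `u₂ = η(q)²⁴/η(q²)²⁴ ∈ ℤ⟦q⟧`
(constant coefficient `1`, inverse `h34_v2`).  From the two Sturm identities of helper70
(`h70_level2_identity`, `h70_level2_identity_fricke`):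

* `h34_ps2_jNum  : jNum * u₂² = (u₂ + 256 q)³`, `h34_ps2_jNum2 : jNum(q²) * u₂ = (u₂ + 16 q)³`;
* for every commutative ring `R`: `h34_h2R R` is a unit of `R((q))`,
  `jqModC R * h₂² = (h₂ + 256)³`, `qExpand R 2 (jqModC R) * h₂ = (h₂ + 16)³`,
  `(jqModC R - 1728) * h₂² = (h₂ + 64) (h₂ - 512)²`, compatibility with `coeffMap`;
* `h34_h2R_transcendental` (any field), membership in the function field of `X₀(M)`, `2 ∣ M`,
  over fields of characteristic zero, over `ℚ`, base change and `ℚ̄` (via helper80's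
  `h80_mem_fullC2`).
-/

set_option autoImplicit false

open ModularCurve

namespace Fermat.Agent.S18

open Fermat.Agent.S16

/-- `a₂ = η(q)²⁴`. -/
noncomputable def h34_a2 : PowerSeries ℤ := etaProd ^ 24

/-- `b₂' = η(q²)²⁴`. -/
noncomputable def h34_b2' : PowerSeries ℤ := (PowerSeries.expand 2 two_ne_zero etaProd) ^ 24

theorem h34_constantCoeff_a2 : PowerSeries.constantCoeff h34_a2 = 1 := by
  rw [h34_a2, map_pow, constantCoeff_etaProd, one_pow]

theorem h34_constantCoeff_b2' : PowerSeries.constantCoeff h34_b2' = 1 := by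
  rw [h34_b2', map_pow, PowerSeries.constantCoeff_expand, constantCoeff_etaProd, one_pow]

theorem h34_b2'_ne_zero : h34_b2' ≠ 0 := by
  intro h
  have := h34_constantCoeff_b2'
  rw [h, map_zero] at this
  exact zero_ne_one this

/-- `u₂ = η(q)²⁴ / η(q²)²⁴`. -/
noncomputable def h34_u2 : PowerSeries ℤ := h34_a2 * PowerSeries.invOfUnit h34_b2' 1

/-- `v₂ = η(q²)²⁴ / η(q)²⁴`. -/
noncomputable def h34_v2 : PowerSeries ℤ := h34_b2' * PowerSeries.invOfUnit h34_a2 1

theorem h34_a2_mul_inv : h34_a2 * PowerSeries.invOfUnit h34_a2 1 = 1 :=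
  PowerSeries.mul_invOfUnit _ _ (by rw [h34_constantCoeff_a2]; rfl)

theorem h34_b2'_mul_inv : h34_b2' * PowerSeries.invOfUnit h34_b2' 1 = 1 :=
  PowerSeries.mul_invOfUnit _ _ (by rw [h34_constantCoeff_b2']; rfl)

theorem h34_u2_mul_v2 : h34_u2 * h34_v2 = 1 := by
  rw [h34_u2, h34_v2]
  linear_combination PowerSeries.invOfUnit h34_b2' 1 * h34_b2' * h34_a2_mul_inv + h34_b2'_mul_inv

theorem h34_constantCoeff_u2 : PowerSeries.constantCoeff h34_u2 = 1 := by
  have h := congrArg PowerSeries.constantCoeff h34_b2'_mul_inv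
  rw [map_mul, h34_constantCoeff_b2', one_mul, map_one] at h
  rw [h34_u2, map_mul, h34_constantCoeff_a2, h, one_mul]

theorem h34_constantCoeff_v2 : PowerSeries.constantCoeff h34_v2 = 1 := by
  have h := congrArg PowerSeries.constantCoeff h34_a2_mul_inv
  rw [map_mul, h34_constantCoeff_a2, one_mul, map_one] at h
  rw [h34_v2, map_mul, h34_constantCoeff_b2', h, one_mul]

theorem h34_u2_mul_b2' : h34_u2 * h34_b2' = h34_a2 := by
  rw [h34_u2]
  linear_combination h34_a2 * h34_b2'_mul_inv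

theorem h34_D_eq2 : sturmDelta = PowerSeries.X * (h34_u2 * h34_b2') := by
  rw [h34_u2_mul_b2', h34_sturmDelta_eq_eta, dedekindEtaUnit, h34_a2]

theorem h34_D2_eq2 :
    PowerSeries.expand 2 two_ne_zero sturmDelta = PowerSeries.X ^ 2 * h34_b2' := by
  rw [h34_sturmDelta_eq_eta, dedekindEtaUnit, map_mul, map_pow, PowerSeries.expand_X, h34_b2']

theorem h34_E4_eq70 : h70_E4 = eisenstein4 := by
  rw [← h34_E_eq_eisenstein4, h34_E_eq, h70_E4]

theorem h34_X3_mul_b2'_pow_ne_zero : (PowerSeries.X : PowerSeries ℤ) ^ 3 * h34_b2' ^ 3 ≠ 0 :=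
  mul_ne_zero (pow_ne_zero 3 PowerSeries.X_ne_zero) (pow_ne_zero 3 h34_b2'_ne_zero)

/-- `jNum * u₂² = (u₂ + 256 q)³` in `ℤ⟦q⟧`. -/
theorem h34_ps2_jNum : jNum * h34_u2 ^ 2 = (h34_u2 + 256 * PowerSeries.X) ^ 3 := by
  have e3 := h70_level2_identity
  rw [h34_D2_eq2, h34_D_eq2, h34_E4_eq70] at e3
  have e2 : h34_u2 * h34_b2' * dedekindEtaUnitInv = 1 := by
    rw [h34_u2_mul_b2', h34_a2]
    exact dedekindEtaUnit_mul_inv
  apply mul_left_cancel₀ h34_X3_mul_b2'_pow_ne_zero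
  rw [jNum]
  linear_combination e3 + (PowerSeries.X ^ 3 * h34_b2' ^ 2 * eisenstein4 ^ 3 * h34_u2) * e2

/-- `jNum(q²) * u₂ = (u₂ + 16 q)³` in `ℤ⟦q⟧`. -/
theorem h34_ps2_jNum2 : PowerSeries.expand 2 two_ne_zero jNum * h34_u2 =
    (h34_u2 + 16 * PowerSeries.X) ^ 3 := by
  have e3 := h70_level2_identity_fricke
  rw [h34_D2_eq2, h34_D_eq2, h34_E4_eq70] at e3
  have e2 : h34_b2' * PowerSeries.expand 2 two_ne_zero dedekindEtaUnitInv = 1 := by
    have h := congrArg (PowerSeries.expand 2 two_ne_zero) dedekindEtaUnit_mul_inv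
    rw [map_mul, map_one, dedekindEtaUnit, map_pow] at h
    rw [h34_b2']
    exact h
  apply mul_left_cancel₀ h34_X3_mul_b2'_pow_ne_zero
  rw [jNum, map_mul, map_pow]
  linear_combination e3 + (PowerSeries.X ^ 3 * h34_b2' ^ 2 *
    (PowerSeries.expand 2 two_ne_zero eisenstein4) ^ 3 * h34_u2) * e2

section General

variable (R : Type*) [CommRing R]

theorem h34_iotaR_expand2 (f : PowerSeries ℤ) :
    h34_iotaR R (PowerSeries.expand 2 two_ne_zero f) = qExpand R 2 (h34_iotaR R f) := by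
  rw [h34_iotaR_apply, h34_iotaR_apply, h80_qExpand_ofPowerSeries, PowerSeries.map_expand]

/-- The level 2 Hauptmodul `Δ(q)/Δ(q²) = q⁻¹ ∏ ((1 - qⁿ)/(1 - q²ⁿ))²⁴` with coefficients in `R`. -/
noncomputable def h34_h2R : LaurentSeries R := HahnSeries.single (-1 : ℤ) 1 * h34_iotaR R h34_u2

/-- Its inverse `Δ(q²)/Δ(q)`. -/
noncomputable def h34_h2Rinv : LaurentSeries R := HahnSeries.single (1 : ℤ) 1 * h34_iotaR R h34_v2

theorem h34_h2R_mul_inv : h34_h2R R * h34_h2Rinv R = 1 := by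
  have h1 := congrArg (h34_iotaR R) h34_u2_mul_v2
  rw [map_mul, map_one] at h1
  rw [h34_h2R, h34_h2Rinv]
  linear_combination h34_iotaR R h34_u2 * h34_iotaR R h34_v2 * h34_single_mul_single R + h1

theorem h34_h2R_isUnit : IsUnit (h34_h2R R) :=
  IsUnit.of_mul_eq_one _ (h34_h2R_mul_inv R)

/-- `j h₂² = (h₂ + 256)³` over any commutative ring. -/
theorem h34_h2R_j : jqModC R * h34_h2R R ^ 2 = (h34_h2R R + 256) ^ 3 := by
  have h1 := congrArg (h34_iotaR R) h34_ps2_jNum
  simp only [map_mul, map_pow, map_add, map_ofNat, h34_iotaR_X] at h1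
  have hs := h34_single_mul_single R
  rw [h34_jqModC_eq, h34_h2R]
  set s := HahnSeries.single (-1 : ℤ) (1 : R) with hs_def
  set t := HahnSeries.single (1 : ℤ) (1 : R) with ht_def
  set U := h34_iotaR R h34_u2 with hU_def
  set J := h34_iotaR R jNum with hJ_def
  have h256 : s * U + 256 = s * (U + 256 * t) := by
    linear_combination (-256 : LaurentSeries R) * hs
  have e : (s * (U + 256 * t)) ^ 3 = s ^ 3 * (J * U ^ 2) := by
    rw [mul_pow, ← h1]
  rw [h256, e]
  ring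

/-- `j(q²) h₂ = (h₂ + 16)³` over any commutative ring. -/
theorem h34_h2R_j2 : qExpand R 2 (jqModC R) * h34_h2R R = (h34_h2R R + 16) ^ 3 := by
  have h1 := congrArg (h34_iotaR R) h34_ps2_jNum2
  simp only [map_mul, map_pow, map_add, map_ofNat, h34_iotaR_X, h34_iotaR_expand2] at h1
  have hs := h34_single_mul_single R
  have hq : qExpand R 2 (jqModC R) =
      HahnSeries.single (-1 : ℤ) (1 : R) ^ 2 * qExpand R 2 (h34_iotaR R jNum) := by
    rw [h34_jqModC_eq, map_mul, qExpand_single, HahnSeries.single_pow]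
    simp
  rw [hq, h34_h2R]
  set s := HahnSeries.single (-1 : ℤ) (1 : R) with hs_def
  set t := HahnSeries.single (1 : ℤ) (1 : R) with ht_def
  set U := h34_iotaR R h34_u2 with hU_def
  set J2 := qExpand R 2 (h34_iotaR R jNum) with hJ_def
  have h16 : s * U + 16 = s * (U + 16 * t) := by
    linear_combination (-16 : LaurentSeries R) * hs
  have e : (s * (U + 16 * t)) ^ 3 = s ^ 3 * (J2 * U) := by
    rw [mul_pow, ← h1]
  rw [h16, e]
  ring

/-- `(j - 1728) h₂² = (h₂ + 64) (h₂ - 512)²` over any commutative ring. -/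
theorem h34_h2R_1728 : (jqModC R - 1728) * h34_h2R R ^ 2 =
    (h34_h2R R + 64) * (h34_h2R R - 512) ^ 2 := by
  linear_combination h34_h2R_j R

/-- `(j(q²) - 1728) h₂ = (h₂ + 64) (h₂ - 8)²` over any commutative ring. -/
theorem h34_h2R_j2_1728 : (qExpand R 2 (jqModC R) - 1728) * h34_h2R R =
    (h34_h2R R + 64) * (h34_h2R R - 8) ^ 2 := by
  linear_combination h34_h2R_j2 R

variable {R} in
/-- The Hauptmodul is compatible with change of coefficients. -/
theorem h34_coeffMap_h2R {S : Type*} [CommRing S] (f : R →+* S) :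
    coeffMap f (h34_h2R R) = h34_h2R S := by
  rw [h34_h2R, map_mul, coeffMap_single, map_one, h34_coeffMap_iotaR, h34_h2R]

variable {R} in
theorem h34_coeffMap_h2Rinv {S : Type*} [CommRing S] (f : R →+* S) :
    coeffMap f (h34_h2Rinv R) = h34_h2Rinv S := by
  rw [h34_h2Rinv, map_mul, coeffMap_single, map_one, h34_coeffMap_iotaR, h34_h2Rinv]

end General

section Field

variable (K : Type*) [Field K]

theorem h34_h2Rinv_eq_inv : h34_h2Rinv K = (h34_h2R K)⁻¹ :=
  (inv_eq_of_mul_eq_one_right (h34_h2R_mul_inv K)).symm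

theorem h34_h2R_ne_zero : h34_h2R K ≠ 0 := (h34_h2R_isUnit K).ne_zero

theorem h34_h2R_eq_pole :
    h34_h2R K = HahnSeries.single (-1 : ℤ) (1 : K) *
      HahnSeries.ofPowerSeries ℤ K (h34_u2.map (Int.castRingHom K)) := rfl

/-- The Hauptmodul is transcendental over the constants (any characteristic). -/
theorem h34_h2R_transcendental : Transcendental K (h34_h2R K) := by
  rw [h34_h2R_eq_pole]
  refine h53m_transcendental_of_pole _ ?_
  rw [← PowerSeries.coeff_zero_eq_constantCoeff, PowerSeries.coeff_map,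
    PowerSeries.coeff_zero_eq_constantCoeff, h34_constantCoeff_u2, map_one]

variable [CharZero K]

/-- `h₂` lies in the function field of `X₀(M)` over `K` whenever `2 ∣ M`. -/
theorem h34_h2R_mem_fullC (M : ℕ) [NeZero M] (h2 : 2 ∣ M) :
    h34_h2R K ∈ modularFunctionFieldFullC K M :=
  h80_mem_fullC2 K M h2 (h34_h2R K) (h34_h2R_j K) (h34_h2R_j2 K)

theorem h34_h2Rinv_mem_fullC (M : ℕ) [NeZero M] (h2 : 2 ∣ M) :
    h34_h2Rinv K ∈ modularFunctionFieldFullC K M := by
  rw [h34_h2Rinv_eq_inv]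
  exact inv_mem (h34_h2R_mem_fullC K M h2)

end Field

/-- Over `ℚ`: `h₂ ∈ ℚ(j(q^d) : d ∣ M)` whenever `2 ∣ M`. -/
theorem h34_h2_mem_full (M : ℕ) [NeZero M] (h2 : 2 ∣ M) :
    h34_h2R ℚ ∈ modularFunctionFieldFull M := by
  rw [← modularFunctionFieldFullC_rat]
  exact h34_h2R_mem_fullC ℚ M h2

section BaseChange

variable (L : Type*) [Field L] [Algebra ℚ L]

theorem h34_coeffEmb_h2 : coeffEmb L (h34_h2R ℚ) = h34_h2R L := by
  rw [coeffEmb, h34_coeffMap_h2R]

/-- `h₂` with coefficients in `L` lies in the base change of the function field of `X₀(M)`. -/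
theorem h34_h2R_mem_baseChange (M : ℕ) [NeZero M] (h2 : 2 ∣ M) :
    h34_h2R L ∈ laurentBaseChange L (modularFunctionFieldFull M) := by
  rw [← h34_coeffEmb_h2]
  exact coeffEmb_mem_laurentBaseChange L (h34_h2_mem_full M h2)

theorem h34_h2Rinv_mem_baseChange (M : ℕ) [NeZero M] (h2 : 2 ∣ M) :
    h34_h2Rinv L ∈ laurentBaseChange L (modularFunctionFieldFull M) := by
  rw [h34_h2Rinv_eq_inv]
  exact inv_mem (h34_h2R_mem_baseChange L M h2)

end BaseChange

/-- `h₂ ∈ F(M)_{ℚ̄}` for `2 ∣ M`. -/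
theorem h34_h2R_mem_bar (M : ℕ) [NeZero M] (h2 : 2 ∣ M) :
    h34_h2R (AlgebraicClosure ℚ) ∈ modularFunctionFieldBar M :=
  h34_h2R_mem_baseChange (AlgebraicClosure ℚ) M h2

end Fermat.Agent.S18
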