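import Fermat.Agent.S18.HorizGeom94b
import Fermat.Agent.S18.Bridge51
import Fermat.Agent.S18.FieldDef27
import Fermat.Agent.S18.Haupt2R70
import Fermat.Agent.S18.Haupt2R_34

/-!
S18, row B5-H-inst (helper94): hypothesis `hH` of the per-chart assembly
`ca39_isIntegrallyClosed_fibre` (ChartAsm39), in its literal shape, on the `K₀`-model
`F := ↥(modularFunctionFieldFullC K0 M)` of the modular function field.

Setting: `R` a DVR with uniformiser `π`, `K0 = Frac R` with `[Algebra K0 ℚbar]` algebraic,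
ANY instance `[Algebra R[X] F]` (the chart coordinate is `x := algebraMap R[X] F X`), `E` any
model of `Frac R[X]` with `F / E` finite separable.  Hypotheses: `hC` (constants) and `hX`
(the chart coordinate is the Hauptmodul or its inverse, as a Laurent series over `K0`).
Conclusion: `PurSelfDualAt R[X] E F p` for every prime `p ∤ C π * X * (X - C c)`.

* `hi94_hH2`, `hi94_hH2_inv`, `hi94_hH3`, `hi94_hH3_inv`: generic in the Hauptmodul element
  `hb : ↥(modularFunctionFieldBar M)` (any element satisfying the relation with `j`).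
* `hi94_hH_level3(_inv)`: `x = h34_h3R K0` resp. `h34_h3Rinv K0`.
* `hi94_hH_level2(_inv)`: `x = h70_h2 K0` resp. `h70_h2inv K0`.
* `hi94_hH_level2'(_inv')`: `x = h34_h2R K0` resp. `h34_h2Rinv K0`.
-/

set_option autoImplicit false

open AlgebraicCurve IntermediateField Polynomial ModularCurve

namespace Fermat.Agent.S18

open Fermat.Agent.S24

section Inst

variable {R : Type*} [CommRing R] [IsDomain R] [IsDiscreteValuationRing R] {π : R}
variable {K0 : Type*} [Field K0] [Algebra R K0] [IsFractionRing R K0]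
variable [Algebra K0 Kbar] [Algebra.IsAlgebraic K0 Kbar]
variable (M : ℕ) [NeZero M]
variable {E : Type*} [Field E] [Algebra R[X] E] [IsFractionRing R[X] E]
  [Algebra E ↥(modularFunctionFieldFullC K0 M)] [Algebra R[X] ↥(modularFunctionFieldFullC K0 M)]
  [IsScalarTower R[X] E ↥(modularFunctionFieldFullC K0 M)]
  [FiniteDimensional E ↥(modularFunctionFieldFullC K0 M)]
  [Algebra.IsSeparable E ↥(modularFunctionFieldFullC K0 M)]

omit [Algebra.IsAlgebraic K0 Kbar] [NeZero M] in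
/-- `ι = fd27_iota` sends the chart coordinate to `hb` as soon as the Laurent series agree. -/
theorem hi94_iota_eq (x : ↥(modularFunctionFieldFullC K0 M)) (hb : ↥(modularFunctionFieldBar M))
    (hx : coeffMap (algebraMap K0 Kbar) (x : LaurentSeries K0) = (hb : LaurentSeries Kbar)) :
    fd27_iota (algebraMap K0 Kbar) M x = hb :=
  Subtype.ext hx

omit [Algebra.IsAlgebraic K0 Kbar] [NeZero M] in
/-- The same for the inverse chart. -/
theorem hi94_iota_eq_inv (x : ↥(modularFunctionFieldFullC K0 M))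
    (hb : ↥(modularFunctionFieldBar M))
    (hx : coeffMap (algebraMap K0 Kbar) (x : LaurentSeries K0) * (hb : LaurentSeries Kbar) = 1) :
    fd27_iota (algebraMap K0 Kbar) M x = hb⁻¹ := by
  apply eq_inv_of_mul_eq_one_left
  apply Subtype.ext
  push_cast
  rw [fd27_iota_coe]
  exact hx

/-- `hH`, level 2, chart `x = h`, generic Hauptmodul element `hb`. -/
theorem hi94_hH2 (hb : ↥(modularFunctionFieldBar M))
    (hrel : (⟨JJ 1, asmAb_JJ_mem M 1 (one_dvd M)⟩ : ↥(modularFunctionFieldBar M)) * hb ^ 2 =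
      (hb + 256) ^ 3)
    (hπ : Irreducible π)
    (hC : ∀ r : R, algebraMap R[X] ↥(modularFunctionFieldFullC K0 M) (C r) =
      algebraMap K0 ↥(modularFunctionFieldFullC K0 M) (algebraMap R K0 r))
    (hX : coeffMap (algebraMap K0 Kbar)
      ((algebraMap R[X] ↥(modularFunctionFieldFullC K0 M) X :
        ↥(modularFunctionFieldFullC K0 M)) : LaurentSeries K0) = (hb : LaurentSeries Kbar))
    (p : R[X]) (hp : Prime p) (hpc : ¬ p ∣ C π * X * (X - C (-64))) :
    PurSelfDualAt R[X] E ↥(modularFunctionFieldFullC K0 M) p :=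
  pur_selfDualAt_of_hcodim (C := integralClosure R[X] ↥(modularFunctionFieldFullC K0 M)) hp
    (g94_hcodim2 (K0 := K0) M hb hrel hπ hC (fd27_iota (algebraMap K0 Kbar) M)
      (fd27_iota_algebraMap (algebraMap K0 Kbar) M) (hi94_iota_eq M _ hb hX) p hp hpc)

/-- `hH`, level 2, chart `x = h⁻¹`, generic Hauptmodul element `hb`. -/
theorem hi94_hH2_inv (hb : ↥(modularFunctionFieldBar M))
    (hrel : (⟨JJ 1, asmAb_JJ_mem M 1 (one_dvd M)⟩ : ↥(modularFunctionFieldBar M)) * hb ^ 2 =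
      (hb + 256) ^ 3)
    (hπ : Irreducible π)
    (hC : ∀ r : R, algebraMap R[X] ↥(modularFunctionFieldFullC K0 M) (C r) =
      algebraMap K0 ↥(modularFunctionFieldFullC K0 M) (algebraMap R K0 r))
    (hX : coeffMap (algebraMap K0 Kbar)
      ((algebraMap R[X] ↥(modularFunctionFieldFullC K0 M) X :
        ↥(modularFunctionFieldFullC K0 M)) : LaurentSeries K0) * (hb : LaurentSeries Kbar) = 1)
    (c : R) (hc : c * 64 = -1)
    (p : R[X]) (hp : Prime p) (hpc : ¬ p ∣ C π * X * (X - C c)) :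
    PurSelfDualAt R[X] E ↥(modularFunctionFieldFullC K0 M) p :=
  pur_selfDualAt_of_hcodim (C := integralClosure R[X] ↥(modularFunctionFieldFullC K0 M)) hp
    (g94_hcodim2_inv (K0 := K0) M hb hrel hπ hC (fd27_iota (algebraMap K0 Kbar) M)
      (fd27_iota_algebraMap (algebraMap K0 Kbar) M) (hi94_iota_eq_inv M _ hb hX) c hc p hp hpc)

/-- `hH`, level 3, chart `x = h`, generic Hauptmodul element `hb`. -/
theorem hi94_hH3 (hb : ↥(modularFunctionFieldBar M))
    (hrel : (⟨JJ 1, asmAb_JJ_mem M 1 (one_dvd M)⟩ : ↥(modularFunctionFieldBar M)) * hb ^ 3 =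
      (hb + 27) * (hb + 243) ^ 3)
    (hπ : Irreducible π)
    (hC : ∀ r : R, algebraMap R[X] ↥(modularFunctionFieldFullC K0 M) (C r) =
      algebraMap K0 ↥(modularFunctionFieldFullC K0 M) (algebraMap R K0 r))
    (hX : coeffMap (algebraMap K0 Kbar)
      ((algebraMap R[X] ↥(modularFunctionFieldFullC K0 M) X :
        ↥(modularFunctionFieldFullC K0 M)) : LaurentSeries K0) = (hb : LaurentSeries Kbar))
    (p : R[X]) (hp : Prime p) (hpc : ¬ p ∣ C π * X * (X - C (-27))) :
    PurSelfDualAt R[X] E ↥(modularFunctionFieldFullC K0 M) p :=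
  pur_selfDualAt_of_hcodim (C := integralClosure R[X] ↥(modularFunctionFieldFullC K0 M)) hp
    (g94_hcodim3 (K0 := K0) M hb hrel hπ hC (fd27_iota (algebraMap K0 Kbar) M)
      (fd27_iota_algebraMap (algebraMap K0 Kbar) M) (hi94_iota_eq M _ hb hX) p hp hpc)

/-- `hH`, level 3, chart `x = h⁻¹`, generic Hauptmodul element `hb`. -/
theorem hi94_hH3_inv (hb : ↥(modularFunctionFieldBar M))
    (hrel : (⟨JJ 1, asmAb_JJ_mem M 1 (one_dvd M)⟩ : ↥(modularFunctionFieldBar M)) * hb ^ 3 =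
      (hb + 27) * (hb + 243) ^ 3)
    (hπ : Irreducible π)
    (hC : ∀ r : R, algebraMap R[X] ↥(modularFunctionFieldFullC K0 M) (C r) =
      algebraMap K0 ↥(modularFunctionFieldFullC K0 M) (algebraMap R K0 r))
    (hX : coeffMap (algebraMap K0 Kbar)
      ((algebraMap R[X] ↥(modularFunctionFieldFullC K0 M) X :
        ↥(modularFunctionFieldFullC K0 M)) : LaurentSeries K0) * (hb : LaurentSeries Kbar) = 1)
    (c : R) (hc : c * 27 = -1)
    (p : R[X]) (hp : Prime p) (hpc : ¬ p ∣ C π * X * (X - C c)) :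
    PurSelfDualAt R[X] E ↥(modularFunctionFieldFullC K0 M) p :=
  pur_selfDualAt_of_hcodim (C := integralClosure R[X] ↥(modularFunctionFieldFullC K0 M)) hp
    (g94_hcodim3_inv (K0 := K0) M hb hrel hπ hC (fd27_iota (algebraMap K0 Kbar) M)
      (fd27_iota_algebraMap (algebraMap K0 Kbar) M) (hi94_iota_eq_inv M _ hb hX) c hc p hp hpc)

/-! ### Level 3: `x = h34_h3R K0`, `x = h34_h3Rinv K0` -/

/-- `hH` of `ca39_isIntegrallyClosed_fibre`, level 3, chart `x = h` (`c = -27`). -/
theorem hi94_hH_level3 (h3 : 3 ∣ M) (hπ : Irreducible π)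
    (hC : ∀ r : R, algebraMap R[X] ↥(modularFunctionFieldFullC K0 M) (C r) =
      algebraMap K0 ↥(modularFunctionFieldFullC K0 M) (algebraMap R K0 r))
    (hX : ((algebraMap R[X] ↥(modularFunctionFieldFullC K0 M) X :
        ↥(modularFunctionFieldFullC K0 M)) : LaurentSeries K0) = h34_h3R K0)
    (p : R[X]) (hp : Prime p) (hpc : ¬ p ∣ C π * X * (X - C (-27))) :
    PurSelfDualAt R[X] E ↥(modularFunctionFieldFullC K0 M) p :=
  hi94_hH3 M (h53m_h3bar M h3) (h53m_h3bar_rel M h3) hπ hC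
    (by rw [hX, h34_coeffMap_h3R]; rfl) p hp hpc

/-- `hH` of `ca39_isIntegrallyClosed_fibre`, level 3, chart `x = h⁻¹` (`c = -1/27`). -/
theorem hi94_hH_level3_inv (h3 : 3 ∣ M) (hπ : Irreducible π)
    (hC : ∀ r : R, algebraMap R[X] ↥(modularFunctionFieldFullC K0 M) (C r) =
      algebraMap K0 ↥(modularFunctionFieldFullC K0 M) (algebraMap R K0 r))
    (hX : ((algebraMap R[X] ↥(modularFunctionFieldFullC K0 M) X :
        ↥(modularFunctionFieldFullC K0 M)) : LaurentSeries K0) = h34_h3Rinv K0)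
    (c : R) (hc : c * 27 = -1)
    (p : R[X]) (hp : Prime p) (hpc : ¬ p ∣ C π * X * (X - C c)) :
    PurSelfDualAt R[X] E ↥(modularFunctionFieldFullC K0 M) p :=
  hi94_hH3_inv M (h53m_h3bar M h3) (h53m_h3bar_rel M h3) hπ hC
    (by
      rw [hX, h34_coeffMap_h3Rinv, mul_comm]
      exact h34_h3R_mul_inv Kbar) c hc p hp hpc

/-! ### Level 2: `x = h70_h2 K0`, `x = h70_h2inv K0` -/

/-- `hH` of `ca39_isIntegrallyClosed_fibre`, level 2, chart `x = h` (`c = -64`). -/
theorem hi94_hH_level2 (h2 : 2 ∣ M) (hπ : Irreducible π)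
    (hC : ∀ r : R, algebraMap R[X] ↥(modularFunctionFieldFullC K0 M) (C r) =
      algebraMap K0 ↥(modularFunctionFieldFullC K0 M) (algebraMap R K0 r))
    (hX : ((algebraMap R[X] ↥(modularFunctionFieldFullC K0 M) X :
        ↥(modularFunctionFieldFullC K0 M)) : LaurentSeries K0) = h70_h2 K0)
    (p : R[X]) (hp : Prime p) (hpc : ¬ p ∣ C π * X * (X - C (-64))) :
    PurSelfDualAt R[X] E ↥(modularFunctionFieldFullC K0 M) p :=
  hi94_hH2 M (g94_h2bar M h2) (g94_h2bar_rel M h2) hπ hC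
    (by rw [hX, h70_coeffMap_h2]; rfl) p hp hpc

/-- `hH` of `ca39_isIntegrallyClosed_fibre`, level 2, chart `x = h⁻¹` (`c = -1/64`). -/
theorem hi94_hH_level2_inv (h2 : 2 ∣ M) (hπ : Irreducible π)
    (hC : ∀ r : R, algebraMap R[X] ↥(modularFunctionFieldFullC K0 M) (C r) =
      algebraMap K0 ↥(modularFunctionFieldFullC K0 M) (algebraMap R K0 r))
    (hX : ((algebraMap R[X] ↥(modularFunctionFieldFullC K0 M) X :
        ↥(modularFunctionFieldFullC K0 M)) : LaurentSeries K0) = h70_h2inv K0)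
    (c : R) (hc : c * 64 = -1)
    (p : R[X]) (hp : Prime p) (hpc : ¬ p ∣ C π * X * (X - C c)) :
    PurSelfDualAt R[X] E ↥(modularFunctionFieldFullC K0 M) p :=
  hi94_hH2_inv M (g94_h2bar M h2) (g94_h2bar_rel M h2) hπ hC
    (by
      rw [hX, h70_coeffMap_h2inv, mul_comm]
      exact h70_h2_mul_h2inv Kbar) c hc p hp hpc

/-! ### Level 2, helper34's presentation: `x = h34_h2R K0`, `x = h34_h2Rinv K0` -/

/-- helper34's level-2 Hauptmodul as an element of `F(M)_ℚbar`. -/
noncomputable def hi94_h2Rbar (h2 : 2 ∣ M) : ↥(modularFunctionFieldBar M) :=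
  ⟨h34_h2R Kbar, h34_h2R_mem_bar M h2⟩

theorem hi94_h2Rbar_rel (h2 : 2 ∣ M) :
    (⟨JJ 1, asmAb_JJ_mem M 1 (one_dvd M)⟩ : ↥(modularFunctionFieldBar M)) * hi94_h2Rbar M h2 ^ 2 =
      (hi94_h2Rbar M h2 + 256) ^ 3 := by
  apply Subtype.ext
  push_cast
  rw [g94_JJ_one]
  exact h34_h2R_j Kbar

/-- `hH`, level 2, chart `x = h34_h2R K0` (`c = -64`). -/
theorem hi94_hH_level2' (h2 : 2 ∣ M) (hπ : Irreducible π)
    (hC : ∀ r : R, algebraMap R[X] ↥(modularFunctionFieldFullC K0 M) (C r) =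
      algebraMap K0 ↥(modularFunctionFieldFullC K0 M) (algebraMap R K0 r))
    (hX : ((algebraMap R[X] ↥(modularFunctionFieldFullC K0 M) X :
        ↥(modularFunctionFieldFullC K0 M)) : LaurentSeries K0) = h34_h2R K0)
    (p : R[X]) (hp : Prime p) (hpc : ¬ p ∣ C π * X * (X - C (-64))) :
    PurSelfDualAt R[X] E ↥(modularFunctionFieldFullC K0 M) p :=
  hi94_hH2 M (hi94_h2Rbar M h2) (hi94_h2Rbar_rel M h2) hπ hC
    (by rw [hX, h34_coeffMap_h2R]; rfl) p hp hpc

/-- `hH`, level 2, chart `x = h34_h2Rinv K0` (`c = -1/64`). -/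
theorem hi94_hH_level2_inv' (h2 : 2 ∣ M) (hπ : Irreducible π)
    (hC : ∀ r : R, algebraMap R[X] ↥(modularFunctionFieldFullC K0 M) (C r) =
      algebraMap K0 ↥(modularFunctionFieldFullC K0 M) (algebraMap R K0 r))
    (hX : ((algebraMap R[X] ↥(modularFunctionFieldFullC K0 M) X :
        ↥(modularFunctionFieldFullC K0 M)) : LaurentSeries K0) = h34_h2Rinv K0)
    (c : R) (hc : c * 64 = -1)
    (p : R[X]) (hp : Prime p) (hpc : ¬ p ∣ C π * X * (X - C c)) :
    PurSelfDualAt R[X] E ↥(modularFunctionFieldFullC K0 M) p :=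
  hi94_hH2_inv M (hi94_h2Rbar M h2) (hi94_h2Rbar_rel M h2) hπ hC
    (by
      rw [hX, h34_coeffMap_h2Rinv, mul_comm]
      exact h34_h2R_mul_inv Kbar) c hc p hp hpc

end Inst

end Fermat.Agent.S18
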