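import Mathlib
import Fermat.Agent.S18.Pack15

/-!
# S18 — transport of the B5 outputs to the charts `pk15_chart`

B5 produces its statements for `integralClosure O F`, where `O` is a base ring acting on `F`
(`O = Polynomial R` through `X ↦ h`, or `O = Algebra.adjoin R {h}`).  The two-chart lemma wants
them for the `R`-subalgebra `pk15_chart R s` (`s = {h}`).  Both have the same underlying set as
soon as the image of `O` in `F` is `R[s]` (`hrange`); this file provides the ring isomorphism
and the transports (Dedekind special fibre, noetherian, `hfin`, `hfrac`).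
-/

namespace Fermat.Agent.S18

open Polynomial

/-- Dedekind domains are preserved by ring isomorphisms. -/
theorem pk15_dedekind_of_ringEquiv {A B : Type*} [CommRing A] [CommRing B] (e : A ≃+* B)
    [IsDedekindDomain A] : IsDedekindDomain B := by
  have h1 : IsDomain B := e.symm.toMulEquiv.isDomain A
  have h2 : IsNoetherianRing B := isNoetherianRing_of_ringEquiv A e
  have h3 : Ring.DimensionLEOne B := Ring.DimensionLEOne.of_ringEquiv e.symm
  have h4 : IsIntegrallyClosed B := IsIntegrallyClosed.of_equiv e
  exact { toIsDomain := h1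
          toIsDedekindRing := { toIsNoetherian := h2
                                toDimensionLEOne := h3
                                toIsIntegralClosure := h4 } }

section transport

variable {R : Type*} [CommRing R] {F : Type*} [Field F] [Algebra R F]
variable {O : Type*} [CommRing O] [Algebra O F]

/-- integrality over `O` and over its image `R[s]` agree. -/
theorem pk15_isIntegral_iff (s : Set F)
    (hrange : ∀ y : F, y ∈ Algebra.adjoin R s ↔ y ∈ (algebraMap O F).range) (x : F) :
    IsIntegral O x ↔ IsIntegral (Algebra.adjoin R s) x := by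
  let θ : O →+* Algebra.adjoin R s :=
    (algebraMap O F).codRestrict (Algebra.adjoin R s) (fun o => (hrange _).mpr ⟨o, rfl⟩)
  have hθ : (algebraMap (Algebra.adjoin R s) F).comp θ = algebraMap O F := RingHom.ext fun _ => rfl
  have hsurj : Function.Surjective θ := by
    rintro ⟨y, hy⟩
    obtain ⟨o, ho⟩ := (hrange y).mp hy
    exact ⟨o, Subtype.ext ho⟩
  constructor
  · rintro ⟨p, hp, hpx⟩
    refine ⟨p.map θ, hp.map _, ?_⟩
    rw [eval₂_map, hθ]
    exact hpx
  · rintro ⟨q, hq, hqx⟩
    have hlift : q ∈ lifts θ := by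
      rw [mem_lifts]
      exact map_surjective θ hsurj q
    obtain ⟨p, hpq, -, hpm⟩ := lifts_and_natDegree_eq_and_monic hlift hq
    refine ⟨p, hpm, ?_⟩
    rw [← hpq, eval₂_map, hθ] at hqx
    exact hqx

/-- the ring isomorphism `integralClosure O F ≃ pk15_chart R s` (identity on elements). -/
def pk15_chartEquiv (s : Set F)
    (hrange : ∀ y : F, y ∈ Algebra.adjoin R s ↔ y ∈ (algebraMap O F).range) :
    integralClosure O F ≃+* pk15_chart R s where
  toFun x := ⟨x, (pk15_isIntegral_iff s hrange x).mp x.2⟩
  invFun x := ⟨x, (pk15_isIntegral_iff s hrange x).mpr x.2⟩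
  left_inv _ := rfl
  right_inv _ := rfl
  map_mul' _ _ := rfl
  map_add' _ _ := rfl

theorem pk15_chartEquiv_coe (s : Set F)
    (hrange : ∀ y : F, y ∈ Algebra.adjoin R s ↔ y ∈ (algebraMap O F).range)
    (x : integralClosure O F) : ((pk15_chartEquiv s hrange x : pk15_chart R s) : F) = x := rfl

/-- transport of "the special fibre is Dedekind". -/
theorem pk15_dedekind_transport (π : R) (π' : O) (hπ : algebraMap O F π' = algebraMap R F π)
    (s : Set F) (hrange : ∀ y : F, y ∈ Algebra.adjoin R s ↔ y ∈ (algebraMap O F).range)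
    [IsDedekindDomain (integralClosure O F ⧸
      Ideal.span {algebraMap O (integralClosure O F) π'})] :
    IsDedekindDomain (pk15_chart R s ⧸ Ideal.span {algebraMap R (pk15_chart R s) π}) := by
  have hI : Ideal.span {algebraMap R (pk15_chart R s) π}
      = (Ideal.span {algebraMap O (integralClosure O F) π'}).map
          (pk15_chartEquiv (R := R) s hrange : integralClosure O F →+* pk15_chart R s) := by
    rw [Ideal.map_span, Set.image_singleton]
    congr 2
    apply Subtype.ext
    exact hπ.symm
  exact pk15_dedekind_of_ringEquiv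
    (Ideal.quotientEquiv _ _ (pk15_chartEquiv (R := R) s hrange) hI)

/-- transport of noetherianity. -/
theorem pk15_noeth_transport (s : Set F)
    (hrange : ∀ y : F, y ∈ Algebra.adjoin R s ↔ y ∈ (algebraMap O F).range)
    [IsNoetherianRing (integralClosure O F)] : IsNoetherianRing (pk15_chart R s) :=
  isNoetherianRing_of_ringEquiv _ (pk15_chartEquiv (R := R) s hrange)

/-- `hfin` of `tc_main` from module-finiteness of the integral closure. -/
theorem pk15_hfin_transport (s : Set F)
    (hrange : ∀ y : F, y ∈ Algebra.adjoin R s ↔ y ∈ (algebraMap O F).range)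
    [Module.Finite O (integralClosure O F)] :
    ∃ G : Finset F, ∀ x ∈ pk15_chart R s,
      x ∈ Submodule.span (Algebra.adjoin R s) (G : Set F) := by
  classical
  obtain ⟨G₀, hG₀⟩ := (Module.Finite.fg_top : (⊤ : Submodule O (integralClosure O F)).FG)
  refine ⟨G₀.image Subtype.val, ?_⟩
  intro x hx
  have hxC : IsIntegral O x := (pk15_isIntegral_iff s hrange x).mpr hx
  have hmem : (⟨x, hxC⟩ : integralClosure O F) ∈ Submodule.span O (G₀ : Set (integralClosure O F)) := by
    rw [hG₀]; trivial
  rw [Submodule.mem_span_finset] at hmem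
  obtain ⟨c, -, hc⟩ := hmem
  have hxsum : x = ∑ g ∈ G₀, algebraMap O F (c g) * (g : F) := by
    have := congrArg Subtype.val hc
    simp only [AddSubmonoidClass.coe_finsetSum] at this
    rw [← this]
    refine Finset.sum_congr rfl fun g _ => ?_
    rw [Algebra.smul_def]
    rfl
  rw [hxsum]
  refine Submodule.sum_mem _ fun g hg => ?_
  have h1 : algebraMap O F (c g) ∈ Algebra.adjoin R s := (hrange _).mpr ⟨c g, rfl⟩
  have h2 : (g : F) ∈ Submodule.span (Algebra.adjoin R s) ((G₀.image Subtype.val : Finset F) : Set F) :=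
    Submodule.subset_span (Finset.mem_coe.mpr (Finset.mem_image_of_mem _ hg))
  exact Submodule.smul_mem _ (⟨_, h1⟩ : Algebra.adjoin R s) h2

/-- `hfrac` of `tc_main`/`lp7` from algebraicity of `F` over `O`. -/
theorem pk15_hfrac_transport (s : Set F)
    (hrange : ∀ y : F, y ∈ Algebra.adjoin R s ↔ y ∈ (algebraMap O F).range)
    (hinj : Function.Injective (algebraMap O F)) (halg : ∀ x : F, IsAlgebraic O x) :
    ∀ x : F, ∃ a ∈ pk15_chart R s, ∃ b ∈ pk15_chart R s, b ≠ 0 ∧ x * b = a := by
  intro x
  obtain ⟨y, hy0, hy⟩ := (halg x).exists_integral_multiple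
  refine ⟨y • x, (pk15_isIntegral_iff s hrange _).mp hy, algebraMap O F y,
    (pk15_isIntegral_iff s hrange _).mp isIntegral_algebraMap, ?_, ?_⟩
  · intro h0
    exact hy0 (hinj (by rw [h0, map_zero]))
  · rw [Algebra.smul_def, mul_comm]

/-- `hrange` for `O = R[X]` acting on `F` through `X ↦ h`. -/
theorem pk15_hrange_poly [Algebra (Polynomial R) F] (h : F)
    (hO : ∀ p : Polynomial R, algebraMap (Polynomial R) F p = Polynomial.aeval h p) :
    ∀ y : F, y ∈ Algebra.adjoin R ({h} : Set F) ↔ y ∈ (algebraMap (Polynomial R) F).range := by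
  intro y
  rw [Algebra.adjoin_singleton_eq_range_aeval]
  constructor
  · rintro ⟨p, rfl⟩; exact ⟨p, hO p⟩
  · rintro ⟨p, rfl⟩; exact ⟨p, (hO p).symm⟩

/-- `hπ` for `O = R[X]` acting on `F` through `X ↦ h`, `π' = C π`. -/
theorem pk15_hpi_poly [Algebra (Polynomial R) F] (h : F)
    (hO : ∀ p : Polynomial R, algebraMap (Polynomial R) F p = Polynomial.aeval h p) (π : R) :
    algebraMap (Polynomial R) F (C π) = algebraMap R F π := by
  rw [hO, aeval_C]

/-- `hrange` for `O = Algebra.adjoin R s` itself. -/
theorem pk15_hrange_adjoin (s : Set F) :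
    ∀ y : F, y ∈ Algebra.adjoin R s ↔ y ∈ (algebraMap (Algebra.adjoin R s) F).range := by
  intro y
  constructor
  · intro hy; exact ⟨⟨y, hy⟩, rfl⟩
  · rintro ⟨z, rfl⟩; exact z.2

end transport

end Fermat.Agent.S18
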