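import Mathlib

/-!
# S18, generic row (E): purity for trace-self-dual integral closures (helper51)

`O` a noetherian UFD, `E = Frac O`, `L / E` finite separable, `C` = integral closure of `O` in `L`.
If `C` is trace-self-dual at every prime element of `O` ("unramified in codimension one"), then
`C` is trace-self-dual, and if moreover `π` is a prime element in the Jacobson radical with
`O ⧸ π` a PID, then `C` has an `O`-basis with a trace-dual basis inside `C`, `C ⧸ π C` is
torsion-free over `O ⧸ π`, and the fibres `C ⧸ (π, z)` are reduced.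

All names are prefixed `pur_`.
-/

set_option autoImplicit false

open Polynomial

namespace Fermat.Agent.S18

section Hartogs

variable {O E : Type*} [CommRing O] [IsDomain O] [UniqueFactorizationMonoid O]
  [Field E] [Algebra O E] [IsFractionRing O E]

/-- Hartogs for a UFD: an element of the fraction field which lies in `O_(p)` for every prime
element `p` lies in `O`. -/
theorem pur_mem_of_forall_prime (x : E)
    (h : ∀ p : O, Prime p → ∃ a s : O, ¬ p ∣ s ∧ x * algebraMap O E s = algebraMap O E a) :
    ∃ a : O, algebraMap O E a = x := by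
  obtain ⟨a, b, hrel, hx⟩ := IsFractionRing.exists_reduced_fraction (A := O) (K := E) x
  have hb0 : (b : O) ≠ 0 := nonZeroDivisors.ne_zero b.2
  have hinj : Function.Injective (algebraMap O E) := IsFractionRing.injective O E
  have hbE : algebraMap O E (b : O) ≠ 0 := fun h0 => hb0 (hinj (by rw [h0, map_zero]))
  have hxb : x * algebraMap O E (b : O) = algebraMap O E a := by
    rw [← hx]; exact IsLocalization.mk'_spec E a b
  by_cases hu : IsUnit (b : O)
  · obtain ⟨u, hu⟩ := hu
    refine ⟨a * (↑u⁻¹ : O), ?_⟩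
    have h1 : algebraMap O E (b : O) * algebraMap O E (↑u⁻¹ : O) = 1 := by
      rw [← map_mul, ← hu, Units.mul_inv, map_one]
    rw [map_mul, ← hxb, mul_assoc, h1, mul_one]
  · exfalso
    obtain ⟨p, hp, hpb⟩ := WfDvdMonoid.exists_irreducible_factor hu hb0
    have hpp : Prime p := UniqueFactorizationMonoid.irreducible_iff_prime.mp hp
    obtain ⟨a', s, hps, hxs⟩ := h p hpp
    have hcross : a * s = a' * (b : O) := by
      apply hinj
      rw [map_mul, map_mul, ← hxb, ← hxs]
      ring
    have hpa : p ∣ a := by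
      have : p ∣ a * s := hcross ▸ Dvd.dvd.mul_left hpb a'
      exact (hpp.dvd_or_dvd this).resolve_right hps
    exact hp.not_isUnit (hrel hpa hpb)

/-- Hartogs at a prime ideal `𝔪` of a UFD: an element of the fraction field which lies in
`O_(p)` for every prime element `p ∈ 𝔪` lies in `O_𝔪`. -/
theorem pur_exists_den (𝔪 : Ideal O) [𝔪.IsPrime] (x : E)
    (h : ∀ p : O, Prime p → p ∈ 𝔪 →
      ∃ a s : O, ¬ p ∣ s ∧ x * algebraMap O E s = algebraMap O E a) :
    ∃ a s : O, s ∉ 𝔪 ∧ x * algebraMap O E s = algebraMap O E a := by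
  obtain ⟨a, b, hrel, hx⟩ := IsFractionRing.exists_reduced_fraction (A := O) (K := E) x
  have hb0 : (b : O) ≠ 0 := nonZeroDivisors.ne_zero b.2
  have hinj : Function.Injective (algebraMap O E) := IsFractionRing.injective O E
  have hxb : x * algebraMap O E (b : O) = algebraMap O E a := by
    rw [← hx]; exact IsLocalization.mk'_spec E a b
  refine ⟨a, b, fun hbm => ?_, hxb⟩
  -- some prime factor of `b` lies in `𝔪`
  obtain ⟨u, hu⟩ := UniqueFactorizationMonoid.factors_prod hb0
  have hprod : (UniqueFactorizationMonoid.factors (b : O)).prod ∈ 𝔪 := by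
    have h1 : (UniqueFactorizationMonoid.factors (b : O)).prod * ↑u * ↑u⁻¹ ∈ 𝔪 := by
      rw [hu]; exact 𝔪.mul_mem_right _ hbm
    rwa [mul_assoc, Units.mul_inv, mul_one] at h1
  obtain ⟨p, hpf, hpm⟩ :=
    (Ideal.IsPrime.multiset_prod_mem_iff_exists_mem inferInstance _).mp hprod
  have hpp : Prime p := UniqueFactorizationMonoid.prime_of_factor p hpf
  have hpb : p ∣ (b : O) := UniqueFactorizationMonoid.dvd_of_mem_factors hpf
  obtain ⟨a', s, hps, hxs⟩ := h p hpp hpm
  have hcross : a * s = a' * (b : O) := by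
    apply hinj
    rw [map_mul, map_mul, ← hxb, ← hxs]
    ring
  have hpa : p ∣ a := by
    have : p ∣ a * s := hcross ▸ Dvd.dvd.mul_left hpb a'
    exact (hpp.dvd_or_dvd this).resolve_right hps
  exact hpp.not_isUnit (hrel hpa hpb)

end Hartogs

section IntegralClosure

variable {O E L : Type*} [CommRing O] [IsDomain O] [UniqueFactorizationMonoid O]
  [Field E] [Algebra O E] [IsFractionRing O E]
  [Field L] [Algebra E L] [Algebra O L] [IsScalarTower O E L]

/-- The minimal polynomial of `c • y` is the root-scaled minimal polynomial of `y`. -/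
theorem pur_minpoly_smul {c : E} (hc : c ≠ 0) {y : L} (hy : IsIntegral E y) :
    minpoly E (algebraMap E L c * y) = (minpoly E y).scaleRoots c := by
  symm
  refine minpoly.unique E _ ((monic_scaleRoots_iff c).mpr (minpoly.monic hy))
    (scaleRoots_aeval_eq_zero (minpoly.aeval E y)) ?_
  intro q hq hq0
  have h1 : aeval y (q.scaleRoots c⁻¹) = 0 := by
    have := scaleRoots_aeval_eq_zero (r := c⁻¹) hq0
    rwa [← mul_assoc, ← map_mul, inv_mul_cancel₀ hc, map_one, one_mul] at this
  have h2 : (q.scaleRoots c⁻¹).Monic := (monic_scaleRoots_iff c⁻¹).mpr hq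
  have h3 := minpoly.min E y h2 h1
  rw [degree_scaleRoots] at h3 ⊢
  exact h3

/-- If every coefficient of the minimal polynomial of `y` over `E = Frac O` lies in `O`, then `y`
is integral over `O`. -/
theorem pur_isIntegral_of_coeff (y : L) (hyE : IsIntegral E y)
    (hcoeff : ∀ i : ℕ, ∃ a : O, algebraMap O E a = (minpoly E y).coeff i) : IsIntegral O y := by
  have hinj : Function.Injective (algebraMap O E) := IsFractionRing.injective O E
  choose a ha using hcoeff
  set n := (minpoly E y).natDegree with hn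
  set f : O[X] := ∑ i ∈ Finset.range (n + 1), C (a i) * X ^ i with hf
  have hfmap : f.map (algebraMap O E) = minpoly E y := by
    rw [hf, Polynomial.map_sum]
    conv_rhs => rw [(minpoly E y).as_sum_range_C_mul_X_pow]
    refine Finset.sum_congr rfl fun i _ => ?_
    rw [Polynomial.map_mul, Polynomial.map_pow, map_X, map_C, ha]
  have hfmonic : f.Monic := by
    have hm : (f.map (algebraMap O E)).Monic := hfmap ▸ minpoly.monic hyE
    exact Polynomial.monic_of_injective hinj hm
  refine ⟨f, hfmonic, ?_⟩
  have := minpoly.aeval E y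
  rw [← hfmap, aeval_map_algebraMap] at this
  rwa [← aeval_def]

/-- An element of `L`, algebraic over `E`, which is integral over `O_(p)` for every prime element
`p` of the UFD `O` (in the form: some multiple by `s ∉ (p)` is integral over `O`) is integral
over `O`. -/
theorem pur_isIntegral_of_forall_prime (y : L) (hyE : IsIntegral E y)
    (h : ∀ p : O, Prime p → ∃ s : O, ¬ p ∣ s ∧ IsIntegral O (algebraMap O L s * y)) :
    IsIntegral O y := by
  have hinj : Function.Injective (algebraMap O E) := IsFractionRing.injective O E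
  refine pur_isIntegral_of_coeff y hyE fun i => ?_
  apply pur_mem_of_forall_prime
  intro p hp
  obtain ⟨s, hps, hs⟩ := h p hp
  have hs0 : s ≠ 0 := fun h0 => hps (h0 ▸ dvd_zero p)
  have hsE : algebraMap O E s ≠ 0 := fun h0 => hs0 (hinj (by rw [h0, map_zero]))
  have hsy : algebraMap O L s * y = algebraMap E L (algebraMap O E s) * y := by
    rw [← IsScalarTower.algebraMap_apply]
  have h1 : minpoly E (algebraMap O L s * y) = (minpoly O (algebraMap O L s * y)).map
      (algebraMap O E) := minpoly.isIntegrallyClosed_eq_field_fractions' E hs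
  rw [hsy, pur_minpoly_smul hsE hyE] at h1
  refine ⟨(minpoly O (algebraMap E L (algebraMap O E s) * y)).coeff i,
    s ^ ((minpoly E y).natDegree - i), fun hd => hps (hp.dvd_of_dvd_pow hd), ?_⟩
  have h2 := congrArg (fun f => f.coeff i) h1
  simp only [coeff_scaleRoots, coeff_map] at h2
  rw [map_pow, h2]

/-- Local version of `pur_isIntegral_of_forall_prime` at a prime ideal `𝔪`: if `y` is integral
over `O_(p)` for every prime element `p ∈ 𝔪`, then `s * y` is integral over `O` for some
`s ∉ 𝔪`. -/
theorem pur_isIntegral_den (𝔪 : Ideal O) [𝔪.IsPrime] (y : L) (hyE : IsIntegral E y)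
    (h : ∀ p : O, Prime p → p ∈ 𝔪 → ∃ s : O, ¬ p ∣ s ∧ IsIntegral O (algebraMap O L s * y)) :
    ∃ s : O, s ∉ 𝔪 ∧ IsIntegral O (algebraMap O L s * y) := by
  have hinj : Function.Injective (algebraMap O E) := IsFractionRing.injective O E
  have hcoeff : ∀ i : ℕ, ∃ a s : O, s ∉ 𝔪 ∧
      (minpoly E y).coeff i * algebraMap O E s = algebraMap O E a := by
    intro i
    apply pur_exists_den
    intro p hp hpm
    obtain ⟨s, hps, hs⟩ := h p hp hpm
    have hs0 : s ≠ 0 := fun h0 => hps (h0 ▸ dvd_zero p)
    have hsE : algebraMap O E s ≠ 0 := fun h0 => hs0 (hinj (by rw [h0, map_zero]))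
    have hsy : algebraMap O L s * y = algebraMap E L (algebraMap O E s) * y := by
      rw [← IsScalarTower.algebraMap_apply]
    have h1 : minpoly E (algebraMap O L s * y) = (minpoly O (algebraMap O L s * y)).map
        (algebraMap O E) := minpoly.isIntegrallyClosed_eq_field_fractions' E hs
    rw [hsy, pur_minpoly_smul hsE hyE] at h1
    refine ⟨(minpoly O (algebraMap E L (algebraMap O E s) * y)).coeff i,
      s ^ ((minpoly E y).natDegree - i), fun hd => hps (hp.dvd_of_dvd_pow hd), ?_⟩
    have h2 := congrArg (fun f => f.coeff i) h1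
    simp only [coeff_scaleRoots, coeff_map] at h2
    rw [map_pow, h2]
  choose a s hs ha using hcoeff
  set n := (minpoly E y).natDegree with hn
  set S : O := ∏ i ∈ Finset.range n, s i with hS
  have hSm : S ∉ 𝔪 := by
    rw [hS, Ideal.IsPrime.prod_mem_iff]
    rintro ⟨i, -, hi⟩
    exact hs i hi
  have hS0 : S ≠ 0 := fun h0 => hSm (h0 ▸ 𝔪.zero_mem)
  have hSE : algebraMap O E S ≠ 0 := fun h0 => hS0 (hinj (by rw [h0, map_zero]))
  refine ⟨S, hSm, ?_⟩
  have hSy : algebraMap O L S * y = algebraMap E L (algebraMap O E S) * y := by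
    rw [← IsScalarTower.algebraMap_apply]
  have hyE' : IsIntegral E (algebraMap E L (algebraMap O E S) * y) :=
    (isIntegral_algebraMap).mul hyE
  rw [hSy]
  refine pur_isIntegral_of_coeff _ hyE' fun i => ?_
  rw [pur_minpoly_smul hSE hyE, coeff_scaleRoots, ← hn]
  rcases lt_trichotomy i n with hi | hi | hi
  · -- `S ^ (n - i) = s i * (∏_{j ≠ i} s j) * S ^ (n - i - 1)`
    have h1 : S = s i * ∏ j ∈ (Finset.range n).erase i, s j := by
      rw [hS, Finset.mul_prod_erase _ _ (Finset.mem_range.mpr hi)]
    have h2 : S ^ (n - i) = s i * ((∏ j ∈ (Finset.range n).erase i, s j) * S ^ (n - i - 1)) := by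
      have : n - i = (n - i - 1) + 1 := by omega
      rw [this, pow_succ, ← mul_assoc, ← h1]
      simp [mul_comm]
    refine ⟨a i * ((∏ j ∈ (Finset.range n).erase i, s j) * S ^ (n - i - 1)), ?_⟩
    rw [← map_pow, h2, map_mul, map_mul (algebraMap O E) (s i), ← mul_assoc, ha]
  · refine ⟨1, ?_⟩
    rw [hi, Nat.sub_self, pow_zero, mul_one, map_one, hn, coeff_natDegree,
      (minpoly.monic hyE).leadingCoeff]
  · refine ⟨0, ?_⟩
    rw [map_zero, coeff_eq_zero_of_natDegree_lt (hn ▸ hi), zero_mul]

end IntegralClosure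

section SelfDual

variable (O E L : Type*) [CommRing O] [IsDomain O] [UniqueFactorizationMonoid O]
  [Field E] [Algebra O E] [IsFractionRing O E]
  [Field L] [Algebra E L] [Algebra O L] [IsScalarTower O E L]

/-- "The integral closure of `O` in `L` is trace-self-dual at the prime element `p`":
an element `y` of `L` all of whose traces `Tr (y * c)` against integral elements `c` lie in
`O_(p)` is itself integral over `O_(p)`. -/
def PurSelfDualAt (p : O) : Prop :=
  ∀ y : L,
    (∀ c : L, IsIntegral O c → ∃ a s : O, ¬ p ∣ s ∧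
      Algebra.trace E L (y * c) * algebraMap O E s = algebraMap O E a) →
    ∃ s : O, ¬ p ∣ s ∧ IsIntegral O (algebraMap O L s * y)

variable {O E L}

/-- traces of integral elements lie in `O`. -/
theorem pur_trace_mem [FiniteDimensional E L] {c : L} (hc : IsIntegral O c) :
    ∃ t : O, algebraMap O E t = Algebra.trace E L c :=
  IsIntegrallyClosed.isIntegral_iff.mp (Algebra.isIntegral_trace (L := E) hc)

/-- the trace is `O`-linear. -/
theorem pur_trace_smul (a : O) (x : L) :
    Algebra.trace E L (algebraMap O L a * x) = algebraMap O E a * Algebra.trace E L x := by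
  have h1 : algebraMap O L a * x = (algebraMap O E a) • x := by
    rw [Algebra.smul_def, ← IsScalarTower.algebraMap_apply]
  rw [h1, map_smul, smul_eq_mul]

/-- Torsion-freeness of `C ⧸ π C` over `O ⧸ π`, where `C` is the integral closure of `O` in `L`:
if `C` is self-dual at the prime `π`, `m, m' ∈ C`, `π ∤ d` and `d m = π m'`, then `m ∈ π C`. -/
theorem pur_torsionFree [FiniteDimensional E L] {π : O} (hπ : Prime π)
    (hSD : PurSelfDualAt O E L π) {d : O} (hd : ¬ π ∣ d) {m m' : L} (hm : IsIntegral O m)
    (hm' : IsIntegral O m') (h : algebraMap O L d * m = algebraMap O L π * m') :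
    ∃ m'' : L, IsIntegral O m'' ∧ m = algebraMap O L π * m'' := by
  have hinj : Function.Injective (algebraMap O E) := IsFractionRing.injective O E
  have hinjL : Function.Injective (algebraMap O L) := by
    rw [IsScalarTower.algebraMap_eq O E L]
    exact (algebraMap E L).injective.comp hinj
  have hπ0 : algebraMap O L π ≠ 0 := fun h0 => hπ.ne_zero (hinjL (by rw [h0, map_zero]))
  have hπE : algebraMap O E π ≠ 0 := fun h0 => hπ.ne_zero (hinj (by rw [h0, map_zero]))
  set y : L := (algebraMap O L π)⁻¹ * m with hy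
  have hπy : algebraMap O L π * y = m := by rw [hy, ← mul_assoc, mul_inv_cancel₀ hπ0, one_mul]
  refine ⟨y, ?_, hπy.symm⟩
  have hyE : IsIntegral E y := Algebra.IsIntegral.isIntegral y
  -- traces of `y * c` lie in `O`
  have htr : ∀ c : L, IsIntegral O c → ∃ a s : O, ¬ π ∣ s ∧
      Algebra.trace E L (y * c) * algebraMap O E s = algebraMap O E a := by
    intro c hc
    obtain ⟨t, ht⟩ := pur_trace_mem (E := E) (hm.mul hc)
    obtain ⟨t', ht'⟩ := pur_trace_mem (E := E) (hm'.mul hc)
    -- `d * t = π * t'`
    have h1 : d * t = π * t' := by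
      apply hinj
      rw [map_mul, map_mul, ht, ht']
      rw [← pur_trace_smul, ← pur_trace_smul, ← mul_assoc, ← mul_assoc, h]
    obtain ⟨t₀, ht₀⟩ : π ∣ t := (hπ.dvd_or_dvd (Dvd.intro _ h1.symm)).resolve_left hd
    refine ⟨t₀, 1, fun h1 => hπ.not_isUnit (isUnit_of_dvd_one h1), ?_⟩
    rw [map_one, mul_one]
    have e3 : algebraMap O E π * Algebra.trace E L (y * c) = Algebra.trace E L (m * c) := by
      rw [← pur_trace_smul, ← mul_assoc, hπy]
    have e4 : algebraMap O E π * Algebra.trace E L (y * c)
        = algebraMap O E π * algebraMap O E t₀ := by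
      rw [e3, ← ht, ht₀, map_mul]
    exact mul_left_cancel₀ hπE e4
  obtain ⟨s, hs, hsy⟩ := hSD y htr
  refine pur_isIntegral_of_forall_prime y hyE fun p hp => ?_
  by_cases hpπ : p ∣ π
  · refine ⟨s, fun hps => hs ?_, hsy⟩
    -- `p ∣ π` with both prime forces `π ∣ p`
    obtain ⟨u, hu⟩ := hpπ
    have hu' : IsUnit u := (hπ.irreducible.isUnit_or_isUnit hu).resolve_left hp.not_isUnit
    obtain ⟨v, rfl⟩ := hu'
    have : π ∣ p := ⟨↑v⁻¹, by rw [hu, mul_assoc, Units.mul_inv, mul_one]⟩
    exact this.trans hps
  · exact ⟨π, hpπ, by rw [hπy]; exact hm⟩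

end SelfDual

section Basis

variable {O E L : Type*} [CommRing O] [IsDomain O] [UniqueFactorizationMonoid O]
  [IsNoetherianRing O]
  [Field E] [Algebra O E] [IsFractionRing O E]
  [Field L] [Algebra E L] [Algebra O L] [IsScalarTower O E L]
  [FiniteDimensional E L] [Algebra.IsSeparable E L]

/-- Lifting a basis of `C ⧸ π C` (free over the PID `O ⧸ π` by torsion-freeness): there are
integral elements `b i` forming an `E`-basis of `L`, and `a ≡ 1 mod π`, such that
`a • C ⊆ ∑ O b i`. -/
theorem pur_exists_basis {π : O} (hπ : Prime π)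
    [IsPrincipalIdealRing (O ⧸ Ideal.span {π})] (hSD : PurSelfDualAt O E L π) :
    ∃ (n : ℕ) (b : Module.Basis (Fin n) E L) (a a' : O), a = 1 + π * a' ∧
      (∀ i, IsIntegral O (b i)) ∧
      ∀ c : L, IsIntegral O c → ∃ o : Fin n → O,
        algebraMap O L a * c = ∑ i, algebraMap O L (o i) * b i := by
  classical
  have hinj : Function.Injective (algebraMap O E) := IsFractionRing.injective O E
  have hinjL : Function.Injective (algebraMap O L) := by
    rw [IsScalarTower.algebraMap_eq O E L]
    exact (algebraMap E L).injective.comp hinj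
  let C := integralClosure O L
  haveI : Module.Finite O C := IsIntegralClosure.finite O E L C
  let I : Ideal O := Ideal.span {π}
  haveI hIprime : I.IsPrime := (Ideal.span_singleton_prime hπ.ne_zero).mpr hπ
  let Q := C ⧸ (I • ⊤ : Submodule O C)
  haveI : Module.Finite O Q := Module.Finite.quotient O _
  haveI : Module.Finite (O ⧸ I) Q := Module.Finite.of_restrictScalars_finite O (O ⧸ I) Q
  have hmemI : ∀ c : C, c ∈ (I • ⊤ : Submodule O C) ↔ ∃ c' : C, π • c' = c := by
    intro c
    rw [Submodule.ideal_span_singleton_smul, Submodule.mem_smul_pointwise_iff_exists]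
    simp
  have hcoe_smul : ∀ (r : O) (c : C), ((r • c : C) : L) = algebraMap O L r * (c : L) := by
    intro r c
    rw [Algebra.smul_def]; rfl
  have hCtf : ∀ (r : O) (c : C), r ≠ 0 → r • c = 0 → c = 0 := by
    intro r c hr hrc
    have h1 := congrArg (Subtype.val) hrc
    rw [hcoe_smul] at h1
    have h2 : algebraMap O L r ≠ 0 := fun h0 => hr (hinjL (by rw [h0, map_zero]))
    exact Subtype.ext ((mul_eq_zero.mp h1).resolve_left h2)
  haveI : Module.IsTorsionFree (O ⧸ I) Q := by
    refine ⟨fun r hr => ?_⟩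
    have key : ∀ m : Q, r • m = 0 → m = 0 := by
      intro m hm
      obtain ⟨d, rfl⟩ := Ideal.Quotient.mk_surjective r
      obtain ⟨c, rfl⟩ := Submodule.Quotient.mk_surjective _ m
      have hd : ¬ π ∣ d := by
        intro hdvd
        have h0 : Ideal.Quotient.mk I d = 0 :=
          Ideal.Quotient.eq_zero_iff_mem.mpr (Ideal.mem_span_singleton.mpr hdvd)
        exact hr.ne_zero h0
      have h1 : (d • c) ∈ (I • ⊤ : Submodule O C) := by
        have h2 : (Ideal.Quotient.mk I d) • (Submodule.Quotient.mk c : Q)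
            = Submodule.Quotient.mk (d • c) := rfl
        rw [h2] at hm
        exact (Submodule.Quotient.mk_eq_zero _).mp hm
      obtain ⟨c', hc'⟩ := (hmemI _).mp h1
      obtain ⟨m'', hm'', hmeq⟩ := pur_torsionFree hπ hSD hd c.2 c'.2
        (by rw [← hcoe_smul, ← hcoe_smul, hc'])
      rw [Submodule.Quotient.mk_eq_zero, hmemI]
      exact ⟨⟨m'', hm''⟩, Subtype.ext (by rw [hcoe_smul, hmeq])⟩
    intro m₁ m₂ h12
    have h12' : r • m₁ = r • m₂ := h12
    exact sub_eq_zero.mp (key (m₁ - m₂) (by rw [smul_sub, h12', sub_self]))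
  haveI : Module.Free (O ⧸ I) Q := Module.free_of_finite_type_torsion_free'
  let bq := Module.finBasis (O ⧸ I) Q
  set n := Module.finrank (O ⧸ I) Q with hn
  have hlift : ∀ i, ∃ c : C, (Submodule.Quotient.mk c : Q) = bq i :=
    fun i => Submodule.Quotient.mk_surjective _ _
  choose bC hbC using hlift
  let N : Submodule O C := Submodule.span O (Set.range bC)
  -- `C = N + π C`
  have hsup : ∀ c : C, ∃ c₀ ∈ N, ∃ c₁ : C, c = c₀ + π • c₁ := by
    intro c
    have hrepr := bq.sum_repr (Submodule.Quotient.mk c)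
    choose r hr using fun i => Ideal.Quotient.mk_surjective (bq.repr (Submodule.Quotient.mk c) i)
    have h1 : (Submodule.Quotient.mk (c - ∑ i, r i • bC i) : Q) = 0 := by
      have h2 : (Submodule.Quotient.mk (∑ i, r i • bC i) : Q)
          = ∑ i, bq.repr (Submodule.Quotient.mk c) i • bq i := by
        rw [← Submodule.mkQ_apply, map_sum]
        refine Finset.sum_congr rfl fun i _ => ?_
        rw [← hr i, ← hbC i]; rfl
      rw [Submodule.Quotient.mk_sub, h2, hrepr, sub_self]
    obtain ⟨c₁, hc₁⟩ := (hmemI _).mp ((Submodule.Quotient.mk_eq_zero _).mp h1)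
    exact ⟨∑ i, r i • bC i,
      Submodule.sum_mem _ (fun i _ => Submodule.smul_mem _ _ (Submodule.subset_span ⟨i, rfl⟩)),
      c₁, by rw [hc₁]; abel⟩
  -- Nakayama
  obtain ⟨a, ha1, haN⟩ : ∃ a : O, a - 1 ∈ I ∧ ∀ c : C, a • c ∈ N := by
    have hfg : (⊤ : Submodule O (C ⧸ N)).FG := Module.Finite.fg_top
    have hle : (⊤ : Submodule O (C ⧸ N)) ≤ I • ⊤ := by
      intro m _
      obtain ⟨c, rfl⟩ := Submodule.Quotient.mk_surjective _ m
      obtain ⟨c₀, hc₀, c₁, rfl⟩ := hsup c
      rw [Submodule.Quotient.mk_add, (Submodule.Quotient.mk_eq_zero N).mpr hc₀, zero_add,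
        Submodule.Quotient.mk_smul]
      exact Submodule.smul_mem_smul (Ideal.mem_span_singleton_self π) Submodule.mem_top
    obtain ⟨a, ha1, ha⟩ :=
      Submodule.exists_sub_one_mem_and_smul_eq_zero_of_fg_of_le_smul I ⊤ hfg hle
    refine ⟨a, ha1, fun c => ?_⟩
    have := ha (Submodule.Quotient.mk c) Submodule.mem_top
    rwa [← Submodule.Quotient.mk_smul, Submodule.Quotient.mk_eq_zero] at this
  obtain ⟨a', ha'⟩ := Ideal.mem_span_singleton.mp ha1
  have haeq : a = 1 + π * a' := by linear_combination ha'
  have ha0 : a ≠ 0 := by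
    intro h0
    apply hπ.not_isUnit
    refine isUnit_iff_exists_inv.mpr ⟨-a', ?_⟩
    rw [h0] at haeq
    linear_combination haeq
  -- `O`-linear independence of the lifts
  have hdesc : ∀ k : ℕ, ∀ o : Fin n → O, ∑ i, o i • bC i = 0 → ∀ i, π ^ k ∣ o i := by
    intro k
    induction k with
    | zero => intro o _ i; simp
    | succ k ih =>
      intro o ho i
      have h1 : ∑ i, (Ideal.Quotient.mk I (o i)) • bq i = 0 := by
        have h2 : (Submodule.Quotient.mk (∑ i, o i • bC i) : Q)
            = ∑ i, (Ideal.Quotient.mk I (o i)) • bq i := by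
          rw [← Submodule.mkQ_apply, map_sum]
          refine Finset.sum_congr rfl fun i _ => ?_
          rw [← hbC i]; rfl
        rw [← h2, ho, Submodule.Quotient.mk_zero]
      have h2 : ∀ i, Ideal.Quotient.mk I (o i) = 0 := fun i =>
        (Fintype.linearIndependent_iff.mp bq.linearIndependent) _ h1 i
      have h3 : ∀ i, ∃ o' : O, o i = π * o' := fun i =>
        Ideal.mem_span_singleton.mp (Ideal.Quotient.eq_zero_iff_mem.mp (h2 i))
      choose o' ho' using h3
      have h4 : ∑ i, o' i • bC i = 0 := by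
        have h5 : π • ∑ i, o' i • bC i = 0 := by
          rw [Finset.smul_sum, ← ho]
          refine Finset.sum_congr rfl fun i _ => ?_
          rw [smul_smul, ← ho' i]
        exact hCtf π _ hπ.ne_zero h5
      rw [ho' i, pow_succ']
      exact mul_dvd_mul_left π (ih o' h4 i)
  have hindepO : ∀ o : Fin n → O, ∑ i, o i • bC i = 0 → ∀ i, o i = 0 := by
    intro o ho i
    by_contra hne
    obtain ⟨k, hk⟩ := FiniteMultiplicity.of_not_isUnit hπ.not_isUnit hne
    exact hk (hdesc (k + 1) o ho i)
  have hcoe_sum : ∀ o : Fin n → O, ((∑ i, o i • bC i : C) : L)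
      = ∑ i, algebraMap O L (o i) * (bC i : L) := by
    intro o
    rw [← Subalgebra.coe_val, map_sum]
    refine Finset.sum_congr rfl fun i _ => ?_
    rw [Subalgebra.coe_val, hcoe_smul]
  have hli : LinearIndependent E (fun i => (bC i : L)) := by
    rw [Fintype.linearIndependent_iff]
    intro g hg i
    obtain ⟨d, hd⟩ := IsLocalization.exist_integer_multiples (nonZeroDivisors O)
      (Finset.univ : Finset (Fin n)) g
    choose o ho using fun i => hd i (Finset.mem_univ i)
    have h0 : ∑ i, o i • bC i = 0 := by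
      apply Subtype.ext
      rw [hcoe_sum]
      have h1 : ∀ i, algebraMap O L (o i) * (bC i : L)
          = algebraMap O L (d : O) * (g i • (bC i : L)) := by
        intro i
        rw [IsScalarTower.algebraMap_apply O E L, ho i, Algebra.smul_def (g i),
          IsScalarTower.algebraMap_apply O E L, ← mul_assoc, ← map_mul]
        congr 2
        rw [Algebra.smul_def]
      rw [Finset.sum_congr rfl fun i _ => h1 i, ← Finset.mul_sum, hg, mul_zero]
      rfl
    have h2 := hindepO o h0 i
    have h3 := ho i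
    rw [h2, map_zero, Algebra.smul_def] at h3
    have hd0 : algebraMap O E (d : O) ≠ 0 := fun h0 =>
      nonZeroDivisors.ne_zero d.2 (hinj (by rw [h0, map_zero]))
    exact ((mul_eq_zero.mp h3.symm).resolve_left hd0)
  have hrepr : ∀ c : L, IsIntegral O c → ∃ o : Fin n → O,
      algebraMap O L a * c = ∑ i, algebraMap O L (o i) * (bC i : L) := by
    intro c hc
    obtain ⟨o, ho⟩ := (Submodule.mem_span_range_iff_exists_fun O).mp (haN ⟨c, hc⟩)
    refine ⟨o, ?_⟩
    rw [← hcoe_sum, ho, hcoe_smul]
  have hspan : ⊤ ≤ Submodule.span E (Set.range fun i => (bC i : L)) := by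
    intro y _
    obtain ⟨s, hs⟩ := IsIntegral.exists_multiple_integral_of_isLocalization (nonZeroDivisors O) y
      (Algebra.IsIntegral.isIntegral (R := E) y)
    obtain ⟨o, ho⟩ := hrepr _ hs
    have hs0 : algebraMap O L (s : O) ≠ 0 := fun h0 =>
      nonZeroDivisors.ne_zero s.2 (hinjL (by rw [h0, map_zero]))
    have haL : algebraMap O L a ≠ 0 := fun h0 => ha0 (hinjL (by rw [h0, map_zero]))
    have hy : y = ∑ i, ((algebraMap O E a * algebraMap O E (s : O))⁻¹ * algebraMap O E (o i)) •
        (bC i : L) := by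
      have h1 : ∀ i, ((algebraMap O E a * algebraMap O E (s : O))⁻¹ * algebraMap O E (o i)) •
          (bC i : L) = (algebraMap O L a * algebraMap O L (s : O))⁻¹ *
            (algebraMap O L (o i) * (bC i : L)) := by
        intro i
        rw [Algebra.smul_def, map_mul, map_inv₀, map_mul, ← IsScalarTower.algebraMap_apply,
          ← IsScalarTower.algebraMap_apply, ← IsScalarTower.algebraMap_apply, mul_assoc]
      rw [Finset.sum_congr rfl fun i _ => h1 i, ← Finset.mul_sum, ← ho, Submonoid.smul_def,
        Algebra.smul_def]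
      field_simp
    rw [hy]
    exact Submodule.sum_mem _ fun i _ => Submodule.smul_mem _ _ (Submodule.subset_span ⟨i, rfl⟩)
  refine ⟨n, Module.Basis.mk hli hspan, a, a', haeq, fun i => ?_, fun c hc => ?_⟩
  · rw [Module.Basis.mk_apply]; exact (bC i).2
  · obtain ⟨o, ho⟩ := hrepr c hc
    exact ⟨o, by simpa [Module.Basis.mk_apply] using ho⟩

/-- **Reduced fibres.** If `C` (the integral closure of `O` in `L`) is trace-self-dual at every
prime element of `O` lying in the prime ideal `(π, z)` (in particular at `π`), then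
`C ⧸ (π, z) C` is reduced: an integral `x` with `x ^ r ∈ π C + z C` lies in `π C + z C`. -/
theorem pur_fibre_reduced {π z : O} (hπ : Prime π)
    [IsPrincipalIdealRing (O ⧸ Ideal.span {π})]
    (hm : (Ideal.span {π, z}).IsPrime)
    (hSD : ∀ p : O, Prime p → p ∈ Ideal.span {π, z} → PurSelfDualAt O E L p)
    {x c₁ c₂ : L} (hx : IsIntegral O x) (hc₁ : IsIntegral O c₁) (hc₂ : IsIntegral O c₂) {r : ℕ}
    (h : x ^ r = algebraMap O L π * c₁ + algebraMap O L z * c₂) :
    ∃ d₁ d₂ : L, IsIntegral O d₁ ∧ IsIntegral O d₂ ∧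
      x = algebraMap O L π * d₁ + algebraMap O L z * d₂ := by
  classical
  have hinj : Function.Injective (algebraMap O E) := IsFractionRing.injective O E
  set 𝔪 : Ideal O := Ideal.span {π, z} with h𝔪
  have hπm : π ∈ 𝔪 := Ideal.subset_span (by simp)
  have hzm : z ∈ 𝔪 := Ideal.subset_span (by simp)
  rcases Nat.eq_zero_or_pos r with hr0 | hrpos
  · subst hr0
    rw [pow_zero] at h
    refine ⟨x * c₁, x * c₂, hx.mul hc₁, hx.mul hc₂, ?_⟩
    calc x = x * 1 := (mul_one x).symm
      _ = _ := by rw [h]; ring
  obtain ⟨n, b, a, a', haeq, hb, hrepr⟩ :=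
    pur_exists_basis (E := E) (L := L) hπ (hSD π hπ hπm)
  have ham : a ∉ 𝔪 := by
    intro ha
    apply hm.ne_top
    rw [Ideal.eq_top_iff_one]
    have h1 : (1 : O) = a - π * a' := by rw [haeq]; ring
    rw [h1]
    exact 𝔪.sub_mem ha (𝔪.mul_mem_right _ hπm)
  let b' := (Algebra.traceForm E L).dualBasis (traceForm_nondegenerate E L) b
  have hdual : ∀ i j, Algebra.trace E L (b' i * b j) = if j = i then 1 else 0 := by
    intro i j
    have := LinearMap.BilinForm.apply_dualBasis_left (traceForm_nondegenerate E L) b i j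
    rwa [Algebra.traceForm_apply] at this
  have hT1 : ∀ (j : Fin n) (o : Fin n → O),
      Algebra.trace E L (b' j * ∑ i, algebraMap O L (o i) * b i) = algebraMap O E (o j) := by
    intro j o
    rw [Finset.mul_sum, map_sum]
    have h1 : ∀ i, Algebra.trace E L (b' j * (algebraMap O L (o i) * b i))
        = algebraMap O E (o i) * (if i = j then 1 else 0) := by
      intro i
      rw [← mul_assoc, mul_comm (b' j), mul_assoc, pur_trace_smul, hdual]
    rw [Finset.sum_congr rfl fun i _ => h1 i]
    simp
  have hden : ∀ j, ∃ s : O, s ∉ 𝔪 ∧ IsIntegral O (algebraMap O L s * b' j) := by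
    intro j
    refine pur_isIntegral_den (E := E) 𝔪 (b' j) (Algebra.IsIntegral.isIntegral _)
      fun p hp hpm => ?_
    refine hSD p hp hpm (b' j) fun c hc => ?_
    obtain ⟨o, ho⟩ := hrepr c hc
    refine ⟨o j, a, fun hpa => ham ?_, ?_⟩
    · obtain ⟨q, rfl⟩ := hpa
      exact 𝔪.mul_mem_right _ hpm
    · rw [← hT1 j o, ← ho, mul_comm (Algebra.trace E L _), ← pur_trace_smul]
      congr 1; ring
  choose s hs hsint using hden
  have hrepr_sum : ∀ (o : Fin n → O) (i : Fin n),
      b.repr (∑ k, algebraMap O L (o k) * b k) i = algebraMap O E (o i) := by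
    intro o i
    have h1 : ∑ k, algebraMap O L (o k) * b k = ∑ k, (algebraMap O E (o k)) • b k := by
      refine Finset.sum_congr rfl fun k _ => ?_
      rw [Algebra.smul_def, ← IsScalarTower.algebraMap_apply]
    rw [h1, b.repr_sum_self]
  haveI : 𝔪.IsPrime := hm
  -- traces of "nilpotent" elements lie in `𝔪`
  have hK : ∀ w e₁ e₂ : L, IsIntegral O w → IsIntegral O e₁ → IsIntegral O e₂ →
      w ^ r = algebraMap O L π * e₁ + algebraMap O L z * e₂ →
      ∃ t ∈ 𝔪, Algebra.trace E L (algebraMap O L a * w) = algebraMap O E t := by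
    intro w e₁ e₂ hw he₁ he₂ hwr
    have hM : ∀ j, ∃ o : Fin n → O,
        algebraMap O L a * (w * b j) = ∑ i, algebraMap O L (o i) * b i :=
      fun j => hrepr _ (hw.mul (hb j))
    choose M hMeq using hM
    have hL1 : Algebra.leftMulMatrix b (algebraMap O L a * w)
        = (algebraMap O E).mapMatrix (Matrix.of fun i j => M j i) := by
      ext i j
      rw [Algebra.leftMulMatrix_eq_repr_mul, mul_assoc, hMeq j, hrepr_sum]
      rfl
    have hT : ∀ j, ∃ o : Fin n → O, (∀ i, o i ∈ 𝔪) ∧
        (algebraMap O L a * w) ^ r * b j = ∑ i, algebraMap O L (o i) * b i := by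
      intro j
      obtain ⟨o₁, ho₁⟩ := hrepr _ (he₁.mul (hb j))
      obtain ⟨o₂, ho₂⟩ := hrepr _ (he₂.mul (hb j))
      refine ⟨fun i => a ^ (r - 1) * (π * o₁ i + z * o₂ i), fun i => 𝔪.mul_mem_left _
        (𝔪.add_mem (𝔪.mul_mem_right _ hπm) (𝔪.mul_mem_right _ hzm)), ?_⟩
      have hr1 : r = (r - 1) + 1 := by omega
      have e1 : (algebraMap O L a * w) ^ r * b j = algebraMap O L a ^ (r - 1) *
          (algebraMap O L π * (algebraMap O L a * (e₁ * b j)) +
            algebraMap O L z * (algebraMap O L a * (e₂ * b j))) := by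
        rw [mul_pow, hwr]
        conv_lhs => rw [hr1, pow_succ]
        ring
      rw [e1, ho₁, ho₂, Finset.mul_sum, Finset.mul_sum, ← Finset.sum_add_distrib,
        Finset.mul_sum]
      refine Finset.sum_congr rfl fun i _ => ?_
      simp only [map_mul, map_add, map_pow]
      ring
    choose T hTm hTeq using hT
    have hL2 : Algebra.leftMulMatrix b ((algebraMap O L a * w) ^ r)
        = (algebraMap O E).mapMatrix (Matrix.of fun i j => T j i) := by
      ext i j
      rw [Algebra.leftMulMatrix_eq_repr_mul, hTeq j, hrepr_sum]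
      rfl
    set MO : Matrix (Fin n) (Fin n) O := Matrix.of fun i j => M j i with hMO
    have hpow : MO ^ r = Matrix.of fun i j => T j i := by
      have h1 : (algebraMap O E).mapMatrix (MO ^ r)
          = (algebraMap O E).mapMatrix (Matrix.of fun i j => T j i) := by
        rw [map_pow, ← hL1, ← hL2, map_pow]
      exact Matrix.map_injective hinj h1
    have hnil : IsNilpotent ((Ideal.Quotient.mk 𝔪).mapMatrix MO) := by
      refine ⟨r, ?_⟩
      rw [← map_pow, hpow]
      ext i j
      simp [Ideal.Quotient.eq_zero_iff_mem, hTm]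
    have htr := Matrix.isNilpotent_trace_of_isNilpotent hnil
    have htr0 : (Ideal.Quotient.mk 𝔪) MO.trace = 0 := by
      have h1 : ((Ideal.Quotient.mk 𝔪).mapMatrix MO).trace = (Ideal.Quotient.mk 𝔪) MO.trace := by
        simp [Matrix.trace, map_sum]
      rw [← h1]
      exact htr.eq_zero
    refine ⟨MO.trace, Ideal.Quotient.eq_zero_iff_mem.mp htr0, ?_⟩
    rw [Algebra.trace_eq_matrix_trace b, hL1]
    simp [Matrix.trace, map_sum]
  obtain ⟨o, ho⟩ := hrepr x hx
  have hom : ∀ j, o j ∈ 𝔪 := by
    intro j
    have hw : IsIntegral O (algebraMap O L (s j) * b' j * x) := (hsint j).mul hx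
    obtain ⟨t, htm, ht⟩ := hK (algebraMap O L (s j) * b' j * x)
      ((algebraMap O L (s j) * b' j) ^ r * c₁) ((algebraMap O L (s j) * b' j) ^ r * c₂) hw
      (((hsint j).pow r).mul hc₁) (((hsint j).pow r).mul hc₂) (by rw [mul_pow, h]; ring)
    have e1 : Algebra.trace E L (algebraMap O L a * (algebraMap O L (s j) * b' j * x))
        = algebraMap O E (s j) * algebraMap O E (o j) := by
      have h1 : algebraMap O L a * (algebraMap O L (s j) * b' j * x)
          = algebraMap O L (s j) * (b' j * (algebraMap O L a * x)) := by ring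
      rw [h1, pur_trace_smul, ho, hT1]
    rw [e1, ← map_mul] at ht
    have h2 : s j * o j ∈ 𝔪 := (hinj ht) ▸ htm
    exact (hm.mem_or_mem h2).resolve_left (hs j)
  have huv : ∀ j, ∃ u v : O, u * π + v * z = o j := fun j => Ideal.mem_span_pair.mp (hom j)
  choose u v huv using huv
  refine ⟨∑ j, algebraMap O L (u j) * b j - algebraMap O L a' * x,
    ∑ j, algebraMap O L (v j) * b j, ?_, ?_, ?_⟩
  · exact (IsIntegral.sum _ fun j _ => isIntegral_algebraMap.mul (hb j)).sub
      (isIntegral_algebraMap.mul hx)
  · exact IsIntegral.sum _ fun j _ => isIntegral_algebraMap.mul (hb j)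
  · have e1 : algebraMap O L a * x = algebraMap O L π * ∑ j, algebraMap O L (u j) * b j
        + algebraMap O L z * ∑ j, algebraMap O L (v j) * b j := by
      rw [ho, Finset.mul_sum, Finset.mul_sum, ← Finset.sum_add_distrib]
      refine Finset.sum_congr rfl fun j _ => ?_
      rw [← huv j, map_add, map_mul, map_mul]; ring
    have e2 : algebraMap O L a = 1 + algebraMap O L π * algebraMap O L a' := by
      rw [haeq, map_add, map_one, map_mul]
    rw [e2] at e1
    linear_combination e1

end Basis

end Fermat.Agent.S18
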