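import Mathlib
import Fermat.Agent.S18.Purity51

/-!
# S18, row B3c: vertical transfer from the `j`-line to the `h`-line (helper95)

`O₀ = R[j]`, `O = R[h]` (or `R[1/h]`), `t = h`: `O₀ ⊆ O[1/t]`, and `O[1/t]` is integral over
`O₀`.  If the integral closure of `O₀` in `L` is trace-self-dual at the prime `π₀` (the vertical
prime), then so is the integral closure of `O` at `π`.  The only mechanism is: `π` generates a
prime ideal of the integral closure `B` of `O₀` in `E = Frac O`, hence it is the unique prime of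
`B` over `π₀` (lying over + incomparability), so `B_(π)` is integral over `(O₀)_(π₀)`.

All names are prefixed `vt95_`.
-/

set_option autoImplicit false

open Polynomial

namespace Fermat.Agent.S18

section Div

/-- If `B` is integral over `A` and `π₀ B` is a prime ideal of `B`, then every `s ∉ π₀ B`
divides (the image of) some `n ∈ A` with `n ∉ π₀ B`. -/
theorem vt95_div {A B : Type*} [CommRing A] [CommRing B] [Algebra A B] [Algebra.IsIntegral A B]
    (π₀ : A) (hP : (Ideal.span {algebraMap A B π₀}).IsPrime) (s : B)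
    (hs : s ∉ Ideal.span {algebraMap A B π₀}) :
    ∃ (s' : B) (n : A), algebraMap A B n ∉ Ideal.span {algebraMap A B π₀} ∧
      s * s' = algebraMap A B n := by
  classical
  by_contra hcon
  push Not at hcon
  set P : Ideal B := Ideal.span {algebraMap A B π₀} with hPdef
  have hle : (Ideal.span {s}).comap (algebraMap A B) ≤ P.comap (algebraMap A B) := by
    intro n hn
    rw [Ideal.mem_comap, Ideal.mem_span_singleton'] at hn
    obtain ⟨s', hs'⟩ := hn
    rw [Ideal.mem_comap]
    by_contra hnP
    exact hcon s' n hnP (by rw [← hs', mul_comm])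
  have : (P.comap (algebraMap A B)).IsPrime := Ideal.comap_isPrime _ P
  obtain ⟨Q, hQs, hQprime, hQcomap⟩ :=
    Ideal.exists_ideal_over_prime_of_isIntegral (P.comap (algebraMap A B)) (Ideal.span {s}) hle
  have hπQ : algebraMap A B π₀ ∈ Q := by
    have : π₀ ∈ Q.comap (algebraMap A B) := by
      rw [hQcomap, Ideal.mem_comap]
      exact Ideal.subset_span rfl
    exact this
  have hPQ : P ≤ Q := by
    rw [hPdef, Ideal.span_le]
    intro x hx
    rw [Set.mem_singleton_iff.mp hx]
    exact hπQ
  have hsQ : s ∈ Q := hQs (Ideal.subset_span rfl)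
  have hlt := Ideal.comap_lt_comap_of_integral_mem_sdiff (R := A) hPQ ⟨hsQ, hs⟩
    (Algebra.IsIntegral.isIntegral s)
  rw [hQcomap] at hlt
  exact lt_irrefl _ hlt

end Div

section Scale

variable {O₀ O L : Type*} [CommRing O₀] [CommRing O] [Field L] [Algebra O₀ L] [Algebra O L]

/-- If `O₀ ⊆ O[1/t]` inside `L`, then an element integral over `O₀` becomes integral over `O`
after multiplication by a power of `t`. -/
theorem vt95_isIntegral_pow_mul (t : O)
    (h1 : ∀ a : O₀, ∃ (k : ℕ) (o : O), algebraMap O₀ L a * algebraMap O L t ^ k = algebraMap O L o)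
    (x : L) (hx : IsIntegral O₀ x) : ∃ k : ℕ, IsIntegral O (algebraMap O L t ^ k * x) := by
  classical
  obtain ⟨p, hp, hpx⟩ := hx
  set τ : L := algebraMap O L t with hτ
  choose kf of hkf using h1
  set P : L[X] := p.map (algebraMap O₀ L) with hPdef
  have hPmonic : P.Monic := hp.map _
  have hPdeg : P.natDegree = p.natDegree := hp.natDegree_map _
  have hPx : P.eval x = 0 := by rw [hPdef, eval_map]; exact hpx
  set k : ℕ := (Finset.range p.natDegree).sup (fun i => kf (p.coeff i)) with hk
  refine ⟨k, ?_⟩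
  set Q : L[X] := P.scaleRoots (τ ^ k) with hQdef
  have hQmonic : Q.Monic := (monic_scaleRoots_iff _).mpr hPmonic
  have hQx : Q.eval (τ ^ k * x) = 0 := by
    rw [hQdef, scaleRoots_eval_mul, hPx, mul_zero]
  have hQlifts : Q ∈ lifts (algebraMap O L) := by
    rw [lifts_iff_coeff_lifts]
    intro i
    rw [hQdef, coeff_scaleRoots, hPdeg]
    rcases lt_trichotomy i p.natDegree with hi | hi | hi
    · have hki : kf (p.coeff i) ≤ k * (p.natDegree - i) := by
        have h1 : kf (p.coeff i) ≤ k :=
          Finset.le_sup (f := fun i => kf (p.coeff i)) (Finset.mem_range.mpr hi)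
        have h2 : 1 ≤ p.natDegree - i := by omega
        calc kf (p.coeff i) ≤ k * 1 := by omega
          _ ≤ k * (p.natDegree - i) := Nat.mul_le_mul_left k h2
      obtain ⟨d, hd⟩ := Nat.exists_eq_add_of_le hki
      refine ⟨of (p.coeff i) * t ^ d, ?_⟩
      rw [map_mul, map_pow, ← hkf, hPdef, coeff_map, ← pow_mul, hd, pow_add, mul_assoc]
    · refine ⟨1, ?_⟩
      rw [hi, Nat.sub_self, pow_zero, mul_one, map_one, ← hPdeg]
      exact hPmonic.coeff_natDegree.symm
    · refine ⟨0, ?_⟩
      rw [map_zero, coeff_eq_zero_of_natDegree_lt (by rw [hPdeg]; exact hi), zero_mul]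
  obtain ⟨q, hqmap, -, hqmonic⟩ := lifts_and_natDegree_eq_and_monic hQlifts hQmonic
  refine ⟨q, hqmonic, ?_⟩
  rw [eval₂_eq_eval_map, hqmap]
  exact hQx

end Scale

section Small

variable {O₀ O E L : Type*} [CommRing O₀] [CommRing O]
  [Field E] [Algebra O E]
  [Field L] [Algebra O₀ L] [Algebra E L] [Algebra O L] [IsScalarTower O E L]
  [Algebra O₀ E] [IsScalarTower O₀ E L]

/-- `h2` and `h3` inside `E`. -/
theorem vt95_h2E (h2 : ∀ o : O, IsIntegral O₀ (algebraMap O L o)) (o : O) :
    IsIntegral O₀ (algebraMap O E o) :=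
  (isIntegral_algebraMap_iff (algebraMap E L).injective).mp (by
    rw [← IsScalarTower.algebraMap_apply]; exact h2 o)

theorem vt95_h3E (t : O) (h3 : IsIntegral O₀ (algebraMap O L t)⁻¹) :
    IsIntegral O₀ (algebraMap O E t)⁻¹ :=
  (isIntegral_algebraMap_iff (algebraMap E L).injective).mp (by
    rw [map_inv₀, ← IsScalarTower.algebraMap_apply]; exact h3)

theorem vt95_piE (π₀ : O₀) (π : O) (hππ : algebraMap O₀ L π₀ = algebraMap O L π) :
    algebraMap O₀ E π₀ = algebraMap O E π := by
  apply (algebraMap E L).injective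
  rw [← IsScalarTower.algebraMap_apply O₀ E L, ← IsScalarTower.algebraMap_apply O E L]
  exact hππ

end Small

section Mid

variable {O₀ O E L : Type*} [CommRing O₀]
  [CommRing O] [IsDomain O] [UniqueFactorizationMonoid O]
  [Field E] [Algebra O E] [IsFractionRing O E]
  [Field L] [Algebra O₀ L] [Algebra E L] [Algebra O L] [IsScalarTower O E L]
  [Algebra O₀ E] [IsScalarTower O₀ E L]

/-- Elements of `E` integral over `O₀` lie in `O[1/t]`. -/
theorem vt95_exists_num (t : O)
    (h1 : ∀ a : O₀, ∃ (k : ℕ) (o : O), algebraMap O₀ L a * algebraMap O L t ^ k = algebraMap O L o)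
    (b : E) (hb : IsIntegral O₀ b) :
    ∃ (k : ℕ) (o : O), algebraMap O E t ^ k * b = algebraMap O E o := by
  have hbL : IsIntegral O₀ (algebraMap E L b) := hb.algebraMap
  obtain ⟨k, hk⟩ := vt95_isIntegral_pow_mul t h1 _ hbL
  have : algebraMap O L t ^ k * algebraMap E L b = algebraMap E L (algebraMap O E t ^ k * b) := by
    rw [map_mul, map_pow, ← IsScalarTower.algebraMap_apply]
  rw [this] at hk
  have hkE : IsIntegral O (algebraMap O E t ^ k * b) :=
    (isIntegral_algebraMap_iff (algebraMap E L).injective).mp hk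
  obtain ⟨o, ho⟩ := IsIntegrallyClosed.isIntegral_iff.mp hkE
  exact ⟨k, o, ho.symm⟩

/-- `π` is a prime element of the integral closure of `O₀` in `E` (which is `O[1/t]`). -/
theorem vt95_prime_closure (π₀ : O₀) (π t : O) (hπ : Prime π) (hπt : ¬ π ∣ t)
    (hππ : algebraMap O₀ L π₀ = algebraMap O L π)
    (h1 : ∀ a : O₀, ∃ (k : ℕ) (o : O), algebraMap O₀ L a * algebraMap O L t ^ k = algebraMap O L o)
    (h2 : ∀ o : O, IsIntegral O₀ (algebraMap O L o))
    (h3 : IsIntegral O₀ (algebraMap O L t)⁻¹) :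
    Prime (algebraMap O₀ (integralClosure O₀ E) π₀) := by
  have hinj : Function.Injective (algebraMap O E) := IsFractionRing.injective O E
  have hπE := vt95_piE (E := E) π₀ π hππ
  have ht0 : t ≠ 0 := fun h => hπt (h ▸ dvd_zero π)
  have hτ0 : algebraMap O E t ≠ 0 := fun h => ht0 (hinj (by rw [h, map_zero]))
  have hcoe : ((algebraMap O₀ (integralClosure O₀ E) π₀ : integralClosure O₀ E) : E) =
      algebraMap O E π := by
    rw [← hπE]; rfl
  have hπtk : ∀ k : ℕ, ¬ π ∣ t ^ k := fun k h => hπt (hπ.dvd_of_dvd_pow h)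
  refine ⟨?_, ?_, ?_⟩
  · intro h0
    have := congrArg Subtype.val h0
    rw [hcoe] at this
    exact hπ.ne_zero (hinj (by rw [this]; simp))
  · intro hunit
    obtain ⟨v, huv⟩ := isUnit_iff_exists_inv.mp hunit
    have h1' : (algebraMap O E π) * (v : E) = 1 := by
      have := congrArg Subtype.val huv
      simpa [hcoe] using this
    obtain ⟨k, o, ho⟩ := vt95_exists_num (L := L) t h1 (v : E) v.2
    have : algebraMap O E (t ^ k) = algebraMap O E (π * o) := by
      rw [map_mul, ← ho, map_pow]
      calc algebraMap O E t ^ k = algebraMap O E t ^ k * (algebraMap O E π * (v : E)) := by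
            rw [h1', mul_one]
        _ = _ := by ring
    exact hπtk k ⟨o, hinj this⟩
  · intro a b ⟨c, hc⟩
    obtain ⟨ka, oa, hoa⟩ := vt95_exists_num (L := L) t h1 (a : E) a.2
    obtain ⟨kb, ob, hob⟩ := vt95_exists_num (L := L) t h1 (b : E) b.2
    obtain ⟨kc, oc, hoc⟩ := vt95_exists_num (L := L) t h1 (c : E) c.2
    have hcE : (a : E) * (b : E) = algebraMap O E π * (c : E) := by
      have := congrArg Subtype.val hc
      simpa [hcoe] using this
    have hO : oa * ob * t ^ kc = π * (t ^ (ka + kb) * oc) := by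
      apply hinj
      simp only [map_mul, map_pow]
      rw [← hoa, ← hob, ← hoc, pow_add]
      linear_combination (algebraMap O E t ^ ka * algebraMap O E t ^ kb * algebraMap O E t ^ kc) * hcE
    have hdvd : π ∣ oa * ob := by
      have : π ∣ oa * ob * t ^ kc := ⟨_, hO⟩
      exact (hπ.dvd_or_dvd this).resolve_right (hπtk kc)
    have key : ∀ (x : integralClosure O₀ E) (k : ℕ) (o : O),
        algebraMap O E t ^ k * (x : E) = algebraMap O E o → π ∣ o →
        algebraMap O₀ (integralClosure O₀ E) π₀ ∣ x := by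
      rintro x k o hxo ⟨o', rfl⟩
      have hint : IsIntegral O₀ (algebraMap O E o' * (algebraMap O E t)⁻¹ ^ k) :=
        (vt95_h2E (L := L) h2 o').mul ((vt95_h3E (L := L) t h3).pow k)
      refine ⟨⟨_, hint⟩, ?_⟩
      apply Subtype.ext
      rw [Subalgebra.coe_mul, hcoe]
      have hτk : algebraMap O E t ^ k ≠ 0 := pow_ne_zero _ hτ0
      apply mul_left_cancel₀ hτk
      show algebraMap O E t ^ k * (x : E) = algebraMap O E t ^ k *
        (algebraMap O E π * (algebraMap O E o' * (algebraMap O E t)⁻¹ ^ k))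
      rw [hxo, map_mul, inv_pow]
      field_simp
    rcases hπ.dvd_or_dvd hdvd with h | h
    · exact Or.inl (key a ka oa hoa h)
    · exact Or.inr (key b kb ob hob h)

/-- Every `s ∈ O` prime to `π` divides, inside the integral closure of `O₀` in `E`, some
`n ∈ O₀` prime to `π₀`. -/
theorem vt95_div_closure (π₀ : O₀) (π t : O) (hπ : Prime π) (hπt : ¬ π ∣ t)
    (hππ : algebraMap O₀ L π₀ = algebraMap O L π)
    (h1 : ∀ a : O₀, ∃ (k : ℕ) (o : O), algebraMap O₀ L a * algebraMap O L t ^ k = algebraMap O L o)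
    (h2 : ∀ o : O, IsIntegral O₀ (algebraMap O L o))
    (h3 : IsIntegral O₀ (algebraMap O L t)⁻¹) (s : O) (hs : ¬ π ∣ s) :
    ∃ (s' : E) (n : O₀), IsIntegral O₀ s' ∧ ¬ π₀ ∣ n ∧
      algebraMap O E s * s' = algebraMap O₀ E n := by
  have hinj : Function.Injective (algebraMap O E) := IsFractionRing.injective O E
  have hπE := vt95_piE (E := E) π₀ π hππ
  have hprime := vt95_prime_closure (E := E) π₀ π t hπ hπt hππ h1 h2 h3
  have hcoe : ((algebraMap O₀ (integralClosure O₀ E) π₀ : integralClosure O₀ E) : E) =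
      algebraMap O E π := by
    rw [← hπE]; rfl
  have hP : (Ideal.span {algebraMap O₀ (integralClosure O₀ E) π₀}).IsPrime :=
    (Ideal.span_singleton_prime hprime.ne_zero).mpr hprime
  set sB : integralClosure O₀ E := ⟨algebraMap O E s, vt95_h2E (L := L) h2 s⟩ with hsB
  have hsP : sB ∉ Ideal.span {algebraMap O₀ (integralClosure O₀ E) π₀} := by
    rw [Ideal.mem_span_singleton]
    rintro ⟨c, hc⟩
    obtain ⟨k, o, ho⟩ := vt95_exists_num (L := L) t h1 (c : E) c.2
    have hcE : algebraMap O E s = algebraMap O E π * (c : E) := by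
      have := congrArg Subtype.val hc
      simpa [hcoe, hsB] using this
    have : algebraMap O E (s * t ^ k) = algebraMap O E (π * o) := by
      rw [map_mul, map_mul, ← ho, map_pow, hcE]; ring
    have hdvd : π ∣ s * t ^ k := ⟨o, hinj this⟩
    rcases hπ.dvd_or_dvd hdvd with h | h
    · exact hs h
    · exact hπt (hπ.dvd_of_dvd_pow h)
  obtain ⟨s', n, hn, hss'⟩ := vt95_div π₀ hP sB hsP
  refine ⟨(s' : E), n, s'.2, ?_, ?_⟩
  · rintro ⟨n', rfl⟩
    apply hn
    rw [map_mul]
    exact Ideal.mul_mem_right _ _ (Ideal.subset_span rfl)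
  · have := congrArg Subtype.val hss'
    simpa [hsB] using this

end Mid

section Transfer

/-- the tower `O₀ → E → L` from `O₀ → E₀ → E → L`. -/
theorem vt95_tower (O₀ E₀ E L : Type*) [CommRing O₀] [Field E₀] [Algebra O₀ E₀] [Field E]
    [Field L] [Algebra E₀ L] [Algebra O₀ L] [IsScalarTower O₀ E₀ L] [Algebra E L]
    [Algebra E₀ E] [IsScalarTower E₀ E L] [Algebra O₀ E] [IsScalarTower O₀ E₀ E] :
    IsScalarTower O₀ E L :=
  IsScalarTower.of_algebraMap_eq fun x => by
    rw [IsScalarTower.algebraMap_apply O₀ E₀ L, IsScalarTower.algebraMap_apply E₀ E L,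
      ← IsScalarTower.algebraMap_apply O₀ E₀ E]

variable {O₀ E₀ O E L : Type*}
  [CommRing O₀] [IsDomain O₀] [UniqueFactorizationMonoid O₀]
  [Field E₀] [Algebra O₀ E₀] [IsFractionRing O₀ E₀]
  [CommRing O] [IsDomain O] [UniqueFactorizationMonoid O]
  [Field E] [Algebra O E] [IsFractionRing O E]
  [Field L] [Algebra E₀ L] [Algebra O₀ L] [IsScalarTower O₀ E₀ L]
  [Algebra E L] [Algebra O L] [IsScalarTower O E L]
  [Algebra E₀ E] [IsScalarTower E₀ E L] [Algebra O₀ E] [IsScalarTower O₀ E₀ E]

/-- **Vertical transfer.**  Self-duality at the vertical prime passes from the `j`-line `O₀`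
to the `h`-line `O`. -/
theorem vt95_selfDual_transfer [FiniteDimensional E₀ L]
    (π₀ : O₀) (π t : O) (hπ : Prime π) (hπt : ¬ π ∣ t)
    (hππ : algebraMap O₀ L π₀ = algebraMap O L π)
    (h1 : ∀ a : O₀, ∃ (k : ℕ) (o : O), algebraMap O₀ L a * algebraMap O L t ^ k = algebraMap O L o)
    (h2 : ∀ o : O, IsIntegral O₀ (algebraMap O L o))
    (h3 : IsIntegral O₀ (algebraMap O L t)⁻¹)
    (hSD : PurSelfDualAt O₀ E₀ L π₀) : PurSelfDualAt O E L π := by
  classical
  have htow : IsScalarTower O₀ E L := vt95_tower O₀ E₀ E L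
  have hfd1 : FiniteDimensional E₀ E := FiniteDimensional.left E₀ E L
  have hfd2 : FiniteDimensional E L := FiniteDimensional.right E₀ E L
  have ht0 : t ≠ 0 := fun h => hπt (h ▸ dvd_zero π)
  intro y hy
  -- Step A: the hypothesis of `hSD` for `y`
  have hA : ∀ c : L, IsIntegral O₀ c → ∃ a s : O₀, ¬ π₀ ∣ s ∧
      Algebra.trace E₀ L (y * c) * algebraMap O₀ E₀ s = algebraMap O₀ E₀ a := by
    intro c hc
    obtain ⟨k, hk⟩ := vt95_isIntegral_pow_mul t h1 c hc
    obtain ⟨a, s, hs, has⟩ := hy _ hk
    have htr : Algebra.trace E L (y * (algebraMap O L t ^ k * c)) =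
        algebraMap O E t ^ k * Algebra.trace E L (y * c) := by
      have : y * (algebraMap O L t ^ k * c) = algebraMap O L (t ^ k) * (y * c) := by
        rw [map_pow]; ring
      rw [this, pur_trace_smul, map_pow]
    rw [htr] at has
    have hst : ¬ π ∣ s * t ^ k := fun h =>
      (hπ.dvd_or_dvd h).elim hs (fun h' => hπt (hπ.dvd_of_dvd_pow h'))
    obtain ⟨s', n, hs'int, hn, hss'⟩ :=
      vt95_div_closure (E := E) π₀ π t hπ hπt hππ h1 h2 h3 (s * t ^ k) hst
    have haint : IsIntegral O₀ (algebraMap O E a * s') := (vt95_h2E (L := L) h2 a).mul hs'int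
    obtain ⟨a₀, ha₀⟩ := IsIntegrallyClosed.isIntegral_iff.mp
      (Algebra.isIntegral_trace (L := E₀) haint)
    refine ⟨a₀, n, hn, ?_⟩
    rw [ha₀, ← Algebra.trace_trace (S := E)]
    have hkey : Algebra.trace E L (y * c) * algebraMap O₀ E n = algebraMap O E a * s' := by
      rw [← hss', ← has, RingHom.map_mul (algebraMap O E), RingHom.map_pow (algebraMap O E)]; ring
    have hlin : Algebra.trace E₀ E (Algebra.trace E L (y * c) * algebraMap O₀ E n) =
        Algebra.trace E₀ E (Algebra.trace E L (y * c)) * algebraMap O₀ E₀ n := by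
      have : Algebra.trace E L (y * c) * algebraMap O₀ E n =
          (algebraMap O₀ E₀ n) • Algebra.trace E L (y * c) := by
        rw [Algebra.smul_def, ← IsScalarTower.algebraMap_apply, mul_comm]
      rw [this, map_smul, smul_eq_mul, mul_comm]
    rw [← hlin, hkey]
  obtain ⟨s₀, hs₀, hint⟩ := hSD y hA
  -- Step B: back to `O`
  obtain ⟨k, hk⟩ := vt95_isIntegral_pow_mul t h1 _ hint
  obtain ⟨k', o, ho⟩ := h1 s₀
  have hinjL : Function.Injective (algebraMap O L) := by
    rw [IsScalarTower.algebraMap_eq O E L]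
    exact (algebraMap E L).injective.comp (IsFractionRing.injective O E)
  have hτ0 : algebraMap O L t ≠ 0 := fun h => ht0 (hinjL (by rw [h, map_zero]))
  refine ⟨o * t ^ k, ?_, ?_⟩
  · intro hdvd
    have ho' : π ∣ o := (hπ.dvd_or_dvd hdvd).resolve_right (fun h' => hπt (hπ.dvd_of_dvd_pow h'))
    obtain ⟨o', rfl⟩ := ho'
    apply hs₀
    have hint' : IsIntegral O₀ (algebraMap O L o' * (algebraMap O L t)⁻¹ ^ k') :=
      (h2 o').mul (h3.pow k')
    have hπ₀E : algebraMap O₀ E₀ π₀ ≠ 0 := by
      intro h0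
      have h0' : algebraMap O L π = 0 := by
        rw [← hππ, IsScalarTower.algebraMap_apply O₀ E₀ L, h0, map_zero]
      exact hπ.ne_zero (hinjL (by rw [h0', map_zero]))
    have heq : algebraMap E₀ L (algebraMap O₀ E₀ s₀ * (algebraMap O₀ E₀ π₀)⁻¹) =
        algebraMap O L o' * (algebraMap O L t)⁻¹ ^ k' := by
      have hπL : algebraMap O L π ≠ 0 := fun h0 => hπ.ne_zero (hinjL (by rw [h0, map_zero]))
      rw [map_mul, map_inv₀, ← IsScalarTower.algebraMap_apply, ← IsScalarTower.algebraMap_apply,
        hππ]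
      have h5 : algebraMap O₀ L s₀ = algebraMap O L π * algebraMap O L o' *
          (algebraMap O L t)⁻¹ ^ k' := by
        rw [← map_mul, ← ho, inv_pow, mul_assoc, mul_inv_cancel₀ (pow_ne_zero _ hτ0), mul_one]
      rw [h5]
      field_simp
    have hintE : IsIntegral O₀ (algebraMap O₀ E₀ s₀ * (algebraMap O₀ E₀ π₀)⁻¹) :=
      (isIntegral_algebraMap_iff (algebraMap E₀ L).injective).mp (by rw [heq]; exact hint')
    obtain ⟨r, hr⟩ := IsIntegrallyClosed.isIntegral_iff.mp hintE
    refine ⟨r, ?_⟩
    apply IsFractionRing.injective O₀ E₀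
    rw [map_mul, hr, mul_comm (algebraMap O₀ E₀ π₀), mul_assoc, inv_mul_cancel₀ hπ₀E, mul_one]
  · have : algebraMap O L (o * t ^ k) * y =
        algebraMap O L (t ^ k') * (algebraMap O L t ^ k * (algebraMap O₀ L s₀ * y)) := by
      rw [map_mul, map_pow, map_pow, ← ho]; ring
    rw [this]
    exact isIntegral_algebraMap.mul hk

end Transfer

section Base

variable {O₀ O L : Type*} [CommRing O₀] [CommRing O] [Field L] [Algebra O₀ L] [Algebra O L]

/-- If the image of `O` in `L` is integral over `O₀`, then integral over `O` implies integral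
over `O₀` (no ring map `O₀ → O` is needed). -/
theorem vt95_isIntegral_base (h2 : ∀ o : O, IsIntegral O₀ (algebraMap O L o)) (x : L)
    (hx : IsIntegral O x) : IsIntegral O₀ x := by
  obtain ⟨p, hp, hpx⟩ := hx
  set P : L[X] := p.map (algebraMap O L) with hPdef
  have hPmonic : P.Monic := hp.map _
  have hPx : P.eval x = 0 := by rw [hPdef, eval_map]; exact hpx
  have hPlifts : P ∈ lifts (algebraMap (integralClosure O₀ L) L) := by
    rw [lifts_iff_coeff_lifts]
    intro i
    rw [hPdef, coeff_map]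
    exact ⟨⟨_, h2 (p.coeff i)⟩, rfl⟩
  obtain ⟨q, hqmap, -, hqmonic⟩ := lifts_and_natDegree_eq_and_monic hPlifts hPmonic
  have hxC : IsIntegral (integralClosure O₀ L) x :=
    ⟨q, hqmonic, by rw [eval₂_eq_eval_map, hqmap]; exact hPx⟩
  exact isIntegral_trans x hxC

end Base

section Fibre

variable {O₀ O E L : Type*} [CommRing O₀]
  [CommRing O] [IsDomain O] [UniqueFactorizationMonoid O]
  [Field E] [Algebra O E] [IsFractionRing O E]
  [Field L] [Algebra O₀ L] [Algebra E L] [Algebra O L] [IsScalarTower O E L]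
  [FiniteDimensional E L]

/-- **SAT transfer.**  If `x` is integral over `O` and `x = π y` with `y` integral over `O₀`
(i.e. `y ∈ C[1/t]`), then `y` is integral over `O`. -/
theorem vt95_sat_transfer (π t : O) (hπ : Prime π) (hπt : ¬ π ∣ t)
    (h1 : ∀ a : O₀, ∃ (k : ℕ) (o : O), algebraMap O₀ L a * algebraMap O L t ^ k = algebraMap O L o)
    (hSD : PurSelfDualAt O E L π) (x y : L) (hx : IsIntegral O x) (hy : IsIntegral O₀ y)
    (hxy : x = algebraMap O L π * y) : IsIntegral O y := by
  have hinjL : Function.Injective (algebraMap O L) := by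
    rw [IsScalarTower.algebraMap_eq O E L]
    exact (algebraMap E L).injective.comp (IsFractionRing.injective O E)
  have hπL : algebraMap O L π ≠ 0 := fun h0 => hπ.ne_zero (hinjL (by rw [h0, map_zero]))
  obtain ⟨k, hk⟩ := vt95_isIntegral_pow_mul t h1 y hy
  have hd : ¬ π ∣ t ^ k := fun h => hπt (hπ.dvd_of_dvd_pow h)
  obtain ⟨m'', hm'', hxm⟩ := pur_torsionFree hπ hSD hd hx hk (by
    rw [hxy, map_pow]; ring)
  have : y = m'' := by
    apply mul_left_cancel₀ hπL
    rw [← hxy, hxm]
  rw [this]; exact hm''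

/-- **Primality transfer (`hdom`).**  If `π₀` generates a prime ideal of the integral closure of
`O₀` in `L`, then `π` generates a prime ideal of the integral closure of `O` in `L`. -/
theorem vt95_prime_transfer (π₀ : O₀) (π t : O) (hπ : Prime π) (hπt : ¬ π ∣ t)
    (hππ : algebraMap O₀ L π₀ = algebraMap O L π)
    (h1 : ∀ a : O₀, ∃ (k : ℕ) (o : O), algebraMap O₀ L a * algebraMap O L t ^ k = algebraMap O L o)
    (h2 : ∀ o : O, IsIntegral O₀ (algebraMap O L o))
    (hSD : PurSelfDualAt O E L π)
    (hdom : (Ideal.span {algebraMap O₀ (integralClosure O₀ L) π₀}).IsPrime) :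
    (Ideal.span {algebraMap O (integralClosure O L) π}).IsPrime := by
  have hinjL : Function.Injective (algebraMap O L) := by
    rw [IsScalarTower.algebraMap_eq O E L]
    exact (algebraMap E L).injective.comp (IsFractionRing.injective O E)
  have hπL : algebraMap O L π ≠ 0 := fun h0 => hπ.ne_zero (hinjL (by rw [h0, map_zero]))
  have hcoe : ((algebraMap O (integralClosure O L) π : integralClosure O L) : L) =
      algebraMap O L π := rfl
  have hcoe₀ : ((algebraMap O₀ (integralClosure O₀ L) π₀ : integralClosure O₀ L) : L) =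
      algebraMap O L π := by rw [← hππ]; rfl
  have hne : algebraMap O (integralClosure O L) π ≠ 0 := by
    intro h0
    exact hπL (by rw [← hcoe, h0]; rfl)
  rw [Ideal.span_singleton_prime hne]
  have hne₀ : algebraMap O₀ (integralClosure O₀ L) π₀ ≠ 0 := by
    intro h0
    exact hπL (by rw [← hcoe₀, h0]; rfl)
  have hprime₀ : Prime (algebraMap O₀ (integralClosure O₀ L) π₀) :=
    (Ideal.span_singleton_prime hne₀).mp hdom
  -- an element of `C` divisible by `π₀` in `C₀` is divisible by `π` in `C`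
  have key : ∀ a : integralClosure O L,
      (algebraMap O₀ (integralClosure O₀ L) π₀ ∣
        (⟨(a : L), vt95_isIntegral_base h2 _ a.2⟩ : integralClosure O₀ L)) →
      algebraMap O (integralClosure O L) π ∣ a := by
    rintro a ⟨a', ha'⟩
    have haL : (a : L) = algebraMap O L π * (a' : L) := by
      have := congrArg Subtype.val ha'
      rw [Subalgebra.coe_mul, hcoe₀] at this
      exact this
    have hint : IsIntegral O (a' : L) :=
      vt95_sat_transfer (E := E) π t hπ hπt h1 hSD (a : L) (a' : L) a.2 a'.2 haL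
    refine ⟨⟨_, hint⟩, ?_⟩
    apply Subtype.ext
    rw [Subalgebra.coe_mul, hcoe]
    exact haL
  refine ⟨hne, ?_, ?_⟩
  · intro hunit
    obtain ⟨v, huv⟩ := isUnit_iff_exists_inv.mp hunit
    apply hprime₀.not_isUnit
    rw [isUnit_iff_exists_inv]
    refine ⟨⟨(v : L), vt95_isIntegral_base h2 _ v.2⟩, ?_⟩
    apply Subtype.ext
    rw [Subalgebra.coe_mul, hcoe₀]
    have := congrArg Subtype.val huv
    rw [Subalgebra.coe_mul, hcoe] at this
    exact this
  · intro a b ⟨c, hc⟩
    have hdvd : algebraMap O₀ (integralClosure O₀ L) π₀ ∣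
        (⟨(a : L), vt95_isIntegral_base h2 _ a.2⟩ : integralClosure O₀ L) *
        ⟨(b : L), vt95_isIntegral_base h2 _ b.2⟩ := by
      refine ⟨⟨(c : L), vt95_isIntegral_base h2 _ c.2⟩, ?_⟩
      apply Subtype.ext
      rw [Subalgebra.coe_mul, Subalgebra.coe_mul, hcoe₀]
      have := congrArg Subtype.val hc
      rw [Subalgebra.coe_mul, Subalgebra.coe_mul, hcoe] at this
      exact this
    rcases hprime₀.dvd_or_dvd hdvd with h | h
    · exact Or.inl (key a h)
    · exact Or.inr (key b h)

end Fibre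

end Fermat.Agent.S18
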