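import Fermat.Agent.S18.VertJ90
import Fermat.Agent.S18.VertTransfer95

/-!
# S18, row B3c instantiation (helper90): the vertical package on the Hauptmodul charts

`F = F(M)_K`, `x ∈ F` a chart coordinate (`x = h` or `x = h⁻¹`) with `j * x ^ k = P(x)`,
`x` and `x⁻¹` integral over `R₀[j]`.  For ANY instance `Algebra (Polynomial R₀) F` with
`X ↦ x` and any model `E` of `Frac R₀[X]`:

* `vc90_chart` : `PurSelfDualAt (Polynomial R₀) E F (C π)` and
  `(Ideal.span {algebraMap _ (integralClosure (Polynomial R₀) F) (C π)}).IsPrime`;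
* `vc90_chart_sat` : saturation on the chart.

The `j`-line structure lives on the type copy `vc90_Oj R₀` of `R₀[X]`.
-/

set_option autoImplicit false
set_option linter.unusedSectionVars false

open ModularCurve IntermediateField

namespace Fermat.Agent.S18

open Fermat.Agent.S28

noncomputable section

/-- A copy of `R₀[X]`, carrying the `j`-line structure `X ↦ j`. -/
def vc90_Oj (R₀ : Type*) [CommRing R₀] := Polynomial R₀

instance vc90_instCommRing (R₀ : Type*) [CommRing R₀] : CommRing (vc90_Oj R₀) :=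
  inferInstanceAs (CommRing (Polynomial R₀))

instance vc90_instIsDomain (R₀ : Type*) [CommRing R₀] [IsDomain R₀] : IsDomain (vc90_Oj R₀) :=
  inferInstanceAs (IsDomain (Polynomial R₀))

instance vc90_instUFM (R₀ : Type*) [CommRing R₀] [IsDomain R₀] [UniqueFactorizationMonoid R₀] :
    UniqueFactorizationMonoid (vc90_Oj R₀) :=
  inferInstanceAs (UniqueFactorizationMonoid (Polynomial R₀))

instance vc90_instAlgebra (K : Type) [Field K] (R₀ : Type*) [CommRing R₀] [Algebra R₀ K]
    (M : ℕ) [NeZero M] : Algebra (vc90_Oj R₀) ↥(modularFunctionFieldFullC K M) :=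
  (rm90_ev K R₀ M).toAlgebra

section JLine

variable (K : Type) [Field K] {R₀ : Type*} [CommRing R₀] [IsDomain R₀]
  [UniqueFactorizationMonoid R₀] [Algebra R₀ K] [IsFractionRing R₀ K] (M : ℕ) [NeZero M]

theorem vc90_algebraMap_apply (a : Polynomial R₀) :
    algebraMap (vc90_Oj R₀) ↥(modularFunctionFieldFullC K M) a = rm90_ev K R₀ M a := rfl

theorem vc90_algebraMap_injective :
    Function.Injective (algebraMap (vc90_Oj R₀) ↥(modularFunctionFieldFullC K M)) :=
  rm90_ev_injective K R₀ M (IsFractionRing.injective R₀ K)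

/-- (V) on the `j`-line, on the type copy. -/
theorem vc90_selfDual₀ (π : R₀) (hπ : Prime π) (κ : Type) [Field κ] (red : R₀ →+* κ)
    (hred : ∀ a : R₀, red a = 0 ↔ π ∣ a) (hM : (M : κ) ≠ 0)
    {E₀ : Type*} [Field E₀] [iE : Algebra (vc90_Oj R₀) E₀] [iF : IsFractionRing (vc90_Oj R₀) E₀]
    [iEF : Algebra E₀ ↥(modularFunctionFieldFullC K M)]
    [iT : IsScalarTower (vc90_Oj R₀) E₀ ↥(modularFunctionFieldFullC K M)] :
    PurSelfDualAt (vc90_Oj R₀) E₀ ↥(modularFunctionFieldFullC K M)
      (Polynomial.C π : Polynomial R₀) :=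
  @vj90_purSelfDualAt K _ R₀ _ _ _ _ _ M _ π hπ κ _ red hred hM (vc90_instAlgebra K R₀ M) rfl
    E₀ _ iE iF iEF iT

/-- `hdom` on the `j`-line, on the type copy. -/
theorem vc90_prime₀ (π : R₀) (hπ : Prime π) (κ : Type) [Field κ] (red : R₀ →+* κ)
    (hred : ∀ a : R₀, red a = 0 ↔ π ∣ a) (hM : (M : κ) ≠ 0) :
    (Ideal.span {algebraMap (vc90_Oj R₀)
      ↥(integralClosure (vc90_Oj R₀) ↥(modularFunctionFieldFullC K M))
      (Polynomial.C π : Polynomial R₀)}).IsPrime :=
  @vj90_span_isPrime K _ R₀ _ _ _ _ _ M _ π hπ κ _ red hred hM (vc90_instAlgebra K R₀ M) rfl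

/-- `F(M)_K` is finite over any model of `Frac R₀[j]`. -/
theorem vc90_finite {E₀ : Type*} [Field E₀] [Algebra (vc90_Oj R₀) E₀]
    [IsFractionRing (vc90_Oj R₀) E₀] [Algebra E₀ ↥(modularFunctionFieldFullC K M)]
    [IsScalarTower (vc90_Oj R₀) E₀ ↥(modularFunctionFieldFullC K M)] :
    FiniteDimensional E₀ ↥(modularFunctionFieldFullC K M) := by
  classical
  have h : Module.rank E₀ ↥(modularFunctionFieldFullC K M) ≤ (dedekindPsi M : ℕ) := by
    apply rank_le
    intro s hs
    have h1 : LinearIndependent E₀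
        (fun i : Fin s.card => ((s.equivFin.symm i : s) : ↥(modularFunctionFieldFullC K M))) :=
      hs.comp _ s.equivFin.symm.injective
    have h2 := (LinearIndependent.iff_fractionRing (vc90_Oj R₀) E₀).mpr h1
    exact rm90_hcard K R₀ M s.card _ h2
  exact Module.rank_lt_aleph0_iff.mp (lt_of_le_of_lt h (Cardinal.natCast_lt_aleph0))

end JLine

/-! ### Chart coordinates -/

section Chart

variable (K : Type) [Field K] {R₀ : Type*} [CommRing R₀] [IsDomain R₀]
  [UniqueFactorizationMonoid R₀] [Algebra R₀ K] [IsFractionRing R₀ K] (M : ℕ) [NeZero M]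

theorem vc90_ev_C (r : R₀) : rm90_ev K R₀ M (Polynomial.C r) = rm90_c K R₀ M r := by
  rw [rm90_ev, Polynomial.coe_eval₂RingHom, Polynomial.eval₂_C]

theorem vc90_ev_X : rm90_ev K R₀ M Polynomial.X = rm90_j K M := by
  rw [rm90_ev, Polynomial.coe_eval₂RingHom, Polynomial.eval₂_X]

/-- `R₀[j] ⊆ R₀[x][1/x]` when `j * x ^ k = P(x)`. -/
theorem vc90_h1 (x : ↥(modularFunctionFieldFullC K M)) (P : Polynomial R₀) (k : ℕ)
    (hrel : rm90_j K M * x ^ k = Polynomial.eval₂ (rm90_c K R₀ M) x P) (a : Polynomial R₀) :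
    ∃ (k' : ℕ) (o : Polynomial R₀),
      rm90_ev K R₀ M a * x ^ k' = Polynomial.eval₂ (rm90_c K R₀ M) x o := by
  induction a using Polynomial.induction_on with
  | C r => exact ⟨0, Polynomial.C r, by rw [pow_zero, mul_one, vc90_ev_C, Polynomial.eval₂_C]⟩
  | add p q hp hq =>
    obtain ⟨k₁, o₁, h₁⟩ := hp
    obtain ⟨k₂, o₂, h₂⟩ := hq
    refine ⟨k₁ + k₂, o₁ * Polynomial.X ^ k₂ + o₂ * Polynomial.X ^ k₁, ?_⟩
    rw [map_add, Polynomial.eval₂_add, Polynomial.eval₂_mul, Polynomial.eval₂_mul,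
      Polynomial.eval₂_X_pow, Polynomial.eval₂_X_pow, ← h₁, ← h₂, pow_add]
    ring
  | monomial n r ih =>
    obtain ⟨k₁, o₁, h₁⟩ := ih
    refine ⟨k₁ + k, o₁ * P, ?_⟩
    rw [pow_succ, ← mul_assoc, map_mul, vc90_ev_X, Polynomial.eval₂_mul, ← h₁, ← hrel, pow_add]
    ring

/-- Polynomials in an integral element are integral over `R₀[j]`. -/
theorem vc90_isIntegral_eval₂ (x : ↥(modularFunctionFieldFullC K M))
    (hx : (rm90_ev K R₀ M).IsIntegralElem x) (o : Polynomial R₀) :
    (rm90_ev K R₀ M).IsIntegralElem (Polynomial.eval₂ (rm90_c K R₀ M) x o) := by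
  induction o using Polynomial.induction_on with
  | C r =>
    rw [Polynomial.eval₂_C, ← vc90_ev_C]
    exact (rm90_ev K R₀ M).isIntegralElem_map
  | add p q hp hq =>
    rw [Polynomial.eval₂_add]
    exact RingHom.IsIntegralElem.add _ hp hq
  | monomial n r ih =>
    rw [pow_succ, ← mul_assoc, Polynomial.eval₂_mul, Polynomial.eval₂_X]
    exact RingHom.IsIntegralElem.mul _ ih hx

/-- `x` is integral over `R₀[j]` when `j * x ^ k = P(x)` with `P` monic of degree `> k`. -/
theorem vc90_isIntegral_of_rel (x : ↥(modularFunctionFieldFullC K M)) (P : Polynomial R₀)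
    (k : ℕ) (hP : P.Monic) (hk : k < P.natDegree)
    (hrel : rm90_j K M * x ^ k = Polynomial.eval₂ (rm90_c K R₀ M) x P) :
    (rm90_ev K R₀ M).IsIntegralElem x := by
  refine ⟨P.map Polynomial.C - Polynomial.C Polynomial.X * Polynomial.X ^ k, ?_, ?_⟩
  · apply Polynomial.Monic.sub_of_left (hP.map _)
    rw [Polynomial.degree_map_eq_of_injective Polynomial.C_injective,
      Polynomial.degree_eq_natDegree hP.ne_zero]
    refine lt_of_le_of_lt (Polynomial.degree_C_mul_X_pow_le k _) ?_
    exact_mod_cast hk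
  · have hcomp : (rm90_ev K R₀ M).comp Polynomial.C = rm90_c K R₀ M :=
      RingHom.ext (vc90_ev_C K M)
    rw [Polynomial.eval₂_sub, Polynomial.eval₂_map, Polynomial.eval₂_mul, Polynomial.eval₂_C,
      Polynomial.eval₂_X_pow, vc90_ev_X, hrel, sub_eq_zero, hcomp]

/-- `x⁻¹` is integral over `R₀[j]` when `j * x ^ k = P(x)`, `k > 0`, `P(0)` a unit and `x` is
integral. -/
theorem vc90_isIntegral_inv_of_rel (x : ↥(modularFunctionFieldFullC K M))
    (P : Polynomial R₀) (k : ℕ) (hk : 0 < k) (hu : IsUnit (P.coeff 0))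
    (hrel : rm90_j K M * x ^ k = Polynomial.eval₂ (rm90_c K R₀ M) x P)
    (hx : (rm90_ev K R₀ M).IsIntegralElem x) :
    (rm90_ev K R₀ M).IsIntegralElem x⁻¹ := by
  obtain ⟨u, hu⟩ := hu
  have hP : Polynomial.eval₂ (rm90_c K R₀ M) x P =
      Polynomial.eval₂ (rm90_c K R₀ M) x P.divX * x + rm90_c K R₀ M (u : R₀) := by
    conv_lhs => rw [← Polynomial.divX_mul_X_add P]
    rw [Polynomial.eval₂_add, Polynomial.eval₂_mul, Polynomial.eval₂_X, Polynomial.eval₂_C, hu]
  have hk' : x ^ k = x ^ (k - 1) * x := by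
    rw [← pow_succ, Nat.sub_add_cancel hk]
  have hcu : rm90_c K R₀ M (u : R₀) * rm90_c K R₀ M ((u⁻¹ : R₀ˣ) : R₀) = 1 := by
    rw [← map_mul, Units.mul_inv, map_one]
  have hinv : x⁻¹ = rm90_c K R₀ M ((u⁻¹ : R₀ˣ) : R₀) *
      (rm90_j K M * x ^ (k - 1) - Polynomial.eval₂ (rm90_c K R₀ M) x P.divX) := by
    apply inv_eq_of_mul_eq_one_left
    have h1 : (rm90_j K M * x ^ (k - 1) - Polynomial.eval₂ (rm90_c K R₀ M) x P.divX) * x =
        rm90_c K R₀ M (u : R₀) := by
      rw [sub_mul, mul_assoc, ← hk', hrel, hP, add_sub_cancel_left]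
    rw [mul_assoc, h1, mul_comm, hcu]
  rw [hinv]
  refine RingHom.IsIntegralElem.mul _ ?_ (RingHom.IsIntegralElem.sub _ ?_ ?_)
  · rw [← vc90_ev_C]
    exact (rm90_ev K R₀ M).isIntegralElem_map
  · refine RingHom.IsIntegralElem.mul _ ?_ ?_
    · rw [← vc90_ev_X K (R₀ := R₀) M]
      exact (rm90_ev K R₀ M).isIntegralElem_map
    · have h2 := vc90_isIntegral_eval₂ K M x hx (Polynomial.X ^ (k - 1))
      rwa [Polynomial.eval₂_X_pow] at h2
  · exact vc90_isIntegral_eval₂ K M x hx _

/-- The relation on the inverse chart. -/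
theorem vc90_rel_inv (x : ↥(modularFunctionFieldFullC K M)) (hx0 : x ≠ 0) (P : Polynomial R₀)
    (k : ℕ) (hk : k ≤ P.natDegree)
    (hrel : rm90_j K M * x ^ k = Polynomial.eval₂ (rm90_c K R₀ M) x P) :
    rm90_j K M * x⁻¹ ^ (P.natDegree - k) = Polynomial.eval₂ (rm90_c K R₀ M) x⁻¹ P.reverse := by
  let _ : Invertible x := invertibleOfNonzero hx0
  have h1 := Polynomial.eval₂_reverse_mul_pow (rm90_c K R₀ M) x P
  rw [invOf_eq_inv] at h1
  have hxn : x ^ P.natDegree ≠ 0 := pow_ne_zero _ hx0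
  apply mul_right_cancel₀ hxn
  rw [h1, ← hrel, mul_assoc]
  congr 1
  have h2 : x ^ P.natDegree = x ^ (P.natDegree - k) * x ^ k := by
    rw [← pow_add, Nat.sub_add_cancel hk]
  rw [inv_pow, h2, ← mul_assoc, inv_mul_cancel₀ (pow_ne_zero _ hx0), one_mul]

/-- **The vertical package on a chart.**  For a coordinate `x` with `j * x ^ k = P(x)`, `x` and
`x⁻¹` integral over `R₀[j]`, and ANY algebra structure `R₀[X] → F(M)_K` with `X ↦ x`: the
integral closure of `R₀[x]` is trace-self-dual at `C π`, and `C π` generates a prime ideal of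
it. -/
theorem vc90_chart_full (π : R₀) (hπ : Prime π) (κ : Type) [Field κ] (red : R₀ →+* κ)
    (hred : ∀ a : R₀, red a = 0 ↔ π ∣ a) (hM : (M : κ) ≠ 0)
    (x : ↥(modularFunctionFieldFullC K M)) (hx0 : x ≠ 0) (P : Polynomial R₀) (k : ℕ)
    (hrel : rm90_j K M * x ^ k = Polynomial.eval₂ (rm90_c K R₀ M) x P)
    (hx : (rm90_ev K R₀ M).IsIntegralElem x) (hxinv : (rm90_ev K R₀ M).IsIntegralElem x⁻¹)
    [iA : Algebra (Polynomial R₀) ↥(modularFunctionFieldFullC K M)]
    (halg : algebraMap (Polynomial R₀) ↥(modularFunctionFieldFullC K M) =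
      Polynomial.eval₂RingHom (rm90_c K R₀ M) x)
    {E : Type*} [Field E] [Algebra (Polynomial R₀) E] [IsFractionRing (Polynomial R₀) E]
    [Algebra E ↥(modularFunctionFieldFullC K M)]
    [IsScalarTower (Polynomial R₀) E ↥(modularFunctionFieldFullC K M)] :
    PurSelfDualAt (Polynomial R₀) E ↥(modularFunctionFieldFullC K M) (Polynomial.C π) ∧
    (Ideal.span {algebraMap (Polynomial R₀)
      ↥(integralClosure (Polynomial R₀) ↥(modularFunctionFieldFullC K M))
      (Polynomial.C π)}).IsPrime ∧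
    (∀ y z : ↥(modularFunctionFieldFullC K M), IsIntegral (Polynomial R₀) y →
      (rm90_ev K R₀ M).IsIntegralElem z →
      y = algebraMap (Polynomial R₀) ↥(modularFunctionFieldFullC K M) (Polynomial.C π) * z →
      IsIntegral (Polynomial R₀) z) ∧
    FiniteDimensional E ↥(modularFunctionFieldFullC K M) := by
  classical
  have halg' : ∀ a : Polynomial R₀, algebraMap (Polynomial R₀) ↥(modularFunctionFieldFullC K M) a =
      Polynomial.eval₂ (rm90_c K R₀ M) x a := fun a => by rw [halg]; rfl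
  -- `j` as an element of `E`
  set jE : E := algebraMap (Polynomial R₀) E P / algebraMap (Polynomial R₀) E (Polynomial.X ^ k)
    with hjE
  have hjE' : algebraMap E ↥(modularFunctionFieldFullC K M) jE = rm90_j K M := by
    rw [hjE, map_div₀, ← IsScalarTower.algebraMap_apply, ← IsScalarTower.algebraMap_apply, halg',
      halg', Polynomial.eval₂_X_pow, ← hrel, mul_div_assoc, div_self (pow_ne_zero k hx0), mul_one]
  let fj : vc90_Oj R₀ →+* E :=
    Polynomial.eval₂RingHom ((algebraMap (Polynomial R₀) E).comp Polynomial.C) jE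
  have hfj : ∀ a : vc90_Oj R₀, algebraMap E ↥(modularFunctionFieldFullC K M) (fj a) =
      algebraMap (vc90_Oj R₀) ↥(modularFunctionFieldFullC K M) a := by
    intro a
    have h : (algebraMap E ↥(modularFunctionFieldFullC K M)).comp fj = rm90_ev K R₀ M := by
      refine Polynomial.ringHom_ext (fun r => ?_) ?_
      · change algebraMap E ↥(modularFunctionFieldFullC K M)
          (Polynomial.eval₂ ((algebraMap (Polynomial R₀) E).comp Polynomial.C) jE
            (Polynomial.C r)) = _
        rw [Polynomial.eval₂_C, RingHom.comp_apply, ← IsScalarTower.algebraMap_apply, halg',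
          Polynomial.eval₂_C, vc90_ev_C]
      · change algebraMap E ↥(modularFunctionFieldFullC K M)
          (Polynomial.eval₂ ((algebraMap (Polynomial R₀) E).comp Polynomial.C) jE
            Polynomial.X) = _
        rw [Polynomial.eval₂_X, hjE', vc90_ev_X]
    exact congrFun (congrArg DFunLike.coe h) a
  have hfjinj : Function.Injective fj := fun a b hab =>
    vc90_algebraMap_injective K M (by rw [← hfj, ← hfj, hab])
  -- the `j`-line fraction field and its structures
  let iE₀F : Algebra (FractionRing (vc90_Oj R₀)) ↥(modularFunctionFieldFullC K M) :=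
    (IsFractionRing.lift (K := FractionRing (vc90_Oj R₀))
      (vc90_algebraMap_injective K (R₀ := R₀) M)).toAlgebra
  have iT₀ : IsScalarTower (vc90_Oj R₀) (FractionRing (vc90_Oj R₀))
      ↥(modularFunctionFieldFullC K M) :=
    IsScalarTower.of_algebraMap_eq (fun a => (IsFractionRing.lift_algebraMap _ a).symm)
  let iO₀E : Algebra (vc90_Oj R₀) E := fj.toAlgebra
  let iE₀E : Algebra (FractionRing (vc90_Oj R₀)) E :=
    (IsFractionRing.lift (K := FractionRing (vc90_Oj R₀)) hfjinj).toAlgebra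
  have iT₁ : IsScalarTower (vc90_Oj R₀) (FractionRing (vc90_Oj R₀)) E :=
    IsScalarTower.of_algebraMap_eq (fun a => (IsFractionRing.lift_algebraMap _ a).symm)
  have iT₂ : IsScalarTower (FractionRing (vc90_Oj R₀)) E ↥(modularFunctionFieldFullC K M) := by
    refine IsScalarTower.of_algebraMap_eq (fun z => ?_)
    have h : algebraMap (FractionRing (vc90_Oj R₀)) ↥(modularFunctionFieldFullC K M) =
        (algebraMap E ↥(modularFunctionFieldFullC K M)).comp
          (algebraMap (FractionRing (vc90_Oj R₀)) E) := by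
      apply IsLocalization.ringHom_ext (nonZeroDivisors (vc90_Oj R₀))
      refine RingHom.ext fun a => ?_
      rw [RingHom.comp_apply, RingHom.comp_apply, RingHom.comp_apply,
        ← IsScalarTower.algebraMap_apply (vc90_Oj R₀) (FractionRing (vc90_Oj R₀)) E,
        ← IsScalarTower.algebraMap_apply (vc90_Oj R₀) (FractionRing (vc90_Oj R₀))
          ↥(modularFunctionFieldFullC K M)]
      exact (hfj a).symm
    exact congrFun (congrArg DFunLike.coe h) z
  have iFin : FiniteDimensional (FractionRing (vc90_Oj R₀)) ↥(modularFunctionFieldFullC K M) :=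
    vc90_finite K (R₀ := R₀) M
  have hπ' : Prime (Polynomial.C π : Polynomial R₀) := Polynomial.prime_C_iff.mpr hπ
  have hπt : ¬ (Polynomial.C π : Polynomial R₀) ∣ Polynomial.X := by
    intro h
    rw [Polynomial.C_dvd_iff_dvd_coeff] at h
    have h1 := h 1
    rw [Polynomial.coeff_X_one] at h1
    exact hπ.not_isUnit (isUnit_of_dvd_one h1)
  have hππ : algebraMap (vc90_Oj R₀) ↥(modularFunctionFieldFullC K M)
      (Polynomial.C π : Polynomial R₀) =
      algebraMap (Polynomial R₀) ↥(modularFunctionFieldFullC K M) (Polynomial.C π) := by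
    rw [halg', vc90_algebraMap_apply, vc90_ev_C, Polynomial.eval₂_C]
  have h1 : ∀ a : vc90_Oj R₀, ∃ (k' : ℕ) (o : Polynomial R₀),
      algebraMap (vc90_Oj R₀) ↥(modularFunctionFieldFullC K M) a *
        algebraMap (Polynomial R₀) ↥(modularFunctionFieldFullC K M) Polynomial.X ^ k' =
      algebraMap (Polynomial R₀) ↥(modularFunctionFieldFullC K M) o := by
    intro a
    obtain ⟨k', o, h⟩ := vc90_h1 K M x P k hrel a
    exact ⟨k', o, by rw [halg', halg', Polynomial.eval₂_X]; exact h⟩
  have h2 : ∀ o : Polynomial R₀, IsIntegral (vc90_Oj R₀)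
      (algebraMap (Polynomial R₀) ↥(modularFunctionFieldFullC K M) o) := by
    intro o
    rw [halg']
    exact vc90_isIntegral_eval₂ K M x hx o
  have h3 : IsIntegral (vc90_Oj R₀)
      (algebraMap (Polynomial R₀) ↥(modularFunctionFieldFullC K M) Polynomial.X)⁻¹ := by
    rw [halg', Polynomial.eval₂_X]
    exact hxinv
  have hSD : PurSelfDualAt (Polynomial R₀) E ↥(modularFunctionFieldFullC K M)
      (Polynomial.C π) :=
    vt95_selfDual_transfer (O₀ := vc90_Oj R₀) (E₀ := FractionRing (vc90_Oj R₀))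
      (Polynomial.C π : Polynomial R₀) (Polynomial.C π) Polynomial.X hπ' hπt hππ h1 h2 h3
      (vc90_selfDual₀ K M π hπ κ red hred hM)
  have iFinE : FiniteDimensional E ↥(modularFunctionFieldFullC K M) :=
    FiniteDimensional.right (FractionRing (vc90_Oj R₀)) E ↥(modularFunctionFieldFullC K M)
  exact ⟨hSD, vt95_prime_transfer (O₀ := vc90_Oj R₀) (Polynomial.C π : Polynomial R₀)
    (Polynomial.C π) Polynomial.X hπ' hπt hππ h1 h2 hSD (vc90_prime₀ K M π hπ κ red hred hM),
    fun y z hy hz hyz => vt95_sat_transfer (O₀ := vc90_Oj R₀) (E := E) (Polynomial.C π)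
      Polynomial.X hπ' hπt h1 hSD y z hy hz hyz, iFinE⟩

/-- `h ≠ 0` from the relation. -/
theorem vc90_ne_zero_of_rel (h : ↥(modularFunctionFieldFullC K M)) (P : Polynomial R₀) (k : ℕ)
    (hk0 : 0 < k) (hu : IsUnit (P.coeff 0))
    (hrel : rm90_j K M * h ^ k = Polynomial.eval₂ (rm90_c K R₀ M) h P) : h ≠ 0 := by
  rintro rfl
  rw [zero_pow hk0.ne', mul_zero, Polynomial.eval₂_at_zero] at hrel
  have hinj : Function.Injective (rm90_c K R₀ M) :=
    (algebraMap K ↥(modularFunctionFieldFullC K M)).injective.comp (IsFractionRing.injective R₀ K)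
  exact hu.ne_zero (hinj (by rw [← hrel, map_zero]))

/-- **The vertical package on the chart `x = h`**, from the relation `j * h ^ k = P(h)`, `P`
monic of degree `> k > 0` with `P(0)` a unit of `R₀`. -/
theorem vc90_chart_of_rel (π : R₀) (hπ : Prime π) (κ : Type) [Field κ] (red : R₀ →+* κ)
    (hred : ∀ a : R₀, red a = 0 ↔ π ∣ a) (hM : (M : κ) ≠ 0)
    (h : ↥(modularFunctionFieldFullC K M)) (P : Polynomial R₀) (k : ℕ) (hP : P.Monic)
    (hk0 : 0 < k) (hk : k < P.natDegree) (hu : IsUnit (P.coeff 0))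
    (hrel : rm90_j K M * h ^ k = Polynomial.eval₂ (rm90_c K R₀ M) h P)
    [iA : Algebra (Polynomial R₀) ↥(modularFunctionFieldFullC K M)]
    (halg : algebraMap (Polynomial R₀) ↥(modularFunctionFieldFullC K M) =
      Polynomial.eval₂RingHom (rm90_c K R₀ M) h)
    {E : Type*} [Field E] [Algebra (Polynomial R₀) E] [IsFractionRing (Polynomial R₀) E]
    [Algebra E ↥(modularFunctionFieldFullC K M)]
    [IsScalarTower (Polynomial R₀) E ↥(modularFunctionFieldFullC K M)] :
    PurSelfDualAt (Polynomial R₀) E ↥(modularFunctionFieldFullC K M) (Polynomial.C π) ∧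
    (Ideal.span {algebraMap (Polynomial R₀)
      ↥(integralClosure (Polynomial R₀) ↥(modularFunctionFieldFullC K M))
      (Polynomial.C π)}).IsPrime ∧
    (∀ y z : ↥(modularFunctionFieldFullC K M), IsIntegral (Polynomial R₀) y →
      (rm90_ev K R₀ M).IsIntegralElem z →
      y = algebraMap (Polynomial R₀) ↥(modularFunctionFieldFullC K M) (Polynomial.C π) * z →
      IsIntegral (Polynomial R₀) z) ∧
    FiniteDimensional E ↥(modularFunctionFieldFullC K M) := by
  have hh0 := vc90_ne_zero_of_rel K M h P k hk0 hu hrel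
  have hx := vc90_isIntegral_of_rel K M h P k hP hk hrel
  have hxinv := vc90_isIntegral_inv_of_rel K M h P k hk0 hu hrel hx
  exact vc90_chart_full K M π hπ κ red hred hM h hh0 P k hrel hx hxinv halg

/-- **The vertical package on the chart `x = h⁻¹`**, from the relation `j * h ^ k = P(h)`. -/
theorem vc90_chart_inv_of_rel (π : R₀) (hπ : Prime π) (κ : Type) [Field κ] (red : R₀ →+* κ)
    (hred : ∀ a : R₀, red a = 0 ↔ π ∣ a) (hM : (M : κ) ≠ 0)
    (h : ↥(modularFunctionFieldFullC K M)) (P : Polynomial R₀) (k : ℕ) (hP : P.Monic)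
    (hk0 : 0 < k) (hk : k < P.natDegree) (hu : IsUnit (P.coeff 0))
    (hrel : rm90_j K M * h ^ k = Polynomial.eval₂ (rm90_c K R₀ M) h P)
    [iA : Algebra (Polynomial R₀) ↥(modularFunctionFieldFullC K M)]
    (halg : algebraMap (Polynomial R₀) ↥(modularFunctionFieldFullC K M) =
      Polynomial.eval₂RingHom (rm90_c K R₀ M) h⁻¹)
    {E : Type*} [Field E] [Algebra (Polynomial R₀) E] [IsFractionRing (Polynomial R₀) E]
    [Algebra E ↥(modularFunctionFieldFullC K M)]
    [IsScalarTower (Polynomial R₀) E ↥(modularFunctionFieldFullC K M)] :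
    PurSelfDualAt (Polynomial R₀) E ↥(modularFunctionFieldFullC K M) (Polynomial.C π) ∧
    (Ideal.span {algebraMap (Polynomial R₀)
      ↥(integralClosure (Polynomial R₀) ↥(modularFunctionFieldFullC K M))
      (Polynomial.C π)}).IsPrime ∧
    (∀ y z : ↥(modularFunctionFieldFullC K M), IsIntegral (Polynomial R₀) y →
      (rm90_ev K R₀ M).IsIntegralElem z →
      y = algebraMap (Polynomial R₀) ↥(modularFunctionFieldFullC K M) (Polynomial.C π) * z →
      IsIntegral (Polynomial R₀) z) ∧
    FiniteDimensional E ↥(modularFunctionFieldFullC K M) := by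
  have hh0 := vc90_ne_zero_of_rel K M h P k hk0 hu hrel
  have hx := vc90_isIntegral_of_rel K M h P k hP hk hrel
  have hxinv := vc90_isIntegral_inv_of_rel K M h P k hk0 hu hrel hx
  have hrel' := vc90_rel_inv K M h hh0 P k hk.le hrel
  exact vc90_chart_full K M π hπ κ red hred hM h⁻¹ (inv_ne_zero hh0) P.reverse
    (P.natDegree - k) hrel' hxinv (by rw [inv_inv]; exact hx) halg

end Chart

/-! ### Levels 2 and 3 -/

section Levels

variable (K : Type) [Field K] {R₀ : Type*} [CommRing R₀] [IsDomain R₀]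
  [UniqueFactorizationMonoid R₀] [Algebra R₀ K] [IsFractionRing R₀ K] (M : ℕ) [NeZero M]

theorem vc90_P2_monic : ((Polynomial.X + Polynomial.C 256) ^ 3 : Polynomial R₀).Monic :=
  (Polynomial.monic_X_add_C (256 : R₀)).pow 3

theorem vc90_P2_natDegree :
    ((Polynomial.X + Polynomial.C 256) ^ 3 : Polynomial R₀).natDegree = 3 := by
  rw [(Polynomial.monic_X_add_C (256 : R₀)).natDegree_pow, Polynomial.natDegree_X_add_C]

theorem vc90_P2_isUnit (h2 : IsUnit (2 : R₀)) :
    IsUnit (((Polynomial.X + Polynomial.C 256) ^ 3 : Polynomial R₀).coeff 0) := by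
  rw [Polynomial.coeff_zero_eq_eval_zero, Polynomial.eval_pow, Polynomial.eval_add,
    Polynomial.eval_X, Polynomial.eval_C, zero_add]
  have h1 : (256 : R₀) ^ 3 = 2 ^ 24 := by norm_num
  rw [h1]
  exact h2.pow 24

theorem vc90_P2_eval (h : ↥(modularFunctionFieldFullC K M)) :
    Polynomial.eval₂ (rm90_c K R₀ M) h ((Polynomial.X + Polynomial.C 256) ^ 3) =
      (h + 256) ^ 3 := by
  rw [Polynomial.eval₂_pow, Polynomial.eval₂_add, Polynomial.eval₂_X, Polynomial.eval₂_C,
    map_ofNat]

theorem vc90_P3_monic :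
    ((Polynomial.X + Polynomial.C 27) * (Polynomial.X + Polynomial.C 243) ^ 3 :
      Polynomial R₀).Monic :=
  (Polynomial.monic_X_add_C (27 : R₀)).mul ((Polynomial.monic_X_add_C (243 : R₀)).pow 3)

theorem vc90_P3_natDegree :
    ((Polynomial.X + Polynomial.C 27) * (Polynomial.X + Polynomial.C 243) ^ 3 :
      Polynomial R₀).natDegree = 4 := by
  rw [(Polynomial.monic_X_add_C (27 : R₀)).natDegree_mul
      ((Polynomial.monic_X_add_C (243 : R₀)).pow 3),
    (Polynomial.monic_X_add_C (243 : R₀)).natDegree_pow, Polynomial.natDegree_X_add_C,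
    Polynomial.natDegree_X_add_C]

theorem vc90_P3_isUnit (h3 : IsUnit (3 : R₀)) :
    IsUnit (((Polynomial.X + Polynomial.C 27) * (Polynomial.X + Polynomial.C 243) ^ 3 :
      Polynomial R₀).coeff 0) := by
  rw [Polynomial.coeff_zero_eq_eval_zero, Polynomial.eval_mul, Polynomial.eval_pow,
    Polynomial.eval_add, Polynomial.eval_add, Polynomial.eval_X, Polynomial.eval_C,
    Polynomial.eval_C, zero_add, zero_add]
  have h1 : (27 : R₀) * 243 ^ 3 = 3 ^ 18 := by norm_num
  rw [h1]
  exact h3.pow 18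

theorem vc90_P3_eval (h : ↥(modularFunctionFieldFullC K M)) :
    Polynomial.eval₂ (rm90_c K R₀ M) h
      ((Polynomial.X + Polynomial.C 27) * (Polynomial.X + Polynomial.C 243) ^ 3) =
      (h + 27) * (h + 243) ^ 3 := by
  rw [Polynomial.eval₂_mul, Polynomial.eval₂_pow, Polynomial.eval₂_add, Polynomial.eval₂_add,
    Polynomial.eval₂_X, Polynomial.eval₂_C, Polynomial.eval₂_C, map_ofNat, map_ofNat]

/-- **Level 2, chart `h`** (`ℓ` odd): the vertical package for `R₀[h]`, `j h² = (h+256)³`. -/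
theorem vc90_level2 (π : R₀) (hπ : Prime π) (κ : Type) [Field κ] (red : R₀ →+* κ)
    (hred : ∀ a : R₀, red a = 0 ↔ π ∣ a) (hM : (M : κ) ≠ 0)
    (h : ↥(modularFunctionFieldFullC K M))
    (hrel : rm90_j K M * h ^ 2 = (h + 256) ^ 3) (h2 : IsUnit (2 : R₀))
    [iA : Algebra (Polynomial R₀) ↥(modularFunctionFieldFullC K M)]
    (halg : algebraMap (Polynomial R₀) ↥(modularFunctionFieldFullC K M) =
      Polynomial.eval₂RingHom (rm90_c K R₀ M) h)
    {E : Type*} [Field E] [Algebra (Polynomial R₀) E] [IsFractionRing (Polynomial R₀) E]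
    [Algebra E ↥(modularFunctionFieldFullC K M)]
    [IsScalarTower (Polynomial R₀) E ↥(modularFunctionFieldFullC K M)] :
    PurSelfDualAt (Polynomial R₀) E ↥(modularFunctionFieldFullC K M) (Polynomial.C π) ∧
    (Ideal.span {algebraMap (Polynomial R₀)
      ↥(integralClosure (Polynomial R₀) ↥(modularFunctionFieldFullC K M))
      (Polynomial.C π)}).IsPrime ∧
    (∀ y z : ↥(modularFunctionFieldFullC K M), IsIntegral (Polynomial R₀) y →
      (rm90_ev K R₀ M).IsIntegralElem z →
      y = algebraMap (Polynomial R₀) ↥(modularFunctionFieldFullC K M) (Polynomial.C π) * z →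
      IsIntegral (Polynomial R₀) z) ∧
    FiniteDimensional E ↥(modularFunctionFieldFullC K M) :=
  vc90_chart_of_rel K M π hπ κ red hred hM h ((Polynomial.X + Polynomial.C 256) ^ 3) 2 vc90_P2_monic
    (by norm_num) (by rw [vc90_P2_natDegree]; norm_num) (vc90_P2_isUnit h2)
    (by rw [vc90_P2_eval]; exact hrel) halg

/-- **Level 2, chart `h⁻¹`** (`ℓ` odd): the vertical package for `R₀[h⁻¹]`. -/
theorem vc90_level2_inv (π : R₀) (hπ : Prime π) (κ : Type) [Field κ] (red : R₀ →+* κ)
    (hred : ∀ a : R₀, red a = 0 ↔ π ∣ a) (hM : (M : κ) ≠ 0)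
    (h : ↥(modularFunctionFieldFullC K M))
    (hrel : rm90_j K M * h ^ 2 = (h + 256) ^ 3) (h2 : IsUnit (2 : R₀))
    [iA : Algebra (Polynomial R₀) ↥(modularFunctionFieldFullC K M)]
    (halg : algebraMap (Polynomial R₀) ↥(modularFunctionFieldFullC K M) =
      Polynomial.eval₂RingHom (rm90_c K R₀ M) h⁻¹)
    {E : Type*} [Field E] [Algebra (Polynomial R₀) E] [IsFractionRing (Polynomial R₀) E]
    [Algebra E ↥(modularFunctionFieldFullC K M)]
    [IsScalarTower (Polynomial R₀) E ↥(modularFunctionFieldFullC K M)] :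
    PurSelfDualAt (Polynomial R₀) E ↥(modularFunctionFieldFullC K M) (Polynomial.C π) ∧
    (Ideal.span {algebraMap (Polynomial R₀)
      ↥(integralClosure (Polynomial R₀) ↥(modularFunctionFieldFullC K M))
      (Polynomial.C π)}).IsPrime ∧
    (∀ y z : ↥(modularFunctionFieldFullC K M), IsIntegral (Polynomial R₀) y →
      (rm90_ev K R₀ M).IsIntegralElem z →
      y = algebraMap (Polynomial R₀) ↥(modularFunctionFieldFullC K M) (Polynomial.C π) * z →
      IsIntegral (Polynomial R₀) z) ∧
    FiniteDimensional E ↥(modularFunctionFieldFullC K M) :=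
  vc90_chart_inv_of_rel K M π hπ κ red hred hM h ((Polynomial.X + Polynomial.C 256) ^ 3) 2 vc90_P2_monic
    (by norm_num) (by rw [vc90_P2_natDegree]; norm_num) (vc90_P2_isUnit h2)
    (by rw [vc90_P2_eval]; exact hrel) halg

/-- **Level 3, chart `h`** (`ℓ = 2`): the vertical package for `R₀[h]`, `j h³ = (h+27)(h+243)³`. -/
theorem vc90_level3 (π : R₀) (hπ : Prime π) (κ : Type) [Field κ] (red : R₀ →+* κ)
    (hred : ∀ a : R₀, red a = 0 ↔ π ∣ a) (hM : (M : κ) ≠ 0)
    (h : ↥(modularFunctionFieldFullC K M))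
    (hrel : rm90_j K M * h ^ 3 = (h + 27) * (h + 243) ^ 3) (h3 : IsUnit (3 : R₀))
    [iA : Algebra (Polynomial R₀) ↥(modularFunctionFieldFullC K M)]
    (halg : algebraMap (Polynomial R₀) ↥(modularFunctionFieldFullC K M) =
      Polynomial.eval₂RingHom (rm90_c K R₀ M) h)
    {E : Type*} [Field E] [Algebra (Polynomial R₀) E] [IsFractionRing (Polynomial R₀) E]
    [Algebra E ↥(modularFunctionFieldFullC K M)]
    [IsScalarTower (Polynomial R₀) E ↥(modularFunctionFieldFullC K M)] :
    PurSelfDualAt (Polynomial R₀) E ↥(modularFunctionFieldFullC K M) (Polynomial.C π) ∧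
    (Ideal.span {algebraMap (Polynomial R₀)
      ↥(integralClosure (Polynomial R₀) ↥(modularFunctionFieldFullC K M))
      (Polynomial.C π)}).IsPrime ∧
    (∀ y z : ↥(modularFunctionFieldFullC K M), IsIntegral (Polynomial R₀) y →
      (rm90_ev K R₀ M).IsIntegralElem z →
      y = algebraMap (Polynomial R₀) ↥(modularFunctionFieldFullC K M) (Polynomial.C π) * z →
      IsIntegral (Polynomial R₀) z) ∧
    FiniteDimensional E ↥(modularFunctionFieldFullC K M) :=
  vc90_chart_of_rel K M π hπ κ red hred hM h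
    ((Polynomial.X + Polynomial.C 27) * (Polynomial.X + Polynomial.C 243) ^ 3) 3 vc90_P3_monic
    (by norm_num) (by rw [vc90_P3_natDegree]; norm_num) (vc90_P3_isUnit h3)
    (by rw [vc90_P3_eval]; exact hrel) halg

/-- **Level 3, chart `h⁻¹`** (`ℓ = 2`): the vertical package for `R₀[h⁻¹]`. -/
theorem vc90_level3_inv (π : R₀) (hπ : Prime π) (κ : Type) [Field κ] (red : R₀ →+* κ)
    (hred : ∀ a : R₀, red a = 0 ↔ π ∣ a) (hM : (M : κ) ≠ 0)
    (h : ↥(modularFunctionFieldFullC K M))
    (hrel : rm90_j K M * h ^ 3 = (h + 27) * (h + 243) ^ 3) (h3 : IsUnit (3 : R₀))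
    [iA : Algebra (Polynomial R₀) ↥(modularFunctionFieldFullC K M)]
    (halg : algebraMap (Polynomial R₀) ↥(modularFunctionFieldFullC K M) =
      Polynomial.eval₂RingHom (rm90_c K R₀ M) h⁻¹)
    {E : Type*} [Field E] [Algebra (Polynomial R₀) E] [IsFractionRing (Polynomial R₀) E]
    [Algebra E ↥(modularFunctionFieldFullC K M)]
    [IsScalarTower (Polynomial R₀) E ↥(modularFunctionFieldFullC K M)] :
    PurSelfDualAt (Polynomial R₀) E ↥(modularFunctionFieldFullC K M) (Polynomial.C π) ∧
    (Ideal.span {algebraMap (Polynomial R₀)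
      ↥(integralClosure (Polynomial R₀) ↥(modularFunctionFieldFullC K M))
      (Polynomial.C π)}).IsPrime ∧
    (∀ y z : ↥(modularFunctionFieldFullC K M), IsIntegral (Polynomial R₀) y →
      (rm90_ev K R₀ M).IsIntegralElem z →
      y = algebraMap (Polynomial R₀) ↥(modularFunctionFieldFullC K M) (Polynomial.C π) * z →
      IsIntegral (Polynomial R₀) z) ∧
    FiniteDimensional E ↥(modularFunctionFieldFullC K M) :=
  vc90_chart_inv_of_rel K M π hπ κ red hred hM h
    ((Polynomial.X + Polynomial.C 27) * (Polynomial.X + Polynomial.C 243) ^ 3) 3 vc90_P3_monic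
    (by norm_num) (by rw [vc90_P3_natDegree]; norm_num) (vc90_P3_isUnit h3)
    (by rw [vc90_P3_eval]; exact hrel) halg

end Levels

end

end Fermat.Agent.S18
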