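/-
S18 / B5 (helper79): final chart outputs.

* `sm79_chart_outputs`: from the hypotheses of the per-chart assembly
  `ca39_isDedekindDomain_fibre` (helper39, on helper51's `NormalFibre51` chain) we get the four
  chart-side inputs of the two-chart statement `pk15_star` (helper15) for the chart
  `pk15_chart R {x}`: Dedekind special fibre, noetherianity, finiteness over `R[x]`, and
  "fraction field is `F`".
* `sm79_level2_charts`, `sm79_level3_charts`: the concrete instantiation on the `K₀`-model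
  `F(M)_{K₀}` of the modular function field, for both charts `x = h`, `x = h⁻¹` of a level-2
  (resp. level-3) Hauptmodul `h`, with every hypothesis discharged: vertical package
  (`VertChart90`), horizontal self-duality (`HorizInst94`), tameness at the sections
  (`TameSection27`).
-/
import Mathlib
import Fermat.Agent.S18.ChartDedekind39
import Fermat.Agent.S18.ChartAlg39
import Fermat.Agent.S18.Pack15b
import Fermat.Agent.S18.VertChart90
import Fermat.Agent.S18.HorizInst94
import Fermat.Agent.S18.TameSection27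
import Fermat.Agent.S18.Haupt3Mem_34

set_option autoImplicit false
set_option linter.unusedSectionVars false
set_option linter.unusedVariables false
set_option linter.style.haveILetI false

open Polynomial AlgebraicCurve ModularCurve

universe u

namespace Fermat.Agent.S18

open Fermat.Agent.S24 Fermat.Agent.S28

/-- The four chart-side inputs of `pk15_star` for the chart `pk15_chart R {x}`: Dedekind special
fibre, noetherianity, finiteness over `R[x]`, and "fraction field is `F`". -/
def sm79_ChartOut (R : Type*) {F : Type*} [CommRing R] [Field F] [Algebra R F] (π : R) (x : F) :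
    Prop :=
  IsDedekindDomain (pk15_chart R ({x} : Set F) ⧸
      Ideal.span {algebraMap R (pk15_chart R ({x} : Set F)) π}) ∧
    IsNoetherianRing (pk15_chart R ({x} : Set F)) ∧
    (∃ G : Finset F, ∀ y ∈ pk15_chart R ({x} : Set F),
      y ∈ Submodule.span (Algebra.adjoin R ({x} : Set F)) (G : Set F)) ∧
    (∀ y : F, ∃ a ∈ pk15_chart R ({x} : Set F),
      ∃ b ∈ pk15_chart R ({x} : Set F), b ≠ 0 ∧ y * b = a)

section ChartOut

variable {R : Type u} [CommRing R] [IsDomain R] [IsDiscreteValuationRing R] [CharZero R]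
  {π : R}
  {K0 : Type*} [Field K0] [Algebra R K0] [IsFractionRing R K0]
  {E F : Type*} [Field E] [Algebra R[X] E] [IsFractionRing R[X] E]
  [Field F] [Algebra E F] [Algebra R[X] F] [IsScalarTower R[X] E F]
  [FiniteDimensional E F] [Algebra.IsSeparable E F] [Algebra K0 F]
  [Algebra R F] [IsScalarTower R K0 F]

/-- The chart algebra structure is evaluation at the chart coordinate `x = algebraMap R[X] F X`. -/
theorem sm79_algebraMap_eq_aeval
    (hC : ∀ r : R, algebraMap R[X] F (C r) = algebraMap K0 F (algebraMap R K0 r)) (p : R[X]) :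
    algebraMap R[X] F p = Polynomial.aeval (algebraMap R[X] F X) p := by
  have h : algebraMap R[X] F
      = ((Polynomial.aeval (algebraMap R[X] F X) : R[X] →ₐ[R] F) : R[X] →+* F) := by
    apply Polynomial.ringHom_ext
    · intro r
      rw [hC, ← IsScalarTower.algebraMap_apply R K0 F]
      simp
    · simp
  exact congrArg (fun f : R[X] →+* F => f p) h

include E in
/-- `R[X] → F` is injective. -/
theorem sm79_algebraMap_injective : Function.Injective (algebraMap R[X] F) := by
  rw [IsScalarTower.algebraMap_eq R[X] E F]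
  exact (algebraMap E F).injective.comp (IsFractionRing.injective R[X] E)

include E in
/-- `F` is algebraic over `R[X]`. -/
theorem sm79_isAlgebraic (y : F) : IsAlgebraic R[X] y :=
  (IsFractionRing.isAlgebraic_iff R[X] E F).mpr (Algebra.IsAlgebraic.isAlgebraic y)

/-- **B5, one chart, final form.**  Same hypotheses as `ca39_isDedekindDomain_fibre`; the chart
`B = pk15_chart R {x}` (`x` the chart coordinate) has a Dedekind special fibre, is noetherian,
is finite over `R[x]` and has fraction field `F`: the four chart-side inputs of `pk15_star`. -/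
theorem sm79_chart_outputs (hπ : Irreducible π)
    (hC : ∀ r : R, algebraMap R[X] F (C r) = algebraMap K0 F (algebraMap R K0 r))
    (x : F) (hXx : algebraMap R[X] F X = x)
    (c : R) (hc : IsUnit c) (e₀ e₁ : ℕ) (he₀ : IsUnit (e₀ : R)) (he₁ : IsUnit (e₁ : R))
    (hV : PurSelfDualAt R[X] E F (C π))
    (hdom : (Ideal.span {algebraMap R[X] (integralClosure R[X] F) (C π)}).IsPrime)
    (hH : ∀ p : R[X], Prime p → ¬ p ∣ C π * X * (X - C c) → PurSelfDualAt R[X] E F p)
    (htame₀ : ∀ v : Place K0 F, 0 < v.ord (algebraMap R[X] F X) →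
      v.ord (algebraMap R[X] F X) ∣ (e₀ : ℤ))
    (htame₁ : ∀ v : Place K0 F, 0 < v.ord (algebraMap R[X] F (X - C c)) →
      v.ord (algebraMap R[X] F (X - C c)) ∣ (e₁ : ℤ)) :
    sm79_ChartOut R π x := by
  subst hXx
  have hO := sm79_algebraMap_eq_aeval (K0 := K0) (F := F) hC
  have hrange := pk15_hrange_poly (R := R) (algebraMap R[X] F X) hO
  haveI hDed := ca39_isDedekindDomain_fibre (K0 := K0) (E := E) hπ hC c hc e₀ e₁ he₀ he₁ hV hdom hH
    htame₀ htame₁
  haveI hNoeth : IsNoetherianRing (integralClosure R[X] F) :=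
    IsIntegralClosure.isNoetherianRing R[X] E F (integralClosure R[X] F)
  haveI hFin : Module.Finite R[X] (integralClosure R[X] F) :=
    IsIntegralClosure.finite R[X] E F (integralClosure R[X] F)
  refine ⟨?_, ?_, ?_, ?_⟩
  · exact pk15_dedekind_transport π (C π) (pk15_hpi_poly (algebraMap R[X] F X) hO π)
      {algebraMap R[X] F X} hrange
  · exact pk15_noeth_transport {algebraMap R[X] F X} hrange
  · exact pk15_hfin_transport {algebraMap R[X] F X} hrange
  · exact pk15_hfrac_transport {algebraMap R[X] F X} hrange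
      (sm79_algebraMap_injective (E := E)) (sm79_isAlgebraic (E := E))

end ChartOut

section Concrete

variable {R : Type} [CommRing R] [IsDomain R] [IsDiscreteValuationRing R]
  (K0 : Type) [Field K0] [CharZero K0] [Algebra R K0] [IsFractionRing R K0]
  [Algebra K0 Kbar] [Algebra.IsAlgebraic K0 Kbar]
  (M : ℕ) [NeZero M]

omit [IsDomain R] [IsDiscreteValuationRing R] [CharZero K0] [IsFractionRing R K0]
  [Algebra.IsAlgebraic K0 Kbar] in
/-- `ι (j) = j`. -/
theorem sm79_iota_j :
    fd27_iota (algebraMap K0 Kbar) M (rm90_j K0 M) =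
      (⟨JJ 1, asmAb_JJ_mem M 1 (one_dvd M)⟩ : ↥(modularFunctionFieldBar M)) := by
  apply Subtype.ext
  rw [fd27_iota_coe]
  show coeffMap (algebraMap K0 Kbar) (jqModC K0) = JJ 1
  rw [coeffMap_jqModC, g94_JJ_one]

omit [Algebra.IsAlgebraic K0 Kbar] [CharZero K0] in
/-- In a discrete valuation ring with uniformiser `π`, the residue map kills exactly the
multiples of `π`. -/
theorem sm79_residue_eq_zero_iff {π : R} (hπ : Irreducible π) (a : R) :
    IsLocalRing.residue R a = 0 ↔ π ∣ a := by
  rw [IsLocalRing.residue_eq_zero_iff, hπ.maximalIdeal_eq, Ideal.mem_span_singleton]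

omit [Algebra.IsAlgebraic K0 Kbar] [CharZero K0] in
theorem sm79_residue_natCast_ne_zero {n : ℕ} (hn : IsUnit (n : R)) :
    ((n : ℕ) : IsLocalRing.ResidueField R) ≠ 0 := by
  rw [← map_natCast (IsLocalRing.residue R), Ne, IsLocalRing.residue_eq_zero_iff]
  exact fun h => h hn

omit [IsDomain R] [IsDiscreteValuationRing R] in
/-- A solution of `c * n = -1` for a unit `n`. -/
theorem sm79_exists_neg_inv {n : R} (hn : IsUnit n) : ∃ c : R, IsUnit c ∧ c * n = -1 := by
  obtain ⟨u, rfl⟩ := hn
  exact ⟨-((u⁻¹ : Rˣ) : R), (u⁻¹).isUnit.neg, by rw [neg_mul, Units.inv_mul]⟩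

variable [Algebra R ↥(modularFunctionFieldFullC K0 M)]
  [IsScalarTower R K0 ↥(modularFunctionFieldFullC K0 M)]

/-! ### Level 2 -/

/-- **B5, level 2, chart `x = h`.** -/
theorem sm79_level2_chart {π : R} (hπ : Irreducible π) (hM : IsUnit (M : R))
    (h2 : IsUnit (2 : R)) (h : ↥(modularFunctionFieldFullC K0 M)) (htr : Transcendental K0 h)
    (hrel : rm90_j K0 M * h ^ 2 = (h + 256) ^ 3) :
    sm79_ChartOut R π h := by
  haveI : CharZero R := (algebraMap R K0).charZero
  letI iA : Algebra R[X] ↥(modularFunctionFieldFullC K0 M) := ci39_alg R K0 h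
  have hC := ci39_alg_C R K0 h
  have hXh : algebraMap R[X] ↥(modularFunctionFieldFullC K0 M) X = h := ci39_alg_X R K0 h
  have hx : Transcendental K0 (algebraMap R[X] ↥(modularFunctionFieldFullC K0 M) X) :=
    ci39_alg_transcendental R K0 h htr
  haveI : FaithfulSMul R[X] ↥(modularFunctionFieldFullC K0 M) :=
    (faithfulSMul_iff_algebraMap_injective _ _).mpr (ci39_injective hC hx)
  letI : Algebra (FractionRing R[X]) ↥(modularFunctionFieldFullC K0 M) :=
    FractionRing.liftAlgebra _ _
  haveI : IsScalarTower R[X] (FractionRing R[X]) ↥(modularFunctionFieldFullC K0 M) :=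
    FractionRing.isScalarTower_liftAlgebra _ _
  -- vertical package
  obtain ⟨hV, hdom, -, hfinE⟩ := vc90_level2 K0 M π hπ.prime (IsLocalRing.ResidueField R)
    (IsLocalRing.residue R) (sm79_residue_eq_zero_iff hπ) (sm79_residue_natCast_ne_zero hM)
    h hrel h2 (iA := iA) rfl (E := FractionRing R[X])
  haveI := hfinE
  haveI : Algebra.IsSeparable (FractionRing R[X]) ↥(modularFunctionFieldFullC K0 M) :=
    ci39_isSeparable (R := R)
  -- the Hauptmodul over `ℚbar`
  set ι := fd27_iota (algebraMap K0 Kbar) M with hιdef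
  have hι := fd27_iota_algebraMap (algebraMap K0 Kbar) M
  have hrelb : (⟨JJ 1, asmAb_JJ_mem M 1 (one_dvd M)⟩ : ↥(modularFunctionFieldBar M)) * ι h ^ 2 =
      (ι h + 256) ^ 3 := by
    have := congrArg ι hrel
    rw [map_mul, map_pow, map_pow, map_add, map_ofNat, sm79_iota_j] at this
    exact this
  have hιX : ι (algebraMap R[X] ↥(modularFunctionFieldFullC K0 M) X) = ι h := by rw [hXh]
  have h64 : IsUnit (-64 : R) := by
    have : (-64 : R) = -(2 ^ 6) := by norm_num
    rw [this]
    exact (h2.pow 6).neg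
  refine sm79_chart_outputs (K0 := K0) (E := FractionRing R[X]) hπ hC h hXh (-64) h64 M 2 hM
    (by simpa using h2) hV hdom ?_ ?_ ?_
  · intro p hp hpc
    exact hi94_hH2 M (ι h) hrelb hπ hC (by rw [hXh]; rfl) p hp hpc
  · exact ts27_tame2_zero M ι hι (ι h) hrelb _ hιX
  · refine ts27_tame2_ell M ι hι (ι h) hrelb _ ?_
    rw [ci39_alg_X_sub_C, map_sub, hι, map_neg, map_neg, map_neg, sub_neg_eq_add, map_ofNat,
      map_ofNat, map_ofNat]

/-- **B5, level 2, chart `x = h⁻¹`.** -/
theorem sm79_level2_chart_inv {π : R} (hπ : Irreducible π) (hM : IsUnit (M : R))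
    (h2 : IsUnit (2 : R)) (h : ↥(modularFunctionFieldFullC K0 M)) (htr : Transcendental K0 h)
    (hrel : rm90_j K0 M * h ^ 2 = (h + 256) ^ 3) :
    sm79_ChartOut R π h⁻¹ := by
  haveI : CharZero R := (algebraMap R K0).charZero
  have hh0 : h ≠ 0 := fun h0 => htr (h0 ▸ isAlgebraic_zero)
  have htr' : Transcendental K0 h⁻¹ := fun ha => htr (by simpa using ha.inv)
  letI iA : Algebra R[X] ↥(modularFunctionFieldFullC K0 M) := ci39_alg R K0 h⁻¹
  have hC := ci39_alg_C R K0 h⁻¹
  have hXh : algebraMap R[X] ↥(modularFunctionFieldFullC K0 M) X = h⁻¹ := ci39_alg_X R K0 h⁻¹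
  have hx : Transcendental K0 (algebraMap R[X] ↥(modularFunctionFieldFullC K0 M) X) :=
    ci39_alg_transcendental R K0 h⁻¹ htr'
  haveI : FaithfulSMul R[X] ↥(modularFunctionFieldFullC K0 M) :=
    (faithfulSMul_iff_algebraMap_injective _ _).mpr (ci39_injective hC hx)
  letI : Algebra (FractionRing R[X]) ↥(modularFunctionFieldFullC K0 M) :=
    FractionRing.liftAlgebra _ _
  haveI : IsScalarTower R[X] (FractionRing R[X]) ↥(modularFunctionFieldFullC K0 M) :=
    FractionRing.isScalarTower_liftAlgebra _ _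
  -- vertical package
  obtain ⟨hV, hdom, -, hfinE⟩ := vc90_level2_inv K0 M π hπ.prime (IsLocalRing.ResidueField R)
    (IsLocalRing.residue R) (sm79_residue_eq_zero_iff hπ) (sm79_residue_natCast_ne_zero hM)
    h hrel h2 (iA := iA) rfl (E := FractionRing R[X])
  haveI := hfinE
  haveI : Algebra.IsSeparable (FractionRing R[X]) ↥(modularFunctionFieldFullC K0 M) :=
    ci39_isSeparable (R := R)
  -- the Hauptmodul over `ℚbar`
  set ι := fd27_iota (algebraMap K0 Kbar) M with hιdef
  have hι := fd27_iota_algebraMap (algebraMap K0 Kbar) M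
  have hrelb : (⟨JJ 1, asmAb_JJ_mem M 1 (one_dvd M)⟩ : ↥(modularFunctionFieldBar M)) * ι h ^ 2 =
      (ι h + 256) ^ 3 := by
    have := congrArg ι hrel
    rw [map_mul, map_pow, map_pow, map_add, map_ofNat, sm79_iota_j] at this
    exact this
  have hιX : ι (algebraMap R[X] ↥(modularFunctionFieldFullC K0 M) X) = (ι h)⁻¹ := by
    rw [hXh, map_inv₀]
  have h64 : IsUnit (64 : R) := by
    have : (64 : R) = 2 ^ 6 := by norm_num
    rw [this]
    exact h2.pow 6
  obtain ⟨c, hcu, hc⟩ := sm79_exists_neg_inv h64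
  have hc' : algebraMap K0 Kbar (algebraMap R K0 c) * 64 = -1 := by
    have := congrArg (algebraMap K0 Kbar) (congrArg (algebraMap R K0) hc)
    rw [map_mul, map_mul, map_ofNat, map_ofNat, map_neg, map_neg, map_one, map_one] at this
    exact this
  refine sm79_chart_outputs (K0 := K0) (E := FractionRing R[X]) hπ hC h⁻¹ hXh c hcu M 2 hM
    (by simpa using h2) hV hdom ?_ ?_ ?_
  · intro p hp hpc
    refine hi94_hH2_inv M (ι h) hrelb hπ hC ?_ c hc p hp hpc
    rw [hXh]
    have h1 : ι h⁻¹ * ι h = 1 := by rw [← map_mul, inv_mul_cancel₀ hh0, map_one]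
    exact congrArg Subtype.val h1
  · exact ts27_tame2_inv_zero M ι hι (ι h) hrelb _ hιX
  · refine ts27_tame2_inv_ell M ι hι (ι h) hrelb _ hc' _ ?_
    rw [ci39_alg_X_sub_C, map_sub, hι, map_inv₀]

/-! ### Level 3 -/

/-- **B5, level 3, chart `x = h`.** -/
theorem sm79_level3_chart {π : R} (hπ : Irreducible π) (hM : IsUnit (M : R))
    (h3 : IsUnit (3 : R)) (h : ↥(modularFunctionFieldFullC K0 M)) (htr : Transcendental K0 h)
    (hrel : rm90_j K0 M * h ^ 3 = (h + 27) * (h + 243) ^ 3) :
    sm79_ChartOut R π h := by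
  haveI : CharZero R := (algebraMap R K0).charZero
  letI iA : Algebra R[X] ↥(modularFunctionFieldFullC K0 M) := ci39_alg R K0 h
  have hC := ci39_alg_C R K0 h
  have hXh : algebraMap R[X] ↥(modularFunctionFieldFullC K0 M) X = h := ci39_alg_X R K0 h
  have hx : Transcendental K0 (algebraMap R[X] ↥(modularFunctionFieldFullC K0 M) X) :=
    ci39_alg_transcendental R K0 h htr
  haveI : FaithfulSMul R[X] ↥(modularFunctionFieldFullC K0 M) :=
    (faithfulSMul_iff_algebraMap_injective _ _).mpr (ci39_injective hC hx)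
  letI : Algebra (FractionRing R[X]) ↥(modularFunctionFieldFullC K0 M) :=
    FractionRing.liftAlgebra _ _
  haveI : IsScalarTower R[X] (FractionRing R[X]) ↥(modularFunctionFieldFullC K0 M) :=
    FractionRing.isScalarTower_liftAlgebra _ _
  -- vertical package
  obtain ⟨hV, hdom, -, hfinE⟩ := vc90_level3 K0 M π hπ.prime (IsLocalRing.ResidueField R)
    (IsLocalRing.residue R) (sm79_residue_eq_zero_iff hπ) (sm79_residue_natCast_ne_zero hM)
    h hrel h3 (iA := iA) rfl (E := FractionRing R[X])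
  haveI := hfinE
  haveI : Algebra.IsSeparable (FractionRing R[X]) ↥(modularFunctionFieldFullC K0 M) :=
    ci39_isSeparable (R := R)
  -- the Hauptmodul over `ℚbar`
  set ι := fd27_iota (algebraMap K0 Kbar) M with hιdef
  have hι := fd27_iota_algebraMap (algebraMap K0 Kbar) M
  have hrelb : (⟨JJ 1, asmAb_JJ_mem M 1 (one_dvd M)⟩ : ↥(modularFunctionFieldBar M)) * ι h ^ 3 =
      (ι h + 27) * (ι h + 243) ^ 3 := by
    have := congrArg ι hrel
    rw [map_mul, map_pow, map_mul, map_pow, map_add, map_add, map_ofNat, map_ofNat,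
      sm79_iota_j] at this
    exact this
  have hιX : ι (algebraMap R[X] ↥(modularFunctionFieldFullC K0 M) X) = ι h := by rw [hXh]
  have h27 : IsUnit (-27 : R) := by
    have : (-27 : R) = -(3 ^ 3) := by norm_num
    rw [this]
    exact (h3.pow 3).neg
  refine sm79_chart_outputs (K0 := K0) (E := FractionRing R[X]) hπ hC h hXh (-27) h27 M 3 hM
    (by simpa using h3) hV hdom ?_ ?_ ?_
  · intro p hp hpc
    exact hi94_hH3 M (ι h) hrelb hπ hC (by rw [hXh]; rfl) p hp hpc
  · exact ts27_tame3_zero M ι hι (ι h) hrelb _ hιX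
  · refine ts27_tame3_ell M ι hι (ι h) hrelb _ ?_
    rw [ci39_alg_X_sub_C, map_sub, hι, map_neg, map_neg, map_neg, sub_neg_eq_add, map_ofNat,
      map_ofNat, map_ofNat]

/-- **B5, level 3, chart `x = h⁻¹`.** -/
theorem sm79_level3_chart_inv {π : R} (hπ : Irreducible π) (hM : IsUnit (M : R))
    (h3 : IsUnit (3 : R)) (h : ↥(modularFunctionFieldFullC K0 M)) (htr : Transcendental K0 h)
    (hrel : rm90_j K0 M * h ^ 3 = (h + 27) * (h + 243) ^ 3) :
    sm79_ChartOut R π h⁻¹ := by
  haveI : CharZero R := (algebraMap R K0).charZero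
  have hh0 : h ≠ 0 := fun h0 => htr (h0 ▸ isAlgebraic_zero)
  have htr' : Transcendental K0 h⁻¹ := fun ha => htr (by simpa using ha.inv)
  letI iA : Algebra R[X] ↥(modularFunctionFieldFullC K0 M) := ci39_alg R K0 h⁻¹
  have hC := ci39_alg_C R K0 h⁻¹
  have hXh : algebraMap R[X] ↥(modularFunctionFieldFullC K0 M) X = h⁻¹ := ci39_alg_X R K0 h⁻¹
  have hx : Transcendental K0 (algebraMap R[X] ↥(modularFunctionFieldFullC K0 M) X) :=
    ci39_alg_transcendental R K0 h⁻¹ htr'
  haveI : FaithfulSMul R[X] ↥(modularFunctionFieldFullC K0 M) :=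
    (faithfulSMul_iff_algebraMap_injective _ _).mpr (ci39_injective hC hx)
  letI : Algebra (FractionRing R[X]) ↥(modularFunctionFieldFullC K0 M) :=
    FractionRing.liftAlgebra _ _
  haveI : IsScalarTower R[X] (FractionRing R[X]) ↥(modularFunctionFieldFullC K0 M) :=
    FractionRing.isScalarTower_liftAlgebra _ _
  -- vertical package
  obtain ⟨hV, hdom, -, hfinE⟩ := vc90_level3_inv K0 M π hπ.prime (IsLocalRing.ResidueField R)
    (IsLocalRing.residue R) (sm79_residue_eq_zero_iff hπ) (sm79_residue_natCast_ne_zero hM)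
    h hrel h3 (iA := iA) rfl (E := FractionRing R[X])
  haveI := hfinE
  haveI : Algebra.IsSeparable (FractionRing R[X]) ↥(modularFunctionFieldFullC K0 M) :=
    ci39_isSeparable (R := R)
  -- the Hauptmodul over `ℚbar`
  set ι := fd27_iota (algebraMap K0 Kbar) M with hιdef
  have hι := fd27_iota_algebraMap (algebraMap K0 Kbar) M
  have hrelb : (⟨JJ 1, asmAb_JJ_mem M 1 (one_dvd M)⟩ : ↥(modularFunctionFieldBar M)) * ι h ^ 3 =
      (ι h + 27) * (ι h + 243) ^ 3 := by
    have := congrArg ι hrel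
    rw [map_mul, map_pow, map_mul, map_pow, map_add, map_add, map_ofNat, map_ofNat,
      sm79_iota_j] at this
    exact this
  have hιX : ι (algebraMap R[X] ↥(modularFunctionFieldFullC K0 M) X) = (ι h)⁻¹ := by
    rw [hXh, map_inv₀]
  have h27 : IsUnit (27 : R) := by
    have : (27 : R) = 3 ^ 3 := by norm_num
    rw [this]
    exact h3.pow 3
  obtain ⟨c, hcu, hc⟩ := sm79_exists_neg_inv h27
  have hc' : algebraMap K0 Kbar (algebraMap R K0 c) * 27 = -1 := by
    have := congrArg (algebraMap K0 Kbar) (congrArg (algebraMap R K0) hc)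
    rw [map_mul, map_mul, map_ofNat, map_ofNat, map_neg, map_neg, map_one, map_one] at this
    exact this
  refine sm79_chart_outputs (K0 := K0) (E := FractionRing R[X]) hπ hC h⁻¹ hXh c hcu M 3 hM
    (by simpa using h3) hV hdom ?_ ?_ ?_
  · intro p hp hpc
    refine hi94_hH3_inv M (ι h) hrelb hπ hC ?_ c hc p hp hpc
    rw [hXh]
    have h1 : ι h⁻¹ * ι h = 1 := by rw [← map_mul, inv_mul_cancel₀ hh0, map_one]
    exact congrArg Subtype.val h1
  · exact ts27_tame3_inv_zero M ι hι (ι h) hrelb _ hιX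
  · refine ts27_tame3_inv_ell M ι hι (ι h) hrelb _ hc' _ ?_
    rw [ci39_alg_X_sub_C, map_sub, hι, map_inv₀]

/-! ### The concrete Hauptmoduln -/

/-- The level-2 Hauptmodul `h = Δ(q)/Δ(q²)` as an element of `F(M)_{K₀}`, `2 ∣ M`. -/
noncomputable def sm79_h2 (h2M : 2 ∣ M) : ↥(modularFunctionFieldFullC K0 M) :=
  ⟨h70_h2 K0, h70_h2_mem_fullC K0 M h2M⟩

/-- The level-3 Hauptmodul as an element of `F(M)_{K₀}`, `3 ∣ M`. -/
noncomputable def sm79_h3 (h3M : 3 ∣ M) : ↥(modularFunctionFieldFullC K0 M) :=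
  ⟨h34_h3R K0, h34_h3R_mem_fullC K0 M h3M⟩

omit [Algebra K0 Kbar] [Algebra.IsAlgebraic K0 Kbar] in
theorem sm79_h2_coe (h2M : 2 ∣ M) :
    ((sm79_h2 K0 M h2M : ↥(modularFunctionFieldFullC K0 M)) : LaurentSeries K0) = h70_h2 K0 := rfl

omit [Algebra K0 Kbar] [Algebra.IsAlgebraic K0 Kbar] in
theorem sm79_h3_coe (h3M : 3 ∣ M) :
    ((sm79_h3 K0 M h3M : ↥(modularFunctionFieldFullC K0 M)) : LaurentSeries K0) = h34_h3R K0 := rfl

omit [Algebra K0 Kbar] [Algebra.IsAlgebraic K0 Kbar] in
/-- Transcendence in `F(M)_{K₀}` can be checked on `q`-expansions. -/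
theorem sm79_transcendental_of_coe (x : ↥(modularFunctionFieldFullC K0 M))
    (hx : Transcendental K0 (x : LaurentSeries K0)) : Transcendental K0 x := by
  intro ha
  exact hx (ha.algebraMap (A := LaurentSeries K0))

omit [Algebra K0 Kbar] [Algebra.IsAlgebraic K0 Kbar] in
theorem sm79_h2_transcendental (h2M : 2 ∣ M) : Transcendental K0 (sm79_h2 K0 M h2M) :=
  sm79_transcendental_of_coe K0 M _ (h70_h2_transcendental K0)

omit [Algebra K0 Kbar] [Algebra.IsAlgebraic K0 Kbar] in
theorem sm79_h3_transcendental (h3M : 3 ∣ M) : Transcendental K0 (sm79_h3 K0 M h3M) :=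
  sm79_transcendental_of_coe K0 M _ (h34_h3R_transcendental K0)

omit [Algebra K0 Kbar] [Algebra.IsAlgebraic K0 Kbar] in
theorem sm79_h2_rel (h2M : 2 ∣ M) :
    rm90_j K0 M * sm79_h2 K0 M h2M ^ 2 = (sm79_h2 K0 M h2M + 256) ^ 3 := by
  apply Subtype.ext
  push_cast
  exact h70_j_mul_h2_sq K0

omit [Algebra K0 Kbar] [Algebra.IsAlgebraic K0 Kbar] in
theorem sm79_h3_rel (h3M : 3 ∣ M) :
    rm90_j K0 M * sm79_h3 K0 M h3M ^ 3 =
      (sm79_h3 K0 M h3M + 27) * (sm79_h3 K0 M h3M + 243) ^ 3 := by
  apply Subtype.ext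
  push_cast
  exact h34_h3R_j K0

/-- **B5, level 2, both charts of the Hauptmodul `h = Δ(q)/Δ(q²)`** (residue characteristic
prime to `M`, `2 ∣ M`). -/
theorem sm79_level2 {π : R} (hπ : Irreducible π) (hM : IsUnit (M : R)) (h2M : 2 ∣ M) :
    sm79_ChartOut R π (sm79_h2 K0 M h2M) ∧ sm79_ChartOut R π (sm79_h2 K0 M h2M)⁻¹ := by
  have h2 : IsUnit (2 : R) := by
    obtain ⟨k, hk⟩ := h2M
    have hM' : IsUnit ((2 : R) * (k : R)) := by
      have : ((M : ℕ) : R) = 2 * (k : R) := by rw [hk]; push_cast; ring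
      rw [← this]
      exact hM
    exact isUnit_of_mul_isUnit_left hM'
  exact ⟨sm79_level2_chart K0 M hπ hM h2 _ (sm79_h2_transcendental K0 M h2M)
      (sm79_h2_rel K0 M h2M),
    sm79_level2_chart_inv K0 M hπ hM h2 _ (sm79_h2_transcendental K0 M h2M)
      (sm79_h2_rel K0 M h2M)⟩

/-- **B5, level 3, both charts of the level-3 Hauptmodul** (residue characteristic prime to
`M`, `3 ∣ M`). -/
theorem sm79_level3 {π : R} (hπ : Irreducible π) (hM : IsUnit (M : R)) (h3M : 3 ∣ M) :
    sm79_ChartOut R π (sm79_h3 K0 M h3M) ∧ sm79_ChartOut R π (sm79_h3 K0 M h3M)⁻¹ := by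
  have h3 : IsUnit (3 : R) := by
    obtain ⟨k, hk⟩ := h3M
    have hM' : IsUnit ((3 : R) * (k : R)) := by
      have : ((M : ℕ) : R) = 3 * (k : R) := by rw [hk]; push_cast; ring
      rw [← this]
      exact hM
    exact isUnit_of_mul_isUnit_left hM'
  exact ⟨sm79_level3_chart K0 M hπ hM h3 _ (sm79_h3_transcendental K0 M h3M)
      (sm79_h3_rel K0 M h3M),
    sm79_level3_chart_inv K0 M hπ hM h3 _ (sm79_h3_transcendental K0 M h3M)
      (sm79_h3_rel K0 M h3M)⟩

end Concrete

end Fermat.Agent.S18
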