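import Mathlib
import Fermat.Agent.S18.StarTwin55

/-!
# S18, row C1 (backup twin, helper55): number-field form of the chart-package hypothesis

Same statements as `c1t55_star_aux`, `c1t55_star`, `c1t55_relim_star`, `c1t55_main`
(StarTwin55.lean), but the chart package `c1t55_ChartData R K M π` is only required for
**number fields `K` with a fixed embedding into `ℚ̄`** (`[NumberField K] [Algebra K ℚ̄]`), which is
what the horizontal (ramification over `ℚ̄`) inputs of the package need.  These are the versions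
to use; the proofs are identical.
-/

set_option autoImplicit false
set_option linter.style.haveILetI false

open ModularCurve AlgebraicCurve IntermediateField

namespace Fermat.Agent.S18

section Concrete

local notation "Q̄" => AlgebraicClosure ℚ

/-- Core of `c1t55b_star` over an abstract number field `K` mapping to `ℚ̄`, `R = A ∩ K`. -/
theorem c1t55b_star_aux {K : Type} [Field K] [NumberField K] [Algebra K Q̄]
    (A : ValuationSubring Q̄) {ℓ : ℕ} (hℓ0 : ℓ ≠ 0) (hA : A.LiesOverPrime ℓ)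
    (M : ℕ) [NeZero M] (m : ℕ) (hm0 : 0 < m) (hmℓ : Nat.Coprime m ℓ)
    (hpack : ∀ (R K : Type) [CommRing R] [IsDomain R] [IsDiscreteValuationRing R] [Field K]
      [NumberField K] [Algebra K Q̄] [Algebra R K] [IsFractionRing R K]
      [Algebra R ↥(modularFunctionFieldFullC K M)]
      [IsScalarTower R K ↥(modularFunctionFieldFullC K M)] (π : R), Irreducible π →
      (∀ n : ℕ, Nat.Coprime n ℓ → IsUnit (n : R)) → ¬ IsUnit (ℓ : R) →
      c1t55_ChartData R K M π)
    (a1 b1 : LaurentSeries ↥(A.comap (algebraMap K Q̄)))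
    (ha1 : coeffMap (A.comap (algebraMap K Q̄)).subtype a1 ∈ modularFunctionFieldFullC K M)
    (hb1 : coeffMap (A.comap (algebraMap K Q̄)).subtype b1 ∈ modularFunctionFieldFullC K M)
    (hab1 : coeffMap (IsLocalRing.residue ↥(A.comap (algebraMap K Q̄))) a1 =
      coeffMap (IsLocalRing.residue ↥(A.comap (algebraMap K Q̄))) b1)
    (ha10 : coeffMap (IsLocalRing.residue ↥(A.comap (algebraMap K Q̄))) a1 ≠ 0)
    (hP : ∀ P' : Place Q̄ ↥(modularFunctionFieldBar M),
      (m : ℤ) ∣ P'.ord (fd27_iota (algebraMap K Q̄) M ⟨_, ha1⟩ /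
        fd27_iota (algebraMap K Q̄) M ⟨_, hb1⟩)) :
    ∃ v : ↥(modularFunctionFieldBar M),
      v ^ m = fd27_iota (algebraMap K Q̄) M ⟨_, ha1⟩ / fd27_iota (algebraMap K Q̄) M ⟨_, hb1⟩ := by
  have hdvr : IsDiscreteValuationRing (A.comap (algebraMap K Q̄)) :=
    nf23_comap_isDVR_of_liesOverPrime (algebraMap K Q̄) A hℓ0 hA
  obtain ⟨π, hπ⟩ := IsDiscreteValuationRing.exists_irreducible (A.comap (algebraMap K Q̄))
  letI alg : Algebra (A.comap (algebraMap K Q̄)) ↥(modularFunctionFieldFullC K M) :=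
    ((algebraMap K ↥(modularFunctionFieldFullC K M)).comp
      (algebraMap (A.comap (algebraMap K Q̄)) K)).toAlgebra
  have htower : IsScalarTower (A.comap (algebraMap K Q̄)) K ↥(modularFunctionFieldFullC K M) :=
    IsScalarTower.of_algebraMap_eq (fun _ => rfl)
  have hunit : ∀ n : ℕ, Nat.Coprime n ℓ → IsUnit ((n : ℕ) : A.comap (algebraMap K Q̄)) := by
    intro n hn
    obtain ⟨μ, hμ⟩ := nf23_exists_natCast_mul_eq_one (algebraMap K Q̄) A hA hn
    exact IsUnit.of_mul_eq_one _ hμ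
  have hℓnu : ¬ IsUnit ((ℓ : ℕ) : A.comap (algebraMap K Q̄)) := by
    intro hu
    have h1 : ((ℓ : K)) ∈ (A.comap (algebraMap K Q̄)).nonunits := by
      rw [nf23_mem_nonunits_comap, map_natCast]
      exact hA
    have h2 : ((ℓ : ℕ) : A.comap (algebraMap K Q̄)) ∈
        IsLocalRing.maximalIdeal (A.comap (algebraMap K Q̄)) := by
      rw [← ValuationSubring.coe_mem_nonunits_iff]
      exact h1
    exact h2 hu
  have hpk := hpack (A.comap (algebraMap K Q̄)) K π hπ hunit hℓnu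
  have hP1 : ∀ P : Place K ↥(modularFunctionFieldFullC K M),
      (m : ℤ) ∣ P.ord ((⟨_, ha1⟩ : ↥(modularFunctionFieldFullC K M)) / ⟨_, hb1⟩) := by
    intro P
    refine cx_modular_place_dvd (K0 := K) (fd27_iota (algebraMap K Q̄) M)
      (fun f => fd27_iota_coe _ _ f) (m : ℤ) _ ?_ P
    intro P'
    rw [map_div₀]
    exact hP P'
  obtain ⟨f₀, c, hf0, hfc⟩ := c1t55_abs hπ hpk m hm0 (hunit m hmℓ) a1 b1 ha1 hb1 hab1 ha10 hP1
  have hι := congrArg (fd27_iota (algebraMap K Q̄) M) hfc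
  rw [map_mul, map_pow, map_div₀] at hι
  have hc : fd27_iota (algebraMap K Q̄) M
      (algebraMap (A.comap (algebraMap K Q̄)) ↥(modularFunctionFieldFullC K M) c) =
      algebraMap Q̄ ↥(modularFunctionFieldBar M) (algebraMap K Q̄ (c : K)) :=
    fd27_iota_algebraMap (algebraMap K Q̄) M (c : K)
  rw [hc] at hι
  obtain ⟨γ, hγ⟩ := IsAlgClosed.exists_pow_nat_eq (algebraMap K Q̄ (c : K)) hm0
  have hf0' : fd27_iota (algebraMap K Q̄) M f₀ ≠ 0 :=
    (map_ne_zero_iff _ (fd27_iota_injective (algebraMap K Q̄) M)).mpr hf0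
  refine ⟨algebraMap Q̄ ↥(modularFunctionFieldBar M) γ * (fd27_iota (algebraMap K Q̄) M f₀)⁻¹, ?_⟩
  rw [mul_pow, ← map_pow, hγ, ← hι, inv_pow, mul_comm, ← mul_assoc,
    inv_mul_cancel₀ (pow_ne_zero m hf0'), one_mul]
  rfl

/-- **C1 (twin).** Statement `(**)` over `(ℚ̄, A)` at level `M` for the exponent `m` prime to
the residue characteristic `ℓ`, from the concrete chart packages over the discrete valuation
rings of residue characteristic `ℓ`. -/
theorem c1t55b_star (A : ValuationSubring Q̄) {ℓ : ℕ} (hℓ0 : ℓ ≠ 0) (hA : A.LiesOverPrime ℓ)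
    (M : ℕ) [NeZero M] (m : ℕ) (hm0 : 0 < m) (hmℓ : Nat.Coprime m ℓ)
    (hpack : ∀ (R K : Type) [CommRing R] [IsDomain R] [IsDiscreteValuationRing R] [Field K]
      [NumberField K] [Algebra K Q̄] [Algebra R K] [IsFractionRing R K]
      [Algebra R ↥(modularFunctionFieldFullC K M)]
      [IsScalarTower R K ↥(modularFunctionFieldFullC K M)] (π : R), Irreducible π →
      (∀ n : ℕ, Nat.Coprime n ℓ → IsUnit (n : R)) → ¬ IsUnit (ℓ : R) →
      c1t55_ChartData R K M π) :
    nd38_Star A M m := by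
  intro a b ha hb hab ha0 hP
  obtain ⟨K0, hK0, -, -, a1, b1, ha1, hb1, haa, hbb, hιa, hιb, hra, hrb⟩ :=
    fd27_S0 A M a b ha hb ∅ ∅
  have hab1 : coeffMap (IsLocalRing.residue (A.comap (algebraMap K0 Q̄))) a1 =
      coeffMap (IsLocalRing.residue (A.comap (algebraMap K0 Q̄))) b1 :=
    fd27_residue_eq (algebraMap K0 Q̄) A a1 b1 (by rw [haa, hbb]; exact hab)
  have ha10 : coeffMap (IsLocalRing.residue (A.comap (algebraMap K0 Q̄))) a1 ≠ 0 :=
    fd27_residue_ne_zero (algebraMap K0 Q̄) A a1 (by rw [haa]; exact ha0)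
  obtain ⟨v, hv⟩ := c1t55b_star_aux (K := K0) A hℓ0 hA M m hm0 hmℓ hpack a1 b1 ha1 hb1 hab1 ha10
    (by rw [hιa, hιb]; exact hP)
  exact ⟨v, by rw [hv, hιa, hιb]⟩

/-- The same in the shape `relim_Star` consumed by `relim_main_prime_of`. -/
theorem c1t55b_relim_star (A : ValuationSubring Q̄) {ℓ : ℕ} (hℓ0 : ℓ ≠ 0) (hA : A.LiesOverPrime ℓ)
    (M : ℕ) [NeZero M] (m : ℕ) (hm0 : 0 < m) (hmℓ : Nat.Coprime m ℓ)
    (hpack : ∀ (R K : Type) [CommRing R] [IsDomain R] [IsDiscreteValuationRing R] [Field K]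
      [NumberField K] [Algebra K Q̄] [Algebra R K] [IsFractionRing R K]
      [Algebra R ↥(modularFunctionFieldFullC K M)]
      [IsScalarTower R K ↥(modularFunctionFieldFullC K M)] (π : R), Irreducible π →
      (∀ n : ℕ, Nat.Coprime n ℓ → IsUnit (n : R)) → ¬ IsUnit (ℓ : R) →
      c1t55_ChartData R K M π) :
    relim_Star A M m :=
  nd38_relim_of_star (c1t55b_star A hℓ0 hA M m hm0 hmℓ hpack)

/-- **S18 from the concrete chart packages** at the auxiliary levels `lcm N p₀`, `p₀ ∈ {2, 3}`,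
`p₀ ≠ ℓ`, over the discrete valuation rings of residue characteristic `ℓ`: the exact conclusion
of the frozen statement S18. -/
theorem c1t55b_main (N : ℕ) [NeZero N] {ℓ : ℕ} [Fact ℓ.Prime] (A : ValuationSubring Q̄)
    (hA : A.LiesOverPrime ℓ) (h : ModularCurve.ReductionInputsModL A N)
    (hpack : ∀ p₀ : ℕ, (p₀ = 2 ∨ p₀ = 3) → p₀ ≠ ℓ →
      ∀ (R K : Type) [CommRing R] [IsDomain R] [IsDiscreteValuationRing R] [Field K]
      [NumberField K] [Algebra K Q̄] [Algebra R K] [IsFractionRing R K]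
      [Algebra R ↥(modularFunctionFieldFullC K (Nat.lcm N p₀))]
      [IsScalarTower R K ↥(modularFunctionFieldFullC K (Nat.lcm N p₀))] (π : R), Irreducible π →
      (∀ n : ℕ, Nat.Coprime n ℓ → IsUnit (n : R)) → ¬ IsUnit (ℓ : R) →
      c1t55_ChartData R K (Nat.lcm N p₀) π)
    (m : ℕ) (hm : ¬ ℓ ∣ m) (z : ModularCurve.JZero N) (hmz : m • z = 0)
    (hz : ModularCurve.reductionModL A N z = 0) : z = 0 := by
  have hℓ : ℓ.Prime := Fact.out
  refine nd38_main_of_aux N A h (relim_const A N) (fun p hp hpℓ p₀ hp₀ hp₀ℓ => ?_) m hm z hmz hz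
  have hp₀0 : p₀ ≠ 0 := by rcases hp₀ with rfl | rfl <;> norm_num
  haveI : NeZero (Nat.lcm N p₀) := ⟨Nat.lcm_ne_zero (NeZero.ne N) hp₀0⟩
  exact c1t55b_relim_star A hℓ.ne_zero hA (Nat.lcm N p₀) p hp.pos
    ((Nat.coprime_primes hp hℓ).mpr hpℓ) (hpack p₀ hp₀ hp₀ℓ)

end Concrete

end Fermat.Agent.S18
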