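import Mathlib
import Fermat.Agent.S18.StarTwin55b
import Fermat.Agent.S18.Pack85
import Fermat.Agent.S18.SmoothAsm79

/-!
# S18 (helper55): final assembly

* `c1f55_pack`: the chart package `c1t55_ChartData R K M π` for a number field `K ⊆ ℚ̄`,
  `R` a discrete valuation ring with fraction field `K` in which `M` is a unit, `p₀ ∣ M`,
  `p₀ ∈ {2, 3}`: the Dedekind fibres of the two Hauptmodul charts are `sm79_level2/3`
  (helper79), everything else is `pk85_chartData_level2_of/3_of` (helper85).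
* `c1f55_result`: the statement of S18, from `c1t55b_main`.
-/

set_option autoImplicit false
set_option linter.style.haveILetI false

open ModularCurve

namespace Fermat.Agent.S18

section Final

local notation "Q̄" => AlgebraicClosure ℚ

/-- The chart package over a number field inside `ℚ̄`, at a level `M` divisible by `p₀ ∈ {2,3}`
and invertible in the discrete valuation ring `R`. -/
theorem c1f55_pack (R K : Type) [CommRing R] [IsDomain R] [IsDiscreteValuationRing R] [Field K]
    [NumberField K] [Algebra K Q̄] [Algebra R K] [IsFractionRing R K] (M : ℕ) [NeZero M]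
    [Algebra R ↥(modularFunctionFieldFullC K M)]
    [IsScalarTower R K ↥(modularFunctionFieldFullC K M)] (π : R) (hπ : Irreducible π)
    (p₀ : ℕ) (hp₀ : p₀ = 2 ∨ p₀ = 3) (hp₀M : p₀ ∣ M) (hMu : IsUnit (M : R)) :
    c1t55_ChartData R K M π := by
  haveI : Algebra.IsAlgebraic K Q̄ := cx_isAlgebraic_closure K
  rcases hp₀ with rfl | rfl
  · obtain ⟨h1, h2⟩ := sm79_level2 K M hπ hMu hp₀M
    exact pk85_chartData_level2_of M hπ hp₀M hMu h1.1 h2.1
  · obtain ⟨h1, h2⟩ := sm79_level3 K M hπ hMu hp₀M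
    exact pk85_chartData_level3_of M hπ hp₀M hMu h1.1 h2.1

/-- **S18**: prime-to-`ℓ` torsion of `J₀(N)` injects into the reduction mod `ℓ`. -/
theorem c1f55_result (N : ℕ) [NeZero N] {ℓ : ℕ}
    [Fact ℓ.Prime] (hℓN : ¬ ℓ ∣ N) (A : ValuationSubring (AlgebraicClosure ℚ))
    (hA : A.LiesOverPrime ℓ)
    (h : ModularCurve.ReductionInputsModL A N) (m : ℕ) (hm : ¬ ℓ ∣ m) (z : ModularCurve.JZero N)
    (hmz : m • z = 0) (hz : ModularCurve.reductionModL A N z = 0) :
    z = 0 := by
  have hℓ : ℓ.Prime := Fact.out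
  refine c1t55b_main N A hA h ?_ m hm z hmz hz
  intro p₀ hp₀ hne R K _ _ _ _ _ _ _ _ _ _ π hπ hunit _
  have hp₀prime : p₀.Prime := by
    rcases hp₀ with rfl | rfl
    · exact Nat.prime_two
    · exact Nat.prime_three
  haveI : NeZero (N.lcm p₀) := ⟨Nat.lcm_ne_zero (NeZero.ne N) hp₀prime.ne_zero⟩
  refine c1f55_pack R K (N.lcm p₀) π hπ p₀ hp₀ (Nat.dvd_lcm_right N p₀) (hunit _ ?_)
  refine Nat.Coprime.symm ((Nat.Prime.coprime_iff_not_dvd hℓ).mpr ?_)
  intro hd
  rcases (Nat.Prime.dvd_mul hℓ).mp (hd.trans (Nat.lcm_dvd_mul N p₀)) with h1 | h1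
  · exact hℓN h1
  · exact hne ((Nat.prime_dvd_prime_iff_eq hℓ hp₀prime).mp h1).symm

end Final

end Fermat.Agent.S18
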