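import Fermat.Agent.S24.Counting
import Fermat.Agent.S24.PlacesBasicCore
import Fermat.Prelude.Def_AlgebraicCurve_DivisorPushPull

/-!
S18 (long shot), row A3 (helper59): ramification in Kummer extensions of function fields
(Abhyankar's lemma at the level of places), in the `Place` / `OrdFn` language of S24.

Setting: `K` algebraically closed, `F` a field over `K` all of whose places have residue field `K`
(e.g. a function field in one variable, `wp1_exists_const`), `L = F(s)` with `s ^ e = z ∈ F`,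
`e` invertible in `K`.  Then for every place `Q` of `L`, with `P` its restriction to `F`,

  `e(Q / P) = e / gcd (e, ord_P z)`                                (`abh_ramificationIndex`).

Consequences: if `ord_P z ∣ e` at every zero `P` of `z`, then `s` is a uniformiser at every zero
of `s` (`abh_ord_root_eq_one`); if `ord_P z = 0` then `Q / P` is unramified (`abh_unramified`),
and `ord_Q (s - a) = ord_P (z - a ^ e)` for a constant `a ≠ 0` (`abh_ord_sub_const`).

The proof is completion-free: a Newton iteration inside the valuation ring of `P` shows that the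
unit `w = s ^ e' / t ^ a'` (`w ^ g = z / t ^ (ord_P z)`, `g = gcd`) is a limit of elements of `F`,
and then the `e'` summands `s ^ r * b_r` (`b_r` approximable from `F`) have orders in pairwise
distinct classes.

All names are prefixed `abh_`.
-/

set_option autoImplicit false

open AlgebraicCurve

namespace Fermat.Agent.S18

open Fermat.Agent.S24

section OrdFnBasics

variable {K L : Type*} [Field K] [Field L] [Algebra K L]

/-- The order function of a place. -/
noncomputable def abh_ofPlace (Q : Place K L) : OrdFn K L where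
  ord := Q.ord
  ord_mul _ _ hf hg := Q.ord_mul hf hg
  ord_add f g hf hg hfg := wp1_ord_add Q f g hfg hf hg
  ord_const c _ := wp1_ord_algebraMap Q c

@[simp] theorem abh_ofPlace_ord (Q : Place K L) (f : L) : (abh_ofPlace Q).ord f = Q.ord f := rfl

/-- `x` vanishes to order at least `n` (with `0` vanishing to every order). -/
def abh_Ge (u : OrdFn K L) (n : ℤ) (x : L) : Prop := x = 0 ∨ n ≤ u.ord x

theorem abh_Ge_zero (u : OrdFn K L) (n : ℤ) : abh_Ge u n 0 := Or.inl rfl

theorem abh_Ge_mono (u : OrdFn K L) {m n : ℤ} (h : m ≤ n) {x : L} (hx : abh_Ge u n x) :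
    abh_Ge u m x := hx.imp id fun h' => h.trans h'

theorem abh_Ge_add (u : OrdFn K L) {n : ℤ} {x y : L} (hx : abh_Ge u n x) (hy : abh_Ge u n y) :
    abh_Ge u n (x + y) := by
  rcases eq_or_ne x 0 with rfl | hx0
  · simpa using hy
  rcases eq_or_ne y 0 with rfl | hy0
  · simpa using hx
  rcases eq_or_ne (x + y) 0 with h0 | h0
  · exact Or.inl h0
  · exact Or.inr ((le_min (hx.resolve_left hx0) (hy.resolve_left hy0)).trans
      (u.ord_add x y hx0 hy0 h0))

theorem abh_Ge_neg (u : OrdFn K L) {n : ℤ} {x : L} (hx : abh_Ge u n x) : abh_Ge u n (-x) := by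
  rcases hx with rfl | hx
  · exact Or.inl neg_zero
  · exact Or.inr (by rw [wp3_ord_neg]; exact hx)

theorem abh_Ge_sub (u : OrdFn K L) {n : ℤ} {x y : L} (hx : abh_Ge u n x) (hy : abh_Ge u n y) :
    abh_Ge u n (x - y) := by
  rw [sub_eq_add_neg]
  exact abh_Ge_add u hx (abh_Ge_neg u hy)

theorem abh_Ge_mul (u : OrdFn K L) {m n : ℤ} {x y : L} (hx : abh_Ge u m x) (hy : abh_Ge u n y) :
    abh_Ge u (m + n) (x * y) := by
  rcases eq_or_ne x 0 with rfl | hx0
  · exact Or.inl (zero_mul _)
  rcases eq_or_ne y 0 with rfl | hy0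
  · exact Or.inl (mul_zero _)
  refine Or.inr ?_
  rw [u.ord_mul x y hx0 hy0]
  exact add_le_add (hx.resolve_left hx0) (hy.resolve_left hy0)

theorem abh_Ge_sum (u : OrdFn K L) {n : ℤ} {ι : Type*} (T : Finset ι) (y : ι → L)
    (h : ∀ i ∈ T, abh_Ge u n (y i)) : abh_Ge u n (∑ i ∈ T, y i) := by
  classical
  induction T using Finset.induction_on with
  | empty => simpa using abh_Ge_zero u n
  | insert a T ha ih =>
    rw [Finset.sum_insert ha]
    exact abh_Ge_add u (h a (Finset.mem_insert_self a T))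
      (ih fun i hi => h i (Finset.mem_insert_of_mem hi))

/-- Ultrametric equality: a sum of two nonzero elements of different orders. -/
theorem abh_ord_add_of_lt (u : OrdFn K L) {x y : L} (hx : x ≠ 0) (hy : abh_Ge u (u.ord x + 1) y) :
    x + y ≠ 0 ∧ u.ord (x + y) = u.ord x := by
  rcases eq_or_ne y 0 with rfl | hy0
  · simpa using hx
  have hy' : u.ord x + 1 ≤ u.ord y := hy.resolve_left hy0
  have hne : x + y ≠ 0 := by
    intro h0
    have hxy : x = -y := eq_neg_of_add_eq_zero_left h0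
    rw [hxy, wp3_ord_neg] at hy'
    omega
  refine ⟨hne, le_antisymm ?_ ?_⟩
  · -- `x = (x + y) + (-y)`
    have hny : -y ≠ 0 := neg_ne_zero.mpr hy0
    have h := u.ord_add (x + y) (-y) hne hny (by simpa using hx)
    rw [add_neg_cancel_right, wp3_ord_neg] at h
    rcases min_le_iff.mp h with h1 | h1
    · exact h1
    · omega
  · have h := u.ord_add x y hx hy0 hne
    rcases le_min_iff.mp (le_refl (min (u.ord x) (u.ord y))) with ⟨-, -⟩
    have : min (u.ord x) (u.ord y) = u.ord x := min_eq_left (by omega)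
    rw [this] at h
    exact h

/-- A finite sum of elements whose nonzero terms have pairwise distinct orders: either all terms
vanish or the sum is nonzero and its order is the order of one of the nonzero terms. -/
theorem abh_ord_sum (u : OrdFn K L) {ι : Type*} (T : Finset ι) (y : ι → L)
    (hdist : ∀ i ∈ T, ∀ j ∈ T, y i ≠ 0 → y j ≠ 0 → u.ord (y i) = u.ord (y j) → i = j) :
    (∀ i ∈ T, y i = 0) ∨
      (∑ i ∈ T, y i ≠ 0 ∧ ∃ i ∈ T, y i ≠ 0 ∧ u.ord (∑ i ∈ T, y i) = u.ord (y i)) := by
  classical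
  induction T using Finset.induction_on with
  | empty => left; simp
  | insert a T ha ih =>
    have hdist' : ∀ i ∈ T, ∀ j ∈ T, y i ≠ 0 → y j ≠ 0 → u.ord (y i) = u.ord (y j) → i = j :=
      fun i hi j hj => hdist i (Finset.mem_insert_of_mem hi) j (Finset.mem_insert_of_mem hj)
    rw [Finset.sum_insert ha]
    rcases eq_or_ne (y a) 0 with h0 | h0
    · rcases ih hdist' with h | ⟨h1, i, hi, hi0, hi1⟩
      · left
        intro i hi
        rcases Finset.mem_insert.mp hi with rfl | hi
        · exact h0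
        · exact h i hi
      · right
        rw [h0, zero_add]
        exact ⟨h1, i, Finset.mem_insert_of_mem hi, hi0, hi1⟩
    · right
      rcases ih hdist' with h | ⟨h1, i, hi, hi0, hi1⟩
      · rw [Finset.sum_eq_zero h, add_zero]
        exact ⟨h0, a, Finset.mem_insert_self a T, h0, rfl⟩
      · have hne : u.ord (y a) ≠ u.ord (y i) := by
          intro heq
          have := hdist a (Finset.mem_insert_self a T) i (Finset.mem_insert_of_mem hi) h0 hi0 heq
          exact ha (this ▸ hi)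
        rcases lt_or_gt_of_ne hne with hlt | hgt
        · have := abh_ord_add_of_lt u h0 (y := ∑ i ∈ T, y i) (Or.inr (by rw [hi1]; omega))
          exact ⟨this.1, a, Finset.mem_insert_self a T, h0, this.2⟩
        · have := abh_ord_add_of_lt u h1 (y := y a) (Or.inr (by rw [hi1]; omega))
          rw [add_comm] at this
          exact ⟨this.1, i, Finset.mem_insert_of_mem hi, hi0, this.2.trans hi1⟩

end OrdFnBasics

section LocalRing

variable {K L : Type*} [Field K] [Field L] [Algebra K L]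

/-- The constants, as a ring homomorphism into the valuation ring of an order function. -/
noncomputable def abh_const (u : OrdFn K L) : K →+* wp3_vs u :=
  (algebraMap K L).codRestrict (wp3_vs u).toSubring (wp3_algebraMap_mem_vs u)

theorem abh_const_coe (u : OrdFn K L) (c : K) : ((abh_const u c : wp3_vs u) : L) = algebraMap K L c :=
  rfl

theorem abh_mem_vs_of_Ge (u : OrdFn K L) {x : L} (hx : abh_Ge u 0 x) : x ∈ wp3_vs u := hx

theorem abh_Ge_coe (u : OrdFn K L) (x : wp3_vs u) : abh_Ge u 0 (x : L) := x.2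

theorem abh_isUnit_iff (u : OrdFn K L) (x : wp3_vs u) :
    IsUnit x ↔ (x : L) ≠ 0 ∧ u.ord (x : L) = 0 := by
  constructor
  · intro h
    obtain ⟨y, hy⟩ := isUnit_iff_exists_inv.mp h
    have hxy : (x : L) * (y : L) = 1 := by
      have := congrArg Subtype.val hy
      simpa using this
    have hx0 : (x : L) ≠ 0 := left_ne_zero_of_mul_eq_one hxy
    have hy0 : (y : L) ≠ 0 := right_ne_zero_of_mul_eq_one hxy
    have h1 := u.ord_mul _ _ hx0 hy0
    rw [hxy, wp3_ord_one] at h1
    have h2 : 0 ≤ u.ord (x : L) := x.2.resolve_left hx0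
    have h3 : 0 ≤ u.ord (y : L) := y.2.resolve_left hy0
    exact ⟨hx0, by omega⟩
  · rintro ⟨hx0, hx1⟩
    have hinv : (x : L)⁻¹ ∈ wp3_vs u := Or.inr (by rw [wp3_ord_inv u hx0, hx1]; simp)
    exact isUnit_iff_exists_inv.mpr ⟨⟨_, hinv⟩, Subtype.ext (mul_inv_cancel₀ hx0)⟩

theorem abh_mem_max_iff (u : OrdFn K L) (x : wp3_vs u) :
    x ∈ IsLocalRing.maximalIdeal (wp3_vs u) ↔ abh_Ge u 1 (x : L) := by
  rw [IsLocalRing.mem_maximalIdeal, mem_nonunits_iff, abh_isUnit_iff]
  constructor
  · intro h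
    by_cases hx0 : (x : L) = 0
    · exact Or.inl hx0
    · have h2 : 0 ≤ u.ord (x : L) := x.2.resolve_left hx0
      have h3 : u.ord (x : L) ≠ 0 := fun h0 => h ⟨hx0, h0⟩
      exact Or.inr (by omega)
  · rintro (h | h) ⟨h0, h1⟩
    · exact h0 h
    · omega

theorem abh_mem_max_pow (u : OrdFn K L) (k : ℕ) (x : wp3_vs u)
    (hx : x ∈ IsLocalRing.maximalIdeal (wp3_vs u) ^ k) : abh_Ge u k (x : L) := by
  induction k generalizing x with
  | zero => simpa using abh_Ge_coe u x
  | succ k ih =>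
    rw [pow_succ] at hx
    refine Submodule.mul_induction_on hx ?_ ?_
    · intro a ha b hb
      have h1 := ih a ha
      have h2 := (abh_mem_max_iff u b).mp hb
      have := abh_Ge_mul u h1 h2
      simpa using this
    · intro a b ha hb
      have := abh_Ge_add u ha hb
      simpa using this

/-- Newton iteration in a local ring: an approximate `g`-th root of `u0` modulo the maximal
ideal (with `g` and the root units) can be refined to any order. -/
theorem abh_newton {O : Type*} [CommRing O] [IsLocalRing O] (g : ℕ) (hg : IsUnit (g : O))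
    (u0 x : O) (hx : IsUnit x) (h1 : x ^ g - u0 ∈ IsLocalRing.maximalIdeal O) (k : ℕ) :
    ∃ y : O, y - x ∈ IsLocalRing.maximalIdeal O ∧
      y ^ g - u0 ∈ IsLocalRing.maximalIdeal O ^ (k + 1) := by
  induction k with
  | zero => exact ⟨x, by simp, by simpa using h1⟩
  | succ k ih =>
    obtain ⟨y, hy1, hy2⟩ := ih
    have hyu : IsUnit y := by
      by_contra hnu
      have hym : y ∈ IsLocalRing.maximalIdeal O := (IsLocalRing.mem_maximalIdeal y).mpr hnu
      have hxm : x ∈ IsLocalRing.maximalIdeal O := by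
        have := Ideal.sub_mem _ hym hy1
        simpa using this
      exact (IsLocalRing.mem_maximalIdeal x).mp hxm hx
    obtain ⟨d, hd⟩ := hg.mul (hyu.pow (g - 1))
    set η : O := -(y ^ g - u0) * ((d⁻¹ : Oˣ) : O) with hη
    have hηmem : η ∈ IsLocalRing.maximalIdeal O ^ (k + 1) :=
      Ideal.mul_mem_right _ _ (neg_mem hy2)
    obtain ⟨kk, hkk⟩ := Polynomial.powAddExpansion y η g
    refine ⟨y + η, ?_, ?_⟩
    · have h3 : y + η - x = (y - x) + η := by ring
      rw [h3]
      exact Ideal.add_mem _ hy1 (Ideal.pow_le_self (by omega) hηmem)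
    · have h4 : (g : O) * y ^ (g - 1) * η = -(y ^ g - u0) := by
        rw [hη, ← hd]
        have : (d : O) * (-(y ^ g - u0) * ((d⁻¹ : Oˣ) : O))
            = -(y ^ g - u0) * ((d : O) * ((d⁻¹ : Oˣ) : O)) := by ring
        rw [this, Units.mul_inv, mul_one]
      have h2 : (y + η) ^ g - u0 = kk * η ^ 2 := by
        rw [hkk, h4]
        ring
      rw [h2]
      have h5 : η ^ 2 ∈ IsLocalRing.maximalIdeal O ^ (k + 1 + 1) := by
        have := Ideal.pow_mem_pow hηmem 2
        rw [← pow_mul] at this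
        exact Ideal.pow_le_pow_right (by omega) this
      exact Ideal.mul_mem_left _ _ h5

/-- Over an algebraically closed constant field, an integral element which is a root of a
nonzero polynomial modulo the maximal ideal is congruent to a constant. -/
theorem abh_exists_const [IsAlgClosed K] (u : OrdFn K L) (w : L) (hw : abh_Ge u 0 w)
    (p : Polynomial K) (hp : p ≠ 0) (hpw : abh_Ge u 1 (Polynomial.aeval w p)) :
    ∃ r : K, abh_Ge u 1 (w - algebraMap K L r) := by
  by_contra hcon
  push Not at hcon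
  have h0 : ∀ r : K, w - algebraMap K L r ≠ 0 ∧ u.ord (w - algebraMap K L r) = 0 := by
    intro r
    have h1 := hcon r
    have h2 : abh_Ge u 0 (w - algebraMap K L r) :=
      abh_Ge_sub u hw (wp3_algebraMap_mem_vs u r)
    have hne : w - algebraMap K L r ≠ 0 := fun h => h1 (Or.inl h)
    have h3 : ¬ (1 : ℤ) ≤ u.ord (w - algebraMap K L r) := fun h => h1 (Or.inr h)
    have h4 : 0 ≤ u.ord (w - algebraMap K L r) := h2.resolve_left hne
    exact ⟨hne, by omega⟩
  have key : ∀ (n : ℕ) (p : Polynomial K), p.natDegree = n → p ≠ 0 →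
      Polynomial.aeval w p ≠ 0 ∧ u.ord (Polynomial.aeval w p) = 0 := by
    intro n
    induction n with
    | zero =>
      intro p hp hp0
      rw [Polynomial.eq_C_of_natDegree_eq_zero hp] at hp0 ⊢
      have hc : p.coeff 0 ≠ 0 := fun h => hp0 (by rw [h, map_zero])
      simp only [Polynomial.aeval_C]
      exact ⟨(map_ne_zero _).mpr hc, u.ord_const _ hc⟩
    | succ n ih =>
      intro p hp hp0
      have hdeg : p.degree ≠ 0 := by
        intro hd
        have := Polynomial.natDegree_eq_zero_iff_degree_le_zero.mpr hd.le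
        omega
      obtain ⟨c, hc⟩ := IsAlgClosed.exists_root p hdeg
      obtain ⟨q, rfl⟩ := Polynomial.dvd_iff_isRoot.mpr hc
      have hq0 : q ≠ 0 := fun h => hp0 (by rw [h, mul_zero])
      have hqdeg : q.natDegree = n := by
        have := Polynomial.natDegree_mul (Polynomial.X_sub_C_ne_zero c) hq0
        rw [Polynomial.natDegree_X_sub_C] at this
        omega
      have h1 : Polynomial.aeval w (Polynomial.X - Polynomial.C c) = w - algebraMap K L c := by
        simp
      obtain ⟨hq1, hq2⟩ := ih q hqdeg hq0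
      rw [map_mul, h1]
      refine ⟨mul_ne_zero (h0 c).1 hq1, ?_⟩
      rw [u.ord_mul _ _ (h0 c).1 hq1, (h0 c).2, hq2, add_zero]
  obtain ⟨h1, h2⟩ := key p.natDegree p rfl hp
  rcases hpw with h | h
  · exact h1 h
  · omega

/-- Congruence for the geometric sum `∑ W^i Y^(g-1-i)` when `W ≡ Y ≡ C`. -/
theorem abh_geom_congr {O : Type*} [CommRing O] (I : Ideal O) (W Y C : O) (hW : W - C ∈ I)
    (hY : Y - C ∈ I) (g : ℕ) :
    (∑ i ∈ Finset.range g, W ^ i * Y ^ (g - 1 - i)) - (g : O) * C ^ (g - 1) ∈ I := by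
  rw [← Ideal.Quotient.eq_zero_iff_mem]
  have hW' : Ideal.Quotient.mk I W = Ideal.Quotient.mk I C := Ideal.Quotient.eq.mpr hW
  have hY' : Ideal.Quotient.mk I Y = Ideal.Quotient.mk I C := Ideal.Quotient.eq.mpr hY
  rw [map_sub, map_sum, sub_eq_zero]
  simp only [map_mul, map_pow, hW', hY', map_natCast]
  have hterm : ∀ i ∈ Finset.range g,
      (Ideal.Quotient.mk I C) ^ i * (Ideal.Quotient.mk I C) ^ (g - 1 - i)
        = (Ideal.Quotient.mk I C) ^ (g - 1) := by
    intro i hi
    have := Finset.mem_range.mp hi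
    rw [← pow_add]
    congr 1
    omega
  rw [Finset.sum_congr rfl hterm, Finset.sum_const, Finset.card_range, nsmul_eq_mul]

/-- The geometric sum `∑ W^i Y^(g-1-i)` is a unit when `W ≡ Y ≡ c0` for a nonzero constant `c0`
and `g` is invertible in the constant field. -/
theorem abh_geom_isUnit (u : OrdFn K L) (g : ℕ) (hgK : (g : K) ≠ 0) (c0 : K) (hc0 : c0 ≠ 0)
    (W Y : wp3_vs u) (hW : W - abh_const u c0 ∈ IsLocalRing.maximalIdeal (wp3_vs u))
    (hY : Y - abh_const u c0 ∈ IsLocalRing.maximalIdeal (wp3_vs u)) :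
    IsUnit (∑ i ∈ Finset.range g, W ^ i * Y ^ (g - 1 - i)) := by
  have hcong := abh_geom_congr _ W Y _ hW hY g
  have hU : IsUnit (((g : ℕ) : wp3_vs u) * abh_const u c0 ^ (g - 1)) := by
    have : ((g : ℕ) : wp3_vs u) = abh_const u (g : K) := by simp
    rw [this]
    exact ((isUnit_iff_ne_zero.mpr hgK).map _).mul (((isUnit_iff_ne_zero.mpr hc0).map _).pow _)
  by_contra hnu
  have hSm := (IsLocalRing.mem_maximalIdeal _).mpr hnu
  have := Ideal.sub_mem _ hSm hcong
  rw [sub_sub_cancel] at this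
  exact (IsLocalRing.mem_maximalIdeal _).mp this hU

end LocalRing

section Approx

variable {K F L : Type*} [Field K] [Field F] [Field L] [Algebra K F] [Algebra K L]

/-- `x` is a limit of elements of `σ F` for the order function `u`. -/
def abh_Approx (u : OrdFn K L) (σ : F →ₐ[K] L) (x : L) : Prop :=
  ∀ n : ℤ, ∃ f : F, abh_Ge u n (x - σ f)

variable (u : OrdFn K L) (σ : F →ₐ[K] L)

theorem abh_approx_map (f : F) : abh_Approx u σ (σ f) := fun _ => ⟨f, Or.inl (sub_self _)⟩

theorem abh_approx_add {x y : L} (hx : abh_Approx u σ x) (hy : abh_Approx u σ y) :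
    abh_Approx u σ (x + y) := by
  intro n
  obtain ⟨f1, h1⟩ := hx n
  obtain ⟨f2, h2⟩ := hy n
  refine ⟨f1 + f2, ?_⟩
  have : x + y - σ (f1 + f2) = (x - σ f1) + (y - σ f2) := by rw [map_add]; ring
  rw [this]
  exact abh_Ge_add u h1 h2

theorem abh_approx_mul {x y : L} (hx : abh_Approx u σ x) (hy : abh_Approx u σ y) :
    abh_Approx u σ (x * y) := by
  intro n
  rcases eq_or_ne x 0 with rfl | hx0
  · exact ⟨0, Or.inl (by simp)⟩
  obtain ⟨f2, h2⟩ := hy (n - u.ord x)
  obtain ⟨f1, h1⟩ := hx (n - u.ord (σ f2))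
  refine ⟨f1 * f2, ?_⟩
  have : x * y - σ (f1 * f2) = x * (y - σ f2) + σ f2 * (x - σ f1) := by rw [map_mul]; ring
  rw [this]
  apply abh_Ge_add
  · have := abh_Ge_mul u (Or.inr le_rfl : abh_Ge u (u.ord x) x) h2
    simpa using this
  · rcases eq_or_ne (σ f2) 0 with h0 | h0
    · rw [h0, zero_mul]
      exact abh_Ge_zero u n
    · have := abh_Ge_mul u (Or.inr le_rfl : abh_Ge u (u.ord (σ f2)) (σ f2)) h1
      simpa using this

theorem abh_approx_pow {x : L} (hx : abh_Approx u σ x) (k : ℕ) : abh_Approx u σ (x ^ k) := by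
  induction k with
  | zero =>
    rw [pow_zero]
    have := abh_approx_map u σ (1 : F)
    rwa [map_one] at this
  | succ k ih =>
    rw [pow_succ]
    exact abh_approx_mul u σ ih hx

theorem abh_approx_sum {ι : Type*} (T : Finset ι) (y : ι → L)
    (h : ∀ i ∈ T, abh_Approx u σ (y i)) : abh_Approx u σ (∑ i ∈ T, y i) := by
  classical
  induction T using Finset.induction_on with
  | empty =>
    rw [Finset.sum_empty]
    have := abh_approx_map u σ (0 : F)
    rwa [map_zero] at this
  | insert a T ha ih =>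
    rw [Finset.sum_insert ha]
    exact abh_approx_add u σ (h a (Finset.mem_insert_self a T))
      (ih fun i hi => h i (Finset.mem_insert_of_mem hi))

/-- A nonzero limit of elements of `σ F` has the order of an element of `σ F`. -/
theorem abh_approx_ord {x : L} (hx : abh_Approx u σ x) (hx0 : x ≠ 0) :
    ∃ f : F, f ≠ 0 ∧ u.ord x = u.ord (σ f) := by
  obtain ⟨f, hf⟩ := hx (u.ord x + 1)
  have h := abh_ord_add_of_lt u hx0 (y := -(x - σ f)) (abh_Ge_neg u hf)
  have e : x + -(x - σ f) = σ f := by ring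
  rw [e] at h
  exact ⟨f, fun h0 => h.1 (by rw [h0, map_zero]), h.2.symm⟩

variable {u σ}

theorem abh_Ge_map {uF : OrdFn K F} {E : ℤ} (hE : 0 ≤ E)
    (hu : ∀ f : F, f ≠ 0 → u.ord (σ f) = E * uF.ord f) {n : ℤ} {f : F} (hf : abh_Ge uF n f) :
    abh_Ge u (E * n) (σ f) := by
  rcases eq_or_ne f 0 with rfl | hf0
  · exact Or.inl (map_zero σ)
  · right
    rw [hu f hf0]
    exact mul_le_mul_of_nonneg_left (hf.resolve_left hf0) hE

theorem abh_Ge_of_map {uF : OrdFn K F} {E : ℤ} (hE : 0 < E)
    (hu : ∀ f : F, f ≠ 0 → u.ord (σ f) = E * uF.ord f) {f : F} (hf : abh_Ge u 1 (σ f)) :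
    abh_Ge uF 1 f := by
  rcases eq_or_ne f 0 with rfl | hf0
  · exact Or.inl rfl
  · right
    have h1 : 1 ≤ E * uF.ord f := by
      rw [← hu f hf0]
      exact hf.resolve_left ((map_ne_zero σ).mpr hf0)
    by_contra hlt
    push Not at hlt
    have : E * uF.ord f ≤ 0 := mul_nonpos_of_nonneg_of_nonpos hE.le (by omega)
    omega

end Approx

section Core

variable {K F L : Type*} [Field K] [IsAlgClosed K] [Field F] [Field L] [Algebra K F] [Algebra K L]

/-- **Kummer ramification, order-function form.**  `L = F(s)`, `s ^ e = z`, `u` an order function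
on `L` restricting to `E` times a normalised order function `uF` on `F` with residue field `K`.
Then `E = E' * (e / gcd (e, uF.ord z))` and every value of `u` is divisible by `E'`. -/
theorem abh_core (σ : F →ₐ[K] L) (uF : OrdFn K F) (u : OrdFn K L) (E : ℤ) (hE : 0 < E)
    (hu : ∀ f : F, f ≠ 0 → u.ord (σ f) = E * uF.ord f)
    (t : F) (ht : t ≠ 0) (ht1 : uF.ord t = 1)
    (hres : ∀ f : F, f ≠ 0 → uF.ord f = 0 → ∃ c : K, abh_Ge uF 1 (f - algebraMap K F c))
    (s : L) (e : ℕ) (he : (e : K) ≠ 0) (z : F) (hz : z ≠ 0) (hs : s ^ e = σ z)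
    (hgen : ∀ x : L, ∃ a : ℕ → F, x = ∑ i ∈ Finset.range e, σ (a i) * s ^ i) :
    ∃ E' : ℤ, 0 < E' ∧ E = E' * ((e / Nat.gcd e (uF.ord z).natAbs : ℕ) : ℤ) ∧
      ∀ x : L, x ≠ 0 → E' ∣ u.ord x := by
  classical
  have he0 : e ≠ 0 := by
    rintro rfl
    simp at he
  obtain ⟨a, ha⟩ : ∃ a : ℤ, a = uF.ord z := ⟨_, rfl⟩
  rw [← ha]
  obtain ⟨g, hg⟩ : ∃ g : ℕ, g = Nat.gcd e a.natAbs := ⟨_, rfl⟩
  rw [← hg]
  have hgpos : 0 < g := hg ▸ Nat.gcd_pos_of_pos_left _ (Nat.pos_of_ne_zero he0)
  have hgdvd : g ∣ e := hg ▸ Nat.gcd_dvd_left e a.natAbs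
  obtain ⟨e', he'⟩ : ∃ e' : ℕ, e' = e / g := ⟨_, rfl⟩
  rw [← he']
  have hge : g * e' = e := he' ▸ Nat.mul_div_cancel' hgdvd
  have he'pos : 0 < e' := by
    rcases Nat.eq_zero_or_pos e' with h | h
    · rw [h, mul_zero] at hge
      exact absurd hge.symm he0
    · exact h
  have hga : (g : ℤ) ∣ a := Int.natCast_dvd.mpr (hg ▸ Nat.gcd_dvd_right e a.natAbs)
  obtain ⟨a', ha'⟩ := hga
  have hg0 : (g : ℤ) ≠ 0 := by exact_mod_cast hgpos.ne'
  have he'0 : (0 : ℤ) < (e' : ℤ) := by exact_mod_cast he'pos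
  have hcop : IsCoprime (e' : ℤ) a' := by
    rw [Int.isCoprime_iff_gcd_eq_one, Int.gcd_eq_natAbs, Int.natAbs_natCast]
    have h1 : Nat.Coprime (e / Nat.gcd e a.natAbs) (a.natAbs / Nat.gcd e a.natAbs) :=
      Nat.coprime_div_gcd_div_gcd (hg ▸ hgpos)
    rw [← hg, ← he'] at h1
    have h2 : a.natAbs / g = a'.natAbs := by
      rw [ha', Int.natAbs_mul, Int.natAbs_natCast, Nat.mul_div_cancel_left _ hgpos]
    rw [h2] at h1
    exact h1
  have hgK : (g : K) ≠ 0 := by
    intro h0
    apply he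
    rw [← hge]
    push_cast
    rw [h0, zero_mul]
  -- the unit `u0 = z / t ^ a` and `w = s ^ e' / t ^ a'`
  obtain ⟨u0, hu0⟩ : ∃ u0 : F, u0 = z * t ^ (-a) := ⟨_, rfl⟩
  have hu0ne : u0 ≠ 0 := hu0 ▸ mul_ne_zero hz (zpow_ne_zero _ ht)
  have hu0ord : uF.ord u0 = 0 := by
    rw [hu0, uF.ord_mul _ _ hz (zpow_ne_zero _ ht), wp3_ord_zpow uF ht, ht1, ← ha]
    ring
  have hs0 : s ≠ 0 := by
    intro h0
    rw [h0, zero_pow he0] at hs
    exact hz ((map_eq_zero σ).mp hs.symm)
  have hσt : σ t ≠ 0 := (map_ne_zero σ).mpr ht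
  obtain ⟨w, hw⟩ : ∃ w : L, w = s ^ e' * (σ t) ^ (-a') := ⟨_, rfl⟩
  have hw0 : w ≠ 0 := hw ▸ mul_ne_zero (pow_ne_zero _ hs0) (zpow_ne_zero _ hσt)
  have hwg : w ^ g = σ u0 := by
    rw [hw, mul_pow, ← pow_mul, mul_comm e' g, hge, hs, hu0, map_mul, map_zpow₀]
    congr 1
    rw [← zpow_natCast, ← zpow_mul]
    congr 1
    rw [ha']
    ring
  have hords : (e' : ℤ) * u.ord s = E * a' := by
    have h1 : u.ord (s ^ e) = E * a := by rw [hs, hu z hz, ha]
    rw [wp3_ord_pow u hs0, ← hge, ha'] at h1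
    push_cast at h1
    apply mul_left_cancel₀ hg0
    linarith
  obtain ⟨E', hE'⟩ : (e' : ℤ) ∣ E := hcop.dvd_of_dvd_mul_right ⟨u.ord s, hords.symm⟩
  have hE'pos : 0 < E' := by
    by_contra hneg
    push Not at hneg
    have : (e' : ℤ) * E' ≤ 0 := mul_nonpos_of_nonneg_of_nonpos he'0.le hneg
    omega
  have hords' : u.ord s = E' * a' := by
    rw [hE'] at hords
    apply mul_left_cancel₀ he'0.ne'
    linarith
  have hword : u.ord w = 0 := by
    have h1 : u.ord (w ^ g) = 0 := by rw [hwg, hu u0 hu0ne, hu0ord, mul_zero]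
    rw [wp3_ord_pow u hw0] at h1
    exact (mul_eq_zero.mp h1).resolve_left hg0
  -- the residue constant of `w`
  obtain ⟨c, hc⟩ := hres u0 hu0ne hu0ord
  have hpw : abh_Ge u 1 (Polynomial.aeval w (Polynomial.X ^ g - Polynomial.C c)) := by
    have h1 : Polynomial.aeval w (Polynomial.X ^ g - Polynomial.C c)
        = σ (u0 - algebraMap K F c) := by
      simp [hwg]
    rw [h1]
    have := abh_Ge_map hE.le hu hc
    exact abh_Ge_mono u (by nlinarith) this
  obtain ⟨c0, hc0⟩ := abh_exists_const u w (Or.inr hword.ge) _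
    (Polynomial.X_pow_sub_C_ne_zero hgpos c) hpw
  have hc0ne : c0 ≠ 0 := by
    rintro rfl
    rw [map_zero, sub_zero] at hc0
    rcases hc0 with h | h
    · exact hw0 h
    · omega
  -- start of the Newton iteration in `F`
  have hstart : abh_Ge uF 1 (algebraMap K F c0 ^ g - u0) := by
    apply abh_Ge_of_map hE hu
    have h1 : σ (algebraMap K F c0 ^ g - u0) = algebraMap K L c0 ^ g - w ^ g := by
      rw [map_sub, map_pow, AlgHom.commutes, hwg]
    rw [h1]
    obtain ⟨q, hq⟩ := sub_dvd_pow_sub_pow (abh_const u c0) (⟨w, Or.inr hword.ge⟩ : wp3_vs u) g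
    have hmem : abh_const u c0 - (⟨w, Or.inr hword.ge⟩ : wp3_vs u)
        ∈ IsLocalRing.maximalIdeal (wp3_vs u) := by
      rw [abh_mem_max_iff]
      have : ((abh_const u c0 - (⟨w, Or.inr hword.ge⟩ : wp3_vs u) : wp3_vs u) : L)
          = -(w - algebraMap K L c0) := by
        simp [abh_const_coe]
      rw [this]
      exact abh_Ge_neg u hc0
    have hmem2 := Ideal.mul_mem_right q _ hmem
    rw [← hq, abh_mem_max_iff] at hmem2
    simpa [abh_const_coe] using hmem2
  have hN : ∀ k : ℕ, ∃ y : F, abh_Ge uF 0 y ∧ abh_Ge uF 1 (y - algebraMap K F c0) ∧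
      abh_Ge uF ((k + 1 : ℕ) : ℤ) (y ^ g - u0) := by
    intro k
    have hgU : IsUnit ((g : ℕ) : wp3_vs uF) := by
      have : ((g : ℕ) : wp3_vs uF) = abh_const uF (g : K) := by simp
      rw [this]
      exact (isUnit_iff_ne_zero.mpr hgK).map _
    have hxU : IsUnit (abh_const uF c0) := (isUnit_iff_ne_zero.mpr hc0ne).map _
    have h1 : abh_const uF c0 ^ g - (⟨u0, Or.inr hu0ord.ge⟩ : wp3_vs uF)
        ∈ IsLocalRing.maximalIdeal (wp3_vs uF) := by
      rw [abh_mem_max_iff]
      simpa [abh_const_coe] using hstart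
    obtain ⟨y, hy1, hy2⟩ := abh_newton g hgU _ (abh_const uF c0) hxU h1 k
    refine ⟨(y : F), y.2, ?_, ?_⟩
    · have := (abh_mem_max_iff uF _).mp hy1
      simpa [abh_const_coe] using this
    · have := abh_mem_max_pow uF (k + 1) _ hy2
      simpa using this
  -- `w` is a limit of elements of `F`
  have hwA : abh_Approx u σ w := by
    intro n
    obtain ⟨y, hy0, hy1, hy2⟩ := hN n.toNat
    refine ⟨y, ?_⟩
    have hσy0 : abh_Ge u 0 (σ y) := by
      have := abh_Ge_map hE.le hu hy0
      simpa using this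
    have hσy1 : abh_Ge u 1 (σ y - algebraMap K L c0) := by
      have := abh_Ge_map hE.le hu hy1
      rw [map_sub, AlgHom.commutes] at this
      exact abh_Ge_mono u (by nlinarith) this
    obtain ⟨W, hW⟩ : ∃ W : wp3_vs u, (W : L) = w := ⟨⟨w, Or.inr hword.ge⟩, rfl⟩
    obtain ⟨Y, hY⟩ : ∃ Y : wp3_vs u, (Y : L) = σ y := ⟨⟨σ y, hσy0⟩, rfl⟩
    have hWC : W - abh_const u c0 ∈ IsLocalRing.maximalIdeal (wp3_vs u) := by
      rw [abh_mem_max_iff]
      simpa [abh_const_coe, hW] using hc0
    have hYC : Y - abh_const u c0 ∈ IsLocalRing.maximalIdeal (wp3_vs u) := by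
      rw [abh_mem_max_iff]
      simpa [abh_const_coe, hY] using hσy1
    obtain ⟨S, hS⟩ : ∃ S : wp3_vs u, S = ∑ i ∈ Finset.range g, W ^ i * Y ^ (g - 1 - i) :=
      ⟨_, rfl⟩
    have hSU : IsUnit S := by
      have hcong : S - ((g : ℕ) : wp3_vs u) * abh_const u c0 ^ (g - 1)
          ∈ IsLocalRing.maximalIdeal (wp3_vs u) := by
        rw [hS]
        exact abh_geom_congr _ W Y _ hWC hYC g
      have hU : IsUnit (((g : ℕ) : wp3_vs u) * abh_const u c0 ^ (g - 1)) := by
        have : ((g : ℕ) : wp3_vs u) = abh_const u (g : K) := by simp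
        rw [this]
        exact ((isUnit_iff_ne_zero.mpr hgK).map _).mul
          (((isUnit_iff_ne_zero.mpr hc0ne).map _).pow _)
      by_contra hnu
      have hSm : S ∈ IsLocalRing.maximalIdeal (wp3_vs u) :=
        (IsLocalRing.mem_maximalIdeal S).mpr hnu
      have := Ideal.sub_mem _ hSm hcong
      rw [sub_sub_cancel] at this
      exact (IsLocalRing.mem_maximalIdeal _).mp this hU
    have hmul : S * (W - Y) = W ^ g - Y ^ g := by
      rw [hS]
      exact geom_sum₂_mul W Y g
    obtain ⟨hSne, hSord⟩ := (abh_isUnit_iff u S).mp hSU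
    have hmulL : (S : L) * (w - σ y) = σ (u0 - y ^ g) := by
      have := congrArg Subtype.val hmul
      simp only [MulMemClass.coe_mul, AddSubgroupClass.coe_sub, SubmonoidClass.coe_pow, hW,
        hY] at this
      rw [this, hwg, map_sub, map_pow]
    have hR : abh_Ge u n (σ (u0 - y ^ g)) := by
      have h1 : abh_Ge uF ((n.toNat + 1 : ℕ) : ℤ) (u0 - y ^ g) := by
        have := abh_Ge_neg uF hy2
        rwa [neg_sub] at this
      have h2 := abh_Ge_map hE.le hu h1
      refine abh_Ge_mono u ?_ h2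
      have h3 : n ≤ ((n.toNat + 1 : ℕ) : ℤ) := by
        push_cast
        have := Int.self_le_toNat n
        omega
      have h4 : (0 : ℤ) ≤ ((n.toNat + 1 : ℕ) : ℤ) := by positivity
      nlinarith
    rcases eq_or_ne (w - σ y) 0 with h0 | h0
    · exact Or.inl h0
    · right
      rcases hR with hR | hR
      · exfalso
        rw [← hmulL] at hR
        exact mul_ne_zero hSne h0 hR
      · rw [← hmulL, u.ord_mul _ _ hSne h0, hSord, zero_add] at hR
        exact hR
  have hB : abh_Approx u σ (s ^ e') := by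
    have : s ^ e' = w * σ (t ^ a') := by
      rw [hw, map_zpow₀, mul_assoc, ← zpow_add₀ hσt]
      simp
    rw [this]
    exact abh_approx_mul u σ hwA (abh_approx_map u σ _)
  refine ⟨E', hE'pos, by rw [hE']; ring, ?_⟩
  intro x hx
  obtain ⟨cf, rfl⟩ := hgen x
  have hre : ∑ i ∈ Finset.range e, σ (cf i) * s ^ i = ∑ r ∈ Finset.range e',
      s ^ r * (∑ i ∈ Finset.range e with i % e' = r, σ (cf i) * (s ^ e') ^ (i / e')) := by
    rw [← Finset.sum_fiberwise_of_maps_to (g := fun i => i % e') (t := Finset.range e')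
      (fun i _ => Finset.mem_range.mpr (Nat.mod_lt _ he'pos))]
    refine Finset.sum_congr rfl fun r _ => ?_
    rw [Finset.mul_sum]
    refine Finset.sum_congr rfl fun i hi => ?_
    have hir : i % e' = r := (Finset.mem_filter.mp hi).2
    have : s ^ i = s ^ r * (s ^ e') ^ (i / e') := by
      rw [← pow_mul, ← pow_add, ← hir, Nat.mod_add_div]
    rw [this]
    ring
  obtain ⟨b, hb⟩ : ∃ b : ℕ → L, b = fun r => ∑ i ∈ Finset.range e with i % e' = r,
      σ (cf i) * (s ^ e') ^ (i / e') := ⟨_, rfl⟩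
  have hbA : ∀ r, abh_Approx u σ (b r) := by
    intro r
    rw [hb]
    exact abh_approx_sum u σ _ _ fun i _ =>
      abh_approx_mul u σ (abh_approx_map u σ _) (abh_approx_pow u σ hB _)
  have hre' : ∑ i ∈ Finset.range e, σ (cf i) * s ^ i = ∑ r ∈ Finset.range e', s ^ r * b r := by
    rw [hre, hb]
  rw [hre'] at hx ⊢
  have hdist : ∀ i ∈ Finset.range e', ∀ j ∈ Finset.range e', s ^ i * b i ≠ 0 → s ^ j * b j ≠ 0 →
      u.ord (s ^ i * b i) = u.ord (s ^ j * b j) → i = j := by
    intro i hi j hj hi0 hj0 hij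
    have hbi : b i ≠ 0 := right_ne_zero_of_mul hi0
    have hbj : b j ≠ 0 := right_ne_zero_of_mul hj0
    obtain ⟨fi, hfi0, hfi⟩ := abh_approx_ord u σ (hbA i) hbi
    obtain ⟨fj, hfj0, hfj⟩ := abh_approx_ord u σ (hbA j) hbj
    rw [u.ord_mul _ _ (pow_ne_zero _ hs0) hbi, u.ord_mul _ _ (pow_ne_zero _ hs0) hbj,
      wp3_ord_pow u hs0, wp3_ord_pow u hs0, hfi, hfj, hu fi hfi0, hu fj hfj0, hords', hE'] at hij
    have h1 : ((i : ℤ) - j) * a' = (e' : ℤ) * (uF.ord fj - uF.ord fi) := by
      apply mul_left_cancel₀ hE'pos.ne'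
      linarith
    have h2 : (e' : ℤ) ∣ (i : ℤ) - j := hcop.dvd_of_dvd_mul_right ⟨_, h1⟩
    have hi' := Finset.mem_range.mp hi
    have hj' := Finset.mem_range.mp hj
    have h3 : (i : ℤ) - j = 0 :=
      Int.eq_zero_of_abs_lt_dvd h2 (by rw [abs_lt]; constructor <;> omega)
    omega
  rcases abh_ord_sum u (Finset.range e') (fun r => s ^ r * b r) hdist with h | ⟨-, r, -, hr0, hrord⟩
  · exact absurd (Finset.sum_eq_zero h) hx
  · rw [hrord]
    have hbr : b r ≠ 0 := right_ne_zero_of_mul hr0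
    obtain ⟨fr, hfr0, hfr⟩ := abh_approx_ord u σ (hbA r) hbr
    rw [u.ord_mul _ _ (pow_ne_zero _ hs0) hbr, wp3_ord_pow u hs0, hfr, hu fr hfr0, hords', hE']
    exact ⟨r * a' + e' * uF.ord fr, by ring⟩

end Core

section Generators

variable {F L : Type*} [Field F] [Field L] [Algebra F L]

/-- If `L` is generated as an `F`-algebra by `s` with `s ^ e ∈ F`, every element of `L` is a
polynomial of degree `< e` in `s`. -/
theorem abh_hgen_of_adjoin (s : L) (e : ℕ) (he : e ≠ 0) (z : F) (hs : s ^ e = algebraMap F L z)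
    (htop : Algebra.adjoin F {s} = ⊤) :
    ∀ x : L, ∃ a : ℕ → F, x = ∑ i ∈ Finset.range e, algebraMap F L (a i) * s ^ i := by
  intro x
  have hx : x ∈ Algebra.adjoin F {s} := by rw [htop]; trivial
  rw [Algebra.adjoin_singleton_eq_range_aeval] at hx
  obtain ⟨p, rfl⟩ := hx
  have hq : (Polynomial.X ^ e - Polynomial.C z : Polynomial F).Monic :=
    Polynomial.monic_X_pow_sub_C z he
  have hqs : Polynomial.aeval s (Polynomial.X ^ e - Polynomial.C z : Polynomial F) = 0 := by
    simp [hs]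
  refine ⟨(p %ₘ (Polynomial.X ^ e - Polynomial.C z)).coeff, ?_⟩
  have h1 : Polynomial.aeval s p
      = Polynomial.aeval s (p %ₘ (Polynomial.X ^ e - Polynomial.C z)) := by
    conv_lhs => rw [← Polynomial.modByMonic_add_div p (Polynomial.X ^ e - Polynomial.C z)]
    rw [map_add, map_mul, hqs, zero_mul, add_zero]
  have hdeg : (p %ₘ (Polynomial.X ^ e - Polynomial.C z)).natDegree < e := by
    have h2 : (Polynomial.X ^ e - Polynomial.C z : Polynomial F) ≠ 1 := by
      intro h
      have h3 := congrArg Polynomial.natDegree h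
      rw [Polynomial.natDegree_X_pow_sub_C, Polynomial.natDegree_one] at h3
      exact he h3
    have := Polynomial.natDegree_modByMonic_lt p hq h2
    rwa [Polynomial.natDegree_X_pow_sub_C] at this
  show Polynomial.aeval s p = _
  rw [h1, Polynomial.aeval_eq_sum_range' hdeg]
  simp [Algebra.smul_def]

/-- The same for the field generated by `s`. -/
theorem abh_hgen_of_adjoin_field (s : L) (e : ℕ) (he : e ≠ 0) (z : F)
    (hs : s ^ e = algebraMap F L z) (htop : IntermediateField.adjoin F {s} = ⊤) :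
    ∀ x : L, ∃ a : ℕ → F, x = ∑ i ∈ Finset.range e, algebraMap F L (a i) * s ^ i := by
  have hint : IsIntegral F s :=
    ⟨Polynomial.X ^ e - Polynomial.C z, Polynomial.monic_X_pow_sub_C z he, by simp [hs]⟩
  refine abh_hgen_of_adjoin s e he z hs ?_
  rw [← IntermediateField.adjoin_simple_toSubalgebra_of_isAlgebraic hint.isAlgebraic, htop,
    IntermediateField.top_toSubalgebra]

end Generators

section Places

variable {K F L : Type*} [Field K] [IsAlgClosed K] [Field F] [Field L] [Algebra K F] [Algebra K L]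
  [Algebra F L] [IsScalarTower K F L] [Algebra.IsIntegral F L]

/-- **Ramification index in a Kummer extension** `L = F(s)`, `s ^ e = z`, over an algebraically
closed constant field: `e(Q/P) = e / gcd (e, ord_P z)` for every place `Q` of `L`,
`P = Q.restrict F`.  (`hF1` is the conclusion of `wp1_exists_const`.) -/
theorem abh_ramificationIndex
    (hF1 : ∀ (P : Place K F) (f : F), f ∈ P.toValuationSubring →
      ∃ c : K, f = algebraMap K F c ∨ 0 < P.ord (f - algebraMap K F c))
    (s : L) (e : ℕ) (he : (e : K) ≠ 0) (z : F) (hz : z ≠ 0) (hs : s ^ e = algebraMap F L z)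
    (hgen : ∀ x : L, ∃ a : ℕ → F, x = ∑ i ∈ Finset.range e, algebraMap F L (a i) * s ^ i)
    (Q : Place K L) :
    Place.ramificationIndex (F := F) Q = e / Nat.gcd e ((Q.restrict F).ord z).natAbs := by
  have hEpos := Q.ramificationIndex_pos (F := F)
  obtain ⟨ϖ, hϖ⟩ := IsDiscreteValuationRing.exists_irreducible (Q.restrict F).toValuationSubring
  obtain ⟨ϖQ, hϖQ⟩ := IsDiscreteValuationRing.exists_irreducible Q.toValuationSubring
  have hϖ0 : (ϖ : F) ≠ 0 := fun h => hϖ.ne_zero (Subtype.ext h)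
  have hϖQ0 : (ϖQ : L) ≠ 0 := fun h => hϖQ.ne_zero (Subtype.ext h)
  have hres : ∀ f : F, f ≠ 0 → (abh_ofPlace (Q.restrict F)).ord f = 0 →
      ∃ c : K, abh_Ge (abh_ofPlace (Q.restrict F)) 1 (f - algebraMap K F c) := by
    intro f _ hf0
    obtain ⟨c, hc⟩ := hF1 (Q.restrict F) f
      ((wp1_mem_iff_ord_nonneg (Q.restrict F) f).mpr (by rw [abh_ofPlace_ord] at hf0; omega))
    refine ⟨c, ?_⟩
    rcases hc with hc | hc
    · exact Or.inl (sub_eq_zero.mpr hc)
    · exact Or.inr (by rw [abh_ofPlace_ord]; omega)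
  obtain ⟨E', hE'pos, hE', hdiv⟩ := abh_core (IsScalarTower.toAlgHom K F L)
    (abh_ofPlace (Q.restrict F)) (abh_ofPlace Q) (Place.ramificationIndex (F := F) Q)
    (by exact_mod_cast hEpos) (fun f _ => Q.ord_restrict f) (ϖ : F) hϖ0
    ((Q.restrict F).ord_coe_irreducible hϖ) hres s e he z hz hs hgen
  have h1 : E' ∣ 1 := by
    have := hdiv (ϖQ : L) hϖQ0
    rwa [abh_ofPlace_ord, Q.ord_coe_irreducible hϖQ] at this
  have hE'1 : E' = 1 := Int.eq_one_of_dvd_one hE'pos.le h1
  rw [hE'1, one_mul, abh_ofPlace_ord] at hE'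
  exact_mod_cast hE'

/-- **Abhyankar at a tame section.**  If `ord_P z ∣ e` at every zero `P` of `z`, then `s` is a
uniformiser at every zero of `s`: `L / K(s)` is unramified over `s = 0`. -/
theorem abh_ord_root_eq_one
    (hF1 : ∀ (P : Place K F) (f : F), f ∈ P.toValuationSubring →
      ∃ c : K, f = algebraMap K F c ∨ 0 < P.ord (f - algebraMap K F c))
    (s : L) (e : ℕ) (he : (e : K) ≠ 0) (z : F) (hz : z ≠ 0) (hs : s ^ e = algebraMap F L z)
    (hgen : ∀ x : L, ∃ a : ℕ → F, x = ∑ i ∈ Finset.range e, algebraMap F L (a i) * s ^ i)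
    (hram : ∀ P : Place K F, 0 < P.ord z → P.ord z ∣ (e : ℤ))
    (Q : Place K L) (hQ : 0 < Q.ord s) : Q.ord s = 1 := by
  have he0 : e ≠ 0 := by
    rintro rfl
    simp at he
  have hE := abh_ramificationIndex hF1 s e he z hz hs hgen Q
  have hEpos := Q.ramificationIndex_pos (F := F)
  have h1 : (e : ℤ) * Q.ord s
      = (Place.ramificationIndex (F := F) Q : ℤ) * (Q.restrict F).ord z := by
    rw [← Q.ord_restrict, ← hs, ← zpow_natCast, Q.ord_zpow]
  obtain ⟨p, hp⟩ : ∃ p : ℤ, p = (Q.restrict F).ord z := ⟨_, rfl⟩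
  rw [← hp] at h1 hE
  have hppos : 0 < p := by
    have h2 : (0 : ℤ) < (e : ℤ) * Q.ord s := mul_pos (by exact_mod_cast Nat.pos_of_ne_zero he0) hQ
    rw [h1] at h2
    by_contra hneg
    push Not at hneg
    have : (Place.ramificationIndex (F := F) Q : ℤ) * p ≤ 0 :=
      mul_nonpos_of_nonneg_of_nonpos (by positivity) hneg
    omega
  have hpe : p ∣ (e : ℤ) := hp ▸ hram (Q.restrict F) (hp ▸ hppos)
  have hpe' : p.natAbs ∣ e := by
    have := Int.natAbs_dvd_natAbs.mpr hpe
    simpa using this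
  rw [Nat.gcd_eq_right hpe'] at hE
  have h3 : (Place.ramificationIndex (F := F) Q : ℤ) * p = e := by
    have h4 : Place.ramificationIndex (F := F) Q * p.natAbs = e := by
      rw [hE]
      exact Nat.div_mul_cancel hpe'
    have h5 : (p.natAbs : ℤ) = p := Int.natAbs_of_nonneg hppos.le
    rw [← h5]
    exact_mod_cast h4
  rw [h3] at h1
  have he' : (e : ℤ) ≠ 0 := by exact_mod_cast he0
  have : (e : ℤ) * Q.ord s = (e : ℤ) * 1 := by rw [h1, mul_one]
  exact mul_left_cancel₀ he' this

/-- If `z` is a unit at the restriction of `Q`, then `Q` is unramified over `F`. -/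
theorem abh_unramified
    (hF1 : ∀ (P : Place K F) (f : F), f ∈ P.toValuationSubring →
      ∃ c : K, f = algebraMap K F c ∨ 0 < P.ord (f - algebraMap K F c))
    (s : L) (e : ℕ) (he : (e : K) ≠ 0) (z : F) (hz : z ≠ 0) (hs : s ^ e = algebraMap F L z)
    (hgen : ∀ x : L, ∃ a : ℕ → F, x = ∑ i ∈ Finset.range e, algebraMap F L (a i) * s ^ i)
    (Q : Place K L) (hz0 : (Q.restrict F).ord z = 0) :
    Place.ramificationIndex (F := F) Q = 1 := by
  have he0 : e ≠ 0 := by
    rintro rfl
    simp at he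
  rw [abh_ramificationIndex hF1 s e he z hz hs hgen Q, hz0]
  simp [Nat.div_self (Nat.pos_of_ne_zero he0)]

/-- Unramified case: orders of elements of `F` do not change. -/
theorem abh_ord_algebraMap_of_unit
    (hF1 : ∀ (P : Place K F) (f : F), f ∈ P.toValuationSubring →
      ∃ c : K, f = algebraMap K F c ∨ 0 < P.ord (f - algebraMap K F c))
    (s : L) (e : ℕ) (he : (e : K) ≠ 0) (z : F) (hz : z ≠ 0) (hs : s ^ e = algebraMap F L z)
    (hgen : ∀ x : L, ∃ a : ℕ → F, x = ∑ i ∈ Finset.range e, algebraMap F L (a i) * s ^ i)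
    (Q : Place K L) (hz0 : (Q.restrict F).ord z = 0) (f : F) :
    Q.ord (algebraMap F L f) = (Q.restrict F).ord f := by
  rw [Q.ord_restrict, abh_unramified hF1 s e he z hz hs hgen Q hz0]
  simp

/-- **The other horizontal primes.**  At a zero `Q` of `s - a`, `a ≠ 0` a constant, one has
`ord_Q (s - a) = ord_P (z - a ^ e)` (`P = Q.restrict F`): the compositum with the Kummer line is
unramified wherever `F / K(z)` is, away from `s = 0`. -/
theorem abh_ord_sub_const
    (hF1 : ∀ (P : Place K F) (f : F), f ∈ P.toValuationSubring →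
      ∃ c : K, f = algebraMap K F c ∨ 0 < P.ord (f - algebraMap K F c))
    (s : L) (e : ℕ) (he : (e : K) ≠ 0) (z : F) (hz : z ≠ 0) (hs : s ^ e = algebraMap F L z)
    (hgen : ∀ x : L, ∃ a : ℕ → F, x = ∑ i ∈ Finset.range e, algebraMap F L (a i) * s ^ i)
    (a : K) (ha : a ≠ 0) (Q : Place K L) (hQ : 0 < Q.ord (s - algebraMap K L a)) :
    Q.ord (s - algebraMap K L a) = (Q.restrict F).ord (z - algebraMap K F (a ^ e)) := by
  have he0 : e ≠ 0 := by
    rintro rfl
    simp at he
  have hsa0 : s - algebraMap K L a ≠ 0 := by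
    intro h
    rw [h, Place.ord_zero] at hQ
    exact lt_irrefl _ hQ
  have ha0 : algebraMap K L a ≠ 0 := (map_ne_zero _).mpr ha
  have hord_a : (abh_ofPlace Q).ord (algebraMap K L a) = 0 := (abh_ofPlace Q).ord_const a ha
  have hGe1 : abh_Ge (abh_ofPlace Q) 1 (s - algebraMap K L a) :=
    Or.inr (by rw [abh_ofPlace_ord]; omega)
  have hs' := abh_ord_add_of_lt (abh_ofPlace Q) ha0 (y := s - algebraMap K L a)
    (by rw [hord_a]; exact hGe1)
  rw [add_sub_cancel, hord_a] at hs'
  obtain ⟨hs0, hsord⟩ := hs'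
  rw [abh_ofPlace_ord] at hsord
  have hEpos := Q.ramificationIndex_pos (F := F)
  have hz0 : (Q.restrict F).ord z = 0 := by
    have h1 : (e : ℤ) * Q.ord s
        = (Place.ramificationIndex (F := F) Q : ℤ) * (Q.restrict F).ord z := by
      rw [← Q.ord_restrict, ← hs, ← zpow_natCast, Q.ord_zpow]
    rw [hsord, mul_zero] at h1
    have h2 : (Place.ramificationIndex (F := F) Q : ℤ) ≠ 0 := by exact_mod_cast hEpos.ne'
    exact (mul_eq_zero.mp h1.symm).resolve_left h2
  rw [← abh_ord_algebraMap_of_unit hF1 s e he z hz hs hgen Q hz0]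
  obtain ⟨S, hS⟩ : ∃ S : wp3_vs (abh_ofPlace Q), (S : L) = s :=
    ⟨⟨s, Or.inr (by rw [abh_ofPlace_ord]; omega)⟩, rfl⟩
  have hSA : S - abh_const (abh_ofPlace Q) a
      ∈ IsLocalRing.maximalIdeal (wp3_vs (abh_ofPlace Q)) := by
    rw [abh_mem_max_iff]
    simpa [abh_const_coe, hS] using hGe1
  have hAA : abh_const (abh_ofPlace Q) a - abh_const (abh_ofPlace Q) a
      ∈ IsLocalRing.maximalIdeal (wp3_vs (abh_ofPlace Q)) := by
    rw [sub_self]
    exact zero_mem _
  have hTU := abh_geom_isUnit (abh_ofPlace Q) e he a ha S (abh_const (abh_ofPlace Q) a) hSA hAA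
  obtain ⟨hTne, hTord⟩ := (abh_isUnit_iff (abh_ofPlace Q) _).mp hTU
  have hmul := geom_sum₂_mul S (abh_const (abh_ofPlace Q) a) e
  have hmulL := congrArg Subtype.val hmul
  simp only [MulMemClass.coe_mul, AddSubgroupClass.coe_sub, SubmonoidClass.coe_pow, hS,
    abh_const_coe] at hmulL
  have hrhs : algebraMap F L (z - algebraMap K F (a ^ e)) = s ^ e - algebraMap K L a ^ e := by
    rw [map_sub, ← hs, ← IsScalarTower.algebraMap_apply, map_pow]
  rw [hrhs, ← hmulL]
  have := (abh_ofPlace Q).ord_mul _ _ hTne hsa0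
  rw [abh_ofPlace_ord, abh_ofPlace_ord, abh_ofPlace_ord] at this
  rw [abh_ofPlace_ord] at hTord
  rw [this, hTord, zero_add]

end Places

end Fermat.Agent.S18
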