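import Mathlib

/-!
S18 (long shot), row A3: **tame Abhyankar lemma at the level of one discrete valuation**
(helper18).  Generic, Mathlib only.

`L = F'(s)` with `s ^ e = z ∈ F'`; `v` a `ℤᵐ⁰`-valued valuation of `L` whose restriction to `F'`
has uniformiser `t`, with `v z = v t ^ n`, `n ∣ e` ("the ramification index of `z` divides `e`")
and `v n = 1` ("tame").  Then every value of `v` is a power of `v s` (`ab18_core`); in particular
if `v` is normalised then `v s = exp (-1)` (`ab18_core_exp`): `s` is a uniformiser, i.e. the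
valuation is unramified over the `s`-line.

Proof: `u = s ^ (e / n) / t` is a unit with `u ^ n = z / t ^ n`; the ring
`B = V[u, s]` (`V` the valuation ring of `F'`) has `B / s B` a quotient of the separable algebra
`k[X] / (X ^ n - η)`, so the centre of `v` on `B` is generated by `s` locally (`ab18_key`), and
one concludes by induction on the value.

All names are prefixed `ab18_`.
-/

set_option autoImplicit false

open Polynomial WithZero

namespace Fermat.Agent.S18

/-- If a polynomial over `R` reduces to `0` modulo a principal kernel `(t)`, it is divisible by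
`C t`. -/
theorem ab18_C_dvd_of_map_eq_zero {R k : Type*} [CommRing R] [Field k] (res : R →+* k) (t : R)
    (hker : ∀ a : R, res a = 0 → t ∣ a) (P : R[X]) (hP : P.map res = 0) : C t ∣ P := by
  rw [Polynomial.C_dvd_iff_dvd_coeff]
  intro i
  apply hker
  have := congrArg (fun Q => Polynomial.coeff Q i) hP
  simpa [Polynomial.coeff_map] using this

/-- **Separable reduction, abstract key lemma.**  `R → k` a surjection onto a field with kernel
`(t)`, `I` an ideal of `R[X]` containing `t` and `Φ` but not `Φ'`.  Then every `p ∈ I` is killed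
modulo `(t, Φ)` by some `c ∉ I`. -/
theorem ab18_key {R k : Type*} [CommRing R] [Field k] (res : R →+* k)
    (hres : Function.Surjective res) (t : R) (hker : ∀ a : R, res a = 0 → t ∣ a)
    (I : Ideal R[X]) (htI : C t ∈ I) (Φ : R[X]) (hΦ : Φ ∈ I) (hΦ' : derivative Φ ∉ I)
    (p : R[X]) (hp : p ∈ I) :
    ∃ c r q : R[X], c ∉ I ∧ c * p = C t * r + q * Φ := by
  classical
  have hsurj := Polynomial.map_surjective res hres
  obtain ⟨g, h, g₂, a, b, hh, hg₂, hbez⟩ : ∃ g h g₂ a b : k[X],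
      p.map res = g * h ∧ Φ.map res = g * g₂ ∧ g = p.map res * a + Φ.map res * b := by
    obtain ⟨h, hh⟩ := EuclideanDomain.gcd_dvd_left (p.map res) (Φ.map res)
    obtain ⟨g₂, hg₂⟩ := EuclideanDomain.gcd_dvd_right (p.map res) (Φ.map res)
    exact ⟨_, h, g₂, _, _, hh, hg₂, EuclideanDomain.gcd_eq_gcd_ab (p.map res) (Φ.map res)⟩
  obtain ⟨G, hG⟩ := hsurj g
  obtain ⟨H, hH⟩ := hsurj h
  obtain ⟨C₂, hC₂⟩ := hsurj g₂
  obtain ⟨A, hA⟩ := hsurj a
  obtain ⟨B, hB⟩ := hsurj b
  -- (1) `C₂ * p ≡ H * Φ`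
  obtain ⟨r, hr⟩ := ab18_C_dvd_of_map_eq_zero res t hker (C₂ * p - H * Φ) (by
    rw [Polynomial.map_sub, Polynomial.map_mul, Polynomial.map_mul, hC₂, hH, hh, hg₂]
    ring)
  -- (2) `G ∈ I`
  obtain ⟨r₁, hr₁⟩ := ab18_C_dvd_of_map_eq_zero res t hker (G - (p * A + Φ * B)) (by
    rw [Polynomial.map_sub, Polynomial.map_add, Polynomial.map_mul, Polynomial.map_mul, hG, hA,
      hB, ← hbez, sub_self])
  have hGI : G ∈ I := by
    have : G = p * A + Φ * B + C t * r₁ := by rw [← hr₁]; ring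
    rw [this]
    exact I.add_mem (I.add_mem (I.mul_mem_right _ hp) (I.mul_mem_right _ hΦ))
      (I.mul_mem_right _ htI)
  -- (3) `G * C₂ ≡ Φ`
  obtain ⟨r₂, hr₂⟩ := ab18_C_dvd_of_map_eq_zero res t hker (G * C₂ - Φ) (by
    rw [Polynomial.map_sub, Polynomial.map_mul, hG, hC₂, ← hg₂, sub_self])
  refine ⟨C₂, r, H, ?_, ?_⟩
  · intro hC₂I
    apply hΦ'
    have h1 : derivative Φ = derivative G * C₂ + G * derivative C₂ - C t * derivative r₂ := by
      have h2 : Φ = G * C₂ - C t * r₂ := by rw [← hr₂]; ring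
      conv_lhs => rw [h2]
      rw [derivative_sub, derivative_mul, derivative_C_mul]
    rw [h1]
    exact I.sub_mem (I.add_mem (I.mul_mem_left _ hC₂I) (I.mul_mem_right _ hGI))
      (I.mul_mem_right _ htI)
  · rw [← hr]; ring

section Core

variable {F' L : Type*} [Field F'] [Field L] [Algebra F' L]

/-- `s` has positive valuation. -/
theorem ab18_val_lt_one (v : Valuation L ℤᵐ⁰) (s : L) (z t : F') (e n : ℕ) (hn0 : 0 < n)
    (hs : s ^ e = algebraMap F' L z) (ht : v (algebraMap F' L t) < 1)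
    (hz : v (algebraMap F' L z) = v (algebraMap F' L t) ^ n) : v s < 1 := by
  by_contra hcon
  push Not at hcon
  have h1 : 1 ≤ v s ^ e := one_le_pow₀ hcon
  rw [← map_pow, hs, hz] at h1
  exact absurd (pow_lt_one' ht hn0.ne') (not_lt.mpr h1)

/-- **Tame Abhyankar lemma, valuation form.**  `L = F'[s]`, `s ^ e = z ∈ F'`, `e = d * n`;
`t` generates the centre of `v` on `F'`, `v z = v t ^ n` and `v n = 1`.  Then the value group
of `v` is generated by `v s`. -/
theorem ab18_core (v : Valuation L ℤᵐ⁰) (s : L) (z t : F') (e d n : ℕ) (he : e = d * n)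
    (he0 : 0 < e) (hz0 : z ≠ 0) (hs : s ^ e = algebraMap F' L z)
    (ht : v (algebraMap F' L t) < 1)
    (htgen : ∀ a : F', v (algebraMap F' L a) < 1 →
      v (algebraMap F' L a) ≤ v (algebraMap F' L t))
    (hz : v (algebraMap F' L z) = v (algebraMap F' L t) ^ n)
    (hn : v (n : L) = 1)
    (hgen : Algebra.adjoin F' {s} = ⊤) :
    ∀ x : L, x ≠ 0 → ∃ k : ℤ, v x = v s ^ k := by
  classical
  have hd : 0 < d := by
    rcases Nat.eq_zero_or_pos d with h | h
    · rw [h, zero_mul] at he; omega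
    · exact h
  have hn0 : 0 < n := by
    rcases Nat.eq_zero_or_pos n with h | h
    · rw [h, mul_zero] at he; omega
    · exact h
  have hz0' : algebraMap F' L z ≠ 0 := (_root_.map_ne_zero _).mpr hz0
  have hvt0 : v (algebraMap F' L t) ≠ 0 := by
    intro h
    rw [h, zero_pow hn0.ne'] at hz
    exact (v.ne_zero_iff.mpr hz0') hz
  have hat0 : algebraMap F' L t ≠ 0 := v.ne_zero_iff.mp hvt0
  have ht0 : t ≠ 0 := fun h => hat0 (by rw [h, map_zero])
  -- the unit `η = z / t ^ n`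
  obtain ⟨η, hηdef⟩ : ∃ η : F', η = z / t ^ n := ⟨_, rfl⟩
  have hη : v (algebraMap F' L η) = 1 := by
    rw [hηdef, map_div₀, map_pow, map_div₀, map_pow, hz, div_self (pow_ne_zero _ hvt0)]
  have hη0 : algebraMap F' L η ≠ 0 := by
    intro h
    rw [h, map_zero] at hη
    exact zero_ne_one hη
  -- the unit `u = s ^ d / t`
  obtain ⟨u, hudef⟩ : ∃ u : L, u = s ^ d / algebraMap F' L t := ⟨_, rfl⟩
  have hun : u ^ n = algebraMap F' L η := by
    rw [hudef, div_pow, ← pow_mul, ← he, hs, hηdef, map_div₀, map_pow]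
  have hvu : v u = 1 := by
    have h1 : v u ^ n = 1 := by rw [← map_pow, hun, hη]
    exact (pow_eq_one_iff_of_nonneg zero_le hn0.ne').mp h1
  have hsd : s ^ d = u * algebraMap F' L t := by rw [hudef, div_mul_cancel₀ _ hat0]
  have hs0 : s ≠ 0 := by
    intro h
    rw [h, zero_pow he0.ne'] at hs
    exact hz0' hs.symm
  have hvs0 : v s ≠ 0 := v.ne_zero_iff.mpr hs0
  have hvs : v s < 1 := ab18_val_lt_one v s z t e n hn0 hs ht hz
  -- the valuation ring of `F'`
  obtain ⟨Vs, hVsdef⟩ : ∃ Vs : ValuationSubring F',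
      Vs = v.valuationSubring.comap (algebraMap F' L) := ⟨_, rfl⟩
  have hVs : ∀ c : F', c ∈ Vs ↔ v (algebraMap F' L c) ≤ 1 := fun c => by
    rw [hVsdef, ValuationSubring.mem_comap, Valuation.mem_valuationSubring_iff]
  obtain ⟨φ, hφdef⟩ : ∃ φ : Vs →+* L, φ = (algebraMap F' L).comp Vs.subtype := ⟨_, rfl⟩
  have hφa : ∀ c : Vs, φ c = algebraMap F' L (c : F') := fun c => by rw [hφdef]; rfl
  have hφ : ∀ c : Vs, v (φ c) ≤ 1 := fun c => by rw [hφa]; exact (hVs c).mp c.2
  obtain ⟨t', ht'⟩ : ∃ t' : Vs, (t' : F') = t := ⟨⟨t, (hVs t).mpr ht.le⟩, rfl⟩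
  obtain ⟨η', hη'⟩ : ∃ η' : Vs, (η' : F') = η := ⟨⟨η, (hVs η).mpr hη.le⟩, rfl⟩
  obtain ⟨ηi, hηi⟩ : ∃ ηi : Vs, (ηi : F') = η⁻¹ :=
    ⟨⟨η⁻¹, (hVs _).mpr (by rw [map_inv₀, map_inv₀, hη, inv_one])⟩, rfl⟩
  -- evaluation at `u`
  obtain ⟨ev, hevdef⟩ : ∃ ev : Polynomial Vs →+* L, ev = Polynomial.eval₂RingHom φ u := ⟨_, rfl⟩
  have hevX : ev X = u := by rw [hevdef]; exact Polynomial.eval₂_X _ _
  have hevC : ∀ c, ev (C c) = φ c := fun c => by rw [hevdef]; exact Polynomial.eval₂_C _ _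
  have hev : ∀ p, v (ev p) ≤ 1 := by
    intro p
    rw [hevdef, Polynomial.coe_eval₂RingHom, Polynomial.eval₂_eq_sum_range]
    apply v.map_sum_le
    intro i _
    rw [map_mul, map_pow, hvu, one_pow, mul_one]
    exact hφ _
  -- the ideal of polynomials vanishing at the centre
  obtain ⟨I, hI⟩ : ∃ I : Ideal (Polynomial Vs), ∀ p, p ∈ I ↔ v (ev p) < 1 := by
    refine ⟨{ carrier := {p | v (ev p) < 1}
              add_mem' := ?_
              zero_mem' := ?_
              smul_mem' := ?_ }, fun p => Iff.rfl⟩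
    · intro p q hp hq
      simp only [Set.mem_ofPred_eq, map_add] at *
      exact v.map_add_lt hp hq
    · simp
    · intro c p hp
      simp only [Set.mem_ofPred_eq, smul_eq_mul, map_mul] at *
      exact mul_lt_one_of_nonneg_of_lt_one_right (hev c) zero_le hp
  have hker : ∀ c : Vs, IsLocalRing.residue Vs c = 0 → t' ∣ c := by
    intro c hc
    rw [IsLocalRing.residue_eq_zero_iff] at hc
    have hc1 : v (algebraMap F' L (c : F')) < 1 := by
      rcases lt_or_eq_of_le ((hVs c).mp c.2) with h | h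
      · exact h
      · exfalso
        apply (IsLocalRing.mem_maximalIdeal _).mp hc
        have hc0 : (c : F') ≠ 0 := by
          intro h0
          rw [h0, map_zero, map_zero] at h
          exact zero_ne_one h
        exact isUnit_iff_exists_inv.mpr
          ⟨⟨(c : F')⁻¹, (hVs _).mpr (by rw [map_inv₀, map_inv₀, h, inv_one])⟩,
            Subtype.ext (mul_inv_cancel₀ hc0)⟩
    have hle := htgen c hc1
    refine ⟨⟨(c : F') / t, (hVs _).mpr ?_⟩, Subtype.ext ?_⟩
    · rw [map_div₀, map_div₀]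
      exact div_le_one_of_le₀ hle zero_le
    · show (c : F') = (t' : F') * ((c : F') / t)
      rw [ht', mul_div_cancel₀ _ ht0]
  obtain ⟨Φ, hΦdef⟩ : ∃ Φ : Polynomial Vs, Φ = X ^ n - C η' := ⟨_, rfl⟩
  have hevΦ : ev Φ = 0 := by
    rw [hΦdef, map_sub, map_pow, hevX, hevC, hφa, hη', hun, sub_self]
  have hΦ : Φ ∈ I := by
    rw [hI, hevΦ, map_zero]
    exact zero_lt_one
  have hΦ' : derivative Φ ∉ I := by
    rw [hI]
    have h1 : ev (derivative Φ) = (n : L) * u ^ (n - 1) := by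
      rw [hΦdef, derivative_sub, derivative_X_pow, derivative_C, sub_zero, map_mul, map_pow,
        hevX, hevC, map_natCast]
    rw [h1, map_mul, map_pow, hn, hvu, one_pow, one_mul]
    exact lt_irrefl _
  have htI : C t' ∈ I := by
    rw [hI, hevC, hφa, ht']
    exact ht
  have key := fun p hp => ab18_key (IsLocalRing.residue Vs) IsLocalRing.residue_surjective
    t' hker I htI Φ hΦ hΦ' p hp
  -- two variables
  obtain ⟨Ψ, hΨdef⟩ : ∃ Ψ : Polynomial (Polynomial Vs) →+* L,
      Ψ = Polynomial.eval₂RingHom ev s := ⟨_, rfl⟩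
  have hΨX : Ψ X = s := by rw [hΨdef]; exact Polynomial.eval₂_X _ _
  have hΨC : ∀ c, Ψ (C c) = ev c := fun c => by rw [hΨdef]; exact Polynomial.eval₂_C _ _
  have hΨ : ∀ P, v (Ψ P) ≤ 1 := by
    intro P
    rw [hΨdef, Polynomial.coe_eval₂RingHom, Polynomial.eval₂_eq_sum_range]
    apply v.map_sum_le
    intro i _
    rw [map_mul, map_pow]
    exact mul_le_one' (hev _) (pow_le_one' hvs.le _)
  -- the centre of `v` on `V[u, s]` is locally generated by `s`
  have hC : ∀ P, v (Ψ P) < 1 → ∃ C' P', v (Ψ C') = 1 ∧ Ψ C' * Ψ P = s * Ψ P' := by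
    intro P hP
    have hdec : Ψ P = Ψ P.divX * s + ev (P.coeff 0) := by
      conv_lhs => rw [← Polynomial.divX_mul_X_add P]
      rw [map_add, map_mul, hΨX, hΨC]
    have hp0 : P.coeff 0 ∈ I := by
      rw [hI]
      have h1 : ev (P.coeff 0) = Ψ P - Ψ P.divX * s := by rw [hdec]; ring
      rw [h1]
      refine v.map_sub_lt hP ?_
      rw [map_mul]
      exact mul_lt_one_of_nonneg_of_lt_one_right (hΨ _) zero_le hvs
    obtain ⟨c, r, q, hc, hcp⟩ := key _ hp0
    have hvc : v (ev c) = 1 := le_antisymm (hev c) (not_lt.mp (fun h => hc ((hI c).mpr h)))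
    refine ⟨C c, C c * P.divX + X ^ (d - 1) * C (C ηi * X ^ (n - 1) * r), ?_, ?_⟩
    · rw [hΨC]; exact hvc
    · have h1 : ev c * ev (P.coeff 0) = algebraMap F' L t * ev r := by
        have h2 := congrArg ev hcp
        rw [map_mul, map_add, map_mul, map_mul, hevC, hevΦ, mul_zero, add_zero, hφa, ht'] at h2
        exact h2
      have h3 : s * s ^ (d - 1) = u * algebraMap F' L t := by
        rw [← pow_succ', Nat.sub_add_cancel hd, hsd]
      have h4 : u * u ^ (n - 1) = algebraMap F' L η := by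
        rw [← pow_succ', Nat.sub_add_cancel hn0, hun]
      rw [hΨC, hdec, map_add, map_mul, map_mul, map_pow, hΨX, hΨC, hΨC, map_mul, map_mul,
        map_pow, hevX, hevC, hφa, hηi, map_inv₀, mul_add, h1]
      have h5 : s * (s ^ (d - 1) * ((algebraMap F' L η)⁻¹ * u ^ (n - 1) * ev r)) =
          algebraMap F' L t * ev r := by
        calc s * (s ^ (d - 1) * ((algebraMap F' L η)⁻¹ * u ^ (n - 1) * ev r))
            = (s * s ^ (d - 1)) * u ^ (n - 1) * (algebraMap F' L η)⁻¹ * ev r := by ring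
          _ = algebraMap F' L t * (u * u ^ (n - 1)) * (algebraMap F' L η)⁻¹ * ev r := by
              rw [h3]; ring
          _ = algebraMap F' L t * ev r := by
              rw [h4, mul_assoc (algebraMap F' L t), mul_inv_cancel₀ hη0, mul_one]
      rw [mul_add, h5]
      ring
  have hs1 : v s ≤ exp (-1 : ℤ) := by
    have h1 : v s < exp (-1 : ℤ) * exp (1 : ℤ) := by
      rw [← exp_add]
      simpa using hvs
    exact (WithZero.lt_mul_exp_iff_le exp_ne_zero).mp h1
  -- induction on the value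
  have hD : ∀ m : ℕ, ∀ x : L, x ≠ 0 → (∃ C' P, v (Ψ C') = 1 ∧ Ψ C' * x = Ψ P) →
      exp (-(m : ℤ)) ≤ v x → ∃ k : ℕ, v x = v s ^ k := by
    intro m
    induction m with
    | zero =>
      rintro x hx ⟨C', P, hC', hP⟩ hle
      have hx1 : v x ≤ 1 := by
        have h1 := hΨ P
        rwa [← hP, map_mul, hC', one_mul] at h1
      exact ⟨0, by rw [pow_zero]; exact le_antisymm hx1 (by simpa using hle)⟩
    | succ m ih =>
      rintro x hx ⟨C', P, hC', hP⟩ hle
      have hx1 : v x ≤ 1 := by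
        have h1 := hΨ P
        rwa [← hP, map_mul, hC', one_mul] at h1
      rcases eq_or_lt_of_le hx1 with h1 | h1
      · exact ⟨0, by rw [pow_zero, h1]⟩
      · have hP1 : v (Ψ P) < 1 := by rw [← hP, map_mul, hC', one_mul]; exact h1
        obtain ⟨C'', P', hC'', hP'⟩ := hC P hP1
        have hx' : x / s ≠ 0 := div_ne_zero hx hs0
        have hxx' : x = s * (x / s) := by rw [mul_div_cancel₀ _ hs0]
        have hmem : Ψ (C'' * C') * (x / s) = Ψ P' := by
          have h2 : s * (Ψ (C'' * C') * (x / s)) = s * Ψ P' := by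
            rw [← hP', ← hP, map_mul]
            calc s * (Ψ C'' * Ψ C' * (x / s)) = Ψ C'' * Ψ C' * (s * (x / s)) := by ring
              _ = Ψ C'' * (Ψ C' * x) := by rw [← hxx']; ring
          exact mul_left_cancel₀ hs0 h2
        have hv' : exp (-(m : ℤ)) ≤ v (x / s) := by
          rw [map_div₀, div_eq_mul_inv]
          have h3 : exp (1 : ℤ) ≤ (v s)⁻¹ := by
            rw [le_inv_comm₀ exp_pos (zero_lt_iff.mpr hvs0), ← exp_neg]
            exact hs1
          have h4 : exp (-(m : ℤ)) = exp (-((m + 1 : ℕ) : ℤ)) * exp (1 : ℤ) := by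
            rw [← exp_add]
            congr 1
            push_cast
            ring
          rw [h4]
          exact mul_le_mul' hle h3
        obtain ⟨k, hk⟩ := ih (x / s) hx'
          ⟨C'' * C', P', by rw [map_mul, map_mul, hC'', hC', one_mul], hmem⟩ hv'
        refine ⟨k + 1, ?_⟩
        conv_lhs => rw [hxx']
        rw [map_mul, hk, pow_succ']
  -- every element of `L` is a quotient of elements of `V[u, s]`
  have hE : ∀ x : L, ∃ c : Vs, c ≠ 0 ∧ ∃ P, φ c * x = Ψ P := by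
    intro x
    have hx : x ∈ Algebra.adjoin F' {s} := by rw [hgen]; trivial
    induction hx using Algebra.adjoin_induction with
    | mem x hx =>
      rw [Set.mem_singleton_iff] at hx
      exact ⟨1, one_ne_zero, X, by rw [map_one, one_mul, hΨX, hx]⟩
    | algebraMap c =>
      by_cases hc : c ∈ Vs
      · exact ⟨1, one_ne_zero, C (C ⟨c, hc⟩), by rw [map_one, one_mul, hΨC, hevC, hφa]⟩
      · have hci : c⁻¹ ∈ Vs := (Vs.mem_or_inv_mem c).resolve_left hc
        have hc0 : c ≠ 0 := fun h => hc (h ▸ Vs.zero_mem)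
        refine ⟨⟨c⁻¹, hci⟩, ?_, 1, ?_⟩
        · intro h
          exact inv_ne_zero hc0 (congrArg Subtype.val h)
        · rw [hφa, map_one, ← map_mul, inv_mul_cancel₀ hc0, map_one]
    | add x y _ _ hx hy =>
      obtain ⟨c₁, hc₁, P₁, h₁⟩ := hx
      obtain ⟨c₂, hc₂, P₂, h₂⟩ := hy
      refine ⟨c₁ * c₂, mul_ne_zero hc₁ hc₂, C (C c₂) * P₁ + C (C c₁) * P₂, ?_⟩
      have e1 : Ψ (C (C c₂) * P₁ + C (C c₁) * P₂) = φ c₂ * Ψ P₁ + φ c₁ * Ψ P₂ := by
        rw [map_add, map_mul, map_mul, hΨC, hΨC, hevC, hevC]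
      rw [e1, ← h₁, ← h₂, map_mul φ]
      ring
    | mul x y _ _ hx hy =>
      obtain ⟨c₁, hc₁, P₁, h₁⟩ := hx
      obtain ⟨c₂, hc₂, P₂, h₂⟩ := hy
      refine ⟨c₁ * c₂, mul_ne_zero hc₁ hc₂, P₁ * P₂, ?_⟩
      rw [map_mul Ψ, ← h₁, ← h₂, map_mul φ]
      ring
  have hval : ∀ y : L, y ≠ 0 → (∃ C' P, v (Ψ C') = 1 ∧ Ψ C' * y = Ψ P) →
      ∃ k : ℕ, v y = v s ^ k := by
    intro y hy hmem
    have hvy : v y ≠ 0 := v.ne_zero_iff.mpr hy
    refine hD (Int.toNat (-(log (v y)))) y hy hmem ?_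
    rw [← WithZero.le_log_iff_exp_le hvy]
    have := Int.self_le_toNat (-(log (v y)))
    omega
  intro x hx
  obtain ⟨c, hc, P, hP⟩ := hE x
  have hφc : φ c ≠ 0 := by
    rw [hφa]
    exact (_root_.map_ne_zero _).mpr (fun h => hc (Subtype.ext h))
  have hP0 : Ψ P ≠ 0 := by rw [← hP]; exact mul_ne_zero hφc hx
  obtain ⟨k₁, hk₁⟩ := hval (Ψ P) hP0 ⟨1, P, by rw [map_one, map_one], by rw [map_one, one_mul]⟩
  obtain ⟨k₂, hk₂⟩ := hval (φ c) hφc
    ⟨1, C (C c), by rw [map_one, map_one], by rw [map_one, one_mul, hΨC, hevC]⟩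
  refine ⟨(k₁ : ℤ) - k₂, ?_⟩
  have h1 : v x = v (Ψ P) / v (φ c) := by
    rw [← hP, map_mul, mul_div_cancel_left₀ _ (v.ne_zero_iff.mpr hφc)]
  rw [h1, hk₁, hk₂, zpow_sub₀ hvs0, zpow_natCast, zpow_natCast]

/-- **Tame Abhyankar lemma, normalised valuation**: under the hypotheses of `ab18_core`, if `v`
takes the value `exp (-1)` then `s` is a uniformiser: `v s = exp (-1)`. -/
theorem ab18_core_exp (v : Valuation L ℤᵐ⁰) (s : L) (z t : F') (e d n : ℕ) (he : e = d * n)
    (he0 : 0 < e) (hz0 : z ≠ 0) (hs : s ^ e = algebraMap F' L z)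
    (ht : v (algebraMap F' L t) < 1)
    (htgen : ∀ a : F', v (algebraMap F' L a) < 1 →
      v (algebraMap F' L a) ≤ v (algebraMap F' L t))
    (hz : v (algebraMap F' L z) = v (algebraMap F' L t) ^ n)
    (hn : v (n : L) = 1)
    (hgen : Algebra.adjoin F' {s} = ⊤)
    (hϖ : ∃ ϖ : L, v ϖ = exp (-1 : ℤ)) : v s = exp (-1 : ℤ) := by
  obtain ⟨ϖ, hϖ⟩ := hϖ
  have hϖ0 : ϖ ≠ 0 := by
    intro h
    rw [h, map_zero] at hϖ
    exact exp_ne_zero hϖ.symm
  obtain ⟨k, hk⟩ := ab18_core v s z t e d n he he0 hz0 hs ht htgen hz hn hgen ϖ hϖ0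
  have hn0 : 0 < n := by
    rcases Nat.eq_zero_or_pos n with h | h
    · rw [h, mul_zero] at he; omega
    · exact h
  have hvs : v s < 1 := ab18_val_lt_one v s z t e n hn0 hs ht hz
  have hvs0 : v s ≠ 0 := by
    intro h
    rw [h, hϖ] at hk
    rcases eq_or_ne k 0 with rfl | hk0
    · rw [zpow_zero, ← exp_zero, exp_inj] at hk
      omega
    · rw [zero_zpow _ hk0] at hk
      exact exp_ne_zero hk
  obtain ⟨m, hm⟩ : ∃ m : ℤ, v s = exp m := ⟨log (v s), (exp_log hvs0).symm⟩
  rw [hm] at hk hvs ⊢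
  rw [hϖ, ← exp_zsmul, exp_inj, smul_eq_mul] at hk
  rw [← exp_zero, exp_lt_exp] at hvs
  have hu : IsUnit m := IsUnit.of_mul_eq_one (-k) (by linarith)
  rcases Int.isUnit_iff.mp hu with h | h
  · omega
  · rw [h]

/-- The generation hypothesis of `ab18_core` from the field-theoretic one. -/
theorem ab18_adjoin_eq_top (s : L) (z : F') (e : ℕ) (he0 : 0 < e)
    (hs : s ^ e = algebraMap F' L z) (hgen : IntermediateField.adjoin F' {s} = ⊤) :
    Algebra.adjoin F' {s} = ⊤ := by
  have halg : IsAlgebraic F' s := by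
    refine ⟨X ^ e - C z, ?_, ?_⟩
    · exact X_pow_sub_C_ne_zero he0 z
    · rw [map_sub, map_pow, aeval_X, aeval_C, hs, sub_self]
  rw [← IntermediateField.adjoin_simple_toSubalgebra_of_isAlgebraic halg, hgen,
    IntermediateField.top_toSubalgebra]

end Core

end Fermat.Agent.S18
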