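import Fermat.Agent.S18.AbhyankarPlace18
import Fermat.Agent.S18.SelfDual

/-!
S18 (long shot), row A3 in `hcodim` shape (helper18): **self-duality at the tame section**.

Setting of `Purity.lean` / `SelfDual.lean`: `O` a noetherian domain, `E = Frac O`, `L / E` finite
separable, `C` the integral closure of `O` in `L`.  `p : O` a prime element (in the application
`O = R[S]`, `p = S`), `F ⊆ L` a subfield over a constant field `K0 ⊆ O_(p)` with `L = F[s]`,
`s` the image of `p`, `s ^ e = z ∈ F`.  If the order of `z` at each of its zeros (places of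
`F / K0`) divides `e`, then the trace dual of `C` is contained in `C_(p)`
(`ab18_hcodim_of_tame`).  This is `sd44_hcodim_of_valuation` fed with `ab18_place_zero`.
-/

set_option autoImplicit false

open AlgebraicCurve IntermediateField

namespace Fermat.Agent.S18

open Fermat.Agent.S24

section

variable {O E L C : Type*} [CommRing O] [IsDomain O] [IsNoetherianRing O]
  [Field E] [Algebra O E] [IsFractionRing O E]
  [Field L] [Algebra E L] [Algebra O L] [IsScalarTower O E L] [FiniteDimensional E L]
  [Algebra.IsSeparable E L]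
  [CommRing C] [Algebra O C] [Algebra C L] [IsScalarTower O C L] [IsIntegralClosure C O L]

/-- **Tame Abhyankar lemma in `hcodim` shape.**  `p` a prime element of `O` of residue
characteristic zero, `K0 ⊆ O_(p)` a field, `F / K0` a subfield of `L` with `L = F[p]`,
`p ^ e = z ∈ F`, and `ord_v z ∣ e` at every zero `v` of `z` (places of `F / K0`).  Then the
trace dual of `C` is contained in `C_(p)`. -/
theorem ab18_hcodim_of_tame {K0 F : Type*} [Field K0] [Field F] [Algebra K0 F] [Algebra F L]
    [Algebra K0 L] [IsScalarTower K0 F L]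
    (p : O) (hp : Prime p) (hchar : ∀ n : ℕ, n ≠ 0 → ¬ p ∣ (n : O))
    (hK0 : ∀ a : K0, ∃ x y : O, ¬ p ∣ y ∧
      algebraMap O L y * algebraMap K0 L a = algebraMap O L x)
    (z : F) (e : ℕ) (he : 0 < e) (hz : algebraMap F L z = algebraMap O L p ^ e)
    (hgen : Algebra.adjoin F {algebraMap O L p} = ⊤)
    (htame : ∀ v : Place K0 F, 0 < v.ord z → v.ord z ∣ (e : ℤ)) :
    ∀ y : L, (∀ c : C, Algebra.trace E L (y * algebraMap C L c) ∈ (algebraMap O E).range) →
      ∃ s : O, ¬ p ∣ s ∧ algebraMap O L s * y ∈ (algebraMap C L).range := by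
  have hinj : Function.Injective (algebraMap O L) := by
    rw [IsScalarTower.algebraMap_eq O E L]
    exact (algebraMap E L).injective.comp (IsFractionRing.injective O E)
  -- characteristic zero
  have hO0 : CharZero O := by
    refine ⟨fun a b hab => ?_⟩
    by_contra hne
    rcases Nat.lt_or_gt_of_ne hne with h | h
    · apply hchar (b - a) (by omega)
      have h1 : ((b - a : ℕ) : O) = 0 := by
        rw [Nat.cast_sub h.le, hab, sub_self]
      rw [h1]
      exact dvd_zero p
    · apply hchar (a - b) (by omega)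
      have h1 : ((a - b : ℕ) : O) = 0 := by
        rw [Nat.cast_sub h.le, hab, sub_self]
      rw [h1]
      exact dvd_zero p
  have hL0 : CharZero L := charZero_of_injective_algebraMap hinj
  have hK00 : CharZero K0 := ⟨fun a b hab => by
    have h2 : algebraMap K0 L (a : K0) = algebraMap K0 L (b : K0) := by rw [hab]
    rw [map_natCast, map_natCast] at h2
    exact_mod_cast h2⟩
  have hgen' : F⟮algebraMap O L p⟯ = ⊤ := by
    rw [eq_top_iff]
    intro x _
    have hx : x ∈ Algebra.adjoin F {algebraMap O L p} := by rw [hgen]; trivial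
    exact IntermediateField.algebra_adjoin_le_adjoin F _ hx
  have hs0 : algebraMap O L p ≠ 0 := fun h => hp.ne_zero (hinj (by rw [h, map_zero]))
  refine sd44_hcodim_of_valuation (E := E) p hp hchar ?_
  intro W hW hO hunit hpW x hxW hxinv
  -- `W` is a place of `L / K0`
  have hK0W : ∀ a : K0, algebraMap K0 L a ∈ W := by
    intro a
    obtain ⟨x, y, hy, hxy⟩ := hK0 a
    have hy0 : algebraMap O L y ≠ 0 := by
      intro h
      apply hy
      have : y = 0 := hinj (by rw [h, map_zero])
      rw [this]
      exact dvd_zero p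
    have h1 : algebraMap K0 L a = algebraMap O L x * (algebraMap O L y)⁻¹ := by
      rw [← hxy, mul_comm (algebraMap O L y), mul_assoc, mul_inv_cancel₀ hy0, mul_one]
    rw [h1]
    exact W.mul_mem _ _ (hO x) (hunit y hy)
  have hWtop : W ≠ ⊤ := fun h => hpW (h ▸ ValuationSubring.mem_top _)
  obtain ⟨w, hw⟩ : ∃ w : Place K0 L, w.toValuationSubring = W := ⟨⟨W, hK0W, hWtop, hW⟩, rfl⟩
  have hpos : 0 < w.ord (algebraMap O L p) := by
    have h1 : ¬ (0 ≤ w.ord (algebraMap O L p)⁻¹) := fun h =>
      hpW (hw ▸ (wp1_mem_iff_ord_nonneg w _).mpr h)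
    rw [w.ord_inv] at h1
    omega
  have hord : w.ord (algebraMap O L p) = 1 :=
    ab18_place_zero (K := K0) (algebraMap O L p) z e he hz.symm hgen' htame w hpos
  rcases eq_or_ne x 0 with rfl | hx0
  · rw [zero_mul]
    exact W.zero_mem
  have hxpos : 0 < w.ord x := by
    have h1 : ¬ (0 ≤ w.ord x⁻¹) := fun h => hxinv (hw ▸ (wp1_mem_iff_ord_nonneg w _).mpr h)
    rw [w.ord_inv] at h1
    omega
  rw [← hw, wp1_mem_iff_ord_nonneg, w.ord_mul hx0 (inv_ne_zero hs0), w.ord_inv, hord]
  omega

end

end Fermat.Agent.S18
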