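import Fermat.Agent.S18.AbhyankarDVR
import Fermat.Agent.S24.Counting
import Fermat.Agent.S24.Places

/-!
S18 (long shot), row A3: **tame Abhyankar lemma for places** (helper18).

`K` a field of characteristic `0`, `F'/K` and `L/K` fields with `L = F'(s)`, `s ^ e = z ∈ F'`.
If every zero `v` of `z` in `F'` has `ord_v z ∣ e`, then every zero `w` of `s` in `L` has
`ord_w s = 1` (`ab18_place_zero`), i.e. `L` is unramified over the `s`-line at `s = 0`.
Likewise at the poles (`ab18_place_pole`), and for the height one primes of a Dedekind model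
(`ab18_heightOne`).

All names are prefixed `ab18_`.
-/

set_option autoImplicit false

open AlgebraicCurve WithZero IntermediateField

namespace Fermat.Agent.S18

open Fermat.Agent.S24

section Place

variable {K F' L : Type*} [Field K] [Field F'] [Field L] [Algebra K F'] [Algebra K L]
  [Algebra F' L] [IsScalarTower K F' L]

/-- A place as an order function. -/
noncomputable def ab18_ordFn (w : Place K L) : OrdFn K L where
  ord := w.ord
  ord_mul _ _ hf hg := w.ord_mul hf hg
  ord_add f g hf hg hfg := wp1_ord_add w f g hfg hf hg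
  ord_const c _ := wp1_ord_algebraMap w c

/-- The adic valuation in terms of the order. -/
theorem ab18_adicValuation_eq (w : Place K L) {f : L} (hf : f ≠ 0) :
    w.adicValuation f = exp (-w.ord f) := by
  unfold Place.ord
  rw [neg_neg, exp_log (w.adicValuation_ne_zero hf)]

/-- **Restriction of a place** to a subfield on which it is nontrivial: the order on `L`
restricts to a positive multiple `m` (the ramification index) of the order of a place of `F'`. -/
theorem ab18_exists_restrict (w : Place K L)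
    (h : ∃ y₀ : F', y₀ ≠ 0 ∧ 0 < w.ord (algebraMap F' L y₀)) :
    ∃ (v : Place K F') (m : ℤ), 0 < m ∧
      ∀ f : F', f ≠ 0 → w.ord (algebraMap F' L f) = m * v.ord f := by
  have h' : ∃ y₀ : F', y₀ ≠ 0 ∧
      0 < (wp3_comap (ab18_ordFn w) (IsScalarTower.toAlgHom K F' L)).ord y₀ := h
  obtain ⟨m, ϖ, hm, -, -, hmul⟩ :=
    wp3_ord_eq_mul (wp3_comap (ab18_ordFn w) (IsScalarTower.toAlgHom K F' L)) h'
  exact ⟨_, m, hm, hmul⟩

/-- **Tame Abhyankar lemma for places, at the zeros.**  `L = F'(s)`, `s ^ e = z`; if the order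
of `z` at each of its zeros in `F'` divides `e`, then `s` has order `1` at each of its zeros in
`L`. -/
theorem ab18_place_zero [CharZero K] (s : L) (z : F') (e : ℕ) (he0 : 0 < e)
    (hs : s ^ e = algebraMap F' L z) (hgen : F'⟮s⟯ = ⊤)
    (hram : ∀ v : Place K F', 0 < v.ord z → v.ord z ∣ (e : ℤ))
    (w : Place K L) (hw : 0 < w.ord s) : w.ord s = 1 := by
  have hs0 : s ≠ 0 := by
    rintro rfl
    simp at hw
  have hz0' : algebraMap F' L z ≠ 0 := by rw [← hs]; exact pow_ne_zero _ hs0
  have hz0 : z ≠ 0 := fun h => hz0' (by rw [h, map_zero])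
  have hordz : w.ord (algebraMap F' L z) = e * w.ord s := by
    rw [← hs, ← zpow_natCast, w.ord_zpow]
  have hzpos : 0 < w.ord (algebraMap F' L z) := by
    rw [hordz]
    exact mul_pos (by exact_mod_cast he0) hw
  obtain ⟨v₀, m, hm, hmul⟩ := ab18_exists_restrict (F' := F') w ⟨z, hz0, hzpos⟩
  -- a uniformiser of `v₀`
  obtain ⟨ϖ, hϖ⟩ := IsDiscreteValuationRing.exists_irreducible v₀.toValuationSubring
  have ht0 : (ϖ : F') ≠ 0 := fun h => hϖ.ne_zero (Subtype.ext h)
  have hat0 : algebraMap F' L (ϖ : F') ≠ 0 := (map_ne_zero _).mpr ht0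
  have hordt : w.ord (algebraMap F' L (ϖ : F')) = m := by
    rw [hmul _ ht0, v₀.ord_coe_irreducible hϖ, mul_one]
  -- the order of `z`
  have hv₀z : 0 < v₀.ord z := by
    have h1 := hmul z hz0
    rw [h1] at hzpos
    rcases lt_trichotomy 0 (v₀.ord z) with h2 | h2 | h2
    · exact h2
    · rw [← h2, mul_zero] at hzpos; exact absurd hzpos (lt_irrefl _)
    · exact absurd hzpos (not_lt.mpr (mul_nonpos_of_nonneg_of_nonpos hm.le h2.le))
  obtain ⟨n, hn⟩ : ∃ n : ℕ, (n : ℤ) = v₀.ord z := ⟨(v₀.ord z).toNat, Int.toNat_of_nonneg hv₀z.le⟩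
  have hn0 : 0 < n := by exact_mod_cast hn ▸ hv₀z
  have hdvd : n ∣ e := by
    have h1 := hram v₀ hv₀z
    rw [← hn] at h1
    exact_mod_cast h1
  obtain ⟨d, hd⟩ := hdvd
  have he : e = d * n := by rw [hd, mul_comm]
  -- a uniformiser of `w`
  obtain ⟨ϖw, hϖw⟩ := IsDiscreteValuationRing.exists_irreducible w.toValuationSubring
  have hres := ab18_core_exp (F' := F') w.adicValuation s z (ϖ : F') e d n he he0 hz0 hs
    ?ht ?htgen ?hz ?hn (ab18_adjoin_eq_top s z e he0 hs hgen)
    ⟨(ϖw : L), w.adicValuation_coe_irreducible hϖw⟩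
  case ht =>
    rw [← wp1b_ord_pos_iff w hat0, hordt]
    exact hm
  case htgen =>
    intro a ha
    rcases eq_or_ne a 0 with rfl | ha0
    · rw [map_zero, map_zero]
      exact zero_le
    have haL : algebraMap F' L a ≠ 0 := (map_ne_zero _).mpr ha0
    rw [← wp1b_ord_le_ord_iff w hat0 haL, hordt, hmul a ha0]
    have h1 : 0 < w.ord (algebraMap F' L a) := (wp1b_ord_pos_iff w haL).mpr ha
    rw [hmul a ha0] at h1
    have h2 : 0 < v₀.ord a := by
      rcases lt_trichotomy 0 (v₀.ord a) with h2 | h2 | h2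
      · exact h2
      · rw [← h2, mul_zero] at h1; exact absurd h1 (lt_irrefl _)
      · exact absurd h1 (not_lt.mpr (mul_nonpos_of_nonneg_of_nonpos hm.le h2.le))
    nlinarith
  case hz =>
    rw [ab18_adicValuation_eq w hz0', ab18_adicValuation_eq w hat0, hordt, hmul z hz0, ← hn,
      ← exp_nsmul, exp_inj, nsmul_eq_mul]
    ring
  case hn =>
    have h1 : ((n : ℕ) : L) = algebraMap K L (n : K) := by rw [map_natCast]
    have h2 : ((n : ℕ) : L) ≠ 0 := by
      rw [h1]
      exact (map_ne_zero _).mpr (by exact_mod_cast hn0.ne')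
    rw [ab18_adicValuation_eq w h2, h1, wp1_ord_algebraMap, neg_zero, exp_zero]
  rw [ab18_adicValuation_eq w hs0, exp_inj] at hres
  omega

/-- **Tame Abhyankar lemma for places, at the poles.**  `L = F'(s)`, `s ^ e = z`; if the order
of `z` at each of its poles in `F'` divides `e`, then `s` has order `-1` at each of its poles in
`L`. -/
theorem ab18_place_pole [CharZero K] (s : L) (z : F') (e : ℕ) (he0 : 0 < e)
    (hs : s ^ e = algebraMap F' L z) (hgen : F'⟮s⟯ = ⊤)
    (hram : ∀ v : Place K F', v.ord z < 0 → v.ord z ∣ (e : ℤ))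
    (w : Place K L) (hw : w.ord s < 0) : w.ord s = -1 := by
  have hgen' : F'⟮s⁻¹⟯ = ⊤ := by
    rw [eq_top_iff, ← hgen, IntermediateField.adjoin_simple_le_iff]
    have h1 : (s⁻¹)⁻¹ ∈ F'⟮s⁻¹⟯ := inv_mem (IntermediateField.mem_adjoin_simple_self F' s⁻¹)
    rwa [inv_inv] at h1
  have h := ab18_place_zero (K := K) s⁻¹ z⁻¹ e he0 (by rw [inv_pow, hs, map_inv₀]) hgen'
    (fun v hv => by
      rw [v.ord_inv] at hv ⊢
      exact (neg_dvd).mpr (hram v (by omega)))
    w (by rw [w.ord_inv]; omega)
  rw [w.ord_inv] at h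
  omega

end Place

section HeightOne

open IsDedekindDomain

variable {K F' L : Type*} [Field K] [Field F'] [Field L] [Algebra K F'] [Algebra K L]
  [Algebra F' L] [IsScalarTower K F' L]
variable {B : Type*} [CommRing B] [IsDedekindDomain B] [Algebra B L] [IsFractionRing B L]
  [Algebra K B] [IsScalarTower K B L]

/-- **Tame Abhyankar lemma, Dedekind form.**  `B` a Dedekind domain containing `K` with fraction
field `L = F'(s)`, `s ^ e = z`; if the order of `z` at each of its zeros in `F'` divides `e`,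
then every height one prime `Q` of `B` at which `s` vanishes is unramified over the `s`-line:
`Q.valuation L s = exp (-1)`. -/
theorem ab18_heightOne [CharZero K] (s : L) (hs0 : s ≠ 0) (z : F') (e : ℕ) (he0 : 0 < e)
    (hs : s ^ e = algebraMap F' L z) (hgen : F'⟮s⟯ = ⊤)
    (hram : ∀ v : Place K F', 0 < v.ord z → v.ord z ∣ (e : ℤ))
    (Q : HeightOneSpectrum B) (hQ : Q.valuation L s < 1) :
    Q.valuation L s = exp (-1 : ℤ) := by
  have hne : Q.valuation L s ≠ 0 := (Valuation.ne_zero_iff _).mpr hs0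
  have hpos : 0 < (Place.ofHeightOneSpectrum (K := K) Q).ord s := by
    rw [wp1a_ord_ofHeightOneSpectrum, neg_pos, WithZero.log_lt_iff_lt_exp hne, exp_zero]
    exact hQ
  have h := ab18_place_zero (K := K) s z e he0 hs hgen hram (Place.ofHeightOneSpectrum (K := K) Q)
    hpos
  rw [wp1a_ord_ofHeightOneSpectrum] at h
  rw [← exp_log hne]
  congr 1
  omega

end HeightOne

end Fermat.Agent.S18
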