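/-
S18 glue G1 (helper21): the base discrete valuation ring.

For a valuation subring `A` of a field `L` (in the application `L = ℚ̄`) whose maximal ideal
contains a nonzero natural number `ℓ`, and a number field `K` with `Algebra K L`, the trace
`R = A.comap (algebraMap K L)` of `A` on `K` is a discrete valuation ring; `ℓ` lies in its maximal
ideal, integers prime to `ℓ` are units, and the residue field of `R` maps to the residue field of
`A` compatibly with the residue maps.
-/
import Mathlib

set_option autoImplicit false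

open IsDedekindDomain IsLocalRing

namespace Fermat.Agent.S18

section BaseDVR

variable {K L : Type*} [Field K] [Field L] [Algebra K L]

/-- Integral elements (over `ℤ`) of `L` lie in every valuation subring. -/
theorem bd21_mem_of_isIntegral (A : ValuationSubring L) {x : L} (hx : IsIntegral ℤ x) : x ∈ A := by
  have h1 : IsIntegral A x := hx.tower_top
  obtain ⟨y, hy⟩ := (IsIntegrallyClosed.isIntegral_iff (R := A) (K := L)).mp h1
  rw [← hy]
  exact y.2

/-- Nonunits of the trace of `A` on `K`. -/
theorem bd21_mem_nonunits_comap (A : ValuationSubring L) (y : K) :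
    y ∈ (A.comap (algebraMap K L)).nonunits ↔ algebraMap K L y ∈ A.nonunits := by
  rw [ValuationSubring.mem_nonunits_iff_or, ValuationSubring.mem_nonunits_iff_or,
    ValuationSubring.mem_comap, map_inv₀, map_eq_zero]

/-- The inclusion of the trace of `A` on `K` into `A`. -/
noncomputable def bd21_toA (A : ValuationSubring L) : ↥(A.comap (algebraMap K L)) →+* ↥A :=
  (algebraMap K L).restrict (A.comap (algebraMap K L)) A (fun _ hx => hx)

@[simp] theorem bd21_toA_coe (A : ValuationSubring L) (x : ↥(A.comap (algebraMap K L))) :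
    ((bd21_toA A x : ↥A) : L) = algebraMap K L (x : K) := rfl

instance bd21_isLocalHom_toA (A : ValuationSubring L) : IsLocalHom (bd21_toA (K := K) A) := by
  refine ⟨fun x hx => ?_⟩
  by_contra hx'
  have h1 : x ∈ maximalIdeal ↥(A.comap (algebraMap K L)) := (mem_maximalIdeal x).mpr hx'
  rw [← ValuationSubring.coe_mem_nonunits_iff, bd21_mem_nonunits_comap] at h1
  have h2 : ((bd21_toA A x : ↥A) : L) ∈ A.nonunits := h1
  rw [ValuationSubring.coe_mem_nonunits_iff] at h2
  exact (mem_maximalIdeal _).mp h2 hx

/-- The induced map of residue fields. -/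
noncomputable def bd21_resMap (A : ValuationSubring L) :
    ResidueField ↥(A.comap (algebraMap K L)) →+* ResidueField ↥A :=
  ResidueField.map (bd21_toA A)

theorem bd21_resMap_residue (A : ValuationSubring L) (x : ↥(A.comap (algebraMap K L))) :
    bd21_resMap A (residue _ x) = residue _ (bd21_toA A x) := rfl

theorem bd21_resMap_comp (A : ValuationSubring L) :
    (bd21_resMap (K := K) A).comp (residue ↥(A.comap (algebraMap K L))) =
      (residue ↥A).comp (bd21_toA A) := rfl

theorem bd21_resMap_injective (A : ValuationSubring L) :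
    Function.Injective (bd21_resMap (K := K) A) :=
  (bd21_resMap A).injective

/-- If two natural numbers are coprime and one lies in the maximal ideal of the trace of `A`,
the other is a unit there. -/
theorem bd21_isUnit_natCast (A : ValuationSubring L) {ℓ m : ℕ} (hA : (ℓ : L) ∈ A.nonunits)
    (hm : Nat.Coprime ℓ m) : IsUnit ((m : ℕ) : ↥(A.comap (algebraMap K L))) := by
  by_contra hu
  have h1 : ((m : ℕ) : ↥(A.comap (algebraMap K L))) ∈ maximalIdeal _ := (mem_maximalIdeal _).mpr hu
  have h2 : ((ℓ : ℕ) : ↥(A.comap (algebraMap K L))) ∈ maximalIdeal _ := by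
    rw [← ValuationSubring.coe_mem_nonunits_iff, bd21_mem_nonunits_comap]
    simpa using hA
  have h3 : ((Nat.gcdA ℓ m : ℤ) : ↥(A.comap (algebraMap K L))) * (ℓ : ℕ) +
      ((Nat.gcdB ℓ m : ℤ) : ↥(A.comap (algebraMap K L))) * (m : ℕ) = 1 := by
    have h := Nat.gcd_eq_gcd_ab ℓ m
    rw [hm] at h
    have h' : (1 : ℤ) = (ℓ : ℤ) * Nat.gcdA ℓ m + (m : ℤ) * Nat.gcdB ℓ m := by exact_mod_cast h
    have h'' := congrArg (fun z : ℤ => (z : ↥(A.comap (algebraMap K L)))) h'
    simp only [Int.cast_one, Int.cast_add, Int.cast_mul, Int.cast_natCast] at h''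
    rw [h'']; ring
  have h4 : (1 : ↥(A.comap (algebraMap K L))) ∈ maximalIdeal _ := by
    rw [← h3]
    exact Ideal.add_mem _ (Ideal.mul_mem_left _ _ h2) (Ideal.mul_mem_left _ _ h1)
  exact (Ideal.ne_top_iff_one _).mp (maximalIdeal.isMaximal _).ne_top h4

/-- The ring of integers of `K` maps into the trace of `A` on `K`. -/
noncomputable def bd21_incl (A : ValuationSubring L) :
    NumberField.RingOfIntegers K →+* ↥(A.comap (algebraMap K L)) :=
  (algebraMap (NumberField.RingOfIntegers K) K).codRestrict (A.comap (algebraMap K L))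
    (fun a => bd21_mem_of_isIntegral A
      ((NumberField.RingOfIntegers.isIntegral_coe a).algebraMap))

@[simp] theorem bd21_incl_coe (A : ValuationSubring L) (a : NumberField.RingOfIntegers K) :
    ((bd21_incl A a : ↥(A.comap (algebraMap K L))) : K) = (a : K) := rfl

/-- `ℓ` lies in the maximal ideal of the base DVR. -/
theorem bd21_natCast_mem (A : ValuationSubring L) {ℓ : ℕ} (hA : (ℓ : L) ∈ A.nonunits) :
    ((ℓ : ℕ) : ↥(A.comap (algebraMap K L))) ∈ maximalIdeal ↥(A.comap (algebraMap K L)) := by
  rw [← ValuationSubring.coe_mem_nonunits_iff, bd21_mem_nonunits_comap]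
  simpa using hA

variable [NumberField K]

/-- The height-one prime of `𝓞 K` cut out by `A`. -/
noncomputable def bd21_prime (A : ValuationSubring L) {ℓ : ℕ} (hℓ : ℓ ≠ 0)
    (hA : (ℓ : L) ∈ A.nonunits) : HeightOneSpectrum (NumberField.RingOfIntegers K) where
  asIdeal := (maximalIdeal ↥(A.comap (algebraMap K L))).comap (bd21_incl A)
  isPrime := Ideal.comap_isPrime _ _
  ne_bot := by
    intro h
    have hmem : ((ℓ : ℕ) : NumberField.RingOfIntegers K) ∈
        (maximalIdeal ↥(A.comap (algebraMap K L))).comap (bd21_incl A) := by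
      rw [Ideal.mem_comap, ← ValuationSubring.coe_mem_nonunits_iff, bd21_mem_nonunits_comap]
      simpa using hA
    rw [h, Ideal.mem_bot] at hmem
    exact hℓ (by exact_mod_cast hmem)

theorem bd21_mem_prime_iff (A : ValuationSubring L) {ℓ : ℕ} (hℓ : ℓ ≠ 0)
    (hA : (ℓ : L) ∈ A.nonunits) (a : NumberField.RingOfIntegers K) :
    a ∈ (bd21_prime (K := K) A hℓ hA).asIdeal ↔ algebraMap K L (a : K) ∈ A.nonunits := by
  show a ∈ (maximalIdeal ↥(A.comap (algebraMap K L))).comap (bd21_incl A) ↔ _
  rw [Ideal.mem_comap, ← ValuationSubring.coe_mem_nonunits_iff, bd21_mem_nonunits_comap]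
  rfl

/-- The trace of `A` on the number field `K` is the valuation ring of a prime of `𝓞 K`. -/
theorem bd21_eq_valuationSubring (A : ValuationSubring L) {ℓ : ℕ} (hℓ : ℓ ≠ 0)
    (hA : (ℓ : L) ∈ A.nonunits) :
    A.comap (algebraMap K L) = ((bd21_prime (K := K) A hℓ hA).valuation K).valuationSubring := by
  symm
  apply ValuationSubring.eq_of_le_of_ne_top
  · intro x hx
    rw [Valuation.mem_valuationSubring_iff] at hx
    obtain ⟨n, d, hnd⟩ := (bd21_prime (K := K) A hℓ hA).exists_primeCompl_mul_eq_of_integer x hx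
    have hd : (d : NumberField.RingOfIntegers K) ∉ (bd21_prime (K := K) A hℓ hA).asIdeal := d.2
    rw [bd21_mem_prime_iff, ValuationSubring.mem_nonunits_iff_or, not_or, not_not] at hd
    have hd0 : algebraMap K L ((d : NumberField.RingOfIntegers K) : K) ≠ 0 := hd.1
    have hd0' : (((d : NumberField.RingOfIntegers K)) : K) ≠ 0 := fun h => hd0 (by rw [h, map_zero])
    have hx' : x = (n : K) * (((d : NumberField.RingOfIntegers K)) : K)⁻¹ := by
      rw [eq_mul_inv_iff_mul_eq₀ hd0']
      exact hnd
    rw [hx', ValuationSubring.mem_comap, map_mul, map_inv₀]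
    exact A.mul_mem _ _ (bd21_incl A n).2 hd.2
  · intro htop
    have h1 : ((ℓ : K))⁻¹ ∈ A.comap (algebraMap K L) := by rw [htop]; trivial
    rw [ValuationSubring.mem_comap, map_inv₀, map_natCast] at h1
    rw [ValuationSubring.mem_nonunits_iff_or] at hA
    rcases hA with h0 | h0
    · have h2 : algebraMap K L (ℓ : K) = 0 := by rw [map_natCast]; exact h0
      have h3 : (ℓ : K) = 0 := (map_eq_zero _).mp h2
      exact hℓ (by exact_mod_cast h3)
    · exact h0 h1

/-- **Base DVR.** The trace on a number field `K` of a valuation subring `A` of `L` whose maximal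
ideal contains a nonzero natural number is a discrete valuation ring. -/
theorem bd21_isDVR (A : ValuationSubring L) {ℓ : ℕ} (hℓ : ℓ ≠ 0) (hA : (ℓ : L) ∈ A.nonunits) :
    IsDiscreteValuationRing ↥(A.comap (algebraMap K L)) := by
  rw [bd21_eq_valuationSubring (K := K) A hℓ hA]
  infer_instance

end BaseDVR

section Qbar

/-- An intermediate field of `ℚ̄ / ℚ` that is finite over `ℚ` is a number field. -/
theorem bd21_numberField {L : Type*} [Field L] [CharZero L] [Algebra ℚ L]
    (K0 : IntermediateField ℚ L) [h : FiniteDimensional ℚ K0] : NumberField K0 := by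
  refine { to_charZero := inferInstance, to_finiteDimensional := ?_ }
  convert h
  exact Subsingleton.elim _ _

/-- Finitely many algebraic numbers lie in a common number field. -/
theorem bd21_exists_numberField {L : Type*} [Field L] [Algebra ℚ L] [Algebra.IsAlgebraic ℚ L]
    (s : Finset L) :
    ∃ K0 : IntermediateField ℚ L, FiniteDimensional ℚ K0 ∧ ∀ x ∈ s, x ∈ K0 := by
  refine ⟨IntermediateField.adjoin ℚ (s : Set L), ?_, fun x hx => ?_⟩
  · exact IntermediateField.finiteDimensional_adjoin
      (fun x _ => (Algebra.IsAlgebraic.isAlgebraic x).isIntegral)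
  · exact IntermediateField.subset_adjoin ℚ _ (Finset.mem_coe.mpr hx)

/-- **Base DVR inside `ℚ̄`**: for a valuation subring `A` of `ℚ̄` over the prime `ℓ` and a number
field `K0 ⊆ ℚ̄`, the ring `A ∩ K0` is a discrete valuation ring. -/
theorem bd21_isDVR_Qbar (A : ValuationSubring (AlgebraicClosure ℚ)) {ℓ : ℕ} (hℓ : ℓ ≠ 0)
    (hA : (ℓ : AlgebraicClosure ℚ) ∈ A.nonunits)
    (K0 : IntermediateField ℚ (AlgebraicClosure ℚ)) [FiniteDimensional ℚ K0] :
    IsDiscreteValuationRing ↥(A.comap (algebraMap ↥K0 (AlgebraicClosure ℚ))) :=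
  haveI := bd21_numberField K0
  bd21_isDVR A hℓ hA

end Qbar

end Fermat.Agent.S18
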