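import Mathlib
import Fermat.Agent.S28.RedCore
import Fermat.Agent.S18.VertTransfer95

/-!
# S18, row B5-pack (helper85): chart algebras

Generic part of the package consumed by `lp7_star_core` (the two-chart `(**)` core).
For a commutative ring `R`, a field `F` over `R` and `x : F`, the *chart* `pk85_chart R x` is the
integral closure of `R[x]` in `F`, as an `R`-subalgebra of `F`.  This file proves the structural
facts about charts that do not depend on the modular setting.

All names are prefixed `pk85_`.
-/

set_option autoImplicit false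
set_option linter.unusedSectionVars false
set_option linter.style.haveILetI false

open Polynomial

namespace Fermat.Agent.S18

section pk85_basic

variable (R : Type*) [CommRing R] {F : Type*} [Field F] [Algebra R F]

/-- The integral closure of `R[x]` in `F`, as an `R`-subalgebra of `F`. -/
def pk85_chart (x : F) : Subalgebra R F :=
  (integralClosure (Algebra.adjoin R ({x} : Set F)) F).restrictScalars R

theorem pk85_mem_chart (x y : F) :
    y ∈ pk85_chart R x ↔ IsIntegral (Algebra.adjoin R ({x} : Set F)) y := Iff.rfl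

theorem pk85_adjoin_le_chart (x : F) : Algebra.adjoin R ({x} : Set F) ≤ pk85_chart R x := by
  intro y hy
  exact (pk85_mem_chart R x y).mpr
    (isIntegral_algebraMap (x := (⟨y, hy⟩ : Algebra.adjoin R ({x} : Set F))))

theorem pk85_self_mem (x : F) : x ∈ pk85_chart R x :=
  pk85_adjoin_le_chart R x (Algebra.self_mem_adjoin_singleton R x)

/-- Charts are root closed. -/
theorem pk85_root (x : F) (m : ℕ) (hm : 0 < m) (y : F) (hy : y ^ m ∈ pk85_chart R x) :
    y ∈ pk85_chart R x :=
  IsIntegral.of_pow hm hy

/-- If `x` is integral over `R[x']` then the chart of `x` is contained in the chart of `x'`. -/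
theorem pk85_chart_le {x x' : F} (hx : x ∈ pk85_chart R x') : pk85_chart R x ≤ pk85_chart R x' := by
  intro y hy
  have hle : Algebra.adjoin R ({x} : Set F) ≤ pk85_chart R x' :=
    Algebra.adjoin_le (by
      intro z hz
      rw [Set.mem_singleton_iff] at hz
      subst hz
      exact hx)
  have h2 : ∀ o : Algebra.adjoin R ({x} : Set F),
      IsIntegral (Algebra.adjoin R ({x'} : Set F))
        (algebraMap (Algebra.adjoin R ({x} : Set F)) F o) := fun o => hle o.2
  exact vt95_isIntegral_base h2 y hy

/-- If `h ^ k * j ∈ R[h]` for some `k`, then every element of the chart of `j` lands in the chart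
of `h` after multiplication by a power of `h`. -/
theorem pk85_loc (h j : F) (hj : ∃ k : ℕ, h ^ k * j ∈ Algebra.adjoin R ({h} : Set F)) (y : F)
    (hy : y ∈ pk85_chart R j) : ∃ k : ℕ, h ^ k * y ∈ pk85_chart R h := by
  have hh : h ∈ Algebra.adjoin R ({h} : Set F) := Algebra.self_mem_adjoin_singleton R h
  have key : ∀ a ∈ Algebra.adjoin R ({j} : Set F),
      ∃ k : ℕ, a * h ^ k ∈ Algebra.adjoin R ({h} : Set F) := by
    intro a ha
    induction ha using Algebra.adjoin_induction with
    | mem x hx =>
      rw [Set.mem_singleton_iff] at hx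
      subst hx
      obtain ⟨k, hk⟩ := hj
      exact ⟨k, by rw [mul_comm]; exact hk⟩
    | algebraMap r => exact ⟨0, by rw [pow_zero, mul_one]; exact Subalgebra.algebraMap_mem _ r⟩
    | add x y _ _ ihx ihy =>
      obtain ⟨k, hk⟩ := ihx
      obtain ⟨l, hl⟩ := ihy
      refine ⟨k + l, ?_⟩
      have : (x + y) * h ^ (k + l) = x * h ^ k * h ^ l + y * h ^ l * h ^ k := by
        rw [pow_add]; ring
      rw [this]
      exact add_mem (mul_mem hk (pow_mem hh l)) (mul_mem hl (pow_mem hh k))
    | mul x y _ _ ihx ihy =>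
      obtain ⟨k, hk⟩ := ihx
      obtain ⟨l, hl⟩ := ihy
      refine ⟨k + l, ?_⟩
      have : x * y * h ^ (k + l) = x * h ^ k * (y * h ^ l) := by
        rw [pow_add]; ring
      rw [this]
      exact mul_mem hk hl
  have h1 : ∀ a : Algebra.adjoin R ({j} : Set F),
      ∃ (k : ℕ) (o : Algebra.adjoin R ({h} : Set F)),
        algebraMap (Algebra.adjoin R ({j} : Set F)) F a *
          algebraMap (Algebra.adjoin R ({h} : Set F)) F
            (⟨h, hh⟩ : Algebra.adjoin R ({h} : Set F)) ^ k =
        algebraMap (Algebra.adjoin R ({h} : Set F)) F o := by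
    intro a
    obtain ⟨k, hk⟩ := key a.1 a.2
    exact ⟨k, ⟨_, hk⟩, rfl⟩
  exact vt95_isIntegral_pow_mul (⟨h, hh⟩ : Algebra.adjoin R ({h} : Set F)) h1 y hy

/-- Integrality over `R[x]` in terms of any ring hom `R[X] → F` extending `R → F`. -/
theorem pk85_mem_chart_iff_ringHom (φ : R[X] →+* F) (hC : ∀ r : R, φ (C r) = algebraMap R F r)
    (y : F) : y ∈ pk85_chart R (φ X) ↔ φ.IsIntegralElem y := by
  have hφ : ∀ p : R[X], φ p = aeval (φ X) p := by
    intro p
    have : φ = (aeval (φ X) : R[X] →ₐ[R] F).toRingHom :=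
      Polynomial.ringHom_ext (fun r => by simp [hC]) (by simp)
    exact congrFun (congrArg DFunLike.coe this) p
  have hmem : ∀ p : R[X], φ p ∈ Algebra.adjoin R ({φ X} : Set F) := by
    intro p
    rw [Algebra.adjoin_singleton_eq_range_aeval]
    exact ⟨p, (hφ p).symm⟩
  let θ : R[X] →+* Algebra.adjoin R ({φ X} : Set F) :=
    φ.codRestrict (Algebra.adjoin R ({φ X} : Set F)) hmem
  have hθ : Function.Surjective θ := by
    rintro ⟨a, ha⟩
    have ha' := ha
    rw [Algebra.adjoin_singleton_eq_range_aeval] at ha'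
    obtain ⟨p, hp⟩ := ha'
    refine ⟨p, Subtype.ext ?_⟩
    show φ p = a
    rw [hφ]
    exact hp
  have hcomp : (algebraMap (Algebra.adjoin R ({φ X} : Set F)) F).comp θ = φ := RingHom.ext fun _ => rfl
  rw [pk85_mem_chart]
  constructor
  · rintro ⟨p, hp, hpe⟩
    have hlift : p ∈ Polynomial.lifts θ := by
      rw [lifts_iff_coeff_lifts]
      intro n
      exact hθ _
    obtain ⟨P, hPmap, -, hPmonic⟩ := lifts_and_degree_eq_and_monic hlift hp
    refine ⟨P, hPmonic, ?_⟩
    rw [← hPmap, eval₂_map, hcomp] at hpe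
    exact hpe
  · rintro ⟨P, hP, hPe⟩
    refine ⟨P.map θ, hP.map θ, ?_⟩
    rw [eval₂_map, hcomp]
    exact hPe

end pk85_basic

section pk85_alg

variable (R : Type*) [CommRing R] {F : Type*} [Field F] [Algebra R F] [Algebra R[X] F]

/-- Integrality over `R[X]` (acting on `F` through any algebra structure extending `R → F`) is
membership in the chart of the image of `X`. -/
theorem pk85_mem_chart_iff_isIntegral
    (hC : ∀ r : R, algebraMap R[X] F (C r) = algebraMap R F r) (y : F) :
    y ∈ pk85_chart R (algebraMap R[X] F X) ↔ IsIntegral R[X] y :=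
  pk85_mem_chart_iff_ringHom R (algebraMap R[X] F) hC y

/-- The `R[X]`-algebra structure of the chart of the image of `X`. -/
@[reducible] noncomputable def pk85_chartAlgebra (hC : ∀ r : R, algebraMap R[X] F (C r) = algebraMap R F r) :
    Algebra R[X] ↥(pk85_chart R (algebraMap R[X] F X)) :=
  ((algebraMap R[X] F).codRestrict (pk85_chart R (algebraMap R[X] F X))
    (fun _ => (pk85_mem_chart_iff_isIntegral R hC _).mpr isIntegral_algebraMap)).toAlgebra

theorem pk85_chartAlgebra_coe (hC : ∀ r : R, algebraMap R[X] F (C r) = algebraMap R F r)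
    (p : R[X]) :
    ((@algebraMap R[X] ↥(pk85_chart R (algebraMap R[X] F X)) _ _ (pk85_chartAlgebra R hC) p :
      ↥(pk85_chart R (algebraMap R[X] F X))) : F) = algebraMap R[X] F p := rfl

theorem pk85_chartAlgebra_C (hC : ∀ r : R, algebraMap R[X] F (C r) = algebraMap R F r) (r : R) :
    @algebraMap R[X] ↥(pk85_chart R (algebraMap R[X] F X)) _ _ (pk85_chartAlgebra R hC) (C r) =
      algebraMap R ↥(pk85_chart R (algebraMap R[X] F X)) r :=
  Subtype.ext (hC r)

theorem pk85_chart_isScalarTower (hC : ∀ r : R, algebraMap R[X] F (C r) = algebraMap R F r) :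
    letI := pk85_chartAlgebra R hC
    IsScalarTower R[X] ↥(pk85_chart R (algebraMap R[X] F X)) F := by
  letI := pk85_chartAlgebra R hC
  exact IsScalarTower.of_algebraMap_eq (fun _ => rfl)

theorem pk85_chart_isIntegralClosure (hC : ∀ r : R, algebraMap R[X] F (C r) = algebraMap R F r) :
    letI := pk85_chartAlgebra R hC
    IsIntegralClosure ↥(pk85_chart R (algebraMap R[X] F X)) R[X] F := by
  letI := pk85_chartAlgebra R hC
  refine ⟨Subtype.val_injective, fun {y} => ⟨fun hy => ?_, ?_⟩⟩
  · exact ⟨⟨y, (pk85_mem_chart_iff_isIntegral R hC y).mpr hy⟩, rfl⟩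
  · rintro ⟨z, rfl⟩
    exact (pk85_mem_chart_iff_isIntegral R hC _).mp z.2

end pk85_alg

section pk85_sat

variable {R : Type*} [CommRing R] [IsDomain R] {F : Type*} [Field F] [Algebra R F]

/-- **SAT core.**  If `π y` and `h ^ k y` are integral over `R[h]` (`h` transcendental, `R[X]`
integrally closed, `π` prime in `R`), then so is `y`. -/
theorem pk85_mem_of_mul_mem [IsIntegrallyClosed R[X]] (h : F) (hh : Transcendental R h) {π : R}
    (hπ : Prime π) (y : F) (k : ℕ) (h1 : algebraMap R F π * y ∈ pk85_chart R h)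
    (h2 : h ^ k * y ∈ pk85_chart R h) : y ∈ pk85_chart R h := by
  letI : Algebra R[X] F := (aeval h : R[X] →ₐ[R] F).toRingHom.toAlgebra
  have hC : ∀ r : R, algebraMap R[X] F (C r) = algebraMap R F r := fun r => aeval_C h r
  have hX : algebraMap R[X] F X = h := aeval_X h
  haveI : FaithfulSMul R[X] F :=
    (faithfulSMul_iff_algebraMap_injective _ _).mpr (transcendental_iff_injective.mp hh)
  have key := pk85_mem_chart_iff_isIntegral R hC
  rw [hX] at key
  rw [key] at h1 h2 ⊢
  have hnd : ¬ (C π : R[X]) ∣ X ^ k := by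
    intro hd
    rw [Polynomial.C_dvd_iff_dvd_coeff] at hd
    have := hd k
    rw [coeff_X_pow, if_pos rfl] at this
    exact hπ.not_isUnit (isUnit_of_dvd_one this)
  refine Fermat.Agent.S28.partD_isIntegral_of_smul (ℓ := C π) (s := X ^ k)
    (Polynomial.prime_C_iff.mpr hπ) hnd ?_ ?_
  · rw [Algebra.smul_def, hC]; exact h1
  · rw [Algebra.smul_def, map_pow, hX]; exact h2

/-- `π` is a prime element of a saturated subalgebra of a valuation ring with `m_V = π V`. -/
theorem pk85_prime_of_sat (B : Subalgebra R F) (V : ValuationSubring F) (π : R)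
    (hπ0 : algebraMap R F π ≠ 0) (hπV : (algebraMap R F π)⁻¹ ∉ V)
    (hmax : ∀ x ∈ V, x⁻¹ ∉ V → (algebraMap R F π)⁻¹ * x ∈ V)
    (hBV : ∀ x ∈ B, x ∈ V)
    (hsat : ∀ x ∈ B, (algebraMap R F π)⁻¹ * x ∈ V → (algebraMap R F π)⁻¹ * x ∈ B) :
    Prime (algebraMap R B π) := by
  have hcoe : ((algebraMap R B π : B) : F) = algebraMap R F π := rfl
  have hdvd : ∀ b : B, algebraMap R B π ∣ b ↔ (algebraMap R F π)⁻¹ * (b : F) ∈ V := by
    intro b
    constructor
    · rintro ⟨c, rfl⟩
      rw [Subalgebra.coe_mul, hcoe, inv_mul_cancel_left₀ hπ0]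
      exact hBV _ c.2
    · intro hb
      refine ⟨⟨_, hsat _ b.2 hb⟩, Subtype.ext ?_⟩
      rw [Subalgebra.coe_mul, hcoe, mul_inv_cancel_left₀ hπ0]
  refine ⟨fun h0 => hπ0 (by rw [← hcoe, h0]; rfl), fun hu => ?_, fun a b hab => ?_⟩
  · obtain ⟨c, hc⟩ := hu.exists_right_inv
    have hc' : algebraMap R F π * (c : F) = 1 := by
      have := congrArg (Subtype.val : B → F) hc
      simpa using this
    have : (algebraMap R F π)⁻¹ = (c : F) := inv_eq_of_mul_eq_one_right hc'
    exact hπV (this ▸ hBV _ c.2)
  · rw [hdvd] at hab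
    rw [hdvd, hdvd]
    by_contra hcon
    push Not at hcon
    obtain ⟨ha, hb⟩ := hcon
    have haV : (a : F) ∈ V := hBV _ a.2
    have hainv : (a : F)⁻¹ ∈ V := by
      by_contra hn
      exact ha (hmax _ haV hn)
    have ha0 : (a : F) ≠ 0 := by
      intro h0
      apply ha
      rw [h0, mul_zero]
      exact V.zero_mem
    apply hb
    have : (algebraMap R F π)⁻¹ * (b : F) =
        (a : F)⁻¹ * ((algebraMap R F π)⁻¹ * ((a * b : B) : F)) := by
      rw [Subalgebra.coe_mul]
      field_simp
    rw [this]
    exact V.mul_mem _ _ hainv hab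

end pk85_sat

section pk85_fin

open IntermediateField

variable {R K F : Type*} [CommRing R] [IsDomain R] [Field K] [Algebra R K] [IsFractionRing R K]
  [Field F] [Algebra R F] [Algebra K F] [IsScalarTower R K F]

/-- `F` is finite over `Frac R[X]` as soon as it is finite over `K(x)`, `x` the image of `X`. -/
theorem pk85_finite_fractionRing [Algebra R[X] F]
    (hC : ∀ r : R, algebraMap R[X] F (C r) = algebraMap R F r)
    (E : Type*) [Field E] [Algebra R[X] E] [IsFractionRing R[X] E] [Algebra E F]
    [IsScalarTower R[X] E F] [FiniteDimensional K⟮algebraMap R[X] F X⟯ F] :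
    FiniteDimensional E F := by
  classical
  set h : F := algebraMap R[X] F X with hh
  let T : IntermediateField K F := Subfield.toIntermediateField (algebraMap E F).fieldRange (by
    intro c
    obtain ⟨a, b, -, rfl⟩ := IsFractionRing.div_surjective (A := R) c
    rw [map_div₀, ← IsScalarTower.algebraMap_apply R K F, ← IsScalarTower.algebraMap_apply R K F,
      ← hC, ← hC, IsScalarTower.algebraMap_apply R[X] E F, IsScalarTower.algebraMap_apply R[X] E F]
    exact div_mem ⟨_, rfl⟩ ⟨_, rfl⟩)
  have hT : K⟮h⟯ ≤ T := by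
    rw [IntermediateField.adjoin_simple_le_iff]
    show h ∈ (algebraMap E F).fieldRange
    exact ⟨algebraMap R[X] E X, (IsScalarTower.algebraMap_apply R[X] E F X).symm⟩
  obtain ⟨S, hS⟩ := (Module.finite_def.mp (inferInstance : Module.Finite K⟮h⟯ F))
  refine Module.finite_def.mpr ⟨S, ?_⟩
  rw [eq_top_iff]
  intro x _
  have hx : x ∈ Submodule.span K⟮h⟯ (S : Set F) := by rw [hS]; trivial
  induction hx using Submodule.span_induction with
  | mem y hy => exact Submodule.subset_span hy
  | zero => exact zero_mem _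
  | add y z _ _ ihy ihz => exact add_mem (ihy trivial) (ihz trivial)
  | smul c y _ ihy =>
    obtain ⟨e, he⟩ := hT c.2
    have : c • y = e • y := by
      rw [Algebra.smul_def, Algebra.smul_def, he]; rfl
    rw [this]
    exact Submodule.smul_mem _ _ (ihy trivial)

/-- **Finiteness of a chart.**  `R` noetherian with `R[X]` integrally closed, `K = Frac R` of
characteristic `0`, `h` transcendental over `K` with `F / K(h)` finite.  Then the chart of `h` is a
noetherian ring, a finite module over `R[h]`, and has fraction field `F`. -/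
theorem pk85_chart_finite [IsNoetherianRing R] [IsIntegrallyClosed R[X]] [CharZero K] (h : F)
    (hh : Transcendental K h) [FiniteDimensional K⟮h⟯ F] :
    IsNoetherianRing ↥(pk85_chart R h) ∧
    (∃ G : Finset F, ∀ x ∈ pk85_chart R h,
      x ∈ Submodule.span (Algebra.adjoin R ({h} : Set F)) (G : Set F)) ∧
    (∀ x : F, ∃ a ∈ pk85_chart R h, ∃ b ∈ pk85_chart R h, b ≠ 0 ∧ x * b = a) := by
  classical
  letI : Algebra R[X] F := (aeval h : R[X] →ₐ[R] F).toRingHom.toAlgebra
  have hC : ∀ r : R, algebraMap R[X] F (C r) = algebraMap R F r := fun r => aeval_C h r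
  have hX : algebraMap R[X] F X = h := aeval_X h
  have hap : ∀ p : R[X], algebraMap R[X] F p = aeval h p := fun _ => rfl
  have hhR : Transcendental R h := hh.restrictScalars (IsFractionRing.injective R K)
  have hinj : Function.Injective (algebraMap R[X] F) := transcendental_iff_injective.mp hhR
  haveI : FaithfulSMul R[X] F := (faithfulSMul_iff_algebraMap_injective _ _).mpr hinj
  letI : Algebra (FractionRing R[X]) F := FractionRing.liftAlgebra R[X] F
  haveI : IsScalarTower R[X] (FractionRing R[X]) F := FractionRing.isScalarTower_liftAlgebra R[X] F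
  haveI : FiniteDimensional K⟮algebraMap R[X] F X⟯ F := by rw [hX]; infer_instance
  haveI : FiniteDimensional (FractionRing R[X]) F :=
    pk85_finite_fractionRing (K := K) hC (FractionRing R[X])
  haveI : CharZero R := (algebraMap R K).charZero
  haveI : CharZero (FractionRing R[X]) :=
    charZero_of_injective_algebraMap (IsFractionRing.injective R[X] (FractionRing R[X]))
  letI := pk85_chartAlgebra R hC
  haveI := pk85_chart_isScalarTower R hC
  haveI := pk85_chart_isIntegralClosure R hC
  have hnoeth : IsNoetherianRing ↥(pk85_chart R (algebraMap R[X] F X)) :=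
    IsIntegralClosure.isNoetherianRing R[X] (FractionRing R[X]) F _
  have hfin : Module.Finite R[X] ↥(pk85_chart R (algebraMap R[X] F X)) :=
    IsIntegralClosure.finite R[X] (FractionRing R[X]) F _
  have hG : ∃ G : Finset F, ∀ x ∈ pk85_chart R (algebraMap R[X] F X),
      x ∈ Submodule.span (Algebra.adjoin R ({h} : Set F)) (G : Set F) := by
    obtain ⟨S, hS⟩ := Module.finite_def.mp hfin
    refine ⟨S.image Subtype.val, fun x hx => ?_⟩
    have key : ∀ z ∈ Submodule.span R[X] (S : Set ↥(pk85_chart R (algebraMap R[X] F X))),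
        (z : F) ∈ Submodule.span (Algebra.adjoin R ({h} : Set F))
          ((S.image Subtype.val : Finset F) : Set F) := by
      intro z hz
      induction hz using Submodule.span_induction with
      | mem y hy =>
        exact Submodule.subset_span (Finset.mem_coe.mpr (Finset.mem_image_of_mem _ hy))
      | zero => exact zero_mem _
      | add y z _ _ ihy ihz => exact add_mem ihy ihz
      | smul p y _ ihy =>
        have hp : aeval h p ∈ Algebra.adjoin R ({h} : Set F) := by
          rw [Algebra.adjoin_singleton_eq_range_aeval]; exact ⟨p, rfl⟩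
        have : ((p • y : ↥(pk85_chart R (algebraMap R[X] F X))) : F) =
            (⟨aeval h p, hp⟩ : Algebra.adjoin R ({h} : Set F)) • (y : F) := by
          rw [Algebra.smul_def]
          rfl
        rw [this]
        exact Submodule.smul_mem _ _ ihy
    exact key ⟨x, hx⟩ (by rw [hS]; trivial)
  have hfrac : ∀ x : F, ∃ a ∈ pk85_chart R (algebraMap R[X] F X),
      ∃ b ∈ pk85_chart R (algebraMap R[X] F X), b ≠ 0 ∧ x * b = a := by
    intro x
    have hx : IsAlgebraic (FractionRing R[X]) x := Algebra.IsAlgebraic.isAlgebraic x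
    have hx' : IsAlgebraic R[X] x :=
      (IsFractionRing.isAlgebraic_iff R[X] (FractionRing R[X]) F).mpr hx
    obtain ⟨d, hd0, hd⟩ := hx'.exists_integral_multiple
    refine ⟨d • x, (pk85_mem_chart_iff_isIntegral R hC _).mpr hd, algebraMap R[X] F d,
      (pk85_mem_chart_iff_isIntegral R hC _).mpr isIntegral_algebraMap, ?_, ?_⟩
    · exact fun h0 => hd0 (hinj (by rw [h0, map_zero]))
    · rw [Algebra.smul_def, mul_comm]
  rw [hX] at hnoeth hG hfrac
  exact ⟨hnoeth, hG, hfrac⟩

end pk85_fin

end Fermat.Agent.S18
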