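import Fermat.Agent.S18.TameSectionInst27
import Fermat.Agent.S18.ChartDedekind39

/-!
# S18, row B5: the per-chart Dedekind theorem on the modular `K₀`-model, levels 2 and 3
(helper27; composition check of `ca39_isDedekindDomain_fibre` (helper39) with `hH` from
`HorizInst94` (helper94) and `htame₀`, `htame₁` from `TameSectionInst27`)

`F := ↥(modularFunctionFieldFullC K0 M)`, ANY instance `[Algebra R[X] F]` with `hC` and `hX`
(chart coordinate = the Hauptmodul `h70_h2 K0` / `h34_h3R K0` or its inverse).  The only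
remaining hypotheses are the vertical ones: `hV` (self-duality at `C π`) and `hdom`
(`C π` prime in the integral closure), plus the unit conditions on `M`, `2`/`3`, `c`.
-/

set_option autoImplicit false
open AlgebraicCurve IntermediateField Polynomial ModularCurve
namespace Fermat.Agent.S18
open Fermat.Agent.S24

universe u
variable {R : Type u} [CommRing R] [IsDomain R] [IsDiscreteValuationRing R] [CharZero R] {π : R}
variable {K0 : Type*} [Field K0] [Algebra R K0] [IsFractionRing R K0]
variable [Algebra K0 Kbar] [Algebra.IsAlgebraic K0 Kbar]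
variable (M : ℕ) [NeZero M]
variable {E : Type*} [Field E] [Algebra R[X] E] [IsFractionRing R[X] E]
  [Algebra E ↥(modularFunctionFieldFullC K0 M)] [Algebra R[X] ↥(modularFunctionFieldFullC K0 M)]
  [IsScalarTower R[X] E ↥(modularFunctionFieldFullC K0 M)]
  [FiniteDimensional E ↥(modularFunctionFieldFullC K0 M)]
  [Algebra.IsSeparable E ↥(modularFunctionFieldFullC K0 M)]

/-- **B5 for the chart `x = h`, level 2**, from the vertical inputs `hV`, `hdom` alone. -/
theorem ts27i_dedekind_level2 (h2 : 2 ∣ M) (hπ : Irreducible π)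
    (hC : ∀ r : R, algebraMap R[X] ↥(modularFunctionFieldFullC K0 M) (C r) =
      algebraMap K0 ↥(modularFunctionFieldFullC K0 M) (algebraMap R K0 r))
    (hX : ((algebraMap R[X] ↥(modularFunctionFieldFullC K0 M) X :
        ↥(modularFunctionFieldFullC K0 M)) : LaurentSeries K0) = h70_h2 K0)
    (h64 : IsUnit (-64 : R)) (hM : IsUnit ((M : ℕ) : R)) (h2u : IsUnit ((2 : ℕ) : R))
    (hV : PurSelfDualAt R[X] E ↥(modularFunctionFieldFullC K0 M) (C π))
    (hdom : (Ideal.span {algebraMap R[X] (integralClosure R[X] ↥(modularFunctionFieldFullC K0 M)) (C π)}).IsPrime) :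
    IsDedekindDomain
      (integralClosure R[X] ↥(modularFunctionFieldFullC K0 M) ⧸
        Ideal.span {algebraMap R[X] (integralClosure R[X] ↥(modularFunctionFieldFullC K0 M)) (C π)}) :=
  ca39_isDedekindDomain_fibre (K0 := K0) (E := E) hπ hC (-64) h64 M 2 hM h2u hV hdom
    (fun p hp hpc => hi94_hH_level2 M h2 hπ hC hX p hp hpc)
    (ts27i_htame_level2_X M h2 hX) (ts27i_htame_level2_c M h2 hC hX)

/-- **B5 for the chart `x = h⁻¹`, level 2**, from the vertical inputs `hV`, `hdom` alone. -/
theorem ts27i_dedekind_level2_inv (h2 : 2 ∣ M) (hπ : Irreducible π)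
    (hC : ∀ r : R, algebraMap R[X] ↥(modularFunctionFieldFullC K0 M) (C r) =
      algebraMap K0 ↥(modularFunctionFieldFullC K0 M) (algebraMap R K0 r))
    (hX : ((algebraMap R[X] ↥(modularFunctionFieldFullC K0 M) X :
        ↥(modularFunctionFieldFullC K0 M)) : LaurentSeries K0) = h70_h2inv K0)
    (c : R) (hc : c * 64 = -1) (hcu : IsUnit c) (hM : IsUnit ((M : ℕ) : R)) (h2u : IsUnit ((2 : ℕ) : R))
    (hV : PurSelfDualAt R[X] E ↥(modularFunctionFieldFullC K0 M) (C π))
    (hdom : (Ideal.span {algebraMap R[X] (integralClosure R[X] ↥(modularFunctionFieldFullC K0 M)) (C π)}).IsPrime) :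
    IsDedekindDomain
      (integralClosure R[X] ↥(modularFunctionFieldFullC K0 M) ⧸
        Ideal.span {algebraMap R[X] (integralClosure R[X] ↥(modularFunctionFieldFullC K0 M)) (C π)}) :=
  ca39_isDedekindDomain_fibre (K0 := K0) (E := E) hπ hC c hcu M 2 hM h2u hV hdom
    (fun p hp hpc => hi94_hH_level2_inv M h2 hπ hC hX c hc p hp hpc)
    (ts27i_htame_level2_inv_X M h2 hX) (ts27i_htame_level2_inv_c M h2 hC hX c hc)

/-- **B5 for the chart `x = h`, level 3**, from the vertical inputs `hV`, `hdom` alone. -/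
theorem ts27i_dedekind_level3 (h3 : 3 ∣ M) (hπ : Irreducible π)
    (hC : ∀ r : R, algebraMap R[X] ↥(modularFunctionFieldFullC K0 M) (C r) =
      algebraMap K0 ↥(modularFunctionFieldFullC K0 M) (algebraMap R K0 r))
    (hX : ((algebraMap R[X] ↥(modularFunctionFieldFullC K0 M) X :
        ↥(modularFunctionFieldFullC K0 M)) : LaurentSeries K0) = h34_h3R K0)
    (h27 : IsUnit (-27 : R)) (hM : IsUnit ((M : ℕ) : R)) (h3u : IsUnit ((3 : ℕ) : R))
    (hV : PurSelfDualAt R[X] E ↥(modularFunctionFieldFullC K0 M) (C π))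
    (hdom : (Ideal.span {algebraMap R[X] (integralClosure R[X] ↥(modularFunctionFieldFullC K0 M)) (C π)}).IsPrime) :
    IsDedekindDomain
      (integralClosure R[X] ↥(modularFunctionFieldFullC K0 M) ⧸
        Ideal.span {algebraMap R[X] (integralClosure R[X] ↥(modularFunctionFieldFullC K0 M)) (C π)}) :=
  ca39_isDedekindDomain_fibre (K0 := K0) (E := E) hπ hC (-27) h27 M 3 hM h3u hV hdom
    (fun p hp hpc => hi94_hH_level3 M h3 hπ hC hX p hp hpc)
    (ts27i_htame_level3_X M h3 hX) (ts27i_htame_level3_c M h3 hC hX)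

/-- **B5 for the chart `x = h⁻¹`, level 3**, from the vertical inputs `hV`, `hdom` alone. -/
theorem ts27i_dedekind_level3_inv (h3 : 3 ∣ M) (hπ : Irreducible π)
    (hC : ∀ r : R, algebraMap R[X] ↥(modularFunctionFieldFullC K0 M) (C r) =
      algebraMap K0 ↥(modularFunctionFieldFullC K0 M) (algebraMap R K0 r))
    (hX : ((algebraMap R[X] ↥(modularFunctionFieldFullC K0 M) X :
        ↥(modularFunctionFieldFullC K0 M)) : LaurentSeries K0) = h34_h3Rinv K0)
    (c : R) (hc : c * 27 = -1) (hcu : IsUnit c) (hM : IsUnit ((M : ℕ) : R)) (h3u : IsUnit ((3 : ℕ) : R))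
    (hV : PurSelfDualAt R[X] E ↥(modularFunctionFieldFullC K0 M) (C π))
    (hdom : (Ideal.span {algebraMap R[X] (integralClosure R[X] ↥(modularFunctionFieldFullC K0 M)) (C π)}).IsPrime) :
    IsDedekindDomain
      (integralClosure R[X] ↥(modularFunctionFieldFullC K0 M) ⧸
        Ideal.span {algebraMap R[X] (integralClosure R[X] ↥(modularFunctionFieldFullC K0 M)) (C π)}) :=
  ca39_isDedekindDomain_fibre (K0 := K0) (E := E) hπ hC c hcu M 3 hM h3u hV hdom
    (fun p hp hpc => hi94_hH_level3_inv M h3 hπ hC hX c hc p hp hpc)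
    (ts27i_htame_level3_inv_X M h3 hX) (ts27i_htame_level3_inv_c M h3 hC hX c hc)

end Fermat.Agent.S18
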