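import Fermat.Agent.S24.AsmBridgeB
import Fermat.Agent.S24.AsmDegree
import Fermat.Agent.S24.AsmCounts
import Fermat.Agent.S24.ModData

/-!
S18 (long shot), horizontal package from S24 (helper94).

Ramification of the function field `ℚ̄(j(q^d) : d ∣ N)` over the `j`-line, read off from the
`ModularData` of S24: for every place `v`

* `ord_v (j - a) = 1` if `v` is a zero of `j - a`, `a ≠ 0, 1728`;
* `ord_v j ∣ 3` if `v` is a zero of `j`;
* `ord_v (j - 1728) ∣ 2` if `v` is a zero of `j - 1728`;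
* `ord_v j ∣ N` if `v` is a pole of `j`.

All names are prefixed `ho_`.
-/

set_option autoImplicit false

open ModularCurve AlgebraicCurve MatrixGroups IntermediateField

namespace Fermat.Agent.S18

open Fermat.Agent.S24

section Abstract

variable {K F : Type*} [Field K] [IsAlgClosed K] [CharZero K] [Field F] [Algebra K F]
variable {M X : Type*} [Field M] [Algebra K M] [Fintype X]

/-- Abstract form: if all conjugate embeddings `σ a` send `y` to an element of order `e₀` for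
an order function `w` on the big field, then every zero of `y` has order dividing `e₀`. -/
theorem ho_ord_dvd_abs (σ : X → (F →ₐ[K] M)) (y : F) (hy : Transcendental K y)
    [FiniteDimensional K⟮y⟯ F] (a₀ : X)
    (hnorm : ∀ f : F, ∃ r : F, r ∈ K⟮y⟯ ∧ ∀ a : X, σ a r = ∏ b : X, σ b f)
    (hσy : ∀ a b : X, σ a y = σ b y)
    (w : OrdFn K M) (e₀ : ℕ) (he₀ : 0 < e₀) (hw : ∀ a : X, w.ord (σ a y) = e₀)
    (v : Place K F) (hv : 0 < v.ord y) : v.ord y ∣ (e₀ : ℤ) := by
  classical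
  have hy0 : y ≠ 0 := by
    rintro rfl
    exact hy isAlgebraic_zero
  have he₀' : (0 : ℤ) < (e₀ : ℤ) := by exact_mod_cast he₀
  have hnt : ∀ a, ∃ y₀ : F, y₀ ≠ 0 ∧ 0 < (wp3_comap w (σ a)).ord y₀ := fun a =>
    ⟨y, hy0, by rw [wp3_comap_ord, hw]; exact he₀'⟩
  choose m ϖ hm hϖ0 hϖm hmul using fun a => wp3_ord_eq_mul (wp3_comap w (σ a)) (hnt a)
  have hΦy : ∀ a, m a * (wp3_place (wp3_comap w (σ a)) (hnt a)).ord y = e₀ := fun a => by
    rw [← hmul a y hy0]
    exact hw a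
  have hΦypos : ∀ a, 0 < (wp3_place (wp3_comap w (σ a)) (hnt a)).ord y := by
    intro a
    by_contra hle
    have := mul_nonpos_of_nonneg_of_nonpos (hm a).le (not_lt.mp hle)
    rw [hΦy a] at this
    linarith
  obtain ⟨a, ha⟩ := wp3_surj σ y hy hnorm hσy w (fun a => by rw [hw]; exact he₀')
      (fun a => wp3_place (wp3_comap w (σ a)) (hnt a))
      (fun a f hf h0 => by rw [← wp3_comap_ord, hmul a f hf, h0, mul_zero]) hΦypos a₀ v hv
  rw [← ha]
  exact Dvd.intro_left _ (hΦy a)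

end Abstract

section Modular

attribute [local instance] ModularData.fieldM ModularData.algM ModularData.actM

variable {N : ℕ} (D : ModularData N) {F : Type*} [Field F] [Algebra Kbar F]
  (ι : F →ₐ[Kbar] D.M)

/-- Core: for a `SL(2,ℤ)`-invariant coordinate `y` on the `j`-line whose image has order `e₀`
for an order function of the modular data, every zero of `y` has order dividing `e₀`. -/
theorem ho_core [Fintype (Cosets N)] [Nonempty (Cosets N)]
    (hΓ : ∀ g ∈ CongruenceSubgroup.Gamma0 N, ∀ f : F, g • ι f = ι f) (x : F)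
    (hιx : ι x = D.jd 1)
    (y : F) (hy : Transcendental Kbar y) [FiniteDimensional Kbar⟮y⟯ F] (hyx : Kbar⟮y⟯ = Kbar⟮x⟯)
    (hσy : ∀ g : SL(2, ℤ), g • ι y = ι y)
    (w : OrdFn Kbar D.M) (e₀ : ℕ) (he₀ : 0 < e₀) (hw : w.ord (ι y) = e₀)
    (v : Place Kbar F) (hv : 0 < v.ord y) : v.ord y ∣ (e₀ : ℤ) := by
  obtain ⟨a₀⟩ := (inferInstance : Nonempty (Cosets N))
  refine ho_ord_dvd_abs (asmB_sigma D ι) y hy a₀ ?hnorm ?hσy w e₀ he₀ ?hw v hv
  case hnorm =>
    intro f
    have hfix : ∀ g : SL(2, ℤ), g • (∏ b : Cosets N, asmB_sigma D ι b f) =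
        ∏ b, asmB_sigma D ι b f := fun g => asmB_smul_prod hΓ g f
    have hmem := D.fixed _ hfix
    have hmap : (Kbar⟮x⟯).map ι = IntermediateField.adjoin Kbar {D.jd 1} := by
      rw [IntermediateField.adjoin_map, Set.image_singleton, hιx]
    rw [← hmap] at hmem
    obtain ⟨r, hr, hrP⟩ := hmem
    refine ⟨r, by rw [hyx]; exact hr, fun a => ?_⟩
    show a.out • ι r = _
    have hrP' : ι r = ∏ b : Cosets N, asmB_sigma D ι b f := hrP
    rw [hrP']
    exact hfix _
  case hσy =>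
    intro a b
    show a.out • ι y = b.out • ι y
    rw [hσy, hσy]
  case hw =>
    intro a
    show w.ord (a.out • ι y) = e₀
    rw [hσy]
    exact hw

/-- The ramification of `F` over the `j`-line, for an abstract embedding into a modular data. -/
theorem ho_ord_dvd (N : ℕ) [NeZero N] (D : ModularData N) {F : Type*} [Field F] [Algebra Kbar F]
    (ι : F →ₐ[Kbar] D.M) (x : F) (hx : Transcendental Kbar x) [FiniteDimensional Kbar⟮x⟯ F]
    (hιx : ι x = D.jd 1)
    (hΓ : ∀ g ∈ CongruenceSubgroup.Gamma0 N, ∀ f : F, g • ι f = ι f) :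
    (∀ a : Kbar, a ≠ 0 → a ≠ 1728 → ∀ v : Place Kbar F,
      0 < v.ord (x - algebraMap Kbar F a) → v.ord (x - algebraMap Kbar F a) = 1) ∧
    (∀ v : Place Kbar F, 0 < v.ord x → v.ord x ∣ 3) ∧
    (∀ v : Place Kbar F, 0 < v.ord (x - algebraMap Kbar F 1728) →
      v.ord (x - algebraMap Kbar F 1728) ∣ 2) ∧
    (∀ v : Place Kbar F, v.ord x < 0 → v.ord x ∣ (N : ℤ)) := by
  classical
  have hfin : Fintype (Cosets N) := Fintype.ofFinite _
  have hne : Nonempty (Cosets N) := ⟨((1 : SL(2, ℤ)) : Cosets N)⟩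
  have hx0 : x ≠ 0 := by
    rintro rfl
    exact hx isAlgebraic_zero
  have hj0 : D.jd 1 ≠ 0 := by
    rw [← hιx]
    exact (map_ne_zero ι).mpr hx0
  refine ⟨?_, ?_, ?_, ?_⟩
  · intro a ha0 ha1 v hv
    obtain ⟨w, hw⟩ := D.ordGeneric a ha0 ha1
    have hyx := asmB_adjoin_sub (K := Kbar) x a
    have hfd : FiniteDimensional Kbar⟮x - algebraMap Kbar F a⟯ F := by
      rw [hyx]
      infer_instance
    have h := ho_core (D := D) (ι := ι) hΓ x hιx (x - algebraMap Kbar F a)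
      (asmB_transcendental_sub hx a) hyx (asmB_smul_sub D ι x hιx a) w 1 one_pos
      (by rw [map_sub, hιx, AlgHom.commutes, hw]; rfl) v hv
    have h1 : v.ord (x - algebraMap Kbar F a) ∣ (1 : ℤ) := by exact_mod_cast h
    have h2 := Int.le_of_dvd one_pos h1
    omega
  · intro v hv
    obtain ⟨w, hw, -, -⟩ := D.ordZero
    have h := ho_core (D := D) (ι := ι) hΓ x hιx x hx rfl
      (fun g => by rw [hιx, D.smul_jd_one]) w 3 (by norm_num)
      (by rw [hιx, hw]; rfl) v hv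
    exact_mod_cast h
  · intro v hv
    obtain ⟨w, hw, -, -⟩ := D.ordI
    have hyx := asmB_adjoin_sub (K := Kbar) x 1728
    have hfd : FiniteDimensional Kbar⟮x - algebraMap Kbar F 1728⟯ F := by
      rw [hyx]
      infer_instance
    have h := ho_core (D := D) (ι := ι) hΓ x hιx (x - algebraMap Kbar F 1728)
      (asmB_transcendental_sub hx 1728) hyx (asmB_smul_sub D ι x hιx 1728) w 2 (by norm_num)
      (by rw [map_sub, hιx, AlgHom.commutes, hw]; rfl) v hv
    exact_mod_cast h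
  · intro v hv
    obtain ⟨w, hw, -, -⟩ := D.ordInfty
    have hyx := asmB_adjoin_inv (K := Kbar) x
    have hfd : FiniteDimensional Kbar⟮x⁻¹⟯ F := by
      rw [hyx]
      infer_instance
    have hv' : 0 < v.ord x⁻¹ := by rw [v.ord_inv]; omega
    have h := ho_core (D := D) (ι := ι) hΓ x hιx x⁻¹
      (asmB_transcendental_inv hx) hyx (asmB_smul_inv D ι x hιx) w N (Nat.pos_of_neZero N)
      (by rw [map_inv₀, hιx, wp3_ord_inv w hj0, hw, neg_neg]) v hv'
    rw [v.ord_inv] at h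
    exact (neg_dvd).mp h

end Modular

/-- **Horizontal ramification of `X₀(N)` over the `j`-line** (from S24): with
`x = j = JJ 1` in `F = ℚ̄(j(q^d) : d ∣ N)`. -/
theorem ho_modular_ord (N : ℕ) [NeZero N] :
    (∀ a : Kbar, a ≠ 0 → a ≠ 1728 → ∀ v : Place Kbar ↥(modularFunctionFieldBar N),
      0 < v.ord ((⟨JJ 1, asmAb_JJ_mem N 1 (one_dvd N)⟩ : ↥(modularFunctionFieldBar N)) -
        algebraMap Kbar ↥(modularFunctionFieldBar N) a) →
      v.ord ((⟨JJ 1, asmAb_JJ_mem N 1 (one_dvd N)⟩ : ↥(modularFunctionFieldBar N)) -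
        algebraMap Kbar ↥(modularFunctionFieldBar N) a) = 1) ∧
    (∀ v : Place Kbar ↥(modularFunctionFieldBar N),
      0 < v.ord (⟨JJ 1, asmAb_JJ_mem N 1 (one_dvd N)⟩ : ↥(modularFunctionFieldBar N)) →
      v.ord (⟨JJ 1, asmAb_JJ_mem N 1 (one_dvd N)⟩ : ↥(modularFunctionFieldBar N)) ∣ 3) ∧
    (∀ v : Place Kbar ↥(modularFunctionFieldBar N),
      0 < v.ord ((⟨JJ 1, asmAb_JJ_mem N 1 (one_dvd N)⟩ : ↥(modularFunctionFieldBar N)) -
        algebraMap Kbar ↥(modularFunctionFieldBar N) 1728) →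
      v.ord ((⟨JJ 1, asmAb_JJ_mem N 1 (one_dvd N)⟩ : ↥(modularFunctionFieldBar N)) -
        algebraMap Kbar ↥(modularFunctionFieldBar N) 1728) ∣ 2) ∧
    (∀ v : Place Kbar ↥(modularFunctionFieldBar N),
      v.ord (⟨JJ 1, asmAb_JJ_mem N 1 (one_dvd N)⟩ : ↥(modularFunctionFieldBar N)) < 0 →
      v.ord (⟨JJ 1, asmAb_JJ_mem N 1 (one_dvd N)⟩ : ↥(modularFunctionFieldBar N)) ∣ (N : ℤ)) := by
  obtain ⟨D⟩ := wpA_nonempty_modularData N
  letI := D.fieldM
  letI := D.algM
  letI := D.actM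
  obtain ⟨ι, hι, hΓ⟩ := asmAb_exists_iota N D
  have hx : Transcendental Kbar
      (⟨JJ 1, asmAb_JJ_mem N 1 (one_dvd N)⟩ : ↥(modularFunctionFieldBar N)) :=
    asmAb_transcendental N
  have hιx : ι ⟨JJ 1, asmAb_JJ_mem N 1 (one_dvd N)⟩ = D.jd 1 := hι 1 (one_dvd N)
  obtain ⟨hfin, -⟩ := asmA_finrank N D ι ⟨JJ 1, asmAb_JJ_mem N 1 (one_dvd N)⟩
    ⟨JJ N, asmAb_JJ_mem N N dvd_rfl⟩ hιx (hι N dvd_rfl) hΓ
  haveI := hfin
  exact ho_ord_dvd N D ι _ hx hιx hΓ

end Fermat.Agent.S18
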