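import Fermat.Agent.S18.Descent68
import Fermat.Agent.S18.NumFieldDVR23
import Fermat.Agent.S18.HorizOrd
import Fermat.Agent.S24.PlacesBasic

/-!
# S18 glue (helper84): extension of places along an extension of the constant field

`pe84_exists_place_ext` : for `ι : F₀ → F` a field embedding compatible with an algebraic
extension `K₀ → K` of the constant fields, every place `P` of `F₀ / K₀` is the restriction of a
place `P'` of `F / K`, and `ord_{P'} (ι f) = e * ord_P f` for a positive integer `e`
(Chevalley extension + the Prelude `Place` API).  No statement about `e = 1` is made here.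

`pe84_isPrincipalIdealRing_modular` : every valuation subring `≠ ⊤` of `ℚ̄(j(q^d) : d ∣ M)`
containing the constants is a principal ideal ring (the hypothesis `hdvr` of the first
statement for the modular function field).

All names are prefixed `pe84_`.
-/

set_option autoImplicit false

open ModularCurve AlgebraicCurve IntermediateField

namespace Fermat.Agent.S18

open Fermat.Agent.S24

section Generic

variable {F : Type*} [Field F]

/-- An element of the fraction field which is a root of a monic polynomial with coefficients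
in a valuation subring lies in the valuation subring. -/
theorem pe84_mem_of_monic (W : ValuationSubring F) {R : Type*} [CommRing R] (g : R →+* F)
    (hg : ∀ r : R, g r ∈ W) (p : Polynomial R) (hp : p.Monic) (y : F)
    (hy : Polynomial.eval₂ g y p = 0) : y ∈ W := by
  set g' : R →+* W := g.codRestrict W.toSubring hg with hg'
  have hint : IsIntegral W y := by
    refine ⟨p.map g', hp.map g', ?_⟩
    rw [Polynomial.eval₂_map]
    have : (algebraMap W F).comp g' = g := by
      ext r
      rfl
    rw [this]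
    exact hy
  obtain ⟨z, hz⟩ := IsIntegrallyClosed.isIntegral_iff.mp hint
  rw [← hz]
  exact z.2

end Generic

section Ext

variable {K₀ K F₀ F : Type*} [Field K₀] [Field K] [Field F₀] [Field F]
  [Algebra K₀ K] [Algebra.IsAlgebraic K₀ K] [Algebra K₀ F₀] [Algebra K F]

/-- **Extension of places along an algebraic extension of the constant field.** -/
theorem pe84_exists_place_ext (ι : F₀ →+* F)
    (hcompat : ∀ c : K₀, ι (algebraMap K₀ F₀ c) = algebraMap K F (algebraMap K₀ K c))
    (hdvr : ∀ W : ValuationSubring F, (∀ c : K, algebraMap K F c ∈ W) → W ≠ ⊤ →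
      IsPrincipalIdealRing W)
    (P : Place K₀ F₀) :
    ∃ (P' : Place K F) (e : ℕ), 0 < e ∧ (∀ f : F₀, P'.ord (ι f) = e * P.ord f) ∧
      P'.toValuationSubring.comap ι = P.toValuationSubring := by
  obtain ⟨W, hW⟩ := ds68_exists_comap_eq ι P.toValuationSubring
  have hmem : ∀ a : F₀, ι a ∈ W ↔ a ∈ P.toValuationSubring := by
    intro a
    rw [← hW]
    rfl
  -- the constants of `K` lie in `W`
  have hK : ∀ c : K, algebraMap K F c ∈ W := by
    intro c
    obtain ⟨p, hp, hpc⟩ := (Algebra.IsAlgebraic.isAlgebraic (R := K₀) c).isIntegral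
    refine pe84_mem_of_monic W ((algebraMap K F).comp (algebraMap K₀ K)) ?_ p hp _ ?_
    · intro r
      rw [RingHom.comp_apply, ← hcompat, hmem]
      exact P.algebraMap_mem' r
    · rw [← Polynomial.hom_eval₂, hpc, map_zero]
  have hWtop : W ≠ ⊤ := by
    intro h
    apply P.ne_top'
    rw [← hW, h]
    rfl
  let P' : Place K F := ⟨W, hK, hWtop, hdvr W hK hWtop⟩
  have hP' : P'.toValuationSubring = W := rfl
  obtain ⟨π, hπ⟩ := IsDiscreteValuationRing.exists_irreducible P.toValuationSubring
  have hπ0 : (π : F₀) ≠ 0 := by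
    simpa [ne_eq, ZeroMemClass.coe_eq_zero] using hπ.ne_zero
  have hιπ0 : ι (π : F₀) ≠ 0 := (map_ne_zero ι).mpr hπ0
  -- `ι π` has positive order
  have hpos : 0 < P'.ord (ι (π : F₀)) := by
    have h1 : 0 ≤ P'.ord (ι (π : F₀)) :=
      (wp1_mem_iff_ord_nonneg P' _).mp ((hmem _).mpr π.2)
    rcases h1.lt_or_eq with h | h
    · exact h
    · exfalso
      have h2 : (ι (π : F₀))⁻¹ ∈ P'.toValuationSubring := by
        rw [wp1_mem_iff_ord_nonneg, P'.ord_inv, ← h, neg_zero]
      rw [hP', ← map_inv₀, hmem] at h2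
      apply hπ.not_isUnit
      refine ⟨⟨π, ⟨(π : F₀)⁻¹, h2⟩, Subtype.ext (mul_inv_cancel₀ hπ0),
        Subtype.ext (inv_mul_cancel₀ hπ0)⟩, rfl⟩
  refine ⟨P', (P'.ord (ι (π : F₀))).toNat, by omega, ?_, hW⟩
  intro f
  rcases eq_or_ne f 0 with rfl | hf
  · simp
  obtain ⟨u, hu⟩ := P.exists_unit_mul_zpow hf hπ
  have hu0 : ((u : P.toValuationSubring) : F₀) ≠ 0 := by
    simp [ne_eq, ZeroMemClass.coe_eq_zero]
  have hιu0 : ι ((u : P.toValuationSubring) : F₀) ≠ 0 := (map_ne_zero ι).mpr hu0
  -- `ι u` has order zero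
  have hu1 : 0 ≤ P'.ord (ι ((u : P.toValuationSubring) : F₀)) :=
    (wp1_mem_iff_ord_nonneg P' _).mp ((hmem _).mpr (u : P.toValuationSubring).2)
  have hu2 : 0 ≤ P'.ord (ι ((u : P.toValuationSubring) : F₀))⁻¹ := by
    apply (wp1_mem_iff_ord_nonneg P' _).mp
    rw [hP', ← map_inv₀, hmem]
    have : (((u⁻¹ : P.toValuationSubringˣ) : P.toValuationSubring) : F₀)
        = ((u : P.toValuationSubring) : F₀)⁻¹ := by
      apply eq_inv_of_mul_eq_one_left
      rw [← MulMemClass.coe_mul, Units.inv_mul]
      rfl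
    rw [← this]
    exact ((u⁻¹ : P.toValuationSubringˣ) : P.toValuationSubring).2
  rw [P'.ord_inv] at hu2
  have hu3 : P'.ord (ι ((u : P.toValuationSubring) : F₀)) = 0 := by omega
  have hιf : ι f = ι ((u : P.toValuationSubring) : F₀) * (ι (π : F₀)) ^ (P.ord f) := by
    conv_lhs => rw [hu]
    rw [map_mul, map_zpow₀]
  rw [hιf, P'.ord_mul hιu0 (zpow_ne_zero _ hιπ0), hu3, zero_add, P'.ord_zpow,
    Int.toNat_of_nonneg hpos.le]
  ring

/-- Consumer form 1 (horizontal primes, row (H)): if `ι f` is a uniformiser at every place of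
`F / K` where it vanishes, then `f` is a uniformiser at every place of `F₀ / K₀` where it
vanishes. -/
theorem pe84_ord_eq_one (ι : F₀ →+* F)
    (hcompat : ∀ c : K₀, ι (algebraMap K₀ F₀ c) = algebraMap K F (algebraMap K₀ K c))
    (hdvr : ∀ W : ValuationSubring F, (∀ c : K, algebraMap K F c ∈ W) → W ≠ ⊤ →
      IsPrincipalIdealRing W)
    (f : F₀) (hone : ∀ P' : Place K F, 0 < P'.ord (ι f) → P'.ord (ι f) = 1)
    (P : Place K₀ F₀) (hP : 0 < P.ord f) : P.ord f = 1 := by
  obtain ⟨P', e, he, hord, -⟩ := pe84_exists_place_ext ι hcompat hdvr P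
  have he' : (0 : ℤ) < (e : ℤ) := by exact_mod_cast he
  have h1 : P'.ord (ι f) = 1 := hone P' (by rw [hord]; positivity)
  rw [hord] at h1
  exact Int.eq_one_of_mul_eq_one_left hP.le h1

/-- Consumer form 2 (tame indices, row (A)): divisibility of the orders at the zeros descends. -/
theorem pe84_ord_dvd (ι : F₀ →+* F)
    (hcompat : ∀ c : K₀, ι (algebraMap K₀ F₀ c) = algebraMap K F (algebraMap K₀ K c))
    (hdvr : ∀ W : ValuationSubring F, (∀ c : K, algebraMap K F c ∈ W) → W ≠ ⊤ →
      IsPrincipalIdealRing W)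
    (f : F₀) (n : ℤ) (hdvd : ∀ P' : Place K F, 0 < P'.ord (ι f) → P'.ord (ι f) ∣ n)
    (P : Place K₀ F₀) (hP : 0 < P.ord f) : P.ord f ∣ n := by
  obtain ⟨P', e, he, hord, -⟩ := pe84_exists_place_ext ι hcompat hdvr P
  have he' : (0 : ℤ) < (e : ℤ) := by exact_mod_cast he
  have h1 : P'.ord (ι f) ∣ n := hdvd P' (by rw [hord]; positivity)
  rw [hord] at h1
  exact (Dvd.intro_left _ rfl).trans h1

/-- Consumer form 3: the same for poles. -/
theorem pe84_ord_dvd_neg (ι : F₀ →+* F)
    (hcompat : ∀ c : K₀, ι (algebraMap K₀ F₀ c) = algebraMap K F (algebraMap K₀ K c))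
    (hdvr : ∀ W : ValuationSubring F, (∀ c : K, algebraMap K F c ∈ W) → W ≠ ⊤ →
      IsPrincipalIdealRing W)
    (f : F₀) (n : ℤ) (hdvd : ∀ P' : Place K F, P'.ord (ι f) < 0 → P'.ord (ι f) ∣ n)
    (P : Place K₀ F₀) (hP : P.ord f < 0) : P.ord f ∣ n := by
  obtain ⟨P', e, he, hord, -⟩ := pe84_exists_place_ext ι hcompat hdvr P
  have he' : (0 : ℤ) < (e : ℤ) := by exact_mod_cast he
  have h1 : P'.ord (ι f) ∣ n := hdvd P' (by rw [hord]; exact mul_neg_of_pos_of_neg he' hP)
  rw [hord] at h1
  exact (Dvd.intro_left _ rfl).trans h1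

end Ext

section Transc

variable {K F : Type*} [Field K] [IsAlgClosed K] [CharZero K] [Field F] [Algebra K F]

/-- In a function field of one variable over an algebraically closed field of characteristic
zero (finite over `K(y)`), a valuation subring `≠ ⊤` containing the constants and `y` is a
principal ideal ring. -/
theorem pe84_pid_of_mem (y : F) (hy : Transcendental K y) [FiniteDimensional K⟮y⟯ F]
    (W : ValuationSubring F) (hK : ∀ c : K, algebraMap K F c ∈ W) (hW : W ≠ ⊤) (hyW : y ∈ W) :
    IsPrincipalIdealRing W := by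
  have hDed := wp1a_isDedekindDomain y hy
  have hFr := wp1a_isFractionRing (K := K) y
  have hadj : ∀ a ∈ Algebra.adjoin K {y}, a ∈ W := by
    intro a ha
    induction ha using Algebra.adjoin_induction with
    | mem a ha =>
      rw [Set.mem_singleton_iff] at ha
      rw [ha]
      exact hyW
    | algebraMap c => exact hK c
    | add a b _ _ ha hb => exact W.add_mem _ _ ha hb
    | mul a b _ _ ha hb => exact W.mul_mem _ _ ha hb
  have hDW : ∀ d : integralClosure (Algebra.adjoin K {y}) F,
      algebraMap (integralClosure (Algebra.adjoin K {y}) F) F d ∈ W := by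
    intro d
    obtain ⟨p, hp, hpd⟩ := d.2
    exact pe84_mem_of_monic W (algebraMap (Algebra.adjoin K {y}) F) (fun r => hadj _ r.2)
      p hp _ hpd
  have hdvr := nf23_isDVR_of_dedekind W hDW hW
  infer_instance

/-- Same, without assuming `y ∈ W` (use `y⁻¹` otherwise). -/
theorem pe84_pid (y : F) (hy : Transcendental K y) [FiniteDimensional K⟮y⟯ F]
    (W : ValuationSubring F) (hK : ∀ c : K, algebraMap K F c ∈ W) (hW : W ≠ ⊤) :
    IsPrincipalIdealRing W := by
  by_cases hyW : y ∈ W
  · exact pe84_pid_of_mem y hy W hK hW hyW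
  · have hyW' : y⁻¹ ∈ W := (W.mem_or_inv_mem y).resolve_left hyW
    have hy' : Transcendental K y⁻¹ := wp1b_transcendental_inv hy
    have hfin : FiniteDimensional K⟮y⁻¹⟯ F := wp1_finite_of_transcendental y hy _ hy'
    exact pe84_pid_of_mem y⁻¹ hy' W hK hW hyW'

end Transc

section Modular

/-- Every valuation subring `≠ ⊤` of the modular function field `ℚ̄(j(q^d) : d ∣ M)` which
contains the constants is a principal ideal ring (i.e. is a Prelude `Place`). -/
theorem pe84_isPrincipalIdealRing_modular (M : ℕ) [NeZero M]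
    (W : ValuationSubring ↥(modularFunctionFieldBar M))
    (hK : ∀ c : Kbar, algebraMap Kbar ↥(modularFunctionFieldBar M) c ∈ W) (hW : W ≠ ⊤) :
    IsPrincipalIdealRing W := by
  obtain ⟨D⟩ := wpA_nonempty_modularData M
  letI := D.fieldM
  letI := D.algM
  letI := D.actM
  obtain ⟨ι, hι, hΓ⟩ := asmAb_exists_iota M D
  have hx : Transcendental Kbar
      (⟨JJ 1, asmAb_JJ_mem M 1 (one_dvd M)⟩ : ↥(modularFunctionFieldBar M)) :=
    asmAb_transcendental M
  have hιx : ι ⟨JJ 1, asmAb_JJ_mem M 1 (one_dvd M)⟩ = D.jd 1 := hι 1 (one_dvd M)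
  obtain ⟨hfin, -⟩ := asmA_finrank M D ι ⟨JJ 1, asmAb_JJ_mem M 1 (one_dvd M)⟩
    ⟨JJ M, asmAb_JJ_mem M M dvd_rfl⟩ hιx (hι M dvd_rfl) hΓ
  exact pe84_pid _ hx W hK hW

end Modular

end Fermat.Agent.S18
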