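import Fermat.Agent.S18.HorizGeom94
import Fermat.Agent.S18.PlaceExt84
import Fermat.Agent.S18.AbhyankarHcodim27
import Fermat.Agent.S18.KummerStep62
import Fermat.Agent.S18.Bridge51

/-!
# S18, row B5 (A) + (K) at the tame sections (helper27)

Part I (`ts27_tame*`): the tameness hypothesis `htame` of `ab27_hcodim_of_tame`
(`∀ v : Place K₀ F, 0 < v.ord z → v.ord z ∣ e`) for the sections of the two Hauptmodul charts
`x = h`, `x = h⁻¹` of a `K₀`-model `F` of `F(M)_ℚbar`, at levels 2 and 3:
`z = h` and `z = h⁻¹` (`e = M`), `z = h + 64` and `z = h⁻¹ - c`, `c * 64 = -1` (`e = 2`),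
resp. `z = h + 27`, `z = h⁻¹ - c`, `c * 27 = -1` (`e = 3`).  Input: `g94_ram2`, `g94_ram3`
(ramification over the Hauptmodul line, over `ℚbar`) and `pe84_ord_dvd` (places of the
`K₀`-model extend to `ℚbar`).

Part II (`ts27_selfDualAt_of_tame`, `ts27_normalAt`, `ts27_normalAt_of_tame`): the tame point
theorem `kin_normalAt_of_tame'` with its self-duality hypothesis discharged: at the primes
`p' ∼ σ` of the Kummer layer by Abhyankar (`ab27_hcodim_of_tame`), at the other primes
through the point `(π, σ)` by `sd62_kummer_step` from self-duality of the base at the primes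
through `(π, z)` not dividing `z`.
-/

set_option autoImplicit false

open AlgebraicCurve IntermediateField Polynomial ModularCurve

namespace Fermat.Agent.S18

open Fermat.Agent.S24

section PlaceCalc

variable {K F : Type*} [Field K] [Field F] [Algebra K F]

/-- If `h⁻¹ - c` vanishes at `P` (`c` a nonzero constant, `c * d = -1`), then its order at `P`
is the order of `h + d`. -/
theorem ts27_ord_inv_sub (P : Place K F) (h : F) (c d : K) (hcd : c * d = -1)
    (hP : 0 < P.ord (h⁻¹ - algebraMap K F c)) :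
    P.ord (h⁻¹ - algebraMap K F c) = P.ord (h + algebraMap K F d) := by
  have hc : c ≠ 0 := by
    rintro rfl
    rw [zero_mul] at hcd
    exact absurd hcd (by norm_num)
  have hcF : algebraMap K F c ≠ 0 := (map_ne_zero (algebraMap K F)).mpr hc
  have hw : h⁻¹ - algebraMap K F c ≠ 0 := by
    intro h0
    rw [h0, Place.ord_zero] at hP
    exact lt_irrefl _ hP
  have hh : h ≠ 0 := by
    rintro rfl
    rw [inv_zero, zero_sub, ← map_neg, wp1_ord_algebraMap] at hP
    exact lt_irrefl _ hP
  have hinv : h⁻¹ ≠ 0 := inv_ne_zero hh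
  -- `ord h⁻¹ = 0`
  have h1 : 0 ≤ P.ord h⁻¹ := by
    have h2 := wp1_ord_add P (h⁻¹ - algebraMap K F c) (algebraMap K F c)
      (by rw [sub_add_cancel]; exact hinv) hw hcF
    rw [sub_add_cancel, wp1_ord_algebraMap] at h2
    exact le_trans (le_min hP.le le_rfl) h2
  have h3 : P.ord h⁻¹ ≤ 0 := by
    have hneg : -(h⁻¹ - algebraMap K F c) ≠ 0 := neg_ne_zero.mpr hw
    have h2 := wp1_ord_add P h⁻¹ (-(h⁻¹ - algebraMap K F c))
      (by rw [show h⁻¹ + -(h⁻¹ - algebraMap K F c) = algebraMap K F c by ring]; exact hcF)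
      hinv hneg
    rw [show h⁻¹ + -(h⁻¹ - algebraMap K F c) = algebraMap K F c by ring,
      wp1_ord_algebraMap] at h2
    have h4 : P.ord (-(h⁻¹ - algebraMap K F c)) = P.ord (h⁻¹ - algebraMap K F c) := by
      rw [show -(h⁻¹ - algebraMap K F c) = algebraMap K F (-1) * (h⁻¹ - algebraMap K F c) by
        rw [map_neg, map_one]; ring]
      rw [Place.ord_mul _ ((map_ne_zero (algebraMap K F)).mpr (by norm_num)) hw,
        wp1_ord_algebraMap, zero_add]
    rw [h4] at h2
    by_contra hlt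
    push Not at hlt
    exact absurd h2 (not_le.mpr (lt_min hlt hP))
  have h0 : P.ord h⁻¹ = 0 := le_antisymm h3 h1
  -- factorisation
  have hfac : h⁻¹ - algebraMap K F c
      = algebraMap K F (-c) * ((h + algebraMap K F d) * h⁻¹) := by
    have hcd' : algebraMap K F c * algebraMap K F d = -1 := by
      rw [← map_mul, hcd, map_neg, map_one]
    rw [map_neg]
    field_simp
    linear_combination hcd'
  have hd : h + algebraMap K F d ≠ 0 := by
    intro h5
    rw [hfac, h5, zero_mul, mul_zero] at hw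
    exact hw rfl
  rw [hfac, Place.ord_mul _ ((map_ne_zero (algebraMap K F)).mpr (neg_ne_zero.mpr hc))
    (mul_ne_zero hd hinv), wp1_ord_algebraMap, zero_add, Place.ord_mul _ hd hinv, h0, add_zero]

end PlaceCalc

section Tame

variable {K0 F : Type*} [Field K0] [Field F] [Algebra K0 F] [Algebra K0 Kbar]
  [Algebra.IsAlgebraic K0 Kbar]
variable (M : ℕ) [NeZero M]

/-- Transfer of tameness at the zeros from `F(M)_ℚbar` to a `K₀`-model. -/
theorem ts27_tame_of_bar (ι : F →+* ↥(modularFunctionFieldBar M))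
    (hι : ∀ a : K0, ι (algebraMap K0 F a) =
      algebraMap Kbar ↥(modularFunctionFieldBar M) (algebraMap K0 Kbar a))
    (z : F) (n : ℤ)
    (h : ∀ P' : Place Kbar ↥(modularFunctionFieldBar M), 0 < P'.ord (ι z) → P'.ord (ι z) ∣ n) :
    ∀ v : Place K0 F, 0 < v.ord z → v.ord z ∣ n :=
  fun v hv => pe84_ord_dvd ι hι (pe84_isPrincipalIdealRing_modular M) z n h v hv

variable (ι : F →+* ↥(modularFunctionFieldBar M))
  (hι : ∀ a : K0, ι (algebraMap K0 F a) =
    algebraMap Kbar ↥(modularFunctionFieldBar M) (algebraMap K0 Kbar a))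
  (hb : ↥(modularFunctionFieldBar M))

include hι

/-- Level 2, chart `x = h`, section `x = 0`: tame of index dividing `M`. -/
theorem ts27_tame2_zero
    (hrel : (⟨JJ 1, asmAb_JJ_mem M 1 (one_dvd M)⟩ : ↥(modularFunctionFieldBar M)) * hb ^ 2 =
      (hb + 256) ^ 3)
    (z : F) (hz : ι z = hb) : ∀ v : Place K0 F, 0 < v.ord z → v.ord z ∣ ((M : ℕ) : ℤ) := by
  refine ts27_tame_of_bar M ι hι z _ fun P' hP' => ?_
  rw [hz] at hP' ⊢
  exact (dvd_mul_left _ _).trans ((g94_ram2 M hb hrel).2.2.1 P' hP')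

/-- Level 2, chart `x = h`, section `x = -64`: tame of index dividing `2`. -/
theorem ts27_tame2_ell
    (hrel : (⟨JJ 1, asmAb_JJ_mem M 1 (one_dvd M)⟩ : ↥(modularFunctionFieldBar M)) * hb ^ 2 =
      (hb + 256) ^ 3)
    (z : F) (hz : ι z = hb + 64) : ∀ v : Place K0 F, 0 < v.ord z → v.ord z ∣ ((2 : ℕ) : ℤ) := by
  refine ts27_tame_of_bar M ι hι z _ fun P' hP' => ?_
  rw [hz] at hP' ⊢
  exact (g94_ram2 M hb hrel).2.1 P' hP'

/-- Level 2, chart `x = h⁻¹`, section `x = 0`: tame of index dividing `M`. -/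
theorem ts27_tame2_inv_zero
    (hrel : (⟨JJ 1, asmAb_JJ_mem M 1 (one_dvd M)⟩ : ↥(modularFunctionFieldBar M)) * hb ^ 2 =
      (hb + 256) ^ 3)
    (z : F) (hz : ι z = hb⁻¹) : ∀ v : Place K0 F, 0 < v.ord z → v.ord z ∣ ((M : ℕ) : ℤ) := by
  refine ts27_tame_of_bar M ι hι z _ fun P' hP' => ?_
  rw [hz, Place.ord_inv] at hP' ⊢
  exact (neg_dvd).mpr ((g94_ram2 M hb hrel).2.2.2 P' (by linarith))

/-- Level 2, chart `x = h⁻¹`, section `x = c`, `c = -1/64`: tame of index dividing `2`. -/
theorem ts27_tame2_inv_ell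
    (hrel : (⟨JJ 1, asmAb_JJ_mem M 1 (one_dvd M)⟩ : ↥(modularFunctionFieldBar M)) * hb ^ 2 =
      (hb + 256) ^ 3)
    (c : Kbar) (hc : c * 64 = -1)
    (z : F) (hz : ι z = hb⁻¹ - algebraMap Kbar ↥(modularFunctionFieldBar M) c) :
    ∀ v : Place K0 F, 0 < v.ord z → v.ord z ∣ ((2 : ℕ) : ℤ) := by
  refine ts27_tame_of_bar M ι hι z _ fun P' hP' => ?_
  rw [hz] at hP' ⊢
  have h1 := ts27_ord_inv_sub P' hb c 64 hc hP'
  rw [map_ofNat] at h1
  rw [h1] at hP' ⊢
  exact (g94_ram2 M hb hrel).2.1 P' hP'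

/-- Level 3, chart `x = h`, section `x = 0`: tame of index dividing `M`. -/
theorem ts27_tame3_zero
    (hrel : (⟨JJ 1, asmAb_JJ_mem M 1 (one_dvd M)⟩ : ↥(modularFunctionFieldBar M)) * hb ^ 3 =
      (hb + 27) * (hb + 243) ^ 3)
    (z : F) (hz : ι z = hb) : ∀ v : Place K0 F, 0 < v.ord z → v.ord z ∣ ((M : ℕ) : ℤ) := by
  refine ts27_tame_of_bar M ι hι z _ fun P' hP' => ?_
  rw [hz] at hP' ⊢
  exact (dvd_mul_left _ _).trans ((g94_ram3 M hb hrel).2.2.1 P' hP')

/-- Level 3, chart `x = h`, section `x = -27`: tame of index dividing `3`. -/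
theorem ts27_tame3_ell
    (hrel : (⟨JJ 1, asmAb_JJ_mem M 1 (one_dvd M)⟩ : ↥(modularFunctionFieldBar M)) * hb ^ 3 =
      (hb + 27) * (hb + 243) ^ 3)
    (z : F) (hz : ι z = hb + 27) : ∀ v : Place K0 F, 0 < v.ord z → v.ord z ∣ ((3 : ℕ) : ℤ) := by
  refine ts27_tame_of_bar M ι hι z _ fun P' hP' => ?_
  rw [hz] at hP' ⊢
  exact (g94_ram3 M hb hrel).2.1 P' hP'

/-- Level 3, chart `x = h⁻¹`, section `x = 0`: tame of index dividing `M`. -/
theorem ts27_tame3_inv_zero
    (hrel : (⟨JJ 1, asmAb_JJ_mem M 1 (one_dvd M)⟩ : ↥(modularFunctionFieldBar M)) * hb ^ 3 =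
      (hb + 27) * (hb + 243) ^ 3)
    (z : F) (hz : ι z = hb⁻¹) : ∀ v : Place K0 F, 0 < v.ord z → v.ord z ∣ ((M : ℕ) : ℤ) := by
  refine ts27_tame_of_bar M ι hι z _ fun P' hP' => ?_
  rw [hz, Place.ord_inv] at hP' ⊢
  exact (neg_dvd).mpr ((g94_ram3 M hb hrel).2.2.2 P' (by linarith))

/-- Level 3, chart `x = h⁻¹`, section `x = c`, `c = -1/27`: tame of index dividing `3`. -/
theorem ts27_tame3_inv_ell
    (hrel : (⟨JJ 1, asmAb_JJ_mem M 1 (one_dvd M)⟩ : ↥(modularFunctionFieldBar M)) * hb ^ 3 =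
      (hb + 27) * (hb + 243) ^ 3)
    (c : Kbar) (hc : c * 27 = -1)
    (z : F) (hz : ι z = hb⁻¹ - algebraMap Kbar ↥(modularFunctionFieldBar M) c) :
    ∀ v : Place K0 F, 0 < v.ord z → v.ord z ∣ ((3 : ℕ) : ℤ) := by
  refine ts27_tame_of_bar M ι hι z _ fun P' hP' => ?_
  rw [hz] at hP' ⊢
  have h1 := ts27_ord_inv_sub P' hb c 27 hc hP'
  rw [map_ofNat] at h1
  rw [h1] at hP' ⊢
  exact (g94_ram3 M hb hrel).2.1 P' hP'

end Tame

section SelfDualShapes

variable {O E L : Type*} [CommRing O] [Field E] [Algebra O E] [Field L] [Algebra E L]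
  [Algebra O L]

/-- `PurSelfDualAt` only depends on the prime up to association. -/
theorem ts27_selfDualAt_of_associated {p q : O} (hpq : Associated p q)
    (h : PurSelfDualAt O E L p) : PurSelfDualAt O E L q := by
  intro y hy
  obtain ⟨s, hs, hsy⟩ := h y fun c hc => by
    obtain ⟨a, s, hs, has⟩ := hy c hc
    exact ⟨a, s, fun hps => hs (hpq.dvd_iff_dvd_left.mp hps), has⟩
  exact ⟨s, fun hqs => hs (hpq.dvd_iff_dvd_left.mpr hqs), hsy⟩

/-- `PurSelfDualAt` at a prime implies the `hcodim` shape, for any model `C` of the integral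
closure. -/
theorem ts27_hcodim_of_selfDualAt {C : Type*} [CommRing C] [Algebra O C] [Algebra C L]
    [IsScalarTower O C L] [IsIntegralClosure C O L] {p : O} (hp : Prime p)
    (h : PurSelfDualAt O E L p) :
    ∀ y : L, (∀ c : C, Algebra.trace E L (y * algebraMap C L c) ∈ (algebraMap O E).range) →
      ∃ s : O, ¬ p ∣ s ∧ algebraMap O L s * y ∈ (algebraMap C L).range := by
  intro y hy
  obtain ⟨s, hs, hsy⟩ := h y fun c hc => by
    obtain ⟨c', rfl⟩ := (IsIntegralClosure.isIntegral_iff (A := C)).mp hc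
    obtain ⟨a, ha⟩ := hy c'
    exact ⟨a, 1, hp.not_dvd_one, by rw [map_one, mul_one, ha]⟩
  obtain ⟨c, hc⟩ := (IsIntegralClosure.isIntegral_iff (A := C)).mp hsy
  exact ⟨s, hs, c, hc⟩

end SelfDualShapes

section TamePoint

variable {O : Type*} [CommRing O] [IsDomain O] [UniqueFactorizationMonoid O]
variable {E : Type*} [Field E] [Algebra O E] [IsFractionRing O E]
variable {F : Type*} [Field F] [Algebra E F] [Algebra O F] [IsScalarTower O E F]
  [FiniteDimensional E F] [Algebra.IsSeparable E F]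
variable {O' : Type*} [CommRing O'] [IsDomain O'] [UniqueFactorizationMonoid O']
  [IsNoetherianRing O'] [Algebra O O'] [Module.Finite O O'] [Module.IsTorsionFree O O']
variable {E' : Type*} [Field E'] [Algebra O' E'] [IsFractionRing O' E'] [Algebra E E']
  [Algebra O E'] [IsScalarTower O E E'] [IsScalarTower O O' E']
variable {L : Type*} [Field L] [Algebra F L] [Algebra E L] [Algebra O L] [IsScalarTower E F L]
  [IsScalarTower O E L] [IsScalarTower O F L] [FiniteDimensional E L] [Algebra.IsSeparable E L]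
  [Algebra E' L] [Algebra O' L] [IsScalarTower E E' L] [IsScalarTower O O' L]
  [IsScalarTower O' E' L]

omit [IsNoetherianRing O'] [IsFractionRing O' E'] [IsScalarTower O' E' L] in
/-- The Kummer step `sd62_kummer_step` in `PurSelfDualAt` form: if the base `(O, E, F)` is
self-dual at the primes of `O` under `p'` not dividing `z`, then the Kummer layer `(O', E', L)`,
`L = F(σ)`, `σ ^ e = z`, is self-dual at the prime `p'` of `O'`, `p' ∤ σ`, `p' ∤ e`. -/
theorem ts27_kummer_step (e : ℕ) (z : O) (σ : O') (hσ : σ ^ e = algebraMap O O' z)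
    (hgen : Algebra.adjoin F {algebraMap O' L σ} = ⊤)
    (p' : O') (hp' : Prime p') (hp'σ : ¬ p' ∣ σ) (hp'e : ¬ p' ∣ (e : O'))
    (hC : ∀ p : O, Prime p → p' ∣ algebraMap O O' p → ¬ p ∣ z → PurSelfDualAt O E F p) :
    ∀ y : L, (∀ c : integralClosure O' L,
        Algebra.trace E' L (y * algebraMap (integralClosure O' L) L c) ∈
          (algebraMap O' E').range) →
      ∃ s' : O', ¬ p' ∣ s' ∧
        algebraMap O' L s' * y ∈ (algebraMap (integralClosure O' L) L).range := by
  intro y hy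
  have hint : Algebra.IsIntegral O O' := Algebra.IsIntegral.of_finite O O'
  obtain ⟨s', hs', d, hd⟩ := sd62_kummer_step (O := O) (E := E) (F := F)
    (C := integralClosure O F) (O' := O') (E' := E') (L := L) (D := integralClosure O L)
    e z σ hσ hgen p' hp' hp'σ hp'e
    (fun p hp hp'p hpz => ts27_hcodim_of_selfDualAt hp (hC p hp hp'p hpz)) y
    (fun d => by
      have hd' : IsIntegral O' ((d : integralClosure O L) : L) :=
        (integralClosure.isIntegral d : IsIntegral O d).algebraMap.tower_top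
      exact hy ⟨d, hd'⟩)
  refine ⟨s', hs', ⟨algebraMap O' L s' * y, ?_⟩, rfl⟩
  rw [← hd]
  exact ((integralClosure.isIntegral d : IsIntegral O d).algebraMap (B := L)).tower_top

variable {K0 : Type*} [Field K0] [Algebra K0 F] [Algebra K0 L] [IsScalarTower K0 F L]

omit [IsDomain O] [UniqueFactorizationMonoid O] [IsFractionRing O E] [IsScalarTower O E F]
  [FiniteDimensional E F] [Algebra.IsSeparable E F] [Module.Finite O O']
  [Module.IsTorsionFree O O'] [Algebra E E'] [Algebra O E'] [IsScalarTower O E E']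
  [IsScalarTower O O' E'] [IsScalarTower E F L] [IsScalarTower O E L] [FiniteDimensional E L]
  [Algebra.IsSeparable E L] [IsScalarTower E E' L] in
/-- **(A) Abhyankar at the Kummer section**, in `PurSelfDualAt` form: the Kummer layer
`(O', E', L)`, `L = F(σ)`, `σ ^ e = z`, is self-dual at the prime `σ` of `O'` as soon as `z` is
tame of index dividing `e` at all its zeros on `F` (places over `K₀`). -/
theorem ts27_selfDualAt_of_tame [FiniteDimensional E' L] [Algebra.IsSeparable E' L]
    {z : O} {σ : O'} {e : ℕ} (he : 0 < e) (hσ : σ ^ e = algebraMap O O' z) (hσp : Prime σ)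
    (hchar : ∀ n : ℕ, n ≠ 0 → ¬ σ ∣ (n : O'))
    (hK0 : ∀ a : K0, ∃ x y : O', ¬ σ ∣ y ∧
      algebraMap O' L y * algebraMap K0 L a = algebraMap O' L x)
    (hgen : Algebra.adjoin F {algebraMap O' L σ} = ⊤)
    (htame : ∀ v : Place K0 F, 0 < v.ord (algebraMap O F z) →
      v.ord (algebraMap O F z) ∣ (e : ℤ)) :
    PurSelfDualAt O' E' L σ := by
  have hz : algebraMap F L (algebraMap O F z) = algebraMap O' L σ ^ e := by
    rw [← IsScalarTower.algebraMap_apply O F L, IsScalarTower.algebraMap_apply O O' L, ← hσ,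
      map_pow]
  exact pur_selfDualAt_of_hcodim (C := integralClosure O' L) hσp
    (ab27_hcodim_of_tame (C := integralClosure O' L) (K0 := K0) (F := F) σ hσp hchar hK0
      (algebraMap O F z) e he hz hgen htame)

/-- Self-duality of the Kummer layer at every prime through the point `(π, σ)`: at `p' ∼ σ` it
is the hypothesis `hA` (Abhyankar), at the other primes it follows from the Kummer step and the
self-duality of the base at the primes through `(π, z)` not dividing `z`. -/
theorem ts27_selfDualAt_layer [FiniteDimensional E' L] [Algebra.IsSeparable E' L]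
    {π z : O} {σ : O'} {e : ℕ}
    (hσ : σ ^ e = algebraMap O O' z) (hσp : Prime σ) (heu : IsUnit ((e : ℕ) : O'))
    (hcontract : ∀ p : O, algebraMap O O' p ∈ Ideal.span {algebraMap O O' π, σ} →
      p ∈ Ideal.span {π, z})
    (hbase : ∀ p : O, Prime p → p ∈ Ideal.span {π, z} → ¬ p ∣ z → PurSelfDualAt O E F p)
    (hgen : Algebra.adjoin F {algebraMap O' L σ} = ⊤)
    (hA : PurSelfDualAt O' E' L σ)
    (p' : O') (hp' : Prime p') (hp'm : p' ∈ Ideal.span {algebraMap O O' π, σ}) :
    PurSelfDualAt O' E' L p' := by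
  by_cases hdvd : p' ∣ σ
  · exact ts27_selfDualAt_of_associated (hp'.associated_of_dvd hσp hdvd).symm hA
  · refine pur_selfDualAt_of_hcodim (C := integralClosure O' L) hp'
      (ts27_kummer_step (O := O) (E := E) (F := F) e z σ hσ hgen p' hp' hdvd
        (fun h => hp'.not_isUnit (isUnit_of_dvd_unit h heu)) ?_)
    intro p hp hp'p hpz
    refine hbase p hp (hcontract p ?_) hpz
    exact Ideal.mem_of_dvd _ hp'p hp'm

/-- **Tame point theorem, `hA` form.** `kin_normalAt_of_tame'` with its self-duality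
hypothesis reduced to the base and to `hA : PurSelfDualAt O' E' L σ`. -/
theorem ts27_normalAt [FiniteDimensional E' L] [Algebra.IsSeparable E' L]
    [FiniteDimensional F L]
    {π z : O} {σ : O'} {e : ℕ} (he : 0 < e) (hσ : σ ^ e = algebraMap O O' z)
    (hσp : Prime σ) (heu : IsUnit ((e : ℕ) : O'))
    (u : O) (hu : algebraMap O F u * (Module.finrank F L : F) = 1)
    (hπ' : Prime (algebraMap O O' π))
    [IsPrincipalIdealRing (O' ⧸ Ideal.span {algebraMap O O' π})]
    (hπσ : ¬ algebraMap O O' π ∣ σ)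
    (hm : (Ideal.span {algebraMap O O' π, σ}).IsPrime)
    (hcontract : ∀ p : O, algebraMap O O' p ∈ Ideal.span {algebraMap O O' π, σ} →
      p ∈ Ideal.span {π, z})
    (hbase : ∀ p : O, Prime p → p ∈ Ideal.span {π, z} → ¬ p ∣ z → PurSelfDualAt O E F p)
    (hgen : Algebra.adjoin F {algebraMap O' L σ} = ⊤)
    (hA : PurSelfDualAt O' E' L σ) :
    PurNormalAt O F π z := by
  have hint : Algebra.IsIntegral O O' := Algebra.IsIntegral.of_finite O O'
  exact kin_normalAt_of_tame' (O := O) (L := F) (O' := O') (E' := E') (L' := L) he hσ u hu hπ'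
    hπσ hm (fun p' hp' hp'm => ts27_selfDualAt_layer (O := O) (E := E) (F := F) hσ hσp heu
      hcontract hbase hgen hA p' hp' hp'm)

/-- **Tame point theorem.** `O` the base (`R[X]`), `z` a section, `O' ∋ σ`, `σ ^ e = z`, the
Kummer layer with function field `L = F(σ)`, `[L : F]` and `e` invertible.  If the base is
self-dual at every prime through the point `(π, z)` other than `z` (rows (V) and (H)) and `z`
is tame of index dividing `e` at its zeros on `F` (places over `K₀`), then the fibre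
`C ⧸ π C` of the integral closure `C` of `O` in `F` is normal at the point `(π, z)`. -/
theorem ts27_normalAt_of_tame [FiniteDimensional E' L] [Algebra.IsSeparable E' L]
    [FiniteDimensional F L]
    {π z : O} {σ : O'} {e : ℕ} (he : 0 < e) (hσ : σ ^ e = algebraMap O O' z)
    (hσp : Prime σ) (heu : IsUnit ((e : ℕ) : O'))
    (u : O) (hu : algebraMap O F u * (Module.finrank F L : F) = 1)
    (hπ' : Prime (algebraMap O O' π))
    [IsPrincipalIdealRing (O' ⧸ Ideal.span {algebraMap O O' π})]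
    (hπσ : ¬ algebraMap O O' π ∣ σ)
    (hm : (Ideal.span {algebraMap O O' π, σ}).IsPrime)
    (hcontract : ∀ p : O, algebraMap O O' p ∈ Ideal.span {algebraMap O O' π, σ} →
      p ∈ Ideal.span {π, z})
    (hbase : ∀ p : O, Prime p → p ∈ Ideal.span {π, z} → ¬ p ∣ z → PurSelfDualAt O E F p)
    (hchar : ∀ n : ℕ, n ≠ 0 → ¬ σ ∣ (n : O'))
    (hK0 : ∀ a : K0, ∃ x y : O', ¬ σ ∣ y ∧
      algebraMap O' L y * algebraMap K0 L a = algebraMap O' L x)
    (hgen : Algebra.adjoin F {algebraMap O' L σ} = ⊤)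
    (htame : ∀ v : Place K0 F, 0 < v.ord (algebraMap O F z) →
      v.ord (algebraMap O F z) ∣ (e : ℤ)) :
    PurNormalAt O F π z :=
  ts27_normalAt (O := O) (E := E) (F := F) (O' := O') (E' := E') (L := L) he hσ hσp heu u hu
    hπ' hπσ hm hcontract hbase hgen
    (ts27_selfDualAt_of_tame (O := O) (F := F) (O' := O') (E' := E') (L := L) (K0 := K0)
      he hσ hσp hchar hK0 hgen htame)

end TamePoint

end Fermat.Agent.S18
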