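import Fermat.Agent.S18.ChartAlg39
import Fermat.Agent.S18.VertChart90
import Fermat.Agent.S18.HorizInst94
import Fermat.Agent.S18.TameSection27
import Fermat.Agent.S18.Pack15b
import Fermat.Agent.S18.RElimJ29
import Fermat.Agent.S18.Haupt3Mem_34

/-!
# S18 / B5 (3b), independent twin (helper23): the Dedekind special fibres of the two charts of
`F(M)_K`, concretely

`R` a DVR with fraction field `K ⊆ ℚbar` of characteristic zero, `F = F(M)_K`, `h` the level-2
(resp. level-3) Hauptmodul.  Then the special fibres `B ⧸ π B` of the charts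
`B = pk15_chart R {h}` and `B = pk15_chart R {h⁻¹}` are Dedekind domains (`cm23_level2`,
`cm23_level3`).  This is the instantiation of helper39's `ca39_isDedekindDomain_fibre` with the
vertical input `vc90_level*` (helper90), the horizontal input `hi94_hH_level*` (helper94), the
tame input `ts27_tame*` (helper27), transported to the charts by `pk15_dedekind_transport`
(helper15).
-/

set_option autoImplicit false
set_option linter.style.haveILetI false

open Polynomial AlgebraicCurve IntermediateField ModularCurve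

namespace Fermat.Agent.S18

open Fermat.Agent.S24

section Generic

variable {R K : Type} [CommRing R] [IsDomain R] [IsDiscreteValuationRing R] [Field K] [CharZero K]
  [Algebra R K] [IsFractionRing R K] (M : ℕ) [NeZero M]
  [Algebra R ↥(modularFunctionFieldFullC K M)] [IsScalarTower R K ↥(modularFunctionFieldFullC K M)]

/-- **One chart, generic form.**  For an `R[X]`-algebra structure on `F = F(M)_K` with `X ↦ x`
(constants through `K`), `x` transcendental: vertical self-duality + primality, horizontal
self-duality off the two sections `X = 0`, `X = c`, and tameness at the two sections give a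
Dedekind special fibre of the chart `pk15_chart R {x}`. -/
theorem cm23_chart [Algebra R[X] ↥(modularFunctionFieldFullC K M)] {π : R} (hπ : Irreducible π)
    (hC : ∀ r : R, algebraMap R[X] ↥(modularFunctionFieldFullC K M) (C r) =
      algebraMap K ↥(modularFunctionFieldFullC K M) (algebraMap R K r))
    (x : ↥(modularFunctionFieldFullC K M))
    (hX : algebraMap R[X] ↥(modularFunctionFieldFullC K M) X = x) (hxtr : Transcendental K x)
    (c : R) (hc : IsUnit c) (e₀ e₁ : ℕ) (he₀ : IsUnit (e₀ : R)) (he₁ : IsUnit (e₁ : R))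
    (hVdom : ∀ (E : Type) [Field E] [Algebra R[X] E] [IsFractionRing R[X] E]
      [Algebra E ↥(modularFunctionFieldFullC K M)]
      [IsScalarTower R[X] E ↥(modularFunctionFieldFullC K M)],
      PurSelfDualAt R[X] E ↥(modularFunctionFieldFullC K M) (C π) ∧
      (Ideal.span {algebraMap R[X]
        (integralClosure R[X] ↥(modularFunctionFieldFullC K M)) (C π)}).IsPrime)
    (hH : ∀ (E : Type) [Field E] [Algebra R[X] E] [IsFractionRing R[X] E]
      [Algebra E ↥(modularFunctionFieldFullC K M)]
      [IsScalarTower R[X] E ↥(modularFunctionFieldFullC K M)]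
      [FiniteDimensional E ↥(modularFunctionFieldFullC K M)]
      [Algebra.IsSeparable E ↥(modularFunctionFieldFullC K M)],
      ∀ p : R[X], Prime p → ¬ p ∣ C π * X * (X - C c) →
        PurSelfDualAt R[X] E ↥(modularFunctionFieldFullC K M) p)
    (htame₀ : ∀ v : Place K ↥(modularFunctionFieldFullC K M), 0 < v.ord x → v.ord x ∣ (e₀ : ℤ))
    (htame₁ : ∀ v : Place K ↥(modularFunctionFieldFullC K M),
      0 < v.ord (x - algebraMap K ↥(modularFunctionFieldFullC K M) (algebraMap R K c)) →
      v.ord (x - algebraMap K ↥(modularFunctionFieldFullC K M) (algebraMap R K c)) ∣ (e₁ : ℤ)) :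
    IsDedekindDomain (pk15_chart R ({x} : Set ↥(modularFunctionFieldFullC K M)) ⧸
      Ideal.span {algebraMap R (pk15_chart R ({x} : Set ↥(modularFunctionFieldFullC K M))) π}) := by
  haveI : CharZero R := (algebraMap R K).charZero
  have hx : Transcendental K (algebraMap R[X] ↥(modularFunctionFieldFullC K M) X) := by
    rw [hX]; exact hxtr
  haveI : FiniteDimensional K⟮relimc_J K M⟯ ↥(modularFunctionFieldFullC K M) := relimc_finite K M
  haveI : FiniteDimensional K⟮x⟯ ↥(modularFunctionFieldFullC K M) :=
    wp1b_finite_of_transcendental (relimc_J K M) x hxtr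
  haveI : FiniteDimensional K⟮algebraMap R[X] ↥(modularFunctionFieldFullC K M) X⟯
      ↥(modularFunctionFieldFullC K M) := by
    rw [hX]; infer_instance
  haveI : FaithfulSMul R[X] ↥(modularFunctionFieldFullC K M) :=
    (faithfulSMul_iff_algebraMap_injective _ _).mpr (ci39_injective hC hx)
  letI : Algebra (FractionRing R[X]) ↥(modularFunctionFieldFullC K M) :=
    FractionRing.liftAlgebra _ _
  haveI : IsScalarTower R[X] (FractionRing R[X]) ↥(modularFunctionFieldFullC K M) :=
    FractionRing.isScalarTower_liftAlgebra _ _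
  haveI : FiniteDimensional (FractionRing R[X]) ↥(modularFunctionFieldFullC K M) :=
    ci39_finiteDimensional (K0 := K) hC
  haveI : Algebra.IsSeparable (FractionRing R[X]) ↥(modularFunctionFieldFullC K M) :=
    ci39_isSeparable (R := R)
  have hXc : algebraMap R[X] ↥(modularFunctionFieldFullC K M) (X - C c) =
      x - algebraMap K ↥(modularFunctionFieldFullC K M) (algebraMap R K c) := by
    rw [map_sub, hX, hC]
  haveI hD : IsDedekindDomain (integralClosure R[X] ↥(modularFunctionFieldFullC K M) ⧸
      Ideal.span {algebraMap R[X] (integralClosure R[X] ↥(modularFunctionFieldFullC K M))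
        (C π)}) :=
    ca39_isDedekindDomain_fibre (K0 := K) (E := FractionRing R[X]) hπ hC c hc e₀ e₁ he₀ he₁
      (hVdom (FractionRing R[X])).1 (hVdom (FractionRing R[X])).2 (hH (FractionRing R[X]))
      (by rw [hX]; exact htame₀) (by rw [hXc]; exact htame₁)
  have hO' : algebraMap R[X] ↥(modularFunctionFieldFullC K M) =
      (Polynomial.aeval x : R[X] →ₐ[R] ↥(modularFunctionFieldFullC K M)).toRingHom := by
    refine Polynomial.ringHom_ext (fun r => ?_) ?_
    · rw [hC, ← IsScalarTower.algebraMap_apply]
      simp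
    · rw [hX]; simp
  have hO : ∀ p : R[X], algebraMap R[X] ↥(modularFunctionFieldFullC K M) p =
      Polynomial.aeval x p := fun p => by rw [hO']; rfl
  exact pk15_dedekind_transport π (C π) (pk15_hpi_poly x hO π) {x} (pk15_hrange_poly x hO)

end Generic

section Concrete

variable (R K : Type) [CommRing R] [IsDomain R] [IsDiscreteValuationRing R] [Field K] [CharZero K]
  [Algebra R K] [IsFractionRing R K] [Algebra K Kbar] [Algebra.IsAlgebraic K Kbar]
  (M : ℕ) [NeZero M]
  [Algebra R ↥(modularFunctionFieldFullC K M)] [IsScalarTower R K ↥(modularFunctionFieldFullC K M)]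

omit [IsDomain R] [IsDiscreteValuationRing R] in
/-- the residue map of a DVR has kernel `(π)`. -/
theorem cm23_hred [IsDomain R] [IsDiscreteValuationRing R] {π : R} (hπ : Irreducible π) :
    ∀ a : R, IsLocalRing.residue R a = 0 ↔ π ∣ a := by
  intro a
  rw [IsLocalRing.residue_eq_zero_iff, hπ.maximalIdeal_eq, Ideal.mem_span_singleton]

omit [IsDomain R] [IsDiscreteValuationRing R] in
theorem cm23_hM [IsLocalRing R] (n : ℕ) (hn : IsUnit (n : R)) :
    ((n : ℕ) : IsLocalRing.ResidueField R) ≠ 0 := by
  have := (hn.map (IsLocalRing.residue R)).ne_zero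
  rwa [map_natCast] at this

omit [IsDomain R] [IsDiscreteValuationRing R] [IsFractionRing R K] [CharZero K] [Algebra R K]
  [Algebra K Kbar] [Algebra.IsAlgebraic K Kbar] [NeZero M] in
/-- transcendence in `F(M)_K` from transcendence of the Laurent series. -/
theorem cm23_transcendental (x : ↥(modularFunctionFieldFullC K M))
    (hx : Transcendental K (x : LaurentSeries K)) : Transcendental K x := fun halg =>
  hx (halg.algHom (IntermediateField.val (modularFunctionFieldFullC K M)))

variable {R K M}

/-- **Level 2, both charts.**  `2 ∣ M`, `2` and `M` units of `R`, `x = h₂` (helper70's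
`h70_h2 K` as an element of `F(M)_K`): the special fibres of the charts of `x` and `x⁻¹` are
Dedekind domains. -/
theorem cm23_level2 {π : R} (hπ : Irreducible π) (h2M : 2 ∣ M) (h2u : IsUnit (2 : R))
    (hMu : IsUnit (M : R)) (x : ↥(modularFunctionFieldFullC K M))
    (hx : (x : LaurentSeries K) = h70_h2 K) :
    IsDedekindDomain (pk15_chart R ({x} : Set ↥(modularFunctionFieldFullC K M)) ⧸
      Ideal.span {algebraMap R (pk15_chart R ({x} : Set ↥(modularFunctionFieldFullC K M))) π}) ∧
    IsDedekindDomain (pk15_chart R ({x⁻¹} : Set ↥(modularFunctionFieldFullC K M)) ⧸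
      Ideal.span {algebraMap R (pk15_chart R ({x⁻¹} : Set ↥(modularFunctionFieldFullC K M))) π}) := by
  have hxtr : Transcendental K x :=
    cm23_transcendental K M x (by rw [hx]; exact h70_h2_transcendental K)
  have hxtr' : Transcendental K x⁻¹ := fun h => hxtr (by simpa using h.inv)
  have hrel : rm90_j K M * x ^ 2 = (x + 256) ^ 3 := by
    apply Subtype.ext
    push_cast
    rw [hx]
    exact h70_j_mul_h2_sq K
  have hred := cm23_hred R hπ
  have hMκ := cm23_hM R M hMu
  set ι := fd27_iota (algebraMap K Kbar) M with hιdef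
  have hι : ∀ a : K, ι (algebraMap K ↥(modularFunctionFieldFullC K M) a) =
      algebraMap Kbar ↥(modularFunctionFieldBar M) (algebraMap K Kbar a) :=
    fun a => fd27_iota_algebraMap (algebraMap K Kbar) M a
  have hz : ι x = g94_h2bar M h2M :=
    hi94_iota_eq M x _ (by rw [hx, h70_coeffMap_h2]; rfl)
  have h64 : IsUnit (64 : R) := by
    have : (64 : R) = 2 ^ 6 := by norm_num
    rw [this]; exact h2u.pow 6
  constructor
  · -- the chart `x = h`
    letI : Algebra R[X] ↥(modularFunctionFieldFullC K M) := ci39_alg R K x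
    have hC := ci39_alg_C R K x
    have hX := ci39_alg_X R K x
    refine cm23_chart M hπ hC x hX hxtr (-64) h64.neg M 2 hMu (by exact_mod_cast h2u)
      (fun E _ _ _ _ _ => ?_) (fun E _ _ _ _ _ _ _ p hp hpc => ?_) ?_ ?_
    · have h := vc90_level2 K M π hπ.prime (IsLocalRing.ResidueField R) (IsLocalRing.residue R)
        hred hMκ x hrel h2u rfl (E := E)
      exact ⟨h.1, h.2.1⟩
    · exact hi94_hH_level2 M h2M hπ hC (by rw [hX]; exact hx) p hp hpc
    · exact ts27_tame2_zero M ι hι _ (g94_h2bar_rel M h2M) x hz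
    · refine ts27_tame2_ell M ι hι _ (g94_h2bar_rel M h2M) _ ?_
      rw [map_sub, hι, hz, map_neg, map_neg, map_neg, sub_neg_eq_add, map_ofNat, map_ofNat,
        map_ofNat]
  · -- the chart `x = h⁻¹`
    obtain ⟨d, hd⟩ := h64.exists_left_inv
    have hc64 : (-d) * 64 = -1 := by rw [neg_mul, hd]
    have hcu : IsUnit (-d) := IsUnit.of_mul_eq_one (-64) (by linear_combination hd)
    letI : Algebra R[X] ↥(modularFunctionFieldFullC K M) := ci39_alg R K x⁻¹
    have hC := ci39_alg_C R K x⁻¹
    have hX := ci39_alg_X R K x⁻¹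
    refine cm23_chart M hπ hC x⁻¹ hX hxtr' (-d) hcu M 2 hMu (by exact_mod_cast h2u)
      (fun E _ _ _ _ _ => ?_) (fun E _ _ _ _ _ _ _ p hp hpc => ?_) ?_ ?_
    · have h := vc90_level2_inv K M π hπ.prime (IsLocalRing.ResidueField R)
        (IsLocalRing.residue R) hred hMκ x hrel h2u rfl (E := E)
      exact ⟨h.1, h.2.1⟩
    · refine hi94_hH_level2_inv M h2M hπ hC ?_ (-d) hc64 p hp hpc
      rw [hX, h70_h2inv_eq_inv, ← hx]
      rfl
    · exact ts27_tame2_inv_zero M ι hι _ (g94_h2bar_rel M h2M) x⁻¹ (by rw [map_inv₀, hz])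
    · refine ts27_tame2_inv_ell M ι hι _ (g94_h2bar_rel M h2M)
        (algebraMap K Kbar (algebraMap R K (-d))) ?_ _ ?_
      · have h1 : algebraMap K Kbar (algebraMap R K ((-d) * 64)) =
            algebraMap K Kbar (algebraMap R K (-1)) := by rw [hc64]
        rw [map_mul, map_mul, map_ofNat, map_ofNat, map_neg (algebraMap R K) 1, map_one,
          map_neg (algebraMap K Kbar) 1, map_one] at h1
        exact h1
      · rw [map_sub, hι, map_inv₀, hz]

/-- **Level 3, both charts.**  `3 ∣ M`, `3` and `M` units of `R`, `x = h₃` (helper34's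
`h34_h3R K` as an element of `F(M)_K`): the special fibres of the charts of `x` and `x⁻¹` are
Dedekind domains. -/
theorem cm23_level3 {π : R} (hπ : Irreducible π) (h3M : 3 ∣ M) (h3u : IsUnit (3 : R))
    (hMu : IsUnit (M : R)) (x : ↥(modularFunctionFieldFullC K M))
    (hx : (x : LaurentSeries K) = h34_h3R K) :
    IsDedekindDomain (pk15_chart R ({x} : Set ↥(modularFunctionFieldFullC K M)) ⧸
      Ideal.span {algebraMap R (pk15_chart R ({x} : Set ↥(modularFunctionFieldFullC K M))) π}) ∧
    IsDedekindDomain (pk15_chart R ({x⁻¹} : Set ↥(modularFunctionFieldFullC K M)) ⧸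
      Ideal.span {algebraMap R (pk15_chart R ({x⁻¹} : Set ↥(modularFunctionFieldFullC K M))) π}) := by
  have hxtr : Transcendental K x :=
    cm23_transcendental K M x (by rw [hx]; exact h34_h3R_transcendental K)
  have hxtr' : Transcendental K x⁻¹ := fun h => hxtr (by simpa using h.inv)
  have hrel : rm90_j K M * x ^ 3 = (x + 27) * (x + 243) ^ 3 := by
    apply Subtype.ext
    push_cast
    rw [hx]
    exact h34_h3R_j K
  have hred := cm23_hred R hπ
  have hMκ := cm23_hM R M hMu
  set ι := fd27_iota (algebraMap K Kbar) M with hιdef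
  have hι : ∀ a : K, ι (algebraMap K ↥(modularFunctionFieldFullC K M) a) =
      algebraMap Kbar ↥(modularFunctionFieldBar M) (algebraMap K Kbar a) :=
    fun a => fd27_iota_algebraMap (algebraMap K Kbar) M a
  have hz : ι x = h53m_h3bar M h3M :=
    hi94_iota_eq M x _ (by rw [hx, h34_coeffMap_h3R]; rfl)
  have h27 : IsUnit (27 : R) := by
    have : (27 : R) = 3 ^ 3 := by norm_num
    rw [this]; exact h3u.pow 3
  constructor
  · -- the chart `x = h`
    letI : Algebra R[X] ↥(modularFunctionFieldFullC K M) := ci39_alg R K x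
    have hC := ci39_alg_C R K x
    have hX := ci39_alg_X R K x
    refine cm23_chart M hπ hC x hX hxtr (-27) h27.neg M 3 hMu (by exact_mod_cast h3u)
      (fun E _ _ _ _ _ => ?_) (fun E _ _ _ _ _ _ _ p hp hpc => ?_) ?_ ?_
    · have h := vc90_level3 K M π hπ.prime (IsLocalRing.ResidueField R) (IsLocalRing.residue R)
        hred hMκ x hrel h3u rfl (E := E)
      exact ⟨h.1, h.2.1⟩
    · exact hi94_hH_level3 M h3M hπ hC (by rw [hX]; exact hx) p hp hpc
    · exact ts27_tame3_zero M ι hι _ (h53m_h3bar_rel M h3M) x hz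
    · refine ts27_tame3_ell M ι hι _ (h53m_h3bar_rel M h3M) _ ?_
      rw [map_sub, hι, hz, map_neg, map_neg, map_neg, sub_neg_eq_add, map_ofNat, map_ofNat,
        map_ofNat]
  · -- the chart `x = h⁻¹`
    obtain ⟨d, hd⟩ := h27.exists_left_inv
    have hc27 : (-d) * 27 = -1 := by rw [neg_mul, hd]
    have hcu : IsUnit (-d) := IsUnit.of_mul_eq_one (-27) (by linear_combination hd)
    letI : Algebra R[X] ↥(modularFunctionFieldFullC K M) := ci39_alg R K x⁻¹
    have hC := ci39_alg_C R K x⁻¹
    have hX := ci39_alg_X R K x⁻¹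
    refine cm23_chart M hπ hC x⁻¹ hX hxtr' (-d) hcu M 3 hMu (by exact_mod_cast h3u)
      (fun E _ _ _ _ _ => ?_) (fun E _ _ _ _ _ _ _ p hp hpc => ?_) ?_ ?_
    · have h := vc90_level3_inv K M π hπ.prime (IsLocalRing.ResidueField R)
        (IsLocalRing.residue R) hred hMκ x hrel h3u rfl (E := E)
      exact ⟨h.1, h.2.1⟩
    · refine hi94_hH_level3_inv M h3M hπ hC ?_ (-d) hc27 p hp hpc
      rw [hX, h34_h3Rinv_eq_inv, ← hx]
      rfl
    · exact ts27_tame3_inv_zero M ι hι _ (h53m_h3bar_rel M h3M) x⁻¹ (by rw [map_inv₀, hz])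
    · refine ts27_tame3_inv_ell M ι hι _ (h53m_h3bar_rel M h3M)
        (algebraMap K Kbar (algebraMap R K (-d))) ?_ _ ?_
      · have h1 : algebraMap K Kbar (algebraMap R K ((-d) * 27)) =
            algebraMap K Kbar (algebraMap R K (-1)) := by rw [hc27]
        rw [map_mul, map_mul, map_ofNat, map_ofNat, map_neg (algebraMap R K) 1, map_one,
          map_neg (algebraMap K Kbar) 1, map_one] at h1
        exact h1
      · rw [map_sub, hι, map_inv₀, hz]

end Concrete

end Fermat.Agent.S18
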