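import Mathlib
import Fermat.Prelude.Def_ModularCurve_ArithmeticGalois
import Fermat.Prelude.Def_ModularCurve_X0ModL

/-!
# S18 glue (helper36): change of the coefficient field for the modular function fields

`F(M)_K = modularFunctionFieldFullC K M = K(j(q^d) : d ∣ M) ⊆ K((q))`.

* `cg36_coeffMap_mem_fullC` : a field homomorphism `φ : K → K'` maps `F(M)_K` into `F(M)_{K'}`
  (coefficientwise);
* `cg36_baseChange_eq_fullC` : `laurentBaseChange L (modularFunctionFieldFull M) = F(M)_L`, in
  particular `modularFunctionFieldBar M = F(M)_ℚ̄` (`cg36_bar_eq_fullC`);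
* `cg36_iota φ M : F(M)_K →+* F(M)_{K'}` and `cg36_iotaBar K₀ M : F(M)_{K₀} →+* F(M)_ℚ̄` for an
  intermediate field `K₀` of `ℚ̄ / ℚ`, with the compatibility with constants and
  `cg36_adjoin_range` : `F(M)_ℚ̄` is generated over `ℚ̄` by the image of `F(M)_{K₀}`;

(The choice of a number field `K₀` and the descent of integral series are in `CoeffGlueB36`.)
-/

set_option autoImplicit false

open HahnSeries IntermediateField ModularCurve

namespace Fermat.Agent.S18

section G0

variable {K K' : Type*} [Field K] [Field K']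

theorem cg36_coeffMap_algebraMap (φ : K →+* K') (c : K) :
    coeffMap φ (algebraMap K (LaurentSeries K) c) = algebraMap K' (LaurentSeries K') (φ c) := by
  rw [algebraMap_laurentSeries_eq_single, algebraMap_laurentSeries_eq_single, coeffMap_single]

/-- A field homomorphism maps `F(M)_K` into `F(M)_{K'}` coefficientwise. -/
theorem cg36_coeffMap_mem_fullC (φ : K →+* K') (M : ℕ) {x : LaurentSeries K}
    (hx : x ∈ modularFunctionFieldFullC K M) : coeffMap φ x ∈ modularFunctionFieldFullC K' M := by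
  unfold modularFunctionFieldFullC at hx
  induction hx using IntermediateField.adjoin_induction with
  | mem y hy =>
    obtain ⟨d, hne, hdvd, rfl⟩ := hy
    have := hne
    rw [coeffMap_qExpand, coeffMap_jqModC]
    exact jqModCd_mem_full K' M hdvd
  | algebraMap c =>
    rw [cg36_coeffMap_algebraMap]
    exact IntermediateField.algebraMap_mem _ _
  | add x y _ _ hx hy => rw [map_add]; exact add_mem hx hy
  | inv x _ hx => rw [map_inv₀]; exact inv_mem hx
  | mul x y _ _ hx hy => rw [map_mul]; exact mul_mem hx hy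

theorem cg36_coeffMap_injective (φ : K →+* K') :
    Function.Injective (coeffMap φ : LaurentSeries K → LaurentSeries K') := by
  intro x y h
  ext n
  have h1 := congrArg (fun z => z.coeff n) h
  simp only [coeffMap_coeff] at h1
  exact φ.injective h1

/-- The coefficientwise map `F(M)_K →+* F(M)_{K'}`. -/
noncomputable def cg36_iota (φ : K →+* K') (M : ℕ) :
    ↥(modularFunctionFieldFullC K M) →+* ↥(modularFunctionFieldFullC K' M) :=
  ((coeffMap φ).comp (modularFunctionFieldFullC K M).toSubring.subtype).codRestrict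
    (modularFunctionFieldFullC K' M).toSubring (fun x => cg36_coeffMap_mem_fullC φ M x.2)

@[simp]
theorem cg36_iota_coe (φ : K →+* K') (M : ℕ) (x : ↥(modularFunctionFieldFullC K M)) :
    ((cg36_iota φ M x : ↥(modularFunctionFieldFullC K' M)) : LaurentSeries K') =
      coeffMap φ (x : LaurentSeries K) := rfl

theorem cg36_iota_injective (φ : K →+* K') (M : ℕ) : Function.Injective (cg36_iota φ M) :=
  (cg36_iota φ M).injective

theorem cg36_iota_algebraMap (φ : K →+* K') (M : ℕ) (c : K) :
    cg36_iota φ M (algebraMap K _ c) = algebraMap K' _ (φ c) := by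
  apply Subtype.ext
  rw [cg36_iota_coe]
  exact cg36_coeffMap_algebraMap φ c

end G0

section BaseChange

variable (L : Type*) [Field L] [Algebra ℚ L]

/-- The Prelude's base change of `F(M)_ℚ` is `F(M)_L`. -/
theorem cg36_baseChange_eq_fullC (M : ℕ) :
    laurentBaseChange L (modularFunctionFieldFull M) = modularFunctionFieldFullC L M := by
  apply le_antisymm
  · unfold laurentBaseChange
    rw [IntermediateField.adjoin_le_iff]
    rintro y ⟨x, hx, rfl⟩
    exact cg36_coeffMap_mem_fullC (algebraMap ℚ L) M hx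
  · unfold modularFunctionFieldFullC
    rw [IntermediateField.adjoin_le_iff]
    rintro y ⟨d, hne, hdvd, rfl⟩
    have := hne
    have h1 : qExpand L d (jqModC L) = coeffEmb L (qExpand ℚ d (jqModC ℚ)) := by
      show _ = coeffMap (algebraMap ℚ L) _
      rw [coeffMap_qExpand, coeffMap_jqModC]
    rw [h1]
    exact coeffEmb_mem_laurentBaseChange L (jqModCd_mem_full ℚ M hdvd)

end BaseChange

/-- `modularFunctionFieldBar M = F(M)_ℚ̄`. -/
theorem cg36_bar_eq_fullC (M : ℕ) :
    modularFunctionFieldBar M = modularFunctionFieldFullC (AlgebraicClosure ℚ) M :=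
  cg36_baseChange_eq_fullC (AlgebraicClosure ℚ) M

section Bar

local notation "Qb" => AlgebraicClosure ℚ

variable (K₀ : IntermediateField ℚ Qb) (M : ℕ)

theorem cg36_coeffMap_mem_bar {x : LaurentSeries ↥K₀} (hx : x ∈ modularFunctionFieldFullC ↥K₀ M) :
    coeffMap (algebraMap ↥K₀ Qb) x ∈ modularFunctionFieldBar M := by
  rw [cg36_bar_eq_fullC]
  exact cg36_coeffMap_mem_fullC _ M hx

/-- The coefficientwise embedding `F(M)_{K₀} →+* F(M)_ℚ̄`. -/
noncomputable def cg36_iotaBar :
    ↥(modularFunctionFieldFullC ↥K₀ M) →+* ↥(modularFunctionFieldBar M) :=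
  ((coeffMap (algebraMap ↥K₀ Qb)).comp (modularFunctionFieldFullC ↥K₀ M).toSubring.subtype).codRestrict
    (modularFunctionFieldBar M).toSubring (fun x => cg36_coeffMap_mem_bar K₀ M x.2)

@[simp]
theorem cg36_iotaBar_coe (x : ↥(modularFunctionFieldFullC ↥K₀ M)) :
    ((cg36_iotaBar K₀ M x : ↥(modularFunctionFieldBar M)) : LaurentSeries Qb) =
      coeffMap (algebraMap ↥K₀ Qb) (x : LaurentSeries ↥K₀) := rfl

theorem cg36_iotaBar_injective : Function.Injective (cg36_iotaBar K₀ M) :=
  (cg36_iotaBar K₀ M).injective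

/-- Compatibility with the constants (`hι` of `hd94_*`, `pe84_*`, `cx_place_*`). -/
theorem cg36_iotaBar_algebraMap (c : ↥K₀) :
    cg36_iotaBar K₀ M (algebraMap ↥K₀ ↥(modularFunctionFieldFullC ↥K₀ M) c) =
      algebraMap Qb ↥(modularFunctionFieldBar M) (algebraMap ↥K₀ Qb c) := by
  apply Subtype.ext
  rw [cg36_iotaBar_coe]
  exact cg36_coeffMap_algebraMap _ c

/-- The image of `j(q^d)`. -/
theorem cg36_iotaBar_Jd {d : ℕ} [NeZero d] (hd : d ∣ M) :
    ((cg36_iotaBar K₀ M ⟨qExpand ↥K₀ d (jqModC ↥K₀), jqModCd_mem_full ↥K₀ M hd⟩ :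
      ↥(modularFunctionFieldBar M)) : LaurentSeries Qb) = qExpand Qb d (jqModC Qb) := by
  rw [cg36_iotaBar_coe]
  show coeffMap _ (qExpand ↥K₀ d (jqModC ↥K₀)) = _
  rw [coeffMap_qExpand, coeffMap_jqModC]

/-- The image of `j`. -/
theorem cg36_iotaBar_J :
    ((cg36_iotaBar K₀ M ⟨jqModC ↥K₀, jqModC_mem_full ↥K₀ M⟩ :
      ↥(modularFunctionFieldBar M)) : LaurentSeries Qb) = jqModC Qb := by
  rw [cg36_iotaBar_coe]
  show coeffMap _ (jqModC ↥K₀) = _
  rw [coeffMap_jqModC]

/-- `F(M)_ℚ̄` is generated over `ℚ̄` by the image of `F(M)_{K₀}` (`hgen` of `cx_place_*`). -/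
theorem cg36_adjoin_range :
    IntermediateField.adjoin Qb (Set.range (cg36_iotaBar K₀ M)) = ⊤ := by
  have hle : modularFunctionFieldBar M ≤
      IntermediateField.lift (IntermediateField.adjoin Qb (Set.range (cg36_iotaBar K₀ M))) := by
    show laurentBaseChange Qb (modularFunctionFieldFull M) ≤ _
    unfold laurentBaseChange
    rw [IntermediateField.adjoin_le_iff]
    rintro y ⟨z, hz, rfl⟩
    have hz' : coeffMap (algebraMap ℚ ↥K₀) z ∈ modularFunctionFieldFullC ↥K₀ M :=
      cg36_coeffMap_mem_fullC _ M hz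
    have h1 : coeffEmb Qb z =
        ((cg36_iotaBar K₀ M ⟨coeffMap (algebraMap ℚ ↥K₀) z, hz'⟩ :
          ↥(modularFunctionFieldBar M)) : LaurentSeries Qb) := by
      rw [cg36_iotaBar_coe]
      show coeffMap (algebraMap ℚ Qb) z = coeffMap _ (coeffMap _ z)
      rw [coeffMap_coeffMap]
      exact coeffMap_congr (RingHom.ext fun c => rfl) z
    rw [h1, SetLike.mem_coe, IntermediateField.mem_lift]
    exact IntermediateField.subset_adjoin _ _ ⟨_, rfl⟩
  rw [eq_top_iff]
  rintro ⟨y, hy⟩ -
  exact (IntermediateField.mem_lift ⟨y, hy⟩).mp (hle hy)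

end Bar

end Fermat.Agent.S18
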