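import Mathlib
import Fermat.Agent.S18.CoeffGlue36
import Fermat.Agent.S18.NumFieldDVR23

/-!
# S18 glue (helper36): the field of definition of finitely many elements of `F(M)_ℚ̄`

* `cg36_exists_finset` : every element of `F(M)_ℚ̄` is the coefficientwise image of an element of
  `F(M)_{K₀}` for every intermediate field `K₀` containing a suitable finite set;
* `cg36_exists_numberField` : finitely many elements of `F(M)_ℚ̄` come from `F(M)_{K₀}` for a
  number field `K₀` (which may be required to contain a given finite set);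
* `cg36_descend_integral` : a series over `K` whose image under `f : K →+* L` has coefficients in
  the valuation ring `A` of `L` has coefficients in `A ∩ K = A.comap f`.
-/

set_option autoImplicit false

open HahnSeries IntermediateField ModularCurve

namespace Fermat.Agent.S18

section Finset

local notation "Qb" => AlgebraicClosure ℚ

open Classical in
/-- Every element of `F(M)_ℚ̄` is defined over every intermediate field containing a suitable
finite set of constants. -/
theorem cg36_exists_finset (M : ℕ) {x : LaurentSeries Qb} (hx : x ∈ modularFunctionFieldBar M) :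
    ∃ S : Finset Qb, ∀ K₀ : IntermediateField ℚ Qb, (S : Set Qb) ⊆ K₀ →
      ∃ x₀ ∈ modularFunctionFieldFullC ↥K₀ M, coeffMap (algebraMap ↥K₀ Qb) x₀ = x := by
  unfold modularFunctionFieldBar laurentBaseChange at hx
  induction hx using IntermediateField.adjoin_induction with
  | mem y hy =>
    obtain ⟨z, hz, rfl⟩ := hy
    refine ⟨∅, fun K₀ _ => ⟨coeffMap (algebraMap ℚ ↥K₀) z, cg36_coeffMap_mem_fullC _ M hz, ?_⟩⟩
    show coeffMap _ (coeffMap _ z) = coeffMap (algebraMap ℚ Qb) z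
    rw [coeffMap_coeffMap]
    exact coeffMap_congr (RingHom.ext fun c => rfl) z
  | algebraMap c =>
    refine ⟨{c}, fun K₀ hK₀ => ?_⟩
    have hc : c ∈ K₀ := hK₀ (by simp)
    refine ⟨algebraMap ↥K₀ (LaurentSeries ↥K₀) ⟨c, hc⟩, IntermediateField.algebraMap_mem _ _, ?_⟩
    rw [cg36_coeffMap_algebraMap]
    rfl
  | add x y _ _ hx hy =>
    obtain ⟨S₁, h₁⟩ := hx
    obtain ⟨S₂, h₂⟩ := hy
    refine ⟨S₁ ∪ S₂, fun K₀ hK₀ => ?_⟩
    obtain ⟨x₀, hx₀, rfl⟩ := h₁ K₀ (fun a ha => hK₀ (by simp [Finset.mem_coe.mp ha]))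
    obtain ⟨y₀, hy₀, rfl⟩ := h₂ K₀ (fun a ha => hK₀ (by simp [Finset.mem_coe.mp ha]))
    exact ⟨x₀ + y₀, add_mem hx₀ hy₀, map_add _ _ _⟩
  | inv x _ hx =>
    obtain ⟨S₁, h₁⟩ := hx
    refine ⟨S₁, fun K₀ hK₀ => ?_⟩
    obtain ⟨x₀, hx₀, rfl⟩ := h₁ K₀ hK₀
    exact ⟨x₀⁻¹, inv_mem hx₀, map_inv₀ _ _⟩
  | mul x y _ _ hx hy =>
    obtain ⟨S₁, h₁⟩ := hx
    obtain ⟨S₂, h₂⟩ := hy
    refine ⟨S₁ ∪ S₂, fun K₀ hK₀ => ?_⟩
    obtain ⟨x₀, hx₀, rfl⟩ := h₁ K₀ (fun a ha => hK₀ (by simp [Finset.mem_coe.mp ha]))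
    obtain ⟨y₀, hy₀, rfl⟩ := h₂ K₀ (fun a ha => hK₀ (by simp [Finset.mem_coe.mp ha]))
    exact ⟨x₀ * y₀, mul_mem hx₀ hy₀, map_mul _ _ _⟩

open Classical in
/-- The same for finitely many elements. -/
theorem cg36_exists_finset_of_finset (M : ℕ) (s : Finset (LaurentSeries Qb))
    (hs : ∀ x ∈ s, x ∈ modularFunctionFieldBar M) :
    ∃ S : Finset Qb, ∀ K₀ : IntermediateField ℚ Qb, (S : Set Qb) ⊆ K₀ →
      ∀ x ∈ s, ∃ x₀ ∈ modularFunctionFieldFullC ↥K₀ M, coeffMap (algebraMap ↥K₀ Qb) x₀ = x := by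
  induction s using Finset.induction_on with
  | empty => exact ⟨∅, fun _ _ x hx => absurd hx (Finset.notMem_empty x)⟩
  | insert a s _ ih =>
    obtain ⟨S₁, h₁⟩ := ih (fun x hx => hs x (Finset.mem_insert_of_mem hx))
    obtain ⟨S₂, h₂⟩ := cg36_exists_finset M (hs a (Finset.mem_insert_self a s))
    refine ⟨S₁ ∪ S₂, fun K₀ hK₀ x hx => ?_⟩
    rcases Finset.mem_insert.mp hx with rfl | hx
    · exact h₂ K₀ (fun a ha => hK₀ (by simp [Finset.mem_coe.mp ha]))
    · exact h₁ K₀ (fun a ha => hK₀ (by simp [Finset.mem_coe.mp ha])) x hx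

open Classical in
/-- **Field of definition.** Finitely many elements of `F(M)_ℚ̄` come from `F(M)_{K₀}` for a
number field `K₀ ⊆ ℚ̄` containing a prescribed finite set `T`. -/
theorem cg36_exists_numberField (M : ℕ) (T : Finset Qb) (s : Finset (LaurentSeries Qb))
    (hs : ∀ x ∈ s, x ∈ modularFunctionFieldBar M) :
    ∃ K₀ : IntermediateField ℚ Qb, NumberField ↥K₀ ∧ (T : Set Qb) ⊆ K₀ ∧
      ∀ x ∈ s, ∃ x₀ ∈ modularFunctionFieldFullC ↥K₀ M, coeffMap (algebraMap ↥K₀ Qb) x₀ = x := by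
  obtain ⟨S, hS⟩ := cg36_exists_finset_of_finset M s hs
  have halg : Algebra.IsAlgebraic ℚ Qb := AlgebraicClosure.isAlgebraic ℚ
  obtain ⟨K₀, hK₀, hsub⟩ := nf23_exists_numberField (L := Qb) (T ∪ S)
  refine ⟨K₀, hK₀, fun a ha => hsub (by simp [Finset.mem_coe.mp ha]), ?_⟩
  exact hS K₀ (fun a ha => hsub (by simp [Finset.mem_coe.mp ha]))

end Finset

section Integral

variable {K L : Type*} [Field K] [Field L] (f : K →+* L) (A : ValuationSubring L)

/-- A series over `K` whose image under `f` has coefficients in `A` has coefficients in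
`A ∩ K`; its image over `A` is the given integral series. -/
theorem cg36_descend_integral (a : LaurentSeries A) (a₀ : LaurentSeries K)
    (h : coeffMap f a₀ = coeffMap A.subtype a) :
    ∃ a₁ : LaurentSeries ↥(A.comap f),
      coeffMap (algebraMap ↥(A.comap f) K) a₁ = a₀ ∧ coeffMap (nf23_comapHom f A) a₁ = a := by
  have hc : ∀ n : ℤ, f (a₀.coeff n) = ((a.coeff n : A) : L) := by
    intro n
    have h1 := congrArg (fun z => z.coeff n) h
    simp only [coeffMap_coeff] at h1
    exact h1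
  have hmem : ∀ n : ℤ, a₀.coeff n ∈ A.comap f := by
    intro n
    rw [ValuationSubring.mem_comap, hc n]
    exact (a.coeff n).2
  have hsupp : Function.support (fun n : ℤ => (⟨a₀.coeff n, hmem n⟩ : ↥(A.comap f))) ⊆
      a₀.support := by
    intro n hn
    rw [Function.mem_support] at hn
    rw [HahnSeries.mem_support]
    intro h0
    exact hn (Subtype.ext h0)
  refine ⟨⟨fun n => ⟨a₀.coeff n, hmem n⟩, a₀.isPWO_support.mono hsupp⟩, ?_, ?_⟩
  · ext n
    rw [coeffMap_coeff]
    rfl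
  · ext n
    rw [coeffMap_coeff, nf23_comapHom_coe]
    exact hc n

end Integral

end Fermat.Agent.S18
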