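import Mathlib

/-!
# S18, row A8 (owner: helper25): constant field extensions are unramified

Generic, Mathlib only.  Names are prefixed `cx_`.

* `cx_fin_ramificationIdx` : finite step.  `C` the integral closure of a Dedekind domain `A` in
  `L = F(θ)`, `θ ∈ C` a root of a separable polynomial over `A`  ⟹  ramification index one at every
  nonzero prime of `C` (the derivative of the minimal polynomial is a unit, so the different
  ideal is trivial).
* `cx_valuation_eq_of_comap`, `cx_exists_valuation_eq` : `A` Dedekind containing a field `k` of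
  characteristic `0`, `F = Frac A`, `K / k` algebraic, `E = F · K`, `B` Dedekind = integral closure
  of `A` in `E`: for every height one prime `w` of `B` over `w0` of `A` the `w`-adic valuation
  restricts to the `w0`-adic valuation (as elements of `ℤᵐ⁰`), and such `w` exists.
* `cx_hgen_of_adjoin` : the hypothesis `E = F · K` in the form "`E` is generated over `K` by the
  image of `F`" implies the elementwise form used above.
* `cx_isDedekindDomain`, `cx_isFractionRing`, `cx_integralClosure_valuation` : the concrete
  function field form for the integral closures of `K0[x]` in `E0` and of `K[x]` in `E`.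
-/

set_option autoImplicit false
set_option linter.style.haveILetI false
set_option linter.unusedSectionVars false

namespace Fermat.Agent.S18

open Polynomial IsDedekindDomain IsDedekindDomain.HeightOneSpectrum WithZero IntermediateField

section cx_finite

attribute [local instance] FractionRing.liftAlgebra FractionRing.isScalarTower_liftAlgebra

variable {A C : Type*} [CommRing A] [IsDedekindDomain A] [CharZero A]
  [CommRing C] [IsDedekindDomain C] [Algebra A C] [Module.IsTorsionFree A C] [Module.Finite A C]

omit [Module.Finite A C] [CharZero A] [IsDedekindDomain A] in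
/-- If `θ` is a root of a separable polynomial over `A`, the derivative of its minimal polynomial
is a unit at `θ`. -/
theorem cx_isUnit_aeval_derivative_minpoly [IsDomain A] [IsIntegrallyClosed A]
    (θ : C) (hint : IsIntegral A θ) (f : A[X]) (hf : f.Separable)
    (hfθ : aeval θ f = 0) : IsUnit (aeval θ (derivative (minpoly A θ))) := by
  obtain ⟨h, hh⟩ := minpoly.isIntegrallyClosed_dvd hint hfθ
  obtain ⟨a, b, hab⟩ := hf
  have h1 : aeval θ b * aeval θ (derivative f) = 1 := by
    have := congrArg (aeval θ) hab
    simpa [hfθ] using this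
  have h2 : aeval θ (derivative f) = aeval θ (derivative (minpoly A θ)) * aeval θ h := by
    rw [hh, derivative_mul]
    simp [minpoly.aeval]
  refine IsUnit.of_mul_eq_one (aeval θ h * aeval θ b) ?_
  rw [← mul_assoc, ← h2, mul_comm]
  exact h1

variable {F L : Type*} [Field F] [Algebra A F] [IsFractionRing A F]
  [Field L] [Algebra C L] [IsFractionRing C L] [Algebra F L] [Algebra A L] [IsScalarTower A F L]
  [IsScalarTower A C L] [FiniteDimensional F L] [Algebra.IsSeparable F L] [IsIntegralClosure C A L]

/-- **Finite step.**  `C` the integral closure of the Dedekind domain `A` in `L = F(θ)`, where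
`θ ∈ C` is a root of a separable polynomial with coefficients in `A` (e.g. `θ` a separable
constant).  Then `C / A` is unramified at every nonzero prime. -/
theorem cx_fin_ramificationIdx (θ : C) (hθ : Algebra.adjoin F {algebraMap C L θ} = ⊤)
    (f : A[X]) (hf : f.Separable) (hfθ : aeval θ f = 0) (P : Ideal C) [P.IsPrime] (hP : P ≠ ⊥) :
    (P.under A).ramificationIdx' P = 1 := by
  have hint : IsIntegral A θ := IsIntegralClosure.isIntegral A L θ
  have hmem := aeval_derivative_mem_differentIdeal A F L θ hθ
  have htop : differentIdeal A C = ⊤ :=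
    Ideal.eq_top_of_isUnit_mem _ hmem (cx_isUnit_aeval_derivative_minpoly θ hint f hf hfθ)
  haveI : Algebra.IsSeparable (FractionRing A) (FractionRing C) := inferInstance
  have hunr : Algebra.IsUnramifiedAt A P := by
    rw [← not_dvd_differentIdeal_iff, htop, Ideal.dvd_iff_le]
    exact fun h => (Ideal.IsPrime.ne_top inferInstance) (top_le_iff.mp h)
  letI := Localization.AtPrime.algebraOfLiesOver (P.under A) P
  have h2 := ((Algebra.isUnramifiedAt_iff_map_eq A (P.under A) P).mp hunr).2
  exact Ideal.ramificationIdx'_eq_one_of_map_localization Ideal.map_comap_le hP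
    P.primeCompl_le_nonZeroDivisors h2

end cx_finite

theorem cx_exp_neg_one_le {x : ℤᵐ⁰} (h : ¬ x ≤ exp (-2 : ℤ)) : exp (-1 : ℤ) ≤ x := by
  have hx0 : x ≠ 0 := fun h0 => h (h0 ▸ zero_le)
  rw [← WithZero.exp_log hx0] at h ⊢
  rw [WithZero.exp_le_exp] at h ⊢
  omega

section cx_generic

variable {A F B E : Type*} [CommRing A] [IsDedekindDomain A] [CharZero A]
  [Field F] [Algebra A F] [IsFractionRing A F]
  [CommRing B] [IsDedekindDomain B] [Field E] [Algebra B E] [IsFractionRing B E]
  [Algebra F E] [Algebra A B] [Algebra A E] [IsScalarTower A F E] [IsScalarTower A B E]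
  [IsIntegralClosure B A E]

/-- Key step: if a uniformiser `t` of `w` lies in `F(α)` with `α` a root of a monic separable
polynomial over `A`, then the prime below `w` does not land in `w ^ 2`. -/
theorem cx_not_map_le_sq (α : E) (f : A[X]) (hf : f.Separable) (hmonic : f.Monic)
    (hroot : aeval α f = 0) (w : HeightOneSpectrum B) (t : B)
    (ht : w.intValuation t = exp (-1 : ℤ)) (htα : algebraMap B E t ∈ F⟮α⟯) :
    ¬ (w.asIdeal.comap (algebraMap A B)).map (algebraMap A B) ≤ w.asIdeal ^ 2 := by
  classical
  intro hsq
  have hαint_A : IsIntegral A α := ⟨f, hmonic, hroot⟩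
  have hαint_F : IsIntegral F α := hαint_A.tower_top
  haveI : CharZero F := charZero_of_injective_algebraMap (IsFractionRing.injective A F)
  haveI : FiniteDimensional F F⟮α⟯ := adjoin.finiteDimensional hαint_F
  haveI : IsScalarTower A F⟮α⟯ E := IsScalarTower.of_algebraMap_eq (fun _ => rfl)
  haveI : IsDedekindDomain (integralClosure A F⟮α⟯) :=
    integralClosure.isDedekindDomain A F F⟮α⟯
  haveI : IsFractionRing (integralClosure A F⟮α⟯) F⟮α⟯ :=
    integralClosure.isFractionRing_of_finite_extension F F⟮α⟯
  haveI : Module.Finite A (integralClosure A F⟮α⟯) :=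
    IsIntegralClosure.finite A F F⟮α⟯ _
  haveI : Module.IsTorsionFree A F⟮α⟯ := by
    rw [Module.isTorsionFree_iff_algebraMap_injective, IsScalarTower.algebraMap_eq A F F⟮α⟯]
    exact (algebraMap F F⟮α⟯).injective.comp (IsFractionRing.injective A F)
  -- the generator as an element of `C`
  have hgenint : IsIntegral A (AdjoinSimple.gen F α) := by
    rw [← isIntegral_algebraMap_iff (B := E) (algebraMap F⟮α⟯ E).injective]
    exact hαint_A
  have hθtop : Algebra.adjoin F
      {algebraMap (integralClosure A F⟮α⟯) F⟮α⟯ ⟨AdjoinSimple.gen F α, hgenint⟩} = ⊤ := by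
    have := (adjoin.powerBasis hαint_F).adjoin_gen_eq_top
    rwa [adjoin.powerBasis_gen] at this
  have hroot' : aeval (⟨AdjoinSimple.gen F α, hgenint⟩ : integralClosure A F⟮α⟯) f = 0 := by
    apply Subtype.val_injective
    apply (algebraMap F⟮α⟯ E).injective
    rw [← Subalgebra.aeval_coe, ← aeval_algebraMap_apply]
    simpa using hroot
  -- the map `C → B`
  haveI : IsScalarTower A (integralClosure A F⟮α⟯) E :=
    IsScalarTower.of_algebraMap_eq (fun _ => rfl)
  let φ : integralClosure A F⟮α⟯ →ₐ[A] B := IsIntegralClosure.lift A B E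
  have hφ : ∀ c : integralClosure A F⟮α⟯, algebraMap B E (φ c) = ((c : F⟮α⟯) : E) :=
    fun c => IsIntegralClosure.algebraMap_lift A B E c
  -- the prime `Q1` of `C` below `w`
  haveI hQ1p : (w.asIdeal.comap φ).IsPrime := Ideal.comap_isPrime φ w.asIdeal
  have hunder : (w.asIdeal.comap φ).under A = w.asIdeal.comap (algebraMap A B) := by
    ext a
    simp only [Ideal.under_def, Ideal.mem_comap, AlgHom.commutes]
  -- `t` comes from `C`
  have ht1int : IsIntegral A (⟨algebraMap B E t, htα⟩ : F⟮α⟯) := by
    rw [← isIntegral_algebraMap_iff (B := E) (algebraMap F⟮α⟯ E).injective]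
    exact (IsIntegralClosure.isIntegral_iff (A := B)).mpr ⟨t, rfl⟩
  have hφt1 : φ ⟨⟨algebraMap B E t, htα⟩, ht1int⟩ = t :=
    IsIntegralClosure.algebraMap_injective B A E (by rw [hφ])
  have htmem : t ∈ w.asIdeal := by
    rw [← intValuation_lt_one_iff_mem, ht, ← exp_zero, exp_lt_exp]
    norm_num
  have ht0 : t ≠ 0 := by
    rintro rfl
    rw [map_zero] at ht
    exact WithZero.exp_ne_zero ht.symm
  have hQ1ne : w.asIdeal.comap φ ≠ ⊥ := by
    intro hbot
    have hmem : (⟨⟨algebraMap B E t, htα⟩, ht1int⟩ : integralClosure A F⟮α⟯) ∈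
        w.asIdeal.comap φ := by
      rw [Ideal.mem_comap, hφt1]
      exact htmem
    rw [hbot, Ideal.mem_bot] at hmem
    apply ht0
    rw [← hφt1, hmem, map_zero]
  -- the finite step: `Q1` is unramified over `A`
  have hram := cx_fin_ramificationIdx (F := F) (L := F⟮α⟯)
    (⟨AdjoinSimple.gen F α, hgenint⟩ : integralClosure A F⟮α⟯) hθtop f hf hroot'
    (w.asIdeal.comap φ) hQ1ne
  have hnot : ¬ ((w.asIdeal.comap φ).under A).map (algebraMap A (integralClosure A F⟮α⟯)) ≤
      (w.asIdeal.comap φ) ^ 2 := by
    intro hle
    exact ((Ideal.ramificationIdx'_ne_one_iff Ideal.map_comap_le).mpr hle) hram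
  rw [Ideal.map_le_iff_le_comap, SetLike.not_le_iff_exists] at hnot
  obtain ⟨a, ha, ha2⟩ := hnot
  rw [Ideal.mem_comap] at ha2
  -- valuations in `C`
  set w1 : HeightOneSpectrum (integralClosure A F⟮α⟯) := ⟨w.asIdeal.comap φ, hQ1p, hQ1ne⟩ with hw1
  have hva : exp (-1 : ℤ) ≤ w1.intValuation (algebraMap A (integralClosure A F⟮α⟯) a) := by
    apply cx_exp_neg_one_le
    intro hle
    exact ha2 ((w1.intValuation_le_pow_iff_mem _ 2).mp hle)
  have hvt : w1.intValuation ⟨⟨algebraMap B E t, htα⟩, ht1int⟩ ≤ exp (-1 : ℤ) := by
    have : (⟨⟨algebraMap B E t, htα⟩, ht1int⟩ : integralClosure A F⟮α⟯) ∈ w1.asIdeal ^ 1 := by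
      rw [pow_one]
      show _ ∈ w.asIdeal.comap φ
      rw [Ideal.mem_comap, hφt1]
      exact htmem
    exact (w1.intValuation_le_pow_iff_mem _ 1).mpr this
  have ha0 : algebraMap A (integralClosure A F⟮α⟯) a ≠ 0 := by
    intro h0
    rw [h0, map_zero] at hva
    exact absurd hva (by simp)
  have ha0' : algebraMap (integralClosure A F⟮α⟯) F⟮α⟯
      (algebraMap A (integralClosure A F⟮α⟯) a) ≠ 0 := by
    rwa [Ne, map_eq_zero_iff _ (IsFractionRing.injective (integralClosure A F⟮α⟯) F⟮α⟯)]
  have hle1 : w1.valuation F⟮α⟯
      (algebraMap (integralClosure A F⟮α⟯) F⟮α⟯ ⟨⟨algebraMap B E t, htα⟩, ht1int⟩ /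
        algebraMap (integralClosure A F⟮α⟯) F⟮α⟯
          (algebraMap A (integralClosure A F⟮α⟯) a)) ≤ 1 := by
    rw [map_div₀, valuation_of_algebraMap, valuation_of_algebraMap]
    have hpos : 0 < w1.intValuation (algebraMap A (integralClosure A F⟮α⟯) a) :=
      lt_of_lt_of_le (by simp) hva
    rw [div_le_one₀ hpos]
    exact hvt.trans hva
  obtain ⟨n, d, hnd⟩ := exists_primeCompl_mul_eq_of_integer w1 _ hle1
  have hC : (⟨⟨algebraMap B E t, htα⟩, ht1int⟩ : integralClosure A F⟮α⟯) * (d : integralClosure A F⟮α⟯) =
      algebraMap A (integralClosure A F⟮α⟯) a * n := by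
    apply IsFractionRing.injective (integralClosure A F⟮α⟯) F⟮α⟯
    rw [map_mul, map_mul, ← hnd]
    field_simp
  -- transport to `B`
  have hB : t * φ (d : integralClosure A F⟮α⟯) = algebraMap A B a * φ n := by
    have := congrArg φ hC
    rwa [map_mul, map_mul, hφt1, AlgHom.commutes] at this
  have hd : w.intValuation (φ (d : integralClosure A F⟮α⟯)) = 1 := by
    rw [intValuation_eq_one_iff]
    exact d.2
  have haB : w.intValuation (algebraMap A B a) ≤ exp (-2 : ℤ) := by
    have : algebraMap A B a ∈ w.asIdeal ^ 2 := by
      apply hsq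
      apply Ideal.mem_map_of_mem
      rw [← hunder]
      exact ha
    exact (w.intValuation_le_pow_iff_mem _ 2).mpr this
  have hfin := congrArg w.intValuation hB
  rw [map_mul, map_mul, hd, mul_one, ht] at hfin
  have : exp (-1 : ℤ) ≤ exp (-2 : ℤ) := by
    calc exp (-1 : ℤ) = w.intValuation (algebraMap A B a) * w.intValuation (φ n) := hfin
      _ ≤ exp (-2 : ℤ) * 1 := mul_le_mul' haB (w.intValuation_le_one _)
      _ = exp (-2 : ℤ) := mul_one _
  rw [exp_le_exp] at this
  omega

end cx_generic

section cx_main

variable (k : Type*) {K A F B E : Type*} [Field k] [CharZero k] [Field K] [Algebra k K]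
  [Algebra.IsAlgebraic k K]
  [CommRing A] [IsDedekindDomain A] [Algebra k A] [Field F] [Algebra A F] [IsFractionRing A F]
  [CommRing B] [IsDedekindDomain B] [Field E] [Algebra B E] [IsFractionRing B E]
  [Algebra F E] [Algebra A B] [Algebra A E] [IsScalarTower A F E] [IsScalarTower A B E]
  [Algebra K E] [Algebra k E] [IsScalarTower k K E] [IsScalarTower k A E]
  [IsIntegralClosure B A E]

include k in
/-- **Constant field extensions are unramified.**  `A` a Dedekind domain containing the field `k`
of characteristic `0`, `F = Frac A`; `K / k` algebraic, `E ⊇ F, K` a field in which every element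
lies in some `F(θ)`, `θ ∈ K` (i.e. `E = F · K`); `B` a Dedekind domain with `Frac B = E` which is
the integral closure of `A` in `E`.  Then for every height one prime `w` of `B` lying over the
height one prime `w0` of `A`, the `w`-adic valuation restricts to the `w0`-adic valuation on `F`
(ramification index one). -/
theorem cx_valuation_eq_of_comap (hgen : ∀ y : E, ∃ θ : K, y ∈ F⟮algebraMap K E θ⟯)
    (w0 : HeightOneSpectrum A) (w : HeightOneSpectrum B)
    (hw : w.asIdeal.comap (algebraMap A B) = w0.asIdeal) (u : F) :
    w.valuation E (algebraMap F E u) = w0.valuation F u := by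
  haveI : CharZero A := charZero_of_injective_algebraMap (algebraMap k A).injective
  haveI : Module.IsTorsionFree A B := by
    rw [Module.isTorsionFree_iff_algebraMap_injective]
    have h1 : Function.Injective (algebraMap A E) := by
      rw [IsScalarTower.algebraMap_eq A F E]
      exact (algebraMap F E).injective.comp (IsFractionRing.injective A F)
    rw [IsScalarTower.algebraMap_eq A B E] at h1
    exact Function.Injective.of_comp h1
  haveI : w.asIdeal.LiesOver w0.asIdeal := ⟨hw.symm⟩
  have he : w0.asIdeal.ramificationIdx' w.asIdeal = 1 := by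
    by_contra hne
    have hmap : w0.asIdeal.map (algebraMap A B) ≤ w.asIdeal := by
      rw [Ideal.map_le_iff_le_comap, hw]
    have hsq := (Ideal.ramificationIdx'_ne_one_iff hmap).mp hne
    obtain ⟨t, ht⟩ := w.intValuation_exists_uniformizer
    obtain ⟨θ, hθ⟩ := hgen (algebraMap B E t)
    have hθint_k : IsIntegral k θ := Algebra.IsIntegral.isIntegral θ
    refine cx_not_map_le_sq (F := F) (algebraMap K E θ) ((minpoly k θ).map (algebraMap k A))
      ?_ ?_ ?_ w t ht hθ (hw ▸ hsq)
    · exact ((minpoly.irreducible hθint_k).separable).map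
    · exact (minpoly.monic hθint_k).map _
    · rw [aeval_map_algebraMap, aeval_algebraMap_apply, minpoly.aeval, map_zero]
  have := valuation_liesOver E w0 w u
  rw [he, pow_one] at this
  exact this.symm

include k in
/-- Existence form: over every height one prime of `A` there is a height one prime of `B` whose
valuation restricts to the given one. -/
theorem cx_exists_valuation_eq (hgen : ∀ y : E, ∃ θ : K, y ∈ F⟮algebraMap K E θ⟯)
    (w0 : HeightOneSpectrum A) :
    ∃ w : HeightOneSpectrum B, w.asIdeal.comap (algebraMap A B) = w0.asIdeal ∧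
      ∀ u : F, w.valuation E (algebraMap F E u) = w0.valuation F u := by
  haveI : Algebra.IsIntegral A B := IsIntegralClosure.isIntegral_algebra A E
  have hinj : Function.Injective (algebraMap A B) := by
    have h1 : Function.Injective (algebraMap A E) := by
      rw [IsScalarTower.algebraMap_eq A F E]
      exact (algebraMap F E).injective.comp (IsFractionRing.injective A F)
    rw [IsScalarTower.algebraMap_eq A B E] at h1
    exact Function.Injective.of_comp h1
  obtain ⟨Q, -, hQp, hQ⟩ := Ideal.exists_ideal_over_prime_of_isIntegral w0.asIdeal (⊥ : Ideal B)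
    (by rw [Ideal.comap_bot_of_injective _ hinj]; exact bot_le)
  have hQne : Q ≠ ⊥ := by
    rintro rfl
    rw [Ideal.comap_bot_of_injective _ hinj] at hQ
    exact w0.ne_bot hQ.symm
  exact ⟨⟨Q, hQp, hQne⟩, hQ, fun u => cx_valuation_eq_of_comap k hgen w0 ⟨Q, hQp, hQne⟩ hQ u⟩

end cx_main

section cx_hgen

variable (K0 : Type*) {K E0 E : Type*} [Field K0] [CharZero K0] [Field K] [Algebra K0 K]
  [Algebra.IsAlgebraic K0 K]
  [Field E0] [Algebra K0 E0] [Field E] [Algebra K E] [Algebra E0 E] [Algebra K0 E]
  [IsScalarTower K0 K E] [IsScalarTower K0 E0 E]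

include K0 in
/-- Two constants lie in a common simple constant extension `E0(θ)`. -/
theorem cx_exists_primitive (θ1 θ2 : K) :
    ∃ θ3 : K, algebraMap K E θ1 ∈ E0⟮algebraMap K E θ3⟯ ∧
      algebraMap K E θ2 ∈ E0⟮algebraMap K E θ3⟯ := by
  haveI : FiniteDimensional K0 (IntermediateField.adjoin K0 ({θ1, θ2} : Set K)) :=
    IntermediateField.finiteDimensional_adjoin (fun x _ => Algebra.IsIntegral.isIntegral x)
  obtain ⟨α, hα⟩ := Field.exists_primitive_element K0
    (IntermediateField.adjoin K0 ({θ1, θ2} : Set K))
  have hlift : K0⟮(α : K)⟯ = IntermediateField.adjoin K0 ({θ1, θ2} : Set K) := by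
    rw [← IntermediateField.lift_adjoin_simple, hα, IntermediateField.lift_top]
  refine ⟨(α : K), ?_, ?_⟩
  all_goals
    have hle : K0⟮(α : K)⟯ ≤ IntermediateField.comap (IsScalarTower.toAlgHom K0 K E)
        (IntermediateField.restrictScalars K0 E0⟮algebraMap K E (α : K)⟯) := by
      rw [IntermediateField.adjoin_simple_le_iff]
      exact mem_adjoin_simple_self E0 (algebraMap K E (α : K))
    refine hle ?_
    rw [hlift]
    exact IntermediateField.subset_adjoin K0 _ (by simp)

include K0 in
/-- If `E` is generated over `K` by the image of `E0`, every element of `E` lies in a simple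
constant extension `E0(θ)`, `θ ∈ K`. -/
theorem cx_hgen_of_adjoin
    (hgen : IntermediateField.adjoin K (Set.range (algebraMap E0 E)) = ⊤) (y : E) :
    ∃ θ : K, y ∈ E0⟮algebraMap K E θ⟯ := by
  have hy : y ∈ IntermediateField.adjoin K (Set.range (algebraMap E0 E)) := by
    rw [hgen]; exact IntermediateField.mem_top
  induction hy using IntermediateField.adjoin_induction with
  | mem x hx =>
    obtain ⟨e, rfl⟩ := hx
    exact ⟨0, IntermediateField.algebraMap_mem _ e⟩
  | algebraMap c => exact ⟨c, mem_adjoin_simple_self E0 _⟩
  | add x y _ _ hx hy =>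
    obtain ⟨θ1, h1⟩ := hx
    obtain ⟨θ2, h2⟩ := hy
    obtain ⟨θ3, h31, h32⟩ := cx_exists_primitive K0 (E0 := E0) (E := E) θ1 θ2
    exact ⟨θ3, add_mem (IntermediateField.adjoin_simple_le_iff.mpr h31 h1)
      (IntermediateField.adjoin_simple_le_iff.mpr h32 h2)⟩
  | inv x _ hx =>
    obtain ⟨θ, h⟩ := hx
    exact ⟨θ, inv_mem h⟩
  | mul x y _ _ hx hy =>
    obtain ⟨θ1, h1⟩ := hx
    obtain ⟨θ2, h2⟩ := hy
    obtain ⟨θ3, h31, h32⟩ := cx_exists_primitive K0 (E0 := E0) (E := E) θ1 θ2
    exact ⟨θ3, mul_mem (IntermediateField.adjoin_simple_le_iff.mpr h31 h1)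
      (IntermediateField.adjoin_simple_le_iff.mpr h32 h2)⟩

end cx_hgen


section cx_concrete_basic

open scoped IntermediateField.algebraAdjoinAdjoin

variable {K F : Type*} [Field K] [CharZero K] [Field F] [Algebra K F]

omit [CharZero K] in
theorem cx_isPrincipalIdealRing (y : F) (hy : Transcendental K y) :
    IsPrincipalIdealRing (Algebra.adjoin K {y}) :=
  IsPrincipalIdealRing.of_surjective
    ((AlgEquiv.ofInjective (Polynomial.aeval y) (transcendental_iff_injective.mp hy)).trans
      (Subalgebra.equivOfEq _ _ (Algebra.adjoin_singleton_eq_range_aeval K y).symm)).toRingEquiv.toRingHom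
    ((AlgEquiv.ofInjective (Polynomial.aeval y) (transcendental_iff_injective.mp hy)).trans
      (Subalgebra.equivOfEq _ _ (Algebra.adjoin_singleton_eq_range_aeval K y).symm)).surjective

theorem cx_isDedekindDomain (y : F) (hy : Transcendental K y) [FiniteDimensional K⟮y⟯ F] :
    IsDedekindDomain (integralClosure (Algebra.adjoin K {y}) F) := by
  haveI := cx_isPrincipalIdealRing y hy
  exact integralClosure.isDedekindDomain (Algebra.adjoin K {y}) K⟮y⟯ F

omit [CharZero K] in
theorem cx_isFractionRing (y : F) [FiniteDimensional K⟮y⟯ F] :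
    IsFractionRing (integralClosure (Algebra.adjoin K {y}) F) F :=
  integralClosure.isFractionRing_of_finite_extension K⟮y⟯ F

end cx_concrete_basic

section cx_concrete

variable {K0 K E0 E : Type*} [Field K0] [CharZero K0] [Field K] [CharZero K] [Algebra K0 K]
  [Algebra.IsAlgebraic K0 K]
  [Field E0] [Algebra K0 E0] [Field E] [Algebra K E] [Algebra E0 E] [Algebra K0 E]
  [IsScalarTower K0 K E] [IsScalarTower K0 E0 E]

omit [CharZero K0] [CharZero K] in
/-- A transcendental element stays transcendental after an algebraic extension of constants. -/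
theorem cx_transcendental (x : E0) (hx : Transcendental K0 x) :
    Transcendental K (algebraMap E0 E x) := by
  intro halg
  apply hx
  have h1 : IsAlgebraic K0 (algebraMap E0 E x) := halg.restrictScalars K0
  exact (isAlgebraic_algebraMap_iff (algebraMap E0 E).injective).mp h1

omit [CharZero K0] [CharZero K] [Algebra.IsAlgebraic K0 K] in
/-- Elements of `K0[x]` map into `K[x]`. -/
theorem cx_map_mem_adjoin (x : E0) (r : E0) (hr : r ∈ Algebra.adjoin K0 {x}) :
    algebraMap E0 E r ∈ Algebra.adjoin K {algebraMap E0 E x} := by
  induction hr using Algebra.adjoin_induction with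
  | mem z hz =>
    rw [Set.mem_singleton_iff] at hz
    rw [hz]
    exact Algebra.subset_adjoin (Set.mem_singleton _)
  | algebraMap c =>
    rw [← IsScalarTower.algebraMap_apply K0 E0 E, IsScalarTower.algebraMap_apply K0 K E]
    exact Subalgebra.algebraMap_mem _ _
  | add a b _ _ ha hb => rw [map_add]; exact add_mem ha hb
  | mul a b _ _ ha hb => rw [map_mul]; exact mul_mem ha hb

omit [CharZero K0] [CharZero K] [Algebra.IsAlgebraic K0 K] in
/-- Elements integral over `K0[x]` map to elements integral over `K[x]`. -/
theorem cx_map_isIntegral (x : E0) (b : E0) (hb : IsIntegral (Algebra.adjoin K0 {x}) b) :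
    IsIntegral (Algebra.adjoin K {algebraMap E0 E x}) (algebraMap E0 E b) := by
  let φ : Algebra.adjoin K0 {x} →+* Algebra.adjoin K {algebraMap E0 E x} :=
    ((algebraMap E0 E).comp (algebraMap (Algebra.adjoin K0 {x}) E0)).codRestrict
      (Algebra.adjoin K {algebraMap E0 E x}) (fun r => cx_map_mem_adjoin x r r.2)
  exact IsIntegral.map_of_comp_eq φ (algebraMap E0 E) rfl hb

omit [CharZero K0] [CharZero K] in
/-- Elements of `K[x]` are integral over the integral closure of `K0[x]`. -/
theorem cx_isIntegral_of_mem_adjoin (x : E0) (r : E)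
    (hr : r ∈ Algebra.adjoin K {algebraMap E0 E x}) :
    IsIntegral (integralClosure (Algebra.adjoin K0 {x}) E0) r := by
  haveI : IsScalarTower K0 (integralClosure (Algebra.adjoin K0 {x}) E0) E :=
    IsScalarTower.of_algebraMap_eq (fun c => by
      rw [IsScalarTower.algebraMap_apply K0 E0 E]; rfl)
  induction hr using Algebra.adjoin_induction with
  | mem z hz =>
    rw [Set.mem_singleton_iff] at hz
    rw [hz]
    have hxB : x ∈ integralClosure (Algebra.adjoin K0 {x}) E0 :=
      Subalgebra.algebraMap_mem (integralClosure (Algebra.adjoin K0 {x}) E0)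
        (⟨x, Algebra.self_mem_adjoin_singleton K0 x⟩ : Algebra.adjoin K0 {x})
    exact (isIntegral_algebraMap (R := integralClosure (Algebra.adjoin K0 {x}) E0) (A := E)
      (x := (⟨x, hxB⟩ : integralClosure (Algebra.adjoin K0 {x}) E0)))
  | algebraMap c =>
    have h1 : IsIntegral K0 c := Algebra.IsIntegral.isIntegral c
    have h2 : IsIntegral K0 (algebraMap K E c) := h1.map (IsScalarTower.toAlgHom K0 K E)
    exact h2.tower_top
  | add a b _ _ ha hb => exact ha.add hb
  | mul a b _ _ ha hb => exact ha.mul hb

/-- **Constant field extension, concrete form.**  `K / K0` algebraic, characteristic `0`;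
`E0 / K0` and `E / K` fields with `E0 → E` compatible with `K0 → K`; `x ∈ E0` transcendental over
`K0` with `E0 / K0(x)` and `E / K(x)` finite, and `E` generated over `K` by the image of `E0`.
`B0`, `B` the integral closures of `K0[x]` in `E0` and of `K[x]` in `E`.  Then over every height
one prime `w0` of `B0` there is a height one prime `w` of `B` whose adic valuation restricts to
the `w0`-adic valuation on `E0` (no ramification in constant field extensions). -/
theorem cx_integralClosure_valuation (x : E0) (hx : Transcendental K0 x)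
    [FiniteDimensional K0⟮x⟯ E0] [FiniteDimensional K⟮algebraMap E0 E x⟯ E]
    (hgen : IntermediateField.adjoin K (Set.range (algebraMap E0 E)) = ⊤) :
    haveI := cx_isDedekindDomain (K := K0) x hx
    haveI := cx_isFractionRing (K := K0) x
    haveI := cx_isDedekindDomain (K := K) (algebraMap E0 E x) (cx_transcendental x hx)
    haveI := cx_isFractionRing (K := K) (algebraMap E0 E x)
    ∀ w0 : HeightOneSpectrum (integralClosure (Algebra.adjoin K0 {x}) E0),
      ∃ w : HeightOneSpectrum (integralClosure (Algebra.adjoin K {algebraMap E0 E x}) E),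
        ∀ u : E0, w.valuation E (algebraMap E0 E u) = w0.valuation E0 u := by
  haveI := cx_isDedekindDomain (K := K0) x hx
  haveI := cx_isFractionRing (K := K0) x
  haveI := cx_isDedekindDomain (K := K) (algebraMap E0 E x) (cx_transcendental x hx)
  haveI := cx_isFractionRing (K := K) (algebraMap E0 E x)
  intro w0
  haveI : IsScalarTower K0 (integralClosure (Algebra.adjoin K0 {x}) E0) E :=
    IsScalarTower.of_algebraMap_eq (fun c => by
      rw [IsScalarTower.algebraMap_apply K0 E0 E]; rfl)
  let ι : integralClosure (Algebra.adjoin K0 {x}) E0 →+*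
      integralClosure (Algebra.adjoin K {algebraMap E0 E x}) E :=
    ((algebraMap E0 E).comp (algebraMap (integralClosure (Algebra.adjoin K0 {x}) E0) E0)).codRestrict
      (integralClosure (Algebra.adjoin K {algebraMap E0 E x}) E)
      (fun b => cx_map_isIntegral x b b.2)
  letI : Algebra (integralClosure (Algebra.adjoin K0 {x}) E0)
      (integralClosure (Algebra.adjoin K {algebraMap E0 E x}) E) := ι.toAlgebra
  haveI : IsScalarTower (integralClosure (Algebra.adjoin K0 {x}) E0)
      (integralClosure (Algebra.adjoin K {algebraMap E0 E x}) E) E :=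
    IsScalarTower.of_algebraMap_eq (fun _ => rfl)
  haveI : IsIntegralClosure (integralClosure (Algebra.adjoin K {algebraMap E0 E x}) E)
      (integralClosure (Algebra.adjoin K0 {x}) E0) E :=
    { algebraMap_injective := Subtype.val_injective
      isIntegral_iff := by
        intro y
        constructor
        · intro hy
          have h1 : IsIntegral (integralClosure (Algebra.adjoin K {algebraMap E0 E x}) E) y :=
            hy.tower_top
          have h2 : IsIntegral (Algebra.adjoin K {algebraMap E0 E x}) y :=
            isIntegral_trans (R := Algebra.adjoin K {algebraMap E0 E x})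
              (A := integralClosure (Algebra.adjoin K {algebraMap E0 E x}) E) y h1
          exact ⟨⟨y, h2⟩, rfl⟩
        · rintro ⟨b, rfl⟩
          have hb : IsIntegral (Algebra.adjoin K {algebraMap E0 E x}) (b : E) := b.2
          let ψ : Algebra.adjoin K {algebraMap E0 E x} →+*
              integralClosure (integralClosure (Algebra.adjoin K0 {x}) E0) E :=
            (algebraMap (Algebra.adjoin K {algebraMap E0 E x}) E).codRestrict
              (integralClosure (integralClosure (Algebra.adjoin K0 {x}) E0) E)
              (fun r => cx_isIntegral_of_mem_adjoin (K := K) x (r : E) r.2)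
          have h3 : IsIntegral (integralClosure (integralClosure (Algebra.adjoin K0 {x}) E0) E)
              (b : E) :=
            IsIntegral.map_of_comp_eq ψ (RingHom.id E) rfl hb
          exact isIntegral_trans (R := integralClosure (Algebra.adjoin K0 {x}) E0)
            (A := integralClosure (integralClosure (Algebra.adjoin K0 {x}) E0) E) (b : E) h3 }
  obtain ⟨w, -, hw⟩ := cx_exists_valuation_eq K0 (K := K) (A := integralClosure (Algebra.adjoin K0 {x}) E0)
    (F := E0) (B := integralClosure (Algebra.adjoin K {algebraMap E0 E x}) E) (E := E)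
    (cx_hgen_of_adjoin K0 hgen) w0
  exact ⟨w, hw⟩

end cx_concrete

end Fermat.Agent.S18
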