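import Mathlib

set_option autoImplicit false

open IsDedekindDomain Polynomial

namespace Fermat.Agent.S18

attribute [local instance] FractionRing.liftAlgebra

section FiniteStep

variable {A B : Type*} [CommRing A] [IsDedekindDomain A] [CommRing B] [IsDedekindDomain B]
  [Algebra A B] [Module.IsTorsionFree A B] [Module.Finite A B]

omit [Module.Finite A B] in
/-- If `θ` generates the fraction field and `f'(θ)` is a unit (`f` the minimal polynomial of `θ`
over `A`), then the different ideal of `B / A` is trivial. -/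
theorem cx31_differentIdeal_eq_top (K L : Type*) [Field K] [Field L] [Algebra A K]
    [IsFractionRing A K] [Algebra B L] [Algebra K L] [Algebra A L] [IsScalarTower A K L]
    [IsScalarTower A B L] [IsIntegralClosure B A L] [FiniteDimensional K L]
    [Algebra.IsSeparable K L] (θ : B)
    (hgen : Algebra.adjoin K {algebraMap B L θ} = ⊤)
    (hunit : IsUnit (aeval θ (derivative (minpoly A θ)))) :
    differentIdeal A B = ⊤ := by
  have h := aeval_derivative_mem_differentIdeal A K L θ hgen
  exact Ideal.eq_top_of_isUnit_mem _ h hunit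

/-- In characteristic zero the extension of fraction fields is separable. -/
theorem cx31_isSeparable_fractionRing [CharZero (FractionRing A)] :
    Algebra.IsSeparable (FractionRing A) (FractionRing B) := by
  have : IsLocalization (Algebra.algebraMapSubmonoid B (nonZeroDivisors A)) (FractionRing B) :=
    IsIntegralClosure.isLocalization _ (FractionRing A) _ _
  have : FiniteDimensional (FractionRing A) (FractionRing B) :=
    .of_isLocalization A B (nonZeroDivisors A)
  infer_instance

/-- Trivial different ideal: every prime is unramified (ramification index one). -/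
theorem cx31_ramificationIdx'_eq_one [Algebra.IsSeparable (FractionRing A) (FractionRing B)]
    (hD : differentIdeal A B = ⊤)
    (p : Ideal A) [p.IsMaximal] (hp : p ≠ ⊥) (P : Ideal B) [P.IsPrime]
    (hpP : p.map (algebraMap A B) ≤ P) :
    Ideal.ramificationIdx' p P = 1 := by
  by_contra hne
  rw [← ne_eq, Ideal.ramificationIdx'_ne_one_iff hpP] at hne
  have hdvd : P ^ 2 ∣ p.map (algebraMap A B) := Ideal.dvd_iff_le.mpr hne
  have h := pow_sub_one_dvd_differentIdeal A P 2 hp hdvd
  rw [hD] at h
  have h1 : (⊤ : Ideal B) ≤ P := by simpa using Ideal.dvd_iff_le.mp h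
  exact (Ideal.IsPrime.ne_top inferInstance) (top_le_iff.mp h1)

end FiniteStep

section UnitDerivative

/-- If `θ` is a root of a separable polynomial with coefficients in a field `K₀` contained in
the integrally closed domain `R`, then `f'(θ)` is a unit, `f` the minimal polynomial of `θ`
over `R`. -/
theorem cx31_isUnit_aeval_derivative {K₀ R S : Type*} [Field K₀]
    [CommRing R] [IsDomain R] [IsIntegrallyClosed R] [Algebra K₀ R]
    [CommRing S] [IsDomain S] [Algebra R S] [Module.IsTorsionFree R S]
    (θ : S) (hθR : IsIntegral R θ) (G : K₀[X]) (hsep : G.Separable)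
    (h0 : aeval θ (G.map (algebraMap K₀ R)) = 0) :
    IsUnit (aeval θ (derivative (minpoly R θ))) := by
  obtain ⟨a, b, hab⟩ := hsep
  obtain ⟨h, hh⟩ := minpoly.isIntegrallyClosed_dvd hθR h0
  have hab' := congrArg (Polynomial.map (algebraMap K₀ R)) hab
  simp only [Polynomial.map_add, Polynomial.map_mul, Polynomial.map_one,
    ← Polynomial.derivative_map] at hab'
  rw [hh, derivative_mul] at hab'
  have hev := congrArg (aeval θ) hab'
  simp only [map_add, map_mul, minpoly.aeval, map_one, zero_mul, mul_zero, add_zero,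
    zero_add] at hev
  exact IsUnit.of_mul_eq_one (aeval θ (b.map (algebraMap K₀ R)) * aeval θ h) (by
    rw [← hev]; ring)

end UnitDerivative


section Tower

variable {A₀ A₁ A : Type*} [CommRing A₀] [IsDedekindDomain A₀] [CommRing A₁] [IsDedekindDomain A₁]
  [CommRing A] [IsDedekindDomain A]
  [Algebra A₀ A₁] [Module.IsTorsionFree A₀ A₁] [Module.Finite A₀ A₁]
  [Algebra.IsSeparable (FractionRing A₀) (FractionRing A₁)]
  [Algebra A₁ A] [Module.IsTorsionFree A₁ A]
variable {E₀ E₁ E : Type*} [Field E₀] [Field E₁] [Field E]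
  [Algebra A₀ E₀] [IsFractionRing A₀ E₀] [Algebra A₁ E₁] [IsFractionRing A₁ E₁]
  [Algebra A E] [IsFractionRing A E]
  [Algebra E₀ E₁] [Algebra A₀ E₁] [IsScalarTower A₀ E₀ E₁] [IsScalarTower A₀ A₁ E₁]
  [Algebra E₁ E] [Algebra A₁ E] [IsScalarTower A₁ E₁ E] [IsScalarTower A₁ A E]

/-- Tower step: `A₀ ⊆ A₁ ⊆ A` Dedekind, `A₁ / A₀` finite with trivial different, and the
valuation of `w` takes the value `exp (-1)` on (the image of) the middle field. Then the valuation
of `w` restricted to `Frac A₀` is the valuation of the prime below. -/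
theorem cx31_valuation_eq_tower (hD : differentIdeal A₀ A₁ = ⊤)
    (w₀ : HeightOneSpectrum A₀) (w₁ : HeightOneSpectrum A₁) (w : HeightOneSpectrum A)
    [w₁.asIdeal.LiesOver w₀.asIdeal] [w.asIdeal.LiesOver w₁.asIdeal]
    (y₁ : E₁) (hy₁ : w.valuation E (algebraMap E₁ E y₁) = WithZero.exp (-1 : ℤ)) (u : E₀) :
    w.valuation E (algebraMap E₁ E (algebraMap E₀ E₁ u)) = w₀.valuation E₀ u := by
  have h1 := HeightOneSpectrum.valuation_liesOver E₁ w₀ w₁ u
  have hle : w₀.asIdeal.map (algebraMap A₀ A₁) ≤ w₁.asIdeal := by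
    rw [Ideal.map_le_iff_le_comap, ← Ideal.under_def, ← Ideal.over_def w₁.asIdeal w₀.asIdeal]
  have e1 : w₀.asIdeal.ramificationIdx' w₁.asIdeal = 1 :=
    cx31_ramificationIdx'_eq_one hD w₀.asIdeal w₀.ne_bot w₁.asIdeal hle
  rw [e1, pow_one] at h1
  have h2 := fun x : E₁ => HeightOneSpectrum.valuation_liesOver E w₁ w x
  have e2 : w₁.asIdeal.ramificationIdx' w.asIdeal = 1 := by
    have h := h2 y₁
    rw [hy₁] at h
    set e := w₁.asIdeal.ramificationIdx' w.asIdeal with he
    have hx0 : w₁.valuation E₁ y₁ ≠ 0 := by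
      intro h0
      rw [h0] at h
      rcases Nat.eq_zero_or_pos e with he0 | he0
      · rw [he0, pow_zero] at h
        exact absurd h (by decide)
      · rw [zero_pow he0.ne'] at h
        exact WithZero.exp_ne_zero h.symm
    rw [← WithZero.exp_log hx0, ← WithZero.exp_nsmul, WithZero.exp_inj] at h
    have hdvd : (e : ℤ) ∣ 1 := by
      refine (dvd_neg).mp ⟨(w₁.valuation E₁ y₁).log, ?_⟩
      rw [← h]; simp
    exact Nat.dvd_one.mp (Int.natCast_dvd_natCast.mp (by simpa using hdvd))
  rw [← h2, e2, pow_one, ← h1]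

end Tower


section Main

variable {K₀ : Type*} [Field K₀] [CharZero K₀]
variable {A₀ : Type*} [CommRing A₀] [IsDedekindDomain A₀] [Algebra K₀ A₀]
variable {E₀ : Type*} [Field E₀] [Algebra A₀ E₀] [IsFractionRing A₀ E₀]
variable {A : Type*} [CommRing A] [IsDedekindDomain A] [Algebra A₀ A]
variable {E : Type*} [Field E] [Algebra A E] [IsFractionRing A E] [Algebra E₀ E] [Algebra A₀ E]
  [IsScalarTower A₀ E₀ E] [IsScalarTower A₀ A E] [Algebra K₀ E] [IsScalarTower K₀ A₀ E]

/-- **Constant field extensions are unramified** (valuation form).  `A₀ ⊆ A` Dedekind domains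
with fraction fields `E₀ ⊆ E`, `A₀` an algebra over a field `K₀` of characteristic zero, and `E`
generated over `E₀` by elements algebraic over `K₀` (in the sense `hgen`).  Then for a height-one
prime `w` of `A` over `w₀` of `A₀`, the `w`-adic valuation restricts to the `w₀`-adic valuation
on `E₀` (as an equality in `ℤᵐ⁰`: ramification index one). -/
theorem cx31_valuation_eq
    (hgen : ∀ y : E, ∃ θ : E, IsIntegral K₀ θ ∧ y ∈ IntermediateField.adjoin E₀ {θ})
    (w₀ : HeightOneSpectrum A₀) (w : HeightOneSpectrum A) [hw : w.asIdeal.LiesOver w₀.asIdeal]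
    (u : E₀) :
    w.valuation E (algebraMap E₀ E u) = w₀.valuation E₀ u := by
  classical
  obtain ⟨π, hπ⟩ := w.intValuation_exists_uniformizer
  obtain ⟨θ, hθ, hy⟩ := hgen (algebraMap A E π)
  have hθA₀ : IsIntegral A₀ θ := hθ.tower_top
  have hθE₀ : IsIntegral E₀ θ := hθA₀.tower_top
  have : CharZero E₀ :=
    charZero_of_injective_ringHom ((algebraMap A₀ E₀).comp (algebraMap K₀ A₀)).injective
  have : CharZero (FractionRing A₀) :=
    charZero_of_injective_ringHom
      ((algebraMap A₀ (FractionRing A₀)).comp (algebraMap K₀ A₀)).injective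
  -- the finite step `E₁ = E₀(θ)`
  let E₁ : IntermediateField E₀ E := IntermediateField.adjoin E₀ {θ}
  have : FiniteDimensional E₀ E₁ := IntermediateField.adjoin.finiteDimensional hθE₀
  have : IsScalarTower A₀ E₁ E := IsScalarTower.of_algebraMap_eq (fun _ => rfl)
  let A₁ : Subalgebra A₀ E₁ := integralClosure A₀ E₁
  have hinj01 : Function.Injective (algebraMap A₀ E₁) := by
    rw [IsScalarTower.algebraMap_eq A₀ E₀ E₁]
    exact (algebraMap E₀ E₁).injective.comp (IsFractionRing.injective A₀ E₀)
  have : FaithfulSMul A₀ A₁ := (faithfulSMul_iff_algebraMap_injective A₀ A₁).mpr (by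
    have h : Function.Injective ((algebraMap A₁ E₁) ∘ (algebraMap A₀ A₁)) := by
      rw [← RingHom.coe_comp, ← IsScalarTower.algebraMap_eq A₀ A₁ E₁]; exact hinj01
    exact Function.Injective.of_comp h)
  have : IsDedekindDomain A₁ := integralClosure.isDedekindDomain A₀ E₀ E₁
  have : IsFractionRing A₁ E₁ := integralClosure.isFractionRing_of_finite_extension E₀ E₁
  have : Module.Finite A₀ A₁ := IsIntegralClosure.finite A₀ E₀ E₁ A₁
  have : Algebra.IsSeparable (FractionRing A₀) (FractionRing A₁) :=
    cx31_isSeparable_fractionRing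
  -- the generator
  have hinjE : Function.Injective (algebraMap E₁ E) := (algebraMap E₁ E).injective
  have hgenint : IsIntegral A₀ (IntermediateField.AdjoinSimple.gen E₀ θ) := by
    rw [← isIntegral_algebraMap_iff hinjE, IntermediateField.AdjoinSimple.algebraMap_gen]
    exact hθA₀
  let θ₁ : A₁ := ⟨IntermediateField.AdjoinSimple.gen E₀ θ, hgenint⟩
  have hθ₁ : IsIntegral A₀ θ₁ := by
    rw [← isIntegral_algebraMap_iff (FaithfulSMul.algebraMap_injective A₁ E₁)]
    exact hgenint
  have htop : Algebra.adjoin E₀ {algebraMap A₁ E₁ θ₁} = ⊤ := by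
    have h := (IntermediateField.adjoin.powerBasis hθE₀).adjoin_gen_eq_top
    rwa [IntermediateField.adjoin.powerBasis_gen] at h
  have h0 : aeval θ₁ ((minpoly K₀ θ).map (algebraMap K₀ A₀)) = 0 := by
    apply FaithfulSMul.algebraMap_injective A₁ E₁
    apply hinjE
    rw [map_zero, map_zero, ← aeval_algebraMap_apply, ← aeval_algebraMap_apply]
    show aeval (algebraMap E₁ E (IntermediateField.AdjoinSimple.gen E₀ θ)) _ = 0
    rw [IntermediateField.AdjoinSimple.algebraMap_gen, aeval_map_algebraMap, minpoly.aeval]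
  have hunit : IsUnit (aeval θ₁ (derivative (minpoly A₀ θ₁))) :=
    cx31_isUnit_aeval_derivative θ₁ hθ₁ (minpoly K₀ θ) (minpoly.irreducible hθ).separable h0
  have hD : differentIdeal A₀ A₁ = ⊤ := cx31_differentIdeal_eq_top E₀ E₁ θ₁ htop hunit
  -- the map `A₁ → A`
  have hinjA : Function.Injective (algebraMap A E) := IsFractionRing.injective A E
  have hmem : ∀ a : A₁, algebraMap E₁ E (a : E₁) ∈ (algebraMap A E).range := by
    intro a
    have h1 : IsIntegral A₀ (algebraMap E₁ E (a : E₁)) :=
      a.2.map (IsScalarTower.toAlgHom A₀ E₁ E)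
    have h2 : IsIntegral A (algebraMap E₁ E (a : E₁)) := h1.tower_top
    obtain ⟨b, hb⟩ := IsIntegrallyClosed.isIntegral_iff.mp h2
    exact ⟨b, hb⟩
  let g : E → A := Function.invFun (algebraMap A E)
  have hg : Function.LeftInverse g (algebraMap A E) := Function.leftInverse_invFun hinjA
  let φ : A₁ →+* A :=
    (RingEquiv.ofLeftInverse hg).symm.toRingHom.comp
      (((algebraMap E₁ E).comp (algebraMap A₁ E₁)).codRestrict (algebraMap A E).range hmem)
  have hφ : ∀ a : A₁, algebraMap A E (φ a) = algebraMap E₁ E (a : E₁) := by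
    intro a
    obtain ⟨b, hb⟩ := hmem a
    show algebraMap A E (g (algebraMap E₁ E (a : E₁))) = _
    rw [← hb, hg b]
  let _ : Algebra A₁ A := φ.toAlgebra
  have : IsScalarTower A₁ A E := IsScalarTower.of_algebraMap_eq (fun a => (hφ a).symm)
  have : IsScalarTower A₀ A₁ A := IsScalarTower.of_algebraMap_eq (fun x => hinjA (by
    rw [← IsScalarTower.algebraMap_apply A₀ A E]
    show _ = algebraMap A E (φ (algebraMap A₀ A₁ x))
    rw [hφ]
    rfl))
  have : FaithfulSMul A₁ A := (faithfulSMul_iff_algebraMap_injective A₁ A).mpr (by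
    intro a b hab
    have h : algebraMap A E (φ a) = algebraMap A E (φ b) := congrArg _ hab
    rw [hφ, hφ] at h
    exact Subtype.ext (hinjE h))
  -- the prime in the middle
  have hne : w.asIdeal.comap (algebraMap A₁ A) ≠ ⊥ := by
    obtain ⟨x, hx, hx0⟩ := Submodule.exists_mem_ne_zero_of_ne_bot w₀.ne_bot
    intro hbot
    have hxw : algebraMap A₀ A₁ x ∈ w.asIdeal.comap (algebraMap A₁ A) := by
      rw [Ideal.mem_comap, ← IsScalarTower.algebraMap_apply A₀ A₁ A]
      have : x ∈ w.asIdeal.under A₀ := by rw [← hw.over]; exact hx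
      exact this
    rw [hbot, Ideal.mem_bot] at hxw
    exact hx0 ((FaithfulSMul.algebraMap_injective A₀ A₁) (by rw [hxw, map_zero]))
  let w₁ : HeightOneSpectrum A₁ :=
    ⟨w.asIdeal.comap (algebraMap A₁ A), Ideal.IsPrime.comap _, hne⟩
  have : w₁.asIdeal.LiesOver w₀.asIdeal := ⟨by
    show w₀.asIdeal = Ideal.comap (algebraMap A₀ A₁) (Ideal.comap (algebraMap A₁ A) w.asIdeal)
    rw [Ideal.comap_comap, ← IsScalarTower.algebraMap_eq]
    exact hw.over⟩
  have : w.asIdeal.LiesOver w₁.asIdeal := ⟨rfl⟩
  -- the uniformiser lies in the middle field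
  let y₁ : E₁ := ⟨algebraMap A E π, hy⟩
  have hy₁ : w.valuation E (algebraMap E₁ E y₁) = WithZero.exp (-1 : ℤ) := by
    show w.valuation E (algebraMap A E π) = _
    rw [HeightOneSpectrum.valuation_of_algebraMap, hπ]
  have key := cx31_valuation_eq_tower hD w₀ w₁ w y₁ hy₁ u
  rwa [← IsScalarTower.algebraMap_apply E₀ E₁ E] at key

/-- Existence form of `cx31_valuation_eq`: if moreover `A` is integral over `A₀`, every
height-one prime `w₀` of `A₀` has a height-one prime `w` of `A` above it, and the `w`-adic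
valuation restricts to the `w₀`-adic valuation on `E₀`. -/
theorem cx31_exists_valuation_eq [Algebra.IsIntegral A₀ A]
    (hgen : ∀ y : E, ∃ θ : E, IsIntegral K₀ θ ∧ y ∈ IntermediateField.adjoin E₀ {θ})
    (w₀ : HeightOneSpectrum A₀) :
    ∃ w : HeightOneSpectrum A, w.asIdeal.LiesOver w₀.asIdeal ∧
      ∀ u : E₀, w.valuation E (algebraMap E₀ E u) = w₀.valuation E₀ u := by
  have hinj : Function.Injective (algebraMap A₀ A) := by
    have h : Function.Injective ((algebraMap A E) ∘ (algebraMap A₀ A)) := by
      rw [← RingHom.coe_comp, ← IsScalarTower.algebraMap_eq A₀ A E,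
        IsScalarTower.algebraMap_eq A₀ E₀ E]
      exact (algebraMap E₀ E).injective.comp (IsFractionRing.injective A₀ E₀)
    exact Function.Injective.of_comp h
  have := w₀.isPrime
  obtain ⟨Q, hQprime, hQ⟩ := Ideal.exists_ideal_over_prime_of_isIntegral_of_isDomain
    (S := A) w₀.asIdeal (by rw [(RingHom.injective_iff_ker_eq_bot _).mp hinj]; exact bot_le)
  have hQne : Q ≠ ⊥ := by
    rintro rfl
    apply w₀.ne_bot
    rw [← hQ, Ideal.comap_bot_of_injective _ hinj]
  let w : HeightOneSpectrum A := ⟨Q, hQprime, hQne⟩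
  have : w.asIdeal.LiesOver w₀.asIdeal := ⟨hQ.symm⟩
  exact ⟨w, inferInstance, fun u => cx31_valuation_eq hgen w₀ w u⟩

/-- Consumer form: a divisibility condition on the orders of `u ∈ E₀` at all height-one primes
of `A` descends to all height-one primes of `A₀`.  (The order at `w` is
`-WithZero.log (w.valuation _ u)`; divisibility is insensitive to the sign.) -/
theorem cx31_dvd_log [Algebra.IsIntegral A₀ A]
    (hgen : ∀ y : E, ∃ θ : E, IsIntegral K₀ θ ∧ y ∈ IntermediateField.adjoin E₀ {θ})
    (u : E₀) (m : ℤ)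
    (h : ∀ w : HeightOneSpectrum A, m ∣ WithZero.log (w.valuation E (algebraMap E₀ E u)))
    (w₀ : HeightOneSpectrum A₀) : m ∣ WithZero.log (w₀.valuation E₀ u) := by
  obtain ⟨w, -, hw⟩ := cx31_exists_valuation_eq (K₀ := K₀) (E := E) (A := A) hgen w₀
  rw [← hw u]
  exact h w

end Main

end Fermat.Agent.S18
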