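import Fermat.Agent.S18.ConstExt
import Fermat.Agent.S24.Places

/-!
# S18, row A8 (owner: helper25): constant field extension on Prelude places

`K / K0` algebraic of characteristic `0`, `E0 / K0` and `E / K` function fields, `ι : E0 →+* E`
compatible with `K0 → K`, `E` generated over `K` by `ι E0`, `x ∈ E0` transcendental over `K0` with
`E0 / K0(x)` and `E / K(ι x)` finite.  Then every place `P` of `E0 / K0` extends to a place `P'`
of `E / K` with `ord_{P'} (ι f) = ord_P f` for all `f` (ramification index one), hence a
divisibility condition on all orders over `K` descends to `K0`.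

Names are prefixed `cx_`.  Imports `ConstExt` (Mathlib only) and the place dictionary of
`S24/Places` (only its lemmas which hold for arbitrary constant fields).
-/

set_option autoImplicit false
set_option linter.style.haveILetI false
set_option linter.unusedSectionVars false

namespace Fermat.Agent.S18

open AlgebraicCurve IsDedekindDomain IsDedekindDomain.HeightOneSpectrum WithZero IntermediateField
open Fermat.Agent.S24

section cx_place_basic

variable {K F : Type*} [Field K] [Field F] [Algebra K F]

/-- `K(x⁻¹) = K(x)`. -/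
theorem cx_adjoin_inv (x : F) : K⟮x⁻¹⟯ = K⟮x⟯ := by
  apply le_antisymm
  · rw [IntermediateField.adjoin_simple_le_iff]
    exact inv_mem (mem_adjoin_simple_self K x)
  · rw [IntermediateField.adjoin_simple_le_iff]
    have h : (x⁻¹)⁻¹ ∈ K⟮x⁻¹⟯ := inv_mem (mem_adjoin_simple_self K x⁻¹)
    rwa [inv_inv] at h

theorem cx_finiteDimensional_of_eq {S T : IntermediateField K F} (h : S = T)
    [FiniteDimensional S F] : FiniteDimensional T F := by
  subst h
  infer_instance

/-- `K[y] ⊆ O_v` when `y ∈ O_v` (any constant field). -/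
theorem cx_adjoin_le (y : F) (v : Place K F) (hv : y ∈ v.toValuationSubring)
    (a : Algebra.adjoin K {y}) : (a : F) ∈ v.toValuationSubring := by
  let S : Subalgebra K F :=
    { v.toValuationSubring.toSubring.toSubsemiring with
      algebraMap_mem' := v.algebraMap_mem' }
  have hle : Algebra.adjoin K {y} ≤ S := Algebra.adjoin_le (by
    intro x hx
    rw [Set.mem_singleton_iff] at hx
    rw [hx]
    exact hv)
  exact hle a.2

/-- Valuation rings containing `y` contain the integral closure of `K[y]` (any constant
field). -/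
theorem cx_mem_of_isIntegral (y : F) (v : Place K F) (hv : y ∈ v.toValuationSubring) (f : F)
    (hf : IsIntegral (Algebra.adjoin K {y}) f) : f ∈ v.toValuationSubring := by
  let ψ : Algebra.adjoin K {y} →+* v.toValuationSubring :=
    (algebraMap (Algebra.adjoin K {y}) F).codRestrict v.toValuationSubring.toSubring
      (cx_adjoin_le y v hv)
  obtain ⟨p, hp, hpe⟩ := hf
  have hint : IsIntegral v.toValuationSubring f :=
    ⟨p.map ψ, hp.map ψ, by rw [Polynomial.eval₂_map]; exact hpe⟩
  obtain ⟨z, hz⟩ := IsIntegrallyClosed.isIntegral_iff.mp hint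
  rw [← hz]
  exact z.2

theorem cx_isScalarTower (y : F) :
    IsScalarTower K (integralClosure (Algebra.adjoin K {y}) F) F :=
  IsScalarTower.of_algebraMap_eq (fun c => by
    rw [IsScalarTower.algebraMap_apply K (Algebra.adjoin K {y})
      (integralClosure (Algebra.adjoin K {y}) F)]
    rfl)

end cx_place_basic

section cx_place

variable {K0 K E0 E : Type*} [Field K0] [CharZero K0] [Field K] [CharZero K] [Algebra K0 K]
  [Algebra.IsAlgebraic K0 K] [Field E0] [Algebra K0 E0] [Field E] [Algebra K E]

/-- Extension of a place whose valuation ring contains `x` (algebra instance form). -/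
theorem cx_place_exists_of_mem [Algebra E0 E] [Algebra K0 E] [IsScalarTower K0 K E]
    [IsScalarTower K0 E0 E] (x : E0) (hx : Transcendental K0 x)
    [FiniteDimensional K0⟮x⟯ E0] [FiniteDimensional K⟮algebraMap E0 E x⟯ E]
    (hgen : IntermediateField.adjoin K (Set.range (algebraMap E0 E)) = ⊤)
    (P : Place K0 E0) (hxP : x ∈ P.toValuationSubring) :
    ∃ P' : Place K E, ∀ f : E0, P'.ord (algebraMap E0 E f) = P.ord f := by
  haveI := cx_isDedekindDomain (K := K0) x hx
  haveI := cx_isFractionRing (K := K0) x
  haveI := cx_isDedekindDomain (K := K) (algebraMap E0 E x) (cx_transcendental x hx)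
  haveI := cx_isFractionRing (K := K) (algebraMap E0 E x)
  haveI := cx_isScalarTower (K := K0) x
  haveI := cx_isScalarTower (K := K) (algebraMap E0 E x)
  obtain ⟨w0, hw0⟩ := wp1a_exists_heightOneSpectrum
    (B := integralClosure (Algebra.adjoin K0 {x}) E0) P
    (fun b => cx_mem_of_isIntegral x P hxP (b : E0) b.2)
  obtain ⟨w, hw⟩ := cx_integralClosure_valuation (K := K) x hx hgen w0
  refine ⟨Place.ofHeightOneSpectrum (K := K) w, fun f => ?_⟩
  rw [wp1a_ord_ofHeightOneSpectrum, hw f, ← hw0, wp1a_ord_ofHeightOneSpectrum]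

/-- Extension of an arbitrary place (algebra instance form). -/
theorem cx_place_exists_alg [Algebra E0 E] [Algebra K0 E] [IsScalarTower K0 K E]
    [IsScalarTower K0 E0 E] (x : E0) (hx : Transcendental K0 x)
    [FiniteDimensional K0⟮x⟯ E0] [FiniteDimensional K⟮algebraMap E0 E x⟯ E]
    (hgen : IntermediateField.adjoin K (Set.range (algebraMap E0 E)) = ⊤)
    (P : Place K0 E0) :
    ∃ P' : Place K E, ∀ f : E0, P'.ord (algebraMap E0 E f) = P.ord f := by
  rcases P.toValuationSubring.mem_or_inv_mem x with hxP | hxP
  · exact cx_place_exists_of_mem x hx hgen P hxP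
  · have hx' : Transcendental K0 x⁻¹ := fun h => hx (IsAlgebraic.inv_iff.mp h)
    haveI : FiniteDimensional K0⟮x⁻¹⟯ E0 := cx_finiteDimensional_of_eq (cx_adjoin_inv x).symm
    haveI : FiniteDimensional K⟮algebraMap E0 E x⁻¹⟯ E :=
      cx_finiteDimensional_of_eq (S := K⟮algebraMap E0 E x⟯)
        (by rw [map_inv₀, cx_adjoin_inv])
    exact cx_place_exists_of_mem x⁻¹ hx' hgen P hxP

/-- **Constant field extension on places** (the consumer form, ring hom version).  Every place
`P` of `E0 / K0` extends to a place `P'` of `E / K` with the same orders on `E0`. -/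
theorem cx_place_exists (ι : E0 →+* E)
    (hι : ∀ c : K0, ι (algebraMap K0 E0 c) = algebraMap K E (algebraMap K0 K c))
    (x : E0) (hx : Transcendental K0 x)
    [FiniteDimensional K0⟮x⟯ E0] [FiniteDimensional K⟮ι x⟯ E]
    (hgen : IntermediateField.adjoin K (Set.range ι) = ⊤) (P : Place K0 E0) :
    ∃ P' : Place K E, ∀ f : E0, P'.ord (ι f) = P.ord f := by
  letI : Algebra E0 E := ι.toAlgebra
  letI : Algebra K0 E := ((algebraMap K E).comp (algebraMap K0 K)).toAlgebra
  haveI : IsScalarTower K0 K E := IsScalarTower.of_algebraMap_eq (fun _ => rfl)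
  haveI : IsScalarTower K0 E0 E := IsScalarTower.of_algebraMap_eq (fun c => (hι c).symm)
  haveI : FiniteDimensional K⟮algebraMap E0 E x⟯ E := ‹FiniteDimensional K⟮ι x⟯ E›
  exact cx_place_exists_alg x hx hgen P

/-- **Descent of divisibility of orders** along a constant field extension. -/
theorem cx_place_dvd (ι : E0 →+* E)
    (hι : ∀ c : K0, ι (algebraMap K0 E0 c) = algebraMap K E (algebraMap K0 K c))
    (x : E0) (hx : Transcendental K0 x)
    [FiniteDimensional K0⟮x⟯ E0] [FiniteDimensional K⟮ι x⟯ E]
    (hgen : IntermediateField.adjoin K (Set.range ι) = ⊤) (m : ℤ) (u : E0)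
    (h : ∀ P' : Place K E, m ∣ P'.ord (ι u)) (P : Place K0 E0) : m ∣ P.ord u := by
  obtain ⟨P', hP'⟩ := cx_place_exists ι hι x hx hgen P
  rw [← hP' u]
  exact h P'

end cx_place

end Fermat.Agent.S18
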