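import Fermat.Agent.S18.RElim
import Fermat.Agent.S18.ConstCap87
import Fermat.Agent.S18.DvrSub85
import Fermat.Agent.S24.PlacesBasicCore
import Fermat.Agent.S28.ModEq
import Fermat.Agent.S28.JdIntegral
import Fermat.Agent.S28.CharLBridge

/-!
# S18, row C3b (helper11, independent twin): constants of `F_k`

`ck11_relim_Const : relim_Const A N` — the second hypothesis of `relim_main_of` (`RElim.lean`):
an element of `F_k = k(J(q^d) : d ∣ N)` (any field `k`) without zeros and poles is constant.

Proof, with no separability, no Dedekind domain and no algebraic closedness: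
* an algebraic element is constant (`cap87_algClosed_in`: `k` is algebraically closed in `k((q))`);
* for a transcendental `x`, `F_k` is finite over `k(x)` (`ck11_finite`: the `J(q^d)` are integral
  over `k[J]` by the modular equations, for every field `k`); Chevalley's theorem gives a valuation
  subring `W ⊇ k[x]` of `F_k` in which `x` is a non-unit; `W` is a discrete valuation ring by
  `dv85_isDiscreteValuationRing_of_val` (every nonzero element of `k(x)` has value a power of the
  value of `x`); so `W` is a place of `F_k` at which `x` has a zero (`ck11_exists_place_pos`).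
-/

set_option autoImplicit false
set_option linter.style.haveILetI false
set_option linter.unusedSectionVars false
set_option linter.unusedVariables false

open Polynomial IntermediateField AlgebraicCurve ModularCurve

namespace Fermat.Agent.S18

noncomputable section

section Generic

variable {k F : Type*} [Field k] [Field F] [Algebra k F]

/-- In a valuation subring containing `k` in which `x` is a non-unit, a polynomial in `x` with
nonzero constant coefficient is a unit. -/
theorem ck11_val_aeval_eq_one (W : ValuationSubring F) (hkW : ∀ a : k, algebraMap k F a ∈ W)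
    (x : F) (hxW : x ∈ W) (hx : W.valuation x < 1) (p : k[X]) (hp : p.coeff 0 ≠ 0) :
    W.valuation (aeval x p) = 1 := by
  have hpoly : ∀ q : k[X], aeval x q ∈ W := by
    intro q
    rw [aeval_eq_sum_range]
    refine W.toSubring.sum_mem fun i _ => ?_
    rw [Algebra.smul_def]
    exact W.mul_mem _ _ (hkW _) (W.pow_mem hxW i)
  have hc : W.valuation (algebraMap k F (p.coeff 0)) = 1 := by
    have h1 : W.valuation (algebraMap k F (p.coeff 0)) ≤ 1 :=
      (W.valuation_le_one_iff _).mpr (hkW _)
    have h2 : W.valuation (algebraMap k F (p.coeff 0)⁻¹) ≤ 1 :=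
      (W.valuation_le_one_iff _).mpr (hkW _)
    have h3 : W.valuation (algebraMap k F (p.coeff 0)) *
        W.valuation (algebraMap k F (p.coeff 0)⁻¹) = 1 := by
      rw [← map_mul, ← map_mul, mul_inv_cancel₀ hp, map_one, map_one]
    rcases h1.lt_or_eq with hlt | heq
    · exfalso
      have h0 : W.valuation (algebraMap k F (p.coeff 0)⁻¹) ≠ 0 := by
        intro h0
        rw [h0, mul_zero] at h3
        exact zero_ne_one h3
      have : W.valuation (algebraMap k F (p.coeff 0)) *
          W.valuation (algebraMap k F (p.coeff 0)⁻¹) < 1 := by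
        calc W.valuation (algebraMap k F (p.coeff 0)) *
            W.valuation (algebraMap k F (p.coeff 0)⁻¹)
            < 1 * W.valuation (algebraMap k F (p.coeff 0)⁻¹) :=
              mul_lt_mul_of_pos_right hlt (zero_lt_iff.mpr h0)
          _ ≤ 1 * 1 := by gcongr
          _ = 1 := one_mul 1
      rw [h3] at this
      exact lt_irrefl _ this
    · exact heq
  have hsplit : aeval x p = algebraMap k F (p.coeff 0) + aeval x p.divX * x := by
    conv_lhs => rw [← divX_mul_X_add p]
    rw [map_add, map_mul, aeval_X, aeval_C, add_comm]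
  have hlt : W.valuation (aeval x p.divX * x) < W.valuation (algebraMap k F (p.coeff 0)) := by
    rw [hc, map_mul]
    calc W.valuation (aeval x p.divX) * W.valuation x
        ≤ 1 * W.valuation x := by
          have := (W.valuation_le_one_iff _).mpr (hpoly p.divX)
          gcongr
      _ = W.valuation x := one_mul _
      _ < 1 := hx
  rw [hsplit, Valuation.map_add_eq_of_lt_left _ hlt, hc]

/-- The value of a nonzero polynomial in `x` is a power of the value of `x`. -/
theorem ck11_val_aeval (W : ValuationSubring F) (hkW : ∀ a : k, algebraMap k F a ∈ W)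
    (x : F) (hxW : x ∈ W) (hx : W.valuation x < 1) (p : k[X]) (hp : p ≠ 0) :
    ∃ n : ℕ, W.valuation (aeval x p) = W.valuation x ^ n := by
  obtain ⟨q, hpq, hq⟩ := exists_eq_pow_rootMultiplicity_mul_and_not_dvd p hp 0
  refine ⟨rootMultiplicity 0 p, ?_⟩
  have hq0 : q.coeff 0 ≠ 0 := by
    intro h0
    apply hq
    rw [dvd_iff_isRoot, IsRoot, ← coeff_zero_eq_eval_zero]
    exact h0
  have h1 := ck11_val_aeval_eq_one W hkW x hxW hx q hq0
  conv_lhs => rw [hpq]
  rw [map_mul, map_pow, map_sub, aeval_X, aeval_C, map_zero, sub_zero, map_mul, map_pow, h1,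
    mul_one]

/-- **A zero of a transcendental element.**  If `F` is finite over `k(x)`, `x` transcendental,
there is a place of `F / k` at which `x` has positive order. -/
theorem ck11_exists_place_pos (x : F) (hx : Transcendental k x) [FiniteDimensional k⟮x⟯ F] :
    ∃ Q : Place k F, 0 < Q.ord x := by
  classical
  have hx0 : x ≠ 0 := by
    rintro rfl
    exact hx isAlgebraic_zero
  -- the subring `k[x]` and its ideal `(x)`
  let A : Subring F := (Algebra.adjoin k ({x} : Set F)).toSubring
  have hxA : x ∈ A := Algebra.subset_adjoin (Set.mem_singleton x)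
  let I : Ideal A := Ideal.span {(⟨x, hxA⟩ : A)}
  have hI : I ≠ ⊤ := by
    intro htop
    have h1 : (1 : A) ∈ I := by rw [htop]; trivial
    obtain ⟨y, hy⟩ := Ideal.mem_span_singleton'.mp h1
    have hyA : (y : F) ∈ Algebra.adjoin k ({x} : Set F) := y.2
    rw [Algebra.adjoin_singleton_eq_range_aeval] at hyA
    obtain ⟨p, hp⟩ := hyA
    have hyx : (y : F) * x = 1 := congrArg Subtype.val hy
    apply hx
    refine ⟨p * X - 1, ?_, ?_⟩
    · intro h0
      have := congrArg (fun r : k[X] => r.coeff 0) h0
      simp at this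
    · have hp' : aeval x p = (y : F) := hp
      rw [map_sub, map_mul, aeval_X, map_one, hp', hyx, sub_self]
  obtain ⟨W, hAW, hIW⟩ := Ideal.image_subset_nonunits_valuationSubring I hI
  have hxnon : x ∈ W.nonunits :=
    hIW ⟨⟨x, hxA⟩, Ideal.subset_span (Set.mem_singleton _), rfl⟩
  have hxv : W.valuation x < 1 := (W.mem_nonunits_iff).mp hxnon
  have hxW : x ∈ W := (W.valuation_le_one_iff x).mp hxv.le
  have hkW : ∀ a : k, algebraMap k F a ∈ W := fun a =>
    hAW (Subalgebra.algebraMap_mem (Algebra.adjoin k ({x} : Set F)) a)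
  have hxinv : x⁻¹ ∉ W := by
    intro hmem
    have h1 : W.valuation x⁻¹ ≤ 1 := (W.valuation_le_one_iff _).mpr hmem
    have h2 : W.valuation x * W.valuation x⁻¹ = 1 := by
      rw [← map_mul, mul_inv_cancel₀ hx0, map_one]
    have h0 : W.valuation x⁻¹ ≠ 0 := by
      intro h0
      rw [h0, mul_zero] at h2
      exact zero_ne_one h2
    have : W.valuation x * W.valuation x⁻¹ < 1 := by
      calc W.valuation x * W.valuation x⁻¹ < 1 * W.valuation x⁻¹ :=
            mul_lt_mul_of_pos_right hxv (zero_lt_iff.mpr h0)
        _ ≤ 1 * 1 := by gcongr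
        _ = 1 := one_mul 1
    rw [h2] at this
    exact lt_irrefl _ this
  have hvx0 : W.valuation x ≠ 0 := (Valuation.ne_zero_iff _).mpr hx0
  -- values of `k(x)` are powers of the value of `x`
  have hK : ∀ c : k⟮x⟯, c ≠ 0 →
      ∃ n : ℤ, W.valuation (algebraMap k⟮x⟯ F c) = W.valuation x ^ n := by
    intro c hc
    obtain ⟨r, s, hrs⟩ := (mem_adjoin_simple_iff k (c : F)).mp c.2
    have hc0 : (c : F) ≠ 0 := fun h0 => hc (Subtype.ext h0)
    have hr0 : r ≠ 0 := by
      rintro rfl
      apply hc0
      rw [hrs, map_zero, zero_div]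
    have hs0 : s ≠ 0 := by
      rintro rfl
      apply hc0
      rw [hrs, map_zero, div_zero]
    obtain ⟨a, ha⟩ := ck11_val_aeval W hkW x hxW hxv r hr0
    obtain ⟨b, hb⟩ := ck11_val_aeval W hkW x hxW hxv s hs0
    refine ⟨(a : ℤ) - b, ?_⟩
    have hcoe : algebraMap k⟮x⟯ F c = (c : F) := rfl
    rw [hcoe, hrs, map_div₀, ha, hb, zpow_sub₀ hvx0, zpow_natCast, zpow_natCast]
  have hdvr : IsDiscreteValuationRing W :=
    dv85_isDiscreteValuationRing_of_val (K := k⟮x⟯) W x hx0 hxv hK
  have hWtop : W ≠ ⊤ := by
    intro htop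
    apply hxinv
    rw [htop]
    exact ValuationSubring.mem_top _
  let Q : Place k F := ⟨W, hkW, hWtop, inferInstance⟩
  refine ⟨Q, ?_⟩
  have h1 : 0 ≤ Q.ord x := (Fermat.Agent.S24.wp1_mem_iff_ord_nonneg Q x).mp hxW
  rcases h1.lt_or_eq with hlt | heq
  · exact hlt
  · exfalso
    apply hxinv
    have h2 : 0 ≤ Q.ord x⁻¹ := by rw [Q.ord_inv, ← heq]; simp
    exact (Fermat.Agent.S24.wp1_mem_iff_ord_nonneg Q x⁻¹).mpr h2

end Generic

section Modular

open Fermat.Agent.S28

variable (k : Type*) [Field k] (N : ℕ) [NeZero N]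

/-- `J` as an element of `F_k`. -/
def ck11_j : modularFunctionFieldFullC k N :=
  ⟨jqModC k, by
    have h := subset_adjoin k _ (mem_divisorExpansionsC k N (d := 1) (one_dvd N))
    rwa [qExpand_one_apply] at h⟩

theorem ck11_j_coe : ((ck11_j k N : modularFunctionFieldFullC k N) : LaurentSeries k) = jqModC k :=
  rfl

/-- (B1) for every field: `J(q^d)` is a root of a monic polynomial with coefficients in `ℤ[J]`. -/
theorem ck11_monic_rel (d : ℕ) (hd : d ≠ 0) :
    ∃ P : Polynomial (Polynomial ℤ), P.Monic ∧ P.eval₂ (evJ k) (JdC k d) = 0 := by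
  have hA1 : ∀ p : ℕ, p.Prime → ∃ Φ : Polynomial (Polynomial ℤ), Φ.Monic ∧
      Φ.eval₂ (evJ ℤ) (JdC ℤ p) = 0 := fun p hp =>
    let ⟨Φ, hΦ, _, h, _⟩ := exists_modular_equation p hp
    ⟨Φ, hΦ, h⟩
  obtain ⟨P, hP, h⟩ := exists_monic_JdC_of_modEq hA1 d hd
  refine ⟨P, hP, ?_⟩
  have h2 := h58_eval₂_transfer (evJ ℤ) (evJ k) (h58_coeffMap_comp_evJ k) P _ h
  rwa [coeffMap_JdC] at h2

set_option synthInstance.maxHeartbeats 400000 in
set_option maxHeartbeats 1000000 in
/-- Every element of `F_k` is integral over `k(J)`. -/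
theorem ck11_isIntegral (y : modularFunctionFieldFullC k N) :
    IsIntegral k⟮ck11_j k N⟯ y := by
  classical
  have hval : Function.Injective
      (IsScalarTower.toAlgHom k⟮ck11_j k N⟯ (modularFunctionFieldFullC k N) (LaurentSeries k)) :=
    Subtype.val_injective
  have key : ∀ (y0 : LaurentSeries k)
      (hy0 : y0 ∈ IntermediateField.adjoin k (divisorExpansionsC k N)),
      IsIntegral k⟮ck11_j k N⟯ (⟨y0, hy0⟩ : modularFunctionFieldFullC k N) := by
    intro y0 hy0
    induction hy0 using IntermediateField.adjoin_induction with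
    | mem x hx =>
      obtain ⟨d, hd, hdN, rfl⟩ := hx
      obtain ⟨P, hP, h⟩ := ck11_monic_rel k d (NeZero.ne d)
      rw [JdC_of_neZero] at h
      have h1 : IsIntegral k⟮ck11_j k N⟯ (qExpand k d (jqModC k)) :=
        h58_isIntegral_of_eval₂ (A := k⟮ck11_j k N⟯)
          ⟨ck11_j k N, mem_adjoin_simple_self k _⟩ rfl P hP _ h
      exact (isIntegral_algHom_iff (IsScalarTower.toAlgHom k⟮ck11_j k N⟯
        (modularFunctionFieldFullC k N) (LaurentSeries k)) hval).mp h1
    | algebraMap c =>
      have h1 : IsIntegral k⟮ck11_j k N⟯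
          (algebraMap k⟮ck11_j k N⟯ (modularFunctionFieldFullC k N)
            (algebraMap k k⟮ck11_j k N⟯ c)) := isIntegral_algebraMap
      exact h1
    | add x y hx hy ihx ihy =>
      have h1 := ihx.add ihy
      exact h1
    | inv x hx ihx =>
      have h1 : IsAlgebraic k⟮ck11_j k N⟯
          (⟨x, hx⟩ : modularFunctionFieldFullC k N) := ihx.isAlgebraic
      have h2 := h1.inv.isIntegral
      exact h2
    | mul x y hx hy ihx ihy =>
      have h1 := ihx.mul ihy
      exact h1
  exact key y.1 y.2

/-- `F_k` is a finitely generated field extension of `k`. -/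
theorem ck11_fg : (modularFunctionFieldFullC k N).FG := by
  classical
  refine ⟨N.divisors.image (fun d => JdC k d), ?_⟩
  unfold modularFunctionFieldFullC
  congr 1
  ext x
  simp only [Finset.coe_image, Set.mem_image, Finset.mem_coe, Nat.mem_divisors]
  constructor
  · rintro ⟨d, ⟨hdN, -⟩, rfl⟩
    have hd0 : d ≠ 0 := fun h0 => NeZero.ne N (by rw [h0, zero_dvd_iff] at hdN; exact hdN)
    haveI : NeZero d := ⟨hd0⟩
    exact ⟨d, inferInstance, hdN, JdC_of_neZero k d⟩
  · rintro ⟨d, hd, hdN, rfl⟩
    exact ⟨d, ⟨hdN, NeZero.ne N⟩, JdC_of_neZero k d⟩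

set_option synthInstance.maxHeartbeats 400000 in
/-- `F_k` is finite over `k(J)`, for every field `k`. -/
theorem ck11_finite : FiniteDimensional k⟮ck11_j k N⟯ (modularFunctionFieldFullC k N) := by
  haveI h1 : Algebra.EssFiniteType k (modularFunctionFieldFullC k N) :=
    IntermediateField.essFiniteType_iff.mpr (ck11_fg k N)
  haveI h2 : Algebra.EssFiniteType k⟮ck11_j k N⟯ (modularFunctionFieldFullC k N) :=
    Algebra.EssFiniteType.of_comp k k⟮ck11_j k N⟯ (modularFunctionFieldFullC k N)
  haveI h3 : Algebra.IsAlgebraic k⟮ck11_j k N⟯ (modularFunctionFieldFullC k N) :=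
    ⟨fun y => (ck11_isIntegral k N y).isAlgebraic⟩
  exact Algebra.finite_of_essFiniteType_of_isAlgebraic

set_option synthInstance.maxHeartbeats 400000 in
/-- **Constants of `F_k`** (any field `k`): an element of `F_k = k(J(q^d) : d ∣ N)` without
zeros and poles is constant. -/
theorem ck11_const (x : modularFunctionFieldFullC k N) (hx : x ≠ 0)
    (h : ∀ Q : Place k (modularFunctionFieldFullC k N), Q.ord x = 0) :
    ∃ c : k, x = algebraMap k (modularFunctionFieldFullC k N) c := by
  by_cases halg : IsAlgebraic k x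
  · exact cap87_algClosed_in (modularFunctionFieldFullC k N) x halg
  · exfalso
    have htr : Transcendental k x := halg
    haveI := ck11_finite k N
    haveI : FiniteDimensional k⟮x⟯ (modularFunctionFieldFullC k N) :=
      Fermat.Agent.S24.wp1b_finite_of_transcendental (ck11_j k N) x htr
    obtain ⟨Q, hQ⟩ := ck11_exists_place_pos x htr
    exact hQ.ne' (h Q)

end Modular

/-- **C3b**: the constants hypothesis of `relim_main_of` / `relim_main_prime_of`. -/
theorem ck11_relim_Const (A : ValuationSubring (AlgebraicClosure ℚ)) (N : ℕ) [NeZero N] :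
    relim_Const A N :=
  fun x hx h => ck11_const (IsLocalRing.ResidueField A) N x hx h

end

end Fermat.Agent.S18
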