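import Mathlib

/-!
# S18, row C2: descent of an `m`-th root along a field extension with a unique
extension of the (Gauss) valuation

`ds33_descent`: `F ⊆ F'` fields, `V'` a valuation subring of `F'` which is the only
valuation subring of `F'` with the same trace on `F`; `μ_m ⊆ F`, `m` a unit of `V'`;
`t ∈ F'` with `t ^ m ∈ F` and `t ^ m ≡ 1` modulo the maximal ideal of `V'`.
Then `t ∈ F`.
-/

namespace Fermat.Agent.S18

open Polynomial IntermediateField

/-- The maximal ideal of a valuation subring absorbs multiplication. -/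
theorem ds33_nonunits_mul_mem {K : Type*} [Field K] (A : ValuationSubring K) {a b : K}
    (ha : a ∈ A.nonunits) (hb : b ∈ A) : a * b ∈ A.nonunits := by
  obtain ⟨ha', ham⟩ := A.mem_nonunits_iff_exists_mem_maximalIdeal.mp ha
  exact A.mem_nonunits_iff_exists_mem_maximalIdeal.mpr
    ⟨A.mul_mem _ _ ha' hb, Ideal.mul_mem_right ⟨b, hb⟩ _ ham⟩

theorem ds33_one_not_mem_nonunits {K : Type*} [Field K] (A : ValuationSubring K) :
    (1 : K) ∉ A.nonunits := by
  intro h
  rcases A.mem_nonunits_iff_or.mp h with h | h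
  · exact one_ne_zero h
  · exact h (by simp)

/-- `1 + 𝔪` consists of units. -/
theorem ds33_unit_of_sub_one {K : Type*} [Field K] (A : ValuationSubring K) {t : K}
    (ht : t - 1 ∈ A.nonunits) : t ∈ A ∧ t⁻¹ ∈ A := by
  have htA : t ∈ A := by
    have := A.add_mem _ _ (A.nonunits_subset ht) A.one_mem
    simpa using this
  refine ⟨htA, ?_⟩
  by_contra hinv
  have htn : t ∈ A.nonunits := A.mem_nonunits_iff_or.mpr (Or.inr hinv)
  apply ds33_one_not_mem_nonunits A
  have := A.nonunits.sub_mem htn ht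
  simpa using this

/-- The maximal ideal is prime (elementwise). -/
theorem ds33_nonunits_of_mul {K : Type*} [Field K] (A : ValuationSubring K) {a b : K}
    (hab : a * b ∈ A.nonunits) : a ∈ A.nonunits ∨ b ∈ A.nonunits := by
  by_contra hcon
  push Not at hcon
  obtain ⟨hna, hnb⟩ := hcon
  have ha0 : a ≠ 0 := fun h => hna (h ▸ A.nonunits.zero_mem)
  have hb0 : b ≠ 0 := fun h => hnb (h ▸ A.nonunits.zero_mem)
  have hai : a⁻¹ ∈ A := by
    by_contra h
    exact hna (A.mem_nonunits_iff_or.mpr (Or.inr h))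
  have hbi : b⁻¹ ∈ A := by
    by_contra h
    exact hnb (A.mem_nonunits_iff_or.mpr (Or.inr h))
  rcases A.mem_nonunits_iff_or.mp hab with h | h
  · exact (mul_ne_zero ha0 hb0) h
  · apply h
    rw [mul_inv]
    exact A.mul_mem _ _ hai hbi

theorem ds33_nonunits_of_prod {K : Type*} [Field K] (A : ValuationSubring K) {ι : Type*}
    (s : Finset ι) (f : ι → K) (hprod : ∏ i ∈ s, f i ∈ A.nonunits) :
    ∃ i ∈ s, f i ∈ A.nonunits := by
  classical
  induction s using Finset.induction_on with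
  | empty =>
    simp only [Finset.prod_empty] at hprod
    exact absurd hprod (ds33_one_not_mem_nonunits A)
  | insert a s ha ih =>
    rw [Finset.prod_insert ha] at hprod
    rcases ds33_nonunits_of_mul A hprod with h | h
    · exact ⟨a, Finset.mem_insert_self a s, h⟩
    · obtain ⟨i, hi, hi'⟩ := ih h
      exact ⟨i, Finset.mem_insert_of_mem hi, hi'⟩

/-- Roots of unity are units of every valuation subring. -/
theorem ds33_rootOfUnity_mem {K : Type*} [Field K] (A : ValuationSubring K) {m : ℕ} (hm : 0 < m)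
    {ζ : K} (hζ : ζ ^ m = 1) : ζ ∈ A ∧ ζ⁻¹ ∈ A := by
  have hζ0 : ζ ≠ 0 := by
    rintro rfl
    rw [zero_pow hm.ne'] at hζ
    exact zero_ne_one hζ
  have h1 : ζ⁻¹ = ζ ^ (m - 1) := by
    rw [inv_eq_iff_eq_inv, ← one_mul (ζ ^ (m - 1))⁻¹, ← hζ]
    rw [eq_mul_inv_iff_mul_eq₀ (pow_ne_zero _ hζ0), ← pow_succ']
    congr 1
    omega
  have h2 : ζ = ζ⁻¹ ^ (m - 1) := by
    rw [h1, ← pow_mul]
    have : ζ ^ ((m - 1) * (m - 1)) * ζ ^ m = ζ * (ζ ^ m) ^ (m - 1) := by
      rw [← pow_mul, ← pow_add, ← pow_succ']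
      congr 1
      have : m = (m - 1) + 1 := by omega
      nlinarith [this]
    rw [hζ, one_pow, mul_one, mul_one] at this
    exact this.symm
  rcases A.mem_or_inv_mem ζ with h | h
  · exact ⟨h, h1 ▸ pow_mem h _⟩
  · exact ⟨h2 ▸ pow_mem h _, h⟩

/-- Roots of unity of order invertible in the residue field inject into the residue field. -/
theorem ds33_root_inj {K : Type*} [Field K] (V : ValuationSubring K) (m : ℕ)
    (hmV : (m : K) ∉ V.nonunits) (ζ : K) (hζ : ζ ^ m = 1) (h1 : ζ - 1 ∈ V.nonunits) : ζ = 1 := by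
  by_contra hne
  have hsum : ∑ i ∈ Finset.range m, ζ ^ i = 0 := by
    have h := mul_geom_sum ζ m
    rw [hζ, sub_self] at h
    exact (mul_eq_zero.mp h).resolve_left (sub_ne_zero.mpr hne)
  have hpow : ∀ i : ℕ, ζ ^ i - 1 ∈ V.nonunits := by
    intro i
    induction i with
    | zero => simp
    | succ k ih =>
      have h : ζ ^ (k + 1) - 1 = (ζ ^ k - 1) * (ζ - 1) + (ζ ^ k - 1) + (ζ - 1) := by ring
      rw [h]
      exact V.nonunits.add_mem (V.nonunits.add_mem (V.nonunits.mul_mem ih h1) ih) h1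
  apply hmV
  have h : (m : K) = - ∑ i ∈ Finset.range m, (ζ ^ i - 1) := by
    rw [Finset.sum_sub_distrib, hsum]
    simp
  rw [h]
  exact V.nonunits.neg_mem (V.nonunits.sum_mem (fun i _ => hpow i))

/-- Core descent: `t ≡ 1` modulo the maximal ideal of `V'`, `t ^ m ∈ F`, the valuation
subring `V'` is determined by its trace on `F`, `μ_m ⊆ F`, `m` a unit of `V'`.  Then `t ∈ F`. -/
theorem ds33_descent_core {F' : Type*} [Field F'] (F : Subfield F') (V' : ValuationSubring F')
    (huniq : ∀ W : ValuationSubring F', (∀ x ∈ F, x ∈ W ↔ x ∈ V') → W = V')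
    (m : ℕ) (hm : 0 < m) (ζ₀ : F') (hζ₀ : IsPrimitiveRoot ζ₀ m) (hζ₀F : ζ₀ ∈ F)
    (hmV : (m : F') ∉ V'.nonunits)
    (t : F') (ht1 : t - 1 ∈ V'.nonunits) (htm : t ^ m ∈ F) : t ∈ F := by
  by_contra htF
  have hm0 : (m : F') ≠ 0 := fun h => hmV (h ▸ V'.nonunits.zero_mem)
  obtain ⟨htV, htVi⟩ := ds33_unit_of_sub_one V' ht1
  have ht0 : t ≠ 0 := by
    rintro rfl
    exact htF F.zero_mem
  -- the polynomial `X ^ m - u` over `F`
  set u : F := ⟨t ^ m, htm⟩ with hu
  have hu0 : u ≠ 0 := by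
    intro h
    have h' : (u : F') = 0 := by rw [h]; rfl
    exact pow_ne_zero m ht0 h'
  set p : (↥F)[X] := X ^ m - C u with hp
  have hp_aeval : aeval t p = 0 := by
    simp only [hp, map_sub, map_pow, aeval_X, aeval_C]
    exact sub_self _
  have hpmonic : p.Monic := monic_X_pow_sub_C u hm.ne'
  have hint : IsIntegral F t := ⟨p, hpmonic, hp_aeval⟩
  have hdvd : minpoly F t ∣ p := minpoly.dvd F t hp_aeval
  have hdeg : 2 ≤ (minpoly F t).natDegree := (minpoly.two_le_natDegree_iff hint).mpr (by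
    rintro ⟨y, hy⟩
    exact htF (hy ▸ y.2))
  have hmF : ((m : ℕ) : F) ≠ 0 := by
    intro h
    apply hm0
    have h' := congrArg (algebraMap F F') h
    simpa using h'
  have hsep : p.Separable := separable_X_pow_sub_C u hmF hu0
  have hsepg : (minpoly F t).Separable := hsep.of_dvd hdvd
  have hp' : p.map (algebraMap F F') = X ^ m - C (t ^ m) := by
    simp only [hp, Polynomial.map_sub, Polynomial.map_pow, map_X, map_C]
    rfl
  have hsplit_p : (p.map (algebraMap F F')).Splits := by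
    rw [hp']
    exact X_pow_sub_C_splits_of_isPrimitiveRoot hζ₀ rfl
  have hsplit : ((minpoly F t).map (algebraMap F F')).Splits :=
    hsplit_p.of_dvd ((hpmonic.map _).ne_zero) (Polynomial.map_dvd _ hdvd)
  have hcard : ((minpoly F t).map (algebraMap F F')).roots.card = (minpoly F t).natDegree := by
    rw [← hsplit.natDegree_eq_card_roots, natDegree_map]
  have hnodup : ((minpoly F t).map (algebraMap F F')).roots.Nodup := nodup_roots hsepg.map
  -- a second root
  obtain ⟨r, hr, hrt⟩ : ∃ r ∈ ((minpoly F t).map (algebraMap F F')).roots, r ≠ t := by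
    by_contra hcon
    push Not at hcon
    have hle : ((minpoly F t).map (algebraMap F F')).roots ≤ {t} := by
      rw [Multiset.le_iff_subset hnodup]
      intro x hx
      simp [hcon x hx]
    have h := Multiset.card_le_card hle
    rw [hcard, Multiset.card_singleton] at h
    omega
  have hrm : r ^ m = t ^ m := by
    have h1 : (p.map (algebraMap F F')).IsRoot r :=
      (Polynomial.map_dvd (algebraMap F F') hdvd).trans (dvd_refl _) |> fun h =>
        IsRoot.dvd (isRoot_of_mem_roots hr) h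
    rw [hp', IsRoot.def, eval_sub, eval_pow, eval_X, eval_C, sub_eq_zero] at h1
    exact h1
  -- the root of unity `ζ = r / t`
  set ζ : F' := r / t with hζdef
  have hζm : ζ ^ m = 1 := by
    rw [hζdef, div_pow, hrm, div_self (pow_ne_zero m ht0)]
  have hζ1 : ζ ≠ 1 := by
    intro h
    apply hrt
    rw [hζdef, div_eq_one_iff_eq ht0] at h
    exact h
  have hrζ : r = ζ * t := by
    rw [hζdef, div_mul_cancel₀ _ ht0]
  have hζF : ζ ∈ F := by
    have : NeZero m := ⟨hm.ne'⟩
    obtain ⟨i, -, hi⟩ := hζ₀.eq_pow_of_pow_eq_one hζm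
    rw [← hi]
    exact pow_mem hζ₀F i
  have hζ0 : ζ ≠ 0 := by
    rintro h
    rw [h, zero_pow hm.ne'] at hζm
    exact zero_ne_one hζm
  -- the embedding `σ : F(t) → F'` with `σ t = ζ t`
  have hr' : r ∈ (minpoly F t).aroots F' := hr
  set σ : F⟮t⟯ →ₐ[F] F' := (algHomAdjoinIntegralEquiv F hint).symm ⟨r, hr'⟩ with hσ
  have hσgen : σ (AdjoinSimple.gen F t) = r :=
    algHomAdjoinIntegralEquiv_symm_apply_gen F hint ⟨r, hr'⟩
  -- the valuation subring `σ⁻¹ V'` of `F(t)` and a valuation subring `W` of `F'` dominating it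
  set R : ValuationSubring F⟮t⟯ := V'.comap (σ : F⟮t⟯ →+* F') with hR
  have hRmem : ∀ y : F⟮t⟯, y ∈ R ↔ σ y ∈ V' := fun y => Iff.rfl
  set f : R →+* F' := (algebraMap F⟮t⟯ F').comp R.subtype with hf
  obtain ⟨W, hW, hloc⟩ := IsLocalRing.exists_factor_valuationRing f
  have hkey : ∀ y : F⟮t⟯, (y : F') ∈ W ↔ σ y ∈ V' := by
    intro y
    constructor
    · intro hyW
      by_contra hyV
      have hyR : y ∉ R := hyV
      have hyiR : y⁻¹ ∈ R := (R.mem_or_inv_mem y).resolve_left hyR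
      have hy0 : y ≠ 0 := by
        rintro rfl
        exact hyR R.zero_mem
      have hunit : IsUnit (f.codRestrict W.toSubring hW ⟨y⁻¹, hyiR⟩) := by
        refine isUnit_iff_exists_inv.mpr ⟨⟨(y : F'), hyW⟩, ?_⟩
        apply Subtype.ext
        show ((y⁻¹ : F⟮t⟯) : F') * (y : F') = 1
        have hy0' : (y : F') ≠ 0 := fun h => hy0 (Subtype.ext h)
        rw [IntermediateField.coe_inv, inv_mul_cancel₀ hy0']
      have hunit' : IsUnit (⟨y⁻¹, hyiR⟩ : R) := hloc.map_nonunit _ hunit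
      obtain ⟨w, hw⟩ := isUnit_iff_exists_inv.mp hunit'
      have hw' : (y⁻¹ : F⟮t⟯) * (w : F⟮t⟯) = 1 := congrArg Subtype.val hw
      have hwy : (w : F⟮t⟯) = y := by
        field_simp at hw'
        exact hw'
      exact hyR (hwy ▸ w.2)
    · intro hyV
      exact hW ⟨y, hyV⟩
  have hWV : W = V' := by
    apply huniq
    intro x hx
    have h := hkey (algebraMap F F⟮t⟯ ⟨x, hx⟩)
    rw [σ.commutes] at h
    exact h
  -- the element `ζ⁻¹ t - 1` of `F(t)`
  set ζF : F := ⟨ζ, hζF⟩ with hζFdef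
  set y₀ : F⟮t⟯ := algebraMap F F⟮t⟯ ζF⁻¹ * AdjoinSimple.gen F t - 1 with hy₀
  have hy₀coe : (y₀ : F') = ζ⁻¹ * t - 1 := by
    rw [hy₀]
    rfl
  have hσy₀ : σ y₀ = t - 1 := by
    rw [hy₀, map_sub, map_mul, map_one, σ.commutes, hσgen, hrζ]
    show ζ⁻¹ * (ζ * t) - 1 = t - 1
    rw [← mul_assoc, inv_mul_cancel₀ hζ0, one_mul]
  have hy₀n : (y₀ : F') ∈ V'.nonunits := by
    rw [← hWV]
    rw [W.mem_nonunits_iff_or]
    have h := V'.mem_nonunits_iff_or.mp ht1
    rw [← hσy₀] at h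
    rcases h with h | h
    · left
      have : y₀ = 0 := (map_eq_zero σ).mp h
      rw [this]
      rfl
    · right
      intro hcon
      apply h
      rw [← map_inv₀]
      apply (hkey y₀⁻¹).mp
      rw [IntermediateField.coe_inv]
      exact hcon
  have hdiff : (ζ⁻¹ - 1) * t ∈ V'.nonunits := by
    have h := V'.nonunits.sub_mem hy₀n ht1
    have e : (y₀ : F') - (t - 1) = (ζ⁻¹ - 1) * t := by
      rw [hy₀coe]
      ring
    rw [e] at h
    exact h
  have hz : ζ⁻¹ - 1 ∈ V'.nonunits := by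
    have h := ds33_nonunits_mul_mem V' hdiff htVi
    rw [mul_assoc, mul_inv_cancel₀ ht0, mul_one] at h
    exact h
  have hzm : ζ⁻¹ ^ m = 1 := by
    rw [inv_pow, hζm, inv_one]
  have := ds33_root_inj V' m hmV ζ⁻¹ hzm hz
  exact hζ1 (inv_eq_one.mp this)

/-- **Descent of an `m`-th root** (S18 row C2, abstract form).
`F ⊆ F'` fields, `V'` a valuation subring of `F'` which is the only valuation subring of `F'`
with the same trace on `F`; `F` contains a primitive `m`-th root of unity and `m` is a unit of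
`V'`.  If `t ∈ F'` has `t ^ m ∈ F` and `t ^ m ≡ 1` modulo the maximal ideal of `V'`, then
`t ∈ F`. -/
theorem ds33_descent {F' : Type*} [Field F'] (F : Subfield F') (V' : ValuationSubring F')
    (huniq : ∀ W : ValuationSubring F', (∀ x ∈ F, x ∈ W ↔ x ∈ V') → W = V')
    (m : ℕ) (hm : 0 < m) (ζ₀ : F') (hζ₀ : IsPrimitiveRoot ζ₀ m) (hζ₀F : ζ₀ ∈ F)
    (hmV : (m : F') ∉ V'.nonunits)
    (t : F') (htm : t ^ m ∈ F) (ht1 : t ^ m - 1 ∈ V'.nonunits) : t ∈ F := by
  -- factor `t ^ m - 1`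
  have hfac : t ^ m - 1 = ∏ i ∈ Finset.range m, (t - ζ₀ ^ i) := by
    have h := X_pow_sub_C_eq_prod hζ₀ hm (one_pow m)
    have h' := congrArg (Polynomial.eval t) h
    simpa [Polynomial.eval_prod] using h'
  have hζV : ∀ i : ℕ, ζ₀ ^ i ∈ V' ∧ (ζ₀ ^ i)⁻¹ ∈ V' := fun i =>
    ds33_rootOfUnity_mem V' hm (by rw [← pow_mul, mul_comm, pow_mul, hζ₀.pow_eq_one, one_pow])
  rw [hfac] at ht1
  obtain ⟨i, -, hi⟩ := ds33_nonunits_of_prod V' (Finset.range m) (fun i => t - ζ₀ ^ i) ht1
  have hζi0 : ζ₀ ^ i ≠ 0 := pow_ne_zero _ (hζ₀.ne_zero hm.ne')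
  -- the modified root `t' = ζ₀⁻ⁱ t`
  have ht' : (ζ₀ ^ i)⁻¹ * t - 1 ∈ V'.nonunits := by
    have h := ds33_nonunits_mul_mem V' hi (hζV i).2
    have e : (t - ζ₀ ^ i) * (ζ₀ ^ i)⁻¹ = (ζ₀ ^ i)⁻¹ * t - 1 := by
      rw [sub_mul, mul_inv_cancel₀ hζi0, mul_comm]
    rw [e] at h
    exact h
  have ht'm : ((ζ₀ ^ i)⁻¹ * t) ^ m ∈ F := by
    have e : ((ζ₀ ^ i)⁻¹ * t) ^ m = t ^ m := by
      rw [mul_pow, inv_pow, ← pow_mul, mul_comm i m, pow_mul, hζ₀.pow_eq_one, one_pow, inv_one,
        one_mul]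
    rw [e]
    exact htm
  have hmem := ds33_descent_core F V' huniq m hm ζ₀ hζ₀ hζ₀F hmV _ ht' ht'm
  have e : t = ζ₀ ^ i * ((ζ₀ ^ i)⁻¹ * t) := by
    rw [← mul_assoc, mul_inv_cancel₀ hζi0, one_mul]
  rw [e]
  exact F.mul_mem (pow_mem hζ₀F i) hmem

/-- The form used for `(**)`: an element `u ∈ F`, `u ≡ 1`, which is an `m`-th power in `F'`
is an `m`-th power in `F`. -/
theorem ds33_descent_pow {F' : Type*} [Field F'] (F : Subfield F') (V' : ValuationSubring F')
    (huniq : ∀ W : ValuationSubring F', (∀ x ∈ F, x ∈ W ↔ x ∈ V') → W = V')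
    (m : ℕ) (hm : 0 < m) (ζ₀ : F') (hζ₀ : IsPrimitiveRoot ζ₀ m) (hζ₀F : ζ₀ ∈ F)
    (hmV : (m : F') ∉ V'.nonunits)
    (u : F') (huF : u ∈ F) (hu1 : u - 1 ∈ V'.nonunits) (hpow : ∃ t : F', t ^ m = u) :
    ∃ t ∈ F, t ^ m = u := by
  obtain ⟨t, ht⟩ := hpow
  exact ⟨t, ds33_descent F V' huniq m hm ζ₀ hζ₀ hζ₀F hmV t (ht ▸ huF) (ht ▸ hu1), ht⟩

/-- Elements integral over a subring contained in a valuation subring lie in it. -/
theorem ds33_mem_of_isIntegral {K : Type*} [Field K] (W : ValuationSubring K) (D : Subring K)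
    (hDW : ∀ x ∈ D, x ∈ W) (y : K) (hy : IsIntegral D y) : y ∈ W := by
  obtain ⟨q, hq, hqy⟩ := hy
  have hle : D ≤ W.toSubring := fun x hx => hDW x hx
  have hint : IsIntegral W y := by
    refine ⟨q.map (Subring.inclusion hle), hq.map _, ?_⟩
    rw [Polynomial.eval₂_map]
    exact hqy
  obtain ⟨w, hw⟩ := IsIntegrallyClosed.algebraMap_eq_of_integral hint
  rw [← hw]
  exact w.2

/-- A criterion for the uniqueness hypothesis `huniq` of `ds33_descent`: `V'` has no proper
overring other than `F'` (e.g. `V'` is a discrete valuation ring), `V'` does not contain `F`,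
and every element of `V'` becomes integral over a subring `D ⊆ V' ∩ F` after multiplication
by a unit of `V'` lying in `F` (e.g. `V'` is the localisation at the prime `π B` of the
integral closure `B` of `D` in `F'`). -/
theorem ds33_huniq {F' : Type*} [Field F'] (F : Subfield F') (V' : ValuationSubring F')
    (hrank : ∀ W : ValuationSubring F', V' ≤ W → W = V' ∨ W = ⊤)
    (hnt : ∃ x ∈ F, x ∉ V')
    (D : Subring F') (hDF : ∀ x ∈ D, x ∈ F) (hDV : ∀ x ∈ D, x ∈ V')
    (hden : ∀ x ∈ V', ∃ s ∈ F, s ≠ 0 ∧ s⁻¹ ∈ V' ∧ IsIntegral D (s * x))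
    (W : ValuationSubring F') (hW : ∀ x ∈ F, x ∈ W ↔ x ∈ V') : W = V' := by
  have hle : V' ≤ W := by
    intro x hx
    obtain ⟨s, hsF, hs0, hsiV, hint⟩ := hden x hx
    have hsW : s⁻¹ ∈ W := (hW _ (F.inv_mem hsF)).mpr hsiV
    have hsx : s * x ∈ W :=
      ds33_mem_of_isIntegral W D (fun d hd => (hW d (hDF d hd)).mpr (hDV d hd)) _ hint
    have e : x = s⁻¹ * (s * x) := by
      rw [← mul_assoc, inv_mul_cancel₀ hs0, one_mul]
    rw [e]
    exact W.mul_mem _ _ hsW hsx
  rcases hrank W hle with h | h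
  · exact h
  · exfalso
    obtain ⟨y, hyF, hyV⟩ := hnt
    exact hyV ((hW y hyF).mp (h ▸ ValuationSubring.mem_top y))

/-- The rank hypothesis of `ds33_huniq` for a valuation subring of Krull dimension `≤ 1`
(in particular for a discrete valuation ring). -/
theorem ds33_hrank {F' : Type*} [Field F'] (V' : ValuationSubring F') [Ring.KrullDimLE 1 V']
    (W : ValuationSubring F') (h : V' ≤ W) : W = V' ∨ W = ⊤ := by
  rcases ValuationSubring.eq_self_or_eq_top_of_le h with h' | h'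
  · exact Or.inl h'.symm
  · exact Or.inr h'

end Fermat.Agent.S18
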