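import Mathlib

/-!
# S18, row C2 (backup, helper68): descent of an `m`-th root along a finite extension

Abstract, Mathlib-only statements.

* `ds68_exists_comap_eq` : a valuation subring extends along any field embedding.
* `ds68_exists_conj`     : if `t ^ m ∈ K`, `t ∉ K` and `K` contains a primitive `m`-th root of
  unity `ζ`, there is a `K`-embedding `σ : K⟮t⟯ → L` with `σ t = ζ ^ i * t`, `ζ ^ i ≠ 1`.
* `ds68_descent`         : if moreover `V` is the only valuation subring of `L` above `V ∩ K`,
  `m` is a unit of `V` and `t ≡ 1` modulo the maximal ideal of `V`, then `t ∈ K`.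
-/

set_option autoImplicit false

open Polynomial IntermediateField

namespace Fermat.Agent.S18

/-- A valuation subring extends along a field embedding. -/
theorem ds68_exists_comap_eq {M L : Type*} [Field M] [Field L] (f : M →+* L)
    (V : ValuationSubring M) : ∃ W : ValuationSubring L, W.comap f = V := by
  obtain ⟨W, hW, hloc⟩ := IsLocalRing.exists_factor_valuationRing (f.comp V.subtype)
  refine ⟨W, ?_⟩
  ext x
  constructor
  · intro hx
    by_contra hxV
    have hx0 : x ≠ 0 := fun h => hxV (h ▸ V.zero_mem)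
    have hinv : x⁻¹ ∈ V := (V.mem_or_inv_mem x).resolve_left hxV
    -- `x⁻¹` is not a unit of `V`
    have hnu : ¬ IsUnit (⟨x⁻¹, hinv⟩ : V) := by
      intro hu
      obtain ⟨⟨a, b, hab, hba⟩, ha⟩ := hu
      have ha' : (a : M) = x⁻¹ := congrArg Subtype.val ha
      have hab' : (a : M) * (b : M) = 1 := congrArg Subtype.val hab
      rw [ha'] at hab'
      have hb : (b : M) = x := by
        field_simp at hab'
        exact hab'.symm ▸ rfl
      exact hxV (hb ▸ b.2)
    apply hnu
    have := hloc
    apply IsUnit.of_map ((f.comp V.subtype).codRestrict W.toSubring hW)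
    have hfx : f x ∈ W := hx
    refine ⟨⟨⟨f x⁻¹, hW ⟨x⁻¹, hinv⟩⟩, ⟨f x, hfx⟩, ?_, ?_⟩, rfl⟩
    · apply Subtype.ext
      show f x⁻¹ * f x = 1
      rw [← map_mul, inv_mul_cancel₀ hx0, map_one]
    · apply Subtype.ext
      show f x * f x⁻¹ = 1
      rw [← map_mul, mul_inv_cancel₀ hx0, map_one]
  · intro hx
    exact hW ⟨x, hx⟩

/-- Valuation-free core: if `t ^ m ∈ K`, `t ∉ K`, `m ≠ 0` in `K` and `K` contains a primitive
`m`-th root of unity `ζ`, then some `K`-embedding of `K⟮t⟯` into `L` sends `t` to `ζ ^ i * t`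
with `ζ ^ i ≠ 1`. -/
theorem ds68_exists_conj {K L : Type*} [Field K] [Field L] [Algebra K L] {m : ℕ}
    (hmK : (m : K) ≠ 0) {ζ : K} (hζ : IsPrimitiveRoot ζ m) (t : L) (ht0 : t ≠ 0) (u : K)
    (htu : t ^ m = algebraMap K L u) (hnot : t ∉ (algebraMap K L).range) :
    ∃ (σ : K⟮t⟯ →ₐ[K] L) (i : ℕ), i < m ∧ ζ ^ i ≠ 1 ∧
      σ (AdjoinSimple.gen K t) = algebraMap K L (ζ ^ i) * t := by
  classical
  have hm0 : m ≠ 0 := by rintro rfl; simp at hmK
  have haev : aeval t (X ^ m - C u : K[X]) = 0 := by simp [htu]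
  have hint : IsIntegral K t := ⟨X ^ m - C u, monic_X_pow_sub_C u hm0, haev⟩
  have hdvd : minpoly K t ∣ X ^ m - C u := minpoly.dvd K t haev
  have hζL : IsPrimitiveRoot (algebraMap K L ζ) m :=
    hζ.map_of_injective (algebraMap K L).injective
  have hprod : (X ^ m - C (algebraMap K L u) : L[X]) =
      ∏ i ∈ Finset.range m, (X - C (algebraMap K L ζ ^ i * t)) :=
    X_pow_sub_C_eq_prod hζL (Nat.pos_of_ne_zero hm0) htu
  have hu0 : u ≠ 0 := by
    rintro rfl
    rw [map_zero] at htu
    exact ht0 (pow_eq_zero_iff hm0 |>.mp htu)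
  have hsep : (X ^ m - C u : K[X]).Separable := separable_X_pow_sub_C u hmK hu0
  have hsepmin : (minpoly K t).Separable := hsep.of_dvd hdvd
  -- the minimal polynomial has degree at least two
  have hdeg : 2 ≤ (minpoly K t).natDegree := by
    by_contra h
    have hpos := minpoly.natDegree_pos hint
    have h1 : (minpoly K t).natDegree = 1 := by omega
    refine hnot (minpoly.mem_range_of_degree_eq_one K t ?_)
    rw [degree_eq_natDegree (minpoly.ne_zero hint), h1]
    rfl
  -- work with `P = minpoly` over `L`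
  set P : L[X] := (minpoly K t).map (algebraMap K L) with hP
  have hPdvd : P ∣ ∏ i ∈ Finset.range m, (X - C (algebraMap K L ζ ^ i * t)) := by
    rw [← hprod]
    have := Polynomial.map_dvd (algebraMap K L) hdvd
    simpa using this
  have hprodne : (∏ i ∈ Finset.range m, (X - C (algebraMap K L ζ ^ i * t)) : L[X]) ≠ 0 :=
    Finset.prod_ne_zero_iff.mpr fun i _ => X_sub_C_ne_zero _
  have hprodsplits : (∏ i ∈ Finset.range m, (X - C (algebraMap K L ζ ^ i * t)) : L[X]).Splits := by
    rw [← hprod]
    exact X_pow_sub_C_splits_of_isPrimitiveRoot hζL htu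
  have hPsplits : P.Splits := hprodsplits.of_dvd hprodne hPdvd
  have hPsep : P.Separable := hsepmin.map
  have hPdeg : P.natDegree = (minpoly K t).natDegree := natDegree_map _
  have hcard : 2 ≤ P.roots.card := by
    rw [splits_iff_card_roots.mp hPsplits, hPdeg]
    exact hdeg
  have hnodup : P.roots.Nodup := nodup_roots hPsep
  -- a root different from `t`
  obtain ⟨s, hsroot, hst⟩ : ∃ s ∈ P.roots, s ≠ t := by
    by_contra hall
    push Not at hall
    have hle : P.roots ≤ {t} := by
      rw [Multiset.le_iff_subset hnodup]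
      intro x hx
      rw [Multiset.mem_singleton]
      exact hall x hx
    have := Multiset.card_le_card hle
    rw [Multiset.card_singleton] at this
    omega
  have hPne : P ≠ 0 := fun h => by
    rw [h] at hcard
    simp at hcard
  have hsP : P.eval s = 0 := (mem_roots hPne).mp hsroot
  -- `s = ζ ^ i * t`
  have hsprod : (∏ i ∈ Finset.range m, (X - C (algebraMap K L ζ ^ i * t)) : L[X]).eval s = 0 := by
    obtain ⟨Q, hQ⟩ := hPdvd
    rw [hQ, eval_mul, hsP, zero_mul]
  rw [eval_prod, Finset.prod_eq_zero_iff] at hsprod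
  obtain ⟨i, hi, his⟩ := hsprod
  rw [eval_sub, eval_X, eval_C, sub_eq_zero] at his
  have hsar : s ∈ (minpoly K t).aroots L := by
    rw [mem_aroots]
    refine ⟨minpoly.ne_zero hint, ?_⟩
    rw [aeval_def, eval₂_eq_eval_map]
    exact hsP
  refine ⟨(algHomAdjoinIntegralEquiv K hint).symm ⟨s, hsar⟩, i, Finset.mem_range.mp hi, ?_, ?_⟩
  · intro h1
    apply hst
    rw [his, ← map_pow, h1, map_one, one_mul]
  · rw [algHomAdjoinIntegralEquiv_symm_apply_gen, map_pow]
    exact his

/-- Membership in the nonunits of a pulled-back valuation subring. -/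
theorem ds68_mem_nonunits_comap {M L : Type*} [Field M] [Field L] (f : M →+* L)
    (V : ValuationSubring L) (x : M) : x ∈ (V.comap f).nonunits ↔ f x ∈ V.nonunits := by
  rw [ValuationSubring.mem_nonunits_iff_or, ValuationSubring.mem_nonunits_iff_or]
  constructor
  · rintro (h | h)
    · left; rw [h, map_zero]
    · right
      intro h'
      apply h
      show f x⁻¹ ∈ V
      rw [map_inv₀]
      exact h'
  · rintro (h | h)
    · left; exact (map_eq_zero f).mp h
    · right
      intro h'
      apply h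
      have : f x⁻¹ ∈ V := h'
      rwa [map_inv₀] at this

/-- `V.nonunits` absorbs multiplication by elements of `V`. -/
theorem ds68_mul_mem_nonunits {L : Type*} [Field L] (V : ValuationSubring L) {a b : L}
    (ha : a ∈ V) (hb : b ∈ V.nonunits) : a * b ∈ V.nonunits := by
  rw [ValuationSubring.mem_nonunits_iff] at hb ⊢
  rw [map_mul]
  have ha' : V.valuation a ≤ 1 := (V.valuation_le_one_iff a).mpr ha
  calc V.valuation a * V.valuation b ≤ 1 * V.valuation b := mul_le_mul_left ha' _
    _ = V.valuation b := one_mul _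
    _ < 1 := hb

/-- **Descent of an `m`-th root.**  Let `L / K` be a field extension and `V` a valuation subring
of `L` which is the *only* valuation subring of `L` with the same trace on `K`.  If `m` is a
unit of `V`, `K` contains a primitive `m`-th root of unity, `t ^ m ∈ K` and `t ≡ 1` modulo the
maximal ideal of `V`, then `t ∈ K`. -/
theorem ds68_descent {K L : Type*} [Field K] [Field L] [Algebra K L] (V : ValuationSubring L)
    (hU : ∀ W : ValuationSubring L,
      W.comap (algebraMap K L) = V.comap (algebraMap K L) → W = V)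
    {m : ℕ} (hm : (m : L) ∉ V.nonunits) (hζ : ∃ ζ : K, IsPrimitiveRoot ζ m)
    (t : L) (u : K) (htu : t ^ m = algebraMap K L u) (ht : t - 1 ∈ V.nonunits) :
    t ∈ (algebraMap K L).range := by
  classical
  obtain ⟨ζ, hζ⟩ := hζ
  have hmL : (m : L) ≠ 0 := fun h => hm (h ▸ V.nonunits.zero_mem)
  have hmK : (m : K) ≠ 0 := fun h => hmL (by
    have := congrArg (algebraMap K L) h
    simpa using this)
  have hm0 : m ≠ 0 := by rintro rfl; simp at hmK
  have hone : (1 : L) ∉ V.nonunits := by
    rw [ValuationSubring.mem_nonunits_iff, map_one]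
    exact lt_irrefl _
  have ht1 : t - 1 ∈ V := V.nonunits_le ht
  have htV : t ∈ V := by
    have := add_mem ht1 (one_mem V)
    simpa using this
  have htnu : t ∉ V.nonunits := by
    intro h
    apply hone
    have := V.nonunits.sub_mem h ht
    simpa using this
  have ht0 : t ≠ 0 := fun h => htnu (h ▸ V.nonunits.zero_mem)
  have htinv : t⁻¹ ∈ V := by
    by_contra h
    exact htnu (V.mem_nonunits_iff_or.mpr (Or.inr h))
  by_contra hnot
  obtain ⟨σ, i, him, hi1, hσ⟩ := ds68_exists_conj hmK hζ t ht0 u htu hnot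
  -- the two valuation subrings of `K⟮t⟯`
  set Vt : ValuationSubring K⟮t⟯ := V.comap (algebraMap K⟮t⟯ L) with hVt
  set Vs : ValuationSubring K⟮t⟯ := V.comap (σ : K⟮t⟯ →+* L) with hVs
  obtain ⟨W, hW⟩ := ds68_exists_comap_eq (algebraMap K⟮t⟯ L) Vs
  have hWV : W = V := by
    apply hU
    ext x
    have hc : σ (algebraMap K K⟮t⟯ x) = algebraMap K L x := AlgHom.commutes σ x
    show algebraMap K L x ∈ W ↔ algebraMap K L x ∈ V
    constructor
    · intro hx
      have h2 : (algebraMap K K⟮t⟯ x) ∈ W.comap (algebraMap K⟮t⟯ L) := hx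
      rw [hW] at h2
      have h3 : σ (algebraMap K K⟮t⟯ x) ∈ V := h2
      rwa [hc] at h3
    · intro hx
      have h2 : (algebraMap K K⟮t⟯ x) ∈ Vs := by
        show σ (algebraMap K K⟮t⟯ x) ∈ V
        rwa [hc]
      rw [← hW] at h2
      exact h2
  have hVsVt : Vs = Vt := by rw [← hW, hWV]
  -- transport `t - 1`
  have hg : (AdjoinSimple.gen K t - 1 : K⟮t⟯) ∈ Vt.nonunits := by
    rw [hVt, ds68_mem_nonunits_comap, map_sub, map_one, AdjoinSimple.algebraMap_gen]
    exact ht
  rw [← hVsVt, hVs, ds68_mem_nonunits_comap] at hg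
  have hs : algebraMap K L (ζ ^ i) * t - 1 ∈ V.nonunits := by
    have : (σ : K⟮t⟯ →+* L) (AdjoinSimple.gen K t - 1) = algebraMap K L (ζ ^ i) * t - 1 := by
      rw [map_sub, map_one]
      show σ (AdjoinSimple.gen K t) - 1 = _
      rw [hσ]
    rwa [this] at hg
  -- hence `(ζ ^ i - 1) * t` and `ζ ^ i - 1` are nonunits
  have hd : (algebraMap K L (ζ ^ i) - 1) * t ∈ V.nonunits := by
    have := V.nonunits.sub_mem hs ht
    have he : algebraMap K L (ζ ^ i) * t - 1 - (t - 1) = (algebraMap K L (ζ ^ i) - 1) * t := by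
      ring
    rwa [he] at this
  have hd' : algebraMap K L (ζ ^ i) - 1 ∈ V.nonunits := by
    have := ds68_mul_mem_nonunits V htinv hd
    have he : t⁻¹ * ((algebraMap K L (ζ ^ i) - 1) * t) = algebraMap K L (ζ ^ i) - 1 := by
      field_simp
    rwa [he] at this
  -- the product formula
  set ζ' : L := algebraMap K L ζ with hζ'
  have hζL : IsPrimitiveRoot ζ' m := hζ.map_of_injective (algebraMap K L).injective
  have hζV : ζ' ∈ V := by
    by_contra h
    have hinv : ζ'⁻¹ ∈ V.nonunits := by
      rw [ValuationSubring.mem_nonunits_iff_or]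
      right
      rwa [inv_inv]
    have hpow : ∀ n : ℕ, 0 < n → ζ'⁻¹ ^ n ∈ V.nonunits := by
      intro n hn
      induction n with
      | zero => omega
      | succ k ih =>
        rcases Nat.eq_zero_or_pos k with rfl | hk
        · simpa using hinv
        · rw [pow_succ]
          exact V.nonunits.mul_mem (ih hk) hinv
    have := hpow m (Nat.pos_of_ne_zero hm0)
    rw [inv_pow, hζL.pow_eq_one, inv_one] at this
    exact hone this
  have hi0 : i ≠ 0 := by
    rintro rfl
    exact hi1 (pow_zero ζ)
  obtain ⟨n, rfl⟩ : ∃ n, m = n + 1 := ⟨m - 1, by omega⟩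
  have hprod := hζL.prod_one_sub_pow_eq_order
  have hmem : i - 1 ∈ Finset.range n := Finset.mem_range.mpr (by omega)
  rw [← Finset.mul_prod_erase _ _ hmem] at hprod
  have hfac : (1 - ζ' ^ (i - 1 + 1) : L) ∈ V.nonunits := by
    have h1 : i - 1 + 1 = i := by omega
    rw [h1]
    have := V.nonunits.neg_mem hd'
    rw [map_pow] at this
    simpa using this
  have hrest : (∏ k ∈ (Finset.range n).erase (i - 1), (1 - ζ' ^ (k + 1)) : L) ∈ V :=
    prod_mem fun k _ => V.sub_mem V.one_mem (V.pow_mem hζV _)
  have hfin : (1 - ζ' ^ (i - 1 + 1)) * ∏ k ∈ (Finset.range n).erase (i - 1), (1 - ζ' ^ (k + 1))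
      ∈ V.nonunits := by
    rw [mul_comm]
    exact ds68_mul_mem_nonunits V hrest hfac
  rw [hprod] at hfin
  apply hm
  push_cast
  exact hfin

end Fermat.Agent.S18
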