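/-
S18, row C2 (descent of an `m`-th root from `F(N')` to `F(N)`), tower form.

No uniqueness hypothesis on the valuation, no conjugates: the only input is a family of
`[M : E]` elements of a valuation subring `V` of `M` whose residues are linearly independent over
the residue field of `V ∩ E`.
-/
import Mathlib

set_option autoImplicit false

namespace Fermat.Agent.S18

open Polynomial

section h37

variable {E F M : Type*} [Field E] [Field F] [Field M] [Algebra E F] [Algebra F M] [Algebra E M]
  [IsScalarTower E F M]

/-- The residue-independence hypothesis: a `V ∩ E`-combination of the `y i` that lies in the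
maximal ideal of `V` has all its coefficients in the maximal ideal. -/
def h37_ResInd (V : ValuationSubring M) {n : ℕ} (y : Fin n → M) : Prop :=
  ∀ c : Fin n → E, (∀ i, algebraMap E M (c i) ∈ V) →
    V.valuation (∑ i, algebraMap E M (c i) * y i) < 1 →
    ∀ i, V.valuation (algebraMap E M (c i)) < 1

omit [Field F] [Algebra E F] [Algebra F M] [IsScalarTower E F M] in
/-- Key scaling step: for an `E`-combination `x = ∑ g i • y i`, either all coefficients are
integral, or `x` has valuation `> 1`... in the form: if `x ∈ V` then all `g i` are in `V`. -/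
theorem h37_coeff_mem (V : ValuationSubring M) {n : ℕ} (y : Fin n → M)
    (hind : h37_ResInd (E := E) V y) (g : Fin n → E)
    (hx : (∑ i, algebraMap E M (g i) * y i) ∈ V) (i : Fin n) :
    algebraMap E M (g i) ∈ V := by
  classical
  obtain ⟨i0, -, hi0⟩ := Finset.exists_max_image Finset.univ
    (fun i => V.valuation (algebraMap E M (g i))) ⟨i, Finset.mem_univ i⟩
  by_cases hle : V.valuation (algebraMap E M (g i0)) ≤ 1
  · exact (V.valuation_le_one_iff _).1 ((hi0 i (Finset.mem_univ i)).trans hle)
  · exfalso
    have hlt : 1 < V.valuation (algebraMap E M (g i0)) := not_le.1 hle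
    have ha0 : g i0 ≠ 0 := by
      rintro h0
      rw [h0, map_zero, map_zero] at hlt
      exact not_lt.2 zero_le_one hlt
    have haM : algebraMap E M (g i0) ≠ 0 := by
      simpa using ha0
    have hv0 : V.valuation (algebraMap E M (g i0)) ≠ 0 := by
      simpa using haM
    have key := hind (fun i => g i / g i0) (fun i => by
      rw [← V.valuation_le_one_iff, map_div₀, map_div₀]
      exact div_le_one_of_le₀ (hi0 i (Finset.mem_univ i)) zero_le) (by
      have : (∑ i, algebraMap E M (g i / g i0) * y i)
          = (∑ i, algebraMap E M (g i) * y i) * (algebraMap E M (g i0))⁻¹ := by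
        rw [Finset.sum_mul]
        refine Finset.sum_congr rfl fun i _ => ?_
        rw [map_div₀]
        field_simp
      rw [this, map_mul, map_inv₀]
      have h1 : V.valuation (∑ i, algebraMap E M (g i) * y i) ≤ 1 :=
        (V.valuation_le_one_iff _).2 hx
      have h2 : (V.valuation (algebraMap E M (g i0)))⁻¹ < 1 := by
        exact inv_lt_one_of_one_lt₀ hlt
      calc V.valuation (∑ i, algebraMap E M (g i) * y i) * (V.valuation (algebraMap E M (g i0)))⁻¹
          ≤ 1 * (V.valuation (algebraMap E M (g i0)))⁻¹ := by
            gcongr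
        _ < 1 := by rw [one_mul]; exact h2) i0
    simp only [div_self ha0, map_one] at key
    exact lt_irrefl _ key

omit [Field F] [Algebra E F] [Algebra F M] [IsScalarTower E F M] in
/-- Residue-independent elements are linearly independent. -/
theorem h37_linearIndependent (V : ValuationSubring M) {n : ℕ} (y : Fin n → M)
    (hind : h37_ResInd (E := E) V y) : LinearIndependent E y := by
  classical
  rw [Fintype.linearIndependent_iff]
  intro g hg
  by_contra hne
  obtain ⟨i1, hi1⟩ := not_forall.1 hne
  obtain ⟨i0, -, hi0⟩ := Finset.exists_max_image Finset.univ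
    (fun i => V.valuation (algebraMap E M (g i))) ⟨i1, Finset.mem_univ i1⟩
  have ha0 : g i0 ≠ 0 := by
    intro h0
    have h1 := hi0 i1 (Finset.mem_univ i1)
    rw [h0, map_zero, map_zero] at h1
    have h2 : V.valuation (algebraMap E M (g i1)) = 0 := le_antisymm h1 zero_le
    rw [map_eq_zero, map_eq_zero] at h2
    exact hi1 h2
  have haM : algebraMap E M (g i0) ≠ 0 := by
    simpa using ha0
  have key := hind (fun i => g i / g i0) (fun i => by
    rw [← V.valuation_le_one_iff, map_div₀, map_div₀]
    exact div_le_one_of_le₀ (hi0 i (Finset.mem_univ i)) zero_le) (by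
    have : (∑ i, algebraMap E M (g i / g i0) * y i)
        = (∑ i, g i • y i) * (algebraMap E M (g i0))⁻¹ := by
      rw [Finset.sum_mul]
      refine Finset.sum_congr rfl fun i _ => ?_
      rw [map_div₀, Algebra.smul_def]
      field_simp
    rw [this, hg, zero_mul, map_zero]
    exact zero_lt_one) i0
  simp only [div_self ha0, map_one] at key
  exact lt_irrefl _ key

/-- The basis of `M` over `E` given by `[M : E]` residue-independent elements. -/
noncomputable def h37_basis [FiniteDimensional E M] (V : ValuationSubring M)
    (y : Fin (Module.finrank E M) → M) (hind : h37_ResInd (E := E) V y) :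
    Module.Basis (Fin (Module.finrank E M)) E M :=
  haveI : Nonempty (Fin (Module.finrank E M)) := ⟨⟨0, Module.finrank_pos⟩⟩
  basisOfLinearIndependentOfCardEqFinrank (h37_linearIndependent V y hind) (by simp)

omit [Field F] [Algebra E F] [Algebra F M] [IsScalarTower E F M] in
theorem h37_basis_apply [FiniteDimensional E M] (V : ValuationSubring M)
    (y : Fin (Module.finrank E M) → M) (hind : h37_ResInd (E := E) V y)
    (i : Fin (Module.finrank E M)) : h37_basis V y hind i = y i := by
  simp [h37_basis]

omit [Field F] [Algebra E F] [Algebra F M] [IsScalarTower E F M] in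
/-- The coordinates of an element of `V` lie in `V ∩ E`: `V` is free over `V ∩ E` with
basis `y`. -/
theorem h37_repr_mem [FiniteDimensional E M] (V : ValuationSubring M)
    (y : Fin (Module.finrank E M) → M) (hind : h37_ResInd (E := E) V y)
    (x : M) (hx : x ∈ V) (i : Fin (Module.finrank E M)) :
    algebraMap E M ((h37_basis V y hind).repr x i) ∈ V := by
  refine h37_coeff_mem V y hind (fun i => (h37_basis V y hind).repr x i) ?_ i
  have h := (h37_basis V y hind).sum_repr x
  have h2 : (∑ i, algebraMap E M ((h37_basis V y hind).repr x i) * y i) = x := by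
    rw [← h]
    refine Finset.sum_congr rfl fun i _ => ?_
    rw [Algebra.smul_def, h37_basis_apply, h]
  rw [h2]
  exact hx

omit [Field F] [Algebra E F] [Algebra F M] [IsScalarTower E F M] in
/-- The coordinates of an element of the maximal ideal of `V` lie in the maximal ideal of
`V ∩ E`. -/
theorem h37_repr_lt [FiniteDimensional E M] (V : ValuationSubring M)
    (y : Fin (Module.finrank E M) → M) (hind : h37_ResInd (E := E) V y)
    (x : M) (hx : V.valuation x < 1) (i : Fin (Module.finrank E M)) :
    V.valuation (algebraMap E M ((h37_basis V y hind).repr x i)) < 1 := by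
  have hxV : x ∈ V := (V.valuation_le_one_iff x).1 hx.le
  refine hind (fun i => (h37_basis V y hind).repr x i)
    (fun i => h37_repr_mem V y hind x hxV i) ?_ i
  have h := (h37_basis V y hind).sum_repr x
  have h2 : (∑ i, algebraMap E M ((h37_basis V y hind).repr x i) * y i) = x := by
    rw [← h]
    refine Finset.sum_congr rfl fun i _ => ?_
    rw [Algebra.smul_def, h37_basis_apply, h]
  rw [h2]
  exact hx

omit [Field E] [Algebra E F] [Algebra E M] [IsScalarTower E F M] in
/-- An element of `V ∩ F` whose image has valuation `< 1` lies in the maximal ideal. -/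
theorem h37_mem_maximalIdeal (V : ValuationSubring M) (a : V.comap (algebraMap F M))
    (h : V.valuation (algebraMap F M (a : F)) < 1) :
    a ∈ IsLocalRing.maximalIdeal (V.comap (algebraMap F M)) := by
  rw [IsLocalRing.mem_maximalIdeal, mem_nonunits_iff]
  intro hu
  obtain ⟨b, hab⟩ := isUnit_iff_exists_inv.1 hu
  have h1 : algebraMap F M (a : F) * algebraMap F M (b : F) = 1 := by
    rw [← map_mul]
    have : (a : F) * (b : F) = 1 := by
      have := congrArg (Subtype.val) hab
      simpa using this
    rw [this, map_one]
  have hb : V.valuation (algebraMap F M (b : F)) ≤ 1 :=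
    (V.valuation_le_one_iff _).2 (ValuationSubring.mem_comap.1 b.2)
  have h2 : V.valuation (algebraMap F M (a : F)) * V.valuation (algebraMap F M (b : F)) = 1 := by
    rw [← map_mul, h1, map_one]
  have h3 : V.valuation (algebraMap F M (a : F)) * V.valuation (algebraMap F M (b : F)) < 1 := by
    calc V.valuation (algebraMap F M (a : F)) * V.valuation (algebraMap F M (b : F))
        ≤ V.valuation (algebraMap F M (a : F)) * 1 := by gcongr
      _ < 1 := by rw [mul_one]; exact h
  rw [h2] at h3
  exact lt_irrefl _ h3

/-- **Descent, core form.** `E ⊆ F ⊆ M` fields, `M/E` finite, `V` a valuation subring of `M`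
with `[M : E]` residue-independent elements over `V ∩ E`. If `t ≡ 1` modulo the maximal ideal of
`V`, `t ^ m ∈ F` and `m` is a unit of `V`, then `t ∈ F`. -/
theorem h37_descent_core [FiniteDimensional E M] (V : ValuationSubring M)
    (y : Fin (Module.finrank E M) → M) (hyV : ∀ i, y i ∈ V) (hind : h37_ResInd (E := E) V y)
    (m : ℕ) (hmV : V.valuation (m : M) = 1)
    (t : M) (htF : t ^ m ∈ (algebraMap F M).range) (ht1 : V.valuation (t - 1) < 1) :
    t ∈ (algebraMap F M).range := by
  classical
  have hm0 : m ≠ 0 := by
    rintro rfl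
    simp at hmV
  obtain ⟨u, hu⟩ := htF
  -- `t ∈ V`
  have htV : t ∈ V := by
    rw [← V.valuation_le_one_iff]
    have : t = (t - 1) + 1 := by ring
    rw [this]
    exact (V.valuation.map_add _ _).trans (max_le ht1.le (by simp))
  -- the matrix of multiplication by `t`
  have hCV : ∀ i j, algebraMap E M (Algebra.leftMulMatrix (h37_basis V y hind) t i j) ∈ V := by
    intro i j
    rw [Algebra.leftMulMatrix_eq_repr_mul]
    exact h37_repr_mem V y hind _
      (mul_mem htV (by rw [h37_basis_apply]; exact hyV j)) i
  have hC1 : ∀ i j, V.valuation (algebraMap E M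
      (Algebra.leftMulMatrix (h37_basis V y hind) t i j
        - (1 : Matrix (Fin (Module.finrank E M)) (Fin (Module.finrank E M)) E) i j)) < 1 := by
    intro i j
    have : Algebra.leftMulMatrix (h37_basis V y hind) t i j
        - (1 : Matrix (Fin (Module.finrank E M)) (Fin (Module.finrank E M)) E) i j
        = (h37_basis V y hind).repr ((t - 1) * (h37_basis V y hind) j) i := by
      rw [Algebra.leftMulMatrix_eq_repr_mul, sub_mul, one_mul, map_sub, Finsupp.sub_apply,
        Module.Basis.repr_self, Matrix.one_apply, Finsupp.single_apply]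
      by_cases hij : i = j
      · simp [hij]
      · simp [hij, Ne.symm hij]
    rw [this]
    refine h37_repr_lt V y hind _ ?_ i
    rw [map_mul, h37_basis_apply]
    calc V.valuation (t - 1) * V.valuation (y j)
        ≤ V.valuation (t - 1) * 1 := by
          have := (V.valuation_le_one_iff _).2 (hyV j)
          gcongr
      _ < 1 := by rw [mul_one]; exact ht1
  -- the same matrix with entries in `V ∩ F`
  let CF : Matrix (Fin (Module.finrank E M)) (Fin (Module.finrank E M))
      (V.comap (algebraMap F M)) := fun i j =>
    ⟨algebraMap E F (Algebra.leftMulMatrix (h37_basis V y hind) t i j), by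
      rw [ValuationSubring.mem_comap, ← IsScalarTower.algebraMap_apply]; exact hCV i j⟩
  have hCFmap : CF.map (algebraMap (V.comap (algebraMap F M)) F)
      = (Algebra.leftMulMatrix (h37_basis V y hind) t).map (algebraMap E F) := by
    ext i j; rfl
  have hχmonic : CF.charpoly.Monic := Matrix.charpoly_monic _
  have hχmap : CF.charpoly.map (algebraMap (V.comap (algebraMap F M)) F)
      = (Algebra.leftMulMatrix (h37_basis V y hind) t).charpoly.map (algebraMap E F) := by
    rw [← Matrix.charpoly_map, ← Matrix.charpoly_map, hCFmap]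
  have hχt : aeval t (CF.charpoly.map (algebraMap (V.comap (algebraMap F M)) F)) = 0 := by
    rw [hχmap, aeval_map_algebraMap]
    apply Algebra.leftMulMatrix_injective (h37_basis V y hind)
    rw [map_zero, ← aeval_algHom_apply]
    exact Matrix.aeval_self_charpoly _
  -- the minimal polynomial of `t` over `F`
  have htint : IsIntegral F t := by
    refine ⟨X ^ m - C u, monic_X_pow_sub_C u hm0, ?_⟩
    simp [hu]
  have hgmonic : (minpoly F t).Monic := minpoly.monic htint
  have hg1 : minpoly F t ∣ CF.charpoly.map (algebraMap (V.comap (algebraMap F M)) F) :=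
    minpoly.dvd F t hχt
  have hg2 : minpoly F t ∣ (X ^ m - C u : F[X]) := minpoly.dvd F t (by simp [hu])
  obtain ⟨g', hg'⟩ := IsIntegrallyClosed.eq_map_mul_C_of_dvd F hχmonic hg1
  rw [hgmonic.leadingCoeff, C_1, mul_one] at hg'
  have hinj : Function.Injective (algebraMap (V.comap (algebraMap F M)) F) :=
    IsFractionRing.injective _ F
  have hg'monic : g'.Monic := monic_of_injective hinj (by rw [hg']; exact hgmonic)
  have hd1 : g' ∣ CF.charpoly := (map_dvd_map _ hinj hg'monic).1 (by rw [hg']; exact hg1)
  have huV : u ∈ V.comap (algebraMap F M) := by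
    rw [ValuationSubring.mem_comap, hu]; exact pow_mem htV m
  have hd2 : g' ∣ (X ^ m - C (⟨u, huV⟩ : V.comap (algebraMap F M))) := by
    refine (map_dvd_map _ hinj hg'monic).1 ?_
    rw [hg']
    simpa using hg2
  -- reduce modulo the maximal ideal of `V ∩ F`
  have hρχ : CF.charpoly.map (IsLocalRing.residue (V.comap (algebraMap F M)))
      = (X - 1) ^ (Module.finrank E M) := by
    rw [← Matrix.charpoly_map]
    have h1 : CF.map (IsLocalRing.residue (V.comap (algebraMap F M))) = 1 := by
      ext i j
      rw [Matrix.map_apply]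
      have hmem : CF i j - (1 : Matrix (Fin (Module.finrank E M)) (Fin (Module.finrank E M))
          (V.comap (algebraMap F M))) i j ∈ IsLocalRing.maximalIdeal (V.comap (algebraMap F M)) := by
        apply h37_mem_maximalIdeal
        have h2 := hC1 i j
        have h3 : algebraMap F M ((CF i j - (1 : Matrix (Fin (Module.finrank E M))
            (Fin (Module.finrank E M)) (V.comap (algebraMap F M))) i j : V.comap (algebraMap F M)) : F)
            = algebraMap E M (Algebra.leftMulMatrix (h37_basis V y hind) t i j
              - (1 : Matrix (Fin (Module.finrank E M)) (Fin (Module.finrank E M)) E) i j) := by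
          rw [IsScalarTower.algebraMap_apply E F M]
          congr 1
          by_cases hij : i = j
          · subst hij; simp [CF]
          · simp [CF, Matrix.one_apply_ne hij]
        rw [h3]; exact h2
      have h4 := (IsLocalRing.residue_eq_zero_iff _).2 hmem
      rw [map_sub, sub_eq_zero] at h4
      rw [h4]
      by_cases hij : i = j
      · subst hij; simp
      · simp [Matrix.one_apply_ne hij]
    rw [h1, Matrix.charpoly_one]
    simp
  have hρu : IsLocalRing.residue (V.comap (algebraMap F M)) ⟨u, huV⟩ = 1 := by
    have hmem : (⟨u, huV⟩ - 1 : V.comap (algebraMap F M))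
        ∈ IsLocalRing.maximalIdeal (V.comap (algebraMap F M)) := by
      apply h37_mem_maximalIdeal
      have h3 : algebraMap F M (((⟨u, huV⟩ - 1 : V.comap (algebraMap F M))) : F) = t ^ m - 1 := by
        simp [hu]
      rw [h3, ← mul_geom_sum, map_mul]
      have h5 : V.valuation (∑ i ∈ Finset.range m, t ^ i) ≤ 1 :=
        (V.valuation_le_one_iff _).2 (sum_mem fun i _ => pow_mem htV i)
      calc V.valuation (t - 1) * V.valuation (∑ i ∈ Finset.range m, t ^ i)
          ≤ V.valuation (t - 1) * 1 := by gcongr
        _ < 1 := by rw [mul_one]; exact ht1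
    have h4 := (IsLocalRing.residue_eq_zero_iff _).2 hmem
    rwa [map_sub, map_one, sub_eq_zero] at h4
  have hρm : ((m : ℕ) : IsLocalRing.ResidueField (V.comap (algebraMap F M))) ≠ 0 := by
    have hmem : ((m : ℕ) : F) ∈ V.comap (algebraMap F M) := by
      rw [ValuationSubring.mem_comap, ← V.valuation_le_one_iff, map_natCast, hmV]
    have hmM : ((m : ℕ) : M) ≠ 0 := by
      intro h0
      rw [h0, map_zero] at hmV
      exact zero_ne_one hmV
    have hmF : ((m : ℕ) : F) ≠ 0 := by
      intro h0
      apply hmM
      rw [← map_natCast (algebraMap F M), h0, map_zero]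
    have hmem' : ((m : ℕ) : F)⁻¹ ∈ V.comap (algebraMap F M) := by
      rw [ValuationSubring.mem_comap, ← V.valuation_le_one_iff, map_inv₀, map_inv₀, map_natCast,
        hmV, inv_one]
    have hunit : IsUnit ((m : ℕ) : V.comap (algebraMap F M)) := by
      refine isUnit_iff_exists_inv.2 ⟨⟨((m : ℕ) : F)⁻¹, hmem'⟩, ?_⟩
      apply Subtype.ext
      simp [hmF]
    have := hunit.map (IsLocalRing.residue (V.comap (algebraMap F M)))
    rw [map_natCast] at this
    exact this.ne_zero
  have hgb1 : g'.map (IsLocalRing.residue (V.comap (algebraMap F M)))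
      ∣ (X - C 1) ^ (Module.finrank E M) := by
    have := Polynomial.map_dvd (IsLocalRing.residue (V.comap (algebraMap F M))) hd1
    rw [hρχ] at this
    simpa using this
  have hgb2 : g'.map (IsLocalRing.residue (V.comap (algebraMap F M))) ∣ X ^ m - C 1 := by
    have := Polynomial.map_dvd (IsLocalRing.residue (V.comap (algebraMap F M))) hd2
    simpa [hρu] using this
  have hsep : (g'.map (IsLocalRing.residue (V.comap (algebraMap F M)))).Separable :=
    (separable_X_pow_sub_C (1 : IsLocalRing.ResidueField (V.comap (algebraMap F M)))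
      hρm one_ne_zero).of_dvd hgb2
  have hsqf : Squarefree (g'.map (IsLocalRing.residue (V.comap (algebraMap F M)))) :=
    hsep.squarefree
  obtain ⟨i, -, hassoc⟩ := (dvd_prime_pow
    (prime_X_sub_C (1 : IsLocalRing.ResidueField (V.comap (algebraMap F M)))) _).1 hgb1
  have hi1 : i ≤ 1 := by
    by_contra hcon
    have hcon' : 2 ≤ i := by omega
    have h2 : (X - C (1 : IsLocalRing.ResidueField (V.comap (algebraMap F M))))
        * (X - C 1) ∣ g'.map (IsLocalRing.residue (V.comap (algebraMap F M))) := by
      have h3 : (X - C (1 : IsLocalRing.ResidueField (V.comap (algebraMap F M)))) ^ 2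
          ∣ (X - C 1) ^ i := pow_dvd_pow _ hcon'
      rw [pow_two] at h3
      exact h3.trans hassoc.symm.dvd
    exact (prime_X_sub_C (1 : IsLocalRing.ResidueField (V.comap (algebraMap F M)))).not_isUnit
      (hsqf _ h2)
  have hdeg : (g'.map (IsLocalRing.residue (V.comap (algebraMap F M)))).natDegree ≤ 1 := by
    rw [natDegree_eq_of_degree_eq (degree_eq_degree_of_associated hassoc), natDegree_pow,
      natDegree_X_sub_C, mul_one]
    exact hi1
  have hdeg' : (minpoly F t).natDegree ≤ 1 := by
    rw [← hg', hg'monic.natDegree_map]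
    rwa [hg'monic.natDegree_map] at hdeg
  have hdeg1 : (minpoly F t).natDegree = 1 := le_antisymm hdeg' (minpoly.natDegree_pos htint)
  exact minpoly.natDegree_eq_one_iff.1 hdeg1

/-- **Descent of an `m`-th root, tower form** (S18 row C2; no uniqueness hypothesis on the
valuation). `E ⊆ F ⊆ M` fields with `M/E` finite, `V` a valuation subring of `M`, and
`y : Fin [M : E] → V` with residues linearly independent over the residue field of `V ∩ E`
(hypothesis `hind`, elementwise form). If `m` is a unit of `V`, `F` contains a primitive `m`-th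
root of unity, `t ^ m ∈ F` and `t ^ m ≡ 1` modulo the maximal ideal of `V`, then `t ∈ F`. -/
theorem h37_descent_tower [FiniteDimensional E M] (V : ValuationSubring M)
    (y : Fin (Module.finrank E M) → M) (hyV : ∀ i, y i ∈ V)
    (hind : ∀ c : Fin (Module.finrank E M) → E, (∀ i, algebraMap E M (c i) ∈ V) →
      V.valuation (∑ i, algebraMap E M (c i) * y i) < 1 →
      ∀ i, V.valuation (algebraMap E M (c i)) < 1)
    (m : ℕ) (hmV : V.valuation (m : M) = 1) (hζ : ∃ ζ : F, IsPrimitiveRoot ζ m)
    (t : M) (htF : t ^ m ∈ (algebraMap F M).range) (ht1 : V.valuation (t ^ m - 1) < 1) :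
    t ∈ (algebraMap F M).range := by
  classical
  have hm0 : m ≠ 0 := by
    rintro rfl
    simp at hmV
  obtain ⟨ζ, hζ⟩ := hζ
  have hprod : t ^ m - 1 = ∏ ξ ∈ nthRootsFinset m (1 : F), (t - algebraMap F M ξ) := by
    have h := X_pow_sub_one_eq_prod (Nat.pos_of_ne_zero hm0) hζ
    have h2 := congrArg (fun p : F[X] => aeval t p) h
    simpa [aeval_prod] using h2
  have hv : V.valuation (t ^ m) ≤ 1 := by
    have : t ^ m = (t ^ m - 1) + 1 := by ring
    rw [this]
    exact (V.valuation.map_add _ _).trans (max_le ht1.le (by simp))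
  have htV : V.valuation t ≤ 1 := by
    rw [map_pow] at hv
    exact (pow_le_one_iff hm0).1 hv
  have hξ : ∀ ξ ∈ nthRootsFinset m (1 : F), V.valuation (algebraMap F M ξ) = 1 := by
    intro ξ hξ
    have h1 : ξ ^ m = 1 := (mem_nthRootsFinset (Nat.pos_of_ne_zero hm0) 1).1 hξ
    have h2 : V.valuation (algebraMap F M ξ) ^ m = 1 := by
      rw [← map_pow, ← map_pow, h1, map_one, map_one]
    exact (pow_eq_one_iff.1 h2).resolve_right hm0
  have hex : ∃ ξ ∈ nthRootsFinset m (1 : F), V.valuation (t - algebraMap F M ξ) < 1 := by
    by_contra hcon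
    have hall : ∀ ξ ∈ nthRootsFinset m (1 : F), V.valuation (t - algebraMap F M ξ) = 1 := by
      intro ξ h
      refine le_antisymm ?_ (not_lt.1 fun hlt => hcon ⟨ξ, h, hlt⟩)
      exact (V.valuation.map_sub _ _).trans (max_le htV (hξ ξ h).le)
    rw [hprod, map_prod, Finset.prod_eq_one hall] at ht1
    exact lt_irrefl _ ht1
  obtain ⟨ξ, hξmem, hξlt⟩ := hex
  have hξ0 : algebraMap F M ξ ≠ 0 := by
    intro h0
    have := hξ ξ hξmem
    rw [h0, map_zero] at this
    exact zero_ne_one this
  have hξm : ξ ^ m = 1 := (mem_nthRootsFinset (Nat.pos_of_ne_zero hm0) 1).1 hξmem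
  obtain ⟨u, hu⟩ := htF
  have hcore := h37_descent_core (E := E) (F := F) V y hyV hind m hmV
    (t * (algebraMap F M ξ)⁻¹)
    ⟨u, by rw [hu, mul_pow, inv_pow, ← map_pow, hξm, map_one, inv_one, mul_one]⟩
    (by
      have : t * (algebraMap F M ξ)⁻¹ - 1 = (t - algebraMap F M ξ) * (algebraMap F M ξ)⁻¹ := by
        field_simp
      rw [this, map_mul, map_inv₀, hξ ξ hξmem, inv_one, mul_one]
      exact hξlt)
  obtain ⟨w, hw⟩ := hcore
  exact ⟨w * ξ, by rw [map_mul, hw]; field_simp⟩

/-- `h37_descent_tower` for an intermediate field `K` of `M/E` (membership form). -/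
theorem h37_descent_intermediate [FiniteDimensional E M] (K : IntermediateField E M)
    (V : ValuationSubring M)
    (y : Fin (Module.finrank E M) → M) (hyV : ∀ i, y i ∈ V)
    (hind : ∀ c : Fin (Module.finrank E M) → E, (∀ i, algebraMap E M (c i) ∈ V) →
      V.valuation (∑ i, algebraMap E M (c i) * y i) < 1 →
      ∀ i, V.valuation (algebraMap E M (c i)) < 1)
    (m : ℕ) (hmV : V.valuation (m : M) = 1) (hζ : ∃ ζ ∈ K, IsPrimitiveRoot ζ m)
    (t : M) (htK : t ^ m ∈ K) (ht1 : V.valuation (t ^ m - 1) < 1) :
    t ∈ K := by
  obtain ⟨ζ, hζK, hζ⟩ := hζ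
  have h := h37_descent_tower (E := E) (F := K) V y hyV hind m hmV
    ⟨⟨ζ, hζK⟩, IsPrimitiveRoot.of_map_of_injective (f := algebraMap K M) hζ
      (algebraMap K M).injective⟩ t ⟨⟨t ^ m, htK⟩, rfl⟩ ht1
  obtain ⟨w, hw⟩ := h
  rw [← hw]
  exact w.2

end h37

end Fermat.Agent.S18
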