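import Mathlib

/-!
# S18, row B5c (helper57): consequences of fibre normality in divisibility form

`dn57_DivNorm O C π t` is the predicate of the B5 architecture (report #1121, helper79):
for `y : C`, `f : O` with `π ∤ f`, if `y / f` is integral over `C / π C`
(elementwise: `y ^ r + ∑_{i<r} c i * f ^ (r - i) * y ^ i ∈ π C`) then
`t ^ k * y ∈ f C + π C` for some `k`.

* `dn57_glue` : two such statements for `t₁`, `t₂` with `(t₁, t₂, π) = 1` give the one for `1`.
* `dn57_isIntegrallyClosed_quot` : `DivNorm π 1` and `π` prime in `C` give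
  `IsIntegrallyClosed (C ⧸ (π))`.
* `dn57_isDedekindDomain_quot` : moreover `IsDedekindDomain (C ⧸ (π))` when `O ⧸ (π)` is a
  principal ideal domain and `C` is Noetherian and integral over `O`.
-/

set_option autoImplicit false

namespace Fermat.Agent.S18

open Polynomial

section DivNorm

variable (O C : Type*) [CommRing O] [CommRing C] [Algebra O C]

/-- Fibre normality in divisibility form, relative to `t` (helper79's `DivNorm`). -/
def dn57_DivNorm (π t : O) : Prop :=
  ∀ (y : C) (f : O), ¬ π ∣ f →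
    (∃ (r : ℕ) (c : ℕ → C) (w : C),
      y ^ r + ∑ i ∈ Finset.range r, c i * algebraMap O C f ^ (r - i) * y ^ i
        = algebraMap O C π * w) →
    ∃ (k : ℕ) (u v : C),
      algebraMap O C t ^ k * y = algebraMap O C f * u + algebraMap O C π * v

variable {O C}

/-- Powers of two elements coprime modulo `π` are coprime modulo `π`. -/
theorem dn57_coprime_pow {π t₁ t₂ : O} (hcop : ∃ α β γ : O, α * t₁ + β * t₂ + γ * π = 1)
    (k₁ k₂ : ℕ) : ∃ a b g : O, a * t₁ ^ k₁ + b * t₂ ^ k₂ + g * π = 1 := by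
  obtain ⟨α, β, γ, h⟩ := hcop
  set I : Ideal O := Ideal.span {π} with hI
  have hπI : Ideal.Quotient.mk I π = 0 :=
    Ideal.Quotient.eq_zero_iff_mem.mpr (Ideal.mem_span_singleton_self π)
  have h0 : IsCoprime (Ideal.Quotient.mk I t₁) (Ideal.Quotient.mk I t₂) := by
    refine ⟨Ideal.Quotient.mk I α, Ideal.Quotient.mk I β, ?_⟩
    have := congrArg (Ideal.Quotient.mk I) h
    simpa [map_add, map_mul, hπI] using this
  obtain ⟨a', b', hab⟩ := (h0.pow (m := k₁) (n := k₂))
  obtain ⟨a, rfl⟩ := Ideal.Quotient.mk_surjective a'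
  obtain ⟨b, rfl⟩ := Ideal.Quotient.mk_surjective b'
  have hmem : a * t₁ ^ k₁ + b * t₂ ^ k₂ - 1 ∈ I := by
    rw [← Ideal.Quotient.eq_zero_iff_mem]
    simp only [map_sub, map_add, map_mul, map_pow, map_one]
    rw [hab, sub_self]
  obtain ⟨g, hg⟩ := Ideal.mem_span_singleton'.mp hmem
  exact ⟨a, b, -g, by linear_combination -hg⟩

/-- **Glue** (`(G)` of the B5 architecture). -/
theorem dn57_glue {π t₁ t₂ : O} (h₁ : dn57_DivNorm O C π t₁) (h₂ : dn57_DivNorm O C π t₂)
    (hcop : ∃ α β γ : O, α * t₁ + β * t₂ + γ * π = 1) : dn57_DivNorm O C π 1 := by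
  intro y f hf hy
  obtain ⟨k₁, u₁, v₁, e₁⟩ := h₁ y f hf hy
  obtain ⟨k₂, u₂, v₂, e₂⟩ := h₂ y f hf hy
  obtain ⟨a, b, g, habg⟩ := dn57_coprime_pow hcop k₁ k₂
  refine ⟨0, algebraMap O C a * u₁ + algebraMap O C b * u₂,
    algebraMap O C a * v₁ + algebraMap O C b * v₂ + algebraMap O C g * y, ?_⟩
  have h1 := congrArg (algebraMap O C) habg
  simp only [map_add, map_mul, map_pow, map_one] at h1
  rw [pow_zero, one_mul]
  linear_combination (-y) * h1 + (algebraMap O C a) * e₁ + (algebraMap O C b) * e₂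

/-- `DivNorm π t` is monotone in `t` along divisibility. -/
theorem dn57_mono {π t t' : O} (h : dn57_DivNorm O C π t) (htt' : t ∣ t') :
    dn57_DivNorm O C π t' := by
  intro y f hf hy
  obtain ⟨k, u, v, e⟩ := h y f hf hy
  obtain ⟨s, rfl⟩ := htt'
  refine ⟨k, algebraMap O C s ^ k * u, algebraMap O C s ^ k * v, ?_⟩
  rw [map_mul, mul_pow]
  linear_combination (algebraMap O C s ^ k) * e

end DivNorm

section Quot

variable {O C : Type*} [CommRing O] [CommRing C] [Algebra O C]

/-- An element of `C` outside the prime ideal `(π)` divides, modulo `π`, an element of `O`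
not divisible by `π` (`C` integral over `O`). -/
theorem dn57_exists_mul_sub_mem {π : O} (hπC : Prime (algebraMap O C π))
    [Algebra.IsIntegral O C] (b : C) (hb : ¬ algebraMap O C π ∣ b) :
    ∃ (f : O) (g : C), ¬ π ∣ f ∧ algebraMap O C π ∣ b * g - algebraMap O C f := by
  have key : ∀ n : ℕ, ∀ Q : O[X], Q.natDegree ≤ n → (∃ i, ¬ π ∣ Q.coeff i) →
      algebraMap O C π ∣ aeval b Q →
      ∃ (f : O) (g : C), ¬ π ∣ f ∧ algebraMap O C π ∣ b * g - algebraMap O C f := by
    intro n
    induction n with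
    | zero =>
      intro Q hdeg ⟨i, hi⟩ hQ
      have hQC : Q = Polynomial.C (Q.coeff 0) :=
        Polynomial.eq_C_of_natDegree_le_zero hdeg
      have hi0 : ¬ π ∣ Q.coeff 0 := by
        intro h0
        apply hi
        rw [hQC, Polynomial.coeff_C]
        split_ifs
        · exact h0
        · exact dvd_zero π
      refine ⟨Q.coeff 0, 0, hi0, ?_⟩
      rw [hQC, aeval_C] at hQ
      simpa using (dvd_neg.mpr hQ)
    | succ n ih =>
      intro Q hdeg ⟨i, hi⟩ hQ
      by_cases h0 : π ∣ Q.coeff 0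
      · -- strip the constant term
        have hQ' : aeval b Q = b * aeval b Q.divX + algebraMap O C (Q.coeff 0) := by
          have h9 := congrArg (aeval b) (Polynomial.divX_mul_X_add Q)
          rw [map_add, map_mul, aeval_X, aeval_C] at h9
          rw [← h9]; ring
        have h1 : algebraMap O C π ∣ b * aeval b Q.divX := by
          have h2 : algebraMap O C π ∣ algebraMap O C (Q.coeff 0) :=
            (algebraMap O C).map_dvd h0
          have h3 := dvd_sub hQ h2
          rwa [hQ', add_sub_cancel_right] at h3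
        have h4 : algebraMap O C π ∣ aeval b Q.divX :=
          (hπC.dvd_or_dvd h1).resolve_left hb
        refine ih Q.divX ?_ ?_ h4
        · rw [Polynomial.natDegree_divX_eq_natDegree_tsub_one]
          omega
        · have hi1 : i ≠ 0 := fun h => hi (h ▸ h0)
          obtain ⟨j, rfl⟩ := Nat.exists_eq_succ_of_ne_zero hi1
          exact ⟨j, by rwa [Polynomial.coeff_divX]⟩
      · refine ⟨Q.coeff 0, -aeval b Q.divX, h0, ?_⟩
        have hQ' : aeval b Q = b * aeval b Q.divX + algebraMap O C (Q.coeff 0) := by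
          have h9 := congrArg (aeval b) (Polynomial.divX_mul_X_add Q)
          rw [map_add, map_mul, aeval_X, aeval_C] at h9
          rw [← h9]; ring
        have : b * -aeval b Q.divX - algebraMap O C (Q.coeff 0) = -aeval b Q := by
          rw [hQ']; ring
        rw [this]
        exact dvd_neg.mpr hQ
  obtain ⟨Q, hQm, hQ0⟩ := Algebra.IsIntegral.isIntegral (R := O) b
  have hπu : ¬ π ∣ 1 := by
    intro h
    exact hπC.not_isUnit ((isUnit_of_dvd_one h).map (algebraMap O C))
  refine key Q.natDegree Q le_rfl ⟨Q.natDegree, ?_⟩ ?_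
  · rw [hQm.coeff_natDegree]; exact hπu
  · rw [Polynomial.aeval_def, hQ0]; exact dvd_zero _

/-- **`C ⧸ (π)` is integrally closed** when `C` is fibre-normal in divisibility form and `π`
is prime in `C`. -/
theorem dn57_isIntegrallyClosed_quot {π : O} (hDN : dn57_DivNorm O C π 1)
    (hπC : Prime (algebraMap O C π)) [Algebra.IsIntegral O C]
    (hcontr : ∀ f : O, algebraMap O C π ∣ algebraMap O C f → π ∣ f) :
    IsIntegrallyClosed (C ⧸ Ideal.span {algebraMap O C π}) := by
  set P : Ideal C := Ideal.span {algebraMap O C π} with hP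
  have hPprime : P.IsPrime := (Ideal.span_singleton_prime hπC.ne_zero).mpr hπC
  have hmemP : ∀ z : C, z ∈ P ↔ algebraMap O C π ∣ z := fun z =>
    Ideal.mem_span_singleton
  have hmk0 : ∀ z : C, Ideal.Quotient.mk P z = 0 ↔ algebraMap O C π ∣ z := fun z => by
    rw [Ideal.Quotient.eq_zero_iff_mem, hmemP]
  refine (isIntegrallyClosed_iff (FractionRing (C ⧸ P))).mpr ?_
  intro x hx
  obtain ⟨a, b, hb, rfl⟩ := IsFractionRing.div_surjective (A := C ⧸ P) x
  obtain ⟨a0, rfl⟩ := Ideal.Quotient.mk_surjective a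
  obtain ⟨b0, rfl⟩ := Ideal.Quotient.mk_surjective b
  have hb0 : ¬ algebraMap O C π ∣ b0 := by
    intro h
    have : Ideal.Quotient.mk P b0 = 0 := (hmk0 b0).mpr h
    exact (nonZeroDivisors.ne_zero hb) this
  obtain ⟨f, g, hf, hfg⟩ := dn57_exists_mul_sub_mem hπC b0 hb0
  have hfg' : Ideal.Quotient.mk P b0 * Ideal.Quotient.mk P g
      = Ideal.Quotient.mk P (algebraMap O C f) := by
    rw [← map_mul, ← sub_eq_zero, ← map_sub]
    exact (hmk0 _).mpr hfg
  have hf0 : Ideal.Quotient.mk P (algebraMap O C f) ≠ 0 := by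
    intro h
    exact hf (hcontr f ((hmk0 _).mp h))
  set K := FractionRing (C ⧸ P) with hK
  set ι := algebraMap (C ⧸ P) K with hι
  have hinj : Function.Injective ι := IsFractionRing.injective (C ⧸ P) K
  have hιb : ι (Ideal.Quotient.mk P b0) ≠ 0 := by
    intro h
    exact nonZeroDivisors.ne_zero hb (hinj (by rw [h, map_zero]))
  have hιf : ι (Ideal.Quotient.mk P (algebraMap O C f)) ≠ 0 := by
    intro h
    exact hf0 (hinj (by rw [h, map_zero]))
  -- `x * F = ι (mk (a0 * g))`
  set y : C := a0 * g with hy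
  have hxy : ι (Ideal.Quotient.mk P (algebraMap O C f))
      * (ι (Ideal.Quotient.mk P a0) / ι (Ideal.Quotient.mk P b0))
      = ι (Ideal.Quotient.mk P y) := by
    rw [hy, map_mul, map_mul, ← hfg', map_mul, mul_div_assoc', div_eq_iff hιb]
    ring
  obtain ⟨p, hpm, hpx⟩ := hx
  -- scale the roots
  have hsc : (p.scaleRoots (Ideal.Quotient.mk P (algebraMap O C f))).eval
      (Ideal.Quotient.mk P y) = 0 := by
    apply hinj
    rw [map_zero, ← Polynomial.eval₂_at_apply, ← hxy]
    exact Polynomial.scaleRoots_eval₂_eq_zero ι hpx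
  rw [Polynomial.eval_eq_sum_range, Polynomial.natDegree_scaleRoots,
    Finset.sum_range_succ] at hsc
  simp only [Polynomial.coeff_scaleRoots] at hsc
  rw [hpm.coeff_natDegree, Nat.sub_self, pow_zero, mul_one, one_mul] at hsc
  -- lift the coefficients
  choose cl hcl using fun i : ℕ => Ideal.Quotient.mk_surjective (I := P) (p.coeff i)
  have hrel : algebraMap O C π ∣ y ^ p.natDegree
      + ∑ i ∈ Finset.range p.natDegree, cl i * algebraMap O C f ^ (p.natDegree - i) * y ^ i := by
    rw [← hmk0]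
    rw [map_add, map_sum, map_pow, add_comm]
    rw [← hsc]
    congr 1
    refine Finset.sum_congr rfl fun i _ => ?_
    rw [map_mul, map_mul, map_pow, map_pow, hcl]
  obtain ⟨w, hw⟩ := hrel
  obtain ⟨k, u, v, huv⟩ := hDN y f hf ⟨p.natDegree, cl, w, hw⟩
  rw [map_one, one_pow, one_mul] at huv
  refine ⟨Ideal.Quotient.mk P u, ?_⟩
  have h5 : Ideal.Quotient.mk P y
      = Ideal.Quotient.mk P (algebraMap O C f) * Ideal.Quotient.mk P u := by
    rw [huv, map_add, map_mul, map_mul]
    have : Ideal.Quotient.mk P (algebraMap O C π) = 0 := (hmk0 _).mpr dvd_rfl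
    rw [this, zero_mul, add_zero]
  have h6 : ι (Ideal.Quotient.mk P (algebraMap O C f)) * ι (Ideal.Quotient.mk P u)
      = ι (Ideal.Quotient.mk P (algebraMap O C f))
        * (ι (Ideal.Quotient.mk P a0) / ι (Ideal.Quotient.mk P b0)) := by
    rw [hxy, h5, map_mul]
  exact mul_left_cancel₀ hιf h6

/-- **`C ⧸ (π)` is a Dedekind domain**: `C` Noetherian and integral over `O`, `π` prime in `O`
and in `C`, `O ⧸ (π)` a principal ideal ring, and `C` fibre-normal in divisibility form. -/
theorem dn57_isDedekindDomain_quot {π : O} (hDN : dn57_DivNorm O C π 1) (hπ : Prime π)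
    (hπC : Prime (algebraMap O C π)) [Algebra.IsIntegral O C] [IsNoetherianRing C]
    [IsPrincipalIdealRing (O ⧸ Ideal.span {π})]
    (hcontr : ∀ f : O, algebraMap O C π ∣ algebraMap O C f → π ∣ f) :
    IsDedekindDomain (C ⧸ Ideal.span {algebraMap O C π}) := by
  set P : Ideal C := Ideal.span {algebraMap O C π} with hP
  have hPprime : P.IsPrime := (Ideal.span_singleton_prime hπC.ne_zero).mpr hπC
  have hmk0 : ∀ z : C, Ideal.Quotient.mk P z = 0 ↔ algebraMap O C π ∣ z := fun z => by
    rw [Ideal.Quotient.eq_zero_iff_mem, hP, Ideal.mem_span_singleton]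
  have hIC : IsIntegrallyClosed (C ⧸ P) := dn57_isIntegrallyClosed_quot hDN hπC hcontr
  set I : Ideal O := Ideal.span {π} with hI
  have hIprime : I.IsPrime := (Ideal.span_singleton_prime hπ.ne_zero).mpr hπ
  have hmkI : ∀ z : O, Ideal.Quotient.mk I z = 0 ↔ π ∣ z := fun z => by
    rw [Ideal.Quotient.eq_zero_iff_mem, hI, Ideal.mem_span_singleton]
  have hint : Algebra.IsIntegral O (C ⧸ P) :=
    Algebra.IsIntegral.of_surjective (Ideal.Quotient.mkₐ O P) Ideal.Quotient.mk_surjective
  have hdim : Ring.DimensionLEOne (C ⧸ P) := by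
    refine ⟨fun {Q} hQ0 hQp => ?_⟩
    apply Ideal.isMaximal_of_isIntegral_of_isMaximal_comap (R := O) Q
    set q : Ideal O := Q.comap (algebraMap O (C ⧸ P)) with hq
    obtain ⟨z, hzQ, hz0⟩ := Submodule.exists_mem_ne_zero_of_ne_bot hQ0
    obtain ⟨z0, rfl⟩ := Ideal.Quotient.mk_surjective z
    have hz0' : ¬ algebraMap O C π ∣ z0 := fun h => hz0 ((hmk0 z0).mpr h)
    obtain ⟨f, g, hf, hfg⟩ := dn57_exists_mul_sub_mem hπC z0 hz0'
    have hfg' : Ideal.Quotient.mk P (algebraMap O C f)
        = Ideal.Quotient.mk P z0 * Ideal.Quotient.mk P g := by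
      rw [← map_mul, eq_comm, ← sub_eq_zero, ← map_sub]
      exact (hmk0 _).mpr hfg
    have hfq : f ∈ q := by
      rw [hq, Ideal.mem_comap]
      have : algebraMap O (C ⧸ P) f = Ideal.Quotient.mk P (algebraMap O C f) := rfl
      rw [this, hfg']
      exact Q.mul_mem_right _ hzQ
    have hπq : π ∈ q := by
      rw [hq, Ideal.mem_comap]
      have : algebraMap O (C ⧸ P) π = Ideal.Quotient.mk P (algebraMap O C π) := rfl
      rw [this, (hmk0 _).mpr dvd_rfl]
      exact Q.zero_mem
    have hIq : I ≤ q := (Ideal.span_singleton_le_iff_mem _).mpr hπq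
    have hqprime : q.IsPrime := Ideal.comap_isPrime _ Q
    set qb : Ideal (O ⧸ I) := q.map (Ideal.Quotient.mk I) with hqb
    have hqbprime : qb.IsPrime :=
      Ideal.map_isPrime_of_surjective Ideal.Quotient.mk_surjective (by rwa [Ideal.mk_ker])
    have hqb0 : qb ≠ ⊥ := by
      intro h
      have h1 : Ideal.Quotient.mk I f ∈ qb := Ideal.mem_map_of_mem _ hfq
      rw [h, Ideal.mem_bot] at h1
      exact hf ((hmkI f).mp h1)
    have hqbmax : qb.IsMaximal := hqbprime.isMaximal hqb0
    have hcm : q = qb.comap (Ideal.Quotient.mk I) := by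
      rw [hqb, Ideal.comap_map_of_surjective _ Ideal.Quotient.mk_surjective,
        ← RingHom.ker_eq_comap_bot, Ideal.mk_ker, sup_eq_left.mpr hIq]
    rw [hcm]
    exact Ideal.comap_isMaximal_of_surjective _ Ideal.Quotient.mk_surjective
  exact { toIsDomain := inferInstance
          toIsDedekindRing :=
            { toIsNoetherian := inferInstance
              toDimensionLEOne := hdim
              toIsIntegralClosure := hIC } }

end Quot

end Fermat.Agent.S18
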