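import Mathlib

/-!
# S18 row A1: purity lemma for trace-self-dual orders (generic, Mathlib only)

`O` a Noetherian UFD with fraction field `E`, `L/E` finite separable, `C` the integral closure
of `O` in `L`.  `pl72_dual` is the trace dual of `C` (as a subset of `L`).

* `pl72_hartogs` : an element of `E` that has, for every prime element `p`, a denominator prime
  to `p`, lies in `O`.
* `pl72_dual_eq` : if `C` is trace-self-dual at every prime element of `O` (elementwise form
  `hcodim`), then the trace dual of `C` is `C`.
-/

namespace Fermat.Agent.S18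

open Polynomial

section Hartogs

variable {O : Type*} [CommRing O] [IsDomain O] [UniqueFactorizationMonoid O]
  {E : Type*} [Field E] [Algebra O E] [IsFractionRing O E]

/-- Hartogs for a UFD: an element of the fraction field which, for each prime element `p`,
can be written with a denominator prime to `p`, is integral. -/
theorem pl72_hartogs (a : E)
    (h : ∀ p : O, Prime p → ∃ b s : O, ¬ p ∣ s ∧ a * algebraMap O E s = algebraMap O E b) :
    a ∈ (algebraMap O E).range := by
  obtain ⟨x, z, hrel, rfl⟩ := IsFractionRing.exists_reduced_fraction O (K := E) a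
  by_cases hz : IsUnit (z : O)
  · obtain ⟨u, hu⟩ := hz
    refine ⟨x * ((u⁻¹ : Oˣ) : O), ?_⟩
    rw [IsLocalization.eq_mk'_iff_mul_eq, ← map_mul, mul_assoc, ← hu, Units.inv_mul, mul_one]
  · exfalso
    obtain ⟨p, hp, hpz⟩ :=
      WfDvdMonoid.exists_irreducible_factor hz (nonZeroDivisors.coe_ne_zero z)
    have hp' : Prime p := UniqueFactorizationMonoid.irreducible_iff_prime.mp hp
    obtain ⟨b, s, hps, hbs⟩ := h p hp'
    have h1 : x * s = b * z := by
      apply IsFractionRing.injective O E
      have h0 : IsLocalization.mk' E x z * algebraMap O E z = algebraMap O E x :=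
        IsLocalization.mk'_spec E x z
      rw [map_mul, map_mul, ← hbs, ← h0]
      ring
    have h2 : p ∣ x * s := h1 ▸ Dvd.dvd.mul_left hpz b
    rcases hp'.dvd_or_dvd h2 with h3 | h3
    · exact hp.not_isUnit (hrel h3 hpz)
    · exact hps h3

end Hartogs

section Dual

variable (O : Type*) [CommRing O] [IsDomain O] [UniqueFactorizationMonoid O]
  (E : Type*) [Field E] [Algebra O E] [IsFractionRing O E]
  (L : Type*) [Field L] [Algebra E L] [Algebra O L] [IsScalarTower O E L]
  [FiniteDimensional E L]
  (C : Type*) [CommRing C] [Algebra O C] [Algebra C L] [IsScalarTower O C L]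
  [IsIntegralClosure C O L]

/-- The trace dual of the integral closure `C` of `O` in `L`, as a subset of `L`. -/
def pl72_dual : Set L :=
  {y : L | ∀ c : C, Algebra.trace E L (y * algebraMap C L c) ∈ (algebraMap O E).range}

variable {O E L C}

/-- **Purity, part 1** (`C^∨ = C`).  If the trace dual of `C` agrees with `C` at every prime
element of the UFD `O` (elementwise: every element of the dual has a multiple by some
`s ∉ (p)` in `C`), then the trace dual is contained in `C`. -/
theorem pl72_dual_eq
    (hcodim : ∀ p : O, Prime p → ∀ y ∈ pl72_dual O E L C, ∃ s : O, ¬ p ∣ s ∧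
      algebraMap O L s * y ∈ (algebraMap C L).range)
    {y : L} (hy : y ∈ pl72_dual O E L C) : y ∈ (algebraMap C L).range := by
  have hyint : IsIntegral E y := Algebra.IsIntegral.isIntegral y
  have hcoef : ∀ i, (minpoly E y).coeff i ∈ (algebraMap O E).range := by
    intro i
    apply pl72_hartogs
    intro p hp
    obtain ⟨s, hps, c, hc⟩ := hcodim p hp y hy
    have hs0 : s ≠ 0 := fun h => hps (h ▸ dvd_zero p)
    have hsE : algebraMap O E s ≠ 0 := by
      simpa using (IsFractionRing.injective O E).ne hs0
    have hzint : IsIntegral O (algebraMap O L s * y) := by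
      rw [← hc]
      exact (IsIntegralClosure.isIntegral O L c).map (IsScalarTower.toAlgHom O C L)
    have hz : algebraMap O L s * y = (algebraMap O E s) • y := by
      rw [Algebra.smul_def, ← IsScalarTower.algebraMap_apply]
    have h1 : minpoly E (algebraMap O L s * y) = (minpoly E y).scaleRoots (algebraMap O E s) := by
      rw [hz]
      exact IsIntegrallyClosed.minpoly_smul hsE hyint
    have h2 : minpoly E (algebraMap O L s * y)
        = (minpoly O (algebraMap O L s * y)).map (algebraMap O E) :=
      minpoly.isIntegrallyClosed_eq_field_fractions' E hzint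
    refine ⟨(minpoly O (algebraMap O L s * y)).coeff i, s ^ ((minpoly E y).natDegree - i),
      fun hdvd => hps (hp.dvd_of_dvd_pow hdvd), ?_⟩
    have h3 := congrArg (fun q => q.coeff i) (h1.symm.trans h2)
    simpa [coeff_scaleRoots, coeff_map] using h3
  have hlift : minpoly E y ∈ Polynomial.lifts (algebraMap O E) :=
    (Polynomial.lifts_iff_coeff_lifts _).mpr (fun i => hcoef i)
  obtain ⟨P, hPmap, -, hPmonic⟩ :=
    Polynomial.lifts_and_natDegree_eq_and_monic hlift (minpoly.monic hyint)
  have hyO : IsIntegral O y := by
    refine ⟨P, hPmonic, ?_⟩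
    rw [← Polynomial.aeval_def, ← Polynomial.aeval_map_algebraMap E, hPmap, minpoly.aeval]
  exact IsIntegralClosure.isIntegral_iff.mp hyO

end Dual

section Free

variable {O : Type*} [CommRing O] [IsDomain O] [UniqueFactorizationMonoid O]
  {E : Type*} [Field E] [Algebra O E] [IsFractionRing O E]
  {L : Type*} [Field L] [Algebra E L] [Algebra O L] [IsScalarTower O E L]
  [FiniteDimensional E L]
  {C : Type*} [CommRing C] [Algebra O C] [Algebra C L] [IsScalarTower O C L]
  [IsIntegralClosure C O L]

/-- Traces of elements of the integral closure lie in `O`. -/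
theorem pl72_trace_mem (c : C) :
    Algebra.trace E L (algebraMap C L c) ∈ (algebraMap O E).range := by
  have h1 : IsIntegral O (algebraMap C L c) :=
    (IsIntegralClosure.isIntegral O L c).map (IsScalarTower.toAlgHom O C L)
  have h2 : IsIntegral O (Algebra.trace E L (algebraMap C L c)) := Algebra.isIntegral_trace h1
  exact IsIntegrallyClosed.isIntegral_iff.mp h2

/-- `C` is contained in its trace dual. -/
theorem pl72_self_mem_dual (c : C) : algebraMap C L c ∈ pl72_dual O E L C := by
  intro c₁
  rw [← map_mul]
  exact pl72_trace_mem _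

theorem pl72_mem_span_smul_top_iff {R M : Type*} [CommRing R] [AddCommGroup M] [Module R M]
    (r : R) (x : M) :
    x ∈ (Ideal.span {r} • (⊤ : Submodule R M)) ↔ ∃ y : M, x = r • y := by
  rw [Submodule.ideal_span_singleton_smul]
  constructor
  · rintro ⟨y, -, rfl⟩; exact ⟨y, rfl⟩
  · rintro ⟨y, rfl⟩; exact ⟨y, trivial, rfl⟩

/-- **Torsion-freeness of `C/πC` over `O/π`** when `C` is trace-self-dual. -/
theorem pl72_torsionfree (hdual : ∀ y ∈ pl72_dual O E L C, y ∈ (algebraMap C L).range)
    {π : O} (hπ : Prime π) {t : O} (ht : ¬ π ∣ t) {c c' : C} (h : t • c = π • c') :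
    ∃ c'' : C, c = π • c'' := by
  have hπL : algebraMap O L π ≠ 0 := by
    rw [IsScalarTower.algebraMap_apply O E L]
    simpa using (IsFractionRing.injective O E).ne hπ.ne_zero
  have hπE : algebraMap O E π ≠ 0 := by
    simpa using (IsFractionRing.injective O E).ne hπ.ne_zero
  have hy : (algebraMap O L π)⁻¹ * algebraMap C L c ∈ pl72_dual O E L C := by
    intro c₁
    obtain ⟨a, ha⟩ := pl72_trace_mem (O := O) (E := E) (L := L) (c * c₁)
    obtain ⟨b, hb⟩ := pl72_trace_mem (O := O) (E := E) (L := L) (c' * c₁)
    have h0 : t • (c * c₁) = π • (c' * c₁) := by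
      rw [← smul_mul_assoc, h, smul_mul_assoc]
    have h1 : t * a = π * b := by
      apply IsFractionRing.injective O E
      rw [map_mul, map_mul, ha, hb, ← Algebra.smul_def, ← Algebra.smul_def,
        ← LinearMap.map_smul_of_tower, ← LinearMap.map_smul_of_tower]
      congr 1
      have := congrArg (IsScalarTower.toAlgHom O C L) h0
      simpa using this
    obtain ⟨a₁, rfl⟩ : π ∣ a := (hπ.dvd_or_dvd ⟨b, h1⟩).resolve_left ht
    refine ⟨a₁, ?_⟩
    have h2 : (algebraMap O L π)⁻¹ * algebraMap C L c * algebraMap C L c₁
        = (algebraMap O E π)⁻¹ • algebraMap C L (c * c₁) := by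
      rw [Algebra.smul_def, map_inv₀, ← IsScalarTower.algebraMap_apply, map_mul, mul_assoc]
    rw [h2, map_smul, ← ha, map_mul, smul_eq_mul, ← mul_assoc, inv_mul_cancel₀ hπE, one_mul]
  obtain ⟨c'', hc''⟩ := hdual _ hy
  refine ⟨c'', IsIntegralClosure.algebraMap_injective C O L ?_⟩
  rw [Algebra.smul_def, map_mul, ← IsScalarTower.algebraMap_apply, hc'', ← mul_assoc,
    mul_inv_cancel₀ hπL, one_mul]

variable [IsNoetherianRing O] [IsLocalRing O] [Algebra.IsSeparable E L]

/-- **Purity, part 2a**: a trace-self-dual integral closure over a local Noetherian UFD `O`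
with `O/π` a principal ideal ring (a DVR in the application) is a free `O`-module. -/
theorem pl72_exists_basis (hdual : ∀ y ∈ pl72_dual O E L C, y ∈ (algebraMap C L).range)
    {π : O} (hπ : Prime π) [IsPrincipalIdealRing (O ⧸ Ideal.span {π})] :
    ∃ n : ℕ, Nonempty (Module.Basis (Fin n) O C) := by
  classical
  have : Module.Finite O C := IsIntegralClosure.finite O E L C
  have hIprime : (Ideal.span {π}).IsPrime := (Ideal.span_singleton_prime hπ.ne_zero).mpr hπ
  have hinj : Function.Injective (algebraMap O C) := by
    have h1 : Function.Injective (algebraMap O L) := by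
      rw [IsScalarTower.algebraMap_eq O E L]
      exact (algebraMap E L).injective.comp (IsFractionRing.injective O E)
    rw [IsScalarTower.algebraMap_eq O C L] at h1
    exact Function.Injective.of_comp h1
  have : IsDomain C :=
    (IsIntegralClosure.algebraMap_injective C O L).isDomain (algebraMap C L)
  have : Module.IsTorsionFree O C := by
    rw [Module.isTorsionFree_iff_smul_eq_zero]
    intro r m hrm
    rw [Algebra.smul_def, mul_eq_zero] at hrm
    rcases hrm with h | h
    · left; exact hinj (by rw [h, map_zero])
    · right; exact h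
  have : Module.IsTorsionFree (O ⧸ Ideal.span {π})
      (C ⧸ (Ideal.span {π} • (⊤ : Submodule O C))) := by
    rw [Module.isTorsionFree_iff_smul_eq_zero]
    intro r m hrm
    obtain ⟨t, rfl⟩ := Ideal.Quotient.mk_surjective r
    obtain ⟨c, rfl⟩ := Submodule.Quotient.mk_surjective _ m
    by_cases ht : π ∣ t
    · left
      exact Ideal.Quotient.eq_zero_iff_mem.mpr (Ideal.mem_span_singleton.mpr ht)
    · right
      rw [Module.Quotient.mk_smul_mk, Submodule.Quotient.mk_eq_zero,
        pl72_mem_span_smul_top_iff] at hrm
      obtain ⟨c', hc'⟩ := hrm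
      obtain ⟨c'', rfl⟩ := pl72_torsionfree hdual hπ ht hc'
      rw [Submodule.Quotient.mk_eq_zero, pl72_mem_span_smul_top_iff]
      exact ⟨c'', rfl⟩
  have : Module.Free (O ⧸ Ideal.span {π}) (C ⧸ (Ideal.span {π} • (⊤ : Submodule O C))) :=
    Module.free_of_finite_type_torsion_free'
  let β := Module.Free.chooseBasis (O ⧸ Ideal.span {π})
    (C ⧸ (Ideal.span {π} • (⊤ : Submodule O C)))
  have hlift : ∀ i, ∃ c : C, Submodule.Quotient.mk c = β i := fun i =>
    Submodule.Quotient.mk_surjective _ (β i)
  choose v hv using hlift
  have hπmax : Ideal.span {π} ≤ (⊥ : Ideal O).jacobson := by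
    rw [IsLocalRing.jacobson_eq_maximalIdeal ⊥ bot_ne_top, Ideal.span_le,
      Set.singleton_subset_iff]
    exact (IsLocalRing.mem_maximalIdeal π).mpr hπ.not_isUnit
  -- spanning
  have hspan : (⊤ : Submodule O C) ≤ Submodule.span O (Set.range v) := by
    apply Submodule.le_of_le_smul_of_le_jacobson_bot (I := Ideal.span {π}) Module.Finite.fg_top
      hπmax
    intro c _
    have hc := β.sum_repr (Submodule.Quotient.mk c)
    choose g hg using fun i => Ideal.Quotient.mk_surjective (β.repr (Submodule.Quotient.mk c) i)
    have h1 : (Submodule.Quotient.mk (c - ∑ i, g i • v i) :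
        C ⧸ (Ideal.span {π} • (⊤ : Submodule O C))) = 0 := by
      have hsum : (Submodule.Quotient.mk (∑ i, g i • v i) :
          C ⧸ (Ideal.span {π} • (⊤ : Submodule O C)))
          = ∑ i, (Ideal.Quotient.mk (Ideal.span {π}) (g i)) • β i := by
        rw [← Submodule.mkQ_apply, map_sum]
        refine Finset.sum_congr rfl fun i _ => ?_
        rw [Submodule.mkQ_apply, ← hv i, Module.Quotient.mk_smul_mk]
      rw [Submodule.Quotient.mk_sub, sub_eq_zero, hsum]
      conv_lhs => rw [← hc]
      exact Finset.sum_congr rfl fun i _ => by rw [hg i]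
    rw [Submodule.Quotient.mk_eq_zero] at h1
    have h2 : c = ∑ i, g i • v i + (c - ∑ i, g i • v i) := by abel
    rw [h2]
    refine Submodule.add_mem_sup (Submodule.sum_mem _ fun i _ => ?_) h1
    exact Submodule.smul_mem _ _ (Submodule.subset_span ⟨i, rfl⟩)
  -- linear independence
  have hker : LinearMap.ker (Fintype.linearCombination O v) = ⊥ := by
    apply Submodule.eq_bot_of_le_smul_of_le_jacobson_bot (Ideal.span {π}) _
      (IsNoetherian.noetherian _) _ hπmax
    intro g hg
    rw [LinearMap.mem_ker, Fintype.linearCombination_apply] at hg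
    have h1 : ∑ i, (Ideal.Quotient.mk (Ideal.span {π}) (g i)) • β i = 0 := by
      have := congrArg (Submodule.mkQ (Ideal.span {π} • (⊤ : Submodule O C))) hg
      rw [map_sum, map_zero] at this
      rw [← this]
      refine Finset.sum_congr rfl fun i _ => ?_
      rw [← hv i, Module.Quotient.mk_smul_mk, Submodule.mkQ_apply]
    have h2 : ∀ i, π ∣ g i := by
      intro i
      have := Fintype.linearIndependent_iff.mp β.linearIndependent _ h1 i
      exact Ideal.mem_span_singleton.mp (Ideal.Quotient.eq_zero_iff_mem.mp this)
    choose g' hg' using h2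
    have h3 : g = π • g' := by
      funext i; simp [hg' i]
    have h4 : g' ∈ LinearMap.ker (Fintype.linearCombination O v) := by
      rw [LinearMap.mem_ker]
      have h5 : π • (Fintype.linearCombination O v g') = 0 := by
        rw [← map_smul, ← h3, Fintype.linearCombination_apply]; exact hg
      rcases (Module.isTorsionFree_iff_smul_eq_zero.mp inferInstance) π _ h5 with h | h
      · exact absurd h hπ.ne_zero
      · exact h
    rw [h3]
    exact Submodule.smul_mem_smul (Ideal.mem_span_singleton_self π) h4
  have hli : LinearIndependent O v := by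
    rw [Fintype.linearIndependent_iff]
    intro g hg i
    have : g ∈ LinearMap.ker (Fintype.linearCombination O v) := by
      rw [LinearMap.mem_ker, Fintype.linearCombination_apply]; exact hg
    rw [hker] at this
    rw [(Submodule.mem_bot O).mp this]; rfl
  exact ⟨_, ⟨(Module.Basis.mk hli hspan).reindex (Fintype.equivFin _)⟩⟩

end Free

section Discr

variable {O : Type*} [CommRing O] [IsDomain O] [UniqueFactorizationMonoid O]
  {E : Type*} [Field E] [Algebra O E] [IsFractionRing O E]
  {L : Type*} [Field L] [Algebra E L] [Algebra O L] [IsScalarTower O E L]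
  [FiniteDimensional E L] [Algebra.IsSeparable E L]
  {C : Type*} [CommRing C] [Algebra O C] [Algebra C L] [IsScalarTower O C L]
  [IsIntegralClosure C O L]

omit [UniqueFactorizationMonoid O] in
/-- **Purity, part 2b**: if `C` is trace-self-dual, every `O`-basis of `C` has unit
discriminant (the trace form of `C` over `O` is perfect). -/
theorem pl72_isUnit_discr (hdual : ∀ y ∈ pl72_dual O E L C, y ∈ (algebraMap C L).range)
    {ι : Type*} [Fintype ι] [DecidableEq ι] (b : Module.Basis ι O C) :
    IsUnit (Algebra.discr O b) := by
  have : IsLocalization (Algebra.algebraMapSubmonoid C (nonZeroDivisors O)) L :=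
    IsIntegralClosure.isLocalization O E L C
  let B : Module.Basis ι E L := b.localizationLocalization E (nonZeroDivisors O) L
  have hB : ∀ i, B i = algebraMap C L (b i) := fun i =>
    Module.Basis.localizationLocalization_apply E (nonZeroDivisors O) L b i
  have hd : Algebra.discr E B = algebraMap O E (Algebra.discr O b) :=
    Algebra.discr_localizationLocalization O (nonZeroDivisors O) L b
  let B' := (Algebra.traceForm E L).dualBasis (traceForm_nondegenerate E L) B
  have hBB : ∀ i j, Algebra.trace E L (B' i * B j) = if j = i then 1 else 0 := fun i j => by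
    rw [← Algebra.traceForm_apply]
    exact LinearMap.BilinForm.apply_dualBasis_left (traceForm_nondegenerate E L) B i j
  have hexp : ∀ c : C, algebraMap C L c = ∑ j, algebraMap O E (b.repr c j) • B j := by
    intro c
    conv_lhs => rw [← b.sum_repr c]
    rw [map_sum]
    refine Finset.sum_congr rfl fun j _ => ?_
    rw [hB, Algebra.smul_def, map_mul, ← IsScalarTower.algebraMap_apply,
      Algebra.smul_def, ← IsScalarTower.algebraMap_apply]
  have hmem : ∀ i, B' i ∈ pl72_dual O E L C := by
    intro i c
    refine ⟨b.repr c i, ?_⟩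
    rw [hexp c, Finset.mul_sum, map_sum]
    simp only [mul_smul_comm, map_smul, hBB, smul_eq_mul, mul_ite, mul_one, mul_zero,
      Finset.sum_ite_eq', Finset.mem_univ, if_true]
  choose c hc using fun i => hdual _ (hmem i)
  have key : (Matrix.of fun i k => algebraMap O E (b.repr (c i) k)) * Algebra.traceMatrix E B
      = 1 := by
    ext i j
    rw [Matrix.mul_apply, Matrix.one_apply]
    have h1 : ∑ k, (Matrix.of fun i k => algebraMap O E (b.repr (c i) k)) i k
        * Algebra.traceMatrix E B k j = Algebra.trace E L (B' i * B j) := by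
      rw [← hc i, hexp (c i), Finset.sum_mul, map_sum]
      refine Finset.sum_congr rfl fun k _ => ?_
      rw [Matrix.of_apply, Algebra.traceMatrix_apply, Algebra.traceForm_apply, smul_mul_assoc,
        map_smul, smul_eq_mul]
    rw [h1, hBB]
    by_cases hij : i = j
    · subst hij; simp
    · rw [if_neg hij, if_neg (fun h => hij h.symm)]
  have hdet := congrArg Matrix.det key
  rw [Matrix.det_mul, Matrix.det_one, ← Algebra.discr_def, hd] at hdet
  have hmap : (Matrix.of fun i k => algebraMap O E (b.repr (c i) k))
      = (algebraMap O E).mapMatrix (Matrix.of fun i k => b.repr (c i) k) := by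
    ext i k; simp
  rw [hmap, ← RingHom.map_det, ← map_mul] at hdet
  have h1 : (Matrix.of fun i k => b.repr (c i) k).det * Algebra.discr O b = 1 :=
    IsFractionRing.injective O E (by rw [hdet, map_one])
  exact IsUnit.of_mul_eq_one_right _ h1

/-- **Purity lemma** (freeness + unit discriminant).  `O` a local Noetherian UFD, `π` a prime
element with `O/π` a principal ideal ring, `L/E` finite separable, `C` the integral closure of
`O` in `L`.  If `C` is trace-self-dual at every prime element of `O` (`hcodim`), then `C` is a
free `O`-module of rank `[L:E]` and any basis has unit discriminant. -/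
theorem pl72_free [IsNoetherianRing O] [IsLocalRing O]
    (hcodim : ∀ p : O, Prime p → ∀ y ∈ pl72_dual O E L C, ∃ s : O, ¬ p ∣ s ∧
      algebraMap O L s * y ∈ (algebraMap C L).range)
    {π : O} (hπ : Prime π) [IsPrincipalIdealRing (O ⧸ Ideal.span {π})] :
    ∃ (n : ℕ) (b : Module.Basis (Fin n) O C),
      n = Module.finrank E L ∧ IsUnit (Algebra.discr O b) := by
  have hdual : ∀ y ∈ pl72_dual O E L C, y ∈ (algebraMap C L).range :=
    fun y hy => pl72_dual_eq hcodim hy
  obtain ⟨n, ⟨b⟩⟩ := pl72_exists_basis hdual hπ
  refine ⟨n, b, ?_, pl72_isUnit_discr hdual b⟩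
  have : IsLocalization (Algebra.algebraMapSubmonoid C (nonZeroDivisors O)) L :=
    IsIntegralClosure.isLocalization O E L C
  rw [Module.finrank_eq_card_basis (b.localizationLocalization E (nonZeroDivisors O) L),
    Fintype.card_fin]

end Discr

end Fermat.Agent.S18
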