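import Mathlib
import Fermat.Agent.S18.Purity

/-!
# S18, row B5-(U) (twin): fibre normality off a divisor, in divisibility form

`O` a Noetherian UFD, `π` a prime element with `O/π` a principal ideal ring, `L/E` finite
separable, `C` the integral closure of `O` in `L`.  If `C` is trace-self-dual at every prime
element `p` of `O` not dividing `t` (helper72's `hcodim` shape), then `(C/πC)[1/t]` is
integrally closed, in the elementwise form:  `y/f` integral over `C/πC` (`π ∤ f`) implies
`t^k y ∈ f C + π C`.

Everything is global and elementwise: no localisation types, no local rings.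
-/

namespace Fermat.Agent.S18

open Polynomial

section MatrixIntegral

/-- A square matrix over `K` stabilising a finitely generated `A`-submodule of `n → K` which
contains the standard basis vectors is integral over `A`. -/
theorem dn6_isIntegral_of_lattice {A K : Type*} [CommRing A] [Field K] [Algebra A K]
    {n : Type*} [Fintype n] [DecidableEq n] (W : Matrix n n K)
    (Λ : Submodule A (n → K)) (hfg : Λ.FG) (hbasis : ∀ j, Pi.single j (1 : K) ∈ Λ)
    (hstab : ∀ v ∈ Λ, W.mulVec v ∈ Λ) : IsIntegral A W := by
  classical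
  have : Module.Finite A Λ := Module.Finite.of_fg hfg
  let g : Module.End A Λ :=
    { toFun := fun v => ⟨W.mulVec v.1, hstab v.1 v.2⟩
      map_add' := fun v w => by
        apply Subtype.ext
        simp [Matrix.mulVec_add]
      map_smul' := fun a v => by
        apply Subtype.ext
        simp [Matrix.mulVec_smul] }
  obtain ⟨p, hpm, hp⟩ := LinearMap.exists_monic_and_aeval_eq_zero A g
  refine ⟨p, hpm, ?_⟩
  have hpow : ∀ (k : ℕ) (v : Λ), (W ^ k).mulVec v.1 = ((g ^ k) v).1 := by
    intro k
    induction k with
    | zero => intro v; simp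
    | succ k ih =>
      intro v
      rw [pow_succ', ← Matrix.mulVec_mulVec, ih, pow_succ', Module.End.mul_apply]
      rfl
  have key : ∀ (q : A[X]) (v : Λ), (aeval W q).mulVec v.1 = ((aeval g q) v).1 := by
    intro q
    induction q using Polynomial.induction_on' with
    | add q₁ q₂ h₁ h₂ =>
      intro v
      rw [map_add, map_add, Matrix.add_mulVec, h₁, h₂]
      rfl
    | monomial k a =>
      intro v
      rw [aeval_monomial, aeval_monomial, ← Algebra.smul_def, ← Algebra.smul_def,
        Matrix.smul_mulVec, hpow]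
      rfl
  rw [← aeval_def]
  ext i j
  have h1 := congrFun (key p ⟨Pi.single j 1, hbasis j⟩) i
  rw [hp] at h1
  simpa [Matrix.mulVec_single_one] using h1

/-- The trace of a matrix over `Frac A` which is integral over the integrally closed domain
`A` lies in `A`. -/
theorem dn6_trace_mem_of_isIntegral {A K : Type*} [CommRing A] [IsDomain A]
    [IsIntegrallyClosed A] [Field K] [Algebra A K] [IsFractionRing A K]
    {n : Type*} [Fintype n] [DecidableEq n] (W : Matrix n n K) (hW : IsIntegral A W) :
    W.trace ∈ (algebraMap A K).range := by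
  classical
  rcases isEmpty_or_nonempty n with hn | hn
  · exact ⟨0, by simp [Matrix.trace]⟩
  obtain ⟨p, hpm, hp⟩ := hW
  let Kb := AlgebraicClosure K
  let Φ : Matrix n n K →+* Matrix n n Kb := (algebraMap K Kb).mapMatrix
  have htr : algebraMap K Kb W.trace = (Φ W).trace := by
    simp [Φ, Matrix.trace, Matrix.diag]
  have hcomp : Φ.comp (algebraMap A (Matrix n n K))
      = (algebraMap Kb (Matrix n n Kb)).comp (algebraMap A Kb) := by
    ext a i j
    simp only [RingHom.comp_apply, Φ, RingHom.mapMatrix_apply, Matrix.map_apply,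
      Matrix.algebraMap_matrix_apply]
    split_ifs
    · rw [← IsScalarTower.algebraMap_apply]; rfl
    · simp
  have h2 : aeval (Φ W) (p.map (algebraMap A Kb)) = 0 := by
    rw [aeval_def, eval₂_map, ← hcomp, ← hom_eval₂, hp, map_zero]
  have hroots : ∀ μ ∈ (Φ W).charpoly.roots, IsIntegral A μ := by
    intro μ hμ
    have h1 : μ ∈ spectrum Kb (Φ W) :=
      Matrix.mem_spectrum_iff_isRoot_charpoly.mpr (isRoot_of_mem_roots hμ)
    have h3 := spectrum.subset_polynomial_aeval (Φ W) (p.map (algebraMap A Kb)) ⟨μ, h1, rfl⟩
    rw [h2, spectrum.zero_eq, Set.mem_singleton_iff] at h3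
    refine ⟨p, hpm, ?_⟩
    rw [← eval_map]
    exact h3
  have h4 : IsIntegral A (Φ W).trace := by
    rw [Matrix.trace_eq_sum_roots_charpoly]
    exact IsIntegral.multiset_sum hroots
  rw [← htr] at h4
  have h5 : IsIntegral A W.trace :=
    (isIntegral_algebraMap_iff (algebraMap K Kb).injective).mp h4
  exact IsIntegrallyClosed.isIntegral_iff.mp h5

/-- **Trace divisibility.**  `ρ` a ring hom from a commutative ring to matrices over an
integrally closed domain `A`.  If `ρ y / f` satisfies a monic equation with coefficients in the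
image of `ρ`, then `f` divides the trace of `ρ (y * g)` for every `g`. -/
theorem dn6_trace_dvd {A : Type*} [CommRing A] [IsDomain A] [IsIntegrallyClosed A]
    {S : Type*} [CommRing S] {n : Type*} [Fintype n] [DecidableEq n]
    (ρ : S →+* Matrix n n A) (y : S) (f : A) (hf : f ≠ 0) (r : ℕ) (c : ℕ → S)
    (heq : ρ y ^ r + ∑ i ∈ Finset.range r, f ^ (r - i) • (ρ (c i) * ρ y ^ i) = 0) (g : S) :
    f ∣ (ρ (y * g)).trace := by
  classical
  rcases Nat.eq_zero_or_pos r with hr0 | hr
  · subst hr0
    have h1 : (1 : Matrix n n A) = 0 := by simpa using heq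
    have h2 : ρ (y * g) = 0 := by rw [← mul_one (ρ (y * g)), h1, mul_zero]
    rw [h2, Matrix.trace_zero]
    exact dvd_zero f
  let K := FractionRing A
  let φ : Matrix n n A →+* Matrix n n K := (algebraMap A K).mapMatrix
  set fK : K := algebraMap A K f with hfK
  have hfK0 : fK ≠ 0 := by
    simpa [hfK] using (IsFractionRing.injective A K).ne hf
  set Z : Matrix n n K := fK⁻¹ • φ (ρ y) with hZ
  have hφy : φ (ρ y) = fK • Z := by
    rw [hZ, smul_smul, mul_inv_cancel₀ hfK0, one_smul]
  have hφsmul : ∀ (a : A) (M : Matrix n n A), φ (a • M) = algebraMap A K a • φ M := by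
    intro a M
    ext i j
    simp only [φ, RingHom.mapMatrix_apply, Matrix.map_apply, Matrix.smul_apply, smul_eq_mul,
      map_mul]
  -- commutation
  have hcomm : ∀ s : S, Z * φ (ρ s) = φ (ρ s) * Z := by
    intro s
    rw [hZ, smul_mul_assoc, mul_smul_comm, ← map_mul, ← map_mul, ← map_mul, ← map_mul,
      mul_comm]
  have hcommpow : ∀ (s : S) (i : ℕ), Z ^ i * φ (ρ s) = φ (ρ s) * Z ^ i := by
    intro s i
    induction i with
    | zero => simp
    | succ i ih => rw [pow_succ, mul_assoc, hcomm, ← mul_assoc, ih, mul_assoc]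
  -- the monic equation for Z
  have hZeq : Z ^ r + ∑ i ∈ Finset.range r, φ (ρ (c i)) * Z ^ i = 0 := by
    have h1 := congrArg φ heq
    rw [map_add, map_pow, map_sum, map_zero, hφy] at h1
    have h2 : ∀ i ∈ Finset.range r, φ (f ^ (r - i) • (ρ (c i) * ρ y ^ i))
        = fK ^ r • (φ (ρ (c i)) * Z ^ i) := by
      intro i hi
      have hir : i < r := Finset.mem_range.mp hi
      rw [hφsmul, map_mul, map_pow, map_pow, hφy, _root_.smul_pow, mul_smul_comm, smul_smul,
        ← hfK, ← pow_add, Nat.sub_add_cancel hir.le]
    rw [Finset.sum_congr rfl h2, _root_.smul_pow, ← Finset.smul_sum, ← smul_add] at h1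
    exact (smul_eq_zero.mp h1).resolve_left (pow_ne_zero r hfK0)
  -- the lattice
  let Λ : Submodule A (n → K) :=
    Submodule.span A (Set.range fun x : Fin r × n => (Z ^ (x.1 : ℕ)).mulVec (Pi.single x.2 1))
  have hfg : Λ.FG := Submodule.fg_span (Set.finite_range _)
  have hgen : ∀ (i : ℕ) (_ : i < r) (j : n), (Z ^ i).mulVec (Pi.single j 1) ∈ Λ :=
    fun i hi j => Submodule.subset_span ⟨(⟨i, hi⟩, j), rfl⟩
  have hbasis : ∀ j, Pi.single j (1 : K) ∈ Λ := by
    intro j
    have := hgen 0 hr j
    rw [pow_zero, Matrix.one_mulVec] at this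
    exact this
  -- stability under `φ (ρ s)`
  have hSgen : ∀ (s : S) (i : ℕ) (_ : i < r) (j : n),
      (φ (ρ s)).mulVec ((Z ^ i).mulVec (Pi.single j 1)) ∈ Λ := by
    intro s i hi j
    rw [Matrix.mulVec_mulVec, ← hcommpow, ← Matrix.mulVec_mulVec]
    have h1 : (φ (ρ s)).mulVec (Pi.single j 1) = ∑ k, (ρ s k j) • (Pi.single k (1 : K)) := by
      ext l
      simp [φ, Finset.sum_apply, Pi.single_apply, Algebra.smul_def]
    rw [h1, Matrix.mulVec_sum]
    refine Submodule.sum_mem _ fun k _ => ?_
    rw [Matrix.mulVec_smul]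
    exact Submodule.smul_mem _ _ (hgen i hi k)
  have hSstab : ∀ (s : S), ∀ v ∈ Λ, (φ (ρ s)).mulVec v ∈ Λ := by
    intro s v hv
    induction hv using Submodule.span_induction with
    | mem v hv =>
      obtain ⟨⟨i, j⟩, rfl⟩ := hv
      exact hSgen s i i.2 j
    | zero => simp
    | add v w _ _ hv hw => rw [Matrix.mulVec_add]; exact Submodule.add_mem _ hv hw
    | smul a v _ hv => rw [Matrix.mulVec_smul]; exact Submodule.smul_mem _ _ hv
  have hZstab : ∀ v ∈ Λ, Z.mulVec v ∈ Λ := by
    intro v hv
    induction hv using Submodule.span_induction with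
    | mem v hv =>
      obtain ⟨⟨i, j⟩, rfl⟩ := hv
      rw [Matrix.mulVec_mulVec, ← pow_succ']
      by_cases hi : (i : ℕ) + 1 < r
      · exact hgen _ hi j
      · have hir : (i : ℕ) + 1 = r := by have := i.2; omega
        have h1 : Z ^ r = - ∑ i ∈ Finset.range r, φ (ρ (c i)) * Z ^ i :=
          eq_neg_of_add_eq_zero_left hZeq
        rw [hir, h1, Matrix.neg_mulVec, Matrix.sum_mulVec]
        refine Submodule.neg_mem _ (Submodule.sum_mem _ fun k hk => ?_)
        rw [← Matrix.mulVec_mulVec]
        exact hSgen (c k) k (Finset.mem_range.mp hk) j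
    | zero => simp
    | add v w _ _ hv hw => rw [Matrix.mulVec_add]; exact Submodule.add_mem _ hv hw
    | smul a v _ hv => rw [Matrix.mulVec_smul]; exact Submodule.smul_mem _ _ hv
  have hWint : IsIntegral A (Z * φ (ρ g)) := by
    refine dn6_isIntegral_of_lattice _ Λ hfg hbasis fun v hv => ?_
    rw [← Matrix.mulVec_mulVec]
    exact hZstab _ (hSstab g v hv)
  obtain ⟨τ, hτ⟩ := dn6_trace_mem_of_isIntegral _ hWint
  refine ⟨τ, ?_⟩
  apply IsFractionRing.injective A K
  have h1 : Z * φ (ρ g) = fK⁻¹ • φ (ρ (y * g)) := by
    rw [hZ, smul_mul_assoc, ← map_mul, ← map_mul]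
  have h2 : (φ (ρ (y * g))).trace = algebraMap A K (ρ (y * g)).trace := by
    simp [φ, Matrix.trace, Matrix.diag]
  rw [h1, Matrix.trace_smul, h2, smul_eq_mul] at hτ
  rw [(algebraMap A K).map_mul f τ, hτ, ← hfK, ← mul_assoc, mul_inv_cancel₀ hfK0, one_mul]

end MatrixIntegral

section UFD

/-- In a UFD, if every prime factor of `d ≠ 0` divides `m`, then `d` divides a power of `m`. -/
theorem dn6_dvd_pow_of_primes {O : Type*} [CommRing O] [IsDomain O]
    [UniqueFactorizationMonoid O] (m d : O) (hd : d ≠ 0)
    (h : ∀ p : O, Prime p → p ∣ d → p ∣ m) : ∃ k : ℕ, d ∣ m ^ k := by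
  induction d using UniqueFactorizationMonoid.induction_on_prime with
  | h₁ => exact absurd rfl hd
  | h₂ u hu => exact ⟨0, hu.dvd⟩
  | h₃ a p ha hp ih =>
    obtain ⟨k, hk⟩ := ih ha fun q hq hqa => h q hq (Dvd.dvd.mul_left hqa p)
    refine ⟨k + 1, ?_⟩
    rw [pow_succ, mul_comm p a]
    exact mul_dvd_mul hk (h p hp (dvd_mul_right p a))

end UFD

section Closure

variable {O : Type*} [CommRing O] [IsDomain O] [UniqueFactorizationMonoid O]
  (E : Type*) [Field E] [Algebra O E] [IsFractionRing O E]
  (L : Type*) [Field L] [Algebra E L] [Algebra O L] [IsScalarTower O E L]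
  [FiniteDimensional E L]
  {C : Type*} [CommRing C] [Algebra O C] [Algebra C L] [IsScalarTower O C L]
  [IsIntegralClosure C O L]

include E in
/-- An element of `L` which has, at every prime element `p` of the UFD `O`, a multiple by some
`s ∉ (p)` in the integral closure `C`, lies in `C`. -/
theorem dn6_mem_of_local {L} [Field L] [Algebra E L] [Algebra O L] [IsScalarTower O E L]
    [FiniteDimensional E L] [Algebra C L] [IsScalarTower O C L] [IsIntegralClosure C O L] {y : L}
    (h : ∀ p : O, Prime p → ∃ s : O, ¬ p ∣ s ∧ algebraMap O L s * y ∈ (algebraMap C L).range) :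
    y ∈ (algebraMap C L).range := by
  have hyint : IsIntegral E y := Algebra.IsIntegral.isIntegral y
  have hcoef : ∀ i, (minpoly E y).coeff i ∈ (algebraMap O E).range := by
    intro i
    apply pl72_hartogs
    intro p hp
    obtain ⟨s, hps, c, hc⟩ := h p hp
    have hs0 : s ≠ 0 := fun h => hps (h ▸ dvd_zero p)
    have hsE : algebraMap O E s ≠ 0 := by
      simpa using (IsFractionRing.injective O E).ne hs0
    have hzint : IsIntegral O (algebraMap O L s * y) := by
      rw [← hc]
      exact (IsIntegralClosure.isIntegral O L c).map (IsScalarTower.toAlgHom O C L)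
    have hz : algebraMap O L s * y = (algebraMap O E s) • y := by
      rw [Algebra.smul_def, ← IsScalarTower.algebraMap_apply]
    have h1 : minpoly E (algebraMap O L s * y) = (minpoly E y).scaleRoots (algebraMap O E s) := by
      rw [hz]
      exact IsIntegrallyClosed.minpoly_smul hsE hyint
    have h2 : minpoly E (algebraMap O L s * y)
        = (minpoly O (algebraMap O L s * y)).map (algebraMap O E) :=
      minpoly.isIntegrallyClosed_eq_field_fractions' E hzint
    refine ⟨(minpoly O (algebraMap O L s * y)).coeff i, s ^ ((minpoly E y).natDegree - i),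
      fun hdvd => hps (hp.dvd_of_dvd_pow hdvd), ?_⟩
    have h3 := congrArg (fun q => q.coeff i) (h1.symm.trans h2)
    simpa [coeff_scaleRoots, coeff_map] using h3
  have hlift : minpoly E y ∈ Polynomial.lifts (algebraMap O E) :=
    (Polynomial.lifts_iff_coeff_lifts _).mpr (fun i => hcoef i)
  obtain ⟨P, hPmap, -, hPmonic⟩ :=
    Polynomial.lifts_and_natDegree_eq_and_monic hlift (minpoly.monic hyint)
  have hyO : IsIntegral O y := by
    refine ⟨P, hPmonic, ?_⟩
    rw [← Polynomial.aeval_def, ← Polynomial.aeval_map_algebraMap E, hPmap, minpoly.aeval]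
  exact IsIntegralClosure.isIntegral_iff.mp hyO

include E L in
/-- `C/πC` is torsion-free over `O/π` (no self-duality needed). -/
theorem dn6_torsionfree {π : O} (hπ : Prime π) {f : O} (hf : ¬ π ∣ f) {c c' : C}
    (h : f • c = π • c') : ∃ c'' : C, c = π • c'' := by
  have hπL : algebraMap O L π ≠ 0 := by
    rw [IsScalarTower.algebraMap_apply O E L]
    simpa using (IsFractionRing.injective O E).ne hπ.ne_zero
  have hL : algebraMap O L f * algebraMap C L c = algebraMap O L π * algebraMap C L c' := by
    have := congrArg (algebraMap C L) h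
    simpa [Algebra.smul_def, ← IsScalarTower.algebraMap_apply] using this
  have hy : (algebraMap O L π)⁻¹ * algebraMap C L c ∈ (algebraMap C L).range := by
    apply dn6_mem_of_local (O := O) E
    intro p hp
    by_cases hpπ : p ∣ π
    · refine ⟨f, fun hpf => ?_, c', ?_⟩
      · -- p ∣ π and π prime: p associated to π
        obtain ⟨u, hu⟩ := hpπ
        rcases hπ.irreducible.isUnit_or_isUnit hu with h1 | h1
        · exact hp.not_isUnit h1
        · apply hf
          obtain ⟨v, hv⟩ := hpf
          obtain ⟨u', hu'⟩ := h1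
          refine ⟨↑u'⁻¹ * v, ?_⟩
          rw [hv, hu, ← hu']
          simp [mul_assoc]
      · rw [← mul_assoc, mul_comm (algebraMap O L f), mul_assoc, hL, ← mul_assoc,
          inv_mul_cancel₀ hπL, one_mul]
    · refine ⟨π, hpπ, c, ?_⟩
      rw [← mul_assoc, mul_inv_cancel₀ hπL, one_mul]
  obtain ⟨c'', hc''⟩ := hy
  refine ⟨c'', IsIntegralClosure.algebraMap_injective C O L ?_⟩
  rw [Algebra.smul_def, map_mul, ← IsScalarTower.algebraMap_apply, hc'', ← mul_assoc,
    mul_inv_cancel₀ hπL, one_mul]

include E L in
/-- **Almost-basis.**  `C/πC` is finite free over the PID `O/π`; lifting a basis gives a family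
`v` in `C`, linearly independent over `O`, with `a • C ⊆ span v` for some `a ≡ 1 (mod π)`. -/
theorem dn6_exists_family [IsNoetherianRing O] [Algebra.IsSeparable E L]
    {π : O} (hπ : Prime π) [IsPrincipalIdealRing (O ⧸ Ideal.span {π})] :
    ∃ (n : ℕ) (v : Fin n → C) (a : O), π ∣ a - 1 ∧ LinearIndependent O v ∧
      ∀ c : C, a • c ∈ Submodule.span O (Set.range v) := by
  classical
  have : Module.Finite O C := IsIntegralClosure.finite O E L C
  have hIprime : (Ideal.span {π}).IsPrime := (Ideal.span_singleton_prime hπ.ne_zero).mpr hπ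
  have hinj : Function.Injective (algebraMap O C) := by
    have h1 : Function.Injective (algebraMap O L) := by
      rw [IsScalarTower.algebraMap_eq O E L]
      exact (algebraMap E L).injective.comp (IsFractionRing.injective O E)
    rw [IsScalarTower.algebraMap_eq O C L] at h1
    exact Function.Injective.of_comp h1
  have : IsDomain C :=
    (IsIntegralClosure.algebraMap_injective C O L).isDomain (algebraMap C L)
  have htf : Module.IsTorsionFree O C := by
    rw [Module.isTorsionFree_iff_smul_eq_zero]
    intro r m hrm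
    rw [Algebra.smul_def, mul_eq_zero] at hrm
    rcases hrm with h | h
    · left; exact hinj (by rw [h, map_zero])
    · right; exact h
  have : Module.IsTorsionFree (O ⧸ Ideal.span {π})
      (C ⧸ (Ideal.span {π} • (⊤ : Submodule O C))) := by
    rw [Module.isTorsionFree_iff_smul_eq_zero]
    intro r m hrm
    obtain ⟨t, rfl⟩ := Ideal.Quotient.mk_surjective r
    obtain ⟨c, rfl⟩ := Submodule.Quotient.mk_surjective _ m
    by_cases ht : π ∣ t
    · left
      exact Ideal.Quotient.eq_zero_iff_mem.mpr (Ideal.mem_span_singleton.mpr ht)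
    · right
      rw [Module.Quotient.mk_smul_mk, Submodule.Quotient.mk_eq_zero,
        pl72_mem_span_smul_top_iff] at hrm
      obtain ⟨c', hc'⟩ := hrm
      obtain ⟨c'', rfl⟩ := dn6_torsionfree E L hπ ht hc'
      rw [Submodule.Quotient.mk_eq_zero, pl72_mem_span_smul_top_iff]
      exact ⟨c'', rfl⟩
  have : Module.Free (O ⧸ Ideal.span {π}) (C ⧸ (Ideal.span {π} • (⊤ : Submodule O C))) :=
    Module.free_of_finite_type_torsion_free'
  let β := Module.Free.chooseBasis (O ⧸ Ideal.span {π})
    (C ⧸ (Ideal.span {π} • (⊤ : Submodule O C)))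
  have hlift : ∀ i, ∃ c : C, Submodule.Quotient.mk c = β i := fun i =>
    Submodule.Quotient.mk_surjective _ (β i)
  choose v hv using hlift
  -- spanning modulo `π`
  have hmod : ∀ c : C, ∃ (g : _ → O) (c' : C), c = ∑ i, g i • v i + π • c' := by
    intro c
    have hc := β.sum_repr (Submodule.Quotient.mk c)
    choose g hg using fun i => Ideal.Quotient.mk_surjective (β.repr (Submodule.Quotient.mk c) i)
    have h1 : (Submodule.Quotient.mk (c - ∑ i, g i • v i) :
        C ⧸ (Ideal.span {π} • (⊤ : Submodule O C))) = 0 := by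
      have hsum : (Submodule.Quotient.mk (∑ i, g i • v i) :
          C ⧸ (Ideal.span {π} • (⊤ : Submodule O C)))
          = ∑ i, (Ideal.Quotient.mk (Ideal.span {π}) (g i)) • β i := by
        rw [← Submodule.mkQ_apply, map_sum]
        refine Finset.sum_congr rfl fun i _ => ?_
        rw [Submodule.mkQ_apply, ← hv i, Module.Quotient.mk_smul_mk]
      rw [Submodule.Quotient.mk_sub, sub_eq_zero, hsum]
      conv_lhs => rw [← hc]
      exact Finset.sum_congr rfl fun i _ => by rw [hg i]
    rw [Submodule.Quotient.mk_eq_zero, pl72_mem_span_smul_top_iff] at h1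
    obtain ⟨c', hc'⟩ := h1
    exact ⟨g, c', by rw [← hc']; abel⟩
  -- Nakayama: spanning up to `a ≡ 1`
  have hspan : ∃ a : O, π ∣ a - 1 ∧ ∀ c : C, a • c ∈ Submodule.span O (Set.range v) := by
    let W : Submodule O C := Submodule.span O (Set.range v)
    have hin : (⊤ : Submodule O (C ⧸ W)) ≤ Ideal.span {π} • (⊤ : Submodule O (C ⧸ W)) := by
      intro x _
      obtain ⟨c, rfl⟩ := Submodule.Quotient.mk_surjective _ x
      obtain ⟨g, c', hc'⟩ := hmod c
      have h1 : (Submodule.Quotient.mk c : C ⧸ W) = π • Submodule.Quotient.mk c' := by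
        rw [← Submodule.Quotient.mk_smul, ← sub_eq_zero, ← Submodule.Quotient.mk_sub,
          Submodule.Quotient.mk_eq_zero, hc', add_sub_cancel_right]
        exact Submodule.sum_mem _ fun i _ =>
          Submodule.smul_mem _ _ (Submodule.subset_span ⟨i, rfl⟩)
      rw [h1]
      exact Submodule.smul_mem_smul (Ideal.mem_span_singleton_self π) trivial
    obtain ⟨a, ha1, ha⟩ := Submodule.exists_sub_one_mem_and_smul_eq_zero_of_fg_of_le_smul
      (Ideal.span {π}) (⊤ : Submodule O (C ⧸ W)) Module.Finite.fg_top hin
    refine ⟨a, Ideal.mem_span_singleton.mp ha1, fun c => ?_⟩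
    have h2 := ha (Submodule.Quotient.mk c) trivial
    rw [← Submodule.Quotient.mk_smul, Submodule.Quotient.mk_eq_zero] at h2
    exact h2
  -- linear independence
  have hker : LinearMap.ker (Fintype.linearCombination O v) = ⊥ := by
    have hle : LinearMap.ker (Fintype.linearCombination O v)
        ≤ Ideal.span {π} • LinearMap.ker (Fintype.linearCombination O v) := by
      intro g hg
      rw [LinearMap.mem_ker, Fintype.linearCombination_apply] at hg
      have h1 : ∑ i, (Ideal.Quotient.mk (Ideal.span {π}) (g i)) • β i = 0 := by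
        have := congrArg (Submodule.mkQ (Ideal.span {π} • (⊤ : Submodule O C))) hg
        rw [map_sum, map_zero] at this
        rw [← this]
        refine Finset.sum_congr rfl fun i _ => ?_
        rw [← hv i, Module.Quotient.mk_smul_mk, Submodule.mkQ_apply]
      have h2 : ∀ i, π ∣ g i := by
        intro i
        have := Fintype.linearIndependent_iff.mp β.linearIndependent _ h1 i
        exact Ideal.mem_span_singleton.mp (Ideal.Quotient.eq_zero_iff_mem.mp this)
      choose g' hg' using h2
      have h3 : g = π • g' := by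
        funext i; simp [hg' i]
      have h4 : g' ∈ LinearMap.ker (Fintype.linearCombination O v) := by
        rw [LinearMap.mem_ker]
        have h5 : π • (Fintype.linearCombination O v g') = 0 := by
          rw [← map_smul, ← h3, Fintype.linearCombination_apply]; exact hg
        rcases (Module.isTorsionFree_iff_smul_eq_zero.mp htf) π _ h5 with h | h
        · exact absurd h hπ.ne_zero
        · exact h
      rw [h3]
      exact Submodule.smul_mem_smul (Ideal.mem_span_singleton_self π) h4
    obtain ⟨r', hr'1, hr'⟩ := Submodule.exists_sub_one_mem_and_smul_eq_zero_of_fg_of_le_smul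
      (Ideal.span {π}) _ (IsNoetherian.noetherian _) hle
    have hr'0 : r' ≠ 0 := by
      rintro rfl
      have h1 : π ∣ (1 : O) := by
        have := Ideal.mem_span_singleton.mp hr'1
        rw [zero_sub] at this
        exact (dvd_neg.mp this)
      exact hπ.not_isUnit (isUnit_of_dvd_one h1)
    rw [eq_bot_iff]
    intro g hg
    rw [Submodule.mem_bot]
    have h1 := hr' g hg
    funext i
    have h2 := congrFun h1 i
    simp only [Pi.smul_apply, smul_eq_mul, Pi.zero_apply, mul_eq_zero] at h2
    exact h2.resolve_left hr'0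
  have hli : LinearIndependent O v := by
    rw [Fintype.linearIndependent_iff]
    intro g hg i
    have : g ∈ LinearMap.ker (Fintype.linearCombination O v) := by
      rw [LinearMap.mem_ker, Fintype.linearCombination_apply]; exact hg
    rw [hker] at this
    rw [(Submodule.mem_bot O).mp this]; rfl
  obtain ⟨a, ha1, ha⟩ := hspan
  let e := Fintype.equivFin (Module.Free.ChooseBasisIndex (O ⧸ Ideal.span {π})
    (C ⧸ (Ideal.span {π} • (⊤ : Submodule O C))))
  refine ⟨_, v ∘ e.symm, a, ha1, hli.comp _ e.symm.injective, fun c => ?_⟩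
  rw [Set.range_comp, e.symm.range_eq_univ, Set.image_univ]
  exact ha c

omit [UniqueFactorizationMonoid O] in
include E in
/-- The lifted family is an `E`-basis of `L`. -/
theorem dn6_basis {n : ℕ} (v : Fin n → C) (a : O) (ha : a ≠ 0)
    (hli : LinearIndependent O v) (hspan : ∀ c : C, a • c ∈ Submodule.span O (Set.range v)) :
    ∃ B : Module.Basis (Fin n) E L, ∀ i, B i = algebraMap C L (v i) := by
  have : IsLocalization (Algebra.algebraMapSubmonoid C (nonZeroDivisors O)) L :=
    IsIntegralClosure.isLocalization O E L C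
  have hliE : LinearIndependent E (algebraMap C L ∘ v) :=
    hli.localization_localization E (nonZeroDivisors O) L
  have hmap : ∀ z ∈ Submodule.span O (Set.range v),
      algebraMap C L z ∈ Submodule.span E (Set.range (algebraMap C L ∘ v)) := by
    intro z hz
    induction hz using Submodule.span_induction with
    | mem z hz =>
      obtain ⟨i, rfl⟩ := hz
      exact Submodule.subset_span ⟨i, rfl⟩
    | zero => rw [map_zero]; exact Submodule.zero_mem _
    | add z w _ _ hz hw => rw [map_add]; exact Submodule.add_mem _ hz hw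
    | smul o z _ hz =>
      have h1 : algebraMap C L (o • z) = algebraMap O E o • algebraMap C L z := by
        rw [Algebra.smul_def, map_mul, ← IsScalarTower.algebraMap_apply, Algebra.smul_def,
          ← IsScalarTower.algebraMap_apply]
      rw [h1]
      exact Submodule.smul_mem _ _ hz
  have haE : algebraMap O E a ≠ 0 := by
    simpa using (IsFractionRing.injective O E).ne ha
  have hspanE : ⊤ ≤ Submodule.span E (Set.range (algebraMap C L ∘ v)) := by
    intro x _
    obtain ⟨⟨c, s⟩, hx⟩ :=
      IsLocalization.surj (Algebra.algebraMapSubmonoid C (nonZeroDivisors O)) x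
    obtain ⟨o, ho, hos⟩ := s.2
    have hoE : algebraMap O E o ≠ 0 := by
      simpa using (IsFractionRing.injective O E).ne (nonZeroDivisors.ne_zero ho)
    have h1 := hmap _ (hspan c)
    have h2 : x = ((algebraMap O E o)⁻¹ * (algebraMap O E a)⁻¹) • algebraMap C L (a • c) := by
      have hx' : x * algebraMap O L o = algebraMap C L c := by
        rw [← hx, ← hos, ← IsScalarTower.algebraMap_apply]
      rw [Algebra.smul_def (a), map_mul, ← IsScalarTower.algebraMap_apply, ← hx',
        Algebra.smul_def, map_mul, map_inv₀, map_inv₀, ← IsScalarTower.algebraMap_apply,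
        ← IsScalarTower.algebraMap_apply]
      have hoL : algebraMap O L o ≠ 0 := by
        rw [IsScalarTower.algebraMap_apply O E L]
        simpa using hoE
      have haL : algebraMap O L a ≠ 0 := by
        rw [IsScalarTower.algebraMap_apply O E L]
        simpa using haE
      field_simp
    rw [h2]
    exact Submodule.smul_mem _ _ h1
  exact ⟨Module.Basis.mk hliE hspanE, fun i => by simp⟩

omit [UniqueFactorizationMonoid O] [FiniteDimensional E L] [IsIntegralClosure C O L] in
include E in
/-- Trace through the almost-basis. -/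
theorem dn6_trace_formula {n : ℕ} (v : Fin n → C) (B : Module.Basis (Fin n) E L)
    (hB : ∀ i, B i = algebraMap C L (v i)) (a : O) (ha : a ≠ 0)
    (c : C) (M : Matrix (Fin n) (Fin n) O) (hM : ∀ j, a • (c * v j) = ∑ i, M i j • v i) :
    algebraMap O E a * Algebra.trace E L (algebraMap C L c) = algebraMap O E M.trace := by
  have haE : algebraMap O E a ≠ 0 := by
    simpa using (IsFractionRing.injective O E).ne ha
  have hcol : ∀ j, algebraMap C L c * B j
      = ∑ i, ((algebraMap O E a)⁻¹ * algebraMap O E (M i j)) • B i := by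
    intro j
    have h1 := congrArg (algebraMap C L) (hM j)
    rw [Algebra.smul_def, map_mul, map_mul, ← IsScalarTower.algebraMap_apply, map_sum] at h1
    have h2 : ∑ i, ((algebraMap O E a)⁻¹ * algebraMap O E (M i j)) • B i
        = (algebraMap O E a)⁻¹ • ∑ i, algebraMap C L (M i j • v i) := by
      rw [Finset.smul_sum]
      refine Finset.sum_congr rfl fun i _ => ?_
      rw [hB, mul_smul, Algebra.smul_def (M i j), map_mul, ← IsScalarTower.algebraMap_apply,
        Algebra.smul_def (algebraMap O E (M i j)), ← IsScalarTower.algebraMap_apply]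
    rw [h2, ← h1, hB, Algebra.smul_def, ← mul_assoc, IsScalarTower.algebraMap_apply O E L a,
      ← (algebraMap E L).map_mul, inv_mul_cancel₀ haE, map_one, one_mul]
  rw [Algebra.trace_eq_matrix_trace B, Matrix.trace, Matrix.trace, Finset.mul_sum, map_sum]
  refine Finset.sum_congr rfl fun i _ => ?_
  rw [Matrix.diag_apply, Matrix.diag_apply, Algebra.leftMulMatrix_eq_repr_mul, hcol i,
    Module.Basis.repr_sum_self, ← mul_assoc, mul_inv_cancel₀ haE, one_mul]

omit [IsDomain O] [UniqueFactorizationMonoid O] in
/-- The reduced regular representation attached to an almost-basis: multiplication matrices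
`m c` (scaled by `a`) and the induced ring hom `ρ` to matrices over `O/π`. -/
theorem dn6_rho {n : ℕ} (v : Fin n → C) (a : O) {π : O} (ha1 : π ∣ a - 1)
    (hli : LinearIndependent O v) (hspan : ∀ c : C, a • c ∈ Submodule.span O (Set.range v)) :
    ∃ (m : C → Matrix (Fin n) (Fin n) O)
      (ρ : C →+* Matrix (Fin n) (Fin n) (O ⧸ Ideal.span {π})),
      (∀ c j, a • (c * v j) = ∑ i, m c i j • v i) ∧
      (∀ c, ρ c = (m c).map (Ideal.Quotient.mk (Ideal.span {π}))) ∧
      (∀ o : O, ρ (algebraMap O C o) = Ideal.Quotient.mk (Ideal.span {π}) o • 1) := by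
  classical
  have huniq : ∀ g g' : Fin n → O, ∑ i, g i • v i = ∑ i, g' i • v i → g = g' := by
    intro g g' h
    have h0 : ∑ i, (g i - g' i) • v i = 0 := by
      simp [sub_smul, Finset.sum_sub_distrib, h]
    have := Fintype.linearIndependent_iff.mp hli _ h0
    funext i
    exact sub_eq_zero.mp (this i)
  have hexp : ∀ c : C, ∃ g : Fin n → O, a • c = ∑ i, g i • v i := by
    intro c
    obtain ⟨g, hg⟩ := (Submodule.mem_span_range_iff_exists_fun O).mp (hspan c)
    exact ⟨g, hg.symm⟩
  choose κ hκ using hexp
  have hκadd : ∀ c c', κ (c + c') = κ c + κ c' := by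
    intro c c'
    apply huniq
    rw [← hκ, smul_add, hκ, hκ, ← Finset.sum_add_distrib]
    exact Finset.sum_congr rfl fun i _ => by rw [Pi.add_apply, add_smul]
  have hκsmul : ∀ (o : O) c, κ (o • c) = o • κ c := by
    intro o c
    apply huniq
    rw [← hκ, smul_comm, hκ, Finset.smul_sum]
    exact Finset.sum_congr rfl fun i _ => by rw [Pi.smul_apply, smul_eq_mul, mul_smul]
  have hκzero : κ 0 = 0 := by
    apply huniq
    rw [← hκ]
    simp
  have hκv : ∀ j, κ (v j) = fun k => if k = j then a else 0 := by
    intro j
    apply huniq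
    rw [← hκ]
    simp [Finset.sum_ite_eq']
  let m : C → Matrix (Fin n) (Fin n) O := fun c => Matrix.of fun i j => κ (c * v j) i
  have hm : ∀ c j, a • (c * v j) = ∑ i, m c i j • v i := fun c j => hκ (c * v j)
  have hm_add : ∀ c c', m (c + c') = m c + m c' := by
    intro c c'
    ext i j
    simp only [m, Matrix.of_apply, Matrix.add_apply, add_mul, hκadd, Pi.add_apply]
  have hm_zero : m 0 = 0 := by
    ext i j
    simp only [m, Matrix.of_apply, zero_mul, hκzero, Pi.zero_apply, Matrix.zero_apply]
  have hm_smul : ∀ (o : O) c, m (o • c) = o • m c := by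
    intro o c
    ext i j
    simp only [m, Matrix.of_apply, smul_mul_assoc, hκsmul, Pi.smul_apply, Matrix.smul_apply]
  have hm_one : m 1 = a • (1 : Matrix (Fin n) (Fin n) O) := by
    ext i j
    simp only [m, Matrix.of_apply, one_mul, hκv, Matrix.smul_apply, Matrix.one_apply,
      smul_eq_mul, mul_ite, mul_one, mul_zero]
  have hm_mul : ∀ c c', a • m (c * c') = m c * m c' := by
    intro c c'
    ext i j
    have h1 : a • (a • (c * c' * v j)) = ∑ i, (∑ k, m c i k * m c' k j) • v i := by
      calc a • (a • (c * c' * v j)) = a • (c * (a • (c' * v j))) := by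
            rw [mul_smul_comm, mul_assoc]
        _ = a • (c * ∑ k, m c' k j • v k) := by rw [hm c' j]
        _ = ∑ k, m c' k j • (a • (c * v k)) := by
            rw [Finset.mul_sum, Finset.smul_sum]
            refine Finset.sum_congr rfl fun k _ => ?_
            rw [mul_smul_comm, smul_comm]
        _ = ∑ k, m c' k j • ∑ i, m c i k • v i := by
            exact Finset.sum_congr rfl fun k _ => by rw [hm c k]
        _ = ∑ i, (∑ k, m c i k * m c' k j) • v i := by
            simp_rw [Finset.smul_sum, Finset.sum_smul, smul_smul]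
            rw [Finset.sum_comm]
            refine Finset.sum_congr rfl fun i _ => Finset.sum_congr rfl fun k _ => ?_
            rw [mul_comm]
    have h2 : a • (a • (c * c' * v j)) = ∑ i, (a * m (c * c') i j) • v i := by
      rw [hm (c * c') j, Finset.smul_sum]
      exact Finset.sum_congr rfl fun i _ => by rw [smul_smul]
    have h3 := congrFun (huniq _ _ (h2.symm.trans h1)) i
    simpa [Matrix.mul_apply] using h3
  let q := Ideal.Quotient.mk (Ideal.span {π})
  have hqa : q a = 1 := by
    have h0 : q (a - 1) = 0 :=
      Ideal.Quotient.eq_zero_iff_mem.mpr (Ideal.mem_span_singleton.mpr ha1)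
    rw [map_sub, map_one, sub_eq_zero] at h0
    exact h0
  have hmap_smul : ∀ (o : O) (M : Matrix (Fin n) (Fin n) O), (o • M).map q = q o • M.map q := by
    intro o M
    ext i j
    simp only [Matrix.map_apply, Matrix.smul_apply, smul_eq_mul, map_mul]
  have hmap_one : (1 : Matrix (Fin n) (Fin n) O).map q = 1 := by
    ext i j
    simp only [Matrix.map_apply, Matrix.one_apply]
    split_ifs <;> simp
  let ρ : C →+* Matrix (Fin n) (Fin n) (O ⧸ Ideal.span {π}) :=
    { toFun := fun c => (m c).map q
      map_one' := by rw [hm_one, hmap_smul, hqa, one_smul, hmap_one]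
      map_mul' := fun c c' => by
        have h := congrArg (fun M : Matrix (Fin n) (Fin n) O => M.map q) (hm_mul c c')
        simp only [hmap_smul, hqa, one_smul, Matrix.map_mul] at h
        exact h
      map_zero' := by
        rw [hm_zero]
        ext i j
        simp
      map_add' := fun c c' => by
        rw [hm_add]
        ext i j
        simp }
  refine ⟨m, ρ, hm, fun c => rfl, fun o => ?_⟩
  show (m (algebraMap O C o)).map q = q o • 1
  have h1 : algebraMap O C o = o • (1 : C) := by rw [Algebra.smul_def, mul_one]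
  rw [h1, hm_smul, hm_one, hmap_smul, hmap_smul, hqa, one_smul, hmap_one]

end Closure

section Main

variable {O : Type*} [CommRing O] [IsDomain O] [UniqueFactorizationMonoid O] [IsNoetherianRing O]
  {E : Type*} [Field E] [Algebra O E] [IsFractionRing O E]
  {L : Type*} [Field L] [Algebra E L] [Algebra O L] [IsScalarTower O E L]
  [FiniteDimensional E L] [Algebra.IsSeparable E L]
  {C : Type*} [CommRing C] [Algebra O C] [Algebra C L] [IsScalarTower O C L]
  [IsIntegralClosure C O L]

/-- **Fibre normality off `t`, divisibility form** (twin of `(U)` of the B5 architecture).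
`O` a Noetherian UFD, `π` prime with `O/π` a PID, `L/E` finite separable, `C` the integral
closure of `O` in `L`, trace-self-dual at every prime element `p ∤ t` (`hcodim`).  If `y ∈ C`
and `f ∈ O ∖ (π)` satisfy an equation of integral dependence of `y/f` over `C/πC`, then
`t ^ k * y ∈ f C + π C` for some `k`. -/
theorem dn6_divNorm_of_hcodim {π : O} (hπ : Prime π)
    [IsPrincipalIdealRing (O ⧸ Ideal.span {π})] (t : O)
    (hcodim : ∀ p : O, Prime p → ¬ p ∣ t → ∀ y ∈ pl72_dual O E L C, ∃ s : O, ¬ p ∣ s ∧
      algebraMap O L s * y ∈ (algebraMap C L).range)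
    (y : C) (f : O) (hf : ¬ π ∣ f) (r : ℕ) (c : ℕ → C) (w : C)
    (heq : y ^ r + ∑ i ∈ Finset.range r, c i * algebraMap O C f ^ (r - i) * y ^ i
      = algebraMap O C π * w) :
    ∃ (k : ℕ) (u v : C),
      algebraMap O C t ^ k * y = algebraMap O C f * u + algebraMap O C π * v := by
  classical
  obtain ⟨n, v, a, ha1, hli, hspan⟩ := dn6_exists_family E L (C := C) hπ
  have ha0 : a ≠ 0 := by
    rintro rfl
    rw [zero_sub, dvd_neg] at ha1
    exact hπ.not_isUnit (isUnit_of_dvd_one ha1)
  obtain ⟨B, hB⟩ := dn6_basis E L v a ha0 hli hspan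
  obtain ⟨m, ρ, hm, hρ, hρO⟩ := dn6_rho v a ha1 hli hspan
  have hinjOE := IsFractionRing.injective O E
  have hinjCL := IsIntegralClosure.algebraMap_injective C O L
  have huniq : ∀ g g' : Fin n → O, ∑ i, g i • v i = ∑ i, g' i • v i → g = g' := by
    intro g g' h
    have h0 : ∑ i, (g i - g' i) • v i = 0 := by
      simp [sub_smul, Finset.sum_sub_distrib, h]
    have := Fintype.linearIndependent_iff.mp hli _ h0
    funext i
    exact sub_eq_zero.mp (this i)
  -- traces
  have htr : ∀ c : C, ∃ τ : O, algebraMap O E τ = Algebra.trace E L (algebraMap C L c) :=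
    fun c => pl72_trace_mem c
  choose τ hτ using htr
  have hτm : ∀ c : C, a * τ c = (m c).trace := by
    intro c
    apply hinjOE
    rw [map_mul, hτ]
    exact dn6_trace_formula E L v B hB a ha0 c (m c) (hm c)
  -- the quotient
  have hIprime : (Ideal.span {π}).IsPrime := (Ideal.span_singleton_prime hπ.ne_zero).mpr hπ
  let q := Ideal.Quotient.mk (Ideal.span {π})
  have hqa : q a = 1 := by
    have h0 : q (a - 1) = 0 :=
      Ideal.Quotient.eq_zero_iff_mem.mpr (Ideal.mem_span_singleton.mpr ha1)
    rw [map_sub, map_one, sub_eq_zero] at h0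
    exact h0
  have hqπ : q π = 0 :=
    Ideal.Quotient.eq_zero_iff_mem.mpr (Ideal.mem_span_singleton_self π)
  have hqf : q f ≠ 0 := fun h =>
    hf (Ideal.mem_span_singleton.mp (Ideal.Quotient.eq_zero_iff_mem.mp h))
  -- the matrix equation
  have hmat : ρ y ^ r + ∑ i ∈ Finset.range r, q f ^ (r - i) • (ρ (c i) * ρ y ^ i) = 0 := by
    have h1 := congrArg ρ heq
    rw [map_add, map_pow, map_sum, map_mul, hρO π, hqπ, zero_smul, zero_mul] at h1
    rw [← h1]
    congr 1
    refine Finset.sum_congr rfl fun i _ => ?_
    rw [map_mul, map_mul, map_pow, map_pow, hρO f, _root_.smul_pow, one_pow, mul_smul_comm,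
      mul_one, smul_mul_assoc]
  -- trace divisibility
  have hdiv : ∀ g : C, ∃ α β : O, τ (y * g) = f * α + π * β := by
    intro g
    obtain ⟨z, hz⟩ := dn6_trace_dvd ρ y (q f) hqf r c hmat g
    have h1 : (ρ (y * g)).trace = q (τ (y * g)) := by
      have h2 : q (a * τ (y * g)) = q ((m (y * g)).trace) := by rw [hτm]
      rw [map_mul, hqa, one_mul] at h2
      rw [h2, hρ, Matrix.trace, Matrix.trace, map_sum]
      rfl
    obtain ⟨α, rfl⟩ := Ideal.Quotient.mk_surjective z
    have h2 : q (τ (y * g) - f * α) = 0 := by
      rw [map_sub, map_mul, ← h1, hz, sub_self]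
    obtain ⟨β, hβ⟩ := Ideal.mem_span_singleton.mp (Ideal.Quotient.eq_zero_iff_mem.mp h2)
    exact ⟨α, β, by linear_combination hβ⟩
  -- Gram matrix
  let G : Matrix (Fin n) (Fin n) O := Matrix.of fun i j => τ (v i * v j)
  have hG : ∀ i j, algebraMap O E (G i j) = Algebra.trace E L (B i * B j) := by
    intro i j
    simp only [G, Matrix.of_apply, hτ, map_mul, hB]
  have hd0 : G.det ≠ 0 := by
    intro h0
    have h1 : Algebra.discr E B = algebraMap O E G.det := by
      rw [Algebra.discr_def, RingHom.map_det]
      congr 1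
      ext i j
      simp [Algebra.traceMatrix_apply, Algebra.traceForm_apply, hG]
    have h2 := Algebra.discr_not_zero_of_basis E B
    rw [h1, h0, map_zero] at h2
    exact h2 rfl
  -- key trace computation: `Tr (x * B i)` for `x = ∑ lam j • v j`
  have hTr : ∀ (lam : Fin n → O) (i : Fin n),
      Algebra.trace E L (algebraMap C L (∑ j, lam j • v j) * B i)
        = algebraMap O E (∑ j, G i j * lam j) := by
    intro lam i
    rw [map_sum, Finset.sum_mul, map_sum, map_sum]
    refine Finset.sum_congr rfl fun j _ => ?_
    rw [(algebraMap O E).map_mul, hG, Algebra.smul_def, (algebraMap C L).map_mul,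
      ← IsScalarTower.algebraMap_apply O C L, IsScalarTower.algebraMap_apply O E L, ← hB,
      mul_assoc, ← Algebra.smul_def, (Algebra.trace E L).map_smul, smul_eq_mul,
      mul_comm (B j) (B i), mul_comm]
  -- (D): every prime factor of the Gram determinant divides `a * t`
  have hD : ∀ p : O, Prime p → p ∣ G.det → p ∣ a * t := by
    intro p hp hpd
    by_contra hpat
    have hpa : ¬ p ∣ a := fun h => hpat (Dvd.dvd.mul_right h t)
    have hpt : ¬ p ∣ t := fun h => hpat (Dvd.dvd.mul_left h a)
    have hpprime : (Ideal.span {p}).IsPrime := (Ideal.span_singleton_prime hp.ne_zero).mpr hp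
    let qp := Ideal.Quotient.mk (Ideal.span {p})
    have hqp : ∀ x : O, qp x = 0 ↔ p ∣ x := fun x =>
      Ideal.Quotient.eq_zero_iff_mem.trans Ideal.mem_span_singleton
    have hdet : (qp.mapMatrix G).det = 0 := by
      rw [← RingHom.map_det]
      exact (hqp _).mpr hpd
    obtain ⟨lb, hlb0, hlb⟩ := Matrix.exists_mulVec_eq_zero_iff.mpr hdet
    choose lam hlam using fun j => Ideal.Quotient.mk_surjective (lb j)
    have h1 : ∀ i, p ∣ ∑ j, G i j * lam j := by
      intro i
      have h0 : (qp.mapMatrix G).mulVec lb i = 0 := by rw [hlb]; rfl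
      rw [← hqp, map_sum]
      rw [← h0]
      simp only [Matrix.mulVec, dotProduct, RingHom.mapMatrix_apply, Matrix.map_apply]
      refine Finset.sum_congr rfl fun j _ => ?_
      rw [map_mul]
      congr 1
      exact hlam j
    choose μ hμ using h1
    obtain ⟨j0, hj0⟩ : ∃ j, ¬ p ∣ lam j := by
      by_contra hall
      push Not at hall
      apply hlb0
      funext j
      rw [← hlam j]
      exact (hqp _).mpr (hall j)
    have hpE : algebraMap O E p ≠ 0 := by
      simpa using hinjOE.ne hp.ne_zero
    have hx : ∀ i, Algebra.trace E L (algebraMap C L (∑ j, lam j • v j) * B i)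
        = algebraMap O E p * algebraMap O E (μ i) := by
      intro i
      rw [hTr, hμ, map_mul]
    let z : L := algebraMap E L (algebraMap O E a * (algebraMap O E p)⁻¹)
      * algebraMap C L (∑ j, lam j • v j)
    have hz : z ∈ pl72_dual O E L C := by
      intro c0
      obtain ⟨g, hg⟩ := (Submodule.mem_span_range_iff_exists_fun O).mp (hspan c0)
      refine ⟨∑ i, g i * μ i, ?_⟩
      have h2 : z * algebraMap C L c0 = (algebraMap O E p)⁻¹ •
          ∑ i, algebraMap O E (g i) • (algebraMap C L (∑ j, lam j • v j) * B i) := by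
        have h3 : algebraMap E L (algebraMap O E a) * algebraMap C L c0
            = ∑ i, algebraMap O E (g i) • B i := by
          rw [← IsScalarTower.algebraMap_apply, IsScalarTower.algebraMap_apply O C L,
            ← map_mul, ← Algebra.smul_def, ← hg, map_sum]
          refine Finset.sum_congr rfl fun i _ => ?_
          rw [Algebra.smul_def, map_mul, ← IsScalarTower.algebraMap_apply, hB,
            Algebra.smul_def, ← IsScalarTower.algebraMap_apply]
        have h4 : z * algebraMap C L c0 = (algebraMap O E p)⁻¹ •
            (algebraMap C L (∑ j, lam j • v j)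
              * (algebraMap E L (algebraMap O E a) * algebraMap C L c0)) := by
          simp only [z]
          rw [Algebra.smul_def, map_mul]
          ring
        rw [h4, h3, Finset.mul_sum]
        congr 1
        refine Finset.sum_congr rfl fun i _ => ?_
        rw [mul_smul_comm]
      rw [h2, map_smul, map_sum, map_sum]
      have h5 : ∀ i ∈ Finset.univ, Algebra.trace E L
          (algebraMap O E (g i) • (algebraMap C L (∑ j, lam j • v j) * B i))
          = algebraMap O E p * (algebraMap O E (g i) * algebraMap O E (μ i)) := by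
        intro i _
        rw [map_smul, hx, smul_eq_mul]
        ring
      rw [Finset.sum_congr rfl h5, ← Finset.mul_sum, smul_eq_mul, ← mul_assoc,
        inv_mul_cancel₀ hpE, one_mul]
      exact Finset.sum_congr rfl fun i _ => by rw [map_mul]
    obtain ⟨s, hps, c₀, hc₀⟩ := hcodim p hp hpt z hz
    have h4 : (s * a) • (∑ j, lam j • v j) = p • c₀ := by
      apply hinjCL
      have hpL : algebraMap E L (algebraMap O E p) ≠ 0 := by
        simpa using hpE
      have e1 : algebraMap C L ((s * a) • ∑ j, lam j • v j)
          = algebraMap O L (s * a) * algebraMap C L (∑ j, lam j • v j) := by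
        rw [Algebra.smul_def, (algebraMap C L).map_mul, ← IsScalarTower.algebraMap_apply O C L]
      have e2 : algebraMap C L (p • c₀) = algebraMap O L p * algebraMap C L c₀ := by
        rw [Algebra.smul_def, (algebraMap C L).map_mul, ← IsScalarTower.algebraMap_apply O C L]
      rw [e1, e2, hc₀]
      simp only [z]
      rw [IsScalarTower.algebraMap_apply O E L (s * a), IsScalarTower.algebraMap_apply O E L p,
        IsScalarTower.algebraMap_apply O E L s, (algebraMap O E).map_mul,
        (algebraMap E L).map_mul, (algebraMap E L).map_mul, map_inv₀]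
      field_simp
    obtain ⟨g₀, hg₀⟩ := (Submodule.mem_span_range_iff_exists_fun O).mp (hspan c₀)
    have h5 : ∑ j, (a * (s * a) * lam j) • v j = ∑ j, (p * g₀ j) • v j := by
      calc ∑ j, (a * (s * a) * lam j) • v j = a • ((s * a) • ∑ j, lam j • v j) := by
            rw [Finset.smul_sum, Finset.smul_sum]
            exact Finset.sum_congr rfl fun j _ => by rw [smul_smul, smul_smul]
        _ = p • (a • c₀) := by rw [h4, smul_comm]
        _ = ∑ j, (p * g₀ j) • v j := by
            rw [← hg₀, Finset.smul_sum]
            exact Finset.sum_congr rfl fun j _ => by rw [smul_smul]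
    have h6 := congrFun (huniq _ _ h5) j0
    have h7 : p ∣ a * (s * a) * lam j0 := ⟨_, h6⟩
    rcases hp.dvd_or_dvd h7 with h | h
    · rcases hp.dvd_or_dvd h with h | h
      · exact hpa h
      · rcases hp.dvd_or_dvd h with h | h
        · exact hps h
        · exact hpa h
    · exact hj0 h
  obtain ⟨k, d', hk⟩ := dn6_dvd_pow_of_primes (a * t) G.det hd0 hD
  -- expansion of `y` and the Gram relation
  obtain ⟨η, hη⟩ := (Submodule.mem_span_range_iff_exists_fun O).mp (hspan y)
  have hGη : ∀ i, ∑ j, G i j * η j = a * τ (y * v i) := by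
    intro i
    apply hinjOE
    rw [← hTr, hη, (algebraMap O E).map_mul, hτ, Algebra.smul_def, (algebraMap C L).map_mul,
      (algebraMap C L).map_mul, ← IsScalarTower.algebraMap_apply O C L,
      IsScalarTower.algebraMap_apply O E L, mul_assoc, ← Algebra.smul_def,
      (Algebra.trace E L).map_smul, smul_eq_mul, hB]
  have hdetη : ∀ j, G.det * η j = a * ∑ i, G.adjugate j i * τ (y * v i) := by
    have h1 : G.mulVec η = a • (fun i => τ (y * v i)) := by
      funext i
      simp only [Matrix.mulVec, dotProduct, Pi.smul_apply, smul_eq_mul]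
      exact hGη i
    have h2 := congrArg G.adjugate.mulVec h1
    rw [Matrix.mulVec_mulVec, Matrix.adjugate_mul, Matrix.smul_mulVec, Matrix.one_mulVec,
      Matrix.mulVec_smul] at h2
    intro j
    have h3 := congrFun h2 j
    simpa [Matrix.mulVec, dotProduct] using h3
  choose α β hαβ using fun i => hdiv (v i)
  let U : C := ∑ j, (∑ i, G.adjugate j i * α i) • v j
  let V : C := ∑ j, (∑ i, G.adjugate j i * β i) • v j
  have hinjOC : Function.Injective (algebraMap O C) := by
    have h1 : Function.Injective (algebraMap O L) := by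
      rw [IsScalarTower.algebraMap_eq O E L]
      exact (algebraMap E L).injective.comp hinjOE
    rw [IsScalarTower.algebraMap_eq O C L] at h1
    exact Function.Injective.of_comp h1
  have hdomC : IsDomain C := hinjCL.isDomain (algebraMap C L)
  have hdy : G.det • y = f • U + π • V := by
    have hsc : ∀ j, a * ∑ i, G.adjugate j i * τ (y * v i)
        = a * (f * ∑ i, G.adjugate j i * α i + π * ∑ i, G.adjugate j i * β i) := by
      intro j
      congr 1
      rw [Finset.mul_sum, Finset.mul_sum, ← Finset.sum_add_distrib]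
      refine Finset.sum_congr rfl fun i _ => ?_
      rw [hαβ]
      ring
    have hU : f • U + π • V
        = ∑ j, (f * ∑ i, G.adjugate j i * α i + π * ∑ i, G.adjugate j i * β i) • v j := by
      simp only [U, V, Finset.smul_sum, smul_smul]
      rw [← Finset.sum_add_distrib]
      exact Finset.sum_congr rfl fun j _ => (add_smul _ _ _).symm
    have h1 : a • (G.det • y) = a • (f • U + π • V) := by
      rw [hU, smul_comm, ← hη, Finset.smul_sum, Finset.smul_sum]
      refine Finset.sum_congr rfl fun j _ => ?_
      rw [smul_smul, smul_smul, hdetη, hsc]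
    rw [Algebra.smul_def, Algebra.smul_def a] at h1
    exact mul_left_cancel₀ (by simpa using hinjOC.ne ha0) h1
  obtain ⟨e, he⟩ : ∃ e, a ^ k = 1 + π * e := by
    have h1 : a - 1 ∣ a ^ k - 1 := by simpa using sub_dvd_pow_sub_pow a 1 k
    obtain ⟨e, he⟩ := ha1.trans h1
    exact ⟨e, by linear_combination he⟩
  refine ⟨k, d' • U, d' • V - (e * t ^ k) • y, ?_⟩
  have h7 : (a * t) ^ k • y = f • (d' • U) + π • (d' • V) := by
    rw [hk, mul_comm, mul_smul, hdy, smul_add, smul_comm d' f, smul_comm d' π]
  have h8 : t ^ k • y = (a * t) ^ k • y - π • ((e * t ^ k) • y) := by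
    rw [mul_pow, he, smul_smul, ← sub_smul]
    congr 1
    ring
  calc algebraMap O C t ^ k * y = t ^ k • y := by rw [Algebra.smul_def, map_pow]
    _ = f • (d' • U) + π • (d' • V) - π • ((e * t ^ k) • y) := by rw [h8, h7]
    _ = algebraMap O C f * d' • U + algebraMap O C π * (d' • V - (e * t ^ k) • y) := by
        rw [Algebra.smul_def f, Algebra.smul_def π, Algebra.smul_def π]
        ring

end Main

end Fermat.Agent.S18
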