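import Fermat.Agent.S18.DivNorm57

/-!
# S18 / B5 (helper46): descent (K) for the `DivNorm` property

`dn57_DivNorm O C π t` (helper57, `DivNorm57.lean`; = helper79's `sm79_DivNorm`, report #1121):
"`(C/π)[1/t]` is integrally closed in `(C/π) ⊗ Frac (O/π)`", stated elementwise.

* `dn46_descent` : descent of `DivNorm` along a finite extension of degree invertible in `O`
  (average by the trace): `DivNorm (O', D, φ π, φ t) ⟹ DivNorm (O, C, π, t)`.
-/

set_option autoImplicit false

namespace Fermat.Agent.S18

section Descent

variable {O O' F L C D : Type*} [CommRing O] [CommRing O'] [Field F] [Field L]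
  [CommRing C] [CommRing D]
  [Algebra O F] [Algebra O C] [Algebra C F] [IsScalarTower O C F] [IsIntegralClosure C O F]
  [Algebra O' L] [Algebra O' D] [Algebra D L] [IsScalarTower O' D L] [IsIntegralClosure D O' L]
  [Algebra F L] [FiniteDimensional F L]

/-- **(K)**: descent of `DivNorm` along `O → O'` integral, `F ⊆ L` finite with `[L : F]`
invertible in `O`; `C`, `D` the integral closures of `O` in `F` and of `O'` in `L`.
The map `φ : O → O'` only has to be compatible with the inclusion `F ⊆ L`. -/
theorem dn46_descent (φ : O →+* O')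
    (hφ : ∀ a : O, algebraMap O' L (φ a) = algebraMap F L (algebraMap O F a))
    (hint : φ.IsIntegral) (π t : O) (hπ : ∀ f : O, φ π ∣ φ f → π ∣ f)
    (hd : IsUnit ((Module.finrank F L : ℕ) : O))
    (h : dn57_DivNorm O' D (φ π) (φ t)) : dn57_DivNorm O C π t := by
  classical
  let _ : Algebra O O' := φ.toAlgebra
  let _ : Algebra O L := ((algebraMap F L).comp (algebraMap O F)).toAlgebra
  have : IsScalarTower O F L := IsScalarTower.of_algebraMap_eq (fun _ => rfl)
  have : IsScalarTower O O' L := IsScalarTower.of_algebraMap_eq (fun a => (hφ a).symm)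
  have : Algebra.IsIntegral O O' := ⟨hint⟩
  have hlift : ∀ c : C, ∃ c' : D, algebraMap D L c' = algebraMap F L (algebraMap C F c) := by
    intro c
    have h1 : IsIntegral O (algebraMap C F c) :=
      (IsIntegralClosure.isIntegral O F c).map (IsScalarTower.toAlgHom O C F)
    have h2 : IsIntegral O (algebraMap F L (algebraMap C F c)) :=
      h1.map (IsScalarTower.toAlgHom O F L)
    have h3 : IsIntegral O' (algebraMap F L (algebraMap C F c)) := h2.tower_top
    exact (IsIntegralClosure.isIntegral_iff (A := D)).mp h3
  have hinjD : Function.Injective (algebraMap D L) := IsIntegralClosure.algebraMap_injective D O' L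
  have hfD : ∀ a : O, algebraMap D L (algebraMap O' D (φ a)) =
      algebraMap F L (algebraMap O F a) := by
    intro a
    rw [← IsScalarTower.algebraMap_apply O' D L, hφ]
  have hCF : ∀ a : O, algebraMap C F (algebraMap O C a) = algebraMap O F a :=
    fun a => (IsScalarTower.algebraMap_apply O C F a).symm
  have hTr : ∀ z : D, ∃ z' : C, algebraMap C F z' = Algebra.trace F L (algebraMap D L z) := by
    intro z
    have h1 : IsIntegral O' (algebraMap D L z) :=
      (IsIntegralClosure.isIntegral O' L z).map (IsScalarTower.toAlgHom O' D L)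
    have h2 : IsIntegral O (algebraMap D L z) := isIntegral_trans _ h1
    have h3 : IsIntegral O (Algebra.trace F L (algebraMap D L z)) := Algebra.isIntegral_trace h2
    exact (IsIntegralClosure.isIntegral_iff (A := C)).mp h3
  rintro y f hf ⟨r, c, w, hrw⟩
  obtain ⟨y', hy'⟩ := hlift y
  choose c' hc' using fun i => hlift (c i)
  obtain ⟨w', hw'⟩ := hlift w
  have hfD' : ¬ φ π ∣ φ f := fun hdiv => hf (hπ f hdiv)
  have heqD : y' ^ r + ∑ i ∈ Finset.range r, c' i * algebraMap O' D (φ f) ^ (r - i) * y' ^ i
      = algebraMap O' D (φ π) * w' := by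
    apply hinjD
    have h0 := congrArg (fun z => algebraMap F L (algebraMap C F z)) hrw
    simp only [map_add, map_mul, map_pow, map_sum, hCF] at h0
    simp only [map_add, map_mul, map_pow, map_sum, hy', hc', hw', hfD]
    exact h0
  obtain ⟨k, u, v, huv⟩ := h y' (φ f) hfD' ⟨r, c', w', heqD⟩
  obtain ⟨U, hU⟩ := hTr u
  obtain ⟨W, hW⟩ := hTr v
  obtain ⟨dinv, hdinv⟩ := hd.exists_left_inv
  refine ⟨k, algebraMap O C dinv * U, algebraMap O C dinv * W, ?_⟩
  apply IsIntegralClosure.algebraMap_injective C O F
  have hL := congrArg (algebraMap D L) huv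
  simp only [map_add, map_mul, map_pow, hfD, hy'] at hL
  rw [← map_pow, ← map_mul, ← Algebra.smul_def, ← Algebra.smul_def] at hL
  have hT := congrArg (Algebra.trace F L) hL
  rw [Algebra.trace_algebraMap, map_add, map_smul, map_smul, ← hU, ← hW, nsmul_eq_mul,
    smul_eq_mul, smul_eq_mul] at hT
  have hD0 : algebraMap O F dinv * ((Module.finrank F L : ℕ) : F) = 1 := by
    have := congrArg (algebraMap O F) hdinv
    simpa only [map_mul, map_natCast, map_one] using this
  simp only [map_add, map_mul, map_pow, hCF]
  linear_combination (algebraMap O F dinv) * hT -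
    ((algebraMap O F t) ^ k * algebraMap C F y) * hD0

end Descent

end Fermat.Agent.S18
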