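import Mathlib
import Fermat.Agent.S18.Purity
import Fermat.Agent.S18.DivNorm57

/-!
# S18, row B5c (helper57): fibre normality relative to `t` from self-duality in codimension one

Independent twin of step `(U)` of the B5 architecture (report #1121).  Setting of the purity
lemma (`Purity.lean`): `O` a Noetherian UFD, `E = Frac O`, `L / E` finite separable, `C` the
integral closure of `O` in `L`; `π` a prime element with `O ⧸ (π)` a principal ideal ring.
If `C` is trace-self-dual at every prime element `p` of `O` not dividing `t`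
(hypothesis `hcodim`, the shape of `pl72_dual_eq`), then `dn57_DivNorm O C π t` holds.
-/

set_option autoImplicit false

namespace Fermat.Agent.S18

open Polynomial

section Coeff

variable {O : Type*} [CommRing O] [IsDomain O] [UniqueFactorizationMonoid O]
  {E : Type*} [Field E] [Algebra O E] [IsFractionRing O E]
  {L : Type*} [Field L] [Algebra E L] [Algebra O L] [IsScalarTower O E L]
  [FiniteDimensional E L]

/-- If `s * y` is integral over `O`, the coefficients of the minimal polynomial of `y` over
`E` become integral after multiplication by the appropriate power of `s`. -/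
theorem dnu57_coeff_scale (s : O) (hs : s ≠ 0) (y : L)
    (hint : IsIntegral O (algebraMap O L s * y)) (i : ℕ) :
    ∃ b : O, (minpoly E y).coeff i * algebraMap O E s ^ ((minpoly E y).natDegree - i)
      = algebraMap O E b := by
  have hyint : IsIntegral E y := Algebra.IsIntegral.isIntegral y
  have hsE : algebraMap O E s ≠ 0 := by
    simpa using (IsFractionRing.injective O E).ne hs
  have hz : algebraMap O L s * y = (algebraMap O E s) • y := by
    rw [Algebra.smul_def, ← IsScalarTower.algebraMap_apply]
  have h1 : minpoly E (algebraMap O L s * y) = (minpoly E y).scaleRoots (algebraMap O E s) := by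
    rw [hz]
    exact IsIntegrallyClosed.minpoly_smul hsE hyint
  have h2 : minpoly E (algebraMap O L s * y)
      = (minpoly O (algebraMap O L s * y)).map (algebraMap O E) :=
    minpoly.isIntegrallyClosed_eq_field_fractions' E hint
  refine ⟨(minpoly O (algebraMap O L s * y)).coeff i, ?_⟩
  have h3 := congrArg (fun q => q.coeff i) (h1.symm.trans h2)
  simpa [coeff_scaleRoots, coeff_map] using h3

omit [IsDomain O] [UniqueFactorizationMonoid O] [IsFractionRing O E] in
/-- If the minimal polynomial of `y` over `E` has coefficients in `O`, then `y` is integral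
over `O`. -/
theorem dnu57_isIntegral_of_coeff (y : L)
    (h : ∀ i, (minpoly E y).coeff i ∈ (algebraMap O E).range) : IsIntegral O y := by
  have hyint : IsIntegral E y := Algebra.IsIntegral.isIntegral y
  have hlift : minpoly E y ∈ Polynomial.lifts (algebraMap O E) :=
    (Polynomial.lifts_iff_coeff_lifts _).mpr (fun i => h i)
  obtain ⟨P, hPmap, -, hPmonic⟩ :=
    Polynomial.lifts_and_natDegree_eq_and_monic hlift (minpoly.monic hyint)
  refine ⟨P, hPmonic, ?_⟩
  rw [← Polynomial.aeval_def, ← Polynomial.aeval_map_algebraMap E, hPmap, minpoly.aeval]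

omit [IsDomain O] [Field E] [Algebra O E] [IsFractionRing O E] in
/-- In a UFD, an element all of whose prime divisors divide `t` divides a power of `t`. -/
theorem dnu57_dvd_pow_of_primes (t z : O) (hz : z ≠ 0)
    (h : ∀ p : O, Prime p → p ∣ z → p ∣ t) : ∃ k : ℕ, z ∣ t ^ k := by
  revert hz h
  refine UniqueFactorizationMonoid.induction_on_prime z ?_ ?_ ?_
  · intro h0; exact absurd rfl h0
  · intro x hx _ _; exact ⟨0, hx.dvd⟩
  · intro a p ha hp ih _ h
    obtain ⟨k, hk⟩ := ih ha (fun q hq hqa => h q hq (Dvd.dvd.mul_left hqa p))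
    refine ⟨k + 1, ?_⟩
    rw [pow_succ, mul_comm p a]
    exact mul_dvd_mul hk (h p hp (dvd_mul_right p a))

omit [Field L] [Algebra E L] [Algebra O L] [IsScalarTower O E L] [FiniteDimensional E L] in
/-- Hartogs relative to `t`: an element of `E` which has a denominator prime to `p` for every
prime `p ∤ t` has a power of `t` as a denominator. -/
theorem dnu57_hartogs_rel (t : O) (a : E)
    (h : ∀ p : O, Prime p → ¬ p ∣ t → ∃ b s : O, ¬ p ∣ s ∧ a * algebraMap O E s = algebraMap O E b) :
    ∃ (k : ℕ) (b : O), a * algebraMap O E (t ^ k) = algebraMap O E b := by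
  obtain ⟨x, z, hrel, rfl⟩ := IsFractionRing.exists_reduced_fraction O (K := E) a
  have hzt : ∀ p : O, Prime p → p ∣ (z : O) → p ∣ t := by
    intro p hp hpz
    by_contra hpt
    obtain ⟨b, s, hps, hbs⟩ := h p hp hpt
    have h1 : x * s = b * z := by
      apply IsFractionRing.injective O E
      have h0 : IsLocalization.mk' E x z * algebraMap O E z = algebraMap O E x :=
        IsLocalization.mk'_spec E x z
      rw [map_mul, map_mul, ← hbs, ← h0]
      ring
    have h2 : p ∣ x * s := h1 ▸ Dvd.dvd.mul_left hpz b
    rcases hp.dvd_or_dvd h2 with h3 | h3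
    · exact hp.not_isUnit (hrel h3 hpz)
    · exact hps h3
  obtain ⟨k, w, hw⟩ := dnu57_dvd_pow_of_primes t (z : O) (nonZeroDivisors.coe_ne_zero z) hzt
  refine ⟨k, x * w, ?_⟩
  have h0 : IsLocalization.mk' E x z * algebraMap O E z = algebraMap O E x :=
    IsLocalization.mk'_spec E x z
  rw [hw, map_mul, map_mul, ← h0]
  ring

end Coeff

section Main

variable {O : Type*} [CommRing O] [IsDomain O] [UniqueFactorizationMonoid O]
  {E : Type*} [Field E] [Algebra O E] [IsFractionRing O E]
  {L : Type*} [Field L] [Algebra E L] [Algebra O L] [IsScalarTower O E L]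
  [FiniteDimensional E L]
  {C : Type*} [CommRing C] [Algebra O C] [Algebra C L] [IsScalarTower O C L]
  [IsIntegralClosure C O L]

/-- **Step 1** (Hartogs relative to `t` for the trace dual): if `C` is self-dual at every prime
element not dividing `t`, the trace dual of `C` is contained in `C[1/t]`. -/
theorem dnu57_dual_rel (t : O)
    (hcodim : ∀ p : O, Prime p → ¬ p ∣ t → ∀ y ∈ pl72_dual O E L C, ∃ s : O, ¬ p ∣ s ∧
      algebraMap O L s * y ∈ (algebraMap C L).range)
    {y : L} (hy : y ∈ pl72_dual O E L C) :
    ∃ k : ℕ, algebraMap O L (t ^ k) * y ∈ (algebraMap C L).range := by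
  by_cases ht : t = 0
  · exact ⟨1, 0, by rw [ht, pow_one, map_zero, map_zero, zero_mul]⟩
  have hyint : IsIntegral E y := Algebra.IsIntegral.isIntegral y
  set d := (minpoly E y).natDegree with hd
  have hcoef : ∀ i, ∃ (k : ℕ) (b : O),
      (minpoly E y).coeff i * algebraMap O E (t ^ k) = algebraMap O E b := by
    intro i
    apply dnu57_hartogs_rel
    intro p hp hpt
    obtain ⟨s, hps, c, hc⟩ := hcodim p hp hpt y hy
    have hs0 : s ≠ 0 := fun h => hps (h ▸ dvd_zero p)
    have hzint : IsIntegral O (algebraMap O L s * y) := by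
      rw [← hc]
      exact (IsIntegralClosure.isIntegral O L c).map (IsScalarTower.toAlgHom O C L)
    obtain ⟨b, hb⟩ := dnu57_coeff_scale (E := E) s hs0 y hzint i
    refine ⟨b, s ^ (d - i), fun hdvd => hps (hp.dvd_of_dvd_pow hdvd), ?_⟩
    rw [map_pow]; exact hb
  choose k b hkb using hcoef
  set K := ∑ i ∈ Finset.range (d + 1), k i with hK
  have hcoefK : ∀ i, (minpoly E y).coeff i * algebraMap O E (t ^ K) ∈ (algebraMap O E).range := by
    intro i
    by_cases hi : i < d + 1
    · have hle : k i ≤ K := Finset.single_le_sum (f := k) (fun _ _ => Nat.zero_le _)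
        (Finset.mem_range.mpr hi)
      obtain ⟨j, hj⟩ := Nat.exists_eq_add_of_le hle
      refine ⟨b i * t ^ j, ?_⟩
      rw [map_mul, ← hkb i, hj, pow_add, map_mul]
      ring
    · refine ⟨0, ?_⟩
      rw [Polynomial.coeff_eq_zero_of_natDegree_lt (by omega), map_zero, zero_mul]
  have htK : algebraMap O E (t ^ K) ≠ 0 := by
    simpa using (IsFractionRing.injective O E).ne (pow_ne_zero K ht)
  have hz : algebraMap O L (t ^ K) * y = (algebraMap O E (t ^ K)) • y := by
    rw [Algebra.smul_def, ← IsScalarTower.algebraMap_apply]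
  have h1 : minpoly E (algebraMap O L (t ^ K) * y)
      = (minpoly E y).scaleRoots (algebraMap O E (t ^ K)) := by
    rw [hz]
    exact IsIntegrallyClosed.minpoly_smul htK hyint
  have hint : IsIntegral O (algebraMap O L (t ^ K) * y) := by
    apply dnu57_isIntegral_of_coeff (E := E)
    intro i
    rw [h1, coeff_scaleRoots]
    rcases lt_trichotomy i d with hi | hi | hi
    · obtain ⟨c, hc⟩ := hcoefK i
      obtain ⟨j, hj⟩ : ∃ j, d - i = j + 1 := ⟨d - i - 1, by omega⟩
      refine ⟨c * (t ^ K) ^ j, ?_⟩
      rw [map_mul, map_pow, hc, ← hd, hj]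
      ring
    · refine ⟨1, ?_⟩
      rw [hi, hd, (minpoly.monic hyint).coeff_natDegree, Nat.sub_self, pow_zero, mul_one, map_one]
    · refine ⟨0, ?_⟩
      rw [Polynomial.coeff_eq_zero_of_natDegree_lt (by omega), map_zero, zero_mul]
  exact ⟨K, IsIntegralClosure.isIntegral_iff.mp hint⟩

variable (E L) in
include E L in
/-- **Step 2**: `C ⧸ π C` is torsion-free over `O ⧸ π` (normality of `C` only). -/
theorem dnu57_torsionfree {π : O} (hπ : Prime π) {g : O} (hg : ¬ π ∣ g) {c c' : C}
    (h : g • c = π • c') : ∃ c'' : C, c = π • c'' := by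
  have hπ0 : π ≠ 0 := hπ.ne_zero
  have hg0 : g ≠ 0 := fun h0 => hg (h0 ▸ dvd_zero π)
  have hπE : algebraMap O E π ≠ 0 := by
    simpa using (IsFractionRing.injective O E).ne hπ0
  have hπL : algebraMap O L π ≠ 0 := by
    rw [IsScalarTower.algebraMap_apply O E L]
    simpa using hπE
  set z : L := (algebraMap O L π)⁻¹ * algebraMap C L c with hz
  have h1 : algebraMap O L π * z = algebraMap C L c := by
    rw [hz, ← mul_assoc, mul_inv_cancel₀ hπL, one_mul]
  have h2 : algebraMap O L g * z = algebraMap C L c' := by
    have h3 := congrArg (algebraMap C L) h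
    rw [Algebra.smul_def, Algebra.smul_def, map_mul, map_mul,
      ← IsScalarTower.algebraMap_apply, ← IsScalarTower.algebraMap_apply] at h3
    rw [hz]
    field_simp
    linear_combination h3
  have hint1 : IsIntegral O (algebraMap O L π * z) := by
    rw [h1]; exact (IsIntegralClosure.isIntegral O L c).map (IsScalarTower.toAlgHom O C L)
  have hint2 : IsIntegral O (algebraMap O L g * z) := by
    rw [h2]; exact (IsIntegralClosure.isIntegral O L c').map (IsScalarTower.toAlgHom O C L)
  have hzint : IsIntegral O z := by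
    apply dnu57_isIntegral_of_coeff (E := E)
    intro i
    obtain ⟨b1, hb1⟩ := dnu57_coeff_scale (E := E) π hπ0 z hint1 i
    obtain ⟨b2, hb2⟩ := dnu57_coeff_scale (E := E) g hg0 z hint2 i
    set m := (minpoly E z).natDegree - i with hm
    have h4 : b1 * g ^ m = b2 * π ^ m := by
      apply IsFractionRing.injective O E
      rw [map_mul, map_mul, ← hb1, ← hb2, map_pow, map_pow]
      ring
    have h5 : π ^ m ∣ b1 := by
      apply hπ.pow_dvd_of_dvd_mul_right m (fun hd => hg (hπ.dvd_of_dvd_pow hd))
      exact ⟨b2, by rw [h4]; ring⟩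
    obtain ⟨b0, hb0⟩ := h5
    refine ⟨b0, ?_⟩
    have h6 : (minpoly E z).coeff i * algebraMap O E π ^ m
        = algebraMap O E b0 * algebraMap O E π ^ m := by
      rw [hb1, hb0, map_mul, map_pow]; ring
    exact (mul_right_cancel₀ (pow_ne_zero m hπE) h6).symm
  obtain ⟨c'', hc''⟩ := IsIntegralClosure.isIntegral_iff (A := C) |>.mp hzint
  refine ⟨c'', IsIntegralClosure.algebraMap_injective C O L ?_⟩
  rw [Algebra.smul_def, map_mul, ← IsScalarTower.algebraMap_apply, hc'', h1]

section Basis

variable [IsNoetherianRing O] [Algebra.IsSeparable E L]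

/-- **Basis data near the fibre `π = 0`**: there are `b₁, …, bₙ ∈ C` forming an `E`-basis of
`L`, and `a ≡ 1 mod π`, with `a • C ⊆ ⊕ O bᵢ`. -/
theorem dnu57_exists_basis {π : O} (hπ : Prime π) [IsPrincipalIdealRing (O ⧸ Ideal.span {π})] :
    ∃ (n : ℕ) (b : Fin n → C) (a : O), π ∣ a - 1 ∧
      (∀ c : C, ∃ g : Fin n → O, a • c = ∑ i, g i • b i) ∧
      LinearIndependent E (fun i => algebraMap C L (b i)) ∧
      ⊤ ≤ Submodule.span E (Set.range fun i => algebraMap C L (b i)) := by
  classical
  have hfin : Module.Finite O C := IsIntegralClosure.finite O E L C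
  have hIprime : (Ideal.span {π}).IsPrime := (Ideal.span_singleton_prime hπ.ne_zero).mpr hπ
  have hinjL : Function.Injective (algebraMap O L) := by
    rw [IsScalarTower.algebraMap_eq O E L]
    exact (algebraMap E L).injective.comp (IsFractionRing.injective O E)
  have hinj : Function.Injective (algebraMap O C) := by
    have h1 := hinjL
    rw [IsScalarTower.algebraMap_eq O C L] at h1
    exact Function.Injective.of_comp h1
  have hdom : IsDomain C :=
    (IsIntegralClosure.algebraMap_injective C O L).isDomain (algebraMap C L)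
  have htf : Module.IsTorsionFree O C := by
    rw [Module.isTorsionFree_iff_smul_eq_zero]
    intro r m hrm
    rw [Algebra.smul_def, mul_eq_zero] at hrm
    rcases hrm with h | h
    · left; exact hinj (by rw [h, map_zero])
    · right; exact h
  have htf' : Module.IsTorsionFree (O ⧸ Ideal.span {π})
      (C ⧸ (Ideal.span {π} • (⊤ : Submodule O C))) := by
    rw [Module.isTorsionFree_iff_smul_eq_zero]
    intro r m hrm
    obtain ⟨t, rfl⟩ := Ideal.Quotient.mk_surjective r
    obtain ⟨c, rfl⟩ := Submodule.Quotient.mk_surjective _ m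
    by_cases ht : π ∣ t
    · left
      exact Ideal.Quotient.eq_zero_iff_mem.mpr (Ideal.mem_span_singleton.mpr ht)
    · right
      rw [Module.Quotient.mk_smul_mk, Submodule.Quotient.mk_eq_zero,
        pl72_mem_span_smul_top_iff] at hrm
      obtain ⟨c', hc'⟩ := hrm
      obtain ⟨c'', rfl⟩ := dnu57_torsionfree E L hπ ht hc'
      rw [Submodule.Quotient.mk_eq_zero, pl72_mem_span_smul_top_iff]
      exact ⟨c'', rfl⟩
  have hfree : Module.Free (O ⧸ Ideal.span {π})
      (C ⧸ (Ideal.span {π} • (⊤ : Submodule O C))) :=
    Module.free_of_finite_type_torsion_free'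
  let β := Module.Free.chooseBasis (O ⧸ Ideal.span {π})
    (C ⧸ (Ideal.span {π} • (⊤ : Submodule O C)))
  have hlift : ∀ i, ∃ c : C, Submodule.Quotient.mk c = β i := fun i =>
    Submodule.Quotient.mk_surjective _ (β i)
  choose v hv using hlift
  set Λ : Submodule O C := Submodule.span O (Set.range v) with hΛ
  -- `C = Λ + π C`
  have hsup : ∀ c : C, ∃ l ∈ Λ, ∃ c' : C, c = l + π • c' := by
    intro c
    have hc := β.sum_repr (Submodule.Quotient.mk c)
    choose g hg using fun i => Ideal.Quotient.mk_surjective (β.repr (Submodule.Quotient.mk c) i)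
    have h1 : (Submodule.Quotient.mk (c - ∑ i, g i • v i) :
        C ⧸ (Ideal.span {π} • (⊤ : Submodule O C))) = 0 := by
      have hsum : (Submodule.Quotient.mk (∑ i, g i • v i) :
          C ⧸ (Ideal.span {π} • (⊤ : Submodule O C)))
          = ∑ i, (Ideal.Quotient.mk (Ideal.span {π}) (g i)) • β i := by
        rw [← Submodule.mkQ_apply, map_sum]
        refine Finset.sum_congr rfl fun i _ => ?_
        rw [Submodule.mkQ_apply, ← hv i, Module.Quotient.mk_smul_mk]
      rw [Submodule.Quotient.mk_sub, sub_eq_zero, hsum]
      conv_lhs => rw [← hc]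
      exact Finset.sum_congr rfl fun i _ => by rw [hg i]
    rw [Submodule.Quotient.mk_eq_zero, pl72_mem_span_smul_top_iff] at h1
    obtain ⟨c', hc'⟩ := h1
    refine ⟨∑ i, g i • v i, Submodule.sum_mem _ fun i _ =>
      Submodule.smul_mem _ _ (Submodule.subset_span ⟨i, rfl⟩), c', ?_⟩
    rw [← hc']; abel
  -- Nakayama on `C ⧸ Λ`
  obtain ⟨a, ha1, ha2⟩ := Submodule.exists_sub_one_mem_and_smul_eq_zero_of_fg_of_le_smul
    (Ideal.span {π}) (⊤ : Submodule O (C ⧸ Λ)) Module.Finite.fg_top (by
      intro m _
      obtain ⟨c, rfl⟩ := Submodule.Quotient.mk_surjective _ m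
      obtain ⟨l, hl, c', rfl⟩ := hsup c
      rw [Submodule.Quotient.mk_add, (Submodule.Quotient.mk_eq_zero _).mpr hl, zero_add,
        Submodule.Quotient.mk_smul]
      exact Submodule.smul_mem_smul (Ideal.mem_span_singleton_self π) trivial)
  have haΛ : ∀ c : C, a • c ∈ Λ := fun c => by
    have h := ha2 (Submodule.Quotient.mk c) trivial
    rwa [← Submodule.Quotient.mk_smul, Submodule.Quotient.mk_eq_zero] at h
  -- independence over `O`
  have hker : LinearMap.ker (Fintype.linearCombination O v) = ⊥ := by
    have hle : LinearMap.ker (Fintype.linearCombination O v)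
        ≤ Ideal.span {π} • LinearMap.ker (Fintype.linearCombination O v) := by
      intro g hg
      rw [LinearMap.mem_ker, Fintype.linearCombination_apply] at hg
      have h1 : ∑ i, (Ideal.Quotient.mk (Ideal.span {π}) (g i)) • β i = 0 := by
        have := congrArg (Submodule.mkQ (Ideal.span {π} • (⊤ : Submodule O C))) hg
        rw [map_sum, map_zero] at this
        rw [← this]
        refine Finset.sum_congr rfl fun i _ => ?_
        rw [← hv i, Module.Quotient.mk_smul_mk, Submodule.mkQ_apply]
      have h2 : ∀ i, π ∣ g i := by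
        intro i
        have := Fintype.linearIndependent_iff.mp β.linearIndependent _ h1 i
        exact Ideal.mem_span_singleton.mp (Ideal.Quotient.eq_zero_iff_mem.mp this)
      choose g' hg' using h2
      have h3 : g = π • g' := by
        funext i; simp [hg' i]
      have h4 : g' ∈ LinearMap.ker (Fintype.linearCombination O v) := by
        rw [LinearMap.mem_ker]
        have h5 : π • (Fintype.linearCombination O v g') = 0 := by
          rw [← map_smul, ← h3, Fintype.linearCombination_apply]; exact hg
        rcases (Module.isTorsionFree_iff_smul_eq_zero.mp htf) π _ h5 with h | h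
        · exact absurd h hπ.ne_zero
        · exact h
      rw [h3]
      exact Submodule.smul_mem_smul (Ideal.mem_span_singleton_self π) h4
    obtain ⟨r, hr1, hr2⟩ := Submodule.exists_sub_one_mem_and_smul_eq_zero_of_fg_of_le_smul
      (Ideal.span {π}) _ (IsNoetherian.noetherian _) hle
    have hr0 : r ≠ 0 := by
      rintro rfl
      rw [zero_sub, Ideal.mem_span_singleton] at hr1
      exact hπ.not_isUnit (isUnit_of_dvd_one ((dvd_neg).mp hr1))
    rw [eq_bot_iff]
    intro g hg
    have h := hr2 g hg
    rw [Submodule.mem_bot]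
    funext i
    have hi := congrFun h i
    simpa [hr0] using hi
  have hliO : LinearIndependent O v := by
    rw [Fintype.linearIndependent_iff]
    intro g hg i
    have : g ∈ LinearMap.ker (Fintype.linearCombination O v) := by
      rw [LinearMap.mem_ker, Fintype.linearCombination_apply]; exact hg
    rw [hker] at this
    rw [(Submodule.mem_bot O).mp this]; rfl
  have hliE : LinearIndependent E (fun i => algebraMap C L (v i)) := by
    have h1 : LinearIndependent O (fun i => algebraMap C L (v i)) := by
      have h2 := hliO.map' (IsScalarTower.toAlgHom O C L).toLinearMap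
        (LinearMap.ker_eq_bot.mpr (IsIntegralClosure.algebraMap_injective C O L))
      exact h2
    exact (LinearIndependent.iff_fractionRing O E).mp h1
  have hspanE : ∀ x : L, x ∈ Submodule.span E (Set.range fun i => algebraMap C L (v i)) := by
    intro x
    have hloc : IsLocalization (Algebra.algebraMapSubmonoid C (nonZeroDivisors O)) L :=
      IsIntegralClosure.isLocalization O E L C
    obtain ⟨⟨c, ⟨m, s, hs, rfl⟩⟩, hx⟩ :=
      IsLocalization.surj (Algebra.algebraMapSubmonoid C (nonZeroDivisors O)) x
    have hac := haΛ c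
    rw [hΛ, Submodule.mem_span_range_iff_exists_fun] at hac
    obtain ⟨g, hg⟩ := hac
    have ha0 : a ≠ 0 := by
      rintro rfl
      rw [zero_sub, Ideal.mem_span_singleton] at ha1
      exact hπ.not_isUnit (isUnit_of_dvd_one ((dvd_neg).mp ha1))
    have hs0 : s ≠ 0 := nonZeroDivisors.ne_zero hs
    have hasE : algebraMap O E (a * s) ≠ 0 := by
      simpa using (IsFractionRing.injective O E).ne (mul_ne_zero ha0 hs0)
    have hxe : x = (algebraMap O E (a * s))⁻¹ • ∑ i, algebraMap O E (g i) • algebraMap C L (v i) := by
      have h1 : ∑ i, algebraMap O E (g i) • algebraMap C L (v i) = algebraMap C L (a • c) := by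
        rw [← hg, map_sum]
        refine Finset.sum_congr rfl fun i _ => ?_
        rw [Algebra.smul_def, Algebra.smul_def, map_mul, ← IsScalarTower.algebraMap_apply,
          ← IsScalarTower.algebraMap_apply]
      have hx' : x * algebraMap O L s = algebraMap C L c := by
        rw [IsScalarTower.algebraMap_apply O C L]; exact hx
      have h2 : algebraMap C L (a • c) = algebraMap O E (a * s) • x := by
        rw [Algebra.smul_def, map_mul, ← IsScalarTower.algebraMap_apply, ← hx',
          Algebra.smul_def, ← IsScalarTower.algebraMap_apply, map_mul]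
        ring
      rw [h1, h2, smul_smul, inv_mul_cancel₀ hasE, one_smul]
    rw [hxe]
    refine Submodule.smul_mem _ _ (Submodule.sum_mem _ fun i _ => ?_)
    exact Submodule.smul_mem _ _ (Submodule.subset_span ⟨i, rfl⟩)
  -- reindex by `Fin n`
  let e := Fintype.equivFin (Module.Free.ChooseBasisIndex (O ⧸ Ideal.span {π})
    (C ⧸ (Ideal.span {π} • (⊤ : Submodule O C))))
  refine ⟨_, v ∘ e.symm, a, Ideal.mem_span_singleton.mp ha1, ?_, ?_, ?_⟩
  · intro c
    have hac := haΛ c
    rw [hΛ, Submodule.mem_span_range_iff_exists_fun] at hac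
    obtain ⟨g, hg⟩ := hac
    refine ⟨g ∘ e.symm, ?_⟩
    rw [← hg]
    exact (Equiv.sum_comp e.symm (fun i => g i • v i)).symm
  · exact hliE.comp e.symm e.symm.injective
  · intro x _
    have hx := hspanE x
    have hrange : (Set.range fun i => algebraMap C L ((v ∘ e.symm) i))
        = Set.range fun i => algebraMap C L (v i) := by
      ext z
      constructor
      · rintro ⟨i, rfl⟩; exact ⟨e.symm i, rfl⟩
      · rintro ⟨i, rfl⟩; exact ⟨e i, by simp⟩
    rw [hrange]
    exact hx

end Basis

section Trace

variable [Algebra.IsSeparable E L]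

omit [IsDomain O] [UniqueFactorizationMonoid O] in
/-- **Claim I**: if `y ^ r ∈ 𝔪 C` for a maximal ideal `𝔪` of `O`, then `Tr_{L/E}(y) ∈ 𝔪`
(conjugates of `y` lie in every prime of the integral closure of `O` in an algebraic closure
lying over `𝔪`). -/
theorem dnu57_trace_mem_of_pow_mem (𝔪 : Ideal O) [h𝔪 : 𝔪.IsMaximal] (y : C) (r : ℕ)
    (hy : y ^ r ∈ 𝔪.map (algebraMap O C)) (τ : O)
    (hτ : algebraMap O E τ = Algebra.trace E L (algebraMap C L y)) : τ ∈ 𝔪 := by
  classical
  let Ω := AlgebraicClosure E
  let Ot : Subalgebra O Ω := integralClosure O Ω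
  have hint : ∀ (σ : L →ₐ[E] Ω) (c : C), σ (algebraMap C L c) ∈ Ot := by
    intro σ c
    have h1 : IsIntegral O (algebraMap C L c) :=
      (IsIntegralClosure.isIntegral O L c).map (IsScalarTower.toAlgHom O C L)
    exact h1.map (σ.restrictScalars O)
  have hinjΩ : Function.Injective (algebraMap O Ot) := by
    intro x x' hxx
    have h1 : algebraMap O Ω x = algebraMap O Ω x' := congrArg Subtype.val hxx
    rw [IsScalarTower.algebraMap_apply O E Ω, IsScalarTower.algebraMap_apply O E Ω] at h1
    exact IsFractionRing.injective O E ((algebraMap E Ω).injective h1)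
  obtain ⟨Q, hQmax, hQ⟩ := Ideal.exists_ideal_over_maximal_of_isIntegral (S := Ot) 𝔪 (by
    rw [(RingHom.injective_iff_ker_eq_bot _).mp hinjΩ]; exact bot_le)
  have hσ : ∀ σ : L →ₐ[E] Ω, (⟨σ (algebraMap C L y), hint σ y⟩ : Ot) ∈ Q := by
    intro σ
    let ψ : C →ₐ[O] Ot :=
      ((σ.restrictScalars O).comp (IsScalarTower.toAlgHom O C L)).codRestrict Ot
        (fun c => hint σ c)
    have h1 : ψ (y ^ r) ∈ Q := by
      have h2 : (𝔪.map (algebraMap O C)).map ψ.toRingHom ≤ Q := by
        rw [Ideal.map_map]
        have h3 : ψ.toRingHom.comp (algebraMap O C) = algebraMap O Ot := ψ.comp_algebraMap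
        rw [h3, Ideal.map_le_iff_le_comap, hQ]
      exact h2 (Ideal.mem_map_of_mem _ hy)
    rw [map_pow] at h1
    exact hQmax.isPrime.mem_of_pow_mem r h1
  have hsum : algebraMap O Ot τ = ∑ σ : L →ₐ[E] Ω, (⟨σ (algebraMap C L y), hint σ y⟩ : Ot) := by
    apply Subtype.ext
    rw [AddSubmonoidClass.coe_finsetSum]
    have h1 := trace_eq_sum_embeddings (K := E) (L := L) Ω (x := algebraMap C L y)
    rw [← hτ, ← IsScalarTower.algebraMap_apply O E Ω] at h1
    exact h1
  have hmem : algebraMap O Ot τ ∈ Q := by
    rw [hsum]; exact Q.sum_mem (fun σ _ => hσ σ)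
  rw [← hQ]; exact hmem

end Trace

section Decompose

variable [IsNoetherianRing O] [Algebra.IsSeparable E L]

omit [IsDomain O] [UniqueFactorizationMonoid O] [IsFractionRing O E] [FiniteDimensional E L]
  [IsNoetherianRing O] [Algebra.IsSeparable E L] in
theorem dnu57_trace_mul (x : O) (z : L) :
    Algebra.trace E L (algebraMap O L x * z) = algebraMap O E x * Algebra.trace E L z := by
  rw [IsScalarTower.algebraMap_apply O E L, ← Algebra.smul_def, map_smul, smul_eq_mul]

/-- **Step II** (duality): if all traces `Tr(y c)`, `c ∈ C`, lie in `(π, p)`, then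
`t ^ K * y ∈ p C + π C`. -/
theorem dnu57_decompose {π t : O} (hπ : Prime π) [IsPrincipalIdealRing (O ⧸ Ideal.span {π})]
    (hdual : ∀ y ∈ pl72_dual O E L C, ∃ k : ℕ,
      algebraMap O L (t ^ k) * y ∈ (algebraMap C L).range)
    (p : O) (y : C)
    (hmem : ∀ c : C, ∃ α β : O,
      Algebra.trace E L (algebraMap C L (y * c)) = algebraMap O E (π * α + p * β)) :
    ∃ (K : ℕ) (u v : C),
      algebraMap O C t ^ K * y = algebraMap O C p * u + algebraMap O C π * v := by
  classical
  obtain ⟨n, b, a, ha, hcoord, hli, hspan⟩ := dnu57_exists_basis (E := E) (L := L) (C := C) hπ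
  let bL : Module.Basis (Fin n) E L := Module.Basis.mk hli hspan
  have hbL : ∀ i, bL i = algebraMap C L (b i) := fun i => by
    simp only [bL, Module.Basis.mk_apply]
  let B := Algebra.traceForm E L
  have hnd : B.Nondegenerate := traceForm_nondegenerate E L
  let δ := B.dualBasis hnd bL
  have hδ : ∀ i j, Algebra.trace E L (δ i * bL j) = if j = i then 1 else 0 := fun i j => by
    have h := LinearMap.BilinForm.apply_dualBasis_left hnd bL i j
    rw [← h]; rfl
  choose α β hαβ using fun j => hmem (b j)
  -- the two halves of `y`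
  have hhalf : ∀ γ : Fin n → O, ∀ j,
      Algebra.trace E L ((∑ i, algebraMap O L (γ i) * δ i) * bL j) = algebraMap O E (γ j) := by
    intro γ j
    rw [Finset.sum_mul, map_sum]
    have h1 : ∀ i, Algebra.trace E L (algebraMap O L (γ i) * δ i * bL j)
        = if j = i then algebraMap O E (γ i) else 0 := by
      intro i
      rw [mul_assoc, dnu57_trace_mul, hδ]
      split_ifs <;> simp
    simp_rw [h1]
    rw [Finset.sum_ite_eq]
    simp
  set yα : L := ∑ i, algebraMap O L (α i) * δ i with hyα
  set yβ : L := ∑ i, algebraMap O L (β i) * δ i with hyβ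
  have hy : algebraMap C L y = algebraMap O L π * yα + algebraMap O L p * yβ := by
    have h0 : ∀ j, B (algebraMap C L y - (algebraMap O L π * yα + algebraMap O L p * yβ)) (bL j)
        = 0 := by
      intro j
      have e1 : Algebra.trace E L (algebraMap O L π * yα * bL j)
          = algebraMap O E π * algebraMap O E (α j) := by
        rw [mul_assoc, dnu57_trace_mul (E := E) π, hyα, hhalf α j]
      have e2 : Algebra.trace E L (algebraMap O L p * yβ * bL j)
          = algebraMap O E p * algebraMap O E (β j) := by
        rw [mul_assoc, dnu57_trace_mul (E := E) p, hyβ, hhalf β j]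
      have e3 : Algebra.trace E L (algebraMap C L y * bL j)
          = algebraMap O E (π * α j + p * β j) := by
        rw [hbL, ← map_mul, hαβ j]
      rw [Algebra.traceForm_apply, sub_mul, map_sub, add_mul, map_add, e1, e2, e3, map_add,
        map_mul, map_mul, sub_self]
    have h1 : B (algebraMap C L y - (algebraMap O L π * yα + algebraMap O L p * yβ)) = 0 :=
      bL.ext (fun j => by simpa using h0 j)
    have h2 : algebraMap C L y - (algebraMap O L π * yα + algebraMap O L p * yβ) = 0 := by
      apply hnd.1
      intro z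
      rw [h1]; rfl
    exact sub_eq_zero.mp h2
  -- `a • yγ` is in the trace dual
  have hdγ : ∀ γ : Fin n → O,
      algebraMap O L a * (∑ i, algebraMap O L (γ i) * δ i) ∈ pl72_dual O E L C := by
    intro γ c
    obtain ⟨g, hg⟩ := hcoord c
    have h3 := congrArg (algebraMap C L) hg
    rw [Algebra.smul_def, map_mul, ← IsScalarTower.algebraMap_apply, map_sum] at h3
    have h4 : algebraMap O L a * (∑ i, algebraMap O L (γ i) * δ i) * algebraMap C L c
        = ∑ j, algebraMap O L (g j) * ((∑ i, algebraMap O L (γ i) * δ i) * bL j) := by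
      calc algebraMap O L a * (∑ i, algebraMap O L (γ i) * δ i) * algebraMap C L c
          = (∑ i, algebraMap O L (γ i) * δ i) * (algebraMap O L a * algebraMap C L c) := by ring
        _ = (∑ i, algebraMap O L (γ i) * δ i) * ∑ j, algebraMap C L (g j • b j) := by rw [h3]
        _ = ∑ j, algebraMap O L (g j) * ((∑ i, algebraMap O L (γ i) * δ i) * bL j) := by
            rw [Finset.mul_sum]
            refine Finset.sum_congr rfl fun j _ => ?_
            rw [hbL, Algebra.smul_def, map_mul, ← IsScalarTower.algebraMap_apply O C L]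
            ring
    rw [h4, map_sum]
    simp_rw [dnu57_trace_mul, hhalf γ, ← map_mul, ← map_sum]
    exact ⟨_, rfl⟩
  obtain ⟨K1, v0, hv0⟩ := hdual _ (hdγ α)
  obtain ⟨K2, u0, hu0⟩ := hdual _ (hdγ β)
  obtain ⟨e, he⟩ := ha
  refine ⟨K1 + K2, algebraMap O C (t ^ K1) * u0,
    algebraMap O C (t ^ K2) * v0 - algebraMap O C e * (algebraMap O C t ^ (K1 + K2) * y), ?_⟩
  apply IsIntegralClosure.algebraMap_injective C O L
  have he' : algebraMap O L a - 1 = algebraMap O L π * algebraMap O L e := by
    rw [← map_mul, ← he, map_sub, map_one]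
  simp only [map_add, map_mul, map_sub, map_pow, ← IsScalarTower.algebraMap_apply O C L]
  rw [← hyα] at hv0
  rw [← hyβ] at hu0
  rw [map_pow] at hv0 hu0
  rw [hv0, hu0, hy]
  linear_combination (-(algebraMap O L t ^ (K1 + K2))
    * (algebraMap O L π * yα + algebraMap O L p * yβ)) * he'

end Decompose

section Final

/-- Termwise identity used in the induction step. -/
theorem dnu57_term {R : Type*} [CommRing R] (A U T F Y c : R) (m i : ℕ) (hAU : A * U = T * Y) :
    A ^ (m + i) * (c * T ^ m * F ^ m * U ^ i) = T ^ (m + i) * (c * (A * F) ^ m * Y ^ i) := by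
  have h : A ^ i * U ^ i = T ^ i * Y ^ i := by rw [← mul_pow, hAU, mul_pow]
  calc A ^ (m + i) * (c * T ^ m * F ^ m * U ^ i)
      = c * T ^ m * A ^ m * F ^ m * (A ^ i * U ^ i) := by ring
    _ = c * T ^ m * A ^ m * F ^ m * (T ^ i * Y ^ i) := by rw [h]
    _ = T ^ (m + i) * (c * (A * F) ^ m * Y ^ i) := by ring

variable [IsNoetherianRing O] [Algebra.IsSeparable E L]

/-- **Step (U)**: fibre normality relative to `t` from self-duality in codimension one away
from `t`.  `O` a Noetherian UFD, `π` a prime element with `O ⧸ (π)` a principal ideal ring,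
`L / E` finite separable, `C` the integral closure of `O` in `L`, and `hcodim` (the hypothesis
shape of `pl72_dual_eq`) at every prime element `p` of `O` not dividing `t`. -/
theorem dn57_of_hcodim {π t : O} (hπ : Prime π) [IsPrincipalIdealRing (O ⧸ Ideal.span {π})]
    (hcodim : ∀ p : O, Prime p → ¬ p ∣ t → ∀ y ∈ pl72_dual O E L C, ∃ s : O, ¬ p ∣ s ∧
      algebraMap O L s * y ∈ (algebraMap C L).range) :
    dn57_DivNorm O C π t := by
  classical
  have hdual : ∀ y ∈ pl72_dual O E L C, ∃ k : ℕ,
      algebraMap O L (t ^ k) * y ∈ (algebraMap C L).range :=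
    fun y hy => dnu57_dual_rel (E := E) t hcodim hy
  set I : Ideal O := Ideal.span {π} with hI
  have hIprime : I.IsPrime := (Ideal.span_singleton_prime hπ.ne_zero).mpr hπ
  have hmkI : ∀ z : O, Ideal.Quotient.mk I z = 0 ↔ π ∣ z := fun z => by
    rw [Ideal.Quotient.eq_zero_iff_mem, hI, Ideal.mem_span_singleton]
  have key : ∀ φ : O ⧸ I, ∀ f : O, Ideal.Quotient.mk I f = φ → ¬ π ∣ f → ∀ y : C,
      (∃ (r : ℕ) (c : ℕ → C) (w : C),
        y ^ r + ∑ i ∈ Finset.range r, c i * algebraMap O C f ^ (r - i) * y ^ i
          = algebraMap O C π * w) →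
      ∃ (k : ℕ) (u v : C),
        algebraMap O C t ^ k * y = algebraMap O C f * u + algebraMap O C π * v := by
    intro φ
    refine UniqueFactorizationMonoid.induction_on_prime φ ?_ ?_ ?_
    · intro f hf hπf
      exact absurd ((hmkI f).mp hf) hπf
    · intro φ hφ f hf _ y _
      obtain ⟨ψ, hψ⟩ := hφ.exists_right_inv
      obtain ⟨g, rfl⟩ := Ideal.Quotient.mk_surjective ψ
      have h1 : π ∣ f * g - 1 := by
        rw [← hmkI, map_sub, map_mul, hf, hψ, map_one, sub_self]
      obtain ⟨e, he⟩ := h1
      refine ⟨0, algebraMap O C g * y, - algebraMap O C e * y, ?_⟩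
      have h2 := congrArg (algebraMap O C) he
      simp only [map_mul, map_sub, map_one] at h2
      rw [pow_zero, one_mul]
      linear_combination (-y) * h2
    · intro φ' q hφ'0 hq ih f hf hπf y hrel
      obtain ⟨r, c, w, hrel⟩ := hrel
      obtain ⟨p, rfl⟩ := Ideal.Quotient.mk_surjective q
      obtain ⟨f', rfl⟩ := Ideal.Quotient.mk_surjective φ'
      have h1 : π ∣ f - p * f' := by
        rw [← hmkI, map_sub, map_mul, hf, sub_self]
      obtain ⟨e, he⟩ := h1
      have hπf' : ¬ π ∣ f' := fun h => hφ'0 ((hmkI f').mpr h)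
      have hπp : ¬ π ∣ p := fun h => hq.ne_zero ((hmkI p).mpr h)
      -- the maximal ideal `(π, p)`
      have hspan : (Ideal.span {π, p} : Ideal O)
          = (Ideal.span {Ideal.Quotient.mk I p}).comap (Ideal.Quotient.mk I) := by
        ext x
        rw [Ideal.mem_comap, Ideal.mem_span_singleton, Ideal.mem_span_pair]
        constructor
        · rintro ⟨u, v, rfl⟩
          refine ⟨Ideal.Quotient.mk I v, ?_⟩
          rw [map_add, map_mul, map_mul, (hmkI π).mpr dvd_rfl, mul_zero, zero_add, mul_comm]
        · rintro ⟨z, hz⟩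
          obtain ⟨z0, rfl⟩ := Ideal.Quotient.mk_surjective z
          have h2 : π ∣ x - p * z0 := by
            rw [← hmkI, map_sub, map_mul, hz, sub_self]
          obtain ⟨u, hu⟩ := h2
          exact ⟨u, z0, by linear_combination -hu⟩
      have h𝔪 : (Ideal.span {π, p} : Ideal O).IsMaximal := by
        rw [hspan]
        have hmax : (Ideal.span {Ideal.Quotient.mk I p}).IsMaximal :=
          PrincipalIdealRing.isMaximal_of_irreducible hq.irreducible
        exact Ideal.comap_isMaximal_of_surjective _ Ideal.Quotient.mk_surjective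
      have hfm : f ∈ (Ideal.span {π, p} : Ideal O) := by
        rw [Ideal.mem_span_pair]
        exact ⟨e, f', by linear_combination -he⟩
      -- `y ^ r ∈ (π, p) C`
      have hyr : y ^ r ∈ (Ideal.span {π, p} : Ideal O).map (algebraMap O C) := by
        have h3 : y ^ r = algebraMap O C π * w
            - ∑ i ∈ Finset.range r, c i * algebraMap O C f ^ (r - i) * y ^ i := by
          rw [← hrel]; ring
        rw [h3]
        refine Ideal.sub_mem _ (Ideal.mul_mem_right _ _ (Ideal.mem_map_of_mem _
          (Ideal.subset_span (by simp)))) (Ideal.sum_mem _ fun i hi => ?_)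
        refine Ideal.mul_mem_right _ _ (Ideal.mul_mem_left _ _ ?_)
        exact Ideal.pow_mem_of_mem _ (Ideal.mem_map_of_mem _ hfm) _
          (Nat.sub_pos_of_lt (Finset.mem_range.mp hi))
      -- traces
      have hmem : ∀ c : C, ∃ α β : O,
          Algebra.trace E L (algebraMap C L (y * c)) = algebraMap O E (π * α + p * β) := by
        intro c
        obtain ⟨τ, hτ⟩ := pl72_trace_mem (O := O) (E := E) (L := L) (y * c)
        have hτm : τ ∈ (Ideal.span {π, p} : Ideal O) :=
          dnu57_trace_mem_of_pow_mem (E := E) (L := L) _ (y * c) r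
            (by rw [mul_pow]; exact Ideal.mul_mem_right _ _ hyr) τ hτ
        obtain ⟨α, β, hαβ⟩ := Ideal.mem_span_pair.mp hτm
        refine ⟨α, β, ?_⟩
        rw [← hτ, ← hαβ]
        congr 1; ring
      obtain ⟨K, u1, v1, huv⟩ := dnu57_decompose (E := E) (L := L) hπ hdual p y hmem
      -- the integrality relation for `u1` and `f'`
      have hrel' : ∃ (r' : ℕ) (c' : ℕ → C) (w' : C),
          u1 ^ r' + ∑ i ∈ Finset.range r', c' i * algebraMap O C f' ^ (r' - i) * u1 ^ i
            = algebraMap O C π * w' := by
        set J : Ideal C := Ideal.span {algebraMap O C π} with hJ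
        set S : C := u1 ^ r + ∑ i ∈ Finset.range r,
          c i * (algebraMap O C t ^ K) ^ (r - i) * algebraMap O C f' ^ (r - i) * u1 ^ i with hS
        have hq0 : Ideal.Quotient.mk J (algebraMap O C π) = 0 :=
          Ideal.Quotient.eq_zero_iff_mem.mpr (Ideal.mem_span_singleton_self _)
        have hAU : Ideal.Quotient.mk J (algebraMap O C p) * Ideal.Quotient.mk J u1
            = Ideal.Quotient.mk J (algebraMap O C t ^ K) * Ideal.Quotient.mk J y := by
          rw [← map_mul, ← map_mul, huv, map_add, map_mul _ (algebraMap O C π), hq0, zero_mul,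
            add_zero]
        have hF : Ideal.Quotient.mk J (algebraMap O C f)
            = Ideal.Quotient.mk J (algebraMap O C p) * Ideal.Quotient.mk J (algebraMap O C f') := by
          have h4 := congrArg (fun z => Ideal.Quotient.mk J (algebraMap O C z)) he
          simp only [map_sub, map_mul, hq0, zero_mul] at h4
          exact sub_eq_zero.mp h4
        have h5 : Ideal.Quotient.mk J (algebraMap O C p ^ r * S) = 0 := by
          have h6 : Ideal.Quotient.mk J (algebraMap O C p ^ r * S)
              = Ideal.Quotient.mk J (algebraMap O C t ^ K) ^ r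
                * Ideal.Quotient.mk J (y ^ r + ∑ i ∈ Finset.range r,
                  c i * algebraMap O C f ^ (r - i) * y ^ i) := by
            rw [hS]
            simp only [map_mul, map_add, map_pow, map_sum, mul_add, Finset.mul_sum]
            congr 1
            · have hAU' : Ideal.Quotient.mk J (algebraMap O C p) * Ideal.Quotient.mk J u1
                  = Ideal.Quotient.mk J (algebraMap O C t) ^ K * Ideal.Quotient.mk J y := by
                simpa only [map_pow] using hAU
              rw [← mul_pow, ← mul_pow, hAU']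
            · refine Finset.sum_congr rfl fun i hi => ?_
              have hir : r = (r - i) + i :=
                (Nat.sub_add_cancel (Finset.mem_range.mp hi).le).symm
              have h7 := dnu57_term (Ideal.Quotient.mk J (algebraMap O C p))
                (Ideal.Quotient.mk J u1) (Ideal.Quotient.mk J (algebraMap O C t) ^ K)
                (Ideal.Quotient.mk J (algebraMap O C f')) (Ideal.Quotient.mk J y)
                (Ideal.Quotient.mk J (c i)) (r - i) i (by simpa only [map_pow] using hAU)
              rw [← hir] at h7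
              rw [hF]
              exact h7
          rw [h6, hrel, map_mul, hq0, zero_mul, mul_zero]
        obtain ⟨w2, hw2⟩ := Ideal.mem_span_singleton'.mp (Ideal.Quotient.eq_zero_iff_mem.mp h5)
        have hπpr : ¬ π ∣ p ^ r := fun h => hπp (hπ.dvd_of_dvd_pow h)
        have h8 : (p ^ r) • S = π • w2 := by
          rw [Algebra.smul_def, Algebra.smul_def, map_pow, ← hw2, mul_comm]
        obtain ⟨w3, hw3⟩ := dnu57_torsionfree E L hπ hπpr h8
        refine ⟨r, fun i => c i * (algebraMap O C t ^ K) ^ (r - i), w3, ?_⟩
        rw [← Algebra.smul_def, ← hw3, hS]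
      obtain ⟨k', u2, v2, huv2⟩ := ih f' rfl hπf' u1 hrel'
      refine ⟨K + k', u2, algebraMap O C p * v2 + algebraMap O C t ^ k' * v1
        - algebraMap O C e * u2, ?_⟩
      have he' := congrArg (algebraMap O C) he
      simp only [map_mul, map_sub] at he'
      rw [pow_add]
      linear_combination (algebraMap O C t ^ k') * huv + (algebraMap O C p) * huv2 - u2 * he'
  intro y f hf hy
  exact key _ f rfl hf y hy

end Final

end Main

end Fermat.Agent.S18
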