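import Mathlib

/-!
# S18 (long shot), row A1c (helper55): normality of the fibre in divisibility form

Let `C` be a finite free `O`-algebra with a basis of unit discriminant (the output of the purity
lemma `pl72_free` of `Purity.lean`), and let `π` be a prime element of `O` with `O ⧸ π`
integrally closed.  Then `C ⧸ π C` is "integrally closed with respect to denominators from `O`":

  if `x : C`, `t : O` is not divisible by `π`, and `x / t` satisfies a monic equation over
  `C ⧸ π C` (i.e. `(p.scaleRoots t).eval x ∈ π C` for a monic `p : C[X]`), then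
  `x ∈ t C + π C`.

This is the statement `fn55_FibreNormal O C π`; it is the form of "the special fibre is normal"
consumed by the Kummer descent (`x = t y + π w` is retracted by a trace) and by the
local-to-global assembly.

Proof: reduce the regular representation of `C` modulo `π` and extend scalars to the fraction
field `k` of `O ⧸ π`; the element `W = x / t` of the commutative `k`-algebra `k ⊗ C` is integral
over `O`, hence so are the `W c`; the eigenvalues of an integral matrix are integral, so
`Tr (W c) ∈ O ⧸ π`, i.e. `Tr_{C/O} (x c) ∈ t O + π O` for all `c`; finally invert the Gram matrix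
of the trace form.

All names are prefixed `fn55_`.
-/

set_option autoImplicit false

namespace Fermat.Agent.S18

open Polynomial TensorProduct

/-- An eigenvalue of a matrix over a field which is killed by a polynomial is a root of that
polynomial. -/
theorem fn55_root_of_charpoly_root {Ω ι : Type*} [Field Ω] [Fintype ι] [DecidableEq ι]
    (M : Matrix ι ι Ω) (f : Polynomial Ω) (hf : Polynomial.aeval M f = 0) (μ : Ω)
    (hμ : M.charpoly.IsRoot μ) : f.eval μ = 0 := by
  have hdet : (Matrix.scalar ι μ - M).det = 0 := by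
    rw [← Matrix.eval_charpoly]; exact hμ
  obtain ⟨v, hv0, hv⟩ := Matrix.exists_mulVec_eq_zero_iff.mpr hdet
  have hMv : M.mulVec v = μ • v := by
    rw [Matrix.sub_mulVec] at hv
    have h1 : (Matrix.scalar ι μ).mulVec v = μ • v := by
      ext i
      simp [Matrix.mulVec, Matrix.scalar_apply, dotProduct, Matrix.diagonal_apply]
    rw [h1] at hv
    exact (sub_eq_zero.mp hv).symm
  have hvec : Module.End.HasEigenvector (Matrix.toLin' M) μ v := by
    rw [Module.End.hasEigenvector_iff]
    exact ⟨Module.End.mem_eigenspace_iff.mpr (by rw [Matrix.toLin'_apply]; exact hMv), hv0⟩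
  have h2 := Module.End.aeval_apply_of_hasEigenvector (p := f) hvec
  have h3 : Polynomial.aeval (Matrix.toLin' M) f = 0 := by
    have : Polynomial.aeval (Matrix.toLinAlgEquiv' M) f = Matrix.toLinAlgEquiv' (Polynomial.aeval M f) :=
      Polynomial.aeval_algHom_apply (Matrix.toLinAlgEquiv' : Matrix ι ι Ω ≃ₐ[Ω] _).toAlgHom M f
    rw [hf, map_zero] at this
    exact this
  rw [h3, LinearMap.zero_apply] at h2
  by_contra hne
  exact hv0 ((smul_eq_zero.mp h2.symm).resolve_left hne)

/-- The trace of a matrix over a field `k` which is integral over `R` is integral over `R`. -/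
theorem fn55_isIntegral_trace {R k ι : Type*} [CommRing R] [Field k] [Algebra R k]
    [Fintype ι] [DecidableEq ι] (M : Matrix ι ι k) (hM : IsIntegral R M) :
    IsIntegral R M.trace := by
  let Ω := AlgebraicClosure k
  let F : Matrix ι ι k →ₐ[R] Matrix ι ι Ω := (IsScalarTower.toAlgHom R k Ω).mapMatrix
  have hMΩ : IsIntegral R (F M) := hM.map F
  obtain ⟨f, hfm, hf⟩ := hMΩ
  have hf' : Polynomial.aeval (F M) (f.map (algebraMap R Ω)) = 0 := by
    rw [Polynomial.aeval_map_algebraMap]
    exact hf
  have htr : (F M).trace = algebraMap k Ω M.trace := by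
    simp [F, Matrix.trace, Matrix.map_apply, map_sum]
  have hsum : IsIntegral R (F M).trace := by
    rw [Matrix.trace_eq_sum_roots_charpoly]
    refine IsIntegral.multiset_sum fun μ hμ => ?_
    have hroot : (F M).charpoly.IsRoot μ := (Polynomial.mem_roots'.mp hμ).2
    have := fn55_root_of_charpoly_root (F M) _ hf' μ hroot
    refine ⟨f, hfm, ?_⟩
    rw [← Polynomial.eval_map]
    exact this
  rw [htr] at hsum
  exact (isIntegral_algHom_iff (IsScalarTower.toAlgHom R k Ω)
    (algebraMap k Ω).injective).mp hsum


section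

variable {O C : Type*} [CommRing O] [CommRing C] [Algebra O C]

/-- **Fibre normality in divisibility form**: if `x / t` (with `π ∤ t`) is integral over
`C ⧸ π C`, then `x ∈ t C + π C`. -/
def fn55_FibreNormal (O C : Type*) [CommRing O] [CommRing C] [Algebra O C] (π : O) : Prop :=
  ∀ (x : C) (t : O), ¬ π ∣ t → ∀ p : Polynomial C, p.Monic →
    (p.scaleRoots (algebraMap O C t)).eval x ∈ Ideal.span {algebraMap O C π} →
    ∃ y w : C, x = t • y + π • w

/-- Base change of the trace along `O → k` for a free `O`-algebra. -/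
theorem fn55_trace_tmul {ι : Type*} [Fintype ι] [DecidableEq ι] (b : Module.Basis ι O C)
    (k : Type*) [Field k] [Algebra O k] (y : C) :
    Algebra.trace k (k ⊗[O] C) ((1 : k) ⊗ₜ[O] y) = algebraMap O k (Algebra.trace O C y) := by
  rw [Algebra.trace_eq_matrix_trace (Algebra.TensorProduct.basis k b),
    Algebra.trace_eq_matrix_trace b, Matrix.trace, Matrix.trace, map_sum]
  refine Finset.sum_congr rfl fun i _ => ?_
  rw [Matrix.diag_apply, Matrix.diag_apply, Algebra.leftMulMatrix_eq_repr_mul,
    Algebra.leftMulMatrix_eq_repr_mul, Algebra.TensorProduct.basis_apply,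
    Algebra.TensorProduct.tmul_mul_tmul, one_mul, Algebra.TensorProduct.basis_repr_tmul]
  simp

/-- The key trace estimate: if `x / t` is integral over `C / π C`, then the traces
`Tr (x c)` are divisible by `t` modulo `π`. -/
theorem fn55_trace_mem {ι : Type*} [Fintype ι] [DecidableEq ι] (b : Module.Basis ι O C)
    {k : Type*} [Field k] [Algebra O k] (π : O)
    (hπ0 : algebraMap O k π = 0)
    (hker : ∀ a : O, algebraMap O k a = 0 → π ∣ a)
    (hint : ∀ z : k, IsIntegral O z → ∃ a : O, algebraMap O k a = z)
    (x : C) (t : O) (ht : ¬ π ∣ t) (p : Polynomial C) (hp : p.Monic)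
    (h : (p.scaleRoots (algebraMap O C t)).eval x ∈ Ideal.span {algebraMap O C π}) (c : C) :
    ∃ o w : O, Algebra.trace O C (x * c) = t * o + π * w := by
  classical
  have : Module.Finite O C := Module.Finite.of_basis b
  let T := k ⊗[O] C
  let ρ : C →ₐ[O] T := Algebra.TensorProduct.includeRight
  let B : Module.Basis ι k T := Algebra.TensorProduct.basis k b
  set τ : k := algebraMap O k t with hτdef
  have hτ : τ ≠ 0 := fun h0 => ht (hker t h0)
  have hρalg : ∀ a : O, ρ (algebraMap O C a) = algebraMap k T (algebraMap O k a) := by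
    intro a
    rw [AlgHom.commutes, IsScalarTower.algebraMap_apply O k T]
  have hρπ : ρ (algebraMap O C π) = 0 := by rw [hρalg, hπ0, map_zero]
  have hzero : ρ ((p.scaleRoots (algebraMap O C t)).eval x) = 0 := by
    obtain ⟨d, hd⟩ := Ideal.mem_span_singleton'.mp h
    rw [← hd, map_mul, hρπ, mul_zero]
  set W : T := algebraMap k T τ⁻¹ * ρ x with hWdef
  have hWx : ρ (algebraMap O C t) * W = ρ x := by
    rw [hρalg, hWdef, ← mul_assoc, ← map_mul, mul_inv_cancel₀ hτ, map_one, one_mul]
  have hunit : IsUnit (ρ (algebraMap O C t)) := by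
    rw [hρalg]
    exact (IsUnit.mk0 τ hτ).map _
  have hkey : Polynomial.eval₂ (ρ : C →+* T) W p = 0 := by
    have h1 := Polynomial.scaleRoots_eval₂_mul (p := p) (ρ : C →+* T) W (algebraMap O C t)
    have h2 : (ρ : C →+* T) (algebraMap O C t) * W = (ρ : C →+* T) x := hWx
    rw [h2, Polynomial.eval₂_at_apply] at h1
    have h3 : (ρ : C →+* T) ((p.scaleRoots (algebraMap O C t)).eval x) = 0 := hzero
    rw [h3] at h1
    exact (hunit.pow _).mul_right_eq_zero.mp h1.symm
  have hρint : ∀ c : C, IsIntegral O (ρ c) := fun c => (IsIntegral.of_finite O c).map ρ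
  have hW : IsIntegral O W := by
    let A := integralClosure O T
    let ρA : C →+* A := (ρ : C →+* T).codRestrict A.toSubring fun c => hρint c
    refine isIntegral_trans (R := O) (A := A) W ⟨p.map ρA, hp.map _, ?_⟩
    rw [Polynomial.eval₂_map]
    exact hkey
  have hY : IsIntegral O (W * ρ c) := hW.mul (hρint c)
  let Lm : T →ₐ[O] Matrix ι ι k := (Algebra.leftMulMatrix B).restrictScalars O
  have hYm : IsIntegral O (Lm (W * ρ c)) := hY.map Lm
  have htr := fn55_isIntegral_trace _ hYm
  have htr' : IsIntegral O (Algebra.trace k T (W * ρ c)) := by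
    rw [Algebra.trace_eq_matrix_trace B]
    exact htr
  obtain ⟨o, ho⟩ := hint _ htr'
  have hcomp : Algebra.trace k T (W * ρ c) = τ⁻¹ * algebraMap O k (Algebra.trace O C (x * c)) := by
    have : W * ρ c = τ⁻¹ • ((1 : k) ⊗ₜ[O] (x * c)) := by
      rw [hWdef, mul_assoc, ← map_mul, Algebra.smul_def]
      rfl
    rw [this, map_smul, fn55_trace_tmul b k, smul_eq_mul]
  have hfin : algebraMap O k (Algebra.trace O C (x * c) - t * o) = 0 := by
    rw [map_sub, RingHom.map_mul (algebraMap O k) t o, ho, hcomp, ← hτdef, ← mul_assoc,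
      mul_inv_cancel₀ hτ, one_mul, sub_self]
  obtain ⟨w, hw⟩ := hker _ hfin
  exact ⟨o, w, by rw [← hw]; ring⟩

/-- From trace congruences to a congruence for the element (unit discriminant). -/
theorem fn55_of_trace {ι : Type*} [Fintype ι] [DecidableEq ι] (b : Module.Basis ι O C)
    (hb : IsUnit (Algebra.discr O b)) (π t : O) (x : C)
    (h : ∀ c : C, ∃ o w : O, Algebra.trace O C (x * c) = t * o + π * w) :
    ∃ y w : C, x = t • y + π • w := by
  classical
  choose o w how using fun j : ι => h (b j)
  set G : Matrix ι ι O := Algebra.traceMatrix O b with hG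
  have hdet : IsUnit G.det := hb
  set ξ : ι → O := fun i => b.repr x i with hξ
  have hx : x = ∑ i, ξ i • b i := (b.sum_repr x).symm
  have hvec : Matrix.vecMul ξ G = t • o + π • w := by
    funext j
    have h1 : Algebra.trace O C (x * b j) = ∑ i, ξ i * G i j := by
      conv_lhs => rw [hx, Finset.sum_mul, map_sum]
      refine Finset.sum_congr rfl fun i _ => ?_
      rw [smul_mul_assoc, map_smul, smul_eq_mul, hG, Algebra.traceMatrix_apply,
        Algebra.traceForm_apply]
    simp only [Matrix.vecMul, dotProduct, Pi.add_apply, Pi.smul_apply, smul_eq_mul]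
    rw [← h1, how j]
  have hξeq : ξ = t • Matrix.vecMul o G⁻¹ + π • Matrix.vecMul w G⁻¹ := by
    have h2 : Matrix.vecMul (Matrix.vecMul ξ G) G⁻¹ = ξ := by
      rw [Matrix.vecMul_vecMul, Matrix.mul_nonsing_inv G hdet, Matrix.vecMul_one]
    rw [← h2, hvec, Matrix.add_vecMul, Matrix.smul_vecMul, Matrix.smul_vecMul]
  refine ⟨∑ i, Matrix.vecMul o G⁻¹ i • b i, ∑ i, Matrix.vecMul w G⁻¹ i • b i, ?_⟩
  rw [hx, Finset.smul_sum, Finset.smul_sum, ← Finset.sum_add_distrib]
  refine Finset.sum_congr rfl fun i _ => ?_
  rw [smul_smul, smul_smul, ← add_smul]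
  congr 1
  exact congrFun hξeq i


/-- Unit discriminant implies fibre normality; version with an abstract residue field `k` of
the prime `π` (any field `k` with `ker (O → k) = (π)` in which the `O`-integral elements come
from `O`). -/
theorem fn55_of_unit_discr_field {ι : Type*} [Fintype ι] [DecidableEq ι]
    (b : Module.Basis ι O C) (hb : IsUnit (Algebra.discr O b))
    {k : Type*} [Field k] [Algebra O k] (π : O)
    (hπ0 : algebraMap O k π = 0)
    (hker : ∀ a : O, algebraMap O k a = 0 → π ∣ a)
    (hint : ∀ z : k, IsIntegral O z → ∃ a : O, algebraMap O k a = z) :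
    fn55_FibreNormal O C π :=
  fun x t ht p hp h =>
    fn55_of_trace b hb π t x fun c => fn55_trace_mem b π hπ0 hker hint x t ht p hp h c

/-- **Unit discriminant implies fibre normality** (`O ⧸ π` integrally closed). -/
theorem fn55_of_unit_discr {ι : Type*} [Fintype ι] [DecidableEq ι]
    (b : Module.Basis ι O C) (hb : IsUnit (Algebra.discr O b))
    {π : O} (hπ : Prime π) [IsIntegrallyClosed (O ⧸ Ideal.span {π})] :
    fn55_FibreNormal O C π := by
  have : (Ideal.span {π}).IsPrime := (Ideal.span_singleton_prime hπ.ne_zero).mpr hπ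
  let Ob := O ⧸ Ideal.span {π}
  let k := FractionRing Ob
  refine fn55_of_unit_discr_field (k := k) b hb π ?_ ?_ ?_
  · rw [IsScalarTower.algebraMap_apply O Ob k, Ideal.Quotient.algebraMap_eq,
      Ideal.Quotient.eq_zero_iff_mem.mpr (Ideal.mem_span_singleton_self π), map_zero]
  · intro a ha
    rw [IsScalarTower.algebraMap_apply O Ob k] at ha
    have h0 : algebraMap O Ob a = 0 :=
      (IsFractionRing.injective Ob k) (by rw [ha, map_zero])
    rw [Ideal.Quotient.algebraMap_eq, Ideal.Quotient.eq_zero_iff_mem] at h0
    exact Ideal.mem_span_singleton.mp h0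
  · intro z hz
    have hz' : IsIntegral Ob z := hz.tower_top
    obtain ⟨y, hy⟩ := IsIntegrallyClosed.isIntegral_iff.mp hz'
    obtain ⟨a, rfl⟩ := Ideal.Quotient.mk_surjective y
    exact ⟨a, by rw [IsScalarTower.algebraMap_apply O Ob k]; exact hy⟩

/-- Variant of `fn55_of_unit_discr` with the instance list of `pl72_free`
(`O ⧸ π` a principal ideal ring). -/
theorem fn55_of_unit_discr_pid {ι : Type*} [Fintype ι] [DecidableEq ι]
    (b : Module.Basis ι O C) (hb : IsUnit (Algebra.discr O b))
    {π : O} (hπ : Prime π) [IsPrincipalIdealRing (O ⧸ Ideal.span {π})] :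
    fn55_FibreNormal O C π := by
  have : (Ideal.span {π}).IsPrime := (Ideal.span_singleton_prime hπ.ne_zero).mpr hπ
  exact fn55_of_unit_discr b hb hπ

end

end Fermat.Agent.S18
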