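import Mathlib
import Fermat.Agent.S18.StarTwin55
import Fermat.Agent.S18.GaussVal85

/-!
# S18, chart package, Gauss part (helper55)

The clauses of `c1t55_ChartData R K M π` (StarTwin55.lean) which only involve the Gauss valuation
ring are discharged here with helper85's `gv85_V`:

* `c1g55_HF` : hypothesis (HF) of `gv85_V` for `F = modularFunctionFieldFullC K M` over a discrete
  valuation ring `R` (generators `j(q^d)` have `R`-integral expansions);
* `c1g55_V` : the Gauss valuation subring of `F`;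
* `c1g55_chartData` : `c1t55_ChartData R K M π` from a Hauptmodul `h ∈ F` such that `h` and `h⁻¹`
  have `R`-integral `q`-expansions, and the nine chart clauses (saturation ×3, noetherian ×2,
  Dedekind fibre ×2, finiteness, fraction field) stated with `V = c1g55_V`.
-/

set_option autoImplicit false
set_option linter.unusedSectionVars false

open ModularCurve IntermediateField

namespace Fermat.Agent.S18

section Gauss

variable {R K : Type} [CommRing R] [IsDomain R] [IsDiscreteValuationRing R] [Field K]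
  [Algebra R K] [IsFractionRing R K]

/-- The residue map of a discrete valuation ring kills exactly the multiples of a uniformiser. -/
theorem c1g55_hres {π : R} (hπ : Irreducible π) (r : R) :
    IsLocalRing.residue R r = 0 ↔ π ∣ r := by
  rw [IsLocalRing.residue_eq_zero_iff, hπ.maximalIdeal_eq, Ideal.mem_span_singleton]

theorem c1g55_hfin {π : R} (hπ : Irreducible π) (r : R) (hr : r ≠ 0) :
    ∃ n : ℕ, ¬ π ^ (n + 1) ∣ r :=
  FiniteMultiplicity.of_not_isUnit hπ.not_isUnit hr

variable (R K) in
/-- (HF) for the modular function field: every nonzero element is a constant times a quotient of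
two `R`-integral series with nonzero reductions. -/
theorem c1g55_HF (M : ℕ) {π : R} (hπ : Irreducible π) :
    gv85_HF (IsLocalRing.residue R) (modularFunctionFieldFullC K M) := by
  unfold modularFunctionFieldFullC
  refine gv85_HF_adjoin (IsLocalRing.residue R) π (c1g55_hres hπ) hπ.ne_zero (c1g55_hfin hπ) _ ?_
  rintro x ⟨d, hd, -, rfl⟩
  exact ⟨jqNModC R d, (coeffMap_jqNModC (algebraMap R K) d).symm⟩

variable (R K) in
/-- The Gauss valuation subring of the modular function field over a discrete valuation ring. -/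
noncomputable def c1g55_V (M : ℕ) {π : R} (hπ : Irreducible π) :
    ValuationSubring ↥(modularFunctionFieldFullC K M) :=
  gv85_V (IsLocalRing.residue R) (modularFunctionFieldFullC K M) (c1g55_HF R K M hπ)

variable {M : ℕ} [Algebra R ↥(modularFunctionFieldFullC K M)]
  [IsScalarTower R K ↥(modularFunctionFieldFullC K M)]

theorem c1g55_algebraMap_eq (r : R) :
    algebraMap R ↥(modularFunctionFieldFullC K M) r =
      algebraMap K ↥(modularFunctionFieldFullC K M) (algebraMap R K r) :=
  IsScalarTower.algebraMap_apply R K _ r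

/-- GAUSS for `c1g55_V`. -/
theorem c1g55_gauss {π : R} (hπ : Irreducible π) (x : ↥(modularFunctionFieldFullC K M))
    (y : LaurentSeries R) (hxy : (x : LaurentSeries K) = coeffMap (algebraMap R K) y) :
    x ∈ c1g55_V R K M hπ ∧
      ((algebraMap R ↥(modularFunctionFieldFullC K M) π)⁻¹ * x ∈ c1g55_V R K M hπ ↔
        coeffMap (IsLocalRing.residue R) y = 0) := by
  refine ⟨gv85_mem_V_of_integral _ _ _ x y hxy, ?_⟩
  rw [c1g55_algebraMap_eq]
  exact gv85_gauss (IsLocalRing.residue R) π (c1g55_hres hπ) hπ.ne_zero _ _ x y hxy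

theorem c1g55_algebraMap_mem {π : R} (hπ : Irreducible π) (r : R) :
    algebraMap R ↥(modularFunctionFieldFullC K M) r ∈ c1g55_V R K M hπ := by
  refine gv85_mem_V_of_integral _ _ _ _ (HahnSeries.C r) ?_
  rw [c1g55_algebraMap_eq, gv85_coe_algebraMap, gv85_coeffMap_C]

theorem c1g55_pi_inv_not_mem {π : R} (hπ : Irreducible π) :
    (algebraMap R ↥(modularFunctionFieldFullC K M) π)⁻¹ ∉ c1g55_V R K M hπ := by
  rw [c1g55_algebraMap_eq]
  exact gv85_pi_inv_not_mem (IsLocalRing.residue R) π (c1g55_hres hπ) hπ.ne_zero _ _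

theorem c1g55_hmax {π : R} (hπ : Irreducible π) (x : ↥(modularFunctionFieldFullC K M))
    (hx : x ∈ c1g55_V R K M hπ) (hx' : x⁻¹ ∉ c1g55_V R K M hπ) :
    (algebraMap R ↥(modularFunctionFieldFullC K M) π)⁻¹ * x ∈ c1g55_V R K M hπ := by
  rw [c1g55_algebraMap_eq]
  exact gv85_hmax (IsLocalRing.residue R) π (c1g55_hres hπ) hπ.ne_zero _ _ x hx hx'

/-- **The chart package from its chart clauses**: the Gauss part is automatic. -/
theorem c1g55_chartData {π : R} (hπ : Irreducible π) (h : ↥(modularFunctionFieldFullC K M))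
    (hh : Transcendental K h) (yh yh' : LaurentSeries R)
    (hyh : (h : LaurentSeries K) = coeffMap (algebraMap R K) yh)
    (hyh' : ((h⁻¹ : ↥(modularFunctionFieldFullC K M)) : LaurentSeries K) =
      coeffMap (algebraMap R K) yh')
    (hsat₁ : ∀ x ∈ pk15_chart R ({h} : Set ↥(modularFunctionFieldFullC K M)),
      (algebraMap R ↥(modularFunctionFieldFullC K M) π)⁻¹ * x ∈ c1g55_V R K M hπ →
      (algebraMap R ↥(modularFunctionFieldFullC K M) π)⁻¹ * x ∈
        pk15_chart R ({h} : Set ↥(modularFunctionFieldFullC K M)))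
    (hsat₂ : ∀ x ∈ pk15_chart R ({h⁻¹} : Set ↥(modularFunctionFieldFullC K M)),
      (algebraMap R ↥(modularFunctionFieldFullC K M) π)⁻¹ * x ∈ c1g55_V R K M hπ →
      (algebraMap R ↥(modularFunctionFieldFullC K M) π)⁻¹ * x ∈
        pk15_chart R ({h⁻¹} : Set ↥(modularFunctionFieldFullC K M)))
    (hsat₁₂ : ∀ x ∈ pk15_chart R ({h, h⁻¹} : Set ↥(modularFunctionFieldFullC K M)),
      (algebraMap R ↥(modularFunctionFieldFullC K M) π)⁻¹ * x ∈ c1g55_V R K M hπ →
      (algebraMap R ↥(modularFunctionFieldFullC K M) π)⁻¹ * x ∈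
        pk15_chart R ({h, h⁻¹} : Set ↥(modularFunctionFieldFullC K M)))
    (hN₁ : IsNoetherianRing (pk15_chart R ({h} : Set ↥(modularFunctionFieldFullC K M))))
    (hN₂ : IsNoetherianRing (pk15_chart R ({h⁻¹} : Set ↥(modularFunctionFieldFullC K M))))
    (hD₁ : IsDedekindDomain (pk15_chart R ({h} : Set ↥(modularFunctionFieldFullC K M)) ⧸
      Ideal.span {algebraMap R (pk15_chart R ({h} : Set ↥(modularFunctionFieldFullC K M))) π}))
    (hD₂ : IsDedekindDomain (pk15_chart R ({h⁻¹} : Set ↥(modularFunctionFieldFullC K M)) ⧸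
      Ideal.span {algebraMap R (pk15_chart R ({h⁻¹} : Set ↥(modularFunctionFieldFullC K M))) π}))
    (hfin : ∃ G : Finset ↥(modularFunctionFieldFullC K M),
      ∀ x ∈ pk15_chart R ({h} : Set ↥(modularFunctionFieldFullC K M)),
        x ∈ Submodule.span (Algebra.adjoin R ({h} : Set ↥(modularFunctionFieldFullC K M)))
          (G : Set ↥(modularFunctionFieldFullC K M)))
    (hfrac : ∀ x : ↥(modularFunctionFieldFullC K M),
      ∃ a ∈ pk15_chart R ({h} : Set ↥(modularFunctionFieldFullC K M)),
      ∃ b ∈ pk15_chart R ({h} : Set ↥(modularFunctionFieldFullC K M)), b ≠ 0 ∧ x * b = a) :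
    c1t55_ChartData R K M π :=
  ⟨h, c1g55_V R K M hπ, hh, c1g55_algebraMap_mem hπ, c1g55_pi_inv_not_mem hπ,
    fun x hx hx' => c1g55_hmax hπ x hx hx',
    (c1g55_gauss hπ h yh hyh).1, (c1g55_gauss hπ h⁻¹ yh' hyh').1,
    hsat₁, hsat₂, hsat₁₂, hN₁, hN₂, hD₁, hD₂, hfin, hfrac,
    fun x y hxy => c1g55_gauss hπ x y hxy⟩

end Gauss

end Fermat.Agent.S18
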