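import Mathlib
import Fermat.Agent.S16.LevelOneSturm

/-!
# S18, row B1 (backup copy, helper61): level 2 Hauptmodul identities — truncated arithmetic

Coefficient lists (orders `0..9`) of the integral power series attached to `E₄`, `Δ` and their
`q ↦ q²` expansions, and the vanishing of the first ten coefficients of

* `E₄(q)³ Δ(q) Δ(q²) - (Δ(q) + 256 Δ(q²))³`,
* `E₄(q²)³ Δ(q) Δ(q²) - (Δ(q) + 16 Δ(q²))³`.

All names are prefixed `h61h_`.
-/

set_option autoImplicit false

namespace Fermat.Agent.S18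

open Fermat.Agent.S16

/-- `l` lists the coefficients of `φ` of order `< 10`. -/
def h61h_agree (φ : PowerSeries ℤ) (l : List ℤ) : Prop :=
  ∀ n, n < 10 → PowerSeries.coeff n φ = l.getD n 0

/-- Truncated product of coefficient lists. -/
def h61h_lmul (l₁ l₂ : List ℤ) : List ℤ :=
  (List.range 10).map fun n =>
    ((List.range (n + 1)).map fun i => l₁.getD i 0 * l₂.getD (n - i) 0).sum

/-- Truncated linear combination `l₁ + c l₂` of coefficient lists. -/
def h61h_ladd (c : ℤ) (l₁ l₂ : List ℤ) : List ℤ :=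
  (List.range 10).map fun n => l₁.getD n 0 + c * l₂.getD n 0

/-- Truncated `q ↦ q²` of a coefficient list. -/
def h61h_lexp (l : List ℤ) : List ℤ :=
  (List.range 10).map fun n => if n % 2 = 0 then l.getD (n / 2) 0 else 0

theorem h61h_getD_map_range (f : ℕ → ℤ) (n : ℕ) (hn : n < 10) :
    ((List.range 10).map f).getD n 0 = f n := by
  rw [List.getD_eq_getElem _ _ (by simpa using hn)]
  simp

theorem h61h_sum_range (f : ℕ → ℤ) (m : ℕ) :
    ∑ i ∈ Finset.range m, f i = ((List.range m).map f).sum := by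
  induction m with
  | zero => simp
  | succ m ih => rw [Finset.sum_range_succ, ih, List.range_succ, List.map_append, List.sum_append]; simp

theorem h61h_agree_mul {φ ψ : PowerSeries ℤ} {l₁ l₂ l₃ : List ℤ} (h₁ : h61h_agree φ l₁)
    (h₂ : h61h_agree ψ l₂) (h : h61h_lmul l₁ l₂ = l₃) : h61h_agree (φ * ψ) l₃ := by
  intro n hn
  rw [← h, h61h_lmul, h61h_getD_map_range _ n hn, PowerSeries.coeff_mul,
    Finset.Nat.sum_antidiagonal_eq_sum_range_succ_mk, ← h61h_sum_range]
  refine Finset.sum_congr rfl fun i hi => ?_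
  have hi' : i < n + 1 := Finset.mem_range.mp hi
  rw [h₁ i (by omega), h₂ (n - i) (by omega)]

theorem h61h_agree_add {φ ψ : PowerSeries ℤ} {l₁ l₂ l₃ : List ℤ} (c : ℤ) (h₁ : h61h_agree φ l₁)
    (h₂ : h61h_agree ψ l₂) (h : h61h_ladd c l₁ l₂ = l₃) :
    h61h_agree (φ + PowerSeries.C c * ψ) l₃ := by
  intro n hn
  rw [← h, h61h_ladd, h61h_getD_map_range _ n hn, map_add, PowerSeries.coeff_C_mul, h₁ n hn,
    h₂ n hn]

theorem h61h_agree_expand {φ : PowerSeries ℤ} {l l' : List ℤ} (h₁ : h61h_agree φ l)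
    (h : h61h_lexp l = l') : h61h_agree (PowerSeries.expand 2 two_ne_zero φ) l' := by
  intro n hn
  rw [← h, h61h_lexp, h61h_getD_map_range _ n hn, PowerSeries.coeff_expand]
  by_cases h2 : 2 ∣ n
  · rw [if_pos h2, if_pos (Nat.mod_eq_zero_of_dvd h2), h₁ (n / 2) (by omega)]
  · rw [if_neg h2, if_neg (fun h0 => h2 (Nat.dvd_of_mod_eq_zero h0))]

theorem h61h_agree_one : h61h_agree 1 [1] := by
  intro n hn
  rw [PowerSeries.coeff_one]
  rcases n with _ | n
  · simp
  · simp

theorem h61h_agree_congr {φ ψ : PowerSeries ℤ} {l : List ℤ} (h : h61h_agree φ l) (e : φ = ψ) :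
    h61h_agree ψ l := e ▸ h

theorem h61h_agree_A : h61h_agree sturmA [0, 1, 9, 28, 73, 126, 252, 344, 585, 757] := by
  intro n hn
  rw [sturmA, PowerSeries.coeff_mk]
  interval_cases n <;> decide +kernel

theorem h61h_agree_B :
    h61h_agree sturmB [0, 1, 33, 244, 1057, 3126, 8052, 16808, 33825, 59293] := by
  intro n hn
  rw [sturmB, PowerSeries.coeff_mk]
  interval_cases n <;> decide +kernel

theorem h61h_agree_D :
    h61h_agree sturmD [0, 0, -2, -18, -82, -250, -650, -1372, -2770, -4878] := by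
  intro n hn
  rw [sturmD, PowerSeries.coeff_mk]
  interval_cases n <;> decide +kernel

theorem h61h_C_ofNat (n : ℕ) [n.AtLeastTwo] :
    (PowerSeries.C (OfNat.ofNat n : ℤ) : PowerSeries ℤ) = (OfNat.ofNat n : PowerSeries ℤ) :=
  map_ofNat _ n

theorem h61h_agree_E : h61h_agree (1 + 240 * sturmA)
    [1, 240, 2160, 6720, 17520, 30240, 60480, 82560, 140400, 181680] := by
  have h := h61h_agree_add 240 h61h_agree_one h61h_agree_A
    (l₃ := [1, 240, 2160, 6720, 17520, 30240, 60480, 82560, 140400, 181680]) (by decide +kernel)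
  rwa [h61h_C_ofNat] at h

theorem h61h_agree_Delta : h61h_agree sturmDelta
    [0, 1, -24, 252, -1472, 4830, -6048, -16744, 84480, -113643] := by
  have hA2 : h61h_agree (sturmA * sturmA) [0, 0, 1, 18, 137, 650, 2350, 6860, 17609, 39870] :=
    h61h_agree_mul h61h_agree_A h61h_agree_A (by decide +kernel)
  have hA3 : h61h_agree (sturmA * sturmA * sturmA)
      [0, 0, 0, 1, 27, 327, 2460, 13476, 58731, 214741] :=
    h61h_agree_mul hA2 h61h_agree_A (by decide +kernel)
  have hB2 : h61h_agree (sturmB * sturmB)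
      [0, 0, 1, 66, 1577, 18218, 135550, 738236, 3207785, 11714718] :=
    h61h_agree_mul h61h_agree_B h61h_agree_B (by decide +kernel)
  have h1 := h61h_agree_add 100 h61h_agree_B hA2 (l₃ := _) rfl
  have h2 := h61h_agree_add 8000 h1 hA3 (l₃ := _) rfl
  have h3 := h61h_agree_add (-147) h2 hB2 (l₃ := _) rfl
  have h4 := h61h_agree_add 5 h3 h61h_agree_D
    (l₃ := [0, 1, -24, 252, -1472, 4830, -6048, -16744, 84480, -113643]) (by decide +kernel)
  refine h61h_agree_congr h4 ?_
  rw [map_neg, h61h_C_ofNat, h61h_C_ofNat, h61h_C_ofNat, h61h_C_ofNat, sturmDelta]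
  ring

theorem h61h_agree_Delta2 : h61h_agree (PowerSeries.expand 2 two_ne_zero sturmDelta)
    [0, 0, 1, 0, -24, 0, 252, 0, -1472, 0] :=
  h61h_agree_expand h61h_agree_Delta (by decide +kernel)

theorem h61h_agree_DD :
    h61h_agree (sturmDelta * PowerSeries.expand 2 two_ne_zero sturmDelta)
      [0, 0, 0, 1, -24, 228, -896, -966, 23232, -70632] :=
  h61h_agree_mul h61h_agree_Delta h61h_agree_Delta2 (by decide +kernel)

theorem h61h_agree_cube {φ : PowerSeries ℤ} {l l₂ l₃ : List ℤ} (h : h61h_agree φ l)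
    (e₂ : h61h_lmul l l = l₂) (e₃ : h61h_lmul l₂ l = l₃) : h61h_agree (φ ^ 3) l₃ := by
  have h3 := h61h_agree_mul (h61h_agree_mul h h e₂) h e₃
  refine h61h_agree_congr h3 ?_
  ring

/-- The first ten coefficients of `E₄³ Δ Δ₂ - (Δ + 256 Δ₂)³` vanish. -/
theorem h61h_trunc_one (n : ℕ) (hn : n ≤ 9) :
    PowerSeries.coeff n ((1 + 240 * sturmA) ^ 3 *
        (sturmDelta * PowerSeries.expand 2 two_ne_zero sturmDelta) -
      (sturmDelta + 256 * PowerSeries.expand 2 two_ne_zero sturmDelta) ^ 3) = 0 := by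
  have hE3 := h61h_agree_cube h61h_agree_E (l₂ := _) (l₃ := [1, 720, 179280, 16954560,
    396974160, 4632858720, 34413301440, 187477879680, 814940600400, 2975469665040]) rfl
    (by decide +kernel)
  have hP := h61h_agree_mul hE3 h61h_agree_DD (l₃ := [0, 0, 0, 1, 696, 162228, 12815104,
    30294474, -1190188608, -1613013192]) (by decide +kernel)
  have hS := h61h_agree_add 256 h61h_agree_Delta h61h_agree_Delta2
    (l₃ := [0, 1, 232, 252, -7616, 4830, 58464, -16744, -292352, -113643]) (by decide +kernel)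
  have hS3 := h61h_agree_cube hS (l₂ := _) (l₃ := [0, 0, 0, 1, 696, 162228, 12815104,
    30294474, -1190188608, -1613013192]) rfl (by decide +kernel)
  have hF := h61h_agree_add (-1) hP hS3 (l₃ := [0, 0, 0, 0, 0, 0, 0, 0, 0, 0])
    (by decide +kernel)
  rw [h61h_C_ofNat] at hS3 hF
  have h0 := hF n (by omega)
  have e : (([0, 0, 0, 0, 0, 0, 0, 0, 0, 0] : List ℤ).getD n 0) = 0 := by
    interval_cases n <;> rfl
  rw [e] at h0
  rw [← h0]
  congr 1
  simp
  ring

/-- The first ten coefficients of `E₄(q²)³ Δ Δ₂ - (Δ + 16 Δ₂)³` vanish. -/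
theorem h61h_trunc_two (n : ℕ) (hn : n ≤ 9) :
    PowerSeries.coeff n ((PowerSeries.expand 2 two_ne_zero (1 + 240 * sturmA)) ^ 3 *
        (sturmDelta * PowerSeries.expand 2 two_ne_zero sturmDelta) -
      (sturmDelta + 16 * PowerSeries.expand 2 two_ne_zero sturmDelta) ^ 3) = 0 := by
  have hE2 := h61h_agree_expand h61h_agree_E (l' := [1, 0, 240, 0, 2160, 0, 6720, 0, 17520, 0])
    (by decide +kernel)
  have hE3 := h61h_agree_cube hE2 (l₂ := _) (l₃ := [1, 0, 720, 0, 179280, 0, 16954560, 0,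
    396974160, 0]) rfl (by decide +kernel)
  have hP := h61h_agree_mul hE3 h61h_agree_DD (l₃ := [0, 0, 0, 1, -24, 948, -18176, 342474,
    -4924608, 57064248]) (by decide +kernel)
  have hS := h61h_agree_add 16 h61h_agree_Delta h61h_agree_Delta2
    (l₃ := [0, 1, -8, 252, -1856, 4830, -2016, -16744, 60928, -113643]) (by decide +kernel)
  have hS3 := h61h_agree_cube hS (l₂ := _) (l₃ := [0, 0, 0, 1, -24, 948, -18176, 342474,
    -4924608, 57064248]) rfl (by decide +kernel)
  have hF := h61h_agree_add (-1) hP hS3 (l₃ := [0, 0, 0, 0, 0, 0, 0, 0, 0, 0])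
    (by decide +kernel)
  rw [h61h_C_ofNat] at hS3 hF
  have h0 := hF n (by omega)
  have e : (([0, 0, 0, 0, 0, 0, 0, 0, 0, 0] : List ℤ).getD n 0) = 0 := by
    interval_cases n <;> rfl
  rw [e] at h0
  rw [← h0]
  congr 1
  simp
  ring

end Fermat.Agent.S18
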