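import Mathlib
import Fermat.Agent.S18.Haupt2_61a
import Fermat.Agent.S16.TwistLemma
import Fermat.Agent.Lib.Gamma0Cosets
import Fermat.Prelude.Thm_ModularForm_sturm_bound_Gamma0

/-!
# S18, row B1 (backup copy, helper61): level 2 Hauptmodul identities — Sturm step

The two weight `36` identities on `Γ₀(2)`

* `E₄(q)³ Δ(q) Δ(q²) = (Δ(q) + 256 Δ(q²))³`,
* `E₄(q²)³ Δ(q) Δ(q²) = (Δ(q) + 16 Δ(q²))³`,

as identities of integral power series (`E₄ = 1 + 240 sturmA`, `Δ = sturmDelta`), from the Sturm
bound `36 · 3 / 12 = 9` and the truncated computations of `Haupt2_61a`.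

All names are prefixed `h61h_`.
-/

set_option autoImplicit false

open UpperHalfPlane ModularForm CongruenceSubgroup
open scoped MatrixGroups ModularForm

namespace Fermat.Agent.S18

open Fermat.Agent.S16 Fermat.Agent.S23

noncomputable section

/-- A level-one form, viewed as a form on `Γ₀(2)`. -/
def h61h_res {k : ℤ} (g : ModularForm 𝒮ℒ k) : ModularForm (Gamma0 2) k where
  toFun := g
  slash_action_eq' γ hγ := g.slash_action_eq' γ (Subgroup.map_le_range _ _ hγ)
  holo' := g.holo'
  bdd_at_cusps' hc := g.bdd_at_cusps' (hc.mono (Subgroup.map_le_range _ _))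

theorem h61h_res_qExpansion {k : ℤ} (g : ModularForm 𝒮ℒ k) :
    qExpansion 1 (h61h_res g) = qExpansion 1 g := rfl

/-- `Δ` as a modular form of level one. -/
def h61h_DeltaM : ModularForm 𝒮ℒ 12 := CuspForm.toModularFormₗ CuspForm.discriminant

theorem h61h_DeltaM_qExpansion :
    qExpansion 1 h61h_DeltaM = sturmDelta.map (Int.castRingHom ℂ) :=
  sturm_delta_qExpansion

theorem h61h_index : (Gamma0 2).index = 3 := by
  have h1 : (Gamma0 2).index = Nat.card (SL(2, ℤ) ⧸ Gamma0 2) := rfl
  rw [h1, Fermat.Agent.Lib.card_quotient_Gamma0 2]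
  have h2 := Fermat.Agent.Lib.G0C.dedekindPsi_prime_pow Nat.prime_two (e := 1) one_pos
  simpa using h2

/-- The weight `36` form `E³ Δ Δ₂ - (Δ + c Δ₂)³` on `Γ₀(2)`. -/
def h61h_form (E : ModularForm (Gamma0 2) 4) (c : ℂ) : ModularForm (Gamma0 2) 36 :=
  ModularForm.mcast (by norm_num)
      ((E.pow 3).mul ((h61h_res h61h_DeltaM).mul (tw_V 2 h61h_DeltaM))) -
    ModularForm.mcast (by norm_num) ((h61h_res h61h_DeltaM + c • tw_V 2 h61h_DeltaM).pow 3)

theorem h61h_form_qExpansion (E : ModularForm (Gamma0 2) 4) (c : ℂ) :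
    qExpansion 1 (h61h_form E c) =
      qExpansion 1 E ^ 3 * (sturmDelta.map (Int.castRingHom ℂ) *
          PowerSeries.expand 2 two_ne_zero (sturmDelta.map (Int.castRingHom ℂ))) -
        (sturmDelta.map (Int.castRingHom ℂ) +
          c • PowerSeries.expand 2 two_ne_zero (sturmDelta.map (Int.castRingHom ℂ))) ^ 3 := by
  have h1 := CongruenceSubgroup.one_mem_strictPeriods_Gamma0 2
  unfold h61h_form
  rw [FunLike.coe_sub, ModularForm.qExpansion_sub one_pos h1, ModularForm.qExpansion_mcast,
    ModularForm.qExpansion_mcast, ModularForm.qExpansion_mul one_pos h1,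
    ModularForm.qExpansion_mul one_pos h1, ModularForm.qExpansion_pow one_pos h1,
    ModularForm.qExpansion_pow one_pos h1, FunLike.coe_add,
    ModularForm.qExpansion_add one_pos h1, FunLike.coe_smul,
    ModularForm.qExpansion_smul one_pos h1, h61h_res_qExpansion, tw_V_qExpansion,
    h61h_DeltaM_qExpansion]

theorem h61h_form_eq_zero (E : ModularForm (Gamma0 2) 4) (c : ℂ)
    (h : ∀ n : ℕ, n ≤ 9 → (qExpansion 1 (h61h_form E c)).coeff n = 0) : h61h_form E c = 0 := by
  apply ModularForm.sturm_bound_Gamma0 2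
  intro n hn
  rw [h61h_index] at hn
  refine h n ?_
  have e : ((36 : ℤ) * ((3 : ℕ) : ℤ)).toNat / 12 = 9 := by decide
  omega

theorem h61h_map_injective :
    Function.Injective (PowerSeries.map (Int.castRingHom ℂ)) := by
  intro f g hfg
  ext n
  have h := congrArg (PowerSeries.coeff n) hfg
  rw [PowerSeries.coeff_map, PowerSeries.coeff_map] at h
  exact Int.cast_injective h

/-- The shape of both identities: vanishing of the first ten coefficients of the integral
series forces the identity. -/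
theorem h61h_identity_aux (E : ModularForm (Gamma0 2) 4) (A : PowerSeries ℤ) (c : ℤ)
    (hE : qExpansion 1 E = A.map (Int.castRingHom ℂ))
    (h : ∀ n : ℕ, n ≤ 9 → PowerSeries.coeff n
      (A ^ 3 * (sturmDelta * PowerSeries.expand 2 two_ne_zero sturmDelta) -
        (sturmDelta + PowerSeries.C c * PowerSeries.expand 2 two_ne_zero sturmDelta) ^ 3) = 0) :
    A ^ 3 * (sturmDelta * PowerSeries.expand 2 two_ne_zero sturmDelta) =
      (sturmDelta + PowerSeries.C c * PowerSeries.expand 2 two_ne_zero sturmDelta) ^ 3 := by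
  have hq : qExpansion 1 (h61h_form E (c : ℂ)) = PowerSeries.map (Int.castRingHom ℂ)
      (A ^ 3 * (sturmDelta * PowerSeries.expand 2 two_ne_zero sturmDelta) -
        (sturmDelta + PowerSeries.C c * PowerSeries.expand 2 two_ne_zero sturmDelta) ^ 3) := by
    have hC : PowerSeries.map (Int.castRingHom ℂ) (PowerSeries.C c) = PowerSeries.C (c : ℂ) := by
      ext n
      rw [PowerSeries.coeff_map, PowerSeries.coeff_C, PowerSeries.coeff_C]
      split_ifs <;> simp
    rw [h61h_form_qExpansion, hE, PowerSeries.smul_eq_C_mul]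
    simp only [map_sub, map_mul, map_pow, map_add, PowerSeries.map_expand, hC]
  have h0 : h61h_form E (c : ℂ) = 0 := by
    apply h61h_form_eq_zero
    intro n hn
    rw [hq, PowerSeries.coeff_map, h n hn, map_zero]
  have h1 : PowerSeries.map (Int.castRingHom ℂ)
      (A ^ 3 * (sturmDelta * PowerSeries.expand 2 two_ne_zero sturmDelta) -
        (sturmDelta + PowerSeries.C c * PowerSeries.expand 2 two_ne_zero sturmDelta) ^ 3) = 0 := by
    rw [← hq, h0]
    exact qExpansion_zero 1
  have h2 := h61h_map_injective (h1.trans (map_zero _).symm)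
  exact sub_eq_zero.mp h2

/-- `E₄(q)³ Δ(q) Δ(q²) = (Δ(q) + 256 Δ(q²))³`. -/
theorem h61h_identity_one :
    (1 + 240 * sturmA) ^ 3 * (sturmDelta * PowerSeries.expand 2 two_ne_zero sturmDelta) =
      (sturmDelta + 256 * PowerSeries.expand 2 two_ne_zero sturmDelta) ^ 3 := by
  have h := h61h_identity_aux (h61h_res E₄) (1 + 240 * sturmA) 256 sturm_E4_qExpansion
    (by
      intro n hn
      rw [h61h_C_ofNat]
      exact h61h_trunc_one n hn)
  rwa [h61h_C_ofNat] at h

/-- `E₄(q²)³ Δ(q) Δ(q²) = (Δ(q) + 16 Δ(q²))³`. -/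
theorem h61h_identity_two :
    (PowerSeries.expand 2 two_ne_zero (1 + 240 * sturmA)) ^ 3 *
        (sturmDelta * PowerSeries.expand 2 two_ne_zero sturmDelta) =
      (sturmDelta + 16 * PowerSeries.expand 2 two_ne_zero sturmDelta) ^ 3 := by
  have hE : qExpansion 1 (tw_V 2 E₄) =
      (PowerSeries.expand 2 two_ne_zero (1 + 240 * sturmA)).map (Int.castRingHom ℂ) := by
    rw [tw_V_qExpansion, sturm_E4_qExpansion, PowerSeries.map_expand]
  have h := h61h_identity_aux (tw_V 2 E₄) _ 16 hE
    (by
      intro n hn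
      rw [h61h_C_ofNat]
      exact h61h_trunc_two n hn)
  rwa [h61h_C_ofNat] at h

end

end Fermat.Agent.S18
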