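import Mathlib
import Fermat.Agent.S18.Haupt2_61b
import Fermat.Agent.S24.EtaBridge
import Fermat.Agent.S24.AsmBridgeB
import Fermat.Prelude.Def_ModularCurve_X0ModL

/-!
# S18, row B1 (backup copy, helper61): the level 2 Hauptmodul

`h = Δ(q)/Δ(q²) = q⁻¹ ∏ ((1 - qⁿ)/(1 - q²ⁿ))²⁴` as a Laurent series over any commutative ring `S`
(`h61h_hS S`), with

* `h61h_relS  : jqModC S * h ^ 2 = (h + 256) ^ 3`,
* `h61h_rel2S : qExpand S 2 (jqModC S) * h = (h + 16) ^ 3`,
* `h61h_coeffMap_hS : coeffMap f (h61h_hS R) = h61h_hS S`,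
* `h61h_mem_fullC` : over a field `K` with `2 ≠ 0`, `h ∈ modularFunctionFieldFullC K N` for `2 ∣ N`,
* the `ℚ̄`-forms `h61h_hbar`, `h61h_rel`, `h61h_rel2`, `h61h_mem`.

All names are prefixed `h61h_`.
-/

set_option autoImplicit false

open UpperHalfPlane ModularForm ModularCurve
open scoped MatrixGroups ModularForm Topology

namespace Fermat.Agent.S18

open Fermat.Agent.S16 Fermat.Agent.S24

noncomputable section

/-! ### Bridge to the Prelude series -/

theorem h61h_E4_eq : 1 + 240 * sturmA = eisenstein4 :=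
  h61h_map_injective (sturm_E4_qExpansion.symm.trans aj5_qExpansion_E4)

theorem h61h_ts_id : aj5_ts (fun q : ℂ => q) = PowerSeries.X := by
  ext n
  rw [aj5_ts_coeff, iteratedDeriv_fun_id_zero, PowerSeries.coeff_X]
  by_cases h : n = 1
  · subst h; simp
  · simp [h]

/-- The `q`-expansion of `Δ` is `q ∏ (1 - qⁿ)²⁴`. -/
theorem h61h_qExpansion_Delta :
    qExpansion 1 CuspForm.discriminant =
      PowerSeries.X * PowerSeries.map (Int.castRingHom ℂ) dedekindEtaUnit := by
  have hF : AnalyticAt ℂ (fun q : ℂ => ∏' n : ℕ, (1 - q ^ (n + 1))) 0 :=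
    ModularForm.differentiableOn_tprod_one_sub_pow.analyticAt aj5_ball_mem_nhds
  have hP : DifferentiableOn ℂ (fun q : ℂ => (∏' n : ℕ, (1 - q ^ (n + 1))) ^ 24)
      (Metric.ball 0 1) := ModularForm.differentiableOn_tprod_one_sub_pow.fun_pow 24
  have hg : DifferentiableOn ℂ (fun q : ℂ => q * (∏' n : ℕ, (1 - q ^ (n + 1))) ^ 24)
      (Metric.ball 0 1) := differentiableOn_id.fun_mul hP
  have hts : aj5_ts (fun q : ℂ => q * (∏' n : ℕ, (1 - q ^ (n + 1))) ^ 24) =
      PowerSeries.X * PowerSeries.map (Int.castRingHom ℂ) dedekindEtaUnit := by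
    rw [aj5_ts_mul (f := fun q : ℂ => q) (g := fun q : ℂ => (∏' n : ℕ, (1 - q ^ (n + 1))) ^ 24)
      analyticAt_id (hP.analyticAt aj5_ball_mem_nhds), h61h_ts_id, aj5_ts_pow hF, aj5_ts_tprod,
      dedekindEtaUnit, map_pow]
  ext n
  rw [← hts]
  refine (ModularFormClass.qExpansion_coeff_unique
    (c := fun m => PowerSeries.coeff m
      (aj5_ts (fun q : ℂ => q * (∏' n : ℕ, (1 - q ^ (n + 1))) ^ 24)))
    one_pos one_mem_strictPeriods_SL
    (f := CuspForm.discriminant) (fun τ => ?_) n).symm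
  have hq : ‖Function.Periodic.qParam 1 (τ : ℂ)‖ < 1 :=
    Function.Periodic.norm_qParam_lt_one one_pos τ.im_pos
  have hΔ : ModularForm.discriminant τ = Function.Periodic.qParam 1 τ *
      (∏' n : ℕ, (1 - Function.Periodic.qParam 1 (τ : ℂ) ^ (n + 1))) ^ 24 := by
    rw [ModularForm.discriminant_eq_q_prod, (ModularForm.multipliable_one_sub_pow hq).tprod_pow]
  have h := aj5_hasSum_ts hg hq
  simp only [smul_eq_mul]
  rw [CuspForm.coe_discriminant, hΔ]
  exact h

theorem h61h_Delta_eq : sturmDelta = PowerSeries.X * dedekindEtaUnit := by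
  apply h61h_map_injective
  rw [← sturm_delta_qExpansion, h61h_qExpansion_Delta, map_mul, PowerSeries.map_X]

/-! ### The identities for the integral series of `q h` -/

/-- The integral power series `q h = ∏ ((1 - qⁿ)/(1 - q²ⁿ))²⁴`. -/
def h61h_w : PowerSeries ℤ :=
  dedekindEtaUnit * PowerSeries.expand 2 two_ne_zero dedekindEtaUnitInv

/-- The integral power series `(q h)⁻¹`. -/
def h61h_wInv : PowerSeries ℤ :=
  dedekindEtaUnitInv * PowerSeries.expand 2 two_ne_zero dedekindEtaUnit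

theorem h61h_expand_unit :
    PowerSeries.expand 2 two_ne_zero dedekindEtaUnit *
      PowerSeries.expand 2 two_ne_zero dedekindEtaUnitInv = 1 := by
  rw [← map_mul, dedekindEtaUnit_mul_inv, map_one]

theorem h61h_w_mul_wInv : h61h_w * h61h_wInv = 1 := by
  unfold h61h_w h61h_wInv
  linear_combination (PowerSeries.expand 2 two_ne_zero dedekindEtaUnit *
    PowerSeries.expand 2 two_ne_zero dedekindEtaUnitInv) * dedekindEtaUnit_mul_inv +
    h61h_expand_unit

theorem h61h_constantCoeff_w : PowerSeries.constantCoeff h61h_w = 1 := by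
  rw [h61h_w, map_mul, PowerSeries.constantCoeff_expand, constantCoeff_dedekindEtaUnit,
    constantCoeff_dedekindEtaUnitInv, one_mul]

/-- Both identities, in the shape `A³ u u₂ = (u + c q u₂)³`. -/
theorem h61h_cancel (A : PowerSeries ℤ) (c : PowerSeries ℤ)
    (h : A ^ 3 * (sturmDelta * PowerSeries.expand 2 two_ne_zero sturmDelta) =
      (sturmDelta + c * PowerSeries.expand 2 two_ne_zero sturmDelta) ^ 3) :
    A ^ 3 * (dedekindEtaUnit * PowerSeries.expand 2 two_ne_zero dedekindEtaUnit) =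
      (dedekindEtaUnit + c * PowerSeries.X *
        PowerSeries.expand 2 two_ne_zero dedekindEtaUnit) ^ 3 := by
  rw [h61h_Delta_eq, map_mul, PowerSeries.expand_X] at h
  refine mul_left_cancel₀ (pow_ne_zero 3 (PowerSeries.X_ne_zero (R := ℤ))) ?_
  linear_combination h

theorem h61h_Z_aux (A : PowerSeries ℤ) (c : PowerSeries ℤ)
    (h : A ^ 3 * (dedekindEtaUnit * PowerSeries.expand 2 two_ne_zero dedekindEtaUnit) =
      (dedekindEtaUnit + c * PowerSeries.X *
        PowerSeries.expand 2 two_ne_zero dedekindEtaUnit) ^ 3) :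
    A ^ 3 * (h61h_w * PowerSeries.expand 2 two_ne_zero dedekindEtaUnitInv) =
      (h61h_w + c * PowerSeries.X) ^ 3 := by
  have e1 : h61h_w + c * PowerSeries.X = PowerSeries.expand 2 two_ne_zero dedekindEtaUnitInv *
      (dedekindEtaUnit + c * PowerSeries.X *
        PowerSeries.expand 2 two_ne_zero dedekindEtaUnit) := by
    unfold h61h_w
    linear_combination (-(c * PowerSeries.X)) * h61h_expand_unit
  rw [e1, mul_pow, ← h]
  unfold h61h_w
  linear_combination (-(A ^ 3 * dedekindEtaUnit *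
    PowerSeries.expand 2 two_ne_zero dedekindEtaUnitInv ^ 2)) * h61h_expand_unit

/-- `E₄³ Δ⁻¹ q · (q h)² = (q h + 256 q)³`. -/
theorem h61h_Z1 :
    jNum * h61h_w ^ 2 = (h61h_w + 256 * PowerSeries.X) ^ 3 := by
  have h := h61h_Z_aux eisenstein4 256 (h61h_cancel eisenstein4 256
    (by rw [← h61h_E4_eq]; exact h61h_identity_one))
  rw [← h]
  unfold jNum h61h_w
  linear_combination (eisenstein4 ^ 3 * dedekindEtaUnit *
    PowerSeries.expand 2 two_ne_zero dedekindEtaUnitInv ^ 2) * dedekindEtaUnit_mul_inv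

/-- `E₄(q²)³ Δ(q²)⁻¹ q² · (q h) = (q h + 16 q)³`. -/
theorem h61h_Z2 :
    PowerSeries.expand 2 two_ne_zero jNum * h61h_w = (h61h_w + 16 * PowerSeries.X) ^ 3 := by
  have h := h61h_Z_aux (PowerSeries.expand 2 two_ne_zero eisenstein4) 16
    (h61h_cancel (PowerSeries.expand 2 two_ne_zero eisenstein4) 16
      (by rw [← h61h_E4_eq]; exact h61h_identity_two))
  rw [← h]
  unfold jNum
  rw [map_mul, map_pow]
  ring

/-! ### Laurent series over a commutative ring -/

section Ring

variable (S : Type*) [CommRing S]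

/-- The ring homomorphism `ℤ⟦q⟧ → S((q))`. -/
def h61h_iota : PowerSeries ℤ →+* LaurentSeries S :=
  (HahnSeries.ofPowerSeries ℤ S).comp (PowerSeries.map (Int.castRingHom S))

theorem h61h_iota_apply (g : PowerSeries ℤ) :
    h61h_iota S g = HahnSeries.ofPowerSeries ℤ S (g.map (Int.castRingHom S)) := rfl

theorem h61h_iota_coeff_nat (g : PowerSeries ℤ) (n : ℕ) :
    (h61h_iota S g).coeff (n : ℤ) = ((PowerSeries.coeff n g : ℤ) : S) := by
  rw [h61h_iota_apply, HahnSeries.ofPowerSeries_apply_coeff, PowerSeries.coeff_map, eq_intCast]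

theorem h61h_iota_coeff_neg (g : PowerSeries ℤ) {k : ℤ} (hk : k < 0) :
    (h61h_iota S g).coeff k = 0 :=
  ofPowerSeries_coeff_of_neg _ hk

theorem h61h_iota_X : h61h_iota S PowerSeries.X = HahnSeries.single (1 : ℤ) (1 : S) := by
  rw [h61h_iota_apply, PowerSeries.map_X, HahnSeries.ofPowerSeries_X]

theorem h61h_single_mul_iota_X :
    (HahnSeries.single (-1 : ℤ) (1 : S) : LaurentSeries S) * h61h_iota S PowerSeries.X = 1 := by
  rw [h61h_iota_X, HahnSeries.single_mul_single]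
  simp

theorem h61h_qExpand_iota (N : ℕ) [NeZero N] (g : PowerSeries ℤ) :
    qExpand S N (h61h_iota S g) = h61h_iota S (PowerSeries.expand N (NeZero.ne N) g) := by
  ext k
  have hN : (0 : ℤ) < (N : ℤ) := by exact_mod_cast Nat.pos_of_ne_zero (NeZero.ne N)
  by_cases hk : (N : ℤ) ∣ k
  · obtain ⟨m, rfl⟩ := hk
    rw [qExpand_coeff_mul]
    rcases lt_or_ge m 0 with hm | hm
    · rw [h61h_iota_coeff_neg S g hm, h61h_iota_coeff_neg S _ (mul_neg_of_pos_of_neg hN hm)]
    · obtain ⟨n, rfl⟩ := Int.eq_ofNat_of_zero_le hm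
      rw [h61h_iota_coeff_nat, show ((N : ℤ) * ((n : ℕ) : ℤ)) = ((N * n : ℕ) : ℤ) by push_cast; rfl,
        h61h_iota_coeff_nat, PowerSeries.coeff_expand_mul]
  · rw [qExpand_coeff_of_not_dvd N _ hk]
    rcases lt_or_ge k 0 with hm | hm
    · rw [h61h_iota_coeff_neg S _ hm]
    · obtain ⟨n, rfl⟩ := Int.eq_ofNat_of_zero_le hm
      have hn : ¬ N ∣ n := fun h => hk (Int.natCast_dvd_natCast.mpr h)
      rw [h61h_iota_coeff_nat, PowerSeries.coeff_expand_of_not_dvd N (NeZero.ne N) g hn,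
        Int.cast_zero]

theorem h61h_coeffMap_iota {R : Type*} [CommRing R] (f : R →+* S) (g : PowerSeries ℤ) :
    coeffMap f (h61h_iota R g) = h61h_iota S g := by
  ext k
  rw [coeffMap_coeff]
  rcases lt_or_ge k 0 with hk | hk
  · rw [h61h_iota_coeff_neg R g hk, h61h_iota_coeff_neg S g hk, map_zero]
  · obtain ⟨n, rfl⟩ := Int.eq_ofNat_of_zero_le hk
    rw [h61h_iota_coeff_nat, h61h_iota_coeff_nat, map_intCast]

/-- The level `2` Hauptmodul `h = Δ(q)/Δ(q²) = q⁻¹ ∏ ((1 - qⁿ)/(1 - q²ⁿ))²⁴` over `S`. -/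
def h61h_hS : LaurentSeries S :=
  HahnSeries.single (-1 : ℤ) 1 * h61h_iota S h61h_w

/-- Its inverse `q ∏ ((1 - q²ⁿ)/(1 - qⁿ))²⁴`. -/
def h61h_hSInv : LaurentSeries S :=
  h61h_iota S PowerSeries.X * h61h_iota S h61h_wInv

theorem h61h_hS_mul_inv : h61h_hS S * h61h_hSInv S = 1 := by
  have h1 := h61h_single_mul_iota_X S
  have h2 : h61h_iota S h61h_w * h61h_iota S h61h_wInv = 1 := by
    rw [← map_mul, h61h_w_mul_wInv, map_one]
  unfold h61h_hS h61h_hSInv
  linear_combination (h61h_iota S h61h_w * h61h_iota S h61h_wInv) * h1 + h2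

theorem h61h_hS_mul_iota_X : h61h_hS S * h61h_iota S PowerSeries.X = h61h_iota S h61h_w := by
  unfold h61h_hS
  linear_combination (h61h_iota S h61h_w) * h61h_single_mul_iota_X S

theorem h61h_jqModC_eq :
    jqModC S = HahnSeries.single (-1 : ℤ) 1 * h61h_iota S jNum := rfl

theorem h61h_coeffMap_hS {R : Type*} [CommRing R] (f : R →+* S) :
    coeffMap f (h61h_hS R) = h61h_hS S := by
  rw [h61h_hS, map_mul, coeffMap_single, map_one, h61h_coeffMap_iota, h61h_hS]

theorem h61h_add_const (c : PowerSeries ℤ) (c' : LaurentSeries S) (hc : h61h_iota S c = c') :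
    h61h_hS S + c' =
      HahnSeries.single (-1 : ℤ) 1 * h61h_iota S (h61h_w + c * PowerSeries.X) := by
  rw [map_add, map_mul, hc]
  unfold h61h_hS
  linear_combination (-c') * h61h_single_mul_iota_X S

/-- `j h² = (h + 256)³`. -/
theorem h61h_relS : jqModC S * h61h_hS S ^ 2 = (h61h_hS S + 256) ^ 3 := by
  have hc : h61h_iota S (jNum * h61h_w ^ 2) =
      h61h_iota S (h61h_w + 256 * PowerSeries.X) ^ 3 := by
    rw [h61h_Z1, map_pow]
  rw [h61h_add_const S 256 256 (map_ofNat _ 256), mul_pow, ← hc, map_mul,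
    map_pow, h61h_jqModC_eq, h61h_hS]
  ring

/-- `j(q²) h = (h + 16)³`. -/
theorem h61h_rel2S : qExpand S 2 (jqModC S) * h61h_hS S = (h61h_hS S + 16) ^ 3 := by
  have e : qExpand S 2 (jqModC S) =
      HahnSeries.single (-1 : ℤ) 1 ^ 2 *
        h61h_iota S (PowerSeries.expand 2 two_ne_zero jNum) := by
    rw [h61h_jqModC_eq, map_mul, qExpand_single, h61h_qExpand_iota, HahnSeries.single_pow]
    simp
  have hc : h61h_iota S (PowerSeries.expand 2 two_ne_zero jNum * h61h_w) =
      h61h_iota S (h61h_w + 16 * PowerSeries.X) ^ 3 := by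
    rw [h61h_Z2, map_pow]
  rw [h61h_add_const S 16 16 (map_ofNat _ 16), mul_pow, ← hc, map_mul, e,
    h61h_hS]
  ring

end Ring

/-! ### Over a field: `h` lies in the formal function field of level `2` -/

section Field

variable (K : Type*) [Field K]

theorem h61h_hS_ne_zero : h61h_hS K ≠ 0 :=
  left_ne_zero_of_mul_eq_one (h61h_hS_mul_inv K)

/-- A monic polynomial of degree `6` in `h` does not vanish (`h` has a simple pole). -/
theorem h61h_P_ne_zero :
    h61h_hS K ^ 6 + 96 * h61h_hS K ^ 5 + 198960 * h61h_hS K ^ 4 + 9451775 * h61h_hS K ^ 3 +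
      814940160 * h61h_hS K ^ 2 + 1610612736 * h61h_hS K + 68719476736 ≠ 0 := by
  intro h0
  have hT := h61h_hS_mul_iota_X K
  have hι : h61h_iota K (h61h_w ^ 6 + 96 * h61h_w ^ 5 * PowerSeries.X +
      198960 * h61h_w ^ 4 * PowerSeries.X ^ 2 + 9451775 * h61h_w ^ 3 * PowerSeries.X ^ 3 +
      814940160 * h61h_w ^ 2 * PowerSeries.X ^ 4 + 1610612736 * h61h_w * PowerSeries.X ^ 5 +
      68719476736 * PowerSeries.X ^ 6) = 0 := by
    simp only [map_add, map_mul, map_pow, map_ofNat]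
    rw [← hT]
    linear_combination (h61h_iota K PowerSeries.X ^ 6) * h0
  have hc := h61h_iota_coeff_nat K (h61h_w ^ 6 + 96 * h61h_w ^ 5 * PowerSeries.X +
      198960 * h61h_w ^ 4 * PowerSeries.X ^ 2 + 9451775 * h61h_w ^ 3 * PowerSeries.X ^ 3 +
      814940160 * h61h_w ^ 2 * PowerSeries.X ^ 4 + 1610612736 * h61h_w * PowerSeries.X ^ 5 +
      68719476736 * PowerSeries.X ^ 6) 0
  rw [hι, PowerSeries.coeff_zero_eq_constantCoeff] at hc
  simp [h61h_constantCoeff_w] at hc

/-- Over a field in which `2 ≠ 0`, the Hauptmodul `h` lies in `K(j(q), j(q²))`. -/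
theorem h61h_mem_fullC (h2 : (2 : K) ≠ 0) (N : ℕ) [NeZero N] (hN : 2 ∣ N) :
    h61h_hS K ∈ modularFunctionFieldFullC K N := by
  have hj : jqModC K ∈ modularFunctionFieldFullC K N := jqModC_mem_full K N
  have hj2 : qExpand K 2 (jqModC K) ∈ modularFunctionFieldFullC K N := jqModCd_mem_full K N hN
  have r1 := h61h_relS K
  have r2 := h61h_rel2S K
  have hne := h61h_hS_ne_zero K
  have hP := h61h_P_ne_zero K
  generalize h61h_hS K = h at *
  generalize qExpand K 2 (jqModC K) = j₂ at *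
  generalize jqModC K = j at *
  generalize modularFunctionFieldFullC K N = F at *
  have h2' : (2 : LaurentSeries K) ≠ 0 := by
    have := (map_ne_zero (algebraMap K (LaurentSeries K))).mpr h2
    rwa [map_ofNat] at this
  -- the linear relation for `h` over `K(j, j₂)`
  have hlin : ((720 - j) * 16773120 - (720 - j) ^ 2 * (768 - j₂) - (195840 + j₂) ^ 2 +
      48 * (720 - j) * (195840 + j₂)) * h =
      4096 * (720 - j) ^ 2 + ((195840 + j₂) - 48 * (720 - j)) * 16773120 := by
    linear_combination (-((720 - j) * h + 48 * (720 - j) - (195840 + j₂))) * r1 +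
      ((720 - j) ^ 2 + (720 - j) * h + 48 * (720 - j) - (195840 + j₂)) * r2
  -- its leading coefficient in terms of `h`
  have hD : ((720 - j) * 16773120 - (720 - j) ^ 2 * (768 - j₂) - (195840 + j₂) ^ 2 +
      48 * (720 - j) * (195840 + j₂)) * h ^ 5 =
      2 ^ 24 * (h ^ 6 + 96 * h ^ 5 + 198960 * h ^ 4 + 9451775 * h ^ 3 +
        814940160 * h ^ 2 + 1610612736 * h + 68719476736) := by
    have e1 : j = (h + 256) ^ 3 / h ^ 2 := by
      field_simp
      linear_combination r1
    have e2 : j₂ = (h + 16) ^ 3 / h := by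
      field_simp
      linear_combination r2
    rw [e1, e2]
    field_simp
    ring
  have hD0 : ((720 - j) * 16773120 - (720 - j) ^ 2 * (768 - j₂) - (195840 + j₂) ^ 2 +
      48 * (720 - j) * (195840 + j₂)) ≠ 0 := by
    intro h0
    rw [h0, zero_mul] at hD
    exact mul_ne_zero (pow_ne_zero 24 h2') hP hD.symm
  have hval : h = (4096 * (720 - j) ^ 2 + ((195840 + j₂) - 48 * (720 - j)) * 16773120) /
      ((720 - j) * 16773120 - (720 - j) ^ 2 * (768 - j₂) - (195840 + j₂) ^ 2 +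
        48 * (720 - j) * (195840 + j₂)) := by
    rw [eq_div_iff hD0]
    linear_combination hlin
  have ha : 720 - j ∈ F := F.sub_mem (ofNat_mem F 720) hj
  have hb : 195840 + j₂ ∈ F := F.add_mem (ofNat_mem F 195840) hj2
  have hk : 768 - j₂ ∈ F := F.sub_mem (ofNat_mem F 768) hj2
  rw [hval]
  exact F.div_mem
    (F.add_mem (F.mul_mem (ofNat_mem F 4096) (pow_mem ha 2))
      (F.mul_mem (F.sub_mem hb (F.mul_mem (ofNat_mem F 48) ha)) (ofNat_mem F 16773120)))
    (F.add_mem (F.sub_mem (F.sub_mem (F.mul_mem ha (ofNat_mem F 16773120))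
      (F.mul_mem (pow_mem ha 2) hk)) (pow_mem hb 2))
      (F.mul_mem (F.mul_mem (ofNat_mem F 48) ha) hb))

end Field

/-! ### The `ℚ̄`-forms -/

/-- The level `2` Hauptmodul as an element of `ℚ̄((q))`. -/
def h61h_hbar : LaurentSeries Kbar := h61h_hS Kbar

theorem h61h_hbar_eq : h61h_hbar = coeffEmb Kbar (h61h_hS ℚ) :=
  (h61h_coeffMap_hS Kbar (algebraMap ℚ Kbar)).symm

theorem h61h_JJ (d : ℕ) [NeZero d] : JJ d = qExpand Kbar d (jqModC Kbar) := by
  rw [JJ_of_neZero, coeffEmb, coeffMap_qExpand, ← jqModC_rat, coeffMap_jqModC]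

/-- `j h² = (h + 256)³` in `ℚ̄((q))`. -/
theorem h61h_rel : JJ 1 * h61h_hbar ^ 2 = (h61h_hbar + 256) ^ 3 := by
  rw [h61h_JJ 1, qExpand_one_apply]
  exact h61h_relS Kbar

/-- `j(q²) h = (h + 16)³` in `ℚ̄((q))`. -/
theorem h61h_rel2 : JJ 2 * h61h_hbar = (h61h_hbar + 16) ^ 3 := by
  rw [h61h_JJ 2]
  exact h61h_rel2S Kbar

/-- The Hauptmodul lies in the formal function field of every even level. -/
theorem h61h_mem (N : ℕ) [NeZero N] (hN : 2 ∣ N) : h61h_hbar ∈ modularFunctionFieldBar N := by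
  rw [h61h_hbar_eq]
  exact coeffEmb_mem_laurentBaseChange Kbar (h61h_mem_fullC ℚ two_ne_zero N hN)

/-- Consumer form: the Hauptmodul as an element of the formal function field of an even level,
with both relations. -/
theorem h61h_exists (N : ℕ) [NeZero N] (hN : 2 ∣ N) :
    ∃ h : ↥(modularFunctionFieldBar N), (h : LaurentSeries Kbar) = h61h_hbar ∧
      (⟨JJ 1, asmAb_JJ_mem N 1 (one_dvd N)⟩ : ↥(modularFunctionFieldBar N)) * h ^ 2 =
        (h + 256) ^ 3 ∧
      (⟨JJ 2, asmAb_JJ_mem N 2 hN⟩ : ↥(modularFunctionFieldBar N)) * h = (h + 16) ^ 3 :=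
  ⟨⟨h61h_hbar, h61h_mem N hN⟩, rfl, Subtype.ext h61h_rel, Subtype.ext h61h_rel2⟩

end

end Fermat.Agent.S18
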