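import Mathlib
import Fermat.Agent.S18.Haupt2
import Fermat.Agent.S18.Haupt2_61

/-!
# S18, row B1: the two copies of the level 2 Hauptmodul agree (helper61)

`h70_h2 R = h61h_hS R` for every commutative ring `R`; consequently the facts proved for either
object hold for both.  In particular, over a field `K` in which `2 ≠ 0` (any characteristic),
`h70_h2 K ∈ modularFunctionFieldFullC K N` for `2 ∣ N`.

All names are prefixed `h61h_`.
-/

set_option autoImplicit false

open ModularCurve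

namespace Fermat.Agent.S18

open Fermat.Agent.S24 Fermat.Agent.S28

/-- The two definitions of the level `2` Hauptmodul agree. -/
theorem h61h_h70_eq (R : Type*) [CommRing R] : h70_h2 R = h61h_hS R := by
  have e1 : DeltaSer R = HahnSeries.single (1 : ℤ) 1 * h61h_iota R dedekindEtaUnit := rfl
  have e2 : DeltaInv R = HahnSeries.single (-1 : ℤ) 1 * h61h_iota R dedekindEtaUnitInv := rfl
  have hs : (HahnSeries.single (1 : ℤ) (1 : R) : LaurentSeries R) *
      HahnSeries.single (((2 : ℕ) : ℤ) * (-1)) 1 = HahnSeries.single (-1 : ℤ) 1 := by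
    rw [HahnSeries.single_mul_single]
    norm_num
  rw [h70_h2, qE_of_neZero, e1, e2, map_mul, qExpand_single, h61h_qExpand_iota, h61h_hS, h61h_w,
    map_mul]
  linear_combination (h61h_iota R dedekindEtaUnit *
    h61h_iota R (PowerSeries.expand 2 two_ne_zero dedekindEtaUnitInv)) * hs

/-- Over a field in which `2 ≠ 0` (any characteristic), the level `2` Hauptmodul lies in the
formal function field of every even level. -/
theorem h61h_h70_mem_fullC (K : Type*) [Field K] (h2 : (2 : K) ≠ 0) (N : ℕ) [NeZero N]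
    (hN : 2 ∣ N) : h70_h2 K ∈ modularFunctionFieldFullC K N := by
  rw [h61h_h70_eq]
  exact h61h_mem_fullC K h2 N hN

/-- The inverse of the Hauptmodul lies there too. -/
theorem h61h_h70_inv_mem_fullC (K : Type*) [Field K] (h2 : (2 : K) ≠ 0) (N : ℕ) [NeZero N]
    (hN : 2 ∣ N) : (h70_h2 K)⁻¹ ∈ modularFunctionFieldFullC K N :=
  inv_mem (h61h_h70_mem_fullC K h2 N hN)

theorem h61h_hSInv_eq_inv (K : Type*) [Field K] : h61h_hSInv K = (h61h_hS K)⁻¹ :=
  eq_inv_of_mul_eq_one_right (h61h_hS_mul_inv K)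

/-- `ℚ̄`-form for `h70_h2`. -/
theorem h61h_h70_mem_bar (N : ℕ) [NeZero N] (hN : 2 ∣ N) :
    h70_h2 Kbar ∈ modularFunctionFieldBar N := by
  rw [h61h_h70_eq]
  exact h61h_mem N hN

theorem h61h_h70_rel_bar (N : ℕ) [NeZero N] (hN : 2 ∣ N) :
    (⟨JJ 1, asmAb_JJ_mem N 1 (one_dvd N)⟩ : ↥(modularFunctionFieldBar N)) *
        (⟨h70_h2 Kbar, h61h_h70_mem_bar N hN⟩ : ↥(modularFunctionFieldBar N)) ^ 2 =
      ((⟨h70_h2 Kbar, h61h_h70_mem_bar N hN⟩ : ↥(modularFunctionFieldBar N)) + 256) ^ 3 := by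
  apply Subtype.ext
  show JJ 1 * h70_h2 Kbar ^ 2 = (h70_h2 Kbar + 256) ^ 3
  rw [h61h_h70_eq]
  exact h61h_rel

end Fermat.Agent.S18
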