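import Mathlib
import Fermat.Agent.S18.Haupt2R70
import Fermat.Agent.S18.Haupt2R_34
import Fermat.Agent.S18.Haupt2_61

/-!
# The three level 2 Hauptmodul objects on main coincide (S18, helper70)

`h70_h2 R` (`Haupt2.lean`, `= DeltaSer R * qE R 2 (DeltaInv R)`), `h34_h2R R` (`Haupt2R_34.lean`)
and `h61h_hS R` (`Haupt2_61.lean`) are the same Laurent series `Δ(q)/Δ(q²)` over every commutative
ring `R`; so are their inverses.  Consumers may therefore mix the three packages freely.
-/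

set_option autoImplicit false

open ModularCurve

namespace Fermat.Agent.S18

theorem h70_u2_eq_h61 : h70_u2 = h61h_w := rfl

theorem h70_v2_eq_h61 : h70_v2 = h61h_wInv := rfl

theorem h70_u2_eq_h34 : h70_u2 = h34_u2 := by
  have h1 : h34_b2' * PowerSeries.expand 2 two_ne_zero dedekindEtaUnitInv = 1 := by
    rw [h34_b2', ← map_pow, ← dedekindEtaUnit, ← map_mul, dedekindEtaUnit_mul_inv, map_one]
  have h2 := h34_b2'_mul_inv
  have h3 : PowerSeries.expand 2 two_ne_zero dedekindEtaUnitInv =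
      PowerSeries.invOfUnit h34_b2' 1 := by
    calc PowerSeries.expand 2 two_ne_zero dedekindEtaUnitInv
        = PowerSeries.expand 2 two_ne_zero dedekindEtaUnitInv *
            (h34_b2' * PowerSeries.invOfUnit h34_b2' 1) := by rw [h2, mul_one]
      _ = (h34_b2' * PowerSeries.expand 2 two_ne_zero dedekindEtaUnitInv) *
            PowerSeries.invOfUnit h34_b2' 1 := by ring
      _ = PowerSeries.invOfUnit h34_b2' 1 := by rw [h1, one_mul]
  rw [h70_u2, h34_u2, h34_a2, h3, dedekindEtaUnit]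

variable (R : Type*) [CommRing R]

/-- `h70_h2 = h61h_hS`. -/
theorem h70_h2_eq_h61 : h70_h2 R = h61h_hS R := by
  rw [h70_h2_eq_pole, h61h_hS, h61h_iota_apply, h70_u2_eq_h61]

/-- `h70_h2 = h34_h2R`. -/
theorem h70_h2_eq_h34 : h70_h2 R = h34_h2R R := by
  rw [h70_h2_eq_pole, h34_h2R, h34_iotaR_apply, h70_u2_eq_h34]

/-- `h34_h2R = h61h_hS`. -/
theorem h34_h2R_eq_h61 : h34_h2R R = h61h_hS R := by
  rw [← h70_h2_eq_h34, h70_h2_eq_h61]

/-- The inverses coincide as well. -/
theorem h70_h2inv_eq_h34 : h70_h2inv R = h34_h2Rinv R := by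
  have h1 := h70_h2_mul_h2inv R
  have h2 := h34_h2R_mul_inv R
  rw [← h70_h2_eq_h34] at h2
  calc h70_h2inv R = h70_h2inv R * (h70_h2 R * h34_h2Rinv R) := by rw [h2, mul_one]
    _ = (h70_h2 R * h70_h2inv R) * h34_h2Rinv R := by ring
    _ = h34_h2Rinv R := by rw [h1, one_mul]

theorem h70_h2inv_eq_h61 : h70_h2inv R = h61h_hSInv R := by
  have h1 := h70_h2_mul_h2inv R
  have h2 := h61h_hS_mul_inv R
  rw [← h70_h2_eq_h61] at h2
  calc h70_h2inv R = h70_h2inv R * (h70_h2 R * h61h_hSInv R) := by rw [h2, mul_one]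
    _ = (h70_h2 R * h70_h2inv R) * h61h_hSInv R := by ring
    _ = h61h_hSInv R := by rw [h1, one_mul]

/-- Char-`ℓ` membership (helper61's `h61h_mem_fullC`) for helper34's object. -/
theorem h34_h2R_mem_fullC_of_two_ne_zero (K : Type*) [Field K] (h2 : (2 : K) ≠ 0) (M : ℕ)
    [NeZero M] (hM : 2 ∣ M) : h34_h2R K ∈ modularFunctionFieldFullC K M := by
  rw [h34_h2R_eq_h61]
  exact h61h_mem_fullC K h2 M hM

end Fermat.Agent.S18
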