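import Mathlib
import Fermat.Agent.S18.Haupt2R70

/-!
# The level 2 Hauptmodul in the function field, any characteristic `≠ 2` (S18, helper70)

Over a field `K` in which `2 ≠ 0` (for instance the residue field `κ` of a place over an odd
prime `ℓ`), the Hauptmodul `h70_h2 K = Δ(q)/Δ(q²)` lies in `K(j(q), j(q²))`, hence in
`modularFunctionFieldFullC K M` for every `M` divisible by `2`.

Proof: eliminating between `j h² = (h + 256)³` and `j(q²) h = (h + 16)³` gives
`a(j, j₂) · h = b(j, j₂)` with explicit `a, b ∈ ℤ[j, j₂]`, and `b ≠ 0` because its coefficient of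
`q⁻²` is `2²⁴`.

* `h70_h2_linearR`   : the linear relation, over any commutative ring;
* `h70_h2_mem_adjoin_of_two_ne_zero`, `h70_h2_mem_fullC_of_two_ne_zero`,
  `h70_h2inv_mem_fullC_of_two_ne_zero`.
-/

set_option autoImplicit false

open ModularCurve

namespace Fermat.Agent.S18

/-- The linear relation `a(j, j₂) · h = b(j, j₂)`, over any commutative ring. -/
theorem h70_h2_linearR (R : Type*) [CommRing R] :
    (jqModC R ^ 2 * qExpand R 2 (jqModC R) - 768 * jqModC R ^ 2 -
        1488 * (jqModC R * qExpand R 2 (jqModC R)) - 25067520 * jqModC R -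
        qExpand R 2 (jqModC R) ^ 2 + 161280 * qExpand R 2 (jqModC R) - 19906560000) * h70_h2 R =
      4096 * jqModC R ^ 2 + 799211520 * jqModC R + 16773120 * qExpand R 2 (jqModC R) +
        2707292160000 := by
  have H1 := h70_j_mul_h2_sq R
  have H2 := h70_j2_mul_h2' R
  linear_combination
    (-(-48 * jqModC R - qExpand R 2 (jqModC R) - 161280 + (720 - jqModC R) * h70_h2 R)) * H1 +
      (-48 * jqModC R - qExpand R 2 (jqModC R) - 161280 + (720 - jqModC R) ^ 2 +
        (720 - jqModC R) * h70_h2 R) * H2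

/-- The coefficient of `q⁻²` of `b(j, j₂)` is `2²⁴`. -/
theorem h70_b_coeff (R : Type*) [CommRing R] :
    (4096 * jqModC R ^ 2 + 799211520 * jqModC R + 16773120 * qExpand R 2 (jqModC R) +
        2707292160000 : LaurentSeries R).coeff (-2) = (2 : R) ^ 24 := by
  have e1 : (jqModC R ^ 2).coeff (-2 : ℤ) = 1 := by
    have := coeff_jqModC_pow_self R 2
    simpa using this
  have e2 : (jqModC R).coeff (-2 : ℤ) = 0 := by
    have := coeff_jqModC_pow_of_lt R (b := 1) (m := -2) (by norm_num)
    simpa using this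
  have e3 : (qExpand R 2 (jqModC R)).coeff (-2 : ℤ) = 1 := by
    have := qExpand_coeff_mul (R := R) 2 (jqModC R) (-1)
    rw [coeff_jqModC_neg_one] at this
    simpa using this
  have c1 : (4096 : LaurentSeries R) = HahnSeries.C (4096 : R) :=
    (map_ofNat (HahnSeries.C (Γ := ℤ) (R := R)) 4096).symm
  have c2 : (799211520 : LaurentSeries R) = HahnSeries.C (799211520 : R) :=
    (map_ofNat (HahnSeries.C (Γ := ℤ) (R := R)) 799211520).symm
  have c3 : (16773120 : LaurentSeries R) = HahnSeries.C (16773120 : R) :=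
    (map_ofNat (HahnSeries.C (Γ := ℤ) (R := R)) 16773120).symm
  have c4 : (2707292160000 : LaurentSeries R) = HahnSeries.C (2707292160000 : R) :=
    (map_ofNat (HahnSeries.C (Γ := ℤ) (R := R)) 2707292160000).symm
  rw [c1, c2, c3, c4]
  simp only [HahnSeries.coeff_add, HahnSeries.C_mul_eq_smul, HahnSeries.coeff_smul, e1, e2, e3,
    smul_eq_mul]
  rw [HahnSeries.C_apply, HahnSeries.coeff_single_of_ne (by norm_num)]
  norm_num

section Field

variable (K : Type*) [Field K]

/-- `h ∈ K(j(q), j(q²))` over every field in which `2 ≠ 0`. -/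
theorem h70_h2_mem_adjoin_of_two_ne_zero (h2 : (2 : K) ≠ 0) : h70_h2 K ∈
    IntermediateField.adjoin K ({jqModC K, qExpand K 2 (jqModC K)} : Set (LaurentSeries K)) := by
  have hj : jqModC K ∈ IntermediateField.adjoin K
      ({jqModC K, qExpand K 2 (jqModC K)} : Set (LaurentSeries K)) :=
    IntermediateField.subset_adjoin K _ (Set.mem_insert _ _)
  have hj2 : qExpand K 2 (jqModC K) ∈ IntermediateField.adjoin K
      ({jqModC K, qExpand K 2 (jqModC K)} : Set (LaurentSeries K)) :=
    IntermediateField.subset_adjoin K _ (Set.mem_insert_of_mem _ rfl)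
  generalize IntermediateField.adjoin K
    ({jqModC K, qExpand K 2 (jqModC K)} : Set (LaurentSeries K)) = F at hj hj2 ⊢
  have hlin := h70_h2_linearR K
  have hbc := h70_b_coeff K
  set a : LaurentSeries K := jqModC K ^ 2 * qExpand K 2 (jqModC K) - 768 * jqModC K ^ 2 -
    1488 * (jqModC K * qExpand K 2 (jqModC K)) - 25067520 * jqModC K -
    qExpand K 2 (jqModC K) ^ 2 + 161280 * qExpand K 2 (jqModC K) - 19906560000 with ha
  set b : LaurentSeries K := 4096 * jqModC K ^ 2 + 799211520 * jqModC K +
    16773120 * qExpand K 2 (jqModC K) + 2707292160000 with hb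
  have hb0 : b ≠ 0 := by
    intro h0
    rw [h0, HahnSeries.coeff_zero] at hbc
    exact pow_ne_zero 24 h2 hbc.symm
  have ha0 : a ≠ 0 := by
    intro h0
    rw [h0, zero_mul] at hlin
    exact hb0 hlin.symm
  have hamem : a ∈ F := by
    rw [ha]
    exact sub_mem (add_mem (sub_mem (sub_mem (sub_mem (sub_mem (mul_mem (pow_mem hj 2) hj2)
      (mul_mem (ofNat_mem _ 768) (pow_mem hj 2))) (mul_mem (ofNat_mem _ 1488) (mul_mem hj hj2)))
      (mul_mem (ofNat_mem _ 25067520) hj)) (pow_mem hj2 2)) (mul_mem (ofNat_mem _ 161280) hj2))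
      (ofNat_mem _ 19906560000)
  have hbmem : b ∈ F := by
    rw [hb]
    exact add_mem (add_mem (add_mem (mul_mem (ofNat_mem _ 4096) (pow_mem hj 2))
      (mul_mem (ofNat_mem _ 799211520) hj)) (mul_mem (ofNat_mem _ 16773120) hj2))
      (ofNat_mem _ 2707292160000)
  have hh : h70_h2 K = b / a := by
    rw [eq_div_iff ha0, mul_comm]
    exact hlin
  rw [hh]
  exact div_mem hbmem hamem

/-- `h` lies in the function field of `X₀(M)` over `K` whenever `2 ∣ M` and `2 ≠ 0` in `K`
(any characteristic `≠ 2`). -/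
theorem h70_h2_mem_fullC_of_two_ne_zero (h2 : (2 : K) ≠ 0) (M : ℕ) [NeZero M] (hM : 2 ∣ M) :
    h70_h2 K ∈ modularFunctionFieldFullC K M := by
  have hle : IntermediateField.adjoin K
      ({jqModC K, qExpand K 2 (jqModC K)} : Set (LaurentSeries K)) ≤
        modularFunctionFieldFullC K M := by
    rw [IntermediateField.adjoin_le_iff]
    rintro x (rfl | rfl)
    · exact jqModC_mem_full K M
    · exact jqModCd_mem_full K M hM
  exact hle (h70_h2_mem_adjoin_of_two_ne_zero K h2)

theorem h70_h2inv_mem_fullC_of_two_ne_zero (h2 : (2 : K) ≠ 0) (M : ℕ) [NeZero M] (hM : 2 ∣ M) :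
    h70_h2inv K ∈ modularFunctionFieldFullC K M := by
  rw [h70_h2inv_eq_inv]
  exact inv_mem (h70_h2_mem_fullC_of_two_ne_zero K h2 M hM)

end Field

end Fermat.Agent.S18
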