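import Mathlib
import Fermat.Agent.S16.LevelOneSturm
import Fermat.Agent.S16.TwistLemma
import Fermat.Agent.S16.KeySmallSturm
import Fermat.Agent.S18.Haupt3Trunc
import Fermat.Prelude.Thm_ModularForm_sturm_bound_Gamma0
import Fermat.Prelude.Thm_CongruenceSubgroup_one_mem_strictPeriods_Gamma0

/-!
# S18 (row B1, helper66): the two level-2 Hauptmodul identities, Sturm side

With `A = 1 + 240 ∑ σ₃(n) qⁿ` (`= E₄`), `D = sturmDelta` (`= Δ`) and `V₂ f = f(q²)`:

* `h66_main_sturm`   : `A³ · D · V₂D = (D + 256 · V₂D)³`      (`⇔ j h² = (h + 256)³`);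
* `h66_fricke_sturm` : `(V₂A)³ · D · V₂D = (D + 16 · V₂D)³`   (`⇔ j(q²) h = (h + 16)³`),

where `h = Δ(q)/Δ(q²)`.  Both are identities in `M₃₆(Γ₀(2))`; the Sturm bound is `36 · 3 / 12 = 9`
and the coefficients `0..9` are checked by kernel evaluation on truncations.
-/

set_option autoImplicit false

open UpperHalfPlane ModularForm CongruenceSubgroup
open scoped MatrixGroups ModularForm

namespace Fermat.Agent.S18

open Fermat.Agent.S16

/-! ### Coefficient tables -/

/-- Computable `σ_k` table entry (with value `0` at `n = 0`). -/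
def h66_sig (k n : ℕ) : ℤ := if n = 0 then 0 else ((∑ d ∈ n.divisors, d ^ k : ℕ) : ℤ)

theorem h66_tr_sturmA (N : ℕ) : h34_tr N sturmA = (List.range N).map (h66_sig 3) := by
  unfold h34_tr
  refine List.map_congr_left fun n _ => ?_
  simp only [sturmA, PowerSeries.coeff_mk, h66_sig, ArithmeticFunction.sigma_apply]

theorem h66_tr_sturmB (N : ℕ) : h34_tr N sturmB = (List.range N).map (h66_sig 5) := by
  unfold h34_tr
  refine List.map_congr_left fun n _ => ?_
  simp only [sturmB, PowerSeries.coeff_mk, h66_sig, ArithmeticFunction.sigma_apply]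

theorem h66_tr_sturmD (N : ℕ) :
    h34_tr N sturmD = (List.range N).map (fun n => (h66_sig 3 n - h66_sig 5 n) / 12) := by
  unfold h34_tr
  refine List.map_congr_left fun n _ => ?_
  simp only [sturmD, PowerSeries.coeff_mk, h66_sig, ArithmeticFunction.sigma_apply]
  split_ifs <;> simp

theorem h66_sturmDelta_eq :
    sturmDelta = sturmB + (100 : ℤ) • (sturmA * sturmA) + (8000 : ℤ) • (sturmA * sturmA * sturmA)
      - (147 : ℤ) • (sturmB * sturmB) + (5 : ℤ) • sturmD := by
  unfold sturmDelta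
  simp only [zsmul_eq_mul]
  push_cast
  ring

theorem h66_tr_sturmA_ten :
    h34_tr 10 sturmA = [0, 1, 9, 28, 73, 126, 252, 344, 585, 757] := by
  rw [h66_tr_sturmA]; decide +kernel

theorem h66_tr_sturmDelta_ten :
    h34_tr 10 sturmDelta = [0, 1, -24, 252, -1472, 4830, -6048, -16744, 84480, -113643] := by
  rw [h66_sturmDelta_eq]
  simp only [h34_tr_add, h34_tr_sub, h34_tr_smul, h34_tr_mul, h66_tr_sturmA, h66_tr_sturmB,
    h66_tr_sturmD]
  decide +kernel

/-- `h34_Vser` is Mathlib's `PowerSeries.expand`. -/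
theorem h66_Vser_eq_expand (d : ℕ) (hd : d ≠ 0) (f : PowerSeries ℤ) :
    h34_Vser d f = PowerSeries.expand d hd f := by
  ext n
  rw [h34_Vser, PowerSeries.coeff_mk, PowerSeries.coeff_expand]
  simp only [Nat.dvd_iff_mod_eq_zero]

/-! ### The integral series -/

/-- The integral `q`-expansion of `E₄`. -/
noncomputable def h66_A : PowerSeries ℤ := 1 + (240 : ℤ) • sturmA

/-- `f(q) ↦ f(q²)`. -/
noncomputable def h66_V2 (f : PowerSeries ℤ) : PowerSeries ℤ := PowerSeries.expand 2 two_ne_zero f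

theorem h66_V2_eq (f : PowerSeries ℤ) : h66_V2 f = h34_Vser 2 f :=
  (h66_Vser_eq_expand 2 two_ne_zero f).symm

/-- The difference of the two sides of the main identity (products written out). -/
noncomputable def h66_Pmain : PowerSeries ℤ :=
  h66_A * h66_A * h66_A * sturmDelta * h34_Vser 2 sturmDelta
    - (sturmDelta + (256 : ℤ) • h34_Vser 2 sturmDelta)
      * (sturmDelta + (256 : ℤ) • h34_Vser 2 sturmDelta)
      * (sturmDelta + (256 : ℤ) • h34_Vser 2 sturmDelta)

/-- The difference of the two sides of the Fricke companion (products written out). -/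
noncomputable def h66_Pfricke : PowerSeries ℤ :=
  h34_Vser 2 h66_A * h34_Vser 2 h66_A * h34_Vser 2 h66_A * sturmDelta * h34_Vser 2 sturmDelta
    - (sturmDelta + (16 : ℤ) • h34_Vser 2 sturmDelta)
      * (sturmDelta + (16 : ℤ) • h34_Vser 2 sturmDelta)
      * (sturmDelta + (16 : ℤ) • h34_Vser 2 sturmDelta)

theorem h66_tr_Pmain : h34_tr 10 h66_Pmain = List.replicate 10 0 := by
  unfold h66_Pmain h66_A
  simp only [h34_tr_add, h34_tr_sub, h34_tr_smul, h34_tr_mul, h34_tr_one, h34_tr_Vser,
    h66_tr_sturmA_ten, h66_tr_sturmDelta_ten]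
  decide +kernel

theorem h66_tr_Pfricke : h34_tr 10 h66_Pfricke = List.replicate 10 0 := by
  unfold h66_Pfricke h66_A
  simp only [h34_tr_add, h34_tr_sub, h34_tr_smul, h34_tr_mul, h34_tr_one, h34_tr_Vser,
    h66_tr_sturmA_ten, h66_tr_sturmDelta_ten]
  decide +kernel


/-! ### The modular forms -/

noncomputable section

/-- A level-one form, viewed on `Γ₀(2)`. -/
def h66_res {k : ℤ} (g : ModularForm 𝒮ℒ k) : ModularForm (Gamma0 2) k where
  toFun := g
  slash_action_eq' γ hγ := g.slash_action_eq' γ (Subgroup.map_le_range _ _ hγ)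
  holo' := g.holo'
  bdd_at_cusps' hc := g.bdd_at_cusps' (hc.mono (Subgroup.map_le_range _ _))

theorem h66_res_qExpansion {k : ℤ} (g : ModularForm 𝒮ℒ k) :
    qExpansion 1 (h66_res g) = qExpansion 1 g := rfl

/-- `Δ` as a level-one modular form. -/
def h66_DeltaM : ModularForm 𝒮ℒ 12 := CuspForm.toModularFormₗ CuspForm.discriminant

theorem h66_DeltaM_qExpansion :
    qExpansion 1 h66_DeltaM = sturmDelta.map (Int.castRingHom ℂ) :=
  sturm_delta_qExpansion

theorem h66_E4_qExpansion : qExpansion 1 E₄ = h66_A.map (Int.castRingHom ℂ) := by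
  rw [sturm_E4_qExpansion, h66_A]
  simp [zsmul_eq_mul]

theorem h66_map_Vser (f : PowerSeries ℤ) :
    PowerSeries.expand 2 two_ne_zero (f.map (Int.castRingHom ℂ)) =
      (h34_Vser 2 f).map (Int.castRingHom ℂ) := by
  rw [h66_Vser_eq_expand 2 two_ne_zero, PowerSeries.map_expand]

/-- `E₄³ Δ Δ(2τ) - (Δ + 256 Δ(2τ))³` in `M₃₆(Γ₀(2))`. -/
def h66_Fmain : ModularForm (Gamma0 2) 36 :=
  mcast (by norm_num) (((h66_res E₄).pow 3).mul ((h66_res h66_DeltaM).mul (tw_V 2 h66_DeltaM)))
    - mcast (by norm_num) ((h66_res h66_DeltaM + (256 : ℂ) • tw_V 2 h66_DeltaM).pow 3)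

/-- `E₄(2τ)³ Δ Δ(2τ) - (Δ + 16 Δ(2τ))³` in `M₃₆(Γ₀(2))`. -/
def h66_Ffricke : ModularForm (Gamma0 2) 36 :=
  mcast (by norm_num) (((tw_V 2 E₄).pow 3).mul ((h66_res h66_DeltaM).mul (tw_V 2 h66_DeltaM)))
    - mcast (by norm_num) ((h66_res h66_DeltaM + (16 : ℂ) • tw_V 2 h66_DeltaM).pow 3)

theorem h66_Fmain_qExpansion :
    qExpansion 1 h66_Fmain = h66_Pmain.map (Int.castRingHom ℂ) := by
  have hper := CongruenceSubgroup.one_mem_strictPeriods_Gamma0 2
  unfold h66_Fmain h66_Pmain
  rw [FunLike.coe_sub, ModularForm.qExpansion_sub one_pos hper, coe_mcast, coe_mcast,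
    ModularForm.qExpansion_mul one_pos hper, ModularForm.qExpansion_pow one_pos hper,
    ModularForm.qExpansion_mul one_pos hper, ModularForm.qExpansion_pow one_pos hper,
    FunLike.coe_add, ModularForm.qExpansion_add one_pos hper, FunLike.coe_smul,
    ModularForm.qExpansion_smul one_pos hper, h66_res_qExpansion, h66_res_qExpansion,
    tw_V_qExpansion, h66_DeltaM_qExpansion, h66_E4_qExpansion, h66_map_Vser]
  simp only [map_sub, map_mul, map_add, map_zsmul]
  have h256 : ∀ X : PowerSeries ℂ, (256 : ℂ) • X = (256 : ℤ) • X := fun X => by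
    have := Int.cast_smul_eq_zsmul ℂ 256 X
    simpa using this
  rw [h256]
  ring

theorem h66_Ffricke_qExpansion :
    qExpansion 1 h66_Ffricke = h66_Pfricke.map (Int.castRingHom ℂ) := by
  have hper := CongruenceSubgroup.one_mem_strictPeriods_Gamma0 2
  unfold h66_Ffricke h66_Pfricke
  rw [FunLike.coe_sub, ModularForm.qExpansion_sub one_pos hper, coe_mcast, coe_mcast,
    ModularForm.qExpansion_mul one_pos hper, ModularForm.qExpansion_pow one_pos hper,
    ModularForm.qExpansion_mul one_pos hper, ModularForm.qExpansion_pow one_pos hper,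
    FunLike.coe_add, ModularForm.qExpansion_add one_pos hper, FunLike.coe_smul,
    ModularForm.qExpansion_smul one_pos hper, h66_res_qExpansion,
    tw_V_qExpansion, tw_V_qExpansion, h66_DeltaM_qExpansion, h66_E4_qExpansion, h66_map_Vser,
    h66_map_Vser]
  simp only [map_sub, map_mul, map_add, map_zsmul]
  have h16 : ∀ X : PowerSeries ℂ, (16 : ℂ) • X = (16 : ℤ) • X := fun X => by
    have := Int.cast_smul_eq_zsmul ℂ 16 X
    simpa using this
  rw [h16]
  ring

/-- Sturm bound on `Γ₀(2)` in weight `36`, for integral `q`-expansions given by truncations. -/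
theorem h66_sturm36 (F : ModularForm (Gamma0 2) 36) (P : PowerSeries ℤ)
    (hF : qExpansion 1 F = P.map (Int.castRingHom ℂ))
    (hP : h34_tr 10 P = List.replicate 10 0) : P = 0 := by
  have hF0 : F = 0 := by
    apply ModularForm.sturm_bound_Gamma0 2
    intro n hn
    have hidx := h56_index_Gamma0_prime 2 Nat.prime_two
    rw [hidx] at hn
    have hn9 : n < 10 := by
      have h9 : ((36 : ℤ) * ((2 + 1 : ℕ) : ℤ)).toNat / 12 = 9 := by decide
      omega
    rw [hF, PowerSeries.coeff_map, h34_coeff_eq_zero_of_tr hP hn9]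
    simp
  have hmap : P.map (Int.castRingHom ℂ) = 0 := by
    rw [← hF, hF0]
    exact qExpansion_zero 1
  ext n
  have h1 := congrArg (PowerSeries.coeff n) hmap
  simpa using h1

theorem h66_Pmain_eq_zero : h66_Pmain = 0 :=
  h66_sturm36 h66_Fmain h66_Pmain h66_Fmain_qExpansion h66_tr_Pmain

theorem h66_Pfricke_eq_zero : h66_Pfricke = 0 :=
  h66_sturm36 h66_Ffricke h66_Pfricke h66_Ffricke_qExpansion h66_tr_Pfricke

/-- **Main level-2 identity** (`E₄³ Δ Δ(q²) = (Δ + 256 Δ(q²))³`), integral series form. -/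
theorem h66_main_sturm :
    h66_A ^ 3 * sturmDelta * h66_V2 sturmDelta = (sturmDelta + 256 * h66_V2 sturmDelta) ^ 3 := by
  have h := h66_Pmain_eq_zero
  unfold h66_Pmain at h
  rw [h66_V2_eq]
  simp only [zsmul_eq_mul] at h
  push_cast at h
  linear_combination h

/-- **Fricke companion** (`E₄(q²)³ Δ Δ(q²) = (Δ + 16 Δ(q²))³`), integral series form. -/
theorem h66_fricke_sturm :
    h66_V2 h66_A ^ 3 * sturmDelta * h66_V2 sturmDelta =
      (sturmDelta + 16 * h66_V2 sturmDelta) ^ 3 := by
  have h := h66_Pfricke_eq_zero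
  unfold h66_Pfricke at h
  rw [h66_V2_eq, h66_V2_eq]
  simp only [zsmul_eq_mul] at h
  push_cast at h
  linear_combination h

end

end Fermat.Agent.S18
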