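import Mathlib
import Fermat.Prelude.Def_ModularCurve_ArithmeticGalois
import Fermat.Agent.S18.Haupt3R_34
import Fermat.Agent.S18.Haupt3Mem53
import Fermat.Agent.S24.AsmBridgeB

/-!
# S18, row B2 (helper53): the level 3 Hauptmodul as an element of the Prelude function fields

Instantiation of `h53m_mem_adjoin` (Haupt3Mem53) at helper34's Hauptmodul `h34_h3R K`
(Haupt3R_34): for every field `K` of characteristic zero and every `M` divisible by `3`,

* `h53m_h3R_mem_fullC : h34_h3R K ∈ modularFunctionFieldFullC K M`,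
* `h53m_h3_mem_bar    : h34_h3R Kbar ∈ modularFunctionFieldBar M`,

and the consumer form over `Kbar = AlgebraicClosure ℚ` used by `HorizHaupt.hh_level3`:
`h53m_h3bar M h3 : ↥(modularFunctionFieldBar M)` with
`⟨JJ 1, _⟩ * h ^ 3 = (h + 27) * (h + 243) ^ 3` and `⟨JJ 3, _⟩ * h = (h + 27) * (h + 3) ^ 3`.
-/

set_option autoImplicit false

open ModularCurve

namespace Fermat.Agent.S18

/-- The level 3 Hauptmodul is transcendental over the coefficient ring. -/
theorem h53m_h3R_transcendental (R : Type*) [CommRing R] : Transcendental R (h34_h3R R) := by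
  rw [h34_h3R, h34_iotaR_apply]
  refine h53m_transcendental_of_pole _ ?_
  rw [← PowerSeries.coeff_zero_eq_constantCoeff_apply, PowerSeries.coeff_map,
    PowerSeries.coeff_zero_eq_constantCoeff_apply, h34_constantCoeff_u, map_one]

/-- `h ∈ K(j(q), j(q³))` over every field of characteristic zero. -/
theorem h53m_h3R_mem_C (K : Type*) [Field K] [CharZero K] :
    h34_h3R K ∈ modularFunctionFieldC K 3 :=
  h53m_mem_adjoin (jqModC K) (jqNModC K 3) (h34_h3R K) (h53m_h3R_transcendental K)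
    (h34_h3R_j K) (h34_h3R_j3 K)

/-- `h ∈ F(M)_K` whenever `3 ∣ M`, over every field of characteristic zero. -/
theorem h53m_h3R_mem_fullC (K : Type*) [Field K] [CharZero K] (M : ℕ) [NeZero M] (h3 : 3 ∣ M) :
    h34_h3R K ∈ modularFunctionFieldFullC K M :=
  full_degeneracyC_le K h3 (modularFunctionFieldC_le_full K 3 (h53m_h3R_mem_C K))

/-- `h ∈ F(M) = ℚ(j(q^d) : d ∣ M)` whenever `3 ∣ M`. -/
theorem h53m_h3_mem_full (M : ℕ) [NeZero M] (h3 : 3 ∣ M) :
    h34_h3R ℚ ∈ modularFunctionFieldFull M :=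
  h53m_h3R_mem_fullC ℚ M h3

/-- `h ∈ F(M)_ℚbar` (the Prelude `modularFunctionFieldBar`) whenever `3 ∣ M`. -/
theorem h53m_h3_mem_bar (M : ℕ) [NeZero M] (h3 : 3 ∣ M) :
    h34_h3R (AlgebraicClosure ℚ) ∈ modularFunctionFieldBar M := by
  have h := coeffEmb_mem_laurentBaseChange (AlgebraicClosure ℚ) (h53m_h3_mem_full M h3)
  rwa [coeffEmb, h34_coeffMap_h3R] at h

open Fermat.Agent.S24

theorem h53m_JJ_one : JJ 1 = jqModC Kbar := by
  rw [JJ_of_neZero, qExpand_one_apply, ← jqModC_rat, coeffEmb, coeffMap_jqModC]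

theorem h53m_JJ_three : JJ 3 = qExpand Kbar 3 (jqModC Kbar) := by
  rw [JJ_of_neZero, ← jqModC_rat, coeffEmb, coeffMap_qExpand, coeffMap_jqModC]

/-- The level 3 Hauptmodul as an element of `F(M)_ℚbar`, `3 ∣ M`. -/
noncomputable def h53m_h3bar (M : ℕ) [NeZero M] (h3 : 3 ∣ M) : ↥(modularFunctionFieldBar M) :=
  ⟨h34_h3R Kbar, h53m_h3_mem_bar M h3⟩

theorem h53m_h3bar_coe (M : ℕ) [NeZero M] (h3 : 3 ∣ M) :
    ((h53m_h3bar M h3 : ↥(modularFunctionFieldBar M)) : LaurentSeries Kbar) = h34_h3R Kbar := rfl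

/-- `j h³ = (h + 27)(h + 243)³` in `F(M)_ℚbar`: the hypothesis `hrel` of `hh_level3`. -/
theorem h53m_h3bar_rel (M : ℕ) [NeZero M] (h3 : 3 ∣ M) :
    (⟨JJ 1, asmAb_JJ_mem M 1 (one_dvd M)⟩ : ↥(modularFunctionFieldBar M)) * h53m_h3bar M h3 ^ 3 =
      (h53m_h3bar M h3 + 27) * (h53m_h3bar M h3 + 243) ^ 3 := by
  apply Subtype.ext
  push_cast
  rw [h53m_h3bar_coe, h53m_JJ_one]
  exact h34_h3R_j Kbar

/-- `j(q³) h = (h + 27)(h + 3)³` in `F(M)_ℚbar`. -/
theorem h53m_h3bar_rel3 (M : ℕ) [NeZero M] (h3 : 3 ∣ M) :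
    (⟨JJ 3, asmAb_JJ_mem M 3 h3⟩ : ↥(modularFunctionFieldBar M)) * h53m_h3bar M h3 =
      (h53m_h3bar M h3 + 27) * (h53m_h3bar M h3 + 3) ^ 3 := by
  apply Subtype.ext
  push_cast
  rw [h53m_h3bar_coe, h53m_JJ_three]
  exact h34_h3R_j3 Kbar

/-- The Hauptmodul is transcendental over `ℚbar` inside `F(M)_ℚbar`. -/
theorem h53m_h3bar_transcendental (M : ℕ) [NeZero M] (h3 : 3 ∣ M) :
    Transcendental Kbar (h53m_h3bar M h3) := by
  intro halg
  refine h53m_h3R_transcendental Kbar ?_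
  have h := halg.algebraMap (A := LaurentSeries Kbar)
  exact h

/-- The Hauptmodul is a unit of `F(M)_ℚbar` (it is nonzero). -/
theorem h53m_h3bar_ne_zero (M : ℕ) [NeZero M] (h3 : 3 ∣ M) : h53m_h3bar M h3 ≠ 0 := by
  intro h0
  have h1 := congrArg (fun x : ↥(modularFunctionFieldBar M) => (x : LaurentSeries Kbar)) h0
  simp only [h53m_h3bar_coe, ZeroMemClass.coe_zero] at h1
  exact (h34_h3R_isUnit Kbar).ne_zero h1

end Fermat.Agent.S18
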