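import Mathlib
import Fermat.Agent.S18.Haupt3Mem_34

/-!
# S18, row B2 complement (helper61): level 3 Hauptmodul membership in every characteristic `≠ 3`

`Haupt3Mem_34` proves `h34_h3R K ∈ modularFunctionFieldFullC K M` (`3 ∣ M`) for fields of
characteristic zero.  The only use of characteristic zero there is the non-vanishing of the
auxiliary polynomial `h53m_Pfun X`; its constant coefficient is `3 ^ 102`, so it is non-zero over
every field in which `3 ≠ 0`.

All names are prefixed `h61h_`.
-/

set_option autoImplicit false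

open ModularCurve

namespace Fermat.Agent.S18

section Field

variable (K : Type*) [Field K]

theorem h61h_Pfun_zero : h53m_Pfun (0 : K) = 3 ^ 102 := by
  unfold h53m_Pfun
  norm_num

/-- The auxiliary polynomial of the level `3` elimination is non-zero in characteristic `≠ 3`. -/
theorem h61h_Pfun_X_ne_zero (h3 : (3 : K) ≠ 0) :
    h53m_Pfun (Polynomial.X : Polynomial K) ≠ 0 := by
  intro h
  have h1 := h53m_Pfun_map (Polynomial.evalRingHom (0 : K)) (Polynomial.X : Polynomial K)
  rw [h, map_zero, Polynomial.coe_evalRingHom, Polynomial.eval_X, h61h_Pfun_zero] at h1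
  exact pow_ne_zero 102 h3 h1.symm

/-- `h₃ ∈ K(j(q), j(q³))` over every field in which `3 ≠ 0`. -/
theorem h61h_h3_mem_adjoin (h3 : (3 : K) ≠ 0) : h34_h3R K ∈
    IntermediateField.adjoin K ({jqModC K, qExpand K 3 (jqModC K)} : Set (LaurentSeries K)) :=
  h53m_mem_adjoin_of _ _ _ (h34_h3R_transcendental K) (h61h_Pfun_X_ne_zero K h3)
    (h34_h3R_j K) (h34_h3R_j3 K)

/-- `h₃` lies in the formal function field of level `M` over `K` whenever `3 ∣ M` and `3 ≠ 0`
in `K` (any characteristic). -/
theorem h61h_h3_mem_fullC (h3 : (3 : K) ≠ 0) (M : ℕ) [NeZero M] (hM : 3 ∣ M) :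
    h34_h3R K ∈ modularFunctionFieldFullC K M := by
  have hle : IntermediateField.adjoin K
      ({jqModC K, qExpand K 3 (jqModC K)} : Set (LaurentSeries K)) ≤
        modularFunctionFieldFullC K M := by
    rw [IntermediateField.adjoin_le_iff]
    rintro x (rfl | rfl)
    · exact jqModC_mem_full K M
    · exact jqModCd_mem_full K M hM
  exact hle (h61h_h3_mem_adjoin K h3)

theorem h61h_h3inv_mem_fullC (h3 : (3 : K) ≠ 0) (M : ℕ) [NeZero M] (hM : 3 ∣ M) :
    h34_h3Rinv K ∈ modularFunctionFieldFullC K M := by
  rw [h34_h3Rinv_eq_inv]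
  exact inv_mem (h61h_h3_mem_fullC K h3 M hM)

end Field

end Fermat.Agent.S18
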