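import Mathlib
import Fermat.Agent.S18.HauptCoeffs70

/-!
# The level 3 Hauptmodul identities, integral power series form (S18 row B2, helper70)

With `E₄ = h70_E4`, `Δ = sturmDelta`, `Δ₃ = Δ(q³)` in `ℤ⟦q⟧`:

* `h70_level3_identity` :
  `(Δ² + 196830 Δ Δ₃ + 3¹⁸ Δ₃²)² = Δ Δ₃ (756 Δ - E₄³ + 19131876 Δ₃)²`;
* `h70_level3_identity_fricke` :
  `(Δ² + 270 Δ Δ₃ + 729 Δ₃²)² = Δ Δ₃ (E₄(q³)³ - 36 Δ - 756 Δ₃)²`.

Both are proved by the Sturm bound in `M₄₈(Γ₀(3))` (coefficients `0, …, 16`); the coefficient
tables are machine generated and checked by kernel evaluation.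
-/

set_option autoImplicit false

namespace Fermat.Agent.S18

open Fermat.Agent.S16

theorem h70_l3_D3 : h70_Rep 17 (PowerSeries.expand 3 three_ne_zero (sturmDelta)) [0, 0, 0, 1, 0, 0, -24, 0, 0, 252, 0, 0, -1472, 0, 0, 4830, 0] :=
  (h70_repDelta.expand 3 three_ne_zero).of_eq (by decide +kernel)

theorem h70_l3_DD : h70_Rep 17 ((sturmDelta) * (sturmDelta)) [0, 0, 1, -48, 1080, -15040, 143820, -985824, 4857920, -16295040, 28412910, 38671600, -424520544, 1268350272, -1211937160, -4306546080, 18293091840] :=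
  (h70_repDelta.mul h70_repDelta).of_eq (by decide +kernel)

theorem h70_l3_DD3 : h70_Rep 17 ((sturmDelta) * (PowerSeries.expand 3 three_ne_zero (sturmDelta))) [0, 0, 0, 0, 1, -24, 252, -1496, 5406, -12096, 18836, -37488, 95013, -86480, -240420, 461448, 156468] :=
  (h70_repDelta.mul h70_l3_D3).of_eq (by decide +kernel)

theorem h70_l3_D3D3 : h70_Rep 17 ((PowerSeries.expand 3 three_ne_zero (sturmDelta)) * (PowerSeries.expand 3 three_ne_zero (sturmDelta))) [0, 0, 0, 0, 0, 0, 1, 0, 0, -48, 0, 0, 1080, 0, 0, -15040, 0] :=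
  (h70_l3_D3.mul h70_l3_D3).of_eq (by decide +kernel)

theorem h70_l3_c1 : h70_Rep 17 ((196830) * ((sturmDelta) * (PowerSeries.expand 3 three_ne_zero (sturmDelta)))) [0, 0, 0, 0, 196830, -4723920, 49601160, -294457680, 1064062980, -2380855680, 3707489880, -7378763040, 18701408790, -17021858400, -47321868600, 90826809840, 30797596440] :=
  ((h70_Rep.ofNat 17 196830).mul h70_l3_DD3).of_eq (by decide +kernel)

theorem h70_l3_c2 : h70_Rep 17 ((387420489) * ((PowerSeries.expand 3 three_ne_zero (sturmDelta)) * (PowerSeries.expand 3 three_ne_zero (sturmDelta)))) [0, 0, 0, 0, 0, 0, 387420489, 0, 0, -18596183472, 0, 0, 418414128120, 0, 0, -5826804154560, 0] :=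
  ((h70_Rep.ofNat 17 387420489).mul h70_l3_D3D3).of_eq (by decide +kernel)

theorem h70_l3_U1 : h70_Rep 17 (((sturmDelta) * (sturmDelta)) + ((196830) * ((sturmDelta) * (PowerSeries.expand 3 three_ne_zero (sturmDelta))))) [0, 0, 1, -48, 197910, -4738960, 49744980, -295443504, 1068920900, -2397150720, 3735902790, -7340091440, 18276888246, -15753508128, -48533805760, 86520263760, 49090688280] :=
  (h70_l3_DD.add h70_l3_c1).of_eq (by decide +kernel)

theorem h70_l3_U : h70_Rep 17 ((((sturmDelta) * (sturmDelta)) + ((196830) * ((sturmDelta) * (PowerSeries.expand 3 three_ne_zero (sturmDelta))))) + ((387420489) * ((PowerSeries.expand 3 three_ne_zero (sturmDelta)) * (PowerSeries.expand 3 three_ne_zero (sturmDelta))))) [0, 0, 1, -48, 197910, -4738960, 437165469, -295443504, 1068920900, -20993334192, 3735902790, -7340091440, 436691016366, -15753508128, -48533805760, -5740283890800, 49090688280] :=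
  (h70_l3_U1.add h70_l3_c2).of_eq (by decide +kernel)

theorem h70_l3_UU : h70_Rep 17 (((((sturmDelta) * (sturmDelta)) + ((196830) * ((sturmDelta) * (PowerSeries.expand 3 three_ne_zero (sturmDelta))))) + ((387420489) * ((PowerSeries.expand 3 three_ne_zero (sturmDelta)) * (PowerSeries.expand 3 three_ne_zero (sturmDelta))))) * ((((sturmDelta) * (sturmDelta)) + ((196830) * ((sturmDelta) * (PowerSeries.expand 3 three_ne_zero (sturmDelta))))) + ((387420489) * ((PowerSeries.expand 3 three_ne_zero (sturmDelta)) * (PowerSeries.expand 3 three_ne_zero (sturmDelta)))))) [0, 0, 0, 0, 1, -96, 398124, -28477280, 40497639198, -1918333919232, 195527078239364, -4260506392772544, 194338960283947653, -276756497621582912, 1222330942278791628, -19025088944838264288, 17056116962597468244] :=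
  (h70_l3_U.mul h70_l3_U).of_eq (by decide +kernel)

theorem h70_l3_c3 : h70_Rep 17 ((756) * (sturmDelta)) [0, 756, -18144, 190512, -1112832, 3651480, -4572288, -12658464, 63866880, -85914108, -87635520, 404166672, -280433664, -436769928, 303803136, 920172960, 746274816] :=
  ((h70_Rep.ofNat 17 756).mul h70_repDelta).of_eq (by decide +kernel)

theorem h70_l3_c4 : h70_Rep 17 ((19131876) * (PowerSeries.expand 3 three_ne_zero (sturmDelta))) [0, 0, 0, 19131876, 0, 0, -459165024, 0, 0, 4821232752, 0, 0, -28162121472, 0, 0, 92406961080, 0] :=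
  ((h70_Rep.ofNat 17 19131876).mul h70_l3_D3).of_eq (by decide +kernel)

theorem h70_l3_W1 : h70_Rep 17 (((756) * (sturmDelta)) - (((h70_E4) * (h70_E4)) * (h70_E4))) [-1, 36, -197424, -16764048, -398086992, -4629207240, -34417873728, -187490538144, -814876733520, -2975555579148, -9486555472800, -27052926673968, -70486250353344, -169931116125288, -384163571885184, -820166576997600, -1668890054785104] :=
  (h70_l3_c3.sub h70_repE4cu).of_eq (by decide +kernel)

theorem h70_l3_W : h70_Rep 17 ((((756) * (sturmDelta)) - (((h70_E4) * (h70_E4)) * (h70_E4))) + ((19131876) * (PowerSeries.expand 3 three_ne_zero (sturmDelta)))) [-1, 36, -197424, 2367828, -398086992, -4629207240, -34877038752, -187490538144, -814876733520, -2970734346396, -9486555472800, -27052926673968, -70514412474816, -169931116125288, -384163571885184, -820074170036520, -1668890054785104] :=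
  (h70_l3_W1.add h70_l3_c4).of_eq (by decide +kernel)

theorem h70_l3_WW : h70_Rep 17 (((((756) * (sturmDelta)) - (((h70_E4) * (h70_E4)) * (h70_E4))) + ((19131876) * (PowerSeries.expand 3 three_ne_zero (sturmDelta)))) * ((((756) * (sturmDelta)) - (((h70_E4) * (h70_E4)) * (h70_E4))) + ((19131876) * (PowerSeries.expand 3 three_ne_zero (sturmDelta))))) [1, -72, 396144, -18950184, 39942893376, -954335999088, 162526913211024, -59505997601088, 150310179590128992, 3594466247553264312, 48631417400980693152, 469494553014161059680, 3590732165460948648864, 22953669471447451867728, 126950632927311897842688, 621886626324436636458576, 2745675023060155245187104] :=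
  (h70_l3_W.mul h70_l3_W).of_eq (by decide +kernel)

theorem h70_l3_R : h70_Rep 17 (((sturmDelta) * (PowerSeries.expand 3 three_ne_zero (sturmDelta))) * (((((756) * (sturmDelta)) - (((h70_E4) * (h70_E4)) * (h70_E4))) + ((19131876) * (PowerSeries.expand 3 three_ne_zero (sturmDelta)))) * ((((756) * (sturmDelta)) - (((h70_E4) * (h70_E4)) * (h70_E4))) + ((19131876) * (PowerSeries.expand 3 three_ne_zero (sturmDelta)))))) [0, 0, 0, 0, 1, -96, 398124, -28477280, 40497639198, -1918333919232, 195527078239364, -4260506392772544, 194338960283947653, -276756497621582912, 1222330942278791628, -19025088944838264288, 17056116962597468244] :=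
  (h70_l3_DD3.mul h70_l3_WW).of_eq (by decide +kernel)

theorem h70_l3_P : h70_Rep 17 ((((((sturmDelta) * (sturmDelta)) + ((196830) * ((sturmDelta) * (PowerSeries.expand 3 three_ne_zero (sturmDelta))))) + ((387420489) * ((PowerSeries.expand 3 three_ne_zero (sturmDelta)) * (PowerSeries.expand 3 three_ne_zero (sturmDelta))))) * ((((sturmDelta) * (sturmDelta)) + ((196830) * ((sturmDelta) * (PowerSeries.expand 3 three_ne_zero (sturmDelta))))) + ((387420489) * ((PowerSeries.expand 3 three_ne_zero (sturmDelta)) * (PowerSeries.expand 3 three_ne_zero (sturmDelta)))))) - (((sturmDelta) * (PowerSeries.expand 3 three_ne_zero (sturmDelta))) * (((((756) * (sturmDelta)) - (((h70_E4) * (h70_E4)) * (h70_E4))) + ((19131876) * (PowerSeries.expand 3 three_ne_zero (sturmDelta)))) * ((((756) * (sturmDelta)) - (((h70_E4) * (h70_E4)) * (h70_E4))) + ((19131876) * (PowerSeries.expand 3 three_ne_zero (sturmDelta))))))) [0, 0, 0, 0, 0, 0, 0, 0, 0, 0, 0, 0, 0, 0, 0, 0, 0] :=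
  (h70_l3_UU.sub h70_l3_R).of_eq (by decide +kernel)

theorem h70_l3_f1 : h70_Rep 17 ((270) * ((sturmDelta) * (PowerSeries.expand 3 three_ne_zero (sturmDelta)))) [0, 0, 0, 0, 270, -6480, 68040, -403920, 1459620, -3265920, 5085720, -10121760, 25653510, -23349600, -64913400, 124590960, 42246360] :=
  ((h70_Rep.ofNat 17 270).mul h70_l3_DD3).of_eq (by decide +kernel)

theorem h70_l3_f2 : h70_Rep 17 ((729) * ((PowerSeries.expand 3 three_ne_zero (sturmDelta)) * (PowerSeries.expand 3 three_ne_zero (sturmDelta)))) [0, 0, 0, 0, 0, 0, 729, 0, 0, -34992, 0, 0, 787320, 0, 0, -10964160, 0] :=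
  ((h70_Rep.ofNat 17 729).mul h70_l3_D3D3).of_eq (by decide +kernel)

theorem h70_l3_FU1 : h70_Rep 17 (((sturmDelta) * (sturmDelta)) + ((270) * ((sturmDelta) * (PowerSeries.expand 3 three_ne_zero (sturmDelta))))) [0, 0, 1, -48, 1350, -21520, 211860, -1389744, 6317540, -19560960, 33498630, 28549840, -398867034, 1245000672, -1276850560, -4181955120, 18335338200] :=
  (h70_l3_DD.add h70_l3_f1).of_eq (by decide +kernel)

theorem h70_l3_FU : h70_Rep 17 ((((sturmDelta) * (sturmDelta)) + ((270) * ((sturmDelta) * (PowerSeries.expand 3 three_ne_zero (sturmDelta))))) + ((729) * ((PowerSeries.expand 3 three_ne_zero (sturmDelta)) * (PowerSeries.expand 3 three_ne_zero (sturmDelta))))) [0, 0, 1, -48, 1350, -21520, 212589, -1389744, 6317540, -19595952, 33498630, 28549840, -398079714, 1245000672, -1276850560, -4192919280, 18335338200] :=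
  (h70_l3_FU1.add h70_l3_f2).of_eq (by decide +kernel)

theorem h70_l3_FUU : h70_Rep 17 (((((sturmDelta) * (sturmDelta)) + ((270) * ((sturmDelta) * (PowerSeries.expand 3 three_ne_zero (sturmDelta))))) + ((729) * ((PowerSeries.expand 3 three_ne_zero (sturmDelta)) * (PowerSeries.expand 3 three_ne_zero (sturmDelta))))) * ((((sturmDelta) * (sturmDelta)) + ((270) * ((sturmDelta) * (PowerSeries.expand 3 three_ne_zero (sturmDelta))))) + ((729) * ((PowerSeries.expand 3 three_ne_zero (sturmDelta)) * (PowerSeries.expand 3 three_ne_zero (sturmDelta)))))) [0, 0, 0, 0, 1, -96, 5004, -172640, 4313598, -81292032, 1183151204, -13547815104, 124014231333, -918863335232, 5547786538668, -27215285112288, 106195231483284] :=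
  (h70_l3_FU.mul h70_l3_FU).of_eq (by decide +kernel)

theorem h70_l3_f3 : h70_Rep 17 ((36) * (sturmDelta)) [0, 36, -864, 9072, -52992, 173880, -217728, -602784, 3041280, -4091148, -4173120, 19246032, -13353984, -20798568, 14466816, 43817760, 35536896] :=
  ((h70_Rep.ofNat 17 36).mul h70_repDelta).of_eq (by decide +kernel)

theorem h70_l3_f4 : h70_Rep 17 ((756) * (PowerSeries.expand 3 three_ne_zero (sturmDelta))) [0, 0, 0, 756, 0, 0, -18144, 0, 0, 190512, 0, 0, -1112832, 0, 0, 3651480, 0] :=
  ((h70_Rep.ofNat 17 756).mul h70_l3_D3).of_eq (by decide +kernel)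

theorem h70_l3_FW1 : h70_Rep 17 ((((PowerSeries.expand 3 three_ne_zero (h70_E4)) * (PowerSeries.expand 3 three_ne_zero (h70_E4))) * (PowerSeries.expand 3 three_ne_zero (h70_E4))) - ((36) * (sturmDelta))) [1, -36, 864, -8352, 52992, -173880, 397008, 602784, -3041280, 21045708, 4173120, -19246032, 410328144, 20798568, -14466816, 4589040960, -35536896] :=
  (h70_repE4x3cu.sub h70_l3_f3).of_eq (by decide +kernel)

theorem h70_l3_FW : h70_Rep 17 (((((PowerSeries.expand 3 three_ne_zero (h70_E4)) * (PowerSeries.expand 3 three_ne_zero (h70_E4))) * (PowerSeries.expand 3 three_ne_zero (h70_E4))) - ((36) * (sturmDelta))) - ((756) * (PowerSeries.expand 3 three_ne_zero (sturmDelta)))) [1, -36, 864, -9108, 52992, -173880, 415152, 602784, -3041280, 20855196, 4173120, -19246032, 411440976, 20798568, -14466816, 4585389480, -35536896] :=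
  (h70_l3_FW1.sub h70_l3_f4).of_eq (by decide +kernel)

theorem h70_l3_FWW : h70_Rep 17 ((((((PowerSeries.expand 3 three_ne_zero (h70_E4)) * (PowerSeries.expand 3 three_ne_zero (h70_E4))) * (PowerSeries.expand 3 three_ne_zero (h70_E4))) - ((36) * (sturmDelta))) - ((756) * (PowerSeries.expand 3 three_ne_zero (sturmDelta)))) * (((((PowerSeries.expand 3 three_ne_zero (h70_E4)) * (PowerSeries.expand 3 three_ne_zero (h70_E4))) * (PowerSeries.expand 3 three_ne_zero (h70_E4))) - ((36) * (sturmDelta))) - ((756) * (PowerSeries.expand 3 three_ne_zero (sturmDelta))))) [1, -72, 3024, -80424, 1508256, -19901808, 187875504, -1294452288, 6643449792, -24688613448, 56504850912, 10610978400, -730078502976, 3629589741648, -7912128114432, 2710010642256, 87421775197824] :=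
  (h70_l3_FW.mul h70_l3_FW).of_eq (by decide +kernel)

theorem h70_l3_FR : h70_Rep 17 (((sturmDelta) * (PowerSeries.expand 3 three_ne_zero (sturmDelta))) * ((((((PowerSeries.expand 3 three_ne_zero (h70_E4)) * (PowerSeries.expand 3 three_ne_zero (h70_E4))) * (PowerSeries.expand 3 three_ne_zero (h70_E4))) - ((36) * (sturmDelta))) - ((756) * (PowerSeries.expand 3 three_ne_zero (sturmDelta)))) * (((((PowerSeries.expand 3 three_ne_zero (h70_E4)) * (PowerSeries.expand 3 three_ne_zero (h70_E4))) * (PowerSeries.expand 3 three_ne_zero (h70_E4))) - ((36) * (sturmDelta))) - ((756) * (PowerSeries.expand 3 three_ne_zero (sturmDelta)))))) [0, 0, 0, 0, 1, -96, 5004, -172640, 4313598, -81292032, 1183151204, -13547815104, 124014231333, -918863335232, 5547786538668, -27215285112288, 106195231483284] :=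
  (h70_l3_DD3.mul h70_l3_FWW).of_eq (by decide +kernel)

theorem h70_l3_FP : h70_Rep 17 ((((((sturmDelta) * (sturmDelta)) + ((270) * ((sturmDelta) * (PowerSeries.expand 3 three_ne_zero (sturmDelta))))) + ((729) * ((PowerSeries.expand 3 three_ne_zero (sturmDelta)) * (PowerSeries.expand 3 three_ne_zero (sturmDelta))))) * ((((sturmDelta) * (sturmDelta)) + ((270) * ((sturmDelta) * (PowerSeries.expand 3 three_ne_zero (sturmDelta))))) + ((729) * ((PowerSeries.expand 3 three_ne_zero (sturmDelta)) * (PowerSeries.expand 3 three_ne_zero (sturmDelta)))))) - (((sturmDelta) * (PowerSeries.expand 3 three_ne_zero (sturmDelta))) * ((((((PowerSeries.expand 3 three_ne_zero (h70_E4)) * (PowerSeries.expand 3 three_ne_zero (h70_E4))) * (PowerSeries.expand 3 three_ne_zero (h70_E4))) - ((36) * (sturmDelta))) - ((756) * (PowerSeries.expand 3 three_ne_zero (sturmDelta)))) * (((((PowerSeries.expand 3 three_ne_zero (h70_E4)) * (PowerSeries.expand 3 three_ne_zero (h70_E4))) * (PowerSeries.expand 3 three_ne_zero (h70_E4))) - ((36) * (sturmDelta)))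 - ((756) * (PowerSeries.expand 3 three_ne_zero (sturmDelta))))))) [0, 0, 0, 0, 0, 0, 0, 0, 0, 0, 0, 0, 0, 0, 0, 0, 0] :=
  (h70_l3_FUU.sub h70_l3_FR).of_eq (by decide +kernel)

/-- The difference of the two sides is the `q`-expansion of a form in `M₄₈(Γ₀(3))`. -/
theorem h70_l3_isQExp : h70_IsQExp 3 48
    ((((((sturmDelta) * (sturmDelta)) + ((196830) * ((sturmDelta) * (PowerSeries.expand 3 three_ne_zero (sturmDelta))))) + ((387420489) * ((PowerSeries.expand 3 three_ne_zero (sturmDelta)) * (PowerSeries.expand 3 three_ne_zero (sturmDelta))))) * ((((sturmDelta) * (sturmDelta)) + ((196830) * ((sturmDelta) * (PowerSeries.expand 3 three_ne_zero (sturmDelta))))) + ((387420489) * ((PowerSeries.expand 3 three_ne_zero (sturmDelta)) * (PowerSeries.expand 3 three_ne_zero (sturmDelta)))))) - (((sturmDelta) * (PowerSeries.expand 3 three_ne_zero (sturmDelta))) * (((((756) * (sturmDelta)) - (((h70_E4) * (h70_E4)) * (h70_E4))) + ((19131876) * (PowerSeries.expand 3 three_ne_zero (sturmDelta)))) * ((((756) * (sturmDelta)) -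 (((h70_E4) * (h70_E4)) * (h70_E4))) + ((19131876) * (PowerSeries.expand 3 three_ne_zero (sturmDelta))))))) := by
  have hE := h70_IsQExp_E4 3
  have hD := h70_IsQExp_Delta 3
  have hD3 : h70_IsQExp 3 12 (PowerSeries.expand 3 three_ne_zero sturmDelta) :=
    h70_IsQExp_Delta_expand 3
  have hU := ((hD.mul hD).add (((hD.mul hD3).const_mul 196830).congr (by rw [map_ofNat]))).add
    (((hD3.mul hD3).const_mul 387420489).congr (by rw [map_ofNat]))
  have hW := ((((hD.const_mul 756).congr (by rw [map_ofNat])).sub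
    (((hE.mul hE).mul hE).weight (by norm_num))).add
      ((hD3.const_mul 19131876).congr (by rw [map_ofNat])))
  exact ((hU.mul hU).weight (by norm_num)).sub (((hD.mul hD3).mul (hW.mul hW)).weight (by norm_num))

/-- **Level 3 Hauptmodul identity**, squared polynomial form, in `ℤ⟦q⟧`:
`(Δ² + 196830 Δ Δ₃ + 3¹⁸ Δ₃²)² = Δ Δ₃ (756 Δ - E₄³ + 19131876 Δ₃)²`, `Δ₃ = Δ(q³)`. -/
theorem h70_level3_identity :
    (sturmDelta ^ 2 + 196830 * (sturmDelta * PowerSeries.expand 3 three_ne_zero sturmDelta) +
        387420489 * PowerSeries.expand 3 three_ne_zero sturmDelta ^ 2) ^ 2 =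
      sturmDelta * PowerSeries.expand 3 three_ne_zero sturmDelta *
        (756 * sturmDelta - h70_E4 ^ 3 +
          19131876 * PowerSeries.expand 3 three_ne_zero sturmDelta) ^ 2 := by
  have h0 := h70_l3_isQExp.eq_zero Nat.prime_three 17 (by decide)
    (fun n hn => h70_Rep.coeff_eq_zero h70_l3_P n hn)
  linear_combination h0

/-- The difference of the two sides of the Fricke companion is the `q`-expansion of a form in
`M₄₈(Γ₀(3))`. -/
theorem h70_l3_isQExp_fricke : h70_IsQExp 3 48
    ((((((sturmDelta) * (sturmDelta)) + ((270) * ((sturmDelta) * (PowerSeries.expand 3 three_ne_zero (sturmDelta))))) + ((729) * ((PowerSeries.expand 3 three_ne_zero (sturmDelta)) * (PowerSeries.expand 3 three_ne_zero (sturmDelta))))) * ((((sturmDelta) * (sturmDelta)) + ((270) * ((sturmDelta) * (PowerSeries.expand 3 three_ne_zero (sturmDelta))))) + ((729) * ((PowerSeries.expand 3 three_ne_zero (sturmDelta)) * (PowerSeries.expand 3 three_ne_zero (sturmDelta)))))) - (((sturmDelta) * (PowerSeries.expand 3 three_ne_zero (sturmDelta)))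 * ((((((PowerSeries.expand 3 three_ne_zero (h70_E4)) * (PowerSeries.expand 3 three_ne_zero (h70_E4))) * (PowerSeries.expand 3 three_ne_zero (h70_E4))) - ((36) * (sturmDelta))) - ((756) * (PowerSeries.expand 3 three_ne_zero (sturmDelta)))) * (((((PowerSeries.expand 3 three_ne_zero (h70_E4)) * (PowerSeries.expand 3 three_ne_zero (h70_E4))) * (PowerSeries.expand 3 three_ne_zero (h70_E4))) - ((36) * (sturmDelta))) - ((756) * (PowerSeries.expand 3 three_ne_zero (sturmDelta))))))) := by
  have hE : h70_IsQExp 3 4 (PowerSeries.expand 3 three_ne_zero h70_E4) := h70_IsQExp_E4_expand 3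
  have hD := h70_IsQExp_Delta 3
  have hD3 : h70_IsQExp 3 12 (PowerSeries.expand 3 three_ne_zero sturmDelta) :=
    h70_IsQExp_Delta_expand 3
  have hU := ((hD.mul hD).add (((hD.mul hD3).const_mul 270).congr (by rw [map_ofNat]))).add
    (((hD3.mul hD3).const_mul 729).congr (by rw [map_ofNat]))
  have hW := (((((hE.mul hE).mul hE).weight (by norm_num)).sub
    ((hD.const_mul 36).congr (by rw [map_ofNat]))).sub
      ((hD3.const_mul 756).congr (by rw [map_ofNat])))
  exact ((hU.mul hU).weight (by norm_num)).sub (((hD.mul hD3).mul (hW.mul hW)).weight (by norm_num))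

/-- **Level 3 Hauptmodul identity, Fricke companion**, squared polynomial form, in `ℤ⟦q⟧`:
`(Δ² + 270 Δ Δ₃ + 729 Δ₃²)² = Δ Δ₃ (E₄(q³)³ - 36 Δ - 756 Δ₃)²`, `Δ₃ = Δ(q³)`. -/
theorem h70_level3_identity_fricke :
    (sturmDelta ^ 2 + 270 * (sturmDelta * PowerSeries.expand 3 three_ne_zero sturmDelta) +
        729 * PowerSeries.expand 3 three_ne_zero sturmDelta ^ 2) ^ 2 =
      sturmDelta * PowerSeries.expand 3 three_ne_zero sturmDelta *
        (PowerSeries.expand 3 three_ne_zero h70_E4 ^ 3 - 36 * sturmDelta -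
          756 * PowerSeries.expand 3 three_ne_zero sturmDelta) ^ 2 := by
  have h0 := h70_l3_isQExp_fricke.eq_zero Nat.prime_three 17 (by decide)
    (fun n hn => h70_Rep.coeff_eq_zero h70_l3_FP n hn)
  linear_combination h0

end Fermat.Agent.S18
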