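/-
S18 helper module (helper12), row B2: the level 3 Hauptmodul identities, modular-form side.

With `E = E₄(q)`, `E' = E₄(q³)`, `Δ = Δ(q)`, `Δ' = Δ(q³)` (as integral power series) and
  `A₀ = 81 E' - E`, `B₀ = E - E'`, `G₀ = E + 9 E'`
we prove, by the Sturm bound on `M₁₆(Γ₀(3))` (six coefficients),
  `A₀³ B₀ = 12288000 Δ G₀`   and   `A₀ B₀³ = 110592000 Δ' G₀`.
The Hauptmodul of `X₀(3)` is `h = 3 A₀ / B₀ = q⁻¹ ∏ (1 - qⁿ)¹² / (1 - q³ⁿ)¹²`; the two identities are
equivalent to `j h³ = (h + 27)(h + 243)³` and `j(q³) h = (h + 27)(h + 3)³` (see `Haupt3.lean`).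
-/
import Mathlib
import Fermat.Prelude.Thm_ModularForm_sturm_bound_Gamma0
import Fermat.Prelude.Thm_CongruenceSubgroup_one_mem_strictPeriods_Gamma0
import Fermat.Agent.S16.TwistLemma
import Fermat.Agent.S16.LevelOneSturm
import Fermat.Agent.Lib.Gamma0Cosets

set_option autoImplicit false

open UpperHalfPlane ModularForm CongruenceSubgroup
open scoped MatrixGroups

namespace Fermat.Agent.S18

open Fermat.Agent.S16 (tw_V tw_V_qExpansion sturmA sturmB sturmDelta sturm_E4_qExpansion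
  sturm_E6_qExpansion sturm_delta_identity)

/-! ### Truncations of integral power series as lists -/

/-- The list of the first `n` coefficients. -/
noncomputable def hp3_tr (n : ℕ) (f : PowerSeries ℤ) : List ℤ :=
  (List.range n).map fun i => f.coeff i

/-- Termwise sum of coefficient lists. -/
def hp3_ladd (l m : List ℤ) : List ℤ := List.zipWith (· + ·) l m

/-- Termwise difference of coefficient lists. -/
def hp3_lsub (l m : List ℤ) : List ℤ := List.zipWith (· - ·) l m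

/-- Scalar multiple of a coefficient list. -/
def hp3_lsmul (c : ℤ) (l : List ℤ) : List ℤ := l.map (c * ·)

/-- Truncated Cauchy product of coefficient lists. -/
def hp3_lmul (n : ℕ) (l m : List ℤ) : List ℤ :=
  (List.range n).map fun k =>
    ((List.range (k + 1)).map fun i => l.getD i 0 * m.getD (k - i) 0).sum

/-- The substitution `q ↦ q^p` on coefficient lists. -/
def hp3_lexp (p n : ℕ) (l : List ℤ) : List ℤ :=
  (List.range n).map fun i => if p ∣ i then l.getD (i / p) 0 else 0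

theorem hp3_tr_length (n : ℕ) (f : PowerSeries ℤ) : (hp3_tr n f).length = n := by
  simp [hp3_tr]

theorem hp3_tr_getD (n : ℕ) (f : PowerSeries ℤ) {i : ℕ} (hi : i < n) :
    (hp3_tr n f).getD i 0 = f.coeff i := by
  simp [hp3_tr, List.getD_eq_getElem?_getD, hi]

theorem hp3_tr_add (n : ℕ) (f g : PowerSeries ℤ) :
    hp3_tr n (f + g) = hp3_ladd (hp3_tr n f) (hp3_tr n g) := by
  apply List.ext_getElem
  · simp [hp3_tr, hp3_ladd]
  · intro i h1 h2
    simp [hp3_tr, hp3_ladd]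

theorem hp3_tr_sub (n : ℕ) (f g : PowerSeries ℤ) :
    hp3_tr n (f - g) = hp3_lsub (hp3_tr n f) (hp3_tr n g) := by
  apply List.ext_getElem
  · simp [hp3_tr, hp3_lsub]
  · intro i h1 h2
    simp [hp3_tr, hp3_lsub]

theorem hp3_tr_smul (n : ℕ) (c : ℤ) (f : PowerSeries ℤ) :
    hp3_tr n (PowerSeries.C c * f) = hp3_lsmul c (hp3_tr n f) := by
  apply List.ext_getElem
  · simp [hp3_tr, hp3_lsmul]
  · intro i h1 h2
    simp only [hp3_tr, hp3_lsmul, List.getElem_map, List.getElem_range]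
    rw [PowerSeries.coeff_C_mul]

theorem hp3_list_sum_range (n : ℕ) (F : ℕ → ℤ) :
    ((List.range n).map F).sum = ∑ i ∈ Finset.range n, F i := by
  induction n with
  | zero => simp
  | succ n ih => rw [List.range_succ, List.map_append, List.sum_append, ih,
      Finset.sum_range_succ]; simp

theorem hp3_tr_mul (n : ℕ) (f g : PowerSeries ℤ) :
    hp3_tr n (f * g) = hp3_lmul n (hp3_tr n f) (hp3_tr n g) := by
  apply List.ext_getElem
  · simp [hp3_tr, hp3_lmul]
  · intro k h1 h2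
    have hk : k < n := by simpa [hp3_tr] using h1
    simp only [hp3_tr, hp3_lmul, List.getElem_map, List.getElem_range]
    rw [PowerSeries.coeff_mul, Finset.Nat.sum_antidiagonal_eq_sum_range_succ_mk,
      hp3_list_sum_range]
    refine Finset.sum_congr rfl fun i hi => ?_
    have hi' : i < k + 1 := Finset.mem_range.mp hi
    rw [← hp3_tr, ← hp3_tr, hp3_tr_getD n f (by omega), hp3_tr_getD n g (by omega)]

theorem hp3_tr_expand (p : ℕ) (hp : p ≠ 0) (n : ℕ) (f : PowerSeries ℤ) :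
    hp3_tr n (PowerSeries.expand p hp f) = hp3_lexp p n (hp3_tr n f) := by
  apply List.ext_getElem
  · simp [hp3_tr, hp3_lexp]
  · intro i h1 h2
    have hi : i < n := by simpa [hp3_tr] using h1
    simp only [hp3_tr, hp3_lexp, List.getElem_map, List.getElem_range]
    rw [← hp3_tr, PowerSeries.coeff_expand]
    split_ifs with h
    · rw [hp3_tr_getD n f (lt_of_le_of_lt (Nat.div_le_self i p) hi)]
    · rfl

theorem hp3_tr_getElem (n : ℕ) (f : PowerSeries ℤ) {i : ℕ} (hi : i < n) :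
    f.coeff i = (hp3_tr n f).getD i 0 := (hp3_tr_getD n f hi).symm

/-! ### The integral series -/

theorem hp3_tr_sturmA : hp3_tr 6 sturmA = [0, 1, 9, 28, 73, 126] := by
  have h2 : ArithmeticFunction.sigma 3 2 = 9 := by decide
  have h3 : ArithmeticFunction.sigma 3 3 = 28 := by decide
  have h4 : ArithmeticFunction.sigma 3 4 = 73 := by decide
  have h5 : ArithmeticFunction.sigma 3 5 = 126 := by decide
  simp [hp3_tr, List.range_succ, sturmA, h2, h3, h4, h5]

theorem hp3_tr_sturmB : hp3_tr 6 sturmB = [0, 1, 33, 244, 1057, 3126] := by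
  have h2 : ArithmeticFunction.sigma 5 2 = 33 := by decide
  have h3 : ArithmeticFunction.sigma 5 3 = 244 := by decide
  have h4 : ArithmeticFunction.sigma 5 4 = 1057 := by decide
  have h5 : ArithmeticFunction.sigma 5 5 = 3126 := by decide
  simp [hp3_tr, List.range_succ, sturmB, h2, h3, h4, h5]

theorem hp3_tr_one : hp3_tr 6 (1 : PowerSeries ℤ) = [1, 0, 0, 0, 0, 0] := by
  simp [hp3_tr, List.range_succ, PowerSeries.coeff_one]

theorem hp3_tr_C (c : ℤ) : hp3_tr 6 (PowerSeries.C c) = [c, 0, 0, 0, 0, 0] := by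
  simp only [hp3_tr, List.range_succ, List.range_zero, List.nil_append, List.cons_append,
    List.map_cons, List.map_nil, PowerSeries.coeff_C]
  simp

/-- The series of `E₄`. -/
noncomputable def hp3_E : PowerSeries ℤ := 1 + PowerSeries.C 240 * sturmA

/-- The series of `E₆`. -/
noncomputable def hp3_F : PowerSeries ℤ := 1 - PowerSeries.C 504 * sturmB

/-- The series of `E₄(q³)`. -/
noncomputable def hp3_E3 : PowerSeries ℤ := PowerSeries.expand 3 (by norm_num) hp3_E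

/-- The series of `E₆(q³)`. -/
noncomputable def hp3_F3 : PowerSeries ℤ := PowerSeries.expand 3 (by norm_num) hp3_F

/-- `A₀ = 81 E₄(q³) - E₄(q)`. -/
noncomputable def hp3_A0 : PowerSeries ℤ := PowerSeries.C 81 * hp3_E3 - hp3_E

/-- `B₀ = E₄(q) - E₄(q³)`. -/
noncomputable def hp3_B0 : PowerSeries ℤ := hp3_E - hp3_E3

/-- `G₀ = E₄(q) + 9 E₄(q³)`. -/
noncomputable def hp3_G0 : PowerSeries ℤ := hp3_E + PowerSeries.C 9 * hp3_E3

/-- The series whose vanishing is the first identity (times `1728`). -/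
noncomputable def hp3_S1 : PowerSeries ℤ :=
  PowerSeries.C 1728 * (hp3_A0 * hp3_A0 * hp3_A0 * hp3_B0) -
    PowerSeries.C 12288000 * ((hp3_E * hp3_E * hp3_E - hp3_F * hp3_F) * hp3_G0)

/-- The series whose vanishing is the second identity (times `1728`). -/
noncomputable def hp3_S2 : PowerSeries ℤ :=
  PowerSeries.C 1728 * (hp3_A0 * hp3_B0 * hp3_B0 * hp3_B0) -
    PowerSeries.C 110592000 * ((hp3_E3 * hp3_E3 * hp3_E3 - hp3_F3 * hp3_F3) * hp3_G0)

theorem hp3_tr_S1 : hp3_tr 6 hp3_S1 = [0, 0, 0, 0, 0, 0] := by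
  simp only [hp3_S1, hp3_A0, hp3_B0, hp3_G0, hp3_E3, hp3_E, hp3_F, hp3_tr_sub, hp3_tr_add,
    hp3_tr_mul, hp3_tr_expand, hp3_tr_sturmA, hp3_tr_sturmB, hp3_tr_one, hp3_tr_C]
  decide +kernel

theorem hp3_tr_S2 : hp3_tr 6 hp3_S2 = [0, 0, 0, 0, 0, 0] := by
  simp only [hp3_S2, hp3_A0, hp3_B0, hp3_G0, hp3_E3, hp3_F3, hp3_E, hp3_F, hp3_tr_sub, hp3_tr_add,
    hp3_tr_mul, hp3_tr_expand, hp3_tr_sturmA, hp3_tr_sturmB, hp3_tr_one, hp3_tr_C]
  decide +kernel

theorem hp3_S1_coeff {n : ℕ} (hn : n ≤ 5) : hp3_S1.coeff n = 0 := by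
  rw [hp3_tr_getElem 6 hp3_S1 (by omega), hp3_tr_S1]
  interval_cases n <;> rfl

theorem hp3_S2_coeff {n : ℕ} (hn : n ≤ 5) : hp3_S2.coeff n = 0 := by
  rw [hp3_tr_getElem 6 hp3_S2 (by omega), hp3_tr_S2]
  interval_cases n <;> rfl

/-! ### Modular forms on `Γ₀(N)` with integral `q`-expansions -/

/-- A level one form, viewed on `Γ₀(N)`. -/
noncomputable def hp3_res (N : ℕ) {k : ℤ} (g : ModularForm 𝒮ℒ k) :
    ModularForm ((Gamma0 N).map (Matrix.SpecialLinearGroup.mapGL ℝ)) k where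
  toFun := g
  slash_action_eq' γ hγ := g.slash_action_eq' γ (Subgroup.map_le_range _ _ hγ)
  holo' := g.holo'
  bdd_at_cusps' hc := g.bdd_at_cusps' (hc.mono (Subgroup.map_le_range _ _))

/-- `f` has the integral `q`-expansion `S`. -/
def hp3_QE {N : ℕ} {k : ℤ}
    (f : ModularForm ((Gamma0 N).map (Matrix.SpecialLinearGroup.mapGL ℝ)) k)
    (S : PowerSeries ℤ) : Prop :=
  qExpansion 1 f = S.map (Int.castRingHom ℂ)

section QE

variable {N : ℕ} {a b : ℤ}
  {f f' : ModularForm ((Gamma0 N).map (Matrix.SpecialLinearGroup.mapGL ℝ)) a}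
  {g : ModularForm ((Gamma0 N).map (Matrix.SpecialLinearGroup.mapGL ℝ)) b}
  {S T : PowerSeries ℤ}

theorem hp3_QE.mul (hf : hp3_QE f S) (hg : hp3_QE g T) : hp3_QE (f.mul g) (S * T) := by
  unfold hp3_QE at *
  rw [ModularForm.qExpansion_mul one_pos (CongruenceSubgroup.one_mem_strictPeriods_Gamma0 N),
    hf, hg, map_mul]

theorem hp3_QE.add (hf : hp3_QE f S) (hg : hp3_QE f' T) : hp3_QE (f + f') (S + T) := by
  unfold hp3_QE at *
  have : (⇑(f + f') : ℍ → ℂ) = ⇑f + ⇑f' := rfl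
  rw [this, ModularForm.qExpansion_add one_pos
    (CongruenceSubgroup.one_mem_strictPeriods_Gamma0 N), hf, hg, map_add]

theorem hp3_QE.sub (hf : hp3_QE f S) (hg : hp3_QE f' T) : hp3_QE (f - f') (S - T) := by
  unfold hp3_QE at *
  have : (⇑(f - f') : ℍ → ℂ) = ⇑f - ⇑f' := rfl
  rw [this, ModularForm.qExpansion_sub one_pos
    (CongruenceSubgroup.one_mem_strictPeriods_Gamma0 N), hf, hg, map_sub]

theorem hp3_QE.smul (c : ℤ) (hf : hp3_QE f S) :
    hp3_QE ((c : ℂ) • f) (PowerSeries.C c * S) := by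
  unfold hp3_QE at *
  have : (⇑((c : ℂ) • f) : ℍ → ℂ) = (c : ℂ) • ⇑f := rfl
  rw [this, ModularForm.qExpansion_smul one_pos
    (CongruenceSubgroup.one_mem_strictPeriods_Gamma0 N), hf, map_mul, PowerSeries.map_C,
    PowerSeries.smul_eq_C_mul]
  rfl

theorem hp3_QE.mcast (h : a = b) (hf : hp3_QE f S) : hp3_QE (ModularForm.mcast h f) S := hf

end QE

theorem hp3_QE_E4 (N : ℕ) : hp3_QE (hp3_res N E₄) hp3_E := by
  unfold hp3_QE
  have : qExpansion 1 (hp3_res N E₄) = qExpansion 1 E₄ := rfl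
  rw [this, sturm_E4_qExpansion, hp3_E]
  simp

theorem hp3_QE_E6 (N : ℕ) : hp3_QE (hp3_res N E₆) hp3_F := by
  unfold hp3_QE
  have : qExpansion 1 (hp3_res N E₆) = qExpansion 1 E₆ := rfl
  rw [this, sturm_E6_qExpansion, hp3_F]
  simp

theorem hp3_QE_E4_three : hp3_QE (tw_V 3 E₄) hp3_E3 := by
  unfold hp3_QE
  rw [tw_V_qExpansion, hp3_E3, PowerSeries.map_expand, sturm_E4_qExpansion, hp3_E]
  simp

theorem hp3_QE_E6_three : hp3_QE (tw_V 3 E₆) hp3_F3 := by
  unfold hp3_QE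
  rw [tw_V_qExpansion, hp3_F3, PowerSeries.map_expand, sturm_E6_qExpansion, hp3_F]
  simp

/-! ### The two forms of weight 16 on `Γ₀(3)` and the Sturm bound -/

/-- `81 E₄(3τ) - E₄(τ)`. -/
noncomputable def hp3_fA : ModularForm (Gamma0 3) 4 := ((81 : ℤ) : ℂ) • tw_V 3 E₄ - hp3_res 3 E₄

/-- `E₄(τ) - E₄(3τ)`. -/
noncomputable def hp3_fB : ModularForm (Gamma0 3) 4 := hp3_res 3 E₄ - tw_V 3 E₄

/-- `E₄(τ) + 9 E₄(3τ)`. -/
noncomputable def hp3_fG : ModularForm (Gamma0 3) 4 := hp3_res 3 E₄ + ((9 : ℤ) : ℂ) • tw_V 3 E₄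

theorem hp3_QE_fA : hp3_QE hp3_fA hp3_A0 := (hp3_QE_E4_three.smul 81).sub (hp3_QE_E4 3)

theorem hp3_QE_fB : hp3_QE hp3_fB hp3_B0 := (hp3_QE_E4 3).sub hp3_QE_E4_three

theorem hp3_QE_fG : hp3_QE hp3_fG hp3_G0 := (hp3_QE_E4 3).add (hp3_QE_E4_three.smul 9)

/-- `1728 A₀³ B₀ - 12288000 (E₄³ - E₆²) G₀`, of weight 16. -/
noncomputable def hp3_F1 : ModularForm (Gamma0 3) 16 :=
  ((1728 : ℤ) : ℂ) • ModularForm.mcast (show (4 : ℤ) + 4 + 4 + 4 = 16 by norm_num)
      (((hp3_fA.mul hp3_fA).mul hp3_fA).mul hp3_fB) -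
    ((12288000 : ℤ) : ℂ) • ModularForm.mcast (show (12 : ℤ) + 4 = 16 by norm_num)
      ((ModularForm.mcast (show (4 : ℤ) + 4 + 4 = 12 by norm_num)
          (((hp3_res 3 E₄).mul (hp3_res 3 E₄)).mul (hp3_res 3 E₄)) -
        ModularForm.mcast (show (6 : ℤ) + 6 = 12 by norm_num)
          ((hp3_res 3 E₆).mul (hp3_res 3 E₆))).mul hp3_fG)

/-- `1728 A₀ B₀³ - 110592000 (E₄(3τ)³ - E₆(3τ)²) G₀`, of weight 16. -/
noncomputable def hp3_F2 : ModularForm (Gamma0 3) 16 :=
  ((1728 : ℤ) : ℂ) • ModularForm.mcast (show (4 : ℤ) + 4 + 4 + 4 = 16 by norm_num)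
      (((hp3_fA.mul hp3_fB).mul hp3_fB).mul hp3_fB) -
    ((110592000 : ℤ) : ℂ) • ModularForm.mcast (show (12 : ℤ) + 4 = 16 by norm_num)
      ((ModularForm.mcast (show (4 : ℤ) + 4 + 4 = 12 by norm_num)
          (((tw_V 3 E₄).mul (tw_V 3 E₄)).mul (tw_V 3 E₄)) -
        ModularForm.mcast (show (6 : ℤ) + 6 = 12 by norm_num)
          ((tw_V 3 E₆).mul (tw_V 3 E₆))).mul hp3_fG)

theorem hp3_QE_F1 : hp3_QE hp3_F1 hp3_S1 :=
  (((((hp3_QE_fA.mul hp3_QE_fA).mul hp3_QE_fA).mul hp3_QE_fB).mcast _).smul 1728).sub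
    ((((((((hp3_QE_E4 3).mul (hp3_QE_E4 3)).mul (hp3_QE_E4 3)).mcast _).sub
      ((((hp3_QE_E6 3).mul (hp3_QE_E6 3))).mcast _)).mul hp3_QE_fG).mcast _).smul 12288000)

theorem hp3_QE_F2 : hp3_QE hp3_F2 hp3_S2 :=
  (((((hp3_QE_fA.mul hp3_QE_fB).mul hp3_QE_fB).mul hp3_QE_fB).mcast _).smul 1728).sub
    (((((((hp3_QE_E4_three.mul hp3_QE_E4_three).mul hp3_QE_E4_three).mcast _).sub
      (((hp3_QE_E6_three.mul hp3_QE_E6_three)).mcast _)).mul hp3_QE_fG).mcast _).smul 110592000)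

theorem hp3_index : (Gamma0 3).index = 4 := by
  have h1 : (Gamma0 3).index = Nat.card (SL(2, ℤ) ⧸ Gamma0 3) := rfl
  rw [h1, Fermat.Agent.Lib.card_quotient_Gamma0 3]
  have h2 := Fermat.Agent.Lib.G0C.dedekindPsi_prime_pow Nat.prime_three (e := 1) one_pos
  simpa using h2

/-- A form of weight 16 on `Γ₀(3)` with integral `q`-expansion `S` vanishing to order `6` has
`S = 0`. -/
theorem hp3_sturm {f : ModularForm (Gamma0 3) 16} {S : PowerSeries ℤ} (hf : hp3_QE f S)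
    (hS : ∀ n, n ≤ 5 → S.coeff n = 0) : S = 0 := by
  have h0 : f = 0 := by
    refine ModularForm.sturm_bound_Gamma0 3 f (fun n hn => ?_)
    rw [hp3_index] at hn
    have hn5 : n ≤ 5 := by
      have : ((16 : ℤ) * ((4 : ℕ) : ℤ)).toNat / 12 = 5 := by decide
      omega
    rw [hf, PowerSeries.coeff_map, hS n hn5]
    simp
  have h1 : S.map (Int.castRingHom ℂ) = 0 := by
    rw [← hf, h0]
    exact qExpansion_zero 1
  have hinj : Function.Injective (PowerSeries.map (Int.castRingHom ℂ)) :=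
    PowerSeries.map_injective _ Int.cast_injective
  exact hinj (by rw [h1, map_zero])

theorem hp3_S1_eq_zero : hp3_S1 = 0 := hp3_sturm hp3_QE_F1 fun _ hn => hp3_S1_coeff hn

theorem hp3_S2_eq_zero : hp3_S2 = 0 := hp3_sturm hp3_QE_F2 fun _ hn => hp3_S2_coeff hn

theorem hp3_E_cube_sub : hp3_E * hp3_E * hp3_E - hp3_F * hp3_F = PowerSeries.C 1728 * sturmDelta := by
  have h := sturm_delta_identity
  have h240 : (240 : PowerSeries ℤ) = PowerSeries.C (240 : ℤ) := by simp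
  have h504 : (504 : PowerSeries ℤ) = PowerSeries.C (504 : ℤ) := by simp
  have h1728 : (1728 : PowerSeries ℤ) = PowerSeries.C (1728 : ℤ) := by simp
  rw [h240, h504, h1728] at h
  rw [hp3_E, hp3_F, ← h]
  ring

theorem hp3_C_ne_zero {c : ℤ} (hc : c ≠ 0) : (PowerSeries.C c : PowerSeries ℤ) ≠ 0 := by
  intro h
  apply hc
  have := congrArg (PowerSeries.coeff 0) h
  simpa using this

/-- **First identity**: `A₀³ B₀ = 12288000 Δ G₀`. -/
theorem hp3_K1 :
    hp3_A0 ^ 3 * hp3_B0 = PowerSeries.C 12288000 * (sturmDelta * hp3_G0) := by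
  have h := hp3_S1_eq_zero
  rw [hp3_S1, hp3_E_cube_sub, sub_eq_zero] at h
  have h2 : PowerSeries.C (1728 : ℤ) * (hp3_A0 ^ 3 * hp3_B0) =
      PowerSeries.C (1728 : ℤ) * (PowerSeries.C 12288000 * (sturmDelta * hp3_G0)) := by
    linear_combination h
  exact mul_left_cancel₀ (hp3_C_ne_zero (by norm_num)) h2

/-- **Second identity**: `A₀ B₀³ = 110592000 Δ(q³) G₀`. -/
theorem hp3_K2 :
    hp3_A0 * hp3_B0 ^ 3 = PowerSeries.C 110592000 *
      (PowerSeries.expand 3 (by norm_num) sturmDelta * hp3_G0) := by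
  have h := hp3_S2_eq_zero
  have h3 : hp3_E3 * hp3_E3 * hp3_E3 - hp3_F3 * hp3_F3 =
      PowerSeries.C 1728 * PowerSeries.expand 3 (by norm_num) sturmDelta := by
    have := congrArg (PowerSeries.expand 3 (by norm_num : (3 : ℕ) ≠ 0)) hp3_E_cube_sub
    simp only [map_sub, map_mul] at this
    rw [hp3_E3, hp3_F3, this]
    congr 1
    exact PowerSeries.expand_C 3 (by norm_num) (1728 : ℤ)
  rw [hp3_S2, h3, sub_eq_zero] at h
  have h2 : PowerSeries.C (1728 : ℤ) * (hp3_A0 * hp3_B0 ^ 3) =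
      PowerSeries.C (1728 : ℤ) * (PowerSeries.C 110592000 *
        (PowerSeries.expand 3 (by norm_num) sturmDelta * hp3_G0)) := by
    linear_combination h
  exact mul_left_cancel₀ (hp3_C_ne_zero (by norm_num)) h2

end Fermat.Agent.S18
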