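import Mathlib
import Fermat.Agent.S16.LevelOneSturm
import Fermat.Agent.S16.TwistLemma
import Fermat.Agent.S16.KeySmallSturm
import Fermat.Agent.S24.EtaBridge
import Fermat.Prelude.Thm_ModularForm_sturm_bound_Gamma0

/-!
# S18, row B2: the two Sturm identities behind the level-3 Hauptmodul relations (helper80)

With `Δ₃ = Δ(q³)` and integral `q`-expansions:

* `h80_sturm_one` : `(Δ² + 196830 Δ Δ₃ + 3¹⁸ Δ₃²)² = Δ Δ₃ (E₄³ - 756 Δ - 19131876 Δ₃)²`;
* `h80_sturm_two` : `(Δ² + 270 Δ Δ₃ + 729 Δ₃²)² = Δ Δ₃ (E₄(q³)³ - 36 Δ - 756 Δ₃)²`;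
* `h80_delta_eq`  : `sturmDelta = X * dedekindEtaUnit` (the eta-product form of `Δ`).

The two identities hold in `M₄₈(Γ₀(3))` by the Sturm bound (17 coefficients each), checked on
explicit integer coefficient lists.  They are the squares of
`j h³ = (h + 27)(h + 243)³` and `j(q³) h = (h + 27)(h + 3)³` for
`h = q⁻¹ ∏ (1 - qⁿ)¹² / (1 - q³ⁿ)¹²`.
-/

set_option autoImplicit false

namespace Fermat.Agent.S18

open Fermat.Agent.S16

/-! ### Truncated power series arithmetic on coefficient lists (17 coefficients) -/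

/-- Truncated product of coefficient lists (17 coefficients). -/
def h80_mul (a b : List ℤ) : List ℤ :=
  (List.range 17).map fun k => ((List.range (k + 1)).map fun i => a.getD i 0 * b.getD (k - i) 0).sum

/-- Truncated sum of coefficient lists. -/
def h80_add (a b : List ℤ) : List ℤ := (List.range 17).map fun k => a.getD k 0 + b.getD k 0

/-- Truncated difference of coefficient lists. -/
def h80_sub (a b : List ℤ) : List ℤ := (List.range 17).map fun k => a.getD k 0 - b.getD k 0

/-- Scalar multiple of a coefficient list. -/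
def h80_smul (c : ℤ) (a : List ℤ) : List ℤ := (List.range 17).map fun k => c * a.getD k 0

/-- Coefficient list of `f(q³)`. -/
def h80_exp3 (a : List ℤ) : List ℤ :=
  (List.range 17).map fun k => if k % 3 = 0 then a.getD (k / 3) 0 else 0

/-- `a` lists the first 17 coefficients of `f`. -/
def h80_Approx (f : PowerSeries ℤ) (a : List ℤ) : Prop :=
  ∀ n < 17, PowerSeries.coeff n f = a.getD n 0

theorem h80_getD_map_range (F : ℕ → ℤ) {n : ℕ} (hn : n < 17) :
    ((List.range 17).map F).getD n 0 = F n := by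
  rw [List.getD_eq_getElem?_getD, List.getElem?_map, List.getElem?_range hn]
  rfl

theorem h80_sum_map_range (F : ℕ → ℤ) (m : ℕ) :
    ((List.range m).map F).sum = ∑ i ∈ Finset.range m, F i := by
  induction m with
  | zero => simp
  | succ m ih => rw [List.range_succ, List.map_append, List.sum_append, ih, Finset.sum_range_succ]; simp

theorem h80_approx_mul {f g : PowerSeries ℤ} {a b : List ℤ} (hf : h80_Approx f a)
    (hg : h80_Approx g b) : h80_Approx (f * g) (h80_mul a b) := by
  intro n hn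
  rw [h80_mul, h80_getD_map_range _ hn, h80_sum_map_range, PowerSeries.coeff_mul,
    Finset.Nat.sum_antidiagonal_eq_sum_range_succ_mk]
  refine Finset.sum_congr rfl fun i hi => ?_
  rw [Finset.mem_range] at hi
  rw [hf i (by omega), hg (n - i) (by omega)]

theorem h80_approx_add {f g : PowerSeries ℤ} {a b : List ℤ} (hf : h80_Approx f a)
    (hg : h80_Approx g b) : h80_Approx (f + g) (h80_add a b) := by
  intro n hn
  rw [h80_add, h80_getD_map_range _ hn, map_add, hf n hn, hg n hn]

theorem h80_approx_sub {f g : PowerSeries ℤ} {a b : List ℤ} (hf : h80_Approx f a)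
    (hg : h80_Approx g b) : h80_Approx (f - g) (h80_sub a b) := by
  intro n hn
  rw [h80_sub, h80_getD_map_range _ hn, map_sub, hf n hn, hg n hn]

theorem h80_approx_smul (c : ℤ) {f : PowerSeries ℤ} {a : List ℤ} (hf : h80_Approx f a) :
    h80_Approx (PowerSeries.C c * f) (h80_smul c a) := by
  intro n hn
  rw [h80_smul, h80_getD_map_range _ hn, PowerSeries.coeff_C_mul, hf n hn]

theorem h80_approx_exp3 {f : PowerSeries ℤ} {a : List ℤ} (hf : h80_Approx f a) :
    h80_Approx (PowerSeries.expand 3 (by norm_num) f) (h80_exp3 a) := by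
  intro n hn
  rw [h80_exp3, h80_getD_map_range _ hn, PowerSeries.coeff_expand]
  by_cases h : 3 ∣ n
  · rw [if_pos h, if_pos (Nat.mod_eq_zero_of_dvd h)]
    exact hf _ (by omega)
  · rw [if_neg h, if_neg (fun h' => h (Nat.dvd_of_mod_eq_zero h'))]

theorem h80_approx_one : h80_Approx 1 [1] := by
  intro n hn
  rw [PowerSeries.coeff_one]
  rcases n with _ | n
  · rfl
  · simp

theorem h80_approx_congr {f : PowerSeries ℤ} {a b : List ℤ} (hf : h80_Approx f a) (h : a = b) :
    h80_Approx f b := h ▸ hf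

/-! ### The series involved -/

/-- `Δ(q³)`. -/
noncomputable def h80_D3 : PowerSeries ℤ := PowerSeries.expand 3 (by norm_num) sturmDelta

/-- `E₄(q)`. -/
noncomputable def h80_E4 : PowerSeries ℤ := 1 + PowerSeries.C 240 * sturmA

/-- `E₄(q³)`. -/
noncomputable def h80_E43 : PowerSeries ℤ := PowerSeries.expand 3 (by norm_num) h80_E4

/-- `Δ² + 196830 Δ Δ₃ + 3¹⁸ Δ₃²`. -/
noncomputable def h80_S : PowerSeries ℤ :=
  sturmDelta * sturmDelta + PowerSeries.C 196830 * (sturmDelta * h80_D3) +
    PowerSeries.C 387420489 * (h80_D3 * h80_D3)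

/-- `E₄³ - 756 Δ - 19131876 Δ₃`. -/
noncomputable def h80_W : PowerSeries ℤ :=
  h80_E4 * h80_E4 * h80_E4 - PowerSeries.C 756 * sturmDelta - PowerSeries.C 19131876 * h80_D3

/-- `Δ² + 270 Δ Δ₃ + 729 Δ₃²`. -/
noncomputable def h80_S2 : PowerSeries ℤ :=
  sturmDelta * sturmDelta + PowerSeries.C 270 * (sturmDelta * h80_D3) +
    PowerSeries.C 729 * (h80_D3 * h80_D3)

/-- `E₄(q³)³ - 36 Δ - 756 Δ₃`. -/
noncomputable def h80_W2 : PowerSeries ℤ :=
  h80_E43 * h80_E43 * h80_E43 - PowerSeries.C 36 * sturmDelta - PowerSeries.C 756 * h80_D3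

/-! ### Coefficient tables -/

def h80_aL : List ℤ :=
  [0, 1, 9, 28, 73, 126, 252, 344, 585, 757, 1134, 1332, 2044, 2198, 3096, 3528, 4681]

def h80_bL : List ℤ :=
  [0, 1, 33, 244, 1057, 3126, 8052, 16808, 33825, 59293, 103158, 161052, 257908, 371294, 554664, 762744, 1082401]

def h80_dL : List ℤ :=
  [0, 0, -2, -18, -82, -250, -650, -1372, -2770, -4878, -8502, -13310, -21322, -30758, -45964, -63268, -89810]

theorem h80_approx_A : h80_Approx sturmA h80_aL := by
  intro n hn
  rw [sturmA, PowerSeries.coeff_mk]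
  interval_cases n <;> simp [h80_aL, ArithmeticFunction.sigma_apply] <;> decide

theorem h80_approx_B : h80_Approx sturmB h80_bL := by
  intro n hn
  rw [sturmB, PowerSeries.coeff_mk]
  interval_cases n <;> simp [h80_bL, ArithmeticFunction.sigma_apply] <;> decide

theorem h80_approx_Dd : h80_Approx sturmD h80_dL := by
  intro n hn
  rw [sturmD, PowerSeries.coeff_mk]
  interval_cases n <;> simp [h80_dL, ArithmeticFunction.sigma_apply] <;> decide

theorem h80_ap_A2 :
    h80_Approx (sturmA * sturmA)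
      [0, 0, 1, 18, 137, 650, 2350, 6860, 17609, 39870, 83976, 162382, 301070, 522886, 885284, 1424468, 2254537] :=
  h80_approx_congr (h80_approx_mul h80_approx_A h80_approx_A) (by decide +kernel)

theorem h80_ap_A3 :
    h80_Approx (sturmA * sturmA * sturmA)
      [0, 0, 0, 1, 27, 327, 2460, 13476, 58731, 214741, 685182, 1954953, 5095048, 12285903, 27778566, 59311440, 120695979] :=
  h80_approx_congr (h80_approx_mul h80_ap_A2 h80_approx_A) (by decide +kernel)

theorem h80_ap_B2 :
    h80_Approx (sturmB * sturmB)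
      [0, 0, 1, 66, 1577, 18218, 135550, 738236, 3207785, 11714718, 37347144, 106499470, 277489886, 668981686, 1512360404, 3228797252, 6570019945] :=
  h80_approx_congr (h80_approx_mul h80_approx_B h80_approx_B) (by decide +kernel)

theorem h80_ap_Dexpr :
    h80_Approx (sturmB + PowerSeries.C 100 * (sturmA * sturmA) + PowerSeries.C 8000 * (sturmA * sturmA * sturmA) - PowerSeries.C 147 * (sturmB * sturmB) + PowerSeries.C 5 * sturmD)
      [0, 1, -24, 252, -1472, 4830, -6048, -16744, 84480, -113643, -115920, 534612, -370944, -577738, 401856, 1217160, 987136] :=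
  h80_approx_congr (h80_approx_add (h80_approx_sub (h80_approx_add (h80_approx_add h80_approx_B (h80_approx_smul 100 h80_ap_A2)) (h80_approx_smul 8000 h80_ap_A3)) (h80_approx_smul 147 h80_ap_B2)) (h80_approx_smul 5 h80_approx_Dd)) (by decide +kernel)

theorem h80_ap_Delta :
    h80_Approx sturmDelta
      [0, 1, -24, 252, -1472, 4830, -6048, -16744, 84480, -113643, -115920, 534612, -370944, -577738, 401856, 1217160, 987136] := by
  have h : sturmDelta = sturmB + PowerSeries.C 100 * (sturmA * sturmA) +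
      PowerSeries.C 8000 * (sturmA * sturmA * sturmA) - PowerSeries.C 147 * (sturmB * sturmB) +
      PowerSeries.C 5 * sturmD := by
    have e1 : (PowerSeries.C (100 : ℤ) : PowerSeries ℤ) = 100 := map_ofNat _ _
    have e2 : (PowerSeries.C (8000 : ℤ) : PowerSeries ℤ) = 8000 := map_ofNat _ _
    have e3 : (PowerSeries.C (147 : ℤ) : PowerSeries ℤ) = 147 := map_ofNat _ _
    have e4 : (PowerSeries.C (5 : ℤ) : PowerSeries ℤ) = 5 := map_ofNat _ _
    rw [e1, e2, e3, e4, sturmDelta]
    ring
  rw [h]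
  exact h80_ap_Dexpr

theorem h80_ap_D3 :
    h80_Approx (h80_D3)
      [0, 0, 0, 1, 0, 0, -24, 0, 0, 252, 0, 0, -1472, 0, 0, 4830, 0] :=
  h80_approx_congr (h80_approx_exp3 h80_ap_Delta) (by decide +kernel)

theorem h80_ap_E4 :
    h80_Approx (h80_E4)
      [1, 240, 2160, 6720, 17520, 30240, 60480, 82560, 140400, 181680, 272160, 319680, 490560, 527520, 743040, 846720, 1123440] :=
  h80_approx_congr (h80_approx_add h80_approx_one (h80_approx_smul 240 h80_approx_A)) (by decide +kernel)

theorem h80_ap_E43 :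
    h80_Approx (h80_E43)
      [1, 0, 0, 240, 0, 0, 2160, 0, 0, 6720, 0, 0, 17520, 0, 0, 30240, 0] :=
  h80_approx_congr (h80_approx_exp3 h80_ap_E4) (by decide +kernel)

theorem h80_ap_DD :
    h80_Approx (sturmDelta * sturmDelta)
      [0, 0, 1, -48, 1080, -15040, 143820, -985824, 4857920, -16295040, 28412910, 38671600, -424520544, 1268350272, -1211937160, -4306546080, 18293091840] :=
  h80_approx_congr (h80_approx_mul h80_ap_Delta h80_ap_Delta) (by decide +kernel)

theorem h80_ap_DD3 :
    h80_Approx (sturmDelta * h80_D3)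
      [0, 0, 0, 0, 1, -24, 252, -1496, 5406, -12096, 18836, -37488, 95013, -86480, -240420, 461448, 156468] :=
  h80_approx_congr (h80_approx_mul h80_ap_Delta h80_ap_D3) (by decide +kernel)

theorem h80_ap_D3D3 :
    h80_Approx (h80_D3 * h80_D3)
      [0, 0, 0, 0, 0, 0, 1, 0, 0, -48, 0, 0, 1080, 0, 0, -15040, 0] :=
  h80_approx_congr (h80_approx_mul h80_ap_D3 h80_ap_D3) (by decide +kernel)

theorem h80_ap_S :
    h80_Approx (h80_S)
      [0, 0, 1, -48, 197910, -4738960, 437165469, -295443504, 1068920900, -20993334192, 3735902790, -7340091440, 436691016366, -15753508128, -48533805760, -5740283890800, 49090688280] :=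
  h80_approx_congr (h80_approx_add (h80_approx_add h80_ap_DD (h80_approx_smul 196830 h80_ap_DD3)) (h80_approx_smul 387420489 h80_ap_D3D3)) (by decide +kernel)

theorem h80_ap_SS :
    h80_Approx (h80_S * h80_S)
      [0, 0, 0, 0, 1, -96, 398124, -28477280, 40497639198, -1918333919232, 195527078239364, -4260506392772544, 194338960283947653, -276756497621582912, 1222330942278791628, -19025088944838264288, 17056116962597468244] :=
  h80_approx_congr (h80_approx_mul h80_ap_S h80_ap_S) (by decide +kernel)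

theorem h80_ap_E4sq :
    h80_Approx (h80_E4 * h80_E4)
      [1, 480, 61920, 1050240, 7926240, 37500480, 135480960, 395301120, 1014559200, 2296875360, 4837561920, 9353842560, 17342613120, 30119288640, 50993844480, 82051050240, 129863578080] :=
  h80_approx_congr (h80_approx_mul h80_ap_E4 h80_ap_E4) (by decide +kernel)

theorem h80_ap_E4cu :
    h80_Approx (h80_E4 * h80_E4 * h80_E4)
      [1, 720, 179280, 16954560, 396974160, 4632858720, 34413301440, 187477879680, 814940600400, 2975469665040, 9486467837280, 27053330840640, 70485969919680, 169930679355360, 384163875688320, 820167497170560, 1668890801059920] :=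
  h80_approx_congr (h80_approx_mul h80_ap_E4sq h80_ap_E4) (by decide +kernel)

theorem h80_ap_W :
    h80_Approx (h80_W)
      [1, -36, 197424, -2367828, 398086992, 4629207240, 34877038752, 187490538144, 814876733520, 2970734346396, 9486555472800, 27052926673968, 70514412474816, 169931116125288, 384163571885184, 820074170036520, 1668890054785104] :=
  h80_approx_congr (h80_approx_sub (h80_approx_sub h80_ap_E4cu (h80_approx_smul 756 h80_ap_Delta)) (h80_approx_smul 19131876 h80_ap_D3)) (by decide +kernel)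

theorem h80_ap_WW :
    h80_Approx (h80_W * h80_W)
      [1, -72, 396144, -18950184, 39942893376, -954335999088, 162526913211024, -59505997601088, 150310179590128992, 3594466247553264312, 48631417400980693152, 469494553014161059680, 3590732165460948648864, 22953669471447451867728, 126950632927311897842688, 621886626324436636458576, 2745675023060155245187104] :=
  h80_approx_congr (h80_approx_mul h80_ap_W h80_ap_W) (by decide +kernel)

theorem h80_ap_R :
    h80_Approx (sturmDelta * h80_D3 * (h80_W * h80_W))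
      [0, 0, 0, 0, 1, -96, 398124, -28477280, 40497639198, -1918333919232, 195527078239364, -4260506392772544, 194338960283947653, -276756497621582912, 1222330942278791628, -19025088944838264288, 17056116962597468244] :=
  h80_approx_congr (h80_approx_mul h80_ap_DD3 h80_ap_WW) (by decide +kernel)

theorem h80_ap_Z :
    h80_Approx (h80_S * h80_S - sturmDelta * h80_D3 * (h80_W * h80_W))
      [0, 0, 0, 0, 0, 0, 0, 0, 0, 0, 0, 0, 0, 0, 0, 0, 0] :=
  h80_approx_congr (h80_approx_sub h80_ap_SS h80_ap_R) (by decide +kernel)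

theorem h80_ap_S2 :
    h80_Approx (h80_S2)
      [0, 0, 1, -48, 1350, -21520, 212589, -1389744, 6317540, -19595952, 33498630, 28549840, -398079714, 1245000672, -1276850560, -4192919280, 18335338200] :=
  h80_approx_congr (h80_approx_add (h80_approx_add h80_ap_DD (h80_approx_smul 270 h80_ap_DD3)) (h80_approx_smul 729 h80_ap_D3D3)) (by decide +kernel)

theorem h80_ap_SS2 :
    h80_Approx (h80_S2 * h80_S2)
      [0, 0, 0, 0, 1, -96, 5004, -172640, 4313598, -81292032, 1183151204, -13547815104, 124014231333, -918863335232, 5547786538668, -27215285112288, 106195231483284] :=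
  h80_approx_congr (h80_approx_mul h80_ap_S2 h80_ap_S2) (by decide +kernel)

theorem h80_ap_E43sq :
    h80_Approx (h80_E43 * h80_E43)
      [1, 0, 0, 480, 0, 0, 61920, 0, 0, 1050240, 0, 0, 7926240, 0, 0, 37500480, 0] :=
  h80_approx_congr (h80_approx_mul h80_ap_E43 h80_ap_E43) (by decide +kernel)

theorem h80_ap_E43cu :
    h80_Approx (h80_E43 * h80_E43 * h80_E43)
      [1, 0, 0, 720, 0, 0, 179280, 0, 0, 16954560, 0, 0, 396974160, 0, 0, 4632858720, 0] :=
  h80_approx_congr (h80_approx_mul h80_ap_E43sq h80_ap_E43) (by decide +kernel)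

theorem h80_ap_W2 :
    h80_Approx (h80_W2)
      [1, -36, 864, -9108, 52992, -173880, 415152, 602784, -3041280, 20855196, 4173120, -19246032, 411440976, 20798568, -14466816, 4585389480, -35536896] :=
  h80_approx_congr (h80_approx_sub (h80_approx_sub h80_ap_E43cu (h80_approx_smul 36 h80_ap_Delta)) (h80_approx_smul 756 h80_ap_D3)) (by decide +kernel)

theorem h80_ap_WW2 :
    h80_Approx (h80_W2 * h80_W2)
      [1, -72, 3024, -80424, 1508256, -19901808, 187875504, -1294452288, 6643449792, -24688613448, 56504850912, 10610978400, -730078502976, 3629589741648, -7912128114432, 2710010642256, 87421775197824] :=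
  h80_approx_congr (h80_approx_mul h80_ap_W2 h80_ap_W2) (by decide +kernel)

theorem h80_ap_R2 :
    h80_Approx (sturmDelta * h80_D3 * (h80_W2 * h80_W2))
      [0, 0, 0, 0, 1, -96, 5004, -172640, 4313598, -81292032, 1183151204, -13547815104, 124014231333, -918863335232, 5547786538668, -27215285112288, 106195231483284] :=
  h80_approx_congr (h80_approx_mul h80_ap_DD3 h80_ap_WW2) (by decide +kernel)

theorem h80_ap_Z2 :
    h80_Approx (h80_S2 * h80_S2 - sturmDelta * h80_D3 * (h80_W2 * h80_W2))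
      [0, 0, 0, 0, 0, 0, 0, 0, 0, 0, 0, 0, 0, 0, 0, 0, 0] :=
  h80_approx_congr (h80_approx_sub h80_ap_SS2 h80_ap_R2) (by decide +kernel)

theorem h80_zero_getD (n : ℕ) (hn : n < 17) :
    ([0, 0, 0, 0, 0, 0, 0, 0, 0, 0, 0, 0, 0, 0, 0, 0, 0] : List ℤ).getD n 0 = 0 := by
  interval_cases n <;> rfl

/-- The first Sturm check: coefficients `0, …, 16`. -/
theorem h80_coeff_Z (n : ℕ) (hn : n ≤ 16) :
    PowerSeries.coeff n (h80_S * h80_S - sturmDelta * h80_D3 * (h80_W * h80_W)) = 0 := by
  rw [h80_ap_Z n (by omega), h80_zero_getD n (by omega)]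

/-- The second Sturm check: coefficients `0, …, 16`. -/
theorem h80_coeff_Z2 (n : ℕ) (hn : n ≤ 16) :
    PowerSeries.coeff n (h80_S2 * h80_S2 - sturmDelta * h80_D3 * (h80_W2 * h80_W2)) = 0 := by
  rw [h80_ap_Z2 n (by omega), h80_zero_getD n (by omega)]


/-! ### The modular forms on `Γ₀(3)` and the two Sturm identities -/

section Modular

open UpperHalfPlane ModularForm CongruenceSubgroup
open scoped MatrixGroups ModularForm

/-- A level-one form, viewed as a form on `Γ₀(3)`. -/
noncomputable def h80_res {k : ℤ} (g : ModularForm 𝒮ℒ k) : ModularForm (Gamma0 3) k where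
  toFun := g
  slash_action_eq' γ hγ := g.slash_action_eq' γ (Subgroup.map_le_range _ _ hγ)
  holo' := g.holo'
  bdd_at_cusps' hc := g.bdd_at_cusps' (hc.mono (Subgroup.map_le_range _ _))

theorem h80_res_qExpansion {k : ℤ} (g : ModularForm 𝒮ℒ k) :
    qExpansion 1 (h80_res g) = qExpansion 1 g := rfl

/-- `Δ` as a level-one modular form. -/
noncomputable def h80_DeltaM : ModularForm 𝒮ℒ 12 := CuspForm.toModularFormₗ CuspForm.discriminant

theorem h80_DeltaM_qExpansion :
    qExpansion 1 h80_DeltaM = sturmDelta.map (Int.castRingHom ℂ) := sturm_delta_qExpansion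

/-- `f` is a form on `Γ₀(3)` whose `q`-expansion is the integral series `P`. -/
def h80_HasQ {k : ℤ} (f : ModularForm (Gamma0 3) k) (P : PowerSeries ℤ) : Prop :=
  qExpansion 1 f = P.map (Int.castRingHom ℂ)

theorem h80_hasQ_D : h80_HasQ (h80_res h80_DeltaM) sturmDelta := h80_DeltaM_qExpansion

theorem h80_hasQ_D3 : h80_HasQ (tw_V 3 h80_DeltaM) h80_D3 := by
  rw [h80_HasQ, tw_V_qExpansion, h80_DeltaM_qExpansion, h80_D3, PowerSeries.map_expand]

theorem h80_E4_eq : h80_E4 = 1 + 240 * sturmA := by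
  rw [h80_E4, show (PowerSeries.C (240 : ℤ) : PowerSeries ℤ) = 240 from map_ofNat _ _]

theorem h80_hasQ_E4 : h80_HasQ (h80_res E₄) h80_E4 := by
  rw [h80_HasQ, h80_res_qExpansion, sturm_E4_qExpansion, h80_E4_eq]

theorem h80_hasQ_E43 : h80_HasQ (tw_V 3 E₄) h80_E43 := by
  rw [h80_HasQ, tw_V_qExpansion, sturm_E4_qExpansion, h80_E43, PowerSeries.map_expand, h80_E4_eq]

theorem h80_hasQ_mul {a b : ℤ} {f : ModularForm (Gamma0 3) a} {g : ModularForm (Gamma0 3) b}
    {P Q : PowerSeries ℤ} (hf : h80_HasQ f P) (hg : h80_HasQ g Q) : h80_HasQ (f.mul g) (P * Q) := by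
  rw [h80_HasQ, ModularForm.qExpansion_mul one_pos (one_mem_strictPeriods_Gamma0 3), hf, hg,
    map_mul]

theorem h80_hasQ_mcast {a b : ℤ} (h : a = b) {f : ModularForm (Gamma0 3) a}
    {P : PowerSeries ℤ} (hf : h80_HasQ f P) : h80_HasQ (ModularForm.mcast h f) P := hf

theorem h80_hasQ_add {a : ℤ} {f g : ModularForm (Gamma0 3) a}
    {P Q : PowerSeries ℤ} (hf : h80_HasQ f P) (hg : h80_HasQ g Q) : h80_HasQ (f + g) (P + Q) := by
  rw [h80_HasQ, FunLike.coe_add, ModularForm.qExpansion_add one_pos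
    (one_mem_strictPeriods_Gamma0 3), hf, hg, map_add]

theorem h80_hasQ_sub {a : ℤ} {f g : ModularForm (Gamma0 3) a}
    {P Q : PowerSeries ℤ} (hf : h80_HasQ f P) (hg : h80_HasQ g Q) : h80_HasQ (f - g) (P - Q) := by
  rw [h80_HasQ, FunLike.coe_sub, ModularForm.qExpansion_sub one_pos
    (one_mem_strictPeriods_Gamma0 3), hf, hg, map_sub]

theorem h80_hasQ_smul {a : ℤ} (c : ℤ) {f : ModularForm (Gamma0 3) a}
    {P : PowerSeries ℤ} (hf : h80_HasQ f P) :
    h80_HasQ ((c : ℂ) • f) (PowerSeries.C c * P) := by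
  rw [h80_HasQ, FunLike.coe_smul, ModularForm.qExpansion_smul one_pos
    (one_mem_strictPeriods_Gamma0 3), hf, map_mul, PowerSeries.map_C, PowerSeries.smul_eq_C_mul]
  rfl

/-- A `Γ₀(3)`-form of weight `48` whose integral `q`-expansion vanishes up to `q¹⁶` is zero
(Sturm bound `48 · 4 / 12 = 16`). -/
theorem h80_sturm48 {f : ModularForm (Gamma0 3) 48} {P : PowerSeries ℤ} (hf : h80_HasQ f P)
    (h : ∀ n ≤ 16, PowerSeries.coeff n P = 0) : P = 0 := by
  have hidx : (Gamma0 3).index = 4 := h56_index_Gamma0_prime 3 (by norm_num)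
  have hf0 : f = 0 := by
    apply ModularForm.sturm_bound_Gamma0 3
    intro n hn
    rw [hidx] at hn
    have hn' : n ≤ 16 := by
      have : ((48 : ℤ) * ((4 : ℕ) : ℤ)).toNat / 12 = 16 := by decide
      omega
    rw [hf, PowerSeries.coeff_map, h n hn', map_zero]
  have h0 : P.map (Int.castRingHom ℂ) = 0 := by
    rw [← hf, hf0]
    exact UpperHalfPlane.qExpansion_zero 1
  apply PowerSeries.map_injective (Int.castRingHom ℂ) Int.cast_injective
  rw [h0, map_zero]

theorem h80_hasQ_DD3 :
    h80_HasQ (ModularForm.mcast (show (12 : ℤ) + 12 = 24 by norm_num)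
      ((h80_res h80_DeltaM).mul (tw_V 3 h80_DeltaM))) (sturmDelta * h80_D3) :=
  h80_hasQ_mcast _ (h80_hasQ_mul h80_hasQ_D h80_hasQ_D3)

/-- **First Sturm identity** in `M₄₈(Γ₀(3))`:
`(Δ² + 196830 Δ Δ₃ + 3¹⁸ Δ₃²)² = Δ Δ₃ (E₄³ - 756 Δ - 19131876 Δ₃)²`, `Δ₃ = Δ(q³)`. -/
theorem h80_sturm_one : h80_S * h80_S = sturmDelta * h80_D3 * (h80_W * h80_W) := by
  have hDD := h80_hasQ_mcast (show (12 : ℤ) + 12 = 24 by norm_num)
    (h80_hasQ_mul h80_hasQ_D h80_hasQ_D)
  have hD3D3 := h80_hasQ_mcast (show (12 : ℤ) + 12 = 24 by norm_num)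
    (h80_hasQ_mul h80_hasQ_D3 h80_hasQ_D3)
  have hS : h80_HasQ _ h80_S :=
    h80_hasQ_add (h80_hasQ_add hDD (h80_hasQ_smul 196830 h80_hasQ_DD3))
      (h80_hasQ_smul 387420489 hD3D3)
  have hE3 := h80_hasQ_mcast (show (4 : ℤ) + 4 + 4 = 12 by norm_num)
    (h80_hasQ_mul (h80_hasQ_mul h80_hasQ_E4 h80_hasQ_E4) h80_hasQ_E4)
  have hW : h80_HasQ _ h80_W :=
    h80_hasQ_sub (h80_hasQ_sub hE3 (h80_hasQ_smul 756 h80_hasQ_D))
      (h80_hasQ_smul 19131876 h80_hasQ_D3)
  have hSS := h80_hasQ_mcast (show (24 : ℤ) + 24 = 48 by norm_num) (h80_hasQ_mul hS hS)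
  have hR := h80_hasQ_mcast (show (24 : ℤ) + (12 + 12) = 48 by norm_num)
    (h80_hasQ_mul h80_hasQ_DD3 (h80_hasQ_mul hW hW))
  exact sub_eq_zero.mp (h80_sturm48 (h80_hasQ_sub hSS hR) h80_coeff_Z)

/-- **Second Sturm identity** in `M₄₈(Γ₀(3))` (Fricke companion):
`(Δ² + 270 Δ Δ₃ + 729 Δ₃²)² = Δ Δ₃ (E₄(q³)³ - 36 Δ - 756 Δ₃)²`. -/
theorem h80_sturm_two : h80_S2 * h80_S2 = sturmDelta * h80_D3 * (h80_W2 * h80_W2) := by
  have hDD := h80_hasQ_mcast (show (12 : ℤ) + 12 = 24 by norm_num)
    (h80_hasQ_mul h80_hasQ_D h80_hasQ_D)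
  have hD3D3 := h80_hasQ_mcast (show (12 : ℤ) + 12 = 24 by norm_num)
    (h80_hasQ_mul h80_hasQ_D3 h80_hasQ_D3)
  have hS : h80_HasQ _ h80_S2 :=
    h80_hasQ_add (h80_hasQ_add hDD (h80_hasQ_smul 270 h80_hasQ_DD3))
      (h80_hasQ_smul 729 hD3D3)
  have hE3 := h80_hasQ_mcast (show (4 : ℤ) + 4 + 4 = 12 by norm_num)
    (h80_hasQ_mul (h80_hasQ_mul h80_hasQ_E43 h80_hasQ_E43) h80_hasQ_E43)
  have hW : h80_HasQ _ h80_W2 :=
    h80_hasQ_sub (h80_hasQ_sub hE3 (h80_hasQ_smul 36 h80_hasQ_D))
      (h80_hasQ_smul 756 h80_hasQ_D3)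
  have hSS := h80_hasQ_mcast (show (24 : ℤ) + 24 = 48 by norm_num) (h80_hasQ_mul hS hS)
  have hR := h80_hasQ_mcast (show (24 : ℤ) + (12 + 12) = 48 by norm_num)
    (h80_hasQ_mul h80_hasQ_DD3 (h80_hasQ_mul hW hW))
  exact sub_eq_zero.mp (h80_sturm48 (h80_hasQ_sub hSS hR) h80_coeff_Z2)

/-! ### The eta-product form of `Δ` -/

open Fermat.Agent.S24 in
/-- The integral `q`-expansion of `Δ` is `q ∏ (1 - qⁿ)²⁴`. -/
theorem h80_delta_eq : sturmDelta = PowerSeries.X * ModularCurve.dedekindEtaUnit := by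
  set φ : ℂ → ℂ := fun q : ℂ => (∏' n : ℕ, (1 - q ^ (n + 1))) ^ 24 with hφ
  have hF : AnalyticAt ℂ (fun q : ℂ => ∏' n : ℕ, (1 - q ^ (n + 1))) 0 :=
    ModularForm.differentiableOn_tprod_one_sub_pow.analyticAt aj5_ball_mem_nhds
  have hφan : AnalyticAt ℂ φ 0 := hF.fun_pow 24
  have hid : AnalyticAt ℂ (fun q : ℂ => q) 0 := analyticAt_id
  have hgerm : cuspFunction 1 CuspForm.discriminant =ᶠ[nhds 0] fun q => q * φ q := by
    filter_upwards [Metric.ball_mem_nhds (0 : ℂ) one_pos] with q hq
    have hq1 : ‖q‖ < 1 := by simpa using hq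
    by_cases hq0 : q = 0
    · subst hq0
      rw [zero_mul]
      exact CuspFormClass.cuspFunction_apply_zero CuspForm.discriminant one_pos
        one_mem_strictPeriods_SL
    · have him := Function.Periodic.im_invQParam_pos_of_norm_lt_one one_pos hq1 hq0
      set τ : ℍ := ⟨Function.Periodic.invQParam 1 q, him⟩ with hτ
      have hqτ : Function.Periodic.qParam 1 (τ : ℂ) = q :=
        Function.Periodic.qParam_right_inv one_ne_zero hq0
      have e2 : cuspFunction 1 CuspForm.discriminant q = CuspForm.discriminant τ := by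
        rw [← hqτ]
        exact SlashInvariantFormClass.eq_cuspFunction CuspForm.discriminant τ
          one_mem_strictPeriods_SL one_ne_zero
      have hqn : ‖Function.Periodic.qParam 1 (τ : ℂ)‖ < 1 :=
        Function.Periodic.norm_qParam_lt_one one_pos τ.im_pos
      rw [e2, CuspForm.coe_discriminant, ModularForm.discriminant_eq_q_prod,
        (ModularForm.multipliable_one_sub_pow hqn).tprod_pow, hqτ]
  have hT := aj5_ts_congr hgerm
  have hidts : aj5_ts (fun q : ℂ => q) = PowerSeries.X := by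
    ext n
    rw [aj5_ts_coeff, iteratedDeriv_fun_id_zero, PowerSeries.coeff_X]
    by_cases h : n = 1
    · subst h; simp
    · simp [h]
  have hφts : aj5_ts φ = PowerSeries.map (Int.castRingHom ℂ) ModularCurve.dedekindEtaUnit := by
    rw [hφ, aj5_ts_pow hF, aj5_ts_tprod, ModularCurve.dedekindEtaUnit, map_pow]
  rw [aj5_ts_mul hid hφan, hidts, hφts] at hT
  have h1 : qExpansion 1 CuspForm.discriminant =
      aj5_ts (cuspFunction 1 CuspForm.discriminant) := rfl
  rw [sturm_delta_qExpansion, hT] at h1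
  apply PowerSeries.map_injective (Int.castRingHom ℂ) Int.cast_injective
  rw [h1, map_mul, PowerSeries.map_X]

end Modular
end Fermat.Agent.S18
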