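import Fermat.Agent.S18.HorizUnram94
import Fermat.Agent.S18.Descent68

/-!
S18 (long shot), horizontal package, part 4 (helper94).

* `hd94_exists_place`: over an algebraically closed field `K` of characteristic `0`, every
  proper valuation subring of a function field `F/K` containing `K` is a (Prelude) `Place`.
* `hd94_exists_place_comap`: for `ι : F₀ → F` over `K₀ → K` (`K/K₀` algebraic), every proper
  valuation subring `W` of `F₀` containing `K₀` is the trace of a place of `F/K`.
* `hd94_isPrincipalIdealRing`: such a `W` is a discrete valuation ring.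
* `hd94_exists_ord_eq_mul`: for a place `P₀` of `F₀/K₀` there are a place `P` of `F/K` and
  `e > 0` with `ord_P (ι x) = e * ord_P₀ x`.
* consumer forms `hd94_ord_eq_one`, `hd94_ord_dvd`, `hd94_uniformizer`, `hd94_tame`:
  the horizontal ramification data over `K` descend to `K₀` (no `e = 1` needed).

All names are prefixed `hd94_`.
-/

set_option autoImplicit false
set_option linter.style.haveILetI false

open AlgebraicCurve IntermediateField

namespace Fermat.Agent.S18

open Fermat.Agent.S24

section Abstract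

open IsDedekindDomain IsDedekindDomain.HeightOneSpectrum WithZero

variable {K F : Type*} [Field K] [Field F] [Algebra K F]
variable {B : Type*} [CommRing B] [IsDedekindDomain B] [Algebra B F] [IsFractionRing B F]

/-- A proper valuation subring of `F` containing a Dedekind domain `B` with fraction field `F`
is the valuation subring of a height one prime of `B`. -/
theorem hd94_exists_heightOneSpectrum (W : ValuationSubring F) (hW : W ≠ ⊤)
    (hB : ∀ b : B, algebraMap B F b ∈ W) :
    ∃ w : HeightOneSpectrum B, (w.valuation F).valuationSubring = W := by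
  classical
  let φ : B →+* W := (algebraMap B F).codRestrict W.toSubring hB
  have hφ : ∀ b : B, ((φ b : W) : F) = algebraMap B F b := fun b => rfl
  let P : Ideal B := (IsLocalRing.maximalIdeal W).comap φ
  have hPprime : P.IsPrime := Ideal.comap_isPrime φ _
  have hunit : ∀ b : B, b ∉ P → (algebraMap B F b)⁻¹ ∈ W := by
    intro b hb
    have hu : IsUnit (φ b) := by
      by_contra hu
      exact hb ((IsLocalRing.mem_maximalIdeal _).mpr hu)
    obtain ⟨c, hc⟩ := hu
    have h1 : ((c : W) : F) * (((c⁻¹ : Wˣ) : W) : F) = 1 :=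
      congrArg Subtype.val c.mul_inv
    rw [hc, hφ] at h1
    rw [← eq_inv_of_mul_eq_one_right h1]
    exact ((c⁻¹ : Wˣ) : W).2
  have hPne : P ≠ ⊥ := by
    intro hP
    apply hW
    refine SetLike.ext fun x => ⟨fun _ => ValuationSubring.mem_top x, fun _ => ?_⟩
    obtain ⟨a, s, rfl⟩ := IsLocalization.exists_mk'_eq (nonZeroDivisors B) x
    rw [IsFractionRing.mk'_eq_div, div_eq_mul_inv]
    refine mul_mem (hB a) (hunit s ?_)
    rw [hP, Ideal.mem_bot]
    exact nonZeroDivisors.coe_ne_zero s
  refine ⟨⟨P, hPprime, hPne⟩, ?_⟩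
  rw [← valuationSubringAtPrime_eq_valuationSubring]
  refine ValuationSubring.eq_of_le_of_ne_top _ ?_ hW
  rintro x ⟨a, s, hs, rfl⟩
  exact mul_mem (hB a) (hunit s hs)

end Abstract

section Concrete

open IsDedekindDomain IsDedekindDomain.HeightOneSpectrum WithZero
open scoped IntermediateField.algebraAdjoinAdjoin

variable {K F : Type*} [Field K] [IsAlgClosed K] [CharZero K] [Field F] [Algebra K F]

omit [IsAlgClosed K] [CharZero K] in
/-- A valuation subring containing `K` and `y` contains the integral closure of `K[y]`. -/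
theorem hd94_mem_of_isIntegral (y : F) (W : ValuationSubring F)
    (hK : ∀ a : K, algebraMap K F a ∈ W) (hy : y ∈ W) (f : F)
    (hf : IsIntegral (Algebra.adjoin K {y}) f) : f ∈ W := by
  let S : Subalgebra K F :=
    { W.toSubring.toSubsemiring with
      algebraMap_mem' := hK }
  have hle : Algebra.adjoin K {y} ≤ S := Algebra.adjoin_le (by
    intro x hx
    rw [Set.mem_singleton_iff] at hx
    rw [hx]
    exact hy)
  let ψ : Algebra.adjoin K {y} →+* W :=
    (algebraMap (Algebra.adjoin K {y}) F).codRestrict W.toSubring (fun a => hle a.2)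
  obtain ⟨p, hp, hpe⟩ := hf
  have hint : IsIntegral W f :=
    ⟨p.map ψ, hp.map ψ, by rw [Polynomial.eval₂_map]; exact hpe⟩
  obtain ⟨z, hz⟩ := IsIntegrallyClosed.isIntegral_iff.mp hint
  rw [← hz]
  exact z.2

theorem hd94_exists_place_aux (y : F) (hy : Transcendental K y) [FiniteDimensional K⟮y⟯ F]
    (W : ValuationSubring F) (hK : ∀ a : K, algebraMap K F a ∈ W) (hW : W ≠ ⊤)
    (hyW : y ∈ W) : ∃ P : Place K F, P.toValuationSubring = W := by
  haveI := wp1a_isDedekindDomain y hy
  haveI := wp1a_isFractionRing (K := K) y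
  haveI := wp1a_isScalarTower (K := K) y
  obtain ⟨w, hw⟩ := hd94_exists_heightOneSpectrum
    (B := integralClosure (Algebra.adjoin K {y}) F) W hW
    (fun b => hd94_mem_of_isIntegral y W hK hyW (b : F) b.2)
  exact ⟨Place.ofHeightOneSpectrum (K := K) w, by
    rw [Place.ofHeightOneSpectrum_toValuationSubring, hw]⟩

/-- **Valuation subrings are places.** Over an algebraically closed field of characteristic
zero, a proper valuation subring of a function field containing the constants is a `Place`. -/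
theorem hd94_exists_place (y : F) (hy : Transcendental K y) [FiniteDimensional K⟮y⟯ F]
    (W : ValuationSubring F) (hK : ∀ a : K, algebraMap K F a ∈ W) (hW : W ≠ ⊤) :
    ∃ P : Place K F, P.toValuationSubring = W := by
  rcases W.mem_or_inv_mem y with hyW | hyW
  · exact hd94_exists_place_aux y hy W hK hW hyW
  · have hy' : Transcendental K y⁻¹ := by
      intro halg
      apply hy
      have := halg.inv
      rwa [inv_inv] at this
    haveI : FiniteDimensional K⟮y⁻¹⟯ F := wp1b_finite_of_transcendental y y⁻¹ hy'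
    exact hd94_exists_place_aux y⁻¹ hy' W hK hW hyW

end Concrete

section Basic

variable {K F : Type*} [Field K] [Field F] [Algebra K F]

theorem hd94_ord_pos_of_nonunit (P : Place K F) {x : F} (hx' : x⁻¹ ∉ P.toValuationSubring) :
    0 < P.ord x := by
  have h2 : ¬ 0 ≤ P.ord x⁻¹ := fun h => hx' ((wp1_mem_iff_ord_nonneg P _).mpr h)
  rw [P.ord_inv] at h2
  omega

theorem hd94_ord_eq_zero_of_unit (P : Place K F) {x : F} (hx : x ∈ P.toValuationSubring)
    (hx' : x⁻¹ ∈ P.toValuationSubring) : P.ord x = 0 := by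
  have h1 := (wp1_mem_iff_ord_nonneg P x).mp hx
  have h2 := (wp1_mem_iff_ord_nonneg P x⁻¹).mp hx'
  rw [P.ord_inv] at h2
  omega

end Basic

section Descent

variable {K0 K F0 F : Type*} [Field K0] [Field K] [IsAlgClosed K] [CharZero K] [Algebra K0 K]
  [Algebra.IsAlgebraic K0 K] [Field F0] [Algebra K0 F0] [Field F] [Algebra K F]

/-- **Extension of valuation subrings to places.**  Every proper valuation subring of `F₀`
containing `K₀` is the trace of a place of `F/K`. -/
theorem hd94_exists_place_comap (ι : F0 →+* F)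
    (hι : ∀ a : K0, ι (algebraMap K0 F0 a) = algebraMap K F (algebraMap K0 K a))
    (y : F) (hy : Transcendental K y) [FiniteDimensional K⟮y⟯ F]
    (W : ValuationSubring F0) (hK0 : ∀ a : K0, algebraMap K0 F0 a ∈ W) (hW : W ≠ ⊤) :
    ∃ P : Place K F, P.toValuationSubring.comap ι = W := by
  obtain ⟨W', hW'⟩ := ds68_exists_comap_eq ι W
  have hK : ∀ a : K, algebraMap K F a ∈ W' := by
    intro a
    have hint : IsIntegral K0 a := Algebra.IsIntegral.isIntegral a
    obtain ⟨p, hp, hpe⟩ := hint
    let φ : K0 →+* W' := (ι.comp (algebraMap K0 F0)).codRestrict W'.toSubring (fun c => by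
      have : algebraMap K0 F0 c ∈ W'.comap ι := by
        rw [hW']
        exact hK0 c
      exact this)
    have hcomp : (algebraMap W' F).comp φ = (algebraMap K F).comp (algebraMap K0 K) := by
      ext c
      exact hι c
    have hint' : IsIntegral W' (algebraMap K F a) := by
      refine ⟨p.map φ, hp.map φ, ?_⟩
      rw [Polynomial.eval₂_map, hcomp, ← Polynomial.hom_eval₂, hpe, map_zero]
    obtain ⟨z, hz⟩ := IsIntegrallyClosed.isIntegral_iff.mp hint'
    rw [← hz]
    exact z.2
  have hW'top : W' ≠ ⊤ := by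
    rintro rfl
    apply hW
    rw [← hW']
    ext x
    simp [ValuationSubring.mem_comap]
  obtain ⟨P, hP⟩ := hd94_exists_place y hy W' hK hW'top
  exact ⟨P, by rw [hP, hW']⟩

/-- **Proper valuation subrings of `F₀` containing `K₀` are discrete valuation rings.** -/
theorem hd94_isPrincipalIdealRing (ι : F0 →+* F)
    (hι : ∀ a : K0, ι (algebraMap K0 F0 a) = algebraMap K F (algebraMap K0 K a))
    (y : F) (hy : Transcendental K y) [FiniteDimensional K⟮y⟯ F]
    (W : ValuationSubring F0) (hK0 : ∀ a : K0, algebraMap K0 F0 a ∈ W) (hW : W ≠ ⊤) :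
    IsPrincipalIdealRing W := by
  classical
  obtain ⟨P, hP⟩ := hd94_exists_place_comap ι hι y hy W hK0 hW
  have hmem : ∀ x : F0, x ∈ W ↔ 0 ≤ P.ord (ι x) := fun x => by
    rw [← hP, ValuationSubring.mem_comap, wp1_mem_iff_ord_nonneg]
  refine ⟨fun I => ?_⟩
  by_cases hI : I = ⊥
  · exact ⟨0, by rw [hI]; simp⟩
  obtain ⟨a, haI, ha0⟩ := Submodule.exists_mem_ne_zero_of_ne_bot hI
  have hex : ∃ k : ℕ, ∃ b : W, b ∈ I ∧ b ≠ 0 ∧ P.ord (ι (b : F0)) = k :=
    ⟨(P.ord (ι (a : F0))).toNat, a, haI, ha0,
      (Int.toNat_of_nonneg ((hmem a).mp a.2)).symm⟩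
  obtain ⟨b, hbI, hb0, hb⟩ := Nat.find_spec hex
  have hbF : (b : F0) ≠ 0 := fun h => hb0 (Subtype.ext h)
  refine ⟨⟨b, ?_⟩⟩
  apply le_antisymm
  · intro c hc
    rcases eq_or_ne c 0 with rfl | hc0
    · exact Submodule.zero_mem _
    have hcF : (c : F0) ≠ 0 := fun h => hc0 (Subtype.ext h)
    have hmin := Nat.find_min' hex ⟨c, hc, hc0, (Int.toNat_of_nonneg ((hmem c).mp c.2)).symm⟩
    have hc' := (hmem c).mp c.2
    have hquot : (c : F0) * (b : F0)⁻¹ ∈ W := by
      rw [hmem, map_mul, map_inv₀,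
        P.ord_mul ((map_ne_zero ι).mpr hcF) (inv_ne_zero ((map_ne_zero ι).mpr hbF)), P.ord_inv, hb]
      omega
    rw [Submodule.mem_span_singleton]
    refine ⟨⟨_, hquot⟩, Subtype.ext ?_⟩
    show (c : F0) * (b : F0)⁻¹ * (b : F0) = c
    rw [inv_mul_cancel_right₀ hbF]
  · rw [Submodule.span_singleton_le_iff_mem]
    exact hbI

/-- **Comparison of orders.** For a place `P₀` of `F₀/K₀` there are a place `P` of `F/K` over
it and `e > 0` with `ord_P (ι x) = e * ord_P₀ x` for all `x`. -/
theorem hd94_exists_ord_eq_mul (ι : F0 →+* F)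
    (hι : ∀ a : K0, ι (algebraMap K0 F0 a) = algebraMap K F (algebraMap K0 K a))
    (y : F) (hy : Transcendental K y) [FiniteDimensional K⟮y⟯ F] (P0 : Place K0 F0) :
    ∃ (P : Place K F) (e : ℕ), 0 < e ∧
      P.toValuationSubring.comap ι = P0.toValuationSubring ∧
      ∀ x : F0, P.ord (ι x) = e * P0.ord x := by
  obtain ⟨P, hP⟩ := hd94_exists_place_comap ι hι y hy P0.toValuationSubring
    P0.algebraMap_mem' P0.ne_top'
  have hmem : ∀ x : F0, x ∈ P0.toValuationSubring ↔ ι x ∈ P.toValuationSubring := fun x => by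
    rw [← hP, ValuationSubring.mem_comap]
  obtain ⟨ϖ, hϖ⟩ := IsDiscreteValuationRing.exists_irreducible P0.toValuationSubring
  have hϖ0 : (ϖ : F0) ≠ 0 := by
    simpa [ne_eq, ZeroMemClass.coe_eq_zero] using hϖ.ne_zero
  have hϖinv : (ϖ : F0)⁻¹ ∉ P0.toValuationSubring := by
    intro h
    apply hϖ.not_isUnit
    refine IsUnit.of_mul_eq_one ⟨(ϖ : F0)⁻¹, h⟩ ?_
    ext
    simp [hϖ0]
  have hpos : 0 < P.ord (ι (ϖ : F0)) := by
    apply hd94_ord_pos_of_nonunit
    rw [← map_inv₀, ← hmem]
    exact hϖinv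
  obtain ⟨e, he⟩ := Int.eq_ofNat_of_zero_le hpos.le
  refine ⟨P, e, by omega, hP, fun x => ?_⟩
  rcases eq_or_ne x 0 with rfl | hx
  · simp
  obtain ⟨u, hu⟩ := P0.exists_unit_mul_zpow hx hϖ
  have hu0 : P.ord (ι ((u : P0.toValuationSubring) : F0)) = 0 := by
    apply hd94_ord_eq_zero_of_unit
    · rw [← hmem]
      exact (u : P0.toValuationSubring).2
    · have h1 : ((u : P0.toValuationSubring) : F0) *
          (((u⁻¹ : (P0.toValuationSubring)ˣ) : P0.toValuationSubring) : F0) = 1 :=
        congrArg Subtype.val u.mul_inv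
      rw [← map_inv₀, ← hmem, ← eq_inv_of_mul_eq_one_right h1]
      exact ((u⁻¹ : (P0.toValuationSubring)ˣ) : P0.toValuationSubring).2
  have huF : ι ((u : P0.toValuationSubring) : F0) ≠ 0 := by
    rw [map_ne_zero]
    simp [ne_eq, ZeroMemClass.coe_eq_zero]
  conv_lhs => rw [hu]
  rw [map_mul, map_zpow₀, P.ord_mul huF (zpow_ne_zero _ ((map_ne_zero ι).mpr hϖ0)), hu0,
    P.ord_zpow, he]
  ring

/-- Descent of `e = 1`: if `ι p` is a uniformiser at every place of `F/K` where it vanishes,
then `p` is a uniformiser at every place of `F₀/K₀` where it vanishes. -/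
theorem hd94_ord_eq_one (ι : F0 →+* F)
    (hι : ∀ a : K0, ι (algebraMap K0 F0 a) = algebraMap K F (algebraMap K0 K a))
    (y : F) (hy : Transcendental K y) [FiniteDimensional K⟮y⟯ F] (P0 : Place K0 F0)
    (p : F0) (hp : 0 < P0.ord p)
    (hord : ∀ P : Place K F, 0 < P.ord (ι p) → P.ord (ι p) = 1) : P0.ord p = 1 := by
  obtain ⟨P, e, he, -, hPe⟩ := hd94_exists_ord_eq_mul ι hι y hy P0
  have h1 := hord P (by rw [hPe]; positivity)
  rw [hPe] at h1
  have he' : (1 : ℤ) ≤ (e : ℤ) := by exact_mod_cast he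
  nlinarith

/-- Descent of the tame indices: a divisibility `ord_P (ι z) ∣ n` at all zeros of `ι z`
descends to the zeros of `z`. -/
theorem hd94_ord_dvd (ι : F0 →+* F)
    (hι : ∀ a : K0, ι (algebraMap K0 F0 a) = algebraMap K F (algebraMap K0 K a))
    (y : F) (hy : Transcendental K y) [FiniteDimensional K⟮y⟯ F] (P0 : Place K0 F0)
    (z : F0) (hz : 0 < P0.ord z) (n : ℤ)
    (hord : ∀ P : Place K F, 0 < P.ord (ι z) → P.ord (ι z) ∣ n) : P0.ord z ∣ n := by
  obtain ⟨P, e, he, -, hPe⟩ := hd94_exists_ord_eq_mul ι hι y hy P0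
  have h1 := hord P (by rw [hPe]; positivity)
  rw [hPe] at h1
  exact (dvd_mul_left _ _).trans h1

/-- Valuation-subring form of `hd94_ord_eq_one`: `p` generates the maximal ideal of every
proper valuation subring of `F₀` containing `K₀` in which it is a non-unit. -/
theorem hd94_uniformizer (ι : F0 →+* F)
    (hι : ∀ a : K0, ι (algebraMap K0 F0 a) = algebraMap K F (algebraMap K0 K a))
    (y : F) (hy : Transcendental K y) [FiniteDimensional K⟮y⟯ F]
    (W : ValuationSubring F0) (hK0 : ∀ a : K0, algebraMap K0 F0 a ∈ W) (hW : W ≠ ⊤)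
    (p : F0) (hpW : p⁻¹ ∉ W)
    (hord : ∀ P : Place K F, 0 < P.ord (ι p) → P.ord (ι p) = 1) :
    ∀ x : F0, x⁻¹ ∉ W → ∃ z ∈ W, x = p * z := by
  intro x hx
  obtain ⟨P, hP⟩ := hd94_exists_place_comap ι hι y hy W hK0 hW
  have hmem : ∀ x : F0, x ∈ W ↔ ι x ∈ P.toValuationSubring := fun x => by
    rw [← hP, ValuationSubring.mem_comap]
  have hp0 : p ≠ 0 := by
    rintro rfl
    exact hpW (by rw [inv_zero]; exact W.zero_mem)
  have hx0 : x ≠ 0 := by
    rintro rfl
    exact hx (by rw [inv_zero]; exact W.zero_mem)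
  have hppos : 0 < P.ord (ι p) := by
    apply hd94_ord_pos_of_nonunit
    rw [← map_inv₀, ← hmem]
    exact hpW
  have hxpos : 0 < P.ord (ι x) := by
    apply hd94_ord_pos_of_nonunit
    rw [← map_inv₀, ← hmem]
    exact hx
  have hp1 := hord P hppos
  refine ⟨x * p⁻¹, ?_, ?_⟩
  · rw [hmem, wp1_mem_iff_ord_nonneg, map_mul, map_inv₀,
      P.ord_mul ((map_ne_zero ι).mpr hx0) (inv_ne_zero ((map_ne_zero ι).mpr hp0)), P.ord_inv, hp1]
    omega
  · field_simp

end Descent

end Fermat.Agent.S18
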