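import Fermat.Agent.S18.HorizStep94
import Fermat.Agent.S18.HorizOrd
import Fermat.Agent.S18.Haupt3Mem53b

/-!
S18, row B5-H (helper94): the geometric side, fully instantiated on the Prelude field
`F(M)_ℚbar = modularFunctionFieldBar M`.

* `g94_transcendental`, `g94_finite`: `j = ⟨JJ 1, _⟩` is transcendental and `F(M)_ℚbar` is
  finite over `ℚbar(j)`.
* `g94_ram2`, `g94_ram3`: ramification over a level-2 / level-3 Hauptmodul line for ANY element
  `hb` satisfying the relation with `j`; `g94_hcodim2(_inv)`, `g94_hcodim3(_inv)`: row B5-H.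
* `g94_level3`: the ramification of `F(M)_ℚbar` over the `X₀(3)`-Hauptmodul line
  (`h = h53m_h3bar M h3`): unramified off `{0, ∞, -27}`, tame indices at the three sections.
* `g94_hcodim_level3`, `g94_hcodim_level3_inv`: row B5-H for the two charts `x = h`, `x = h⁻¹`
  with the geometric hypotheses discharged; what remains are the `K₀`-model data
  (`L`, the `R[X]`-algebra structure, `ι : L →+* F(M)_ℚbar`).
-/

set_option autoImplicit false

open AlgebraicCurve IntermediateField Polynomial ModularCurve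

namespace Fermat.Agent.S18

open Fermat.Agent.S24

section Geom

variable (M : ℕ) [NeZero M]

/-- `j` is transcendental over `ℚbar` in `F(M)_ℚbar`. -/
theorem g94_transcendental :
    Transcendental Kbar (⟨JJ 1, asmAb_JJ_mem M 1 (one_dvd M)⟩ : ↥(modularFunctionFieldBar M)) :=
  asmAb_transcendental M

/-- `F(M)_ℚbar` is finite over `ℚbar(j)`. -/
theorem g94_finite :
    FiniteDimensional
      Kbar⟮(⟨JJ 1, asmAb_JJ_mem M 1 (one_dvd M)⟩ : ↥(modularFunctionFieldBar M))⟯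
      ↥(modularFunctionFieldBar M) := by
  obtain ⟨D⟩ := wpA_nonempty_modularData M
  letI := D.fieldM
  letI := D.algM
  letI := D.actM
  obtain ⟨ι, hι, hΓ⟩ := asmAb_exists_iota M D
  have hιx : ι ⟨JJ 1, asmAb_JJ_mem M 1 (one_dvd M)⟩ = D.jd 1 := hι 1 (one_dvd M)
  obtain ⟨hfin, -⟩ := asmA_finrank M D ι ⟨JJ 1, asmAb_JJ_mem M 1 (one_dvd M)⟩
    ⟨JJ M, asmAb_JJ_mem M M dvd_rfl⟩ hιx (hι M dvd_rfl) hΓ
  exact hfin

/-- Ramification of `F(M)_ℚbar` over a level-2 Hauptmodul line (`j h² = (h + 256)³`). -/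
theorem g94_ram2 (hb : ↥(modularFunctionFieldBar M))
    (hrel : (⟨JJ 1, asmAb_JJ_mem M 1 (one_dvd M)⟩ : ↥(modularFunctionFieldBar M)) * hb ^ 2 =
      (hb + 256) ^ 3) :
    (∀ c : Kbar, c ≠ 0 → c ≠ -64 → ∀ v : Place Kbar ↥(modularFunctionFieldBar M),
      0 < v.ord (hb - algebraMap Kbar ↥(modularFunctionFieldBar M) c) →
      v.ord (hb - algebraMap Kbar ↥(modularFunctionFieldBar M) c) = 1) ∧
    (∀ v : Place Kbar ↥(modularFunctionFieldBar M), 0 < v.ord (hb + 64) →
      v.ord (hb + 64) ∣ 2) ∧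
    (∀ v : Place Kbar ↥(modularFunctionFieldBar M), 0 < v.ord hb → 2 * v.ord hb ∣ (M : ℤ)) ∧
    (∀ v : Place Kbar ↥(modularFunctionFieldBar M), v.ord hb < 0 → v.ord hb ∣ (M : ℤ)) :=
  hh_level2 _ hb M hrel (ho_modular_ord M).1
    (ho_modular_ord M).2.1 (ho_modular_ord M).2.2.1 (ho_modular_ord M).2.2.2

/-- Ramification of `F(M)_ℚbar` over a level-3 Hauptmodul line
(`j h³ = (h + 27)(h + 243)³`). -/
theorem g94_ram3 (hb : ↥(modularFunctionFieldBar M))
    (hrel : (⟨JJ 1, asmAb_JJ_mem M 1 (one_dvd M)⟩ : ↥(modularFunctionFieldBar M)) * hb ^ 3 =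
      (hb + 27) * (hb + 243) ^ 3) :
    (∀ c : Kbar, c ≠ 0 → c ≠ -27 → ∀ v : Place Kbar ↥(modularFunctionFieldBar M),
      0 < v.ord (hb - algebraMap Kbar ↥(modularFunctionFieldBar M) c) →
      v.ord (hb - algebraMap Kbar ↥(modularFunctionFieldBar M) c) = 1) ∧
    (∀ v : Place Kbar ↥(modularFunctionFieldBar M), 0 < v.ord (hb + 27) →
      v.ord (hb + 27) ∣ 3) ∧
    (∀ v : Place Kbar ↥(modularFunctionFieldBar M), 0 < v.ord hb → 3 * v.ord hb ∣ (M : ℤ)) ∧
    (∀ v : Place Kbar ↥(modularFunctionFieldBar M), v.ord hb < 0 → v.ord hb ∣ (M : ℤ)) :=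
  hh_level3 _ hb M hrel (ho_modular_ord M).1
    (ho_modular_ord M).2.1 (ho_modular_ord M).2.2.1 (ho_modular_ord M).2.2.2

/-- Ramification of `F(M)_ℚbar` over the level-3 Hauptmodul line. -/
theorem g94_level3 (h3 : 3 ∣ M) :
    (∀ c : Kbar, c ≠ 0 → c ≠ -27 → ∀ v : Place Kbar ↥(modularFunctionFieldBar M),
      0 < v.ord (h53m_h3bar M h3 - algebraMap Kbar ↥(modularFunctionFieldBar M) c) →
      v.ord (h53m_h3bar M h3 - algebraMap Kbar ↥(modularFunctionFieldBar M) c) = 1) ∧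
    (∀ v : Place Kbar ↥(modularFunctionFieldBar M), 0 < v.ord (h53m_h3bar M h3 + 27) →
      v.ord (h53m_h3bar M h3 + 27) ∣ 3) ∧
    (∀ v : Place Kbar ↥(modularFunctionFieldBar M), 0 < v.ord (h53m_h3bar M h3) →
      3 * v.ord (h53m_h3bar M h3) ∣ (M : ℤ)) ∧
    (∀ v : Place Kbar ↥(modularFunctionFieldBar M), v.ord (h53m_h3bar M h3) < 0 →
      v.ord (h53m_h3bar M h3) ∣ (M : ℤ)) :=
  hh_level3 _ (h53m_h3bar M h3) M (h53m_h3bar_rel M h3) (ho_modular_ord M).1
    (ho_modular_ord M).2.1 (ho_modular_ord M).2.2.1 (ho_modular_ord M).2.2.2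

end Geom

section Hcodim

variable {R : Type*} [CommRing R] [IsDomain R] [IsDiscreteValuationRing R] {π : R}
variable {K0 : Type*} [Field K0] [Algebra R K0] [IsFractionRing R K0]
variable {E L B : Type*} [Field E] [Algebra R[X] E] [IsFractionRing R[X] E]
  [Field L] [Algebra E L] [Algebra R[X] L] [IsScalarTower R[X] E L] [FiniteDimensional E L]
  [Algebra.IsSeparable E L]
  [CommRing B] [Algebra R[X] B] [Algebra B L] [IsScalarTower R[X] B L]
  [IsIntegralClosure B R[X] L] [Algebra K0 L]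
variable [Algebra K0 Kbar] [Algebra.IsAlgebraic K0 Kbar]
variable (M : ℕ) [NeZero M]

/-- Row B5-H, level 2, chart `x = h`, for any Hauptmodul element `hb` of `F(M)_ℚbar`
satisfying the level-2 relation with `j`. -/
theorem g94_hcodim2 (hb : ↥(modularFunctionFieldBar M))
    (hrel : (⟨JJ 1, asmAb_JJ_mem M 1 (one_dvd M)⟩ : ↥(modularFunctionFieldBar M)) * hb ^ 2 = (hb + 256) ^ 3)
    (hπ : Irreducible π)
    (hC : ∀ r : R, algebraMap R[X] L (C r) = algebraMap K0 L (algebraMap R K0 r))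
    (ι : L →+* ↥(modularFunctionFieldBar M))
    (hι : ∀ a : K0, ι (algebraMap K0 L a) =
      algebraMap Kbar ↥(modularFunctionFieldBar M) (algebraMap K0 Kbar a))
    (hx : ι (algebraMap R[X] L X) = hb)
    (p : R[X]) (hp : Prime p) (hpc : ¬ p ∣ C π * X * (X - C (-64))) :
    ∀ y : L, (∀ b : B, Algebra.trace E L (y * algebraMap B L b) ∈ (algebraMap R[X] E).range) →
      ∃ s : R[X], ¬ p ∣ s ∧ algebraMap R[X] L s * y ∈ (algebraMap B L).range := by
  haveI := g94_finite M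
  exact b5h94_hcodim_level2 (K0 := K0) hπ hC ι hι _ (g94_transcendental M) _
    hb M hrel (ho_modular_ord M).1
    (ho_modular_ord M).2.1 (ho_modular_ord M).2.2.1 (ho_modular_ord M).2.2.2 hx p hp hpc

/-- Row B5-H, level 2, chart `x = h⁻¹` (`c = -1/64`), for any Hauptmodul element `hb`. -/
theorem g94_hcodim2_inv (hb : ↥(modularFunctionFieldBar M))
    (hrel : (⟨JJ 1, asmAb_JJ_mem M 1 (one_dvd M)⟩ : ↥(modularFunctionFieldBar M)) * hb ^ 2 = (hb + 256) ^ 3)
    (hπ : Irreducible π)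
    (hC : ∀ r : R, algebraMap R[X] L (C r) = algebraMap K0 L (algebraMap R K0 r))
    (ι : L →+* ↥(modularFunctionFieldBar M))
    (hι : ∀ a : K0, ι (algebraMap K0 L a) =
      algebraMap Kbar ↥(modularFunctionFieldBar M) (algebraMap K0 Kbar a))
    (hx : ι (algebraMap R[X] L X) = hb⁻¹) (c : R) (hc : c * 64 = -1)
    (p : R[X]) (hp : Prime p) (hpc : ¬ p ∣ C π * X * (X - C c)) :
    ∀ y : L, (∀ b : B, Algebra.trace E L (y * algebraMap B L b) ∈ (algebraMap R[X] E).range) →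
      ∃ s : R[X], ¬ p ∣ s ∧ algebraMap R[X] L s * y ∈ (algebraMap B L).range := by
  haveI := g94_finite M
  exact b5h94_hcodim_level2_inv (K0 := K0) hπ hC ι hι _ (g94_transcendental M) _
    hb M hrel (ho_modular_ord M).1
    (ho_modular_ord M).2.1 (ho_modular_ord M).2.2.1 (ho_modular_ord M).2.2.2 hx c hc p hp hpc

/-- Row B5-H, level 3, chart `x = h`, for any Hauptmodul element `hb` of `F(M)_ℚbar`
satisfying the level-3 relation with `j`. -/
theorem g94_hcodim3 (hb : ↥(modularFunctionFieldBar M))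
    (hrel : (⟨JJ 1, asmAb_JJ_mem M 1 (one_dvd M)⟩ : ↥(modularFunctionFieldBar M)) * hb ^ 3 = (hb + 27) * (hb + 243) ^ 3)
    (hπ : Irreducible π)
    (hC : ∀ r : R, algebraMap R[X] L (C r) = algebraMap K0 L (algebraMap R K0 r))
    (ι : L →+* ↥(modularFunctionFieldBar M))
    (hι : ∀ a : K0, ι (algebraMap K0 L a) =
      algebraMap Kbar ↥(modularFunctionFieldBar M) (algebraMap K0 Kbar a))
    (hx : ι (algebraMap R[X] L X) = hb)
    (p : R[X]) (hp : Prime p) (hpc : ¬ p ∣ C π * X * (X - C (-27))) :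
    ∀ y : L, (∀ b : B, Algebra.trace E L (y * algebraMap B L b) ∈ (algebraMap R[X] E).range) →
      ∃ s : R[X], ¬ p ∣ s ∧ algebraMap R[X] L s * y ∈ (algebraMap B L).range := by
  haveI := g94_finite M
  exact b5h94_hcodim_level3 (K0 := K0) hπ hC ι hι _ (g94_transcendental M) _
    hb M hrel (ho_modular_ord M).1
    (ho_modular_ord M).2.1 (ho_modular_ord M).2.2.1 (ho_modular_ord M).2.2.2 hx p hp hpc

/-- Row B5-H, level 3, chart `x = h⁻¹` (`c = -1/27`), for any Hauptmodul element `hb`. -/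
theorem g94_hcodim3_inv (hb : ↥(modularFunctionFieldBar M))
    (hrel : (⟨JJ 1, asmAb_JJ_mem M 1 (one_dvd M)⟩ : ↥(modularFunctionFieldBar M)) * hb ^ 3 = (hb + 27) * (hb + 243) ^ 3)
    (hπ : Irreducible π)
    (hC : ∀ r : R, algebraMap R[X] L (C r) = algebraMap K0 L (algebraMap R K0 r))
    (ι : L →+* ↥(modularFunctionFieldBar M))
    (hι : ∀ a : K0, ι (algebraMap K0 L a) =
      algebraMap Kbar ↥(modularFunctionFieldBar M) (algebraMap K0 Kbar a))
    (hx : ι (algebraMap R[X] L X) = hb⁻¹) (c : R) (hc : c * 27 = -1)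
    (p : R[X]) (hp : Prime p) (hpc : ¬ p ∣ C π * X * (X - C c)) :
    ∀ y : L, (∀ b : B, Algebra.trace E L (y * algebraMap B L b) ∈ (algebraMap R[X] E).range) →
      ∃ s : R[X], ¬ p ∣ s ∧ algebraMap R[X] L s * y ∈ (algebraMap B L).range := by
  haveI := g94_finite M
  exact b5h94_hcodim_level3_inv (K0 := K0) hπ hC ι hι _ (g94_transcendental M) _
    hb M hrel (ho_modular_ord M).1
    (ho_modular_ord M).2.1 (ho_modular_ord M).2.2.1 (ho_modular_ord M).2.2.2 hx c hc p hp hpc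

/-- Row B5-H, level 3, chart `x = h`, geometric side instantiated. -/
theorem g94_hcodim_level3 (h3 : 3 ∣ M) (hπ : Irreducible π)
    (hC : ∀ r : R, algebraMap R[X] L (C r) = algebraMap K0 L (algebraMap R K0 r))
    (ι : L →+* ↥(modularFunctionFieldBar M))
    (hι : ∀ a : K0, ι (algebraMap K0 L a) =
      algebraMap Kbar ↥(modularFunctionFieldBar M) (algebraMap K0 Kbar a))
    (hx : ι (algebraMap R[X] L X) = h53m_h3bar M h3)
    (p : R[X]) (hp : Prime p) (hpc : ¬ p ∣ C π * X * (X - C (-27))) :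
    ∀ y : L, (∀ b : B, Algebra.trace E L (y * algebraMap B L b) ∈ (algebraMap R[X] E).range) →
      ∃ s : R[X], ¬ p ∣ s ∧ algebraMap R[X] L s * y ∈ (algebraMap B L).range := by
  haveI := g94_finite M
  exact b5h94_hcodim_level3 (K0 := K0) hπ hC ι hι _ (g94_transcendental M) _
    (h53m_h3bar M h3) M (h53m_h3bar_rel M h3) (ho_modular_ord M).1
    (ho_modular_ord M).2.1 (ho_modular_ord M).2.2.1 (ho_modular_ord M).2.2.2 hx p hp hpc

/-- Row B5-H, level 3, chart `x = h⁻¹` (`c = -1/27`), geometric side instantiated. -/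
theorem g94_hcodim_level3_inv (h3 : 3 ∣ M) (hπ : Irreducible π)
    (hC : ∀ r : R, algebraMap R[X] L (C r) = algebraMap K0 L (algebraMap R K0 r))
    (ι : L →+* ↥(modularFunctionFieldBar M))
    (hι : ∀ a : K0, ι (algebraMap K0 L a) =
      algebraMap Kbar ↥(modularFunctionFieldBar M) (algebraMap K0 Kbar a))
    (hx : ι (algebraMap R[X] L X) = (h53m_h3bar M h3)⁻¹) (c : R) (hc : c * 27 = -1)
    (p : R[X]) (hp : Prime p) (hpc : ¬ p ∣ C π * X * (X - C c)) :
    ∀ y : L, (∀ b : B, Algebra.trace E L (y * algebraMap B L b) ∈ (algebraMap R[X] E).range) →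
      ∃ s : R[X], ¬ p ∣ s ∧ algebraMap R[X] L s * y ∈ (algebraMap B L).range := by
  haveI := g94_finite M
  exact b5h94_hcodim_level3_inv (K0 := K0) hπ hC ι hι _ (g94_transcendental M) _
    (h53m_h3bar M h3) M (h53m_h3bar_rel M h3) (ho_modular_ord M).1
    (ho_modular_ord M).2.1 (ho_modular_ord M).2.2.1 (ho_modular_ord M).2.2.2 hx c hc p hp hpc

end Hcodim

end Fermat.Agent.S18
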