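import Fermat.Agent.S18.HorizGeom94
import Fermat.Agent.S18.Haupt2

/-!
S18, row B5-H (helper94): the geometric side at level 2, instantiated at helper70's Hauptmodul
`h70_h2 = Δ(q)/Δ(q²)`.

* `g94_h2bar M h2 : ↥(modularFunctionFieldBar M)` for `2 ∣ M`, with
  `g94_h2bar_rel : ⟨JJ 1, _⟩ * h ^ 2 = (h + 256) ^ 3`;
* `g94_level2`: ramification of `F(M)_ℚbar` over the level-2 Hauptmodul line;
* `g94_hcodim_level2`, `g94_hcodim_level2_inv`: row B5-H for the charts `x = h`, `x = h⁻¹`.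
-/

set_option autoImplicit false

open AlgebraicCurve IntermediateField Polynomial ModularCurve

namespace Fermat.Agent.S18

open Fermat.Agent.S24

section Geom

variable (M : ℕ) [NeZero M]

/-- `h₂ ∈ F(M)_ℚbar` whenever `2 ∣ M`. -/
theorem g94_h2_mem_bar (h2 : 2 ∣ M) : h70_h2 Kbar ∈ modularFunctionFieldBar M := by
  have h1 : h70_h2 ℚ ∈ modularFunctionFieldFull M := full_degeneracy_le h2 h70_h2_mem_full
  have h := coeffEmb_mem_laurentBaseChange Kbar h1
  rwa [coeffEmb, h70_coeffMap_h2] at h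

/-- The level 2 Hauptmodul as an element of `F(M)_ℚbar`, `2 ∣ M`. -/
noncomputable def g94_h2bar (h2 : 2 ∣ M) : ↥(modularFunctionFieldBar M) :=
  ⟨h70_h2 Kbar, g94_h2_mem_bar M h2⟩

theorem g94_h2bar_coe (h2 : 2 ∣ M) :
    ((g94_h2bar M h2 : ↥(modularFunctionFieldBar M)) : LaurentSeries Kbar) = h70_h2 Kbar := rfl

theorem g94_JJ_one : JJ 1 = jqModC Kbar := by
  rw [JJ_of_neZero, qExpand_one_apply, ← jqModC_rat, coeffEmb, coeffMap_jqModC]

/-- `j h² = (h + 256)³` in `F(M)_ℚbar`: the hypothesis `hrel` of `hh_level2`. -/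
theorem g94_h2bar_rel (h2 : 2 ∣ M) :
    (⟨JJ 1, asmAb_JJ_mem M 1 (one_dvd M)⟩ : ↥(modularFunctionFieldBar M)) * g94_h2bar M h2 ^ 2 =
      (g94_h2bar M h2 + 256) ^ 3 := by
  apply Subtype.ext
  push_cast
  rw [g94_h2bar_coe, g94_JJ_one]
  exact h70_j_mul_h2_sq Kbar

/-- Ramification of `F(M)_ℚbar` over the level-2 Hauptmodul line. -/
theorem g94_level2 (h2 : 2 ∣ M) :
    (∀ c : Kbar, c ≠ 0 → c ≠ -64 → ∀ v : Place Kbar ↥(modularFunctionFieldBar M),
      0 < v.ord (g94_h2bar M h2 - algebraMap Kbar ↥(modularFunctionFieldBar M) c) →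
      v.ord (g94_h2bar M h2 - algebraMap Kbar ↥(modularFunctionFieldBar M) c) = 1) ∧
    (∀ v : Place Kbar ↥(modularFunctionFieldBar M), 0 < v.ord (g94_h2bar M h2 + 64) →
      v.ord (g94_h2bar M h2 + 64) ∣ 2) ∧
    (∀ v : Place Kbar ↥(modularFunctionFieldBar M), 0 < v.ord (g94_h2bar M h2) →
      2 * v.ord (g94_h2bar M h2) ∣ (M : ℤ)) ∧
    (∀ v : Place Kbar ↥(modularFunctionFieldBar M), v.ord (g94_h2bar M h2) < 0 →
      v.ord (g94_h2bar M h2) ∣ (M : ℤ)) :=
  g94_ram2 M (g94_h2bar M h2) (g94_h2bar_rel M h2)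

end Geom

section Hcodim

variable {R : Type*} [CommRing R] [IsDomain R] [IsDiscreteValuationRing R] {π : R}
variable {K0 : Type*} [Field K0] [Algebra R K0] [IsFractionRing R K0]
variable {E L B : Type*} [Field E] [Algebra R[X] E] [IsFractionRing R[X] E]
  [Field L] [Algebra E L] [Algebra R[X] L] [IsScalarTower R[X] E L] [FiniteDimensional E L]
  [Algebra.IsSeparable E L]
  [CommRing B] [Algebra R[X] B] [Algebra B L] [IsScalarTower R[X] B L]
  [IsIntegralClosure B R[X] L] [Algebra K0 L]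
variable [Algebra K0 Kbar] [Algebra.IsAlgebraic K0 Kbar]
variable (M : ℕ) [NeZero M]

/-- Row B5-H, level 2, chart `x = h`, geometric side instantiated. -/
theorem g94_hcodim_level2 (h2 : 2 ∣ M) (hπ : Irreducible π)
    (hC : ∀ r : R, algebraMap R[X] L (C r) = algebraMap K0 L (algebraMap R K0 r))
    (ι : L →+* ↥(modularFunctionFieldBar M))
    (hι : ∀ a : K0, ι (algebraMap K0 L a) =
      algebraMap Kbar ↥(modularFunctionFieldBar M) (algebraMap K0 Kbar a))
    (hx : ι (algebraMap R[X] L X) = g94_h2bar M h2)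
    (p : R[X]) (hp : Prime p) (hpc : ¬ p ∣ C π * X * (X - C (-64))) :
    ∀ y : L, (∀ b : B, Algebra.trace E L (y * algebraMap B L b) ∈ (algebraMap R[X] E).range) →
      ∃ s : R[X], ¬ p ∣ s ∧ algebraMap R[X] L s * y ∈ (algebraMap B L).range :=
  g94_hcodim2 (K0 := K0) M (g94_h2bar M h2) (g94_h2bar_rel M h2) hπ hC ι hι hx p hp hpc

/-- Row B5-H, level 2, chart `x = h⁻¹` (`c = -1/64`), geometric side instantiated. -/
theorem g94_hcodim_level2_inv (h2 : 2 ∣ M) (hπ : Irreducible π)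
    (hC : ∀ r : R, algebraMap R[X] L (C r) = algebraMap K0 L (algebraMap R K0 r))
    (ι : L →+* ↥(modularFunctionFieldBar M))
    (hι : ∀ a : K0, ι (algebraMap K0 L a) =
      algebraMap Kbar ↥(modularFunctionFieldBar M) (algebraMap K0 Kbar a))
    (hx : ι (algebraMap R[X] L X) = (g94_h2bar M h2)⁻¹) (c : R) (hc : c * 64 = -1)
    (p : R[X]) (hp : Prime p) (hpc : ¬ p ∣ C π * X * (X - C c)) :
    ∀ y : L, (∀ b : B, Algebra.trace E L (y * algebraMap B L b) ∈ (algebraMap R[X] E).range) →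
      ∃ s : R[X], ¬ p ∣ s ∧ algebraMap R[X] L s * y ∈ (algebraMap B L).range :=
  g94_hcodim2_inv (K0 := K0) M (g94_h2bar M h2) (g94_h2bar_rel M h2) hπ hC ι hι hx c hc p hp hpc

end Hcodim

end Fermat.Agent.S18
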