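import Fermat.Agent.S24.PlacesBasicCore

/-!
S18 (long shot), horizontal package, part 2 (helper94).

Transport of the ramification data of a function field over the `j`-line to the Hauptmodul
lines of `X₀(2)` (`j h² = (h + 256)³`) and `X₀(3)` (`j h³ = (h + 27)(h + 243)³`).
Pure `Place`-algebra; all names are prefixed `hh_`.
-/

set_option autoImplicit false

open AlgebraicCurve

namespace Fermat.Agent.S18

open Fermat.Agent.S24

section General

variable {K F : Type*} [Field K] [Field F] [Algebra K F]

theorem hh_ord_neg (v : Place K F) (f : F) : v.ord (-f) = v.ord f := by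
  simp [Place.ord]

theorem hh_ord_pow (v : Place K F) (f : F) (n : ℕ) : v.ord (f ^ n) = n * v.ord f := by
  have := v.ord_zpow f n
  rwa [zpow_natCast] at this

theorem hh_ne_zero_of_ord_ne (v : Place K F) {f : F} (h : v.ord f ≠ 0) : f ≠ 0 := by
  rintro rfl
  exact h v.ord_zero

/-- The order of a sum is the smaller order when the orders differ. -/
theorem hh_ord_add_lt (v : Place K F) (f g : F) (hf : f ≠ 0) (hg : g ≠ 0)
    (h : v.ord f < v.ord g) : f + g ≠ 0 ∧ v.ord (f + g) = v.ord f := by
  have hne : f + g ≠ 0 := by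
    intro h0
    have hgf : g = -f := by linear_combination h0
    rw [hgf, hh_ord_neg] at h
    exact lt_irrefl _ h
  refine ⟨hne, ?_⟩
  have h1 := wp1_ord_add v f g hne hf hg
  have h2 := wp1_ord_add v (f + g) (-g) (by simpa using hf) hne (neg_ne_zero.mpr hg)
  rw [hh_ord_neg, add_neg_cancel_right] at h2
  rcases le_total (v.ord (f + g)) (v.ord g) with h3 | h3
  · rw [min_eq_left h3] at h2
    rw [min_eq_left h.le] at h1
    omega
  · rw [min_eq_right h3] at h2
    omega

theorem hh_aeval_mem (v : Place K F) (h : F) (hh : h ∈ v.toValuationSubring)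
    (q : Polynomial K) : Polynomial.aeval h q ∈ v.toValuationSubring := by
  induction q using Polynomial.induction_on' with
  | add p q hp hq =>
    rw [map_add]
    exact v.toValuationSubring.add_mem _ _ hp hq
  | monomial n a =>
    rw [Polynomial.aeval_monomial]
    exact v.toValuationSubring.mul_mem _ _ (v.algebraMap_mem' a) (pow_mem hh n)

/-- At a zero of `h - c`, a polynomial in `h` not vanishing at `c` is a unit. -/
theorem hh_ord_aeval (v : Place K F) (h : F) (c : K)
    (hv : 0 < v.ord (h - algebraMap K F c)) (q : Polynomial K) (hq : q.eval c ≠ 0) :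
    Polynomial.aeval h q ≠ 0 ∧ v.ord (Polynomial.aeval h q) = 0 := by
  have hne : h - algebraMap K F c ≠ 0 := hh_ne_zero_of_ord_ne v hv.ne'
  have hmem : h ∈ v.toValuationSubring := by
    have h1 : h - algebraMap K F c ∈ v.toValuationSubring :=
      (wp1_mem_iff_ord_nonneg v _).mpr hv.le
    have := v.toValuationSubring.add_mem _ _ h1 (v.algebraMap_mem' c)
    simpa using this
  have hdec : q = Polynomial.C (q.eval c) +
      (Polynomial.X - Polynomial.C c) * (q /ₘ (Polynomial.X - Polynomial.C c)) := by
    have := Polynomial.modByMonic_add_div q (Polynomial.X - Polynomial.C c)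
    rw [Polynomial.modByMonic_X_sub_C_eq_C_eval] at this
    exact this.symm
  have hval : Polynomial.aeval h q = algebraMap K F (q.eval c) +
      (h - algebraMap K F c) *
        Polynomial.aeval h (q /ₘ (Polynomial.X - Polynomial.C c)) := by
    conv_lhs => rw [hdec]
    simp
  have hc0 : algebraMap K F (q.eval c) ≠ 0 := (map_ne_zero _).mpr hq
  have hcord := wp1_ord_algebraMap v (q.eval c)
  by_cases hr0 : Polynomial.aeval h (q /ₘ (Polynomial.X - Polynomial.C c)) = 0
  · rw [hval, hr0, mul_zero, add_zero]
    exact ⟨hc0, hcord⟩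
  · have hrmem := hh_aeval_mem v h hmem (q /ₘ (Polynomial.X - Polynomial.C c))
    have hrord := (wp1_mem_iff_ord_nonneg v _).mp hrmem
    have hg := mul_ne_zero hne hr0
    have hgord : 0 < v.ord ((h - algebraMap K F c) *
        Polynomial.aeval h (q /ₘ (Polynomial.X - Polynomial.C c))) := by
      rw [v.ord_mul hne hr0]
      omega
    rw [hval]
    have := hh_ord_add_lt v _ _ hc0 hg (by rw [hcord]; exact hgord)
    exact ⟨this.1, by rw [this.2, hcord]⟩

theorem hh_ord_mul_unit (v : Place K F) {f u : F} (hf : f ≠ 0) (hu : u ≠ 0)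
    (hu0 : v.ord u = 0) : v.ord (f * u) = v.ord f := by
  rw [v.ord_mul hf hu, hu0, add_zero]

theorem hh_eq_one_of_mul_dvd {x : ℤ} {n : ℤ} (hn : 0 < n) (hx : 0 < x) (h : n * x ∣ n) :
    x = 1 := by
  have h1 := Int.le_of_dvd hn h
  nlinarith

end General

section Level2

variable {K F : Type*} [Field K] [CharZero K] [Field F] [Algebra K F]

/-- Transport of the ramification over the `j`-line to the `X₀(2)`-Hauptmodul line:
`j h² = (h + 256)³`. -/
theorem hh_level2 (j h : F) (N : ℕ)
    (hrel : j * h ^ 2 = (h + 256) ^ 3)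
    (H1 : ∀ a : K, a ≠ 0 → a ≠ 1728 → ∀ v : Place K F,
      0 < v.ord (j - algebraMap K F a) → v.ord (j - algebraMap K F a) = 1)
    (H2 : ∀ v : Place K F, 0 < v.ord j → v.ord j ∣ 3)
    (H3 : ∀ v : Place K F, 0 < v.ord (j - algebraMap K F 1728) →
      v.ord (j - algebraMap K F 1728) ∣ 2)
    (H4 : ∀ v : Place K F, v.ord j < 0 → v.ord j ∣ (N : ℤ)) :
    (∀ c : K, c ≠ 0 → c ≠ -64 → ∀ v : Place K F,
      0 < v.ord (h - algebraMap K F c) → v.ord (h - algebraMap K F c) = 1) ∧
    (∀ v : Place K F, 0 < v.ord (h + 64) → v.ord (h + 64) ∣ 2) ∧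
    (∀ v : Place K F, 0 < v.ord h → 2 * v.ord h ∣ (N : ℤ)) ∧
    (∀ v : Place K F, v.ord h < 0 → v.ord h ∣ (N : ℤ)) := by
  have hrel' : (j - algebraMap K F 1728) * h ^ 2 = (h + 64) * (h - 512) ^ 2 := by
    rw [map_ofNat]
    linear_combination hrel
  refine ⟨?_, ?_, ?_, ?_⟩
  · intro c hc0 hc64 v hv
    have hcF0 : algebraMap K F c ≠ 0 := (map_ne_zero _).mpr hc0
    have hcFord : v.ord (algebraMap K F c) = 0 := wp1_ord_algebraMap v c
    have hne : h - algebraMap K F c ≠ 0 := hh_ne_zero_of_ord_ne v hv.ne'
    obtain ⟨hh0, hhord⟩ : h ≠ 0 ∧ v.ord h = 0 := by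
      simpa using hh_ord_aeval v h c hv Polynomial.X (by simpa using hc0)
    have hh2 : h ^ 2 ≠ 0 := pow_ne_zero 2 hh0
    have hh2ord : v.ord (h ^ 2) = 0 := by rw [hh_ord_pow, hhord, mul_zero]
    by_cases hc256 : c = -256
    · -- zero of `h + 256`: `ord j = 3 ord (h + 256)`
      have hrw : h - algebraMap K F c = h + 256 := by
        rw [hc256, map_neg, map_ofNat, sub_neg_eq_add]
      rw [hrw] at hv hne ⊢
      have hj0 : j ≠ 0 := by
        intro h0
        rw [h0, zero_mul] at hrel
        exact pow_ne_zero 3 hne hrel.symm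
      have hord : v.ord j = 3 * v.ord (h + 256) := by
        have := congrArg v.ord hrel
        rw [hh_ord_mul_unit v hj0 hh2 hh2ord, hh_ord_pow] at this
        exact_mod_cast this
      have h3 := H2 v (by rw [hord]; omega)
      rw [hord] at h3
      exact hh_eq_one_of_mul_dvd (by norm_num) hv h3
    by_cases hc512 : c = 512
    · -- zero of `h - 512`: `ord (j - 1728) = 2 ord (h - 512)`
      have hrw : h - algebraMap K F c = h - 512 := by
        rw [hc512, map_ofNat]
      obtain ⟨hu0, huord⟩ : h + 64 ≠ 0 ∧ v.ord (h + 64) = 0 := by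
        have := hh_ord_aeval v h c hv (Polynomial.X + 64)
          (by rw [hc512]; simp; norm_num)
        simpa [map_ofNat] using this
      rw [hrw] at hv hne ⊢
      have hj0 : j - algebraMap K F 1728 ≠ 0 := by
        intro h0
        rw [h0, zero_mul] at hrel'
        exact mul_ne_zero hu0 (pow_ne_zero 2 hne) hrel'.symm
      have hord : v.ord (j - algebraMap K F 1728) = 2 * v.ord (h - 512) := by
        have := congrArg v.ord hrel'
        rw [hh_ord_mul_unit v hj0 hh2 hh2ord, mul_comm (h + 64),
          hh_ord_mul_unit v (pow_ne_zero 2 hne) hu0 huord, hh_ord_pow] at this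
        exact_mod_cast this
      have h3 := H3 v (by rw [hord]; omega)
      rw [hord] at h3
      exact hh_eq_one_of_mul_dvd (by norm_num) hv h3
    · -- generic zero
      have hcc : c ^ 2 ≠ 0 := pow_ne_zero 2 hc0
      have ha0 : (c + 256) ^ 3 / c ^ 2 ≠ 0 := by
        refine div_ne_zero (pow_ne_zero 3 ?_) hcc
        intro h0
        exact hc256 (by linear_combination h0)
      have ha1 : (c + 256) ^ 3 / c ^ 2 ≠ 1728 := by
        intro h0
        rw [div_eq_iff hcc] at h0
        have h1 : (c + 64) * (c - 512) ^ 2 = 0 := by linear_combination h0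
        rcases mul_eq_zero.mp h1 with h2 | h2
        · exact hc64 (by linear_combination h2)
        · exact hc512 (by linear_combination pow_eq_zero_iff (two_ne_zero) |>.mp h2)
      have haF : algebraMap K F ((c + 256) ^ 3 / c ^ 2) * algebraMap K F c ^ 2 =
          (algebraMap K F c + 256) ^ 3 := by
        rw [← map_pow, ← map_mul, div_mul_cancel₀ _ hcc, map_pow, map_add, map_ofNat]
      obtain ⟨hQ0, hQord⟩ : algebraMap K F c ^ 2 * h ^ 2
            - 65536 * (3 * algebraMap K F c + 256) * h - 16777216 * algebraMap K F c ≠ 0 ∧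
          v.ord (algebraMap K F c ^ 2 * h ^ 2
            - 65536 * (3 * algebraMap K F c + 256) * h - 16777216 * algebraMap K F c) = 0 := by
        have := hh_ord_aeval v h c hv
          (Polynomial.C (c ^ 2) * Polynomial.X ^ 2
            - Polynomial.C (65536 * (3 * c + 256)) * Polynomial.X - Polynomial.C (16777216 * c))
          (by
            simp only [Polynomial.eval_sub, Polynomial.eval_mul, Polynomial.eval_C,
              Polynomial.eval_pow, Polynomial.eval_X]
            have h1 : c ^ 2 * c ^ 2 - 65536 * (3 * c + 256) * c - 16777216 * c =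
                c * (c - 512) * (c + 256) ^ 2 := by ring
            rw [h1]
            refine mul_ne_zero (mul_ne_zero hc0 ?_) (pow_ne_zero 2 ?_)
            · intro h0
              exact hc512 (by linear_combination h0)
            · intro h0
              exact hc256 (by linear_combination h0))
        simpa [map_ofNat] using this
      have hkey : (j - algebraMap K F ((c + 256) ^ 3 / c ^ 2)) * (h ^ 2 * algebraMap K F c ^ 2) =
          (h - algebraMap K F c) * (algebraMap K F c ^ 2 * h ^ 2
            - 65536 * (3 * algebraMap K F c + 256) * h - 16777216 * algebraMap K F c) := by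
        linear_combination algebraMap K F c ^ 2 * hrel - h ^ 2 * haF
      have hc2F : algebraMap K F c ^ 2 ≠ 0 := pow_ne_zero 2 hcF0
      have hc2Ford : v.ord (algebraMap K F c ^ 2) = 0 := by rw [hh_ord_pow, hcFord, mul_zero]
      have hj0 : j - algebraMap K F ((c + 256) ^ 3 / c ^ 2) ≠ 0 := by
        intro h0
        rw [h0, zero_mul] at hkey
        exact mul_ne_zero hne hQ0 hkey.symm
      have hord : v.ord (j - algebraMap K F ((c + 256) ^ 3 / c ^ 2)) =
          v.ord (h - algebraMap K F c) := by
        have := congrArg v.ord hkey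
        rw [← mul_assoc, hh_ord_mul_unit v (mul_ne_zero hj0 hh2) hc2F hc2Ford,
          hh_ord_mul_unit v hj0 hh2 hh2ord, hh_ord_mul_unit v hne hQ0 hQord] at this
        exact this
      rw [← hord]
      exact H1 _ ha0 ha1 v (by rw [hord]; exact hv)
  · -- zeros of `h + 64`
    intro v hv
    have hv' : 0 < v.ord (h - algebraMap K F (-64)) := by
      rwa [map_neg, map_ofNat, sub_neg_eq_add]
    have hne : h + 64 ≠ 0 := hh_ne_zero_of_ord_ne v hv.ne'
    obtain ⟨hh0, hhord⟩ : h ≠ 0 ∧ v.ord h = 0 := by
      simpa using hh_ord_aeval v h (-64) hv' Polynomial.X (by simp)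
    have hh2 : h ^ 2 ≠ 0 := pow_ne_zero 2 hh0
    have hh2ord : v.ord (h ^ 2) = 0 := by rw [hh_ord_pow, hhord, mul_zero]
    obtain ⟨hu0, huord⟩ : h - 512 ≠ 0 ∧ v.ord (h - 512) = 0 := by
      have := hh_ord_aeval v h (-64) hv' (Polynomial.X - 512) (by simp; norm_num)
      simpa [map_ofNat] using this
    have hu2 : (h - 512) ^ 2 ≠ 0 := pow_ne_zero 2 hu0
    have hu2ord : v.ord ((h - 512) ^ 2) = 0 := by rw [hh_ord_pow, huord, mul_zero]
    have hj0 : j - algebraMap K F 1728 ≠ 0 := by
      intro h0
      rw [h0, zero_mul] at hrel'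
      exact mul_ne_zero hne hu2 hrel'.symm
    have hord : v.ord (j - algebraMap K F 1728) = v.ord (h + 64) := by
      have := congrArg v.ord hrel'
      rwa [hh_ord_mul_unit v hj0 hh2 hh2ord, hh_ord_mul_unit v hne hu2 hu2ord] at this
    rw [← hord]
    exact H3 v (by rw [hord]; exact hv)
  · -- zeros of `h`: poles of `j` of order `2 ord h`
    intro v hv
    have hv' : 0 < v.ord (h - algebraMap K F 0) := by rwa [map_zero, sub_zero]
    have hh0 : h ≠ 0 := hh_ne_zero_of_ord_ne v hv.ne'
    obtain ⟨hu0, huord⟩ : h + 256 ≠ 0 ∧ v.ord (h + 256) = 0 := by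
      have := hh_ord_aeval v h 0 hv' (Polynomial.X + 256) (by simp)
      simpa [map_ofNat] using this
    have hj0 : j ≠ 0 := by
      intro h0
      rw [h0, zero_mul] at hrel
      exact pow_ne_zero 3 hu0 hrel.symm
    have hord : v.ord j = -(2 * v.ord h) := by
      have := congrArg v.ord hrel
      rw [v.ord_mul hj0 (pow_ne_zero 2 hh0), hh_ord_pow, hh_ord_pow, huord] at this
      push_cast at this
      linarith
    have h4 := H4 v (by rw [hord]; omega)
    rw [hord] at h4
    exact (neg_dvd).mp h4
  · -- poles of `h`: poles of `j` of the same order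
    intro v hv
    have hh0 : h ≠ 0 := hh_ne_zero_of_ord_ne v hv.ne
    have h256 : (256 : F) = algebraMap K F 256 := (map_ofNat _ _).symm
    have h256ne : (256 : F) ≠ 0 := by
      rw [h256]
      exact (map_ne_zero _).mpr (by norm_num)
    have h256ord : v.ord (256 : F) = 0 := by
      rw [h256]
      exact wp1_ord_algebraMap v _
    obtain ⟨hu0, huord⟩ := hh_ord_add_lt v h 256 hh0 h256ne (by rw [h256ord]; exact hv)
    have hj0 : j ≠ 0 := by
      intro h0
      rw [h0, zero_mul] at hrel
      exact pow_ne_zero 3 hu0 hrel.symm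
    have hord : v.ord j = v.ord h := by
      have := congrArg v.ord hrel
      rw [v.ord_mul hj0 (pow_ne_zero 2 hh0), hh_ord_pow, hh_ord_pow, huord] at this
      push_cast at this
      linarith
    rw [← hord]
    exact H4 v (by rw [hord]; exact hv)

end Level2

section Level3

variable {K F : Type*} [Field K] [CharZero K] [Field F] [Algebra K F]

/-- Transport of the ramification over the `j`-line to the `X₀(3)`-Hauptmodul line:
`j h³ = (h + 27)(h + 243)³`. -/
theorem hh_level3 (j h : F) (N : ℕ)
    (hrel : j * h ^ 3 = (h + 27) * (h + 243) ^ 3)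
    (H1 : ∀ a : K, a ≠ 0 → a ≠ 1728 → ∀ v : Place K F,
      0 < v.ord (j - algebraMap K F a) → v.ord (j - algebraMap K F a) = 1)
    (H2 : ∀ v : Place K F, 0 < v.ord j → v.ord j ∣ 3)
    (H3 : ∀ v : Place K F, 0 < v.ord (j - algebraMap K F 1728) →
      v.ord (j - algebraMap K F 1728) ∣ 2)
    (H4 : ∀ v : Place K F, v.ord j < 0 → v.ord j ∣ (N : ℤ)) :
    (∀ c : K, c ≠ 0 → c ≠ -27 → ∀ v : Place K F,
      0 < v.ord (h - algebraMap K F c) → v.ord (h - algebraMap K F c) = 1) ∧
    (∀ v : Place K F, 0 < v.ord (h + 27) → v.ord (h + 27) ∣ 3) ∧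
    (∀ v : Place K F, 0 < v.ord h → 3 * v.ord h ∣ (N : ℤ)) ∧
    (∀ v : Place K F, v.ord h < 0 → v.ord h ∣ (N : ℤ)) := by
  have hrel' : (j - algebraMap K F 1728) * h ^ 3 = (h ^ 2 - 486 * h - 19683) ^ 2 := by
    rw [map_ofNat]
    linear_combination hrel
  refine ⟨?_, ?_, ?_, ?_⟩
  · intro c hc0 hc27 v hv
    have hcF0 : algebraMap K F c ≠ 0 := (map_ne_zero _).mpr hc0
    have hcFord : v.ord (algebraMap K F c) = 0 := wp1_ord_algebraMap v c
    have hne : h - algebraMap K F c ≠ 0 := hh_ne_zero_of_ord_ne v hv.ne'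
    obtain ⟨hh0, hhord⟩ : h ≠ 0 ∧ v.ord h = 0 := by
      simpa using hh_ord_aeval v h c hv Polynomial.X (by simpa using hc0)
    have hh3 : h ^ 3 ≠ 0 := pow_ne_zero 3 hh0
    have hh3ord : v.ord (h ^ 3) = 0 := by rw [hh_ord_pow, hhord, mul_zero]
    by_cases hc243 : c = -243
    · -- zero of `h + 243`: `ord j = 3 ord (h + 243)`
      obtain ⟨hu0, huord⟩ : h + 27 ≠ 0 ∧ v.ord (h + 27) = 0 := by
        have := hh_ord_aeval v h c hv (Polynomial.X + 27)
          (by rw [hc243]; simp; norm_num)
        simpa [map_ofNat] using this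
      have hrw : h - algebraMap K F c = h + 243 := by
        rw [hc243, map_neg, map_ofNat, sub_neg_eq_add]
      rw [hrw] at hv hne ⊢
      have hj0 : j ≠ 0 := by
        intro h0
        rw [h0, zero_mul] at hrel
        exact mul_ne_zero hu0 (pow_ne_zero 3 hne) hrel.symm
      have hord : v.ord j = 3 * v.ord (h + 243) := by
        have := congrArg v.ord hrel
        rw [hh_ord_mul_unit v hj0 hh3 hh3ord, mul_comm (h + 27),
          hh_ord_mul_unit v (pow_ne_zero 3 hne) hu0 huord, hh_ord_pow] at this
        exact_mod_cast this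
      have h3 := H2 v (by rw [hord]; omega)
      rw [hord] at h3
      exact hh_eq_one_of_mul_dvd (by norm_num) hv h3
    by_cases hcq : c ^ 2 - 486 * c - 19683 = 0
    · -- zero of `h² - 486 h - 19683`: `ord (j - 1728) = 2 ord (h - c)`
      have hcqF : algebraMap K F c ^ 2 - 486 * algebraMap K F c - 19683 = 0 := by
        have := congrArg (algebraMap K F) hcq
        simpa [map_ofNat] using this
      obtain ⟨hu0, huord⟩ : h + (algebraMap K F c - 486) ≠ 0 ∧
          v.ord (h + (algebraMap K F c - 486)) = 0 := by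
        have := hh_ord_aeval v h c hv (Polynomial.X + Polynomial.C (c - 486))
          (by
            simp only [Polynomial.eval_add, Polynomial.eval_X, Polynomial.eval_C]
            intro h0
            have h1 : c = 243 := by linear_combination h0 / 2
            rw [h1] at hcq
            norm_num at hcq)
        simpa [map_ofNat] using this
      have hfac : h ^ 2 - 486 * h - 19683 =
          (h - algebraMap K F c) * (h + (algebraMap K F c - 486)) := by
        linear_combination hcqF
      rw [hfac] at hrel'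
      have hj0 : j - algebraMap K F 1728 ≠ 0 := by
        intro h0
        rw [h0, zero_mul] at hrel'
        exact pow_ne_zero 2 (mul_ne_zero hne hu0) hrel'.symm
      have hord : v.ord (j - algebraMap K F 1728) = 2 * v.ord (h - algebraMap K F c) := by
        have := congrArg v.ord hrel'
        rw [hh_ord_mul_unit v hj0 hh3 hh3ord, hh_ord_pow,
          hh_ord_mul_unit v hne hu0 huord] at this
        exact_mod_cast this
      have h3 := H3 v (by rw [hord]; omega)
      rw [hord] at h3
      exact hh_eq_one_of_mul_dvd (by norm_num) hv h3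
    · -- generic zero
      have hc243' : c + 243 ≠ 0 := fun h0 => hc243 (by linear_combination h0)
      have hc27' : c + 27 ≠ 0 := fun h0 => hc27 (by linear_combination h0)
      have hcc : c ^ 3 ≠ 0 := pow_ne_zero 3 hc0
      have ha0 : (c + 27) * (c + 243) ^ 3 / c ^ 3 ≠ 0 :=
        div_ne_zero (mul_ne_zero hc27' (pow_ne_zero 3 hc243')) hcc
      have ha1 : (c + 27) * (c + 243) ^ 3 / c ^ 3 ≠ 1728 := by
        intro h0
        rw [div_eq_iff hcc] at h0
        have h1 : (c ^ 2 - 486 * c - 19683) ^ 2 = 0 := by linear_combination h0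
        exact hcq (pow_eq_zero_iff (two_ne_zero) |>.mp h1)
      have haF : algebraMap K F ((c + 27) * (c + 243) ^ 3 / c ^ 3) * algebraMap K F c ^ 3 =
          (algebraMap K F c + 27) * (algebraMap K F c + 243) ^ 3 := by
        rw [← map_pow, ← map_mul, div_mul_cancel₀ _ hcc]
        simp [map_ofNat]
      obtain ⟨hQ0, hQord⟩ : algebraMap K F c ^ 3 * h ^ 3
            - (196830 * algebraMap K F c ^ 2 + 19131876 * algebraMap K F c + 387420489) * h ^ 2
            - (19131876 * algebraMap K F c ^ 2 + 387420489 * algebraMap K F c) * h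
            - 387420489 * algebraMap K F c ^ 2 ≠ 0 ∧
          v.ord (algebraMap K F c ^ 3 * h ^ 3
            - (196830 * algebraMap K F c ^ 2 + 19131876 * algebraMap K F c + 387420489) * h ^ 2
            - (19131876 * algebraMap K F c ^ 2 + 387420489 * algebraMap K F c) * h
            - 387420489 * algebraMap K F c ^ 2) = 0 := by
        have := hh_ord_aeval v h c hv
          (Polynomial.C (c ^ 3) * Polynomial.X ^ 3
            - Polynomial.C (196830 * c ^ 2 + 19131876 * c + 387420489) * Polynomial.X ^ 2
            - Polynomial.C (19131876 * c ^ 2 + 387420489 * c) * Polynomial.X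
            - Polynomial.C (387420489 * c ^ 2))
          (by
            simp only [Polynomial.eval_sub, Polynomial.eval_mul, Polynomial.eval_C,
              Polynomial.eval_pow, Polynomial.eval_X]
            have h1 : c ^ 3 * c ^ 3 - (196830 * c ^ 2 + 19131876 * c + 387420489) * c ^ 2
                - (19131876 * c ^ 2 + 387420489 * c) * c - 387420489 * c ^ 2 =
                c ^ 2 * (c + 243) ^ 2 * (c ^ 2 - 486 * c - 19683) := by ring
            rw [h1]
            exact mul_ne_zero (mul_ne_zero (pow_ne_zero 2 hc0) (pow_ne_zero 2 hc243')) hcq)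
        simpa [map_ofNat] using this
      have hkey : (j - algebraMap K F ((c + 27) * (c + 243) ^ 3 / c ^ 3)) *
            (h ^ 3 * algebraMap K F c ^ 3) =
          (h - algebraMap K F c) * (algebraMap K F c ^ 3 * h ^ 3
            - (196830 * algebraMap K F c ^ 2 + 19131876 * algebraMap K F c + 387420489) * h ^ 2
            - (19131876 * algebraMap K F c ^ 2 + 387420489 * algebraMap K F c) * h
            - 387420489 * algebraMap K F c ^ 2) := by
        linear_combination algebraMap K F c ^ 3 * hrel - h ^ 3 * haF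
      have hc3F : algebraMap K F c ^ 3 ≠ 0 := pow_ne_zero 3 hcF0
      have hc3Ford : v.ord (algebraMap K F c ^ 3) = 0 := by rw [hh_ord_pow, hcFord, mul_zero]
      have hj0 : j - algebraMap K F ((c + 27) * (c + 243) ^ 3 / c ^ 3) ≠ 0 := by
        intro h0
        rw [h0, zero_mul] at hkey
        exact mul_ne_zero hne hQ0 hkey.symm
      have hord : v.ord (j - algebraMap K F ((c + 27) * (c + 243) ^ 3 / c ^ 3)) =
          v.ord (h - algebraMap K F c) := by
        have := congrArg v.ord hkey
        rw [← mul_assoc, hh_ord_mul_unit v (mul_ne_zero hj0 hh3) hc3F hc3Ford,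
          hh_ord_mul_unit v hj0 hh3 hh3ord, hh_ord_mul_unit v hne hQ0 hQord] at this
        exact this
      rw [← hord]
      exact H1 _ ha0 ha1 v (by rw [hord]; exact hv)
  · -- zeros of `h + 27`
    intro v hv
    have hv' : 0 < v.ord (h - algebraMap K F (-27)) := by
      rwa [map_neg, map_ofNat, sub_neg_eq_add]
    have hne : h + 27 ≠ 0 := hh_ne_zero_of_ord_ne v hv.ne'
    obtain ⟨hh0, hhord⟩ : h ≠ 0 ∧ v.ord h = 0 := by
      simpa using hh_ord_aeval v h (-27) hv' Polynomial.X (by simp)
    have hh3 : h ^ 3 ≠ 0 := pow_ne_zero 3 hh0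
    have hh3ord : v.ord (h ^ 3) = 0 := by rw [hh_ord_pow, hhord, mul_zero]
    obtain ⟨hu0, huord⟩ : h + 243 ≠ 0 ∧ v.ord (h + 243) = 0 := by
      have := hh_ord_aeval v h (-27) hv' (Polynomial.X + 243) (by simp; norm_num)
      simpa [map_ofNat] using this
    have hu3 : (h + 243) ^ 3 ≠ 0 := pow_ne_zero 3 hu0
    have hu3ord : v.ord ((h + 243) ^ 3) = 0 := by rw [hh_ord_pow, huord, mul_zero]
    have hj0 : j ≠ 0 := by
      intro h0
      rw [h0, zero_mul] at hrel
      exact mul_ne_zero hne hu3 hrel.symm
    have hord : v.ord j = v.ord (h + 27) := by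
      have := congrArg v.ord hrel
      rwa [hh_ord_mul_unit v hj0 hh3 hh3ord, hh_ord_mul_unit v hne hu3 hu3ord] at this
    rw [← hord]
    exact H2 v (by rw [hord]; exact hv)
  · -- zeros of `h`: poles of `j` of order `3 ord h`
    intro v hv
    have hv' : 0 < v.ord (h - algebraMap K F 0) := by rwa [map_zero, sub_zero]
    have hh0 : h ≠ 0 := hh_ne_zero_of_ord_ne v hv.ne'
    obtain ⟨hu0, huord⟩ : h + 27 ≠ 0 ∧ v.ord (h + 27) = 0 := by
      have := hh_ord_aeval v h 0 hv' (Polynomial.X + 27) (by simp)
      simpa [map_ofNat] using this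
    obtain ⟨hw0, hword⟩ : h + 243 ≠ 0 ∧ v.ord (h + 243) = 0 := by
      have := hh_ord_aeval v h 0 hv' (Polynomial.X + 243) (by simp)
      simpa [map_ofNat] using this
    have hj0 : j ≠ 0 := by
      intro h0
      rw [h0, zero_mul] at hrel
      exact mul_ne_zero hu0 (pow_ne_zero 3 hw0) hrel.symm
    have hord : v.ord j = -(3 * v.ord h) := by
      have := congrArg v.ord hrel
      rw [v.ord_mul hj0 (pow_ne_zero 3 hh0), v.ord_mul hu0 (pow_ne_zero 3 hw0), hh_ord_pow,
        hh_ord_pow, huord, hword] at this
      push_cast at this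
      linarith
    have h4 := H4 v (by rw [hord]; omega)
    rw [hord] at h4
    exact (neg_dvd).mp h4
  · -- poles of `h`: poles of `j` of the same order
    intro v hv
    have hh0 : h ≠ 0 := hh_ne_zero_of_ord_ne v hv.ne
    have hconst : ∀ a : K, a ≠ 0 → (algebraMap K F a ≠ 0 ∧ v.ord (algebraMap K F a) = 0) :=
      fun a ha => ⟨(map_ne_zero _).mpr ha, wp1_ord_algebraMap v a⟩
    have h27 : (27 : F) = algebraMap K F 27 := (map_ofNat _ _).symm
    have h243 : (243 : F) = algebraMap K F 243 := (map_ofNat _ _).symm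
    obtain ⟨hu0, huord⟩ := hh_ord_add_lt v h 27 hh0
      (by rw [h27]; exact (hconst 27 (by norm_num)).1)
      (by rw [h27, (hconst 27 (by norm_num)).2]; exact hv)
    obtain ⟨hw0, hword⟩ := hh_ord_add_lt v h 243 hh0
      (by rw [h243]; exact (hconst 243 (by norm_num)).1)
      (by rw [h243, (hconst 243 (by norm_num)).2]; exact hv)
    have hj0 : j ≠ 0 := by
      intro h0
      rw [h0, zero_mul] at hrel
      exact mul_ne_zero hu0 (pow_ne_zero 3 hw0) hrel.symm
    have hord : v.ord j = v.ord h := by
      have := congrArg v.ord hrel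
      rw [v.ord_mul hj0 (pow_ne_zero 3 hh0), v.ord_mul hu0 (pow_ne_zero 3 hw0), hh_ord_pow,
        hh_ord_pow, huord, hword] at this
      push_cast at this
      linarith
    rw [← hord]
    exact H4 v (by rw [hord]; exact hv)

end Level3

end Fermat.Agent.S18
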