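/-
S18 / B5a (helper39): the local base ring of the line over a DVR at a closed point of the
special fibre.  Generic, Mathlib only.

Setting: `R` a DVR with uniformiser `π`, `𝔪` a maximal ideal of `R[X]` containing `C π`,
`O` a localisation of `R[X]` at `𝔪`.  Then `O` is a Noetherian local UFD, the image of `π`
is a prime element of the maximal ideal, `O ⧸ (π)` is a principal ideal ring, and every prime
element of `O` is associated to `π` or to (the image of) a primitive irreducible polynomial
lying in `𝔪`, which stays irreducible over `Frac R`.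
-/
import Mathlib

set_option autoImplicit false
set_option linter.unusedSectionVars false
set_option linter.unusedVariables false
set_option linter.style.haveILetI false

open Polynomial

namespace Fermat.Agent.S18

section LocalBase

variable {R : Type*} [CommRing R] [IsDomain R] [IsDiscreteValuationRing R]
  {π : R} (hπ : Irreducible π)
  (𝔪 : Ideal R[X]) [h𝔪 : 𝔪.IsMaximal] (hπ𝔪 : C π ∈ 𝔪)
  (O : Type*) [CommRing O] [Algebra R[X] O] [IsLocalization.AtPrime O 𝔪]

include 𝔪 in
theorem lb39_isDomain : IsDomain O :=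
  IsLocalization.isDomain_of_le_nonZeroDivisors (M := 𝔪.primeCompl) O
    (Ideal.primeCompl_le_nonZeroDivisors 𝔪)

include 𝔪 in
theorem lb39_ufm : UniqueFactorizationMonoid O :=
  UniqueFactorizationMonoid.of_isLocalization 𝔪.primeCompl O

include 𝔪 in
theorem lb39_noeth : IsNoetherianRing O :=
  IsLocalization.isNoetherianRing 𝔪.primeCompl O inferInstance

include 𝔪 in
theorem lb39_isLocalRing : IsLocalRing O := IsLocalization.AtPrime.isLocalRing O 𝔪

include 𝔪 in
theorem lb39_algebraMap_injective : Function.Injective (algebraMap R[X] O) :=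
  IsLocalization.injective O (Ideal.primeCompl_le_nonZeroDivisors 𝔪)

include hπ in
/-- `C π` is a prime element of `R[X]`. -/
theorem lb39_prime_C : Prime (C π : R[X]) := Polynomial.prime_C_iff.mpr hπ.prime

include hπ hπ𝔪 in
/-- `𝔪 ∩ R = (π)`. -/
theorem lb39_C_mem_iff (r : R) : C r ∈ 𝔪 ↔ π ∣ r := by
  constructor
  · intro hr
    by_contra hdvd
    have hmax : IsLocalRing.maximalIdeal R = Ideal.span {π} :=
      (IsDiscreteValuationRing.irreducible_iff_uniformizer π).mp hπ
    have hu : IsUnit r := by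
      by_contra hnu
      have : r ∈ IsLocalRing.maximalIdeal R := (IsLocalRing.mem_maximalIdeal r).mpr hnu
      rw [hmax, Ideal.mem_span_singleton] at this
      exact hdvd this
    exact h𝔪.ne_top (Ideal.eq_top_of_isUnit_mem _ hr (hu.map C))
  · rintro ⟨s, rfl⟩
    rw [C_mul]
    exact 𝔪.mul_mem_right _ hπ𝔪

include hπ hπ𝔪 in
/-- The image of `C π` in `O` is a prime element. -/
theorem lb39_prime_pi : Prime (algebraMap R[X] O (C π)) := by
  have hC : Prime (C π : R[X]) := lb39_prime_C hπ
  have hP : (Ideal.span {(C π : R[X])}).IsPrime :=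
    (Ideal.span_singleton_prime hC.ne_zero).mpr hC
  have hd : Disjoint (𝔪.primeCompl : Set R[X]) (Ideal.span {(C π : R[X])} : Set R[X]) := by
    rw [Set.disjoint_left]
    intro x hx hx'
    exact hx ((Ideal.span_singleton_le_iff_mem 𝔪).mpr hπ𝔪 hx')
  have hmap := IsLocalization.isPrime_of_isPrime_disjoint 𝔪.primeCompl O _ hP hd
  rw [Ideal.map_span, Set.image_singleton] at hmap
  have hne : algebraMap R[X] O (C π) ≠ 0 := by
    intro h0
    exact hC.ne_zero (lb39_algebraMap_injective 𝔪 O (by rw [h0, map_zero]))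
  exact (Ideal.span_singleton_prime hne).mp hmap

include hπ𝔪 in
/-- The image of `C π` lies in the maximal ideal of `O`. -/
theorem lb39_pi_mem_maximalIdeal [IsLocalRing O] :
    algebraMap R[X] O (C π) ∈ IsLocalRing.maximalIdeal O :=
  (IsLocalization.AtPrime.to_map_mem_maximal_iff O 𝔪 (C π)).mpr hπ𝔪

include hπ hπ𝔪 in
/-- `𝔪 = (π, g)` for some `g`. -/
theorem lb39_maximal_eq : ∃ g : R[X], 𝔪 = Ideal.span {C π, g} := by
  have hmax : IsLocalRing.maximalIdeal R = Ideal.span {π} :=
    (IsDiscreteValuationRing.irreducible_iff_uniformizer π).mp hπ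
  haveI hm : (Ideal.span {π}).IsMaximal := hmax ▸ IsLocalRing.maximalIdeal.isMaximal R
  letI : Field (R ⧸ Ideal.span {π}) := Ideal.Quotient.field _
  let φ : R[X] →+* (R ⧸ Ideal.span {π})[X] := Polynomial.mapRingHom (Ideal.Quotient.mk _)
  have hφ : Function.Surjective φ :=
    Polynomial.map_surjective _ Ideal.Quotient.mk_surjective
  have hker : RingHom.ker φ = Ideal.span {C π} := by
    rw [Polynomial.ker_mapRingHom, Ideal.mk_ker, Ideal.map_span, Set.image_singleton]
  have hkerle : RingHom.ker φ ≤ 𝔪 := by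
    rw [hker]; exact (Ideal.span_singleton_le_iff_mem 𝔪).mpr hπ𝔪
  obtain ⟨gbar, hgbar⟩ := (IsPrincipalIdealRing.principal (𝔪.map φ)).principal
  obtain ⟨g, rfl⟩ := hφ gbar
  refine ⟨g, ?_⟩
  have h1 : 𝔪 = (𝔪.map φ).comap φ := by
    rw [Ideal.comap_map_of_surjective φ hφ, ← RingHom.ker_eq_comap_bot]
    exact (sup_eq_left.mpr hkerle).symm
  have h2 : (Ideal.span {g} : Ideal R[X]).map φ = 𝔪.map φ := by
    rw [Ideal.map_span, Set.image_singleton, hgbar]
  rw [h1, ← h2, Ideal.comap_map_of_surjective φ hφ, ← RingHom.ker_eq_comap_bot, hker,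
    ← Ideal.span_union, Set.union_comm]
  rfl

include hπ hπ𝔪 in
/-- `O ⧸ (π)` is a principal ideal ring (a field or a DVR). -/
theorem lb39_quot_pir :
    IsPrincipalIdealRing (O ⧸ Ideal.span {algebraMap R[X] O (C π)}) := by
  haveI : IsLocalRing O := lb39_isLocalRing 𝔪 O
  haveI : IsDomain O := lb39_isDomain 𝔪 O
  haveI : IsNoetherianRing O := lb39_noeth 𝔪 O
  have hprime : Prime (algebraMap R[X] O (C π)) := lb39_prime_pi hπ 𝔪 hπ𝔪 O
  have hπmem : algebraMap R[X] O (C π) ∈ IsLocalRing.maximalIdeal O :=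
    lb39_pi_mem_maximalIdeal 𝔪 hπ𝔪 O
  generalize hϖ : algebraMap R[X] O (C π) = ϖ at hprime hπmem
  haveI : (Ideal.span {ϖ}).IsPrime := (Ideal.span_singleton_prime hprime.ne_zero).mpr hprime
  haveI : IsDomain (O ⧸ Ideal.span {ϖ}) := Ideal.Quotient.isDomain _
  haveI : IsLocalRing (O ⧸ Ideal.span {ϖ}) :=
    .of_surjective' _ Ideal.Quotient.mk_surjective
  refine ((tfae_of_isNoetherianRing_of_isLocalRing_of_isDomain
    (R := O ⧸ Ideal.span {ϖ})).out 4 0).mp ?_
  obtain ⟨g, hg⟩ := lb39_maximal_eq hπ 𝔪 hπ𝔪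
  have hmaxO : IsLocalRing.maximalIdeal O = Ideal.span {ϖ, algebraMap R[X] O g} := by
    rw [← IsLocalization.AtPrime.map_eq_maximalIdeal 𝔪 O, hg, Ideal.map_span, Set.image_pair, hϖ]
  have hgmem : algebraMap R[X] O g ∈ IsLocalRing.maximalIdeal O := by
    rw [hmaxO]; exact Ideal.subset_span (by simp)
  have hgq : Ideal.Quotient.mk (Ideal.span {ϖ}) (algebraMap R[X] O g) ∈
      IsLocalRing.maximalIdeal (O ⧸ Ideal.span {ϖ}) := by
    rw [IsLocalRing.mem_maximalIdeal, mem_nonunits_iff]
    intro hu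
    obtain ⟨z, hz⟩ := hu.exists_right_inv
    obtain ⟨z, rfl⟩ := Ideal.Quotient.mk_surjective z
    rw [← map_mul, ← map_one (Ideal.Quotient.mk (Ideal.span {ϖ})), Ideal.Quotient.eq,
      Ideal.mem_span_singleton] at hz
    obtain ⟨c, hc⟩ := hz
    have h1 : (1 : O) ∈ IsLocalRing.maximalIdeal O := by
      have : (1 : O) = algebraMap R[X] O g * z - ϖ * c := by rw [← hc]; ring
      rw [this]
      exact Ideal.sub_mem _ (Ideal.mul_mem_right _ _ hgmem) (Ideal.mul_mem_right _ _ hπmem)
    exact (Ideal.ne_top_iff_one _).mp (IsLocalRing.maximalIdeal.isMaximal O).ne_top h1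
  refine ⟨⟨Ideal.Quotient.mk _ (algebraMap R[X] O g), ?_⟩⟩
  apply le_antisymm
  · intro x hx
    obtain ⟨y, rfl⟩ := Ideal.Quotient.mk_surjective x
    have hy : y ∈ IsLocalRing.maximalIdeal O := by
      rw [IsLocalRing.mem_maximalIdeal, mem_nonunits_iff]
      intro hu
      rw [IsLocalRing.mem_maximalIdeal, mem_nonunits_iff] at hx
      exact hx (hu.map _)
    rw [hmaxO, Ideal.mem_span_pair] at hy
    obtain ⟨a, b, hab⟩ := hy
    rw [Submodule.mem_span_singleton]
    refine ⟨Ideal.Quotient.mk _ b, ?_⟩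
    rw [← hab, smul_eq_mul, map_add, map_mul, map_mul,
      Ideal.Quotient.eq_zero_iff_mem.mpr (Ideal.mem_span_singleton_self ϖ), mul_zero, zero_add]
  · rw [Submodule.span_singleton_le_iff_mem]
    exact hgq

include hπ in
/-- An irreducible polynomial not divisible by `C π` is primitive, of positive degree, and stays
irreducible over the fraction field. -/
theorem lb39_horizontal {f : R[X]} (hf : Irreducible f) (hfπ : ¬ C π ∣ f) :
    f.IsPrimitive ∧ 0 < f.natDegree := by
  have hmax : IsLocalRing.maximalIdeal R = Ideal.span {π} :=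
    (IsDiscreteValuationRing.irreducible_iff_uniformizer π).mp hπ
  have hprim : f.IsPrimitive := by
    intro r hr
    by_contra hnu
    have : r ∈ IsLocalRing.maximalIdeal R := (IsLocalRing.mem_maximalIdeal r).mpr hnu
    rw [hmax, Ideal.mem_span_singleton] at this
    exact hfπ (dvd_trans (_root_.map_dvd C this) hr)
  refine ⟨hprim, ?_⟩
  rw [Nat.pos_iff_ne_zero]
  intro h0
  obtain ⟨a, ha⟩ := natDegree_eq_zero.mp h0
  have hu : IsUnit a := hprim a (by rw [ha])
  exact hf.not_isUnit (ha ▸ hu.map C)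

include hπ in
/-- An irreducible polynomial not divisible by `C π` stays irreducible over `Frac R`. -/
theorem lb39_horizontal_irreducible {f : R[X]} (hf : Irreducible f) (hfπ : ¬ C π ∣ f)
    (K : Type*) [Field K] [Algebra R K] [IsFractionRing R K] :
    Irreducible (f.map (algebraMap R K)) :=
  ((lb39_horizontal hπ hf hfπ).1.irreducible_iff_irreducible_map_fraction_map).mp hf

include hπ hπ𝔪 in
/-- Every prime element of `O` is associated to `π`, or to an irreducible polynomial in `𝔪`
that is not divisible by `π` (a "horizontal" prime through the closed point). -/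
theorem lb39_prime_cases (p : O) (hp : Prime p) :
    Associated p (algebraMap R[X] O (C π)) ∨
      ∃ f : R[X], Irreducible f ∧ f ∈ 𝔪 ∧ ¬ C π ∣ f ∧ Associated p (algebraMap R[X] O f) := by
  haveI : IsDomain O := lb39_isDomain 𝔪 O
  obtain ⟨⟨f0, s⟩, hfs⟩ := IsLocalization.surj 𝔪.primeCompl p
  have hsu : IsUnit (algebraMap R[X] O (s : R[X])) := IsLocalization.map_units O s
  simp only at hfs
  have hf0 : f0 ≠ 0 := by
    rintro rfl
    rw [map_zero] at hfs
    rcases mul_eq_zero.mp hfs with h | h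
    · exact hp.ne_zero h
    · exact hsu.ne_zero h
  -- `p` divides the image of some irreducible factor `q` of `f0`
  have hdvd : p ∣ ((UniqueFactorizationMonoid.factors f0).map (algebraMap R[X] O)).prod := by
    rw [← map_multiset_prod]
    have : f0 ∣ (UniqueFactorizationMonoid.factors f0).prod :=
      (UniqueFactorizationMonoid.factors_prod hf0).symm.dvd
    exact dvd_trans ⟨_, hfs.symm⟩ (_root_.map_dvd (algebraMap R[X] O) this)
  obtain ⟨b, hb, hpb⟩ := hp.exists_mem_multiset_dvd hdvd
  obtain ⟨q, hq, rfl⟩ := Multiset.mem_map.mp hb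
  have hqirr : Irreducible q := UniqueFactorizationMonoid.irreducible_of_factor q hq
  have hqf0 : q ∣ f0 := UniqueFactorizationMonoid.dvd_of_mem_factors hq
  have hqp : algebraMap R[X] O q ∣ p := by
    have h1 : algebraMap R[X] O q ∣ p * algebraMap R[X] O (s : R[X]) := by
      rw [hfs]; exact _root_.map_dvd _ hqf0
    exact (hsu.dvd_mul_right).mp h1
  have hassoc : Associated p (algebraMap R[X] O q) := associated_of_dvd_dvd hpb hqp
  have hq𝔪 : q ∈ 𝔪 := by
    by_contra hq𝔪
    have : IsUnit (algebraMap R[X] O q) :=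
      (IsLocalization.AtPrime.isUnit_to_map_iff O 𝔪 q).mpr hq𝔪
    exact hp.not_isUnit (hassoc.symm.isUnit this)
  by_cases hπq : C π ∣ q
  · left
    obtain ⟨c, hc⟩ := hπq
    have hcu : IsUnit c := by
      rcases hqirr.isUnit_or_isUnit hc with h | h
      · exact absurd h (lb39_prime_C hπ).not_isUnit
      · exact h
    refine hassoc.trans ?_
    rw [hc, map_mul]
    exact (associated_mul_unit_left _ _ (hcu.map _)).symm.symm
  · right
    exact ⟨q, hqirr, hq𝔪, hπq, hassoc⟩

include 𝔪 in
/-- Divisibility by (the image of) a prime element of `R[X]` lying in `𝔪` can be tested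
in `R[X]`. -/
theorem lb39_map_dvd_iff {f : R[X]} (hf : Prime f) (hf𝔪 : f ∈ 𝔪) (a : R[X]) :
    algebraMap R[X] O f ∣ algebraMap R[X] O a ↔ f ∣ a := by
  constructor
  · rintro ⟨x, hx⟩
    obtain ⟨⟨b, s⟩, hbs⟩ := IsLocalization.surj 𝔪.primeCompl x
    simp only at hbs
    have h1 : algebraMap R[X] O (a * s) = algebraMap R[X] O (f * b) := by
      rw [map_mul, map_mul, hx, ← hbs]; ring
    have h2 : a * s = f * b := lb39_algebraMap_injective 𝔪 O h1
    rcases hf.dvd_or_dvd ⟨b, h2⟩ with h | h
    · exact h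
    · exfalso
      obtain ⟨c, hc⟩ := h
      exact s.2 (hc ▸ 𝔪.mul_mem_right _ hf𝔪)
  · exact fun h => _root_.map_dvd _ h

include hπ hπ𝔪 in
/-- A horizontal prime does not divide any nonzero integer (the residue field of its
localisation has characteristic zero) when `R` has characteristic zero. -/
theorem lb39_not_dvd_natCast [CharZero R] {f : R[X]} (hf : Irreducible f) (hf𝔪 : f ∈ 𝔪)
    (hfπ : ¬ C π ∣ f) (n : ℕ) (hn : n ≠ 0) : ¬ algebraMap R[X] O f ∣ (n : O) := by
  intro hdvd
  have h1 : algebraMap R[X] O f ∣ algebraMap R[X] O (C (n : R)) := by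
    simpa using hdvd
  have h2 : f ∣ C (n : R) := (lb39_map_dvd_iff 𝔪 O hf.prime hf𝔪 _).mp h1
  have hdeg := (lb39_horizontal hπ hf hfπ).2
  have hne : (C (n : R) : R[X]) ≠ 0 := by
    rw [Ne, C_eq_zero]; exact_mod_cast hn
  have := natDegree_le_of_dvd h2 hne
  rw [natDegree_C] at this
  omega

include hπ hπ𝔪 in
/-- At a rational point of the special fibre, `𝔪 = (π, X - c)`. -/
theorem lb39_maximal_eq_of_linear (c : R) (hc : X - C c ∈ 𝔪) :
    𝔪 = Ideal.span {C π, X - C c} := by
  apply le_antisymm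
  · intro f hf
    obtain ⟨q, e, hdecomp, he⟩ : ∃ q : R[X], ∃ e : R, f = C e + (X - C c) * q ∧ e = f.eval c := by
      refine ⟨f /ₘ (X - C c), f.eval c, ?_, rfl⟩
      have := modByMonic_add_div f (X - C c)
      rw [modByMonic_X_sub_C_eq_C_eval] at this
      exact this.symm
    have hCmem : C e ∈ 𝔪 := by
      have : C e = f - (X - C c) * q := by
        rw [eq_sub_iff_add_eq]; exact hdecomp.symm
      rw [this]
      exact 𝔪.sub_mem hf (𝔪.mul_mem_right _ hc)
    obtain ⟨r, hr⟩ := (lb39_C_mem_iff hπ 𝔪 hπ𝔪 _).mp hCmem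
    rw [Ideal.mem_span_pair]
    refine ⟨C r, q, ?_⟩
    rw [hdecomp, hr, C_mul]
    ring
  · rw [Ideal.span_le]
    rintro x (rfl | rfl)
    · exact hπ𝔪
    · exact hc

include 𝔪 in
/-- `O` has the same fraction field as `R[X]`. -/
theorem lb39_isFractionRing (E : Type*) [Field E] [Algebra R[X] E] [IsFractionRing R[X] E]
    [Algebra O E] [IsScalarTower R[X] O E] : IsFractionRing O E :=
  IsFractionRing.isFractionRing_of_isDomain_of_isLocalization 𝔪.primeCompl O E

include hπ hπ𝔪 in
/-- All ring-theoretic hypotheses on the base of the purity lemma, in one statement. -/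
theorem lb39_package :
    IsDomain O ∧ UniqueFactorizationMonoid O ∧ IsNoetherianRing O ∧ IsLocalRing O ∧
      Prime (algebraMap R[X] O (C π)) ∧
      IsPrincipalIdealRing (O ⧸ Ideal.span {algebraMap R[X] O (C π)}) :=
  ⟨lb39_isDomain 𝔪 O, lb39_ufm 𝔪 O, lb39_noeth 𝔪 O, lb39_isLocalRing 𝔪 O,
    lb39_prime_pi hπ 𝔪 hπ𝔪 O, lb39_quot_pir hπ 𝔪 hπ𝔪 O⟩

end LocalBase

end Fermat.Agent.S18
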