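import Fermat.Agent.S18.HorizDescent94
import Fermat.Agent.S18.SelfDual
import Fermat.Agent.S18.LocalBase39

/-!
S18, row B5-H (helper94): self-duality in codimension one at the horizontal primes.

`O = R[X]` acts on the `K₀`-model `L` of the function field through `X ↦ x` (`x = h` or
`x = h⁻¹`).  For every prime `p` of `R[X]` not dividing `C π * X * (X - C c)` the trace dual of
the integral closure `B` of `R[X]` in `L` is contained in `B_(p)` (the `hcodim` hypothesis of
`pl72_dual_eq`, in the shape of `sd44_hcodim_of_valuation`).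

Input: the zeros of `ι x - a` are simple on the geometric function field `Fb` for every
constant `a ∉ {0, c}` (from `HorizHaupt`), transported by `HorizDescent94`.
All names are prefixed `b5h94_`.
-/

set_option autoImplicit false
set_option linter.style.haveILetI false

open AlgebraicCurve IntermediateField Polynomial

namespace Fermat.Agent.S18

open Fermat.Agent.S24

section Primes

variable {R : Type*} [CommRing R] [IsDomain R] [IsDiscreteValuationRing R] {π : R}

/-- A prime of `R[X]` dividing a nonzero constant divides `C π`. -/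
theorem b5h94_dvd_C_pi (hπ : Irreducible π) {p : R[X]} (hp : Prime p) {b : R} (hb : b ≠ 0)
    (hpb : p ∣ C b) : p ∣ C π := by
  have hmax : IsLocalRing.maximalIdeal R = Ideal.span {π} :=
    (IsDiscreteValuationRing.irreducible_iff_uniformizer π).mp hπ
  have hdeg : p.natDegree = 0 := by
    have h1 := Polynomial.natDegree_le_of_dvd hpb (by simpa using hb)
    simpa using h1
  obtain ⟨q, hq⟩ : ∃ q : R, p = C q := ⟨p.coeff 0, Polynomial.eq_C_of_natDegree_eq_zero hdeg⟩
  have hqnu : ¬ IsUnit q := by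
    intro hu
    apply hp.not_isUnit
    rw [hq]
    exact hu.map C
  have hq0 : q ≠ 0 := by
    rintro rfl
    apply hp.ne_zero
    rw [hq, map_zero]
  have hπq : π ∣ q := by
    have : q ∈ IsLocalRing.maximalIdeal R := (IsLocalRing.mem_maximalIdeal q).mpr hqnu
    rwa [hmax, Ideal.mem_span_singleton] at this
  obtain ⟨q', rfl⟩ := hπq
  have hq'0 : q' ≠ 0 := right_ne_zero_of_mul hq0
  have hdvd : p ∣ C π * C q' := by rw [hq, map_mul]
  rcases hp.dvd_or_dvd hdvd with h | h
  · exact h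
  · exfalso
    rw [hq, Polynomial.C_dvd_iff_dvd_coeff] at h
    have h0 := h 0
    rw [Polynomial.coeff_C_zero] at h0
    obtain ⟨d, hd⟩ := h0
    have h1 : π * d = 1 := by
      have : q' * (π * d) = q' * 1 := by
        rw [mul_one]
        conv_lhs => rw [← mul_assoc, mul_comm q' π]
        exact hd.symm
      exact mul_left_cancel₀ hq'0 this
    exact hπ.not_isUnit (IsUnit.of_mul_eq_one d h1)

end Primes

section Main

variable {R : Type*} [CommRing R] [IsDomain R] [IsDiscreteValuationRing R] {π : R}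
variable {K0 : Type*} [Field K0] [Algebra R K0] [IsFractionRing R K0]
variable {E L B : Type*} [Field E] [Algebra R[X] E] [IsFractionRing R[X] E]
  [Field L] [Algebra E L] [Algebra R[X] L] [IsScalarTower R[X] E L] [FiniteDimensional E L]
  [Algebra.IsSeparable E L]
  [CommRing B] [Algebra R[X] B] [Algebra B L] [IsScalarTower R[X] B L]
  [IsIntegralClosure B R[X] L] [Algebra K0 L]
variable {Kb Fb : Type*} [Field Kb] [IsAlgClosed Kb] [CharZero Kb] [Algebra K0 Kb]
  [Algebra.IsAlgebraic K0 Kb] [Field Fb] [Algebra Kb Fb]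

/-- **Row B5-H.**  `hcodim` at every horizontal prime `p` of `R[X]` off the sections `X = 0`
and `X = c`, given that on the geometric function field `Fb` the zeros of `ι x - a`
(`x` the image of `X`) are simple for all constants `a ∉ {0, c}`. -/
theorem b5h94_hcodim (hπ : Irreducible π)
    (hC : ∀ r : R, algebraMap R[X] L (C r) = algebraMap K0 L (algebraMap R K0 r))
    (ι : L →+* Fb)
    (hι : ∀ a : K0, ι (algebraMap K0 L a) = algebraMap Kb Fb (algebraMap K0 Kb a))
    (y : Fb) (hy : Transcendental Kb y) [FiniteDimensional Kb⟮y⟯ Fb] (c : R)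
    (hS : ∀ a : Kb, a ≠ 0 → a ≠ algebraMap K0 Kb (algebraMap R K0 c) → ∀ v : Place Kb Fb,
      0 < v.ord (ι (algebraMap R[X] L X) - algebraMap Kb Fb a) →
      v.ord (ι (algebraMap R[X] L X) - algebraMap Kb Fb a) = 1)
    (p : R[X]) (hp : Prime p) (hpc : ¬ p ∣ C π * X * (X - C c)) :
    ∀ y : L, (∀ b : B, Algebra.trace E L (y * algebraMap B L b) ∈ (algebraMap R[X] E).range) →
      ∃ s : R[X], ¬ p ∣ s ∧ algebraMap R[X] L s * y ∈ (algebraMap B L).range := by
  classical
  set φ : R →+* Kb := (algebraMap K0 Kb).comp (algebraMap R K0) with hφ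
  have hφinj : Function.Injective φ :=
    (algebraMap K0 Kb).injective.comp (IsFractionRing.injective R K0)
  haveI : CharZero K0 := (algebraMap K0 Kb).charZero
  haveI : CharZero R := φ.charZero
  have hpC : ¬ p ∣ C π := fun h => hpc ((h.mul_right X).mul_right _)
  have hpX : ¬ p ∣ X := fun h => hpc ((h.mul_left (C π)).mul_right _)
  have hpXc : ¬ p ∣ X - C c := fun h => hpc (h.mul_left _)
  have hpconst : ∀ b : R, b ≠ 0 → ¬ p ∣ C b := fun b hb h =>
    hpC (b5h94_dvd_C_pi hπ hp hb h)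
  have hchar : ∀ n : ℕ, n ≠ 0 → ¬ p ∣ (n : R[X]) := by
    intro n hn h
    have hn' : (n : R[X]) = C (n : R) := by simp
    rw [hn'] at h
    exact hpconst _ (by exact_mod_cast hn) h
  have hirr : Irreducible p := hp.irreducible
  have hassoc : ∀ q : R[X], ¬ IsUnit q → q ∣ p → p ∣ q := by
    rintro q hq ⟨g, hg⟩
    rcases hirr.isUnit_or_isUnit hg with h | h
    · exact absurd h hq
    · obtain ⟨u, rfl⟩ := h
      exact ⟨((u⁻¹ : R[X]ˣ) : R[X]), by rw [hg, mul_assoc, Units.mul_inv, mul_one]⟩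
  have hfπ : ¬ C π ∣ p := fun h =>
    hpC (hassoc _ (fun hu => hπ.not_isUnit (Polynomial.isUnit_C.mp hu)) h)
  have hirrK := lb39_horizontal_irreducible hπ hirr hfπ K0
  have hsepK : (p.map (algebraMap R K0)).Separable := hirrK.separable
  set pb : Kb[X] := p.map φ with hpb
  have hpb' : pb = (p.map (algebraMap R K0)).map (algebraMap K0 Kb) := by
    rw [hpb, hφ, Polynomial.map_map]
  have hsep : pb.Separable := by
    rw [hpb']
    exact hsepK.map
  have hp0 : pb.eval 0 ≠ 0 := by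
    intro h0
    rw [hpb, Polynomial.eval_zero_map] at h0
    have h1 : p.eval 0 = 0 := hφinj (by rw [h0, map_zero])
    have hX : X ∣ p := by
      rw [Polynomial.X_dvd_iff, Polynomial.coeff_zero_eq_eval_zero]
      exact h1
    exact hpX (hassoc _ Polynomial.not_isUnit_X hX)
  have hpc' : pb.eval (φ c) ≠ 0 := by
    intro h0
    rw [hpb, Polynomial.eval_map, Polynomial.eval₂_at_apply] at h0
    have h1 : p.eval c = 0 := hφinj (by rw [h0, map_zero])
    have hX : X - C c ∣ p := Polynomial.dvd_iff_isRoot.mpr h1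
    exact hpXc (hassoc _ (Polynomial.not_isUnit_X_sub_C c) hX)
  have himg : ∀ f : R[X],
      ι (algebraMap R[X] L f) = Polynomial.aeval (ι (algebraMap R[X] L X)) (f.map φ) := by
    intro f
    have h1 : (ι.comp (algebraMap R[X] L)) f =
        Polynomial.eval₂ ((ι.comp (algebraMap R[X] L)).comp C)
          ((ι.comp (algebraMap R[X] L)) X) f := by
      conv_lhs => rw [← Polynomial.eval₂_C_X (p := f)]
      rw [Polynomial.hom_eval₂]
    have h2 : (ι.comp (algebraMap R[X] L)).comp C = (algebraMap Kb Fb).comp φ := by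
      ext r
      simp only [RingHom.comp_apply]
      rw [hC, hι]
      rfl
    rw [Polynomial.aeval_def, Polynomial.eval₂_map, ← h2]
    exact h1
  have hord : ∀ P : Place Kb Fb, 0 < P.ord (ι (algebraMap R[X] L p)) →
      P.ord (ι (algebraMap R[X] L p)) = 1 := by
    intro P hP
    rw [himg] at hP ⊢
    refine hu94_ord_aeval_sep (ι (algebraMap R[X] L X)) {a : Kb | a = 0 ∨ a = φ c} ?_ pb hsep
      ?_ P hP
    · intro a ha
      exact hS a (fun h => ha (Or.inl h)) (fun h => ha (Or.inr h))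
    · rintro a (rfl | rfl)
      · exact hp0
      · exact hpc'
  refine sd44_hcodim_of_valuation (E := E) (C := B) p hp hchar ?_
  intro W _ hOW hinv hpW z _ hzW'
  have hK0 : ∀ a : K0, algebraMap K0 L a ∈ W := by
    intro a
    obtain ⟨r, b, hb, rfl⟩ := IsFractionRing.div_surjective (A := R) a
    rw [map_div₀, ← hC, ← hC, div_eq_mul_inv]
    exact W.mul_mem _ _ (hOW _) (hinv _ (hpconst b (nonZeroDivisors.ne_zero hb)))
  have hW : W ≠ ⊤ := by
    rintro rfl
    exact hpW (ValuationSubring.mem_top _)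
  obtain ⟨z', hz', hzz'⟩ :=
    hd94_uniformizer ι hι y hy W hK0 hW (algebraMap R[X] L p) hpW hord z hzW'
  have hpL0 : algebraMap R[X] L p ≠ 0 := by
    intro h0
    rw [h0, inv_zero] at hpW
    exact hpW W.zero_mem
  rw [hzz', mul_comm, ← mul_assoc, inv_mul_cancel₀ hpL0, one_mul]
  exact hz'

end Main

section Levels

variable {R : Type*} [CommRing R] [IsDomain R] [IsDiscreteValuationRing R] {π : R}
variable {K0 : Type*} [Field K0] [Algebra R K0] [IsFractionRing R K0]
variable {E L B : Type*} [Field E] [Algebra R[X] E] [IsFractionRing R[X] E]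
  [Field L] [Algebra E L] [Algebra R[X] L] [IsScalarTower R[X] E L] [FiniteDimensional E L]
  [Algebra.IsSeparable E L]
  [CommRing B] [Algebra R[X] B] [Algebra B L] [IsScalarTower R[X] B L]
  [IsIntegralClosure B R[X] L] [Algebra K0 L]
variable {Kb Fb : Type*} [Field Kb] [IsAlgClosed Kb] [CharZero Kb] [Algebra K0 Kb]
  [Algebra.IsAlgebraic K0 Kb] [Field Fb] [Algebra Kb Fb]

/-- Row B5-H on the level-2 line, chart `x = h`. -/
theorem b5h94_hcodim_level2 (hπ : Irreducible π)
    (hC : ∀ r : R, algebraMap R[X] L (C r) = algebraMap K0 L (algebraMap R K0 r))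
    (ι : L →+* Fb)
    (hι : ∀ a : K0, ι (algebraMap K0 L a) = algebraMap Kb Fb (algebraMap K0 Kb a))
    (y : Fb) (hy : Transcendental Kb y) [FiniteDimensional Kb⟮y⟯ Fb]
    (jb hb : Fb) (N : ℕ) (hrel : jb * hb ^ 2 = (hb + 256) ^ 3)
    (H1 : ∀ a : Kb, a ≠ 0 → a ≠ 1728 → ∀ v : Place Kb Fb,
      0 < v.ord (jb - algebraMap Kb Fb a) → v.ord (jb - algebraMap Kb Fb a) = 1)
    (H2 : ∀ v : Place Kb Fb, 0 < v.ord jb → v.ord jb ∣ 3)
    (H3 : ∀ v : Place Kb Fb, 0 < v.ord (jb - algebraMap Kb Fb 1728) →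
      v.ord (jb - algebraMap Kb Fb 1728) ∣ 2)
    (H4 : ∀ v : Place Kb Fb, v.ord jb < 0 → v.ord jb ∣ (N : ℤ))
    (hx : ι (algebraMap R[X] L X) = hb)
    (p : R[X]) (hp : Prime p) (hpc : ¬ p ∣ C π * X * (X - C (-64))) :
    ∀ y : L, (∀ b : B, Algebra.trace E L (y * algebraMap B L b) ∈ (algebraMap R[X] E).range) →
      ∃ s : R[X], ¬ p ∣ s ∧ algebraMap R[X] L s * y ∈ (algebraMap B L).range := by
  refine b5h94_hcodim (K0 := K0) hπ hC ι hι y hy (-64) ?_ p hp hpc
  intro a ha0 hac v hv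
  rw [hx] at hv ⊢
  refine (hh_level2 jb hb N hrel H1 H2 H3 H4).1 a ha0 ?_ v hv
  intro h
  apply hac
  rw [h]
  simp [map_ofNat]

/-- Row B5-H on the level-2 line, chart `x = h⁻¹` (`c = -1/64`). -/
theorem b5h94_hcodim_level2_inv (hπ : Irreducible π)
    (hC : ∀ r : R, algebraMap R[X] L (C r) = algebraMap K0 L (algebraMap R K0 r))
    (ι : L →+* Fb)
    (hι : ∀ a : K0, ι (algebraMap K0 L a) = algebraMap Kb Fb (algebraMap K0 Kb a))
    (y : Fb) (hy : Transcendental Kb y) [FiniteDimensional Kb⟮y⟯ Fb]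
    (jb hb : Fb) (N : ℕ) (hrel : jb * hb ^ 2 = (hb + 256) ^ 3)
    (H1 : ∀ a : Kb, a ≠ 0 → a ≠ 1728 → ∀ v : Place Kb Fb,
      0 < v.ord (jb - algebraMap Kb Fb a) → v.ord (jb - algebraMap Kb Fb a) = 1)
    (H2 : ∀ v : Place Kb Fb, 0 < v.ord jb → v.ord jb ∣ 3)
    (H3 : ∀ v : Place Kb Fb, 0 < v.ord (jb - algebraMap Kb Fb 1728) →
      v.ord (jb - algebraMap Kb Fb 1728) ∣ 2)
    (H4 : ∀ v : Place Kb Fb, v.ord jb < 0 → v.ord jb ∣ (N : ℤ))
    (hx : ι (algebraMap R[X] L X) = hb⁻¹) (c : R) (hc : c * 64 = -1)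
    (p : R[X]) (hp : Prime p) (hpc : ¬ p ∣ C π * X * (X - C c)) :
    ∀ y : L, (∀ b : B, Algebra.trace E L (y * algebraMap B L b) ∈ (algebraMap R[X] E).range) →
      ∃ s : R[X], ¬ p ∣ s ∧ algebraMap R[X] L s * y ∈ (algebraMap B L).range := by
  refine b5h94_hcodim (K0 := K0) hπ hC ι hι y hy c ?_ p hp hpc
  intro a ha0 hac v hv
  rw [hx] at hv ⊢
  have hcb : algebraMap K0 Kb (algebraMap R K0 c) * 64 = -1 := by
    have := congrArg (fun r => algebraMap K0 Kb (algebraMap R K0 r)) hc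
    simpa [map_ofNat] using this
  refine hu94_inv hb {a : Kb | a = 0 ∨ a = -64} ?_ a ha0 ?_ v hv
  · intro a' ha'
    exact (hh_level2 jb hb N hrel H1 H2 H3 H4).1 a' (fun h => ha' (Or.inl h))
      (fun h => ha' (Or.inr h))
  · rintro (h | h)
    · exact ha0 (inv_eq_zero.mp h)
    · apply hac
      have h2 : a * -64 = 1 := by
        rw [← h]
        exact mul_inv_cancel₀ ha0
      have h3 : (-64 : Kb) ≠ 0 := by norm_num
      apply mul_right_cancel₀ h3
      rw [h2]
      linear_combination hcb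

/-- Row B5-H on the level-3 line, chart `x = h`. -/
theorem b5h94_hcodim_level3 (hπ : Irreducible π)
    (hC : ∀ r : R, algebraMap R[X] L (C r) = algebraMap K0 L (algebraMap R K0 r))
    (ι : L →+* Fb)
    (hι : ∀ a : K0, ι (algebraMap K0 L a) = algebraMap Kb Fb (algebraMap K0 Kb a))
    (y : Fb) (hy : Transcendental Kb y) [FiniteDimensional Kb⟮y⟯ Fb]
    (jb hb : Fb) (N : ℕ) (hrel : jb * hb ^ 3 = (hb + 27) * (hb + 243) ^ 3)
    (H1 : ∀ a : Kb, a ≠ 0 → a ≠ 1728 → ∀ v : Place Kb Fb,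
      0 < v.ord (jb - algebraMap Kb Fb a) → v.ord (jb - algebraMap Kb Fb a) = 1)
    (H2 : ∀ v : Place Kb Fb, 0 < v.ord jb → v.ord jb ∣ 3)
    (H3 : ∀ v : Place Kb Fb, 0 < v.ord (jb - algebraMap Kb Fb 1728) →
      v.ord (jb - algebraMap Kb Fb 1728) ∣ 2)
    (H4 : ∀ v : Place Kb Fb, v.ord jb < 0 → v.ord jb ∣ (N : ℤ))
    (hx : ι (algebraMap R[X] L X) = hb)
    (p : R[X]) (hp : Prime p) (hpc : ¬ p ∣ C π * X * (X - C (-27))) :
    ∀ y : L, (∀ b : B, Algebra.trace E L (y * algebraMap B L b) ∈ (algebraMap R[X] E).range) →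
      ∃ s : R[X], ¬ p ∣ s ∧ algebraMap R[X] L s * y ∈ (algebraMap B L).range := by
  refine b5h94_hcodim (K0 := K0) hπ hC ι hι y hy (-27) ?_ p hp hpc
  intro a ha0 hac v hv
  rw [hx] at hv ⊢
  refine (hh_level3 jb hb N hrel H1 H2 H3 H4).1 a ha0 ?_ v hv
  intro h
  apply hac
  rw [h]
  simp [map_ofNat]

/-- Row B5-H on the level-3 line, chart `x = h⁻¹` (`c = -1/27`). -/
theorem b5h94_hcodim_level3_inv (hπ : Irreducible π)
    (hC : ∀ r : R, algebraMap R[X] L (C r) = algebraMap K0 L (algebraMap R K0 r))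
    (ι : L →+* Fb)
    (hι : ∀ a : K0, ι (algebraMap K0 L a) = algebraMap Kb Fb (algebraMap K0 Kb a))
    (y : Fb) (hy : Transcendental Kb y) [FiniteDimensional Kb⟮y⟯ Fb]
    (jb hb : Fb) (N : ℕ) (hrel : jb * hb ^ 3 = (hb + 27) * (hb + 243) ^ 3)
    (H1 : ∀ a : Kb, a ≠ 0 → a ≠ 1728 → ∀ v : Place Kb Fb,
      0 < v.ord (jb - algebraMap Kb Fb a) → v.ord (jb - algebraMap Kb Fb a) = 1)
    (H2 : ∀ v : Place Kb Fb, 0 < v.ord jb → v.ord jb ∣ 3)
    (H3 : ∀ v : Place Kb Fb, 0 < v.ord (jb - algebraMap Kb Fb 1728) →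
      v.ord (jb - algebraMap Kb Fb 1728) ∣ 2)
    (H4 : ∀ v : Place Kb Fb, v.ord jb < 0 → v.ord jb ∣ (N : ℤ))
    (hx : ι (algebraMap R[X] L X) = hb⁻¹) (c : R) (hc : c * 27 = -1)
    (p : R[X]) (hp : Prime p) (hpc : ¬ p ∣ C π * X * (X - C c)) :
    ∀ y : L, (∀ b : B, Algebra.trace E L (y * algebraMap B L b) ∈ (algebraMap R[X] E).range) →
      ∃ s : R[X], ¬ p ∣ s ∧ algebraMap R[X] L s * y ∈ (algebraMap B L).range := by
  refine b5h94_hcodim (K0 := K0) hπ hC ι hι y hy c ?_ p hp hpc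
  intro a ha0 hac v hv
  rw [hx] at hv ⊢
  have hcb : algebraMap K0 Kb (algebraMap R K0 c) * 27 = -1 := by
    have := congrArg (fun r => algebraMap K0 Kb (algebraMap R K0 r)) hc
    simpa [map_ofNat] using this
  refine hu94_inv hb {a : Kb | a = 0 ∨ a = -27} ?_ a ha0 ?_ v hv
  · intro a' ha'
    exact (hh_level3 jb hb N hrel H1 H2 H3 H4).1 a' (fun h => ha' (Or.inl h))
      (fun h => ha' (Or.inr h))
  · rintro (h | h)
    · exact ha0 (inv_eq_zero.mp h)
    · apply hac
      have h2 : a * -27 = 1 := by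
        rw [← h]
        exact mul_inv_cancel₀ ha0
      have h3 : (-27 : Kb) ≠ 0 := by norm_num
      apply mul_right_cancel₀ h3
      rw [h2]
      linear_combination hcb

end Levels

end Fermat.Agent.S18
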