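import Fermat.Agent.S18.HorizStep94

/-!
S18, row B5-H/A glue (helper94): `hcodim` at a horizontal prime from geometric order data.

`b5h94_hcodim_of_ord`: for `O = R[X]` acting on the `K₀`-model `L`, a prime `p` of `R[X]` not
dividing `C π`, if the image of `p` in the geometric function field `Fb` is a uniformiser at
every place where it vanishes, then the `hcodim` hypothesis of `pl72_dual_eq` holds at `p`.
This is the common core of the horizontal step (`p` separable off the sections) and of the
Kummer step (`p = X`, `X ↦ s`, with the Abhyankar statement `ord_Q s = 1` as input).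
-/

set_option autoImplicit false

open AlgebraicCurve IntermediateField Polynomial

namespace Fermat.Agent.S18

open Fermat.Agent.S24

section Main

variable {R : Type*} [CommRing R] [IsDomain R] [IsDiscreteValuationRing R] {π : R}
variable {K0 : Type*} [Field K0] [Algebra R K0] [IsFractionRing R K0]
variable {E L B : Type*} [Field E] [Algebra R[X] E] [IsFractionRing R[X] E]
  [Field L] [Algebra E L] [Algebra R[X] L] [IsScalarTower R[X] E L] [FiniteDimensional E L]
  [Algebra.IsSeparable E L]
  [CommRing B] [Algebra R[X] B] [Algebra B L] [IsScalarTower R[X] B L]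
  [IsIntegralClosure B R[X] L] [Algebra K0 L]
variable {Kb Fb : Type*} [Field Kb] [IsAlgClosed Kb] [CharZero Kb] [Algebra K0 Kb]
  [Algebra.IsAlgebraic K0 Kb] [Field Fb] [Algebra Kb Fb]

/-- `hcodim` at a horizontal prime `p` of `R[X]` whose image is a uniformiser at each of its
zeros on the geometric function field. -/
theorem b5h94_hcodim_of_ord (hπ : Irreducible π)
    (hC : ∀ r : R, algebraMap R[X] L (C r) = algebraMap K0 L (algebraMap R K0 r))
    (ι : L →+* Fb)
    (hι : ∀ a : K0, ι (algebraMap K0 L a) = algebraMap Kb Fb (algebraMap K0 Kb a))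
    (y : Fb) (hy : Transcendental Kb y) [FiniteDimensional Kb⟮y⟯ Fb]
    (p : R[X]) (hp : Prime p) (hpC : ¬ p ∣ C π)
    (hord : ∀ P : Place Kb Fb, 0 < P.ord (ι (algebraMap R[X] L p)) →
      P.ord (ι (algebraMap R[X] L p)) = 1) :
    ∀ y : L, (∀ b : B, Algebra.trace E L (y * algebraMap B L b) ∈ (algebraMap R[X] E).range) →
      ∃ s : R[X], ¬ p ∣ s ∧ algebraMap R[X] L s * y ∈ (algebraMap B L).range := by
  classical
  set φ : R →+* Kb := (algebraMap K0 Kb).comp (algebraMap R K0) with hφ
  haveI : CharZero K0 := (algebraMap K0 Kb).charZero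
  haveI : CharZero R := φ.charZero
  have hpconst : ∀ b : R, b ≠ 0 → ¬ p ∣ C b := fun b hb h =>
    hpC (b5h94_dvd_C_pi hπ hp hb h)
  have hchar : ∀ n : ℕ, n ≠ 0 → ¬ p ∣ (n : R[X]) := by
    intro n hn h
    have hn' : (n : R[X]) = C (n : R) := by simp
    rw [hn'] at h
    exact hpconst _ (by exact_mod_cast hn) h
  refine sd44_hcodim_of_valuation (E := E) (C := B) p hp hchar ?_
  intro W _ hOW hinv hpW z _ hzW'
  have hK0 : ∀ a : K0, algebraMap K0 L a ∈ W := by
    intro a
    obtain ⟨r, b, hb, rfl⟩ := IsFractionRing.div_surjective (A := R) a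
    rw [map_div₀, ← hC, ← hC, div_eq_mul_inv]
    exact W.mul_mem _ _ (hOW _) (hinv _ (hpconst b (nonZeroDivisors.ne_zero hb)))
  have hW : W ≠ ⊤ := by
    rintro rfl
    exact hpW (ValuationSubring.mem_top _)
  obtain ⟨z', hz', hzz'⟩ :=
    hd94_uniformizer ι hι y hy W hK0 hW (algebraMap R[X] L p) hpW hord z hzW'
  have hpL0 : algebraMap R[X] L p ≠ 0 := by
    intro h0
    rw [h0, inv_zero] at hpW
    exact hpW W.zero_mem
  rw [hzz', mul_comm, ← mul_assoc, inv_mul_cancel₀ hpL0, one_mul]
  exact hz'

/-- The Kummer-section case `p = X`: if `ι s` (`s` the image of `X`) is a uniformiser at each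
of its zeros on the geometric field, then `hcodim` holds at the prime `X` of `R[X]`. -/
theorem b5h94_hcodim_X (hπ : Irreducible π)
    (hC : ∀ r : R, algebraMap R[X] L (C r) = algebraMap K0 L (algebraMap R K0 r))
    (ι : L →+* Fb)
    (hι : ∀ a : K0, ι (algebraMap K0 L a) = algebraMap Kb Fb (algebraMap K0 Kb a))
    (y : Fb) (hy : Transcendental Kb y) [FiniteDimensional Kb⟮y⟯ Fb]
    (hord : ∀ P : Place Kb Fb, 0 < P.ord (ι (algebraMap R[X] L X)) →
      P.ord (ι (algebraMap R[X] L X)) = 1) :
    ∀ y : L, (∀ b : B, Algebra.trace E L (y * algebraMap B L b) ∈ (algebraMap R[X] E).range) →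
      ∃ s : R[X], ¬ (X : R[X]) ∣ s ∧ algebraMap R[X] L s * y ∈ (algebraMap B L).range := by
  refine b5h94_hcodim_of_ord (K0 := K0) hπ hC ι hι y hy X Polynomial.prime_X ?_ hord
  intro h
  rw [Polynomial.X_dvd_iff, Polynomial.coeff_C_zero] at h
  exact hπ.ne_zero h

end Main

end Fermat.Agent.S18
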