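import Fermat.Agent.S18.HorizHaupt
import Fermat.Agent.S24.Places

/-!
S18 (long shot), horizontal package, part 3 (helper94).

Consumer forms of the ramification data for the purity hypothesis at horizontal primes:
a separable polynomial `p` in the coordinate `h` not vanishing on the branch values is a
uniformiser at each of its zeros (`e = 1`), in `Place` form and in `HeightOneSpectrum` form,
and the change of chart `h ↦ h⁻¹`.  All names are prefixed `hu94_`.
-/

set_option autoImplicit false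

open AlgebraicCurve

namespace Fermat.Agent.S18

open Fermat.Agent.S24

section General

variable {K F : Type*} [Field K] [IsAlgClosed K] [Field F] [Algebra K F]

/-- A zero of `p(h)` is a zero of `h - c` for some root `c` of `p`. -/
theorem hu94_exists_root (v : Place K F) (h : F) :
    ∀ (n : ℕ) (p : Polynomial K), p.natDegree = n → 0 < v.ord (Polynomial.aeval h p) →
      ∃ c : K, p.eval c = 0 ∧ 0 < v.ord (h - algebraMap K F c) := by
  intro n
  induction n with
  | zero =>
    intro p hp hv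
    rw [Polynomial.eq_C_of_natDegree_eq_zero hp] at hv
    simp only [Polynomial.aeval_C] at hv
    rw [wp1_ord_algebraMap] at hv
    exact absurd hv (lt_irrefl _)
  | succ n ih =>
    intro p hp hv
    have hdeg : p.degree ≠ 0 := by
      intro h0
      have := Polynomial.natDegree_eq_zero_iff_degree_le_zero.mpr h0.le
      omega
    obtain ⟨c, hc⟩ := IsAlgClosed.exists_root p hdeg
    obtain ⟨q, rfl⟩ := Polynomial.dvd_iff_isRoot.mpr hc
    have hp0 : (Polynomial.X - Polynomial.C c) * q ≠ 0 := by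
      intro h0
      rw [h0] at hp
      simp at hp
    have hq0 : q ≠ 0 := fun h0 => hp0 (by rw [h0, mul_zero])
    have hqdeg : q.natDegree = n := by
      have := Polynomial.natDegree_mul (Polynomial.X_sub_C_ne_zero c) hq0
      rw [Polynomial.natDegree_X_sub_C] at this
      omega
    have hne : Polynomial.aeval h ((Polynomial.X - Polynomial.C c) * q) ≠ 0 :=
      hh_ne_zero_of_ord_ne v hv.ne'
    rw [map_mul] at hv hne
    have h1 : Polynomial.aeval h (Polynomial.X - Polynomial.C c) = h - algebraMap K F c := by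
      simp
    rw [h1] at hv hne
    rw [v.ord_mul (left_ne_zero_of_mul hne) (right_ne_zero_of_mul hne)] at hv
    by_cases hpos : 0 < v.ord (h - algebraMap K F c)
    · exact ⟨c, by simp, hpos⟩
    · by_cases hq : 0 < v.ord (Polynomial.aeval h q)
      · obtain ⟨c', hc', hv'⟩ := ih q hqdeg hq
        exact ⟨c', by simp [hc'], hv'⟩
      · -- both orders are `≤ 0` and the sum is positive: impossible
        omega

/-- **Unramifiedness at horizontal primes, `Place` form.**  If the zeros of `h - c` are simple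
for every `c` outside `S`, then a separable polynomial `p` without roots in `S` is a
uniformiser at every zero of `p(h)`. -/
theorem hu94_ord_aeval_sep (h : F) (S : Set K)
    (hS : ∀ c : K, c ∉ S → ∀ v : Place K F,
      0 < v.ord (h - algebraMap K F c) → v.ord (h - algebraMap K F c) = 1)
    (p : Polynomial K) (hp : p.Separable) (hpS : ∀ c ∈ S, p.eval c ≠ 0)
    (v : Place K F) (hv : 0 < v.ord (Polynomial.aeval h p)) :
    v.ord (Polynomial.aeval h p) = 1 := by
  obtain ⟨c, hc, hvc⟩ := hu94_exists_root v h _ p rfl hv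
  have hcS : c ∉ S := fun hcS => hpS c hcS hc
  obtain ⟨q, rfl⟩ := Polynomial.dvd_iff_isRoot.mpr hc
  have hqc : q.eval c ≠ 0 := by
    intro h0
    obtain ⟨r, rfl⟩ := Polynomial.dvd_iff_isRoot.mpr h0
    have hsq : Squarefree ((Polynomial.X - Polynomial.C c) * ((Polynomial.X - Polynomial.C c) * r)) :=
      hp.squarefree
    have hunit := hsq (Polynomial.X - Polynomial.C c) ⟨r, by ring⟩
    exact Polynomial.not_isUnit_X_sub_C c hunit
  obtain ⟨hq0, hqord⟩ := hh_ord_aeval v h c hvc q hqc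
  have hne : h - algebraMap K F c ≠ 0 := hh_ne_zero_of_ord_ne v hvc.ne'
  rw [map_mul]
  have h1 : Polynomial.aeval h (Polynomial.X - Polynomial.C c) = h - algebraMap K F c := by
    simp
  rw [h1, hh_ord_mul_unit v hne hq0 hqord]
  exact hS c hcS v hvc

omit [IsAlgClosed K] in
/-- Change of chart `h ↦ h⁻¹` for the simple-zero hypothesis. -/
theorem hu94_inv (h : F) (S : Set K)
    (hS : ∀ c : K, c ∉ S → ∀ v : Place K F,
      0 < v.ord (h - algebraMap K F c) → v.ord (h - algebraMap K F c) = 1) :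
    ∀ c : K, c ≠ 0 → c⁻¹ ∉ S → ∀ v : Place K F,
      0 < v.ord (h⁻¹ - algebraMap K F c) → v.ord (h⁻¹ - algebraMap K F c) = 1 := by
  intro c hc0 hcS v hv
  obtain ⟨hi0, hiord⟩ : h⁻¹ ≠ 0 ∧ v.ord h⁻¹ = 0 := by
    simpa using hh_ord_aeval v h⁻¹ c hv Polynomial.X (by simpa using hc0)
  have hh0 : h ≠ 0 := by
    intro h0
    exact hi0 (by rw [h0, inv_zero])
  have hcF0 : algebraMap K F c ≠ 0 := (map_ne_zero _).mpr hc0
  have hne : h⁻¹ - algebraMap K F c ≠ 0 := hh_ne_zero_of_ord_ne v hv.ne'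
  have hkey : h⁻¹ - algebraMap K F c =
      (h - algebraMap K F c⁻¹) * (-(algebraMap K F c) * h⁻¹) := by
    rw [map_inv₀]
    field_simp
    ring
  have hne2 : h - algebraMap K F c⁻¹ ≠ 0 := by
    intro h0
    rw [hkey, h0, zero_mul] at hne
    exact hne rfl
  have hu0 : -(algebraMap K F c) * h⁻¹ ≠ 0 := mul_ne_zero (neg_ne_zero.mpr hcF0) hi0
  have huord : v.ord (-(algebraMap K F c) * h⁻¹) = 0 := by
    rw [v.ord_mul (neg_ne_zero.mpr hcF0) hi0, hh_ord_neg, wp1_ord_algebraMap, hiord, add_zero]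
  have hord : v.ord (h⁻¹ - algebraMap K F c) = v.ord (h - algebraMap K F c⁻¹) := by
    rw [hkey, hh_ord_mul_unit v hne2 hu0 huord]
  rw [hord] at hv ⊢
  exact hS c⁻¹ hcS v hv

/-- Chart at infinity: a separable `p` with `p(0) ≠ 0` and without roots `c` with `c⁻¹ ∈ S`
is a uniformiser at every zero of `p(h⁻¹)`. -/
theorem hu94_ord_aeval_sep_inv (h : F) (S : Set K)
    (hS : ∀ c : K, c ∉ S → ∀ v : Place K F,
      0 < v.ord (h - algebraMap K F c) → v.ord (h - algebraMap K F c) = 1)
    (p : Polynomial K) (hp : p.Separable) (hp0 : p.eval 0 ≠ 0)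
    (hpS : ∀ c : K, c⁻¹ ∈ S → p.eval c ≠ 0)
    (v : Place K F) (hv : 0 < v.ord (Polynomial.aeval h⁻¹ p)) :
    v.ord (Polynomial.aeval h⁻¹ p) = 1 := by
  refine hu94_ord_aeval_sep h⁻¹ {c : K | c = 0 ∨ c⁻¹ ∈ S} ?_ p hp ?_ v hv
  · intro c hc
    have hc' : c ≠ 0 ∧ c⁻¹ ∉ S := by
      constructor
      · intro h0
        exact hc (Or.inl h0)
      · intro h0
        exact hc (Or.inr h0)
    exact hu94_inv h S hS c hc'.1 hc'.2
  · rintro c (rfl | hc)
    · exact hp0
    · exact hpS c hc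

end General

section Levels

variable {K F : Type*} [Field K] [IsAlgClosed K] [CharZero K] [Field F] [Algebra K F]

/-- Level-2 line, affine chart: separable `p` with `p(0) ≠ 0`, `p(-64) ≠ 0` is a uniformiser
at every zero of `p(h)`. -/
theorem hu94_level2 (j h : F) (N : ℕ)
    (hrel : j * h ^ 2 = (h + 256) ^ 3)
    (H1 : ∀ a : K, a ≠ 0 → a ≠ 1728 → ∀ v : Place K F,
      0 < v.ord (j - algebraMap K F a) → v.ord (j - algebraMap K F a) = 1)
    (H2 : ∀ v : Place K F, 0 < v.ord j → v.ord j ∣ 3)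
    (H3 : ∀ v : Place K F, 0 < v.ord (j - algebraMap K F 1728) →
      v.ord (j - algebraMap K F 1728) ∣ 2)
    (H4 : ∀ v : Place K F, v.ord j < 0 → v.ord j ∣ (N : ℤ))
    (p : Polynomial K) (hp : p.Separable) (hp0 : p.eval 0 ≠ 0) (hpc : p.eval (-64) ≠ 0)
    (v : Place K F) (hv : 0 < v.ord (Polynomial.aeval h p)) :
    v.ord (Polynomial.aeval h p) = 1 := by
  refine hu94_ord_aeval_sep h {c : K | c = 0 ∨ c = -64} ?_ p hp ?_ v hv
  · intro c hc
    exact (hh_level2 j h N hrel H1 H2 H3 H4).1 c (fun h0 => hc (Or.inl h0))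
      (fun h0 => hc (Or.inr h0))
  · rintro c (rfl | rfl)
    · exact hp0
    · exact hpc

/-- Level-2 line, chart at infinity: separable `p` with `p(0) ≠ 0`, `p(-1/64) ≠ 0` is a
uniformiser at every zero of `p(h⁻¹)`. -/
theorem hu94_level2_inv (j h : F) (N : ℕ)
    (hrel : j * h ^ 2 = (h + 256) ^ 3)
    (H1 : ∀ a : K, a ≠ 0 → a ≠ 1728 → ∀ v : Place K F,
      0 < v.ord (j - algebraMap K F a) → v.ord (j - algebraMap K F a) = 1)
    (H2 : ∀ v : Place K F, 0 < v.ord j → v.ord j ∣ 3)
    (H3 : ∀ v : Place K F, 0 < v.ord (j - algebraMap K F 1728) →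
      v.ord (j - algebraMap K F 1728) ∣ 2)
    (H4 : ∀ v : Place K F, v.ord j < 0 → v.ord j ∣ (N : ℤ))
    (p : Polynomial K) (hp : p.Separable) (hp0 : p.eval 0 ≠ 0) (hpc : p.eval (-64)⁻¹ ≠ 0)
    (v : Place K F) (hv : 0 < v.ord (Polynomial.aeval h⁻¹ p)) :
    v.ord (Polynomial.aeval h⁻¹ p) = 1 := by
  refine hu94_ord_aeval_sep_inv h {c : K | c = 0 ∨ c = -64} ?_ p hp hp0 ?_ v hv
  · intro c hc
    exact (hh_level2 j h N hrel H1 H2 H3 H4).1 c (fun h0 => hc (Or.inl h0))
      (fun h0 => hc (Or.inr h0))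
  · rintro c (hc | hc)
    · rw [inv_eq_zero] at hc
      rw [hc]
      exact hp0
    · have : c = (-64)⁻¹ := by rw [← hc, inv_inv]
      rw [this]
      exact hpc

/-- Level-3 line, affine chart: separable `p` with `p(0) ≠ 0`, `p(-27) ≠ 0` is a uniformiser
at every zero of `p(h)`. -/
theorem hu94_level3 (j h : F) (N : ℕ)
    (hrel : j * h ^ 3 = (h + 27) * (h + 243) ^ 3)
    (H1 : ∀ a : K, a ≠ 0 → a ≠ 1728 → ∀ v : Place K F,
      0 < v.ord (j - algebraMap K F a) → v.ord (j - algebraMap K F a) = 1)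
    (H2 : ∀ v : Place K F, 0 < v.ord j → v.ord j ∣ 3)
    (H3 : ∀ v : Place K F, 0 < v.ord (j - algebraMap K F 1728) →
      v.ord (j - algebraMap K F 1728) ∣ 2)
    (H4 : ∀ v : Place K F, v.ord j < 0 → v.ord j ∣ (N : ℤ))
    (p : Polynomial K) (hp : p.Separable) (hp0 : p.eval 0 ≠ 0) (hpc : p.eval (-27) ≠ 0)
    (v : Place K F) (hv : 0 < v.ord (Polynomial.aeval h p)) :
    v.ord (Polynomial.aeval h p) = 1 := by
  refine hu94_ord_aeval_sep h {c : K | c = 0 ∨ c = -27} ?_ p hp ?_ v hv
  · intro c hc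
    exact (hh_level3 j h N hrel H1 H2 H3 H4).1 c (fun h0 => hc (Or.inl h0))
      (fun h0 => hc (Or.inr h0))
  · rintro c (rfl | rfl)
    · exact hp0
    · exact hpc

/-- Level-3 line, chart at infinity: separable `p` with `p(0) ≠ 0`, `p(-1/27) ≠ 0` is a
uniformiser at every zero of `p(h⁻¹)`. -/
theorem hu94_level3_inv (j h : F) (N : ℕ)
    (hrel : j * h ^ 3 = (h + 27) * (h + 243) ^ 3)
    (H1 : ∀ a : K, a ≠ 0 → a ≠ 1728 → ∀ v : Place K F,
      0 < v.ord (j - algebraMap K F a) → v.ord (j - algebraMap K F a) = 1)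
    (H2 : ∀ v : Place K F, 0 < v.ord j → v.ord j ∣ 3)
    (H3 : ∀ v : Place K F, 0 < v.ord (j - algebraMap K F 1728) →
      v.ord (j - algebraMap K F 1728) ∣ 2)
    (H4 : ∀ v : Place K F, v.ord j < 0 → v.ord j ∣ (N : ℤ))
    (p : Polynomial K) (hp : p.Separable) (hp0 : p.eval 0 ≠ 0) (hpc : p.eval (-27)⁻¹ ≠ 0)
    (v : Place K F) (hv : 0 < v.ord (Polynomial.aeval h⁻¹ p)) :
    v.ord (Polynomial.aeval h⁻¹ p) = 1 := by
  refine hu94_ord_aeval_sep_inv h {c : K | c = 0 ∨ c = -27} ?_ p hp hp0 ?_ v hv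
  · intro c hc
    exact (hh_level3 j h N hrel H1 H2 H3 H4).1 c (fun h0 => hc (Or.inl h0))
      (fun h0 => hc (Or.inr h0))
  · rintro c (hc | hc)
    · rw [inv_eq_zero] at hc
      rw [hc]
      exact hp0
    · have : c = (-27)⁻¹ := by rw [← hc, inv_inv]
      rw [this]
      exact hpc

end Levels

section Dedekind

open IsDedekindDomain IsDedekindDomain.HeightOneSpectrum WithZero

variable {K F : Type*} [Field K] [Field F] [Algebra K F]
variable {B : Type*} [CommRing B] [IsDedekindDomain B] [Algebra B F] [IsFractionRing B F]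
  [Algebra K B] [IsScalarTower K B F]

/-- Dictionary `ord = 1 ↔ valuation = exp (-1)` for the place of a height one prime. -/
theorem hu94_ord_eq_one_iff (w : HeightOneSpectrum B) {f : F} (hf : f ≠ 0) :
    (Place.ofHeightOneSpectrum (K := K) w).ord f = 1 ↔ w.valuation F f = exp (-1 : ℤ) := by
  have hne : w.valuation F f ≠ 0 := (Valuation.ne_zero_iff _).mpr hf
  rw [wp1a_ord_ofHeightOneSpectrum]
  constructor
  · intro h
    rw [← WithZero.exp_log hne]
    congr 1
    omega
  · intro h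
    rw [h, WithZero.log_exp]
    simp

/-- Dictionary `0 < ord ↔ valuation < 1`. -/
theorem hu94_ord_pos_iff (w : HeightOneSpectrum B) {f : F} (hf : f ≠ 0) :
    0 < (Place.ofHeightOneSpectrum (K := K) w).ord f ↔ w.valuation F f < 1 := by
  have hne : w.valuation F f ≠ 0 := (Valuation.ne_zero_iff _).mpr hf
  rw [wp1a_ord_ofHeightOneSpectrum, Left.neg_pos_iff, ← WithZero.log_one,
    WithZero.log_lt_log hne one_ne_zero]

/-- **Unramifiedness at horizontal primes, `HeightOneSpectrum` form.** -/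
theorem hu94_valuation_aeval_sep [IsAlgClosed K] (h : F) (S : Set K)
    (hS : ∀ c : K, c ∉ S → ∀ v : Place K F,
      0 < v.ord (h - algebraMap K F c) → v.ord (h - algebraMap K F c) = 1)
    (p : Polynomial K) (hp : p.Separable) (hpS : ∀ c ∈ S, p.eval c ≠ 0)
    (w : HeightOneSpectrum B) (hw : w.valuation F (Polynomial.aeval h p) < 1)
    (hne : Polynomial.aeval h p ≠ 0) :
    w.valuation F (Polynomial.aeval h p) = exp (-1 : ℤ) := by
  rw [← hu94_ord_eq_one_iff (K := K) w hne]
  exact hu94_ord_aeval_sep h S hS p hp hpS _ ((hu94_ord_pos_iff (K := K) w hne).mpr hw)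

end Dedekind

end Fermat.Agent.S18
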