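import Mathlib

/-!
# S18 glue (helper23): the degree of a Kummer layer divides the exponent

`F` a field containing a primitive `e`-th root of unity, `L = F(s)` with `s ^ e = z ∈ F`, `z ≠ 0`.
Then `[L : F]` divides `e` (no irreducibility of `X ^ e - z` is assumed).  Consequently `[L : F]`
is invertible wherever `e` is: this is the hypothesis "`[L:F]` is a unit" of the trace-average
descent of fibre normality along the Kummer layers of the S18 smoothness assembly.

Without the root of unity the statement is false (`s = ω · y` with `y ∈ F`, `ω ∉ F` a cube root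
of unity: `[F(s) : F] = 2` does not divide `3`), so the number field of constants must be chosen
to contain the relevant roots of unity.
-/

set_option autoImplicit false

open Polynomial

namespace Fermat.Agent.S18

section

variable {F L : Type*} [Field F] [Field L] [Algebra F L]

/-- A product of elements of the form `c • s` (`c ∈ Fˣ`) is of the form `c • s ^ card`. -/
private theorem kd23_prod_aux (s : L) (M : Multiset L)
    (hM : ∀ r ∈ M, ∃ c : F, c ≠ 0 ∧ r = algebraMap F L c * s) :
    ∃ c : F, c ≠ 0 ∧ M.prod = algebraMap F L c * s ^ Multiset.card M := by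
  induction M using Multiset.induction with
  | empty => exact ⟨1, one_ne_zero, by simp⟩
  | cons a M ih =>
    obtain ⟨c, hc, hprod⟩ := ih fun r hr => hM r (Multiset.mem_cons_of_mem hr)
    obtain ⟨c', hc', ha⟩ := hM a (Multiset.mem_cons_self a M)
    refine ⟨c' * c, mul_ne_zero hc' hc, ?_⟩
    rw [Multiset.prod_cons, hprod, ha, Multiset.card_cons, map_mul, pow_succ]
    ring

/-- If `F` contains a primitive `e`-th root of unity and `s ^ e = z ∈ Fˣ`, then `s ^ d ∈ F` for
`d` the degree of the minimal polynomial of `s` over `F`. -/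
theorem kd23_pow_natDegree_mem {e : ℕ} (he : 0 < e) {ζ : F} (hζ : IsPrimitiveRoot ζ e)
    {s : L} {z : F} (hz : z ≠ 0) (hs : s ^ e = algebraMap F L z) :
    ∃ w : F, w ≠ 0 ∧ s ^ (minpoly F s).natDegree = algebraMap F L w := by
  classical
  have hzL : algebraMap F L z ≠ 0 := (_root_.map_ne_zero _).mpr hz
  have hs0 : s ≠ 0 := by
    rintro rfl
    rw [zero_pow he.ne'] at hs
    exact hzL hs.symm
  have hint : IsIntegral F s :=
    ⟨X ^ e - C z, monic_X_pow_sub_C z he.ne', by simp [hs]⟩
  set g := minpoly F s with hg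
  have hgmonic : g.Monic := minpoly.monic hint
  have hdvd : g ∣ X ^ e - C z := minpoly.dvd F s (by simp [hs])
  have hζL : IsPrimitiveRoot (algebraMap F L ζ) e := hζ.map_of_injective (algebraMap F L).injective
  have hsplitL : (X ^ e - C (algebraMap F L z)).Splits :=
    X_pow_sub_C_splits_of_isPrimitiveRoot hζL hs
  have hdvdL : g.map (algebraMap F L) ∣ X ^ e - C (algebraMap F L z) := by
    have := Polynomial.map_dvd (algebraMap F L) hdvd
    simpa using this
  have hne : X ^ e - C (algebraMap F L z) ≠ 0 := X_pow_sub_C_ne_zero he _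
  have hsplit : (g.map (algebraMap F L)).Splits := Splits.of_dvd hsplitL hne hdvdL
  have hgLmonic : (g.map (algebraMap F L)).Monic := hgmonic.map _
  have hprod := hsplit.eq_prod_roots_of_monic hgLmonic
  have hcard : Multiset.card (g.map (algebraMap F L)).roots = g.natDegree := by
    rw [← hsplit.natDegree_eq_card_roots, natDegree_map]
  -- every root is a root of unity times `s`
  have hroots : ∀ r ∈ (g.map (algebraMap F L)).roots, ∃ c : F, c ≠ 0 ∧ r = algebraMap F L c * s := by
    intro r hr
    have hr0 : (g.map (algebraMap F L)).IsRoot r := (mem_roots (hgLmonic.ne_zero)).mp hr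
    have hr1 : (X ^ e - C (algebraMap F L z)).IsRoot r := hr0.dvd hdvdL
    have hre : r ^ e = algebraMap F L z := by
      have := hr1
      simp only [IsRoot.def, eval_sub, eval_pow, eval_X, eval_C] at this
      exact sub_eq_zero.mp this
    have hone : (r / s) ^ e = 1 := by
      rw [div_pow, hre, hs, div_self hzL]
    have : NeZero e := ⟨he.ne'⟩
    obtain ⟨i, -, hi⟩ := hζL.eq_pow_of_pow_eq_one hone
    refine ⟨ζ ^ i, pow_ne_zero _ (hζ.ne_zero he.ne'), ?_⟩
    rw [map_pow, hi, div_mul_cancel₀ _ hs0]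
  obtain ⟨c, hc, hc'⟩ := kd23_prod_aux s _ hroots
  -- evaluate at `0`
  have heval : (g.map (algebraMap F L)).eval 0 =
      (-1) ^ g.natDegree * (algebraMap F L c * s ^ g.natDegree) := by
    conv_lhs => rw [hprod]
    rw [eval_multiset_prod, Multiset.map_map]
    have : ((g.map (algebraMap F L)).roots.map ((fun p => eval 0 p) ∘ fun a => X - C a)) =
        (g.map (algebraMap F L)).roots.map (fun a => -1 * a) := by
      refine Multiset.map_congr rfl fun a _ => ?_
      simp
    rw [this, Multiset.prod_map_mul, Multiset.map_const', Multiset.prod_replicate, hcard,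
      Multiset.map_id', hc', hcard]
  have heval' : (g.map (algebraMap F L)).eval 0 = algebraMap F L (g.eval 0) := by
    rw [eval_map, eval₂_at_zero, coeff_zero_eq_eval_zero]
  have hcL : algebraMap F L c ≠ 0 := (_root_.map_ne_zero _).mpr hc
  have hg0 : g.eval 0 ≠ 0 := by
    intro h0
    rw [heval', h0, map_zero] at heval
    have h1 : ((-1 : L) ^ g.natDegree) ≠ 0 := pow_ne_zero _ (neg_ne_zero.mpr one_ne_zero)
    exact (mul_ne_zero h1 (mul_ne_zero hcL (pow_ne_zero _ hs0))) heval.symm
  refine ⟨(-1) ^ g.natDegree * g.eval 0 * c⁻¹, ?_, ?_⟩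
  · exact mul_ne_zero (mul_ne_zero (pow_ne_zero _ (neg_ne_zero.mpr one_ne_zero)) hg0)
      (inv_ne_zero hc)
  · rw [map_mul, map_mul, map_pow, map_neg, map_one, ← heval', heval, map_inv₀]
    have h2 : ((-1 : L) ^ g.natDegree) * ((-1 : L) ^ g.natDegree) = 1 := by
      rw [← mul_pow]; simp
    rw [← mul_assoc, h2, one_mul, mul_comm (algebraMap F L c) _, mul_assoc,
      mul_inv_cancel₀ hcL, mul_one]

/-- **Degree of a Kummer layer.**  If `F` contains a primitive `e`-th root of unity and
`s ^ e = z ∈ Fˣ`, the degree of `s` over `F` divides `e`. -/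
theorem kd23_natDegree_minpoly_dvd {e : ℕ} (he : 0 < e) {ζ : F} (hζ : IsPrimitiveRoot ζ e)
    {s : L} {z : F} (hz : z ≠ 0) (hs : s ^ e = algebraMap F L z) :
    (minpoly F s).natDegree ∣ e := by
  have hzL : algebraMap F L z ≠ 0 := (_root_.map_ne_zero _).mpr hz
  have hs0 : s ≠ 0 := by
    rintro rfl
    rw [zero_pow he.ne'] at hs
    exact hzL hs.symm
  have hint : IsIntegral F s :=
    ⟨X ^ e - C z, monic_X_pow_sub_C z he.ne', by simp [hs]⟩
  obtain ⟨w, hw, hsw⟩ := kd23_pow_natDegree_mem he hζ hz hs
  set d := (minpoly F s).natDegree with hd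
  have hdpos : 0 < d := minpoly.natDegree_pos hint
  -- `s ^ gcd d e ∈ F`
  set k := Nat.gcd d e with hk
  have hkpos : 0 < k := Nat.gcd_pos_of_pos_left e hdpos
  have hbez : (k : ℤ) = d * Nat.gcdA d e + e * Nat.gcdB d e := Nat.gcd_eq_gcd_ab d e
  have hsk : s ^ k = algebraMap F L (w ^ Nat.gcdA d e * z ^ Nat.gcdB d e) := by
    have h1 : s ^ (k : ℤ) = s ^ ((d : ℤ) * Nat.gcdA d e + e * Nat.gcdB d e) := by rw [hbez]
    rw [zpow_natCast, zpow_add₀ hs0, zpow_mul, zpow_mul, zpow_natCast, zpow_natCast, hsw, hs] at h1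
    rw [h1, map_mul, map_zpow₀, map_zpow₀]
  -- hence the minimal polynomial has degree at most `gcd d e`
  have hle : d ≤ k := by
    have hroot : aeval s (X ^ k - C (w ^ Nat.gcdA d e * z ^ Nat.gcdB d e) : F[X]) = 0 := by
      simp [hsk]
    have hmonic : (X ^ k - C (w ^ Nat.gcdA d e * z ^ Nat.gcdB d e) : F[X]).Monic :=
      monic_X_pow_sub_C _ hkpos.ne'
    have := natDegree_le_of_dvd (minpoly.dvd F s hroot) hmonic.ne_zero
    rwa [natDegree_X_pow_sub_C] at this
  have hkd : k ∣ d := Nat.gcd_dvd_left d e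
  have hkeq : k = d := le_antisymm (Nat.le_of_dvd hdpos hkd) hle
  rw [← hkeq]
  exact Nat.gcd_dvd_right d e

/-- Field-degree form: if moreover `L = F(s)`, then `[L : F]` divides `e`. -/
theorem kd23_finrank_dvd {e : ℕ} (he : 0 < e) {ζ : F} (hζ : IsPrimitiveRoot ζ e)
    {s : L} {z : F} (hz : z ≠ 0) (hs : s ^ e = algebraMap F L z)
    (hgen : IntermediateField.adjoin F {s} = ⊤) : Module.finrank F L ∣ e := by
  have hint : IsIntegral F s :=
    ⟨X ^ e - C z, monic_X_pow_sub_C z he.ne', by simp [hs]⟩
  have h1 := IntermediateField.adjoin.finrank hint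
  rw [hgen, IntermediateField.finrank_top'] at h1
  rw [h1]
  exact kd23_natDegree_minpoly_dvd he hζ hz hs

/-- `Algebra.adjoin` form of `kd23_finrank_dvd`. -/
theorem kd23_finrank_dvd' {e : ℕ} (he : 0 < e) {ζ : F} (hζ : IsPrimitiveRoot ζ e)
    {s : L} {z : F} (hz : z ≠ 0) (hs : s ^ e = algebraMap F L z)
    (hgen : Algebra.adjoin F {s} = ⊤) : Module.finrank F L ∣ e := by
  refine kd23_finrank_dvd he hζ hz hs ?_
  rw [← IntermediateField.toSubalgebra_inj, IntermediateField.top_toSubalgebra, eq_top_iff, ← hgen]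
  exact IntermediateField.algebra_adjoin_le_adjoin F _

end

/-- A divisor of a natural number which is a unit in a (semi)ring is a unit there. -/
theorem kd23_isUnit_natCast_of_dvd {O : Type*} [CommSemiring O] {d e : ℕ} (hde : d ∣ e)
    (he : IsUnit ((e : ℕ) : O)) : IsUnit ((d : ℕ) : O) := by
  obtain ⟨k, rfl⟩ := hde
  rw [Nat.cast_mul] at he
  exact isUnit_of_mul_isUnit_left he

/-- **The unit hypothesis of the trace-average descent.**  `F` contains a primitive `e`-th root of
unity, `L = F(s)`, `s ^ e = z ∈ Fˣ`, and `e` is a unit of `O`: then `[L : F]` is a unit of `O`. -/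
theorem kd23_isUnit_finrank {F L : Type*} [Field F] [Field L] [Algebra F L]
    {O : Type*} [CommSemiring O] {e : ℕ} (he : 0 < e) {ζ : F}
    (hζ : IsPrimitiveRoot ζ e) {s : L} {z : F} (hz : z ≠ 0) (hs : s ^ e = algebraMap F L z)
    (hgen : IntermediateField.adjoin F {s} = ⊤) (heO : IsUnit ((e : ℕ) : O)) :
    IsUnit ((Module.finrank F L : ℕ) : O) :=
  kd23_isUnit_natCast_of_dvd (kd23_finrank_dvd he hζ hz hs hgen) heO

end Fermat.Agent.S18
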