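import Mathlib

/-!
# S18 row B5-deg: a Kummer layer of invertible degree, without roots of unity (helper51)

`kdeg51_exists` : for `z : F` and `e > 0` there is a finite field extension `L' = F[s]` with
`s ^ e = z` such that every prime dividing `[L' : F]` divides `e`.  (`L'` is a tower of steps of
prime degree: `X ^ q - a` is irreducible or has a root.)
-/

set_option autoImplicit false

open Polynomial

namespace Fermat.Agent.S18

universe u

/-- the statement for a fixed exponent. -/
def Kdeg51Prop (e : ℕ) : Prop :=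
  ∀ (F : Type u) [Field F] (z : F),
    ∃ (L' : Type u) (_ : Field L') (_ : Algebra F L') (_ : FiniteDimensional F L') (s : L'),
      s ^ e = algebraMap F L' z ∧ Algebra.adjoin F {s} = ⊤ ∧
      ∀ q : ℕ, q.Prime → q ∣ Module.finrank F L' → q ∣ e

theorem kdeg51_trivial (F : Type u) [Field F] (s : F) : Algebra.adjoin F ({s} : Set F) = ⊤ := by
  rw [eq_top_iff]
  intro x _
  exact Subalgebra.algebraMap_mem _ x

theorem kdeg51_one : Kdeg51Prop.{u} 1 := by
  intro F _ z
  refine ⟨F, inferInstance, inferInstance, inferInstance, z, by simp, kdeg51_trivial F z, ?_⟩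
  intro q hq hdvd
  rw [Module.finrank_self] at hdvd
  exact hdvd

theorem kdeg51_prime (p : ℕ) (hp : p.Prime) : Kdeg51Prop.{u} p := by
  intro F _ z
  by_cases hroot : ∃ w : F, w ^ p = z
  · obtain ⟨w, hw⟩ := hroot
    refine ⟨F, inferInstance, inferInstance, inferInstance, w, by simpa using hw,
      kdeg51_trivial F w, ?_⟩
    intro q hq hdvd
    rw [Module.finrank_self] at hdvd
    exact absurd (Nat.dvd_one.mp hdvd) hq.one_lt.ne'
  · have hirr : Irreducible (X ^ p - C z : F[X]) :=
      X_pow_sub_C_irreducible_of_prime hp (fun b hb => hroot ⟨b, hb⟩)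
    haveI : Fact (Irreducible (X ^ p - C z : F[X])) := ⟨hirr⟩
    have hne : (X ^ p - C z : F[X]) ≠ 0 := hirr.ne_zero
    have hdeg : (X ^ p - C z : F[X]).natDegree = p := natDegree_X_pow_sub_C
    refine ⟨AdjoinRoot (X ^ p - C z : F[X]), inferInstance, inferInstance,
      (AdjoinRoot.powerBasis hne).finite, AdjoinRoot.root _, ?_, AdjoinRoot.adjoinRoot_eq_top, ?_⟩
    · have h := AdjoinRoot.eval₂_root (X ^ p - C z : F[X])
      rw [eval₂_sub, eval₂_pow, eval₂_X, eval₂_C, sub_eq_zero] at h
      exact h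
    · intro q hq hdvd
      rw [(AdjoinRoot.powerBasis hne).finrank, AdjoinRoot.powerBasis_dim, hdeg] at hdvd
      exact hdvd

theorem kdeg51_mul (a b : ℕ) (ha : Kdeg51Prop.{u} a) (hb : Kdeg51Prop.{u} b) :
    Kdeg51Prop.{u} (a * b) := by
  intro F _ z
  obtain ⟨L₁, _, _, _, s₁, hs₁, hgen₁, hq₁⟩ := ha F z
  obtain ⟨L₂, _, _, _, s₂, hs₂, hgen₂, hq₂⟩ := hb L₁ s₁
  letI : Algebra F L₂ := ((algebraMap L₁ L₂).comp (algebraMap F L₁)).toAlgebra
  haveI : IsScalarTower F L₁ L₂ := IsScalarTower.of_algebraMap_eq (fun _ => rfl)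
  haveI : FiniteDimensional F L₂ := FiniteDimensional.trans F L₁ L₂
  refine ⟨L₂, inferInstance, inferInstance, inferInstance, s₂, ?_, ?_, ?_⟩
  · rw [mul_comm a b, pow_mul, hs₂, ← map_pow, hs₁, ← IsScalarTower.algebraMap_apply]
  · -- `F[s₂]` contains the image of `L₁ = F[s₁]` and `s₂`
    have hs₂mem : s₂ ∈ Algebra.adjoin F ({s₂} : Set L₂) := Algebra.subset_adjoin rfl
    have hL₁ : ∀ x : L₁, algebraMap L₁ L₂ x ∈ Algebra.adjoin F ({s₂} : Set L₂) := by
      intro x
      have hx : x ∈ Algebra.adjoin F ({s₁} : Set L₁) := by rw [hgen₁]; exact Algebra.mem_top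
      induction hx using Algebra.adjoin_induction with
      | mem y hy =>
        rw [Set.mem_singleton_iff.mp hy, ← hs₂]
        exact Subalgebra.pow_mem _ hs₂mem b
      | algebraMap r =>
        rw [← IsScalarTower.algebraMap_apply]
        exact Subalgebra.algebraMap_mem _ r
      | add y y' _ _ hy hy' => rw [map_add]; exact Subalgebra.add_mem _ hy hy'
      | mul y y' _ _ hy hy' => rw [map_mul]; exact Subalgebra.mul_mem _ hy hy'
    rw [eq_top_iff]
    intro y _
    have hy : y ∈ Algebra.adjoin L₁ ({s₂} : Set L₂) := by rw [hgen₂]; exact Algebra.mem_top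
    induction hy using Algebra.adjoin_induction with
    | mem y hy => rw [Set.mem_singleton_iff.mp hy]; exact hs₂mem
    | algebraMap r => exact hL₁ r
    | add y y' _ _ hy hy' => exact Subalgebra.add_mem _ (hy trivial) (hy' trivial)
    | mul y y' _ _ hy hy' => exact Subalgebra.mul_mem _ (hy trivial) (hy' trivial)
  · intro q hq hdvd
    rw [← Module.finrank_mul_finrank F L₁ L₂] at hdvd
    rcases (Nat.Prime.dvd_mul hq).mp hdvd with h | h
    · exact (hq₁ q hq h).mul_right b
    · exact (hq₂ q hq h).mul_left a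

/-- **Kummer layer of invertible degree.** For `z : F` and `e > 0` there is a finite extension
`L' = F[s]`, `s ^ e = z`, such that every prime dividing `[L' : F]` divides `e`. -/
theorem kdeg51_exists (F : Type u) [Field F] (z : F) (e : ℕ) (he : 0 < e) :
    ∃ (L' : Type u) (_ : Field L') (_ : Algebra F L') (_ : FiniteDimensional F L') (s : L'),
      s ^ e = algebraMap F L' z ∧ Algebra.adjoin F {s} = ⊤ ∧
      ∀ q : ℕ, q.Prime → q ∣ Module.finrank F L' → q ∣ e := by
  have key : ∀ e : ℕ, 0 < e → Kdeg51Prop.{u} e := by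
    intro e
    induction e using Nat.recOnMul with
    | zero => intro h; exact absurd h (lt_irrefl 0)
    | one => intro _; exact kdeg51_one
    | prime p hp => intro _; exact kdeg51_prime p hp
    | mul a b iha ihb =>
      intro hab
      exact kdeg51_mul a b (iha (Nat.pos_of_mul_pos_right hab)) (ihb (Nat.pos_of_mul_pos_left hab))
  exact key e he F z

/-- Consequence: a prime `ℓ ∤ e` does not divide the degree. -/
theorem kdeg51_exists_coprime (F : Type u) [Field F] (z : F) (e : ℕ) (he : 0 < e) (ℓ : ℕ)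
    (hℓ : ℓ.Prime) (hℓe : ¬ ℓ ∣ e) :
    ∃ (L' : Type u) (_ : Field L') (_ : Algebra F L') (_ : FiniteDimensional F L') (s : L'),
      s ^ e = algebraMap F L' z ∧ Algebra.adjoin F {s} = ⊤ ∧ ¬ ℓ ∣ Module.finrank F L' := by
  obtain ⟨L', i1, i2, i3, s, hs, hgen, hq⟩ := kdeg51_exists F z e he
  exact ⟨L', i1, i2, i3, s, hs, hgen, fun h => hℓe (hq ℓ hℓ h)⟩

end Fermat.Agent.S18
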