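import Mathlib

/-!
S18 (long shot), row A2b: the Kummer step of the smoothness argument, generic and Mathlib only
(helper45).  All names are prefixed `kt45_`.

Setting: `O` a UFD with fraction field `E`, `F / E` a finite extension, `C` the integral closure
of `O` in `F`, `z : O`.

* `kt45_dual_away`: if the trace dual of `C` agrees with `C` at every prime element `p` of `O`
  not dividing `z` (in the elementwise "hcodim" shape), then `z ^ k • y ∈ C` for every `y` in the
  trace dual.
* `kt45_tower`: the same conclusion for `L = F(s)`, `s ^ e = z`, `e` a unit of `O`.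
* `kt45_hcodim`: the hcodim statement over the integral closure `O'` of `O` in `E(s)` at every
  prime element of `O'` not dividing `s`.
* `kt45_retract`: descent of a decomposition `x = t y + π w` from the integral closure in `L`
  to the integral closure in `F` by the normalised trace.
-/

set_option autoImplicit false
set_option linter.style.haveILetI false

open Polynomial

namespace Fermat.Agent.S18

section Hartogs

/-- If every prime factor of `s` divides `z`, then `s` divides a power of `z`. -/
theorem kt45_dvd_pow_of_primes {O : Type*} [CommRing O] [UniqueFactorizationMonoid O]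
    (z s : O) (hs : s ≠ 0)
    (h : ∀ p : O, Prime p → p ∣ s → p ∣ z) : ∃ k : ℕ, s ∣ z ^ k := by
  induction s using UniqueFactorizationMonoid.induction_on_prime with
  | h₁ => exact absurd rfl hs
  | h₂ x hx => exact ⟨0, hx.dvd⟩
  | h₃ a p ha hp ih =>
    obtain ⟨k, hk⟩ := ih ha (fun q hq hqa => h q hq (dvd_mul_of_dvd_right hqa p))
    exact ⟨k + 1, by rw [pow_succ']; exact mul_dvd_mul (h p hp (dvd_mul_right p a)) hk⟩

variable {O : Type*} [CommRing O] [IsDomain O] [UniqueFactorizationMonoid O]
variable {E : Type*} [Field E] [Algebra O E] [IsFractionRing O E]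

/-- Hartogs in a UFD, away from `z`: an element of the fraction field which is integral at every
prime element not dividing `z` becomes integral after multiplication by a power of `z`. -/
theorem kt45_hartogs_away (z : O) (a : E)
    (h : ∀ p : O, Prime p → ¬ p ∣ z →
      ∃ b s : O, ¬ p ∣ s ∧ a * algebraMap O E s = algebraMap O E b) :
    ∃ k : ℕ, algebraMap O E (z ^ k) * a ∈ (algebraMap O E).range := by
  obtain ⟨b, ⟨s, hs⟩, hrel, rfl⟩ := IsFractionRing.exists_reduced_fraction O a
  have hs0 : s ≠ 0 := nonZeroDivisors.ne_zero hs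
  have hsE : algebraMap O E s ≠ 0 := by
    simpa using (IsFractionRing.injective O E).ne hs0
  have hprime : ∀ p : O, Prime p → p ∣ s → p ∣ z := by
    intro p hp hps
    by_contra hpz
    obtain ⟨b', s', hps', heq⟩ := h p hp hpz
    have h1 : b * s' = b' * s := by
      apply IsFractionRing.injective O E
      rw [map_mul, map_mul, ← heq, IsFractionRing.mk'_eq_div]
      simp only
      field_simp
    have hpb : p ∣ b := by
      have : p ∣ b * s' := h1 ▸ dvd_mul_of_dvd_right hps b'
      exact (hp.dvd_or_dvd this).resolve_right hps'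
    exact hp.not_isUnit (hrel hpb hps)
  obtain ⟨k, c, hc⟩ := kt45_dvd_pow_of_primes z s hs0 hprime
  refine ⟨k, c * b, ?_⟩
  rw [IsFractionRing.mk'_eq_div, hc, map_mul, map_mul]
  show algebraMap O E c * algebraMap O E b =
    algebraMap O E s * algebraMap O E c * (algebraMap O E b / algebraMap O E s)
  field_simp

end Hartogs

section Away

/-- The minimal polynomial of a nonzero scalar multiple. -/
theorem kt45_minpoly_smul {E : Type*} [Field E] {L : Type*} [Field L] [Algebra E L]
    (σ : E) (hσ : σ ≠ 0) (y : L) (hy : IsIntegral E y) :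
    minpoly E (algebraMap E L σ * y) = (minpoly E y).scaleRoots σ := by
  have hw : IsIntegral E (algebraMap E L σ * y) := isIntegral_algebraMap.mul hy
  have h1 : minpoly E (algebraMap E L σ * y) ∣ (minpoly E y).scaleRoots σ :=
    minpoly.dvd E _ (scaleRoots_aeval_eq_zero (minpoly.aeval E y))
  have h2 : minpoly E y ∣ (minpoly E (algebraMap E L σ * y)).scaleRoots σ⁻¹ := by
    apply minpoly.dvd E
    have := scaleRoots_aeval_eq_zero (r := σ⁻¹) (minpoly.aeval E (algebraMap E L σ * y))
    rwa [← mul_assoc, ← map_mul, inv_mul_cancel₀ hσ, map_one, one_mul] at this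
  have hmy : (minpoly E y).Monic := minpoly.monic hy
  have hmw : (minpoly E (algebraMap E L σ * y)).Monic := minpoly.monic hw
  have hdeg : (minpoly E y).natDegree ≤ (minpoly E (algebraMap E L σ * y)).natDegree := by
    have := natDegree_le_of_dvd h2 ((monic_scaleRoots_iff σ⁻¹).mpr hmw).ne_zero
    rwa [natDegree_scaleRoots] at this
  exact (eq_of_monic_of_dvd_of_natDegree_le hmw ((monic_scaleRoots_iff σ).mpr hmy) h1
    (by rwa [natDegree_scaleRoots])).symm

/-- Integrality away from `z`: if for every prime element `p` not dividing `z` some multiple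
`s • y`, `p ∤ s`, is integral over `O`, then `z ^ k • y` is integral over `O`. -/
theorem kt45_integral_away {O : Type*} [CommRing O] [IsDomain O] [UniqueFactorizationMonoid O]
    (E : Type*) [Field E] [Algebra O E] [IsFractionRing O E]
    {L : Type*} [Field L] [Algebra E L] [Algebra O L] [IsScalarTower O E L]
    [FiniteDimensional E L] (z : O) (y : L)
    (h : ∀ p : O, Prime p → ¬ p ∣ z →
      ∃ s : O, ¬ p ∣ s ∧ IsIntegral O (algebraMap O L s * y)) :
    ∃ k : ℕ, IsIntegral O (algebraMap O L (z ^ k) * y) := by
  classical
  have hyE : IsIntegral E y := Algebra.IsIntegral.isIntegral y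
  set μ := minpoly E y with hμ
  have hμm : μ.Monic := minpoly.monic hyE
  set n := μ.natDegree with hn
  -- every coefficient is integral away from `z`
  have hcoeff : ∀ i : ℕ, ∃ k : ℕ,
      algebraMap O E (z ^ k) * μ.coeff i ∈ (algebraMap O E).range := by
    intro i
    apply kt45_hartogs_away
    intro p hp hpz
    obtain ⟨s, hps, hint⟩ := h p hp hpz
    have hs0 : s ≠ 0 := by
      rintro rfl
      exact hps (dvd_zero p)
    have hσ : algebraMap O E s ≠ 0 := by
      simpa using (IsFractionRing.injective O E).ne hs0
    have hsm := kt45_minpoly_smul (L := L) (algebraMap O E s) hσ y hyE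
    rw [← IsScalarTower.algebraMap_apply O E L] at hsm
    have hfr := minpoly.isIntegrallyClosed_eq_field_fractions' E hint
    refine ⟨(minpoly O (algebraMap O L s * y)).coeff i, s ^ (n - i),
      fun hdvd => hps (hp.dvd_of_dvd_pow hdvd), ?_⟩
    have := congrArg (fun q => q.coeff i) (hsm.symm.trans hfr)
    simp only [coeff_scaleRoots, coeff_map] at this
    rw [map_pow]
    exact this
  choose kf hkf using hcoeff
  set k := (Finset.range (n + 1)).sup kf with hk
  have hcoeff' : ∀ i ≤ n, algebraMap O E (z ^ k) * μ.coeff i ∈ (algebraMap O E).range := by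
    intro i hi
    have hle : kf i ≤ k := Finset.le_sup (f := kf) (Finset.mem_range.mpr (Nat.lt_succ_of_le hi))
    obtain ⟨c, hc⟩ := hkf i
    refine ⟨z ^ (k - kf i) * c, ?_⟩
    rw [map_mul, hc, ← mul_assoc, ← map_mul, ← pow_add, Nat.sub_add_cancel hle]
  refine ⟨k, ?_⟩
  set ζ := algebraMap O E (z ^ k) with hζ
  have hlift : μ.scaleRoots ζ ∈ Polynomial.lifts (algebraMap O E) := by
    rw [Polynomial.lifts_iff_coeff_lifts]
    intro i
    rw [coeff_scaleRoots]
    rcases lt_trichotomy i n with hi | hi | hi
    · obtain ⟨c, hc⟩ := hcoeff' i hi.le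
      obtain ⟨m, hm⟩ : ∃ m, n - i = m + 1 := ⟨n - i - 1, by omega⟩
      refine ⟨c * (z ^ k) ^ m, ?_⟩
      rw [← hn, hm, pow_succ, map_mul, hc, map_pow, ← hζ]
      ring
    · refine ⟨1, ?_⟩
      rw [hi, hn, ← hn, Nat.sub_self, pow_zero, mul_one, map_one, hn]
      exact hμm.coeff_natDegree.symm
    · refine ⟨0, ?_⟩
      rw [map_zero, coeff_eq_zero_of_natDegree_lt (hn ▸ hi), zero_mul]
  obtain ⟨q, hq, -, hqm⟩ := Polynomial.lifts_and_natDegree_eq_and_monic hlift
    ((monic_scaleRoots_iff ζ).mpr hμm)
  refine ⟨q, hqm, ?_⟩
  rw [← aeval_def, ← aeval_map_algebraMap E, hq, IsScalarTower.algebraMap_apply O E L]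
  exact scaleRoots_aeval_eq_zero (minpoly.aeval E y)

variable {O : Type*} [CommRing O] [IsDomain O] [UniqueFactorizationMonoid O]
variable {E : Type*} [Field E] [Algebra O E] [IsFractionRing O E]
variable {L : Type*} [Field L] [Algebra E L] [Algebra O L] [IsScalarTower O E L]
  [FiniteDimensional E L]
variable {C : Type*} [CommRing C] [Algebra C L] [IsIntegralClosure C O L]

/-- **Trace dual away from `z`** (a version of the purity statement `C^∨ = C` with the primes
dividing `z` removed): if the trace dual of `C` is contained in `C` at every prime element of `O`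
not dividing `z`, then every element of the trace dual is in `C` after multiplication by a power
of `z`. -/
theorem kt45_dual_away (z : O)
    (hcodim : ∀ p : O, Prime p → ¬ p ∣ z → ∀ y : L,
      (∀ c : C, Algebra.trace E L (y * algebraMap C L c) ∈ (algebraMap O E).range) →
      ∃ s : O, ¬ p ∣ s ∧ algebraMap O L s * y ∈ (algebraMap C L).range)
    (y : L) (hy : ∀ c : C, Algebra.trace E L (y * algebraMap C L c) ∈ (algebraMap O E).range) :
    ∃ k : ℕ, algebraMap O L (z ^ k) * y ∈ (algebraMap C L).range := by
  obtain ⟨k, hk⟩ := kt45_integral_away E z y (fun p hp hpz => by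
    obtain ⟨s, hs, hmem⟩ := hcodim p hp hpz y hy
    exact ⟨s, hs, (IsIntegralClosure.isIntegral_iff (A := C)).mpr hmem⟩)
  exact ⟨k, (IsIntegralClosure.isIntegral_iff (A := C)).mp hk⟩

end Away

section Tower

variable {O : Type*} [CommRing O] [IsDomain O] [UniqueFactorizationMonoid O]
variable {E : Type*} [Field E] [Algebra O E] [IsFractionRing O E]
variable {F : Type*} [Field F] [Algebra E F] [Algebra O F] [IsScalarTower O E F]
  [FiniteDimensional E F]
variable {C : Type*} [CommRing C] [Algebra O C] [Algebra C F] [IsScalarTower O C F]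
  [IsIntegralClosure C O F]
variable {L : Type*} [Field L] [Algebra F L] [Algebra E L] [Algebra O L]
  [IsScalarTower E F L] [IsScalarTower O E L] [IsScalarTower O F L]
  [FiniteDimensional F L] [Algebra.IsSeparable F L]
variable {CL : Type*} [CommRing CL] [Algebra CL L] [IsIntegralClosure CL O L]

omit [IsDomain O] [UniqueFactorizationMonoid O] [IsFractionRing O E]
  [Algebra.IsSeparable F L] [IsScalarTower O E F] [IsScalarTower O E L] in
/-- Traces of `y * s ^ j` down to `F` lie in the trace dual of `C`. -/
theorem kt45_trace_mem_dual (s : L) (hs : IsIntegral O s) (y : L)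
    (hy : ∀ c : CL, Algebra.trace E L (y * algebraMap CL L c) ∈ (algebraMap O E).range)
    (j : ℕ) (c : C) :
    Algebra.trace E F (Algebra.trace F L (y * s ^ j) * algebraMap C F c) ∈
      (algebraMap O E).range := by
  have hc00 : IsIntegral O c := IsIntegralClosure.isIntegral O F c
  have hc0 : IsIntegral O (algebraMap C F c) := hc00.algebraMap
  have hc1 : IsIntegral O (algebraMap F L (algebraMap C F c)) := hc0.algebraMap
  have hint : IsIntegral O (s ^ j * algebraMap F L (algebraMap C F c)) := (hs.pow j).mul hc1
  obtain ⟨c', hc'⟩ := (IsIntegralClosure.isIntegral_iff (A := CL)).mp hint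
  have h1 : Algebra.trace F L (y * s ^ j) * algebraMap C F c =
      Algebra.trace F L (y * (s ^ j * algebraMap F L (algebraMap C F c))) := by
    rw [mul_comm (Algebra.trace F L (y * s ^ j)), ← smul_eq_mul, ← map_smul, Algebra.smul_def]
    congr 1
    ring
  rw [h1, Algebra.trace_trace, ← hc']
  exact hy c'

omit [IsScalarTower O E L] in
/-- **Kummer tower**: let `L = F(s)` with `s ^ e = z`, `e` a unit of `O`.  If the trace dual of
`C` (integral closure of `O` in `F`) agrees with `C` at every prime element of `O` not dividing
`z`, then every element of the trace dual (over `E`) of the integral closure `CL` of `O` in `L`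
lies in `CL` after multiplication by a power of `z`. -/
theorem kt45_tower (z : O) (e : ℕ) (he : IsUnit ((e : ℕ) : O)) (s : L)
    (hs : s ^ e = algebraMap O L z) (hgen : Algebra.adjoin F {s} = ⊤)
    (hcodim : ∀ p : O, Prime p → ¬ p ∣ z → ∀ y : F,
      (∀ c : C, Algebra.trace E F (y * algebraMap C F c) ∈ (algebraMap O E).range) →
      ∃ t : O, ¬ p ∣ t ∧ algebraMap O F t * y ∈ (algebraMap C F).range)
    (y : L) (hy : ∀ c : CL, Algebra.trace E L (y * algebraMap CL L c) ∈ (algebraMap O E).range) :
    ∃ k : ℕ, algebraMap O L (z ^ k) * y ∈ (algebraMap CL L).range := by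
  classical
  have he0 : 0 < e := by
    rcases Nat.eq_zero_or_pos e with h | h
    · subst h
      simp at he
    · exact h
  have hsO : IsIntegral O s := IsIntegral.of_pow he0 (hs ▸ isIntegral_algebraMap)
  -- step 1: a uniform power of `z` moving the traces into `C`
  have hu : ∀ j : ℕ, ∃ k : ℕ,
      algebraMap O F (z ^ k) * Algebra.trace F L (y * s ^ j) ∈ (algebraMap C F).range :=
    fun j => kt45_dual_away z hcodim _ (kt45_trace_mem_dual s hsO y hy j)
  choose kf hkf using hu
  set k := (Finset.range e).sup kf with hk
  have hOC : ∀ t : O, algebraMap O F t = algebraMap C F (algebraMap O C t) :=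
    fun t => IsScalarTower.algebraMap_apply O C F t
  have hlin : ∀ (t : O) (x : L),
      Algebra.trace F L (algebraMap O L t * x) = algebraMap O F t * Algebra.trace F L x := by
    intro t x
    rw [IsScalarTower.algebraMap_apply O F L, ← Algebra.smul_def, map_smul, smul_eq_mul]
  have hu' : ∀ j : ℕ, Algebra.trace F L (algebraMap O L (z ^ k) * y * s ^ j) ∈
      (algebraMap C F).range := by
    intro j
    have hr : j % e < e := Nat.mod_lt j he0
    have hle : kf (j % e) ≤ k := Finset.le_sup (f := kf) (Finset.mem_range.mpr hr)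
    obtain ⟨c, hc⟩ := hkf (j % e)
    have hsj : s ^ j = algebraMap O L (z ^ (j / e)) * s ^ (j % e) := by
      conv_lhs => rw [← Nat.div_add_mod j e]
      rw [pow_add, pow_mul, hs, map_pow]
    have hrw : algebraMap O L (z ^ k) * y * s ^ j =
        algebraMap O L (z ^ (j / e) * z ^ (k - kf (j % e)) * z ^ kf (j % e)) *
          (y * s ^ (j % e)) := by
      rw [hsj, mul_assoc (z ^ (j / e)), ← pow_add, Nat.sub_add_cancel hle, map_mul]
      ring
    rw [hrw, hlin, map_mul, mul_assoc, ← hc, hOC, ← map_mul]
    exact ⟨_, rfl⟩
  -- step 2: the instances for the pair `C ⊆ F` and the tower `C → F → L`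
  letI : Algebra C L := ((algebraMap F L).comp (algebraMap C F)).toAlgebra
  haveI : IsScalarTower C F L := IsScalarTower.of_algebraMap_eq (fun _ => rfl)
  haveI : IsScalarTower O C L := IsScalarTower.of_algebraMap_eq (fun t => by
    rw [IsScalarTower.algebraMap_apply O F L, hOC]
    rfl)
  haveI : IsDomain C := (IsIntegralClosure.algebraMap_injective C O F).isDomain _
  haveI : IsFractionRing C F := IsIntegralClosure.isFractionRing_of_finite_extension O E F C
  haveI hCint : Algebra.IsIntegral O C := IsIntegralClosure.isIntegral_algebra O F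
  haveI : IsIntegrallyClosed C := (isIntegrallyClosed_iff F).mpr (fun {x} hx =>
    (IsIntegralClosure.isIntegral_iff (A := C)).mp (isIntegral_trans (R := O) (A := C) x hx))
  have hCs : IsIntegral C s := hsO.tower_top
  set y' := algebraMap O L (z ^ k) * y with hy'
  have hdual : y' ∈ (Algebra.traceForm F L).dualSubmodule
      (Subalgebra.toSubmodule (Algebra.adjoin C {s})) := by
    rw [LinearMap.BilinForm.mem_dualSubmodule]
    intro x hx
    rw [Subalgebra.mem_toSubmodule, Algebra.adjoin_singleton_eq_range_aeval] at hx
    obtain ⟨P, rfl⟩ := hx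
    rw [Algebra.traceForm_apply, Submodule.mem_one]
    show Algebra.trace F L (y' * (aeval s) P) ∈ (algebraMap C F).range
    rw [aeval_eq_sum_range, Finset.mul_sum, map_sum]
    refine Subring.sum_mem _ (fun i _ => ?_)
    obtain ⟨c, hc⟩ := hu' i
    have hterm : y' * P.coeff i • s ^ i =
        algebraMap F L (algebraMap C F (P.coeff i)) * (y' * s ^ i) := by
      rw [Algebra.smul_def, IsScalarTower.algebraMap_apply C F L]
      ring
    rw [hterm, ← Algebra.smul_def, map_smul, smul_eq_mul, ← hc, ← map_mul]
    exact ⟨_, rfl⟩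
  rw [traceForm_dualSubmodule_adjoin C F hgen hCs,
    Submodule.mem_smul_pointwise_iff_exists] at hdual
  obtain ⟨b, hb, hby⟩ := hdual
  rw [Subalgebra.mem_toSubmodule] at hb
  rw [smul_eq_mul] at hby
  -- step 3: Euler's formula for `X ^ e - z`
  have hmin : minpoly F s = (minpoly C s).map (algebraMap C F) :=
    minpoly.isIntegrallyClosed_eq_field_fractions' F hCs
  haveI : Module.IsTorsionFree C L := Module.isTorsionFree_iff_algebraMap_injective.mpr
    ((algebraMap F L).injective.comp (IsIntegralClosure.algebraMap_injective C O F))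
  have hroot : aeval s (X ^ e - Polynomial.C (algebraMap O C z) : C[X]) = 0 := by
    rw [map_sub, map_pow, aeval_X, aeval_C, hs, ← IsScalarTower.algebraMap_apply, sub_self]
  obtain ⟨g, hg⟩ := minpoly.isIntegrallyClosed_dvd hCs hroot
  have hder : (e : L) * s ^ (e - 1) =
      aeval s (derivative (minpoly C s)) * aeval s g := by
    have := congrArg (fun q => aeval s (derivative q)) hg
    simp only [derivative_sub, derivative_X_pow, derivative_C, sub_zero, derivative_mul, map_add,
      map_mul, minpoly.aeval, zero_mul, add_zero, map_pow, aeval_X, map_natCast] at this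
    exact this
  have hD : aeval s (derivative (minpoly F s)) = aeval s (derivative (minpoly C s)) := by
    rw [hmin, derivative_map, aeval_map_algebraMap]
  have hmem : (e : L) * s ^ (e - 1) * y' ∈ Algebra.adjoin C {s} := by
    by_cases hD0 : aeval s (derivative (minpoly C s)) = 0
    · rw [hder, hD0, zero_mul, zero_mul]
      exact zero_mem _
    · have : (e : L) * s ^ (e - 1) * y' = aeval s g * b := by
        rw [← hby, hder, hD]
        field_simp
      rw [this]
      exact mul_mem (aeval_mem_adjoin_singleton C s) hb
  have hint : IsIntegral O ((e : L) * s ^ (e - 1) * y') :=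
    isIntegral_trans _ (adjoin_le_integralClosure hCs hmem)
  -- step 4: conclusion
  obtain ⟨e', he'⟩ := he.exists_right_inv
  refine ⟨k + 1, (IsIntegralClosure.isIntegral_iff (A := CL) (R := O)).mp ?_⟩
  have hfin : algebraMap O L (z ^ (k + 1)) * y =
      algebraMap O L e' * (s * ((e : L) * s ^ (e - 1) * y')) := by
    have hse : s * s ^ (e - 1) = algebraMap O L z := by
      rw [← pow_succ', Nat.sub_add_cancel he0, hs]
    have he1 : algebraMap O L e' * (e : L) = 1 := by
      rw [← map_natCast (algebraMap O L) e, ← map_mul, mul_comm, he', map_one]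
    calc algebraMap O L (z ^ (k + 1)) * y
        = (algebraMap O L e' * (e : L)) * ((s * s ^ (e - 1)) * y') := by
          rw [he1, hse, hy', pow_succ, map_mul]
          ring
      _ = algebraMap O L e' * (s * ((e : L) * s ^ (e - 1) * y')) := by ring
  rw [hfin]
  exact isIntegral_algebraMap.mul (hsO.mul hint)

end Tower

section Base

variable {O : Type*} [CommRing O] [IsDomain O] [IsIntegrallyClosed O]
variable {E : Type*} [Field E] [Algebra O E] [IsFractionRing O E]
variable {E' : Type*} [Field E'] [Algebra E E'] [Algebra O E'] [IsScalarTower O E E']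
  [FiniteDimensional E E']
variable {L : Type*} [Field L] [Algebra E L] [Algebra E' L] [IsScalarTower E E' L]
  [FiniteDimensional E' L]
variable {O' : Type*} [CommRing O'] [Algebra O' E']

omit [IsDomain O] in
/-- If `O'` is integral over `O`, then an element whose trace down to `E'` lies in `O'` has its
trace down to `E` in `O`: the trace dual over `O'` is contained in the trace dual over `O`. -/
theorem kt45_dual_base (hO' : ∀ t : O', IsIntegral O (algebraMap O' E' t)) (x : L)
    (hx : Algebra.trace E' L x ∈ (algebraMap O' E').range) :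
    Algebra.trace E L x ∈ (algebraMap O E).range := by
  obtain ⟨t, ht⟩ := hx
  rw [← Algebra.trace_trace (S := E'), ← ht]
  have hint : IsIntegral O (Algebra.trace E E' (algebraMap O' E' t)) :=
    Algebra.isIntegral_trace (hO' t)
  exact IsIntegrallyClosed.isIntegral_iff.mp hint

end Base

section Main

variable {O : Type*} [CommRing O] [IsDomain O] [UniqueFactorizationMonoid O]
variable {E : Type*} [Field E] [Algebra O E] [IsFractionRing O E]
variable {F : Type*} [Field F] [Algebra E F] [Algebra O F] [IsScalarTower O E F]
  [FiniteDimensional E F]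
variable {C : Type*} [CommRing C] [Algebra O C] [Algebra C F] [IsScalarTower O C F]
  [IsIntegralClosure C O F]
variable {L : Type*} [Field L] [Algebra F L] [Algebra E L] [Algebra O L]
  [IsScalarTower E F L] [IsScalarTower O E L] [IsScalarTower O F L]
  [FiniteDimensional F L] [Algebra.IsSeparable F L]
variable {CL : Type*} [CommRing CL] [Algebra CL L] [IsIntegralClosure CL O L]
variable {E' : Type*} [Field E'] [Algebra E E'] [Algebra O E'] [IsScalarTower O E E']
  [Algebra E' L] [IsScalarTower E E' L]
variable {O' : Type*} [CommRing O'] [Algebra O' E'] [Algebra O' L] [IsScalarTower O' E' L]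

omit [IsScalarTower O E L] [IsScalarTower O' E' L] in
/-- **The Kummer step in hcodim shape.**  `O` a UFD with fraction field `E`, `C` the integral
closure of `O` in the finite extension `F`, `L = F(s)` with `s ^ e = z ∈ O`, `e` a unit of `O`,
`E'` an intermediate field of `L / E` with a subring `O'` integral over `O` containing `s`
(in the application `E' = E(s)` and `O'` is the integral closure of `O` in `E'`), `CL` the
integral closure of `O` in `L`.  If `(O, F, C)` satisfies hcodim at every prime element of `O`
not dividing `z`, then `(O', L, CL)` satisfies hcodim at **every** prime element `p'` of `O'`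
not dividing `s`. -/
theorem kt45_hcodim (z : O) (e : ℕ) (he : IsUnit ((e : ℕ) : O)) (s : L)
    (hs : s ^ e = algebraMap O L z) (hgen : Algebra.adjoin F {s} = ⊤)
    (hcodim : ∀ p : O, Prime p → ¬ p ∣ z → ∀ y : F,
      (∀ c : C, Algebra.trace E F (y * algebraMap C F c) ∈ (algebraMap O E).range) →
      ∃ t : O, ¬ p ∣ t ∧ algebraMap O F t * y ∈ (algebraMap C F).range)
    (hO' : ∀ t : O', IsIntegral O (algebraMap O' E' t))
    (s' : O') (hs' : algebraMap O' L s' = s)
    (p' : O') (hp' : Prime p') (hps : ¬ p' ∣ s')
    (y : L)
    (hy : ∀ c : CL, Algebra.trace E' L (y * algebraMap CL L c) ∈ (algebraMap O' E').range) :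
    ∃ t : O', ¬ p' ∣ t ∧ algebraMap O' L t * y ∈ (algebraMap CL L).range := by
  haveI : FiniteDimensional E L := FiniteDimensional.trans E F L
  haveI : FiniteDimensional E E' := FiniteDimensional.left E E' L
  haveI : FiniteDimensional E' L := FiniteDimensional.right E E' L
  obtain ⟨k, hk⟩ := kt45_tower (C := C) (CL := CL) z e he s hs hgen hcodim y
    (fun c => kt45_dual_base hO' _ (hy c))
  refine ⟨s' ^ (e * k), fun hdvd => hps (hp'.dvd_of_dvd_pow hdvd), ?_⟩
  have : algebraMap O' L (s' ^ (e * k)) = algebraMap O L (z ^ k) := by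
    rw [map_pow, hs', pow_mul, hs, map_pow]
  rw [this]
  exact hk

omit [IsDomain O] [UniqueFactorizationMonoid O] [IsFractionRing O E] [FiniteDimensional E F]
  [IsScalarTower O E L] [IsScalarTower E F L] [IsScalarTower O E F] [Algebra.IsSeparable F L] in
/-- **Trace retraction** (replaces the passage to invariants under a Galois group): if
`[L : F]` is a unit of `O`, a decomposition `x = t y + π w` of an element `x` of `F` with
`y, w` in the integral closure `CL` of `O` in `L` can be replaced by one with `y, w` in the
integral closure `C` of `O` in `F`. -/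
theorem kt45_retract (hd : IsUnit ((Module.finrank F L : ℕ) : O)) (x : F) (t π : O) (y w : L)
    (hy : y ∈ (algebraMap CL L).range) (hw : w ∈ (algebraMap CL L).range)
    (hx : algebraMap F L x = algebraMap O L t * y + algebraMap O L π * w) :
    ∃ y' w' : C, x = algebraMap O F t * algebraMap C F y' + algebraMap O F π * algebraMap C F w' := by
  have hlin : ∀ (a : O) (v : L),
      Algebra.trace F L (algebraMap O L a * v) = algebraMap O F a * Algebra.trace F L v := by
    intro a v
    rw [IsScalarTower.algebraMap_apply O F L, ← Algebra.smul_def, map_smul, smul_eq_mul]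
  have htr : ∀ v : L, v ∈ (algebraMap CL L).range →
      ∃ c : C, algebraMap C F c = Algebra.trace F L v := by
    intro v hv
    have hvint : IsIntegral O v := (IsIntegralClosure.isIntegral_iff (A := CL)).mpr hv
    exact (IsIntegralClosure.isIntegral_iff (A := C)).mp (Algebra.isIntegral_trace hvint)
  obtain ⟨y0, hy0⟩ := htr y hy
  obtain ⟨w0, hw0⟩ := htr w hw
  obtain ⟨d', hd'⟩ := hd.exists_right_inv
  have h1 := congrArg (Algebra.trace F L) hx
  rw [Algebra.trace_algebraMap, map_add, hlin, hlin, ← hy0, ← hw0, nsmul_eq_mul] at h1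
  have hdF : algebraMap O F d' * (Module.finrank F L : F) = 1 := by
    rw [← map_natCast (algebraMap O F), ← map_mul, mul_comm, hd', map_one]
  refine ⟨algebraMap O C d' * y0, algebraMap O C d' * w0, ?_⟩
  have hOC : ∀ a : O, algebraMap C F (algebraMap O C a) = algebraMap O F a :=
    fun a => (IsScalarTower.algebraMap_apply O C F a).symm
  rw [map_mul, map_mul, hOC]
  calc x = (algebraMap O F d' * (Module.finrank F L : F)) * x := by rw [hdF, one_mul]
    _ = algebraMap O F d' * ((Module.finrank F L : F) * x) := by ring
    _ = _ := by rw [h1]; ring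

end Main

section Degree

variable {F : Type*} [Field F] {L : Type*} [Field L] [Algebra F L] [FiniteDimensional F L]

/-- Kummer: if `F` contains a primitive `e`-th root of unity and `L = F(s)` with `s ^ e ∈ F`,
then `[L : F]` divides `e`. -/
theorem kt45_finrank_dvd (e : ℕ) (he : 0 < e) (ζ : F) (hζ : IsPrimitiveRoot ζ e) (s : L) (a : F)
    (hs : s ^ e = algebraMap F L a) (hgen : Algebra.adjoin F {s} = ⊤) :
    Module.finrank F L ∣ e := by
  classical
  haveI : NeZero e := ⟨he.ne'⟩
  set d := Module.finrank F L with hd
  have hd0 : 0 < d := Module.finrank_pos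
  have hsint : IsIntegral F s := Algebra.IsIntegral.isIntegral s
  have htop : IntermediateField.adjoin F {s} = ⊤ := by
    apply IntermediateField.toSubalgebra_injective
    rw [IntermediateField.adjoin_simple_toSubalgebra_of_isAlgebraic hsint.isAlgebraic, hgen,
      IntermediateField.top_toSubalgebra]
  have hdeg : (minpoly F s).natDegree = d :=
    (Field.primitive_element_iff_minpoly_natDegree_eq F s).mp htop
  rcases eq_or_ne s 0 with rfl | hs0
  · have : (minpoly F (0 : L)).natDegree = 1 := by
      rw [minpoly.zero]
      exact natDegree_X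
    rw [← hdeg, this]
    exact one_dvd e
  -- `s ^ d ∈ F` by the norm
  have hsd : ∃ c : F, algebraMap F L c = s ^ d := by
    have hN : (algebraMap F L (Algebra.norm F s)) ^ e = (s ^ d) ^ e := by
      rw [← map_pow, ← map_pow (Algebra.norm F), hs, Algebra.norm_algebraMap, map_pow, ← hs,
        ← pow_mul, ← pow_mul, mul_comm]
    have hsd0 : s ^ d ≠ 0 := pow_ne_zero d hs0
    have hroot : (algebraMap F L (Algebra.norm F s) / s ^ d) ^ e = 1 := by
      rw [div_pow, hN, div_self (pow_ne_zero e hsd0)]
    have hζL : IsPrimitiveRoot (algebraMap F L ζ) e := hζ.map_of_injective (algebraMap F L).injective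
    obtain ⟨i, -, hi⟩ := hζL.eq_pow_of_pow_eq_one hroot
    refine ⟨Algebra.norm F s / ζ ^ i, ?_⟩
    have hζi : (algebraMap F L ζ) ^ i ≠ 0 := pow_ne_zero i (hζL.ne_zero he.ne')
    rw [map_div₀, map_pow]
    field_simp
    rw [hi]
    field_simp
  obtain ⟨c, hc⟩ := hsd
  -- the remainder `e % d` must vanish
  by_contra hnd
  have hr0 : 0 < e % d := Nat.pos_of_ne_zero (fun h => hnd (Nat.dvd_of_mod_eq_zero h))
  have hrd : e % d < d := Nat.mod_lt e hd0
  have hc0 : algebraMap F L c ≠ 0 := hc ▸ pow_ne_zero d hs0
  have hsr : s ^ (e % d) = algebraMap F L (a / c ^ (e / d)) := by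
    have h1 : s ^ e = (s ^ d) ^ (e / d) * s ^ (e % d) := by
      rw [← pow_mul, ← pow_add, Nat.div_add_mod]
    rw [map_div₀, map_pow, hc, ← hs, h1]
    field_simp
  have hpoly : aeval s (X ^ (e % d) - Polynomial.C (a / c ^ (e / d)) : F[X]) = 0 := by
    rw [map_sub, map_pow, aeval_X, aeval_C, hsr, sub_self]
  have hmonic : (X ^ (e % d) - Polynomial.C (a / c ^ (e / d)) : F[X]).Monic :=
    monic_X_pow_sub_C _ hr0.ne'
  have hle := natDegree_le_of_dvd (minpoly.dvd F s hpoly) hmonic.ne_zero
  rw [hdeg, natDegree_X_pow_sub_C] at hle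
  omega

/-- Consequently `[L : F]` is a unit in any ring in which `e` is a unit. -/
theorem kt45_isUnit_finrank {O : Type*} [CommRing O] (e : ℕ) (he : IsUnit ((e : ℕ) : O))
    (he0 : 0 < e) (ζ : F) (hζ : IsPrimitiveRoot ζ e) (s : L) (a : F)
    (hs : s ^ e = algebraMap F L a) (hgen : Algebra.adjoin F {s} = ⊤) :
    IsUnit ((Module.finrank F L : ℕ) : O) := by
  obtain ⟨m, hm⟩ := kt45_finrank_dvd e he0 ζ hζ s a hs hgen
  rw [hm, Nat.cast_mul] at he
  exact isUnit_of_mul_isUnit_left he

end Degree

end Fermat.Agent.S18
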