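import Mathlib
import Fermat.Agent.S18.LPTwoChart7

/-!
# S18: abstract core of `(**)` on two charts with Dedekind special fibres (helper7)

`lp7_star_core`: `R` a discrete valuation ring with uniformiser `π` and fraction field `K`,
`F / K` a field with two charts `B₁, B₂` (noetherian, `Bᵢ / π` Dedekind, `B₁ ∩ B₂ = R`), Gauss
valuation ring `V` (`m_V = π V`), `u ∈ 1 + π V` with `m ∣ ord_P u` for every Prelude place `P`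
of `F / K`, `m` a unit of `R`.  Then `f₀ ^ m * u = c` for some `f₀ ∈ 1 + π V` and a constant
`c ∈ R`.
-/

set_option autoImplicit false

namespace Fermat.Agent.S18

open AlgebraicCurve

theorem lp7_star_core {R K F : Type*} [CommRing R] [IsDomain R] [IsDiscreteValuationRing R]
    [Field K] [Algebra R K] [IsFractionRing R K] [Field F] [Algebra R F] [Algebra K F]
    [IsScalarTower R K F]
    (π : R) (hπ : Irreducible π) (m : ℕ) (hm0 : 0 < m) (hm : IsUnit (m : R))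
    (V : ValuationSubring F) (hRV : ∀ r : R, algebraMap R F r ∈ V)
    (hπV : (algebraMap R F π)⁻¹ ∉ V)
    (hmax : ∀ x ∈ V, x⁻¹ ∉ V → (algebraMap R F π)⁻¹ * x ∈ V)
    (B₁ B₂ B₁₂ : Subalgebra R F) (h112 : B₁ ≤ B₁₂) (h212 : B₂ ≤ B₁₂)
    (h12V : ∀ x ∈ B₁₂, x ∈ V)
    (hsat₁ : ∀ x ∈ B₁, (algebraMap R F π)⁻¹ * x ∈ V → (algebraMap R F π)⁻¹ * x ∈ B₁)
    (hsat₂ : ∀ x ∈ B₂, (algebraMap R F π)⁻¹ * x ∈ V → (algebraMap R F π)⁻¹ * x ∈ B₂)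
    (hsat₁₂ : ∀ x ∈ B₁₂, (algebraMap R F π)⁻¹ * x ∈ V → (algebraMap R F π)⁻¹ * x ∈ B₁₂)
    (hroot₁ : ∀ x : F, x ^ m ∈ B₁ → x ∈ B₁) (hroot₂ : ∀ x : F, x ^ m ∈ B₂ → x ∈ B₂)
    [IsNoetherianRing B₁] [IsNoetherianRing B₂]
    [IsDedekindDomain (B₁ ⧸ Ideal.span {algebraMap R B₁ π})]
    [IsDedekindDomain (B₂ ⧸ Ideal.span {algebraMap R B₂ π})]
    (hcap : ∀ x : F, x ∈ B₁ → x ∈ B₂ → ∃ r : R, x = algebraMap R F r)
    (h : F) (hh0 : h ≠ 0) (hh₁ : h ∈ B₁) (hh₂ : h⁻¹ ∈ B₂)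
    (hloc₁ : ∀ x ∈ B₁₂, ∃ k : ℕ, h ^ k * x ∈ B₁)
    (hloc₂ : ∀ x ∈ B₁₂, ∃ k : ℕ, h⁻¹ ^ k * x ∈ B₂)
    (hfin : ∃ G : Finset F, ∀ x ∈ B₁,
      x ∈ Submodule.span (Algebra.adjoin R ({h} : Set F)) (G : Set F))
    (hfrac : ∀ x : F, ∃ a ∈ B₁, ∃ b ∈ B₁, b ≠ 0 ∧ x * b = a)
    (u : F) (hu : (algebraMap R F π)⁻¹ * (u - 1) ∈ V)
    (hplace : ∀ P : Place K F, (m : ℤ) ∣ P.ord u) :
    ∃ f₀ : F, ∃ c : R, f₀ ≠ 0 ∧ (algebraMap R F π)⁻¹ * (f₀ - 1) ∈ V ∧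
      f₀ ^ m * u = algebraMap R F c := by
  have hπ0 : algebraMap R F π ≠ 0 := by
    rw [IsScalarTower.algebraMap_apply R K F]
    intro h0
    have h1 : algebraMap R K π = 0 := (map_eq_zero (algebraMap K F)).mp h0
    exact hπ.ne_zero ((map_eq_zero_iff _ (IsFractionRing.injective R K)).mp h1)
  obtain ⟨hu0, -, -⟩ := lp7_unit_of_one_add _ hπ0 V hπV hmax u hu
  obtain ⟨f₀, hf1, hf2, hfV⟩ := lp7_tc_main π m hm0 hm V hRV hπ0 hπV hmax B₁ B₂ B₁₂ h112 h212 h12V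
    hsat₁ hsat₂ hsat₁₂ hroot₁ hroot₂ u hu
    (lp7_hord_of_place_dvr (K := K) π hπ u hu0 m hplace) h hh0 hh₁ hh₂ hloc₁ hloc₂ hfin hfrac
  obtain ⟨c, hc⟩ := hcap _ hf1 hf2
  obtain ⟨hf0, -, -⟩ := lp7_unit_of_one_add _ hπ0 V hπV hmax f₀ hfV
  exact ⟨f₀, c, hf0, hfV, hc⟩

end Fermat.Agent.S18
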