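import Fermat.Agent.S24.AsmBridgeB
import Fermat.Agent.S24.AsmDegree
import Fermat.Agent.S24.ModData
import Fermat.Agent.S24.CosetGlue
import Fermat.Agent.S24.Counting
import Fermat.Prelude.Def_ModularCurve_X0ModL

/-!
S18 support (helper38): **descent of an `m`-th root from level `N'` to level `N` by the norm**.

If `N ∣ N'`, `u ∈ F(N) = ℚ̄(j(q^d) : d ∣ N)` is an `m`-th power in `F(N')` and
`d = [F(N') : F(N)] = ψ(N') / ψ(N)` is prime to `m`, then `u` is an `m`-th power in `F(N)`:
`Norm(v)^m = u^d`, and Bezout.  No valuation theory is needed.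

* `nd38_root_of_coprime` : the abstract norm step;
* `nd38_bar_le` : `F(N) ≤ F(N')` for `N ∣ N'` (also `nd38_fullC_le` in every characteristic);
* `nd38_relfinrank` : `ψ(N) * [F(N') : F(N)] = ψ(N')`;
* `nd38_descent` : the descent of the `m`-th root;
* `nd38_restrict` : restriction of a place along an algebraic extension, `P.ord = e * Q.ord`;
* `nd38_ord_dvd` : divisibility of all orders by `m` goes up from `F(N)` to `F(N')`;
* `nd38_primary` : reduction of a torsion statement to prime-power torsion;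
* `nd38_aux_level` : for primes `p ≠ ℓ` there is `p₀ ∈ {2, 3}`, `p₀ ≠ ℓ`, with
  `ψ(lcm(N, p₀)) / ψ(N)` prime to `p`.
-/

set_option autoImplicit false

open ModularCurve AlgebraicCurve MatrixGroups IntermediateField

namespace Fermat.Agent.S18

open Fermat.Agent.S24

section NormStep

/-- **Norm trick.** If `u` becomes an `m`-th power in a finite extension whose degree is prime
to `m`, then `u` is an `m`-th power. -/
theorem nd38_root_of_coprime {B E : Type*} [Field B] [Field E] [Algebra B E] (m : ℕ) (u : B)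
    (v : E) (hv : v ^ m = algebraMap B E u) (hcop : Nat.Coprime (Module.finrank B E) m) :
    ∃ t : B, t ^ m = u := by
  rcases Nat.eq_zero_or_pos m with rfl | hm
  · refine ⟨1, ?_⟩
    rw [pow_zero] at hv ⊢
    exact (algebraMap B E).injective (by rw [map_one]; exact hv)
  rcases eq_or_ne u 0 with rfl | hu
  · exact ⟨0, zero_pow hm.ne'⟩
  set d := Module.finrank B E with hd
  have hn : (Algebra.norm B v) ^ m = u ^ d := by
    rw [← map_pow, hv, Algebra.norm_algebraMap]
  have hn0 : Algebra.norm B v ≠ 0 := by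
    intro h0
    rw [h0, zero_pow hm.ne'] at hn
    exact pow_ne_zero d hu hn.symm
  have hbez : (d : ℤ) * Nat.gcdA d m + (m : ℤ) * Nat.gcdB d m = 1 := by
    have := Nat.gcd_eq_gcd_ab d m
    rw [Nat.Coprime] at hcop
    rw [hcop] at this
    exact_mod_cast this.symm
  refine ⟨(Algebra.norm B v) ^ (Nat.gcdA d m) * u ^ (Nat.gcdB d m), ?_⟩
  rw [mul_pow, ← zpow_natCast, ← zpow_natCast, ← zpow_mul, ← zpow_mul, mul_comm (Nat.gcdA d m),
    zpow_mul, zpow_natCast, hn, ← zpow_natCast, ← zpow_mul, ← zpow_add₀ hu,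
    mul_comm (Nat.gcdB d m), hbez, zpow_one]

end NormStep

section Inclusions

/-- `F(N)_L ≤ F(N')_L` for `N ∣ N'`. -/
theorem nd38_full_le {N N' : ℕ} (h : N ∣ N') :
    modularFunctionFieldFull N ≤ modularFunctionFieldFull N' := by
  apply IntermediateField.adjoin.mono
  rintro x ⟨d, hd, hdN, rfl⟩
  exact ⟨d, hd, hdN.trans h, rfl⟩

theorem nd38_baseChange_le (L : Type*) [Field L] [Algebra ℚ L] {N N' : ℕ} (h : N ∣ N') :
    laurentBaseChange L (modularFunctionFieldFull N) ≤
      laurentBaseChange L (modularFunctionFieldFull N') := by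
  apply IntermediateField.adjoin.mono
  exact Set.image_mono (nd38_full_le h)

/-- `F(N)_ℚ̄ ≤ F(N')_ℚ̄` for `N ∣ N'`. -/
theorem nd38_bar_le {N N' : ℕ} (h : N ∣ N') :
    modularFunctionFieldBar N ≤ modularFunctionFieldBar N' :=
  nd38_baseChange_le _ h

/-- The same in every characteristic. -/
theorem nd38_fullC_le (k : Type*) [Field k] {N N' : ℕ} (h : N ∣ N') :
    modularFunctionFieldFullC k N ≤ modularFunctionFieldFullC k N' := by
  apply IntermediateField.adjoin.mono
  rintro x ⟨d, hd, hdN, rfl⟩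
  exact ⟨d, hd, hdN.trans h, rfl⟩

end Inclusions

section Degree

/-- `[F(N)_ℚ̄ : ℚ̄(j)] = ψ(N)`, as a relative degree inside `ℚ̄((q))`. -/
theorem nd38_relfinrank_j (N : ℕ) [NeZero N] :
    (Kbar⟮JJ 1⟯).relfinrank (modularFunctionFieldBar N) = dedekindPsi N := by
  obtain ⟨D⟩ := wpA_nonempty_modularData N
  obtain ⟨ι, hι, hΓ⟩ := asmAb_exists_iota N D
  set x : ↥(modularFunctionFieldBar N) := ⟨JJ 1, asmAb_JJ_mem N 1 (one_dvd N)⟩ with hx
  have h1 := (asmA_finrank N D ι x ⟨JJ N, asmAb_JJ_mem N N dvd_rfl⟩ (hι 1 (one_dvd N))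
    (hι N dvd_rfl) hΓ).2
  rw [wp5_card_cosets] at h1
  have hcomap : (Kbar⟮JJ 1⟯).comap (modularFunctionFieldBar N).val = Kbar⟮x⟯ := by
    have hmap : (Kbar⟮x⟯).map (modularFunctionFieldBar N).val = Kbar⟮JJ 1⟯ := by
      rw [IntermediateField.adjoin_map, Set.image_singleton]
      rfl
    rw [← hmap]
    ext y
    change (modularFunctionFieldBar N).val y ∈
      (Kbar⟮x⟯).map (modularFunctionFieldBar N).val ↔ y ∈ Kbar⟮x⟯
    rw [IntermediateField.mem_map]
    constructor
    · rintro ⟨z, hz, hzy⟩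
      have : z = y := (modularFunctionFieldBar N).val.injective hzy
      rw [← this]
      exact hz
    · intro hy
      exact ⟨y, hy, rfl⟩
  have h2 := IntermediateField.finrank_comap (A := Kbar⟮JJ 1⟯) (modularFunctionFieldBar N).val
  rw [hcomap, IntermediateField.fieldRange_val] at h2
  rw [← h2, h1]

theorem nd38_j_le (N : ℕ) [NeZero N] : Kbar⟮JJ 1⟯ ≤ modularFunctionFieldBar N := by
  rw [IntermediateField.adjoin_simple_le_iff]
  exact asmAb_JJ_mem N 1 (one_dvd N)

theorem nd38_psi_pos (N : ℕ) [NeZero N] : 0 < dedekindPsi N := by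
  rw [← wp5_card_cosets]
  have := wp5_finite_cosets N
  exact Nat.card_pos

/-- `ψ(N) * [F(N') : F(N)] = ψ(N')` for `N ∣ N'`. -/
theorem nd38_relfinrank {N N' : ℕ} [NeZero N] [NeZero N'] (h : N ∣ N') :
    dedekindPsi N * (modularFunctionFieldBar N).relfinrank (modularFunctionFieldBar N') =
      dedekindPsi N' := by
  rw [← nd38_relfinrank_j N, ← nd38_relfinrank_j N']
  exact IntermediateField.relfinrank_mul_relfinrank (nd38_j_le N) (nd38_bar_le h)

theorem nd38_relfinrank_eq {N N' : ℕ} [NeZero N] [NeZero N'] (h : N ∣ N') :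
    (modularFunctionFieldBar N).relfinrank (modularFunctionFieldBar N') =
      dedekindPsi N' / dedekindPsi N := by
  rw [← nd38_relfinrank h, Nat.mul_div_cancel_left _ (nd38_psi_pos N)]

theorem nd38_relfinrank_pos {N N' : ℕ} [NeZero N] [NeZero N'] (h : N ∣ N') :
    0 < (modularFunctionFieldBar N).relfinrank (modularFunctionFieldBar N') := by
  have h1 := nd38_relfinrank h
  have h2 := nd38_psi_pos N'
  rcases Nat.eq_zero_or_pos
    ((modularFunctionFieldBar N).relfinrank (modularFunctionFieldBar N')) with h0 | h0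
  · rw [h0, mul_zero] at h1
    omega
  · exact h0

end Degree

section Descent

/-- **Descent of an `m`-th root (abstract form).**  `B ≤ C` intermediate fields, `u ∈ B` an
`m`-th power in `C`, `[C : B]` prime to `m` ⟹ `u` is an `m`-th power in `B`. -/
theorem nd38_descent_abs {K Ω : Type*} [Field K] [Field Ω] [Algebra K Ω]
    {B C : IntermediateField K Ω} (hBC : B ≤ C) (m : ℕ) (hcop : Nat.Coprime (B.relfinrank C) m)
    (u v : Ω) (hu : u ∈ B) (hv : v ∈ C) (hvu : v ^ m = u) : ∃ t ∈ B, t ^ m = u := by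
  rw [IntermediateField.relfinrank_eq_finrank_of_le hBC] at hcop
  obtain ⟨t, ht⟩ := nd38_root_of_coprime (B := ↥B) (E := ↥(IntermediateField.extendScalars hBC)) m
    ⟨u, hu⟩ ⟨v, (IntermediateField.mem_extendScalars hBC).mpr hv⟩ (Subtype.ext hvu) hcop
  exact ⟨t, t.2, congrArg Subtype.val ht⟩

/-- **Descent of an `m`-th root from level `N'` to level `N`** when `ψ(N') / ψ(N)` is prime
to `m`. -/
theorem nd38_descent {N N' : ℕ} [NeZero N] [NeZero N'] (h : N ∣ N') (m : ℕ)
    (hcop : Nat.Coprime (dedekindPsi N' / dedekindPsi N) m) (u v : LaurentSeries Kbar)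
    (hu : u ∈ modularFunctionFieldBar N) (hv : v ∈ modularFunctionFieldBar N')
    (hvu : v ^ m = u) : ∃ t ∈ modularFunctionFieldBar N, t ^ m = u := by
  rw [← nd38_relfinrank_eq h] at hcop
  exact nd38_descent_abs (nd38_bar_le h) m hcop u v hu hv hvu

end Descent

section Restrict

variable {K : Type*} [Field K]

/-- The order function of a place, as an `OrdFn`. -/
noncomputable def nd38_ordFn {F : Type*} [Field F] [Algebra K F] (P : Place K F) : OrdFn K F where
  ord := P.ord
  ord_mul _ _ hf hg := P.ord_mul hf hg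
  ord_add f g hf hg hfg := wp1_ord_add P f g hfg hf hg
  ord_const c _ := wp1_ord_algebraMap P c

/-- **Restriction of a place** along an algebra embedding `σ : F → F'` over which `F'` is
integral: there are a place `Q` of `F` and `e ≥ 1` with `P.ord (σ f) = e * Q.ord f`. -/
theorem nd38_restrict {F F' : Type*} [Field F] [Field F'] [Algebra K F] [Algebra K F']
    (σ : F →ₐ[K] F')
    (halg : ∀ y : F', ∃ p : Polynomial F, p.Monic ∧ Polynomial.eval₂ (σ : F →+* F') y p = 0)
    (P : Place K F') :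
    ∃ (Q : Place K F) (e : ℤ), 0 < e ∧ ∀ f : F, P.ord (σ f) = e * Q.ord f := by
  have hnt : ∃ y₀ : F, y₀ ≠ 0 ∧ 0 < (wp3_comap (nd38_ordFn P) σ).ord y₀ := by
    by_contra hcon
    push Not at hcon
    have hmem : ∀ f : F, σ f ∈ P.toValuationSubring := by
      intro f
      rw [wp1_mem_iff_ord_nonneg]
      rcases eq_or_ne f 0 with rfl | hf
      · simp
      have h1 := hcon f⁻¹ (inv_ne_zero hf)
      have h2 : (wp3_comap (nd38_ordFn P) σ).ord f⁻¹ = -P.ord (σ f) := by
        show P.ord (σ f⁻¹) = _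
        rw [map_inv₀, P.ord_inv]
      rw [h2] at h1
      linarith
    apply P.ne_top'
    refine SetLike.ext fun y => ⟨fun _ => ValuationSubring.mem_top y, fun _ => ?_⟩
    obtain ⟨p, hp, hpy⟩ := halg y
    let φ : F →+* P.toValuationSubring := (σ : F →+* F').codRestrict P.toValuationSubring.toSubring hmem
    have hint : IsIntegral P.toValuationSubring y := by
      refine ⟨p.map φ, hp.map φ, ?_⟩
      rw [Polynomial.eval₂_map]
      exact hpy
    obtain ⟨z, hz⟩ := IsIntegrallyClosed.algebraMap_eq_of_integral hint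
    rw [← hz]
    exact z.2
  obtain ⟨e, ϖ, he, -, -, hmul⟩ := wp3_ord_eq_mul (wp3_comap (nd38_ordFn P) σ) hnt
  refine ⟨wp3_place (wp3_comap (nd38_ordFn P) σ) hnt, e, he, fun f => ?_⟩
  rcases eq_or_ne f 0 with rfl | hf
  · simp
  exact hmul f hf

/-- Restriction of places between intermediate fields `B ≤ C` with `C` integral over `B`. -/
theorem nd38_restrict_le {Ω : Type*} [Field Ω] [Algebra K Ω] {B C : IntermediateField K Ω}
    (hBC : B ≤ C) (hint : ∀ y ∈ C, IsIntegral ↥B y) (P : Place K ↥C) :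
    ∃ (Q : Place K ↥B) (e : ℤ), 0 < e ∧
      ∀ f : ↥B, P.ord (IntermediateField.inclusion hBC f) = e * Q.ord f := by
  refine nd38_restrict (IntermediateField.inclusion hBC) ?_ P
  intro y
  obtain ⟨p, hp, hpy⟩ := hint y y.2
  refine ⟨p, hp, ?_⟩
  apply C.val.injective
  rw [map_zero, ← hpy, Polynomial.hom_eval₂]
  rfl

/-- Divisibility of all orders goes up along an integral extension `B ≤ C`. -/
theorem nd38_ord_dvd_le {Ω : Type*} [Field Ω] [Algebra K Ω] {B C : IntermediateField K Ω}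
    (hBC : B ≤ C) (hint : ∀ y ∈ C, IsIntegral ↥B y) (m : ℤ) (u : ↥B)
    (hu : ∀ Q : Place K ↥B, m ∣ Q.ord u) (P : Place K ↥C) :
    m ∣ P.ord (IntermediateField.inclusion hBC u) := by
  obtain ⟨Q, e, -, hQ⟩ := nd38_restrict_le hBC hint P
  rw [hQ]
  exact Dvd.dvd.mul_left (hu Q) e

end Restrict

section RestrictModular

theorem nd38_isIntegral {N N' : ℕ} [NeZero N] [NeZero N'] (h : N ∣ N') :
    ∀ y ∈ modularFunctionFieldBar N', IsIntegral ↥(modularFunctionFieldBar N) y := by
  intro y hy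
  have hpos := nd38_relfinrank_pos h
  rw [IntermediateField.relfinrank_eq_finrank_of_le (nd38_bar_le h)] at hpos
  have : Module.Finite ↥(modularFunctionFieldBar N)
      ↥(IntermediateField.extendScalars (nd38_bar_le h)) := Module.finite_of_finrank_pos hpos
  have hy' : IsIntegral ↥(modularFunctionFieldBar N)
      (⟨y, (IntermediateField.mem_extendScalars (nd38_bar_le h)).mpr hy⟩ :
        ↥(IntermediateField.extendScalars (nd38_bar_le h))) :=
    Algebra.IsIntegral.isIntegral _
  exact hy'.map (IntermediateField.extendScalars (nd38_bar_le h)).val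

/-- Every place of `F(N')_ℚ̄` restricts to a place of `F(N)_ℚ̄`, with an index `e ≥ 1`. -/
theorem nd38_restrict_modular {N N' : ℕ} [NeZero N] [NeZero N'] (h : N ∣ N')
    (P : Place Kbar ↥(modularFunctionFieldBar N')) :
    ∃ (Q : Place Kbar ↥(modularFunctionFieldBar N)) (e : ℤ), 0 < e ∧
      ∀ f : ↥(modularFunctionFieldBar N),
        P.ord (IntermediateField.inclusion (nd38_bar_le h) f) = e * Q.ord f :=
  nd38_restrict_le (nd38_bar_le h) (nd38_isIntegral h) P

/-- If `m` divides `ord_Q(u)` at every place of `F(N)`, it divides `ord_P(u)` at every place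
of `F(N')`. -/
theorem nd38_ord_dvd {N N' : ℕ} [NeZero N] [NeZero N'] (h : N ∣ N') (m : ℤ)
    (u : ↥(modularFunctionFieldBar N))
    (hu : ∀ Q : Place Kbar ↥(modularFunctionFieldBar N), m ∣ Q.ord u)
    (P : Place Kbar ↥(modularFunctionFieldBar N')) :
    m ∣ P.ord (IntermediateField.inclusion (nd38_bar_le h) u) :=
  nd38_ord_dvd_le (nd38_bar_le h) (nd38_isIntegral h) m u hu P

end RestrictModular

section Primary

/-- **Reduction to prime-power torsion.**  If a homomorphism `f` is injective on the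
`p^a`-torsion for every prime `p ≠ ℓ`, it is injective on the `m`-torsion for every `m` prime
to `ℓ`. -/
theorem nd38_primary {G H : Type*} [AddCommGroup G] [AddCommGroup H] (f : G →+ H) (ℓ : ℕ)
    (hprim : ∀ p a : ℕ, p.Prime → p ≠ ℓ → ∀ z : G, (p ^ a) • z = 0 → f z = 0 → z = 0) :
    ∀ m : ℕ, ¬ ℓ ∣ m → ∀ z : G, m • z = 0 → f z = 0 → z = 0 := by
  intro m
  induction m using Nat.recOnPosPrimePosCoprime with
  | zero => intro h; exact absurd (dvd_zero ℓ) h
  | one => intro _ z hz _; simpa using hz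
  | prime_pow p n hp hn =>
    intro hℓ z hz hfz
    refine hprim p n hp ?_ z hz hfz
    rintro rfl
    exact hℓ (dvd_pow_self p hn.ne')
  | coprime a b ha hb hab iha ihb =>
    intro hℓ z hz hfz
    have hℓa : ¬ ℓ ∣ a := fun h => hℓ (Dvd.dvd.mul_right h b)
    have hℓb : ¬ ℓ ∣ b := fun h => hℓ (Dvd.dvd.mul_left h a)
    have hbez : (a : ℤ) * Nat.gcdA a b + (b : ℤ) * Nat.gcdB a b = 1 := by
      have := Nat.gcd_eq_gcd_ab a b
      rw [Nat.Coprime] at hab
      rw [hab] at this
      exact_mod_cast this.symm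
    have hza : (a : ℤ) • z = 0 := by
      have h1 : b • (a • z) = 0 := by rw [← mul_smul, mul_comm]; exact hz
      have h2 : f (a • z) = 0 := by rw [map_nsmul, hfz, smul_zero]
      have := ihb hℓb (a • z) h1 h2
      rw [natCast_zsmul]
      exact this
    have hzb : (b : ℤ) • z = 0 := by
      have h1 : a • (b • z) = 0 := by rw [← mul_smul]; exact hz
      have h2 : f (b • z) = 0 := by rw [map_nsmul, hfz, smul_zero]
      have := iha hℓa (b • z) h1 h2
      rw [natCast_zsmul]
      exact this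
    calc z = (1 : ℤ) • z := (one_zsmul z).symm
      _ = ((a : ℤ) * Nat.gcdA a b + (b : ℤ) * Nat.gcdB a b) • z := by rw [hbez]
      _ = Nat.gcdA a b • ((a : ℤ) • z) + Nat.gcdB a b • ((b : ℤ) • z) := by
          rw [add_smul, mul_comm (a : ℤ), mul_comm (b : ℤ), mul_smul, mul_smul]
      _ = 0 := by rw [hza, hzb, smul_zero, smul_zero, add_zero]

end Primary

section AuxLevel

theorem nd38_psi_lcm (N : ℕ) [NeZero N] (p₀ : ℕ) (hp₀ : p₀.Prime) :
    dedekindPsi (Nat.lcm N p₀) / dedekindPsi N = 1 ∨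
      dedekindPsi (Nat.lcm N p₀) / dedekindPsi N = p₀ + 1 := by
  by_cases hdiv : p₀ ∣ N
  · left
    rw [Nat.lcm_eq_left hdiv, Nat.div_self (nd38_psi_pos N)]
  · right
    have hcop : Nat.Coprime N p₀ := ((Nat.Prime.coprime_iff_not_dvd hp₀).mpr hdiv).symm
    rw [hcop.lcm_eq_mul, Fermat.Agent.Lib.G0C.dedekindPsi_mul hcop,
      Nat.mul_div_cancel_left _ (nd38_psi_pos N)]
    have := Fermat.Agent.Lib.G0C.dedekindPsi_prime_pow hp₀ (e := 1) one_pos
    simpa using this

/-- **Choice of the auxiliary level.**  For primes `p ≠ ℓ` there is `p₀ ∈ {2, 3}`, `p₀ ≠ ℓ`,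
such that `[F(lcm(N, p₀)) : F(N)] = ψ(lcm(N, p₀)) / ψ(N)` is prime to every power of `p`. -/
theorem nd38_aux_level (N : ℕ) [NeZero N] (ℓ p : ℕ) (hp : p.Prime) (hne : p ≠ ℓ) :
    ∃ p₀ : ℕ, (p₀ = 2 ∨ p₀ = 3) ∧ p₀ ≠ ℓ ∧
      ∀ a : ℕ, Nat.Coprime (dedekindPsi (Nat.lcm N p₀) / dedekindPsi N) (p ^ a) := by
  have key : ∀ p₀ : ℕ, p₀.Prime → Nat.Coprime (p₀ + 1) p →
      ∀ a : ℕ, Nat.Coprime (dedekindPsi (Nat.lcm N p₀) / dedekindPsi N) (p ^ a) := by
    intro p₀ hp₀ hc a
    rcases nd38_psi_lcm N p₀ hp₀ with h | h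
    · rw [h]
      exact Nat.coprime_one_left _
    · rw [h]
      exact Nat.Coprime.pow_right a hc
  have h3 : Nat.Coprime (2 + 1) p ↔ p ≠ 3 := by
    rw [show 2 + 1 = 3 from rfl, Nat.coprime_primes Nat.prime_three hp]
    exact ⟨fun h => Ne.symm h, fun h => Ne.symm h⟩
  have h4 : Nat.Coprime (3 + 1) p ↔ p ≠ 2 := by
    rw [show 3 + 1 = 2 ^ 2 from rfl]
    constructor
    · rintro h rfl
      norm_num at h
    · intro h
      exact Nat.Coprime.pow_left 2 ((Nat.coprime_primes Nat.prime_two hp).mpr (Ne.symm h))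
  by_cases hp2 : p = 2
  · -- `p = 2`, so `ℓ ≠ 2`: use `p₀ = 2`
    refine ⟨2, Or.inl rfl, fun h => hne (hp2.trans h), key 2 Nat.prime_two (h3.mpr ?_)⟩
    omega
  by_cases hp3 : p = 3
  · -- `p = 3`, so `ℓ ≠ 3`: use `p₀ = 3`
    exact ⟨3, Or.inr rfl, fun h => hne (hp3.trans h), key 3 Nat.prime_three (h4.mpr hp2)⟩
  by_cases hℓ : ℓ = 2
  · exact ⟨3, Or.inr rfl, by omega, key 3 Nat.prime_three (h4.mpr hp2)⟩
  · exact ⟨2, Or.inl rfl, fun h => hℓ h.symm, key 2 Nat.prime_two (h3.mpr hp3)⟩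

end AuxLevel

end Fermat.Agent.S18
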