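import Fermat.Agent.S18.NormDescent
import Fermat.Prelude.Def_ModularCurve_ReductionModL

/-!
S18 support (helper38): the norm descent `N' → N` (`NormDescent.lean`) in **consumer form**.

`nd38_Star A N m` is the function-field core of S18 at level `N` ("statement (★★)"):
for `A`-integral `q`-series `a, b` with `a_L, b_L ∈ F(N)_ℚ̄`, equal nonzero reductions and
`m ∣ ord_P(a_L / b_L)` at every place `P`, the quotient `a_L / b_L` is an `m`-th power in `F(N)_ℚ̄`.

* `nd38_star_descent` : `nd38_Star A N' m → nd38_Star A N m` for `N ∣ N'`, `ψ(N')/ψ(N)` prime to `m`;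
* `nd38_starK_descent` : the same for the variant `nd38_StarK` which also assumes that the
  reductions lie in `F(N)_k`;
* `nd38_star_of_aux` : with the auxiliary prime of `nd38_aux_level`.
-/

set_option autoImplicit false
set_option synthInstance.maxHeartbeats 400000

open ModularCurve AlgebraicCurve IntermediateField

namespace Fermat.Agent.S18

open Fermat.Agent.S24

/-- Statement (★★) at level `N` for the exponent `m`. -/
def nd38_Star (A : ValuationSubring (AlgebraicClosure ℚ)) (N m : ℕ) : Prop :=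
  ∀ (a b : LaurentSeries A)
    (ha : coeffMap A.subtype a ∈ modularFunctionFieldBar N)
    (hb : coeffMap A.subtype b ∈ modularFunctionFieldBar N),
    coeffMap (IsLocalRing.residue A) a = coeffMap (IsLocalRing.residue A) b →
    coeffMap (IsLocalRing.residue A) a ≠ 0 →
    (∀ P : Place (AlgebraicClosure ℚ) (modularFunctionFieldBar N),
      (m : ℤ) ∣ P.ord ((⟨_, ha⟩ : modularFunctionFieldBar N) / ⟨_, hb⟩)) →
    ∃ v : modularFunctionFieldBar N, v ^ m = (⟨_, ha⟩ : modularFunctionFieldBar N) / ⟨_, hb⟩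

/-- Statement (★★) at level `N` for the exponent `m`, with the additional hypothesis that the
reductions lie in the characteristic-`ℓ` function field of level `N`. -/
def nd38_StarK (A : ValuationSubring (AlgebraicClosure ℚ)) (N m : ℕ) : Prop :=
  ∀ (a b : LaurentSeries A)
    (ha : coeffMap A.subtype a ∈ modularFunctionFieldBar N)
    (hb : coeffMap A.subtype b ∈ modularFunctionFieldBar N),
    coeffMap (IsLocalRing.residue A) a ∈
      modularFunctionFieldFullC (IsLocalRing.ResidueField A) N →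
    coeffMap (IsLocalRing.residue A) b ∈
      modularFunctionFieldFullC (IsLocalRing.ResidueField A) N →
    coeffMap (IsLocalRing.residue A) a = coeffMap (IsLocalRing.residue A) b →
    coeffMap (IsLocalRing.residue A) a ≠ 0 →
    (∀ P : Place (AlgebraicClosure ℚ) (modularFunctionFieldBar N),
      (m : ℤ) ∣ P.ord ((⟨_, ha⟩ : modularFunctionFieldBar N) / ⟨_, hb⟩)) →
    ∃ v : modularFunctionFieldBar N, v ^ m = (⟨_, ha⟩ : modularFunctionFieldBar N) / ⟨_, hb⟩

theorem nd38_starK_of_star {A : ValuationSubring (AlgebraicClosure ℚ)} {N m : ℕ}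
    (h : nd38_Star A N m) : nd38_StarK A N m :=
  fun a b ha hb _ _ hab ha0 hP => h a b ha hb hab ha0 hP

/-- The core of the descent, for one element. -/
theorem nd38_descent_elt {N N' : ℕ} [NeZero N] [NeZero N'] (h : N ∣ N') (m : ℕ)
    (hcop : Nat.Coprime (dedekindPsi N' / dedekindPsi N) m)
    (x y : LaurentSeries (AlgebraicClosure ℚ))
    (hx : x ∈ modularFunctionFieldBar N) (hy : y ∈ modularFunctionFieldBar N)
    (hroot : ∃ v' : modularFunctionFieldBar N',
      v' ^ m = (⟨x, nd38_bar_le h hx⟩ : modularFunctionFieldBar N') / ⟨y, nd38_bar_le h hy⟩) :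
    ∃ v : modularFunctionFieldBar N, v ^ m = (⟨x, hx⟩ : modularFunctionFieldBar N) / ⟨y, hy⟩ := by
  obtain ⟨v', hv'⟩ := hroot
  have h1 : (v' : LaurentSeries (AlgebraicClosure ℚ)) ^ m = x / y := by
    have := congrArg Subtype.val hv'
    rw [IntermediateField.coe_div] at this
    rw [← this]
    exact (SubmonoidClass.coe_pow v' m).symm
  have hu : x / y ∈ modularFunctionFieldBar N := div_mem hx hy
  obtain ⟨t, ht, htm⟩ := nd38_descent h m hcop (x / y) v' hu v'.2 h1
  refine ⟨⟨t, ht⟩, Subtype.ext ?_⟩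
  rw [IntermediateField.coe_div]
  exact (SubmonoidClass.coe_pow (⟨t, ht⟩ : modularFunctionFieldBar N) m).trans htm

theorem nd38_ord_dvd_div {N N' : ℕ} [NeZero N] [NeZero N'] (h : N ∣ N') (m : ℤ)
    (x y : LaurentSeries (AlgebraicClosure ℚ))
    (hx : x ∈ modularFunctionFieldBar N) (hy : y ∈ modularFunctionFieldBar N)
    (hP : ∀ P : Place (AlgebraicClosure ℚ) (modularFunctionFieldBar N),
      m ∣ P.ord ((⟨x, hx⟩ : modularFunctionFieldBar N) / ⟨y, hy⟩))
    (P' : Place (AlgebraicClosure ℚ) (modularFunctionFieldBar N')) :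
    m ∣ P'.ord ((⟨x, nd38_bar_le h hx⟩ : modularFunctionFieldBar N') / ⟨y, nd38_bar_le h hy⟩) := by
  have h0 := nd38_ord_dvd h m ((⟨x, hx⟩ : modularFunctionFieldBar N) / ⟨y, hy⟩)
  have h1 := h0 hP
  have h2 := h1 P'
  have key : IntermediateField.inclusion (nd38_bar_le h)
      ((⟨x, hx⟩ : modularFunctionFieldBar N) / ⟨y, hy⟩) =
      (⟨x, nd38_bar_le h hx⟩ : modularFunctionFieldBar N') / ⟨y, nd38_bar_le h hy⟩ := by
    apply Subtype.ext
    rw [IntermediateField.coe_div, IntermediateField.coe_inclusion, IntermediateField.coe_div]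
  rw [← key]
  exact h2

/-- **Norm descent of (★★)** from level `N'` to level `N ∣ N'` when `ψ(N') / ψ(N)` is prime
to `m`. -/
theorem nd38_star_descent (A : ValuationSubring (AlgebraicClosure ℚ)) {N N' : ℕ} [NeZero N]
    [NeZero N'] (h : N ∣ N') (m : ℕ) (hcop : Nat.Coprime (dedekindPsi N' / dedekindPsi N) m)
    (hS : nd38_Star A N' m) : nd38_Star A N m := by
  intro a b ha hb hab ha0 hP
  exact nd38_descent_elt h m hcop _ _ ha hb
    (hS a b (nd38_bar_le h ha) (nd38_bar_le h hb) hab ha0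
      (nd38_ord_dvd_div h m _ _ ha hb hP))

/-- The same for the variant with reductions in `F(N)_k`. -/
theorem nd38_starK_descent (A : ValuationSubring (AlgebraicClosure ℚ)) {N N' : ℕ} [NeZero N]
    [NeZero N'] (h : N ∣ N') (m : ℕ) (hcop : Nat.Coprime (dedekindPsi N' / dedekindPsi N) m)
    (hS : nd38_StarK A N' m) : nd38_StarK A N m := by
  intro a b ha hb hak hbk hab ha0 hP
  exact nd38_descent_elt h m hcop _ _ ha hb
    (hS a b (nd38_bar_le h ha) (nd38_bar_le h hb) (nd38_fullC_le _ h hak) (nd38_fullC_le _ h hbk)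
      hab ha0 (nd38_ord_dvd_div h m _ _ ha hb hP))

/-- **Assembly form.**  If for every prime `p ≠ ℓ` and every `p₀ ∈ {2, 3}`, `p₀ ≠ ℓ`, statement
(★★) holds at the auxiliary level `lcm(N, p₀)` for the exponent `p ^ a`, then it holds at level
`N` for all exponents `p ^ a`, `p ≠ ℓ` prime. -/
theorem nd38_star_of_aux (A : ValuationSubring (AlgebraicClosure ℚ)) (N : ℕ) [NeZero N] (ℓ : ℕ)
    (p a : ℕ) (hp : p.Prime) (hne : p ≠ ℓ)
    (hS : ∀ p₀ : ℕ, (p₀ = 2 ∨ p₀ = 3) → p₀ ≠ ℓ → nd38_Star A (Nat.lcm N p₀) (p ^ a)) :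
    nd38_Star A N (p ^ a) := by
  obtain ⟨p₀, hp₀, hp₀ℓ, hcop⟩ := nd38_aux_level N ℓ p hp hne
  have hp₀0 : p₀ ≠ 0 := by rcases hp₀ with rfl | rfl <;> norm_num
  have : NeZero (Nat.lcm N p₀) := ⟨Nat.lcm_ne_zero (NeZero.ne N) hp₀0⟩
  exact nd38_star_descent A (Nat.dvd_lcm_left N p₀) (p ^ a) (hcop a) (hS p₀ hp₀ hp₀ℓ)

end Fermat.Agent.S18
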