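import Mathlib
import Fermat.Agent.S18.StarTwin55
import Fermat.Agent.S18.Sat23
import Fermat.Agent.S18.Chart85
import Fermat.Agent.S18.Haupt2R_34
import Fermat.Agent.S18.Haupt3Mem_34

/-!
# S18 — the chart package `c1t55_ChartData` from the two Dedekind fibres (twin of B5-pack)

For a discrete valuation ring `R` with fraction field `K` of characteristic `0` and uniformiser
`π`, and `F = F(M)_K = modularFunctionFieldFullC K M`, this file assembles the LITERAL Prop
`c1t55_ChartData R K M π` (StarTwin55) from

* the Gauss valuation ring `gv85_V` (GaussVal85) with `sat23_HF`,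
* the three saturation statements (Sat23),
* noetherianity / finiteness / fraction field of the charts (Chart85),
* and, as the ONLY remaining hypotheses, the two Dedekind special fibres
  `IsDedekindDomain (pk15_chart R {h} ⧸ (π))`, `IsDedekindDomain (pk15_chart R {h⁻¹} ⧸ (π))`.

`pk15_chartData_gen` is the version for an arbitrary Hauptmodul-like `h` (integral expansions of
`h`, `h⁻¹`, transcendence and SAT of the big chart as hypotheses); `pk15_chartData_level2` and
`pk15_chartData_level3` are the two concrete levels, for ANY term `h : F(M)_K` whose `q`-series is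
`h34_h2R K` resp. `h34_h3R K`.
-/

open ModularCurve IntermediateField

namespace Fermat.Agent.S18

section gen

variable (R K : Type) [CommRing R] [IsDomain R] [IsDiscreteValuationRing R] [Field K]
  [Algebra R K] [IsFractionRing R K] (M : ℕ)

/-- the residue map of a discrete valuation ring kills exactly the multiples of a uniformiser. -/
theorem pk15_res_iff (π : R) (hπ : Irreducible π) (r : R) :
    IsLocalRing.residue R r = 0 ↔ π ∣ r := by
  rw [IsLocalRing.residue_eq_zero_iff, hπ.maximalIdeal_eq, Ideal.mem_span_singleton]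

variable [Algebra R ↥(modularFunctionFieldFullC K M)]
  [IsScalarTower R K ↥(modularFunctionFieldFullC K M)]

omit [IsDomain R] [IsDiscreteValuationRing R] [IsFractionRing R K] in
/-- the `q`-series of a constant of `R`. -/
theorem pk15_coe_algebraMap (r : R) :
    ((algebraMap R ↥(modularFunctionFieldFullC K M) r : ↥(modularFunctionFieldFullC K M)) :
      LaurentSeries K) = coeffMap (algebraMap R K) (HahnSeries.C r) := by
  rw [IsScalarTower.algebraMap_apply R K ↥(modularFunctionFieldFullC K M), gv85_coe_algebraMap,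
    gv85_coeffMap_C]

variable [CharZero K] [NeZero M]

/-- **The chart package from the two Dedekind fibres**, for a general `h`. -/
theorem pk15_chartData_gen (π : R) (hπ : Irreducible π)
    (h : ↥(modularFunctionFieldFullC K M)) (yh yh' : LaurentSeries R)
    (hyh : (h : LaurentSeries K) = coeffMap (algebraMap R K) yh)
    (hyh' : ((h⁻¹ : ↥(modularFunctionFieldFullC K M)) : LaurentSeries K) =
      coeffMap (algebraMap R K) yh')
    (hh : Transcendental K h)
    (hsat₁₂ : ∀ hF : gv85_HF (IsLocalRing.residue R) (modularFunctionFieldFullC K M),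
      ∀ x ∈ pk15_chart R ({h, h⁻¹} : Set ↥(modularFunctionFieldFullC K M)),
        (algebraMap R ↥(modularFunctionFieldFullC K M) π)⁻¹ * x ∈
          gv85_V (IsLocalRing.residue R) (modularFunctionFieldFullC K M) hF →
        (algebraMap R ↥(modularFunctionFieldFullC K M) π)⁻¹ * x ∈
          pk15_chart R ({h, h⁻¹} : Set ↥(modularFunctionFieldFullC K M)))
    (hD₁ : IsDedekindDomain (pk15_chart R ({h} : Set ↥(modularFunctionFieldFullC K M)) ⧸
      Ideal.span {algebraMap R (pk15_chart R ({h} : Set ↥(modularFunctionFieldFullC K M))) π}))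
    (hD₂ : IsDedekindDomain (pk15_chart R ({h⁻¹} : Set ↥(modularFunctionFieldFullC K M)) ⧸
      Ideal.span {algebraMap R (pk15_chart R ({h⁻¹} : Set ↥(modularFunctionFieldFullC K M))) π})) :
    c1t55_ChartData R K M π := by
  classical
  have hπp : Prime π := hπ.prime
  have hres := pk15_res_iff R π hπ
  have hF : gv85_HF (IsLocalRing.residue R) (modularFunctionFieldFullC K M) :=
    sat23_HF K (IsLocalRing.residue R) π hres hπ.ne_zero (sat23_hfin π hπp) M
  have hπeq : algebraMap R ↥(modularFunctionFieldFullC K M) π =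
      algebraMap K ↥(modularFunctionFieldFullC K M) (algebraMap R K π) :=
    IsScalarTower.algebraMap_apply R K ↥(modularFunctionFieldFullC K M) π
  have hh0 : h ≠ 0 := cap87_ne_zero h hh
  have hRV : ∀ r : R, algebraMap R ↥(modularFunctionFieldFullC K M) r ∈
      gv85_V (IsLocalRing.residue R) (modularFunctionFieldFullC K M) hF := fun r =>
    gv85_mem_V_of_integral _ _ hF _ (HahnSeries.C r) (pk15_coe_algebraMap R K M r)
  have hπV : (algebraMap R ↥(modularFunctionFieldFullC K M) π)⁻¹ ∉
      gv85_V (IsLocalRing.residue R) (modularFunctionFieldFullC K M) hF := by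
    rw [hπeq]
    exact gv85_pi_inv_not_mem _ π hres hπ.ne_zero _ hF
  have hmax : ∀ x ∈ gv85_V (IsLocalRing.residue R) (modularFunctionFieldFullC K M) hF,
      x⁻¹ ∉ gv85_V (IsLocalRing.residue R) (modularFunctionFieldFullC K M) hF →
      (algebraMap R ↥(modularFunctionFieldFullC K M) π)⁻¹ * x ∈
        gv85_V (IsLocalRing.residue R) (modularFunctionFieldFullC K M) hF := by
    intro x hx hx'
    rw [hπeq]
    exact gv85_hmax _ π hres hπ.ne_zero _ hF x hx hx'
  have hhV : h ∈ gv85_V (IsLocalRing.residue R) (modularFunctionFieldFullC K M) hF :=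
    gv85_mem_V_of_integral _ _ hF h yh hyh
  have hhV' : h⁻¹ ∈ gv85_V (IsLocalRing.residue R) (modularFunctionFieldFullC K M) hF :=
    gv85_mem_V_of_integral _ _ hF h⁻¹ yh' hyh'
  have hs12 := hsat₁₂ hF
  have := hD₁
  have := hD₂
  have hs1 := sat23_sat₁ π _ hRV hπV h hh0 hhV hhV' hs12
  have hs2 := sat23_sat₂ π _ hRV hπV h hh0 hhV hhV' hs12
  -- finiteness
  have : FiniteDimensional K⟮relimc_J K M⟯ ↥(modularFunctionFieldFullC K M) := relimc_finite K M
  have : FiniteDimensional K⟮h⟯ ↥(modularFunctionFieldFullC K M) :=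
    Fermat.Agent.S24.wp1b_finite_of_transcendental (relimc_J K M) h hh
  have hh' : Transcendental K h⁻¹ := fun ha => hh (by simpa using ha.inv)
  have : FiniteDimensional K⟮h⁻¹⟯ ↥(modularFunctionFieldFullC K M) :=
    Fermat.Agent.S24.wp1b_finite_of_transcendental (relimc_J K M) h⁻¹ hh'
  obtain ⟨hn1, hfin, hfrac⟩ := pk85_chart_finite (R := R) (K := K) h hh
  obtain ⟨hn2, -, -⟩ := pk85_chart_finite (R := R) (K := K) h⁻¹ hh'
  refine ⟨h, gv85_V (IsLocalRing.residue R) (modularFunctionFieldFullC K M) hF, hh, hRV, hπV,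
    hmax, hhV, hhV', hs1, hs2, hs12, hn1, hn2, hD₁, hD₂, hfin, hfrac, ?_⟩
  intro x y hxy
  refine ⟨gv85_mem_V_of_integral _ _ hF x y hxy, ?_⟩
  rw [hπeq]
  exact gv85_gauss _ π hres hπ.ne_zero _ hF x y hxy

/-- **The chart package at level 2** (`2 ∣ M`, `2` and `M` units of `R`), for any term `h` of
`F(M)_K` whose `q`-series is the level-2 Hauptmodul `h34_h2R K` (`= h70_h2 K`). -/
theorem pk15_chartData_level2 (π : R) (hπ : Irreducible π) (hu2 : IsUnit (2 : R))
    (hMu : IsUnit (M : R))
    (h : ↥(modularFunctionFieldFullC K M)) (hcoe : (h : LaurentSeries K) = h34_h2R K)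
    (hD₁ : IsDedekindDomain (pk15_chart R ({h} : Set ↥(modularFunctionFieldFullC K M)) ⧸
      Ideal.span {algebraMap R (pk15_chart R ({h} : Set ↥(modularFunctionFieldFullC K M))) π}))
    (hD₂ : IsDedekindDomain (pk15_chart R ({h⁻¹} : Set ↥(modularFunctionFieldFullC K M)) ⧸
      Ideal.span {algebraMap R (pk15_chart R ({h⁻¹} : Set ↥(modularFunctionFieldFullC K M))) π})) :
    c1t55_ChartData R K M π := by
  have hh : Transcendental K h := by
    intro ha
    apply h34_h2R_transcendental K
    rw [← hcoe]
    exact ha.algebraMap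
  have hh0 : h ≠ 0 := cap87_ne_zero h hh
  have hM : ((M : ℕ) : IsLocalRing.ResidueField R) ≠ 0 := by
    have := (hMu.map (IsLocalRing.residue R)).ne_zero
    rwa [map_natCast] at this
  obtain ⟨u, hu⟩ : ∃ u : R, u * 256 = 1 := by
    have h256 : IsUnit ((2 : R) ^ 8) := hu2.pow 8
    obtain ⟨u, hu⟩ := h256.exists_left_inv
    exact ⟨u, by rw [← hu]; norm_num⟩
  have hrel : rm90_j K M * h ^ 2 = (h + 256) ^ 3 := by
    apply Subtype.ext
    have := h34_h2R_j K
    push_cast
    rw [hcoe]
    exact this
  refine pk15_chartData_gen R K M π hπ h (h34_h2R R) (h34_h2Rinv R)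
    (by rw [hcoe, h34_coeffMap_h2R]) ?_ hh ?_ hD₁ hD₂
  · rw [h34_coeffMap_h2Rinv, h34_h2Rinv_eq_inv, ← hcoe]
    rfl
  · intro hF
    exact sat23_level2 K M π hπ.prime (IsLocalRing.ResidueField R) (IsLocalRing.residue R)
      (pk15_res_iff R π hπ) hM hF h hh0 hrel u hu

/-- **The chart package at level 3** (`3 ∣ M`, `3` and `M` units of `R`), for any term `h` of
`F(M)_K` whose `q`-series is the level-3 Hauptmodul `h34_h3R K`. -/
theorem pk15_chartData_level3 (π : R) (hπ : Irreducible π) (hu3 : IsUnit (3 : R))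
    (hMu : IsUnit (M : R))
    (h : ↥(modularFunctionFieldFullC K M)) (hcoe : (h : LaurentSeries K) = h34_h3R K)
    (hD₁ : IsDedekindDomain (pk15_chart R ({h} : Set ↥(modularFunctionFieldFullC K M)) ⧸
      Ideal.span {algebraMap R (pk15_chart R ({h} : Set ↥(modularFunctionFieldFullC K M))) π}))
    (hD₂ : IsDedekindDomain (pk15_chart R ({h⁻¹} : Set ↥(modularFunctionFieldFullC K M)) ⧸
      Ideal.span {algebraMap R (pk15_chart R ({h⁻¹} : Set ↥(modularFunctionFieldFullC K M))) π})) :
    c1t55_ChartData R K M π := by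
  have hh : Transcendental K h := by
    intro ha
    apply h34_h3R_transcendental K
    rw [← hcoe]
    exact ha.algebraMap
  have hh0 : h ≠ 0 := cap87_ne_zero h hh
  have hM : ((M : ℕ) : IsLocalRing.ResidueField R) ≠ 0 := by
    have := (hMu.map (IsLocalRing.residue R)).ne_zero
    rwa [map_natCast] at this
  obtain ⟨u, hu⟩ : ∃ u : R, u * 3 = 1 := hu3.exists_left_inv
  have hrel : rm90_j K M * h ^ 3 = (h + 27) * (h + 243) ^ 3 := by
    apply Subtype.ext
    have := h34_h3R_j K
    push_cast
    rw [hcoe]
    exact this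
  refine pk15_chartData_gen R K M π hπ h (h34_h3R R) (h34_h3Rinv R)
    (by rw [hcoe, h34_coeffMap_h3R]) ?_ hh ?_ hD₁ hD₂
  · rw [h34_coeffMap_h3Rinv, h34_h3Rinv_eq_inv, ← hcoe]
    rfl
  · intro hF
    exact sat23_level3 K M π hπ.prime (IsLocalRing.ResidueField R) (IsLocalRing.residue R)
      (pk15_res_iff R π hπ) hM hF h hh0 hrel u hu

end gen

end Fermat.Agent.S18
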