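import Fermat.Agent.S18.Pack85
import Fermat.Agent.S18.SmoothAsm79

/-!
# S18, row B5-pack (helper85): the chart package, final form

`pk85_chartData`: for a discrete valuation ring `R` with fraction field `K ⊆ ℚ̄` (any field of
characteristic zero with an algebraic embedding into `ℚ̄`), a level `M` which is a unit of `R` and
is divisible by `p₀ ∈ {2, 3}`, and any `R`-algebra structure on `F = F(M)_K` compatible with
`K`, the concrete chart package `c1t55_ChartData R K M π` (StarTwin55.lean) holds.

It combines `pk85_chartData_level2_of` / `pk85_chartData_level3_of` (Pack85.lean: Gauss valuation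
ring, saturation, finiteness) with the Dedekind special fibres `sm79_level2` / `sm79_level3`
(SmoothAsm79.lean, row B5).
-/

set_option autoImplicit false

open ModularCurve

namespace Fermat.Agent.S18

local notation "Q̄" => AlgebraicClosure ℚ

/-- **The chart package at level `M`, `3 ∣ M`.** -/
theorem pk85_chartData_level3 (R K : Type) [CommRing R] [IsDomain R] [IsDiscreteValuationRing R]
    [Field K] [CharZero K] [Algebra R K] [IsFractionRing R K] [Algebra K Q̄]
    [Algebra.IsAlgebraic K Q̄] (M : ℕ) [NeZero M] [Algebra R ↥(modularFunctionFieldFullC K M)]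
    [IsScalarTower R K ↥(modularFunctionFieldFullC K M)] (π : R) (hπ : Irreducible π)
    (h3 : 3 ∣ M) (hMu : IsUnit (M : R)) : c1t55_ChartData R K M π := by
  obtain ⟨⟨hD₁, -⟩, ⟨hD₂, -⟩⟩ := sm79_level3 (R := R) K M hπ hMu h3
  exact pk85_chartData_level3_of M hπ h3 hMu hD₁ hD₂

/-- **The chart package at level `M`, `2 ∣ M`.** -/
theorem pk85_chartData_level2 (R K : Type) [CommRing R] [IsDomain R] [IsDiscreteValuationRing R]
    [Field K] [CharZero K] [Algebra R K] [IsFractionRing R K] [Algebra K Q̄]
    [Algebra.IsAlgebraic K Q̄] (M : ℕ) [NeZero M] [Algebra R ↥(modularFunctionFieldFullC K M)]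
    [IsScalarTower R K ↥(modularFunctionFieldFullC K M)] (π : R) (hπ : Irreducible π)
    (h2 : 2 ∣ M) (hMu : IsUnit (M : R)) : c1t55_ChartData R K M π := by
  obtain ⟨⟨hD₁, -⟩, ⟨hD₂, -⟩⟩ := sm79_level2 (R := R) K M hπ hMu h2
  exact pk85_chartData_level2_of M hπ h2 hMu hD₁ hD₂

/-- **The chart package** `c1t55_ChartData R K M π` for `M` a unit of `R` divisible by
`p₀ ∈ {2, 3}`. -/
theorem pk85_chartData (R K : Type) [CommRing R] [IsDomain R] [IsDiscreteValuationRing R]
    [Field K] [CharZero K] [Algebra R K] [IsFractionRing R K] [Algebra K Q̄]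
    [Algebra.IsAlgebraic K Q̄] (M : ℕ) [NeZero M] [Algebra R ↥(modularFunctionFieldFullC K M)]
    [IsScalarTower R K ↥(modularFunctionFieldFullC K M)] (π : R) (hπ : Irreducible π)
    (p₀ : ℕ) (hp₀ : p₀ = 2 ∨ p₀ = 3) (hp₀M : p₀ ∣ M) (_hp₀u : IsUnit (p₀ : R))
    (hMu : IsUnit (M : R)) : c1t55_ChartData R K M π := by
  rcases hp₀ with rfl | rfl
  · exact pk85_chartData_level2 R K M π hπ hp₀M hMu
  · exact pk85_chartData_level3 R K M π hπ hp₀M hMu

end Fermat.Agent.S18
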