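/-
S18 (helper79): the chart package `c1t55_ChartData` at levels 2 and 3 from the B5 outputs
(`SmoothAsm79`), the Gauss valuation ring (`GaussPack55`, `GaussVal85`) and saturation (`Sat23`),
and the resulting proof of the S18 conclusion through `c1t55b_main` (`StarTwin55b`).
-/
import Mathlib
import Fermat.Agent.S18.SmoothAsm79
import Fermat.Agent.S18.GaussPack55
import Fermat.Agent.S18.Sat23
import Fermat.Agent.S18.StarTwin55b

set_option autoImplicit false
set_option linter.unusedSectionVars false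
set_option linter.unusedVariables false
set_option linter.style.haveILetI false

open Polynomial AlgebraicCurve ModularCurve

namespace Fermat.Agent.S18

open Fermat.Agent.S24 Fermat.Agent.S28

section Pack

variable (R K : Type) [CommRing R] [IsDomain R] [IsDiscreteValuationRing R] [Field K] [CharZero K]
  [Algebra R K] [IsFractionRing R K] [Algebra K Kbar] [Algebra.IsAlgebraic K Kbar]
  (M : ℕ) [NeZero M] [Algebra R ↥(modularFunctionFieldFullC K M)]
  [IsScalarTower R K ↥(modularFunctionFieldFullC K M)]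

/-- **The chart package at level 2** (`2 ∣ M`, `M` a unit of `R`). -/
theorem sm79_chartData2 {π : R} (hπ : Irreducible π) (hM : IsUnit (M : R)) (h2M : 2 ∣ M) :
    c1t55_ChartData R K M π := by
  have h2 : IsUnit (2 : R) := by
    obtain ⟨k, hk⟩ := h2M
    have hM' : IsUnit ((2 : R) * (k : R)) := by
      have : ((M : ℕ) : R) = 2 * (k : R) := by rw [hk]; push_cast; ring
      rw [← this]
      exact hM
    exact isUnit_of_mul_isUnit_left hM'
  obtain ⟨u, hu⟩ : ∃ u : R, u * 256 = 1 := by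
    have h256 : IsUnit (256 : R) := by
      have : (256 : R) = 2 ^ 8 := by norm_num
      rw [this]
      exact h2.pow 8
    exact h256.exists_left_inv
  obtain ⟨⟨hD₁, hN₁, hfin, hfrac⟩, ⟨hD₂, hN₂, -, -⟩⟩ := sm79_level2 K M hπ hM h2M
  have hh := sm79_h2_transcendental K M h2M
  have hh0 : sm79_h2 K M h2M ≠ 0 := fun h0 => hh (h0 ▸ isAlgebraic_zero)
  have hrel := sm79_h2_rel K M h2M
  have hyh : ((sm79_h2 K M h2M : ↥(modularFunctionFieldFullC K M)) : LaurentSeries K) =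
      coeffMap (algebraMap R K) (h70_h2 R) := by
    rw [h70_coeffMap_h2]; rfl
  have hyh' : (((sm79_h2 K M h2M)⁻¹ : ↥(modularFunctionFieldFullC K M)) : LaurentSeries K) =
      coeffMap (algebraMap R K) (h70_h2inv R) := by
    rw [h70_coeffMap_h2inv, h70_h2inv_eq_inv]; rfl
  have hsat₁₂ := sat23_level2 K M π hπ.prime (IsLocalRing.ResidueField R) (IsLocalRing.residue R)
    (sm79_residue_eq_zero_iff hπ) (sm79_residue_natCast_ne_zero hM) (c1g55_HF R K M hπ)
    (sm79_h2 K M h2M) hh0 hrel u hu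
  have hV₁ := (c1g55_gauss hπ (sm79_h2 K M h2M) (h70_h2 R) hyh).1
  have hV₂ := (c1g55_gauss hπ (sm79_h2 K M h2M)⁻¹ (h70_h2inv R) hyh').1
  have hsat₁ := sat23_sat₁ π (c1g55_V R K M hπ) (c1g55_algebraMap_mem hπ)
    (c1g55_pi_inv_not_mem hπ) (sm79_h2 K M h2M) hh0 hV₁ hV₂ hsat₁₂
  have hsat₂ := sat23_sat₂ π (c1g55_V R K M hπ) (c1g55_algebraMap_mem hπ)
    (c1g55_pi_inv_not_mem hπ) (sm79_h2 K M h2M) hh0 hV₁ hV₂ hsat₁₂
  exact c1g55_chartData hπ (sm79_h2 K M h2M) hh (h70_h2 R) (h70_h2inv R) hyh hyh' hsat₁ hsat₂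
    hsat₁₂ hN₁ hN₂ hD₁ hD₂ hfin hfrac

/-- **The chart package at level 3** (`3 ∣ M`, `M` a unit of `R`). -/
theorem sm79_chartData3 {π : R} (hπ : Irreducible π) (hM : IsUnit (M : R)) (h3M : 3 ∣ M) :
    c1t55_ChartData R K M π := by
  have h3 : IsUnit (3 : R) := by
    obtain ⟨k, hk⟩ := h3M
    have hM' : IsUnit ((3 : R) * (k : R)) := by
      have : ((M : ℕ) : R) = 3 * (k : R) := by rw [hk]; push_cast; ring
      rw [← this]
      exact hM
    exact isUnit_of_mul_isUnit_left hM'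
  obtain ⟨u, hu⟩ : ∃ u : R, u * 3 = 1 := h3.exists_left_inv
  obtain ⟨⟨hD₁, hN₁, hfin, hfrac⟩, ⟨hD₂, hN₂, -, -⟩⟩ := sm79_level3 K M hπ hM h3M
  have hh := sm79_h3_transcendental K M h3M
  have hh0 : sm79_h3 K M h3M ≠ 0 := fun h0 => hh (h0 ▸ isAlgebraic_zero)
  have hrel := sm79_h3_rel K M h3M
  have hyh : ((sm79_h3 K M h3M : ↥(modularFunctionFieldFullC K M)) : LaurentSeries K) =
      coeffMap (algebraMap R K) (h34_h3R R) := by
    rw [h34_coeffMap_h3R]; rfl
  have hyh' : (((sm79_h3 K M h3M)⁻¹ : ↥(modularFunctionFieldFullC K M)) : LaurentSeries K) =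
      coeffMap (algebraMap R K) (h34_h3Rinv R) := by
    rw [h34_coeffMap_h3Rinv, h34_h3Rinv_eq_inv]; rfl
  have hsat₁₂ := sat23_level3 K M π hπ.prime (IsLocalRing.ResidueField R) (IsLocalRing.residue R)
    (sm79_residue_eq_zero_iff hπ) (sm79_residue_natCast_ne_zero hM) (c1g55_HF R K M hπ)
    (sm79_h3 K M h3M) hh0 hrel u hu
  have hV₁ := (c1g55_gauss hπ (sm79_h3 K M h3M) (h34_h3R R) hyh).1
  have hV₂ := (c1g55_gauss hπ (sm79_h3 K M h3M)⁻¹ (h34_h3Rinv R) hyh').1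
  have hsat₁ := sat23_sat₁ π (c1g55_V R K M hπ) (c1g55_algebraMap_mem hπ)
    (c1g55_pi_inv_not_mem hπ) (sm79_h3 K M h3M) hh0 hV₁ hV₂ hsat₁₂
  have hsat₂ := sat23_sat₂ π (c1g55_V R K M hπ) (c1g55_algebraMap_mem hπ)
    (c1g55_pi_inv_not_mem hπ) (sm79_h3 K M h3M) hh0 hV₁ hV₂ hsat₁₂
  exact c1g55_chartData hπ (sm79_h3 K M h3M) hh (h34_h3R R) (h34_h3Rinv R) hyh hyh' hsat₁ hsat₂
    hsat₁₂ hN₁ hN₂ hD₁ hD₂ hfin hfrac

end Pack

section Main

/-- **S18**: the exact conclusion of the frozen statement, from `c1t55b_main` and the chart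
packages at the auxiliary levels `lcm N 2`, `lcm N 3`. -/
theorem sm79_main (N : ℕ) [NeZero N] {ℓ : ℕ} [Fact ℓ.Prime] (hℓN : ¬ ℓ ∣ N)
    (A : ValuationSubring (AlgebraicClosure ℚ)) (hA : A.LiesOverPrime ℓ)
    (h : ModularCurve.ReductionInputsModL A N) (m : ℕ) (hm : ¬ ℓ ∣ m)
    (z : ModularCurve.JZero N) (hmz : m • z = 0) (hz : ModularCurve.reductionModL A N z = 0) :
    z = 0 := by
  have hℓ : ℓ.Prime := Fact.out
  refine c1t55b_main N A hA h ?_ m hm z hmz hz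
  intro p₀ hp₀ hp₀ℓ R K _ _ _ _ _ _ _ _ _ _ π hπ hunit hℓnu
  have hp₀p : p₀.Prime := by rcases hp₀ with rfl | rfl <;> norm_num
  haveI : NeZero (Nat.lcm N p₀) := ⟨Nat.lcm_ne_zero (NeZero.ne N) hp₀p.ne_zero⟩
  haveI : Algebra.IsAlgebraic K Kbar := cx_isAlgebraic_closure K
  have hcop : Nat.Coprime (Nat.lcm N p₀) ℓ := by
    rw [Nat.coprime_comm, hℓ.coprime_iff_not_dvd]
    intro hdvd
    have h1 : ℓ ∣ N * p₀ := hdvd.trans (Nat.lcm_dvd_mul N p₀)
    rcases hℓ.dvd_mul.mp h1 with h2 | h2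
    · exact hℓN h2
    · exact hp₀ℓ ((Nat.prime_dvd_prime_iff_eq hℓ hp₀p).mp h2).symm
  have hM := hunit _ hcop
  rcases hp₀ with rfl | rfl
  · exact sm79_chartData2 R K (Nat.lcm N 2) hπ hM (Nat.dvd_lcm_right N 2)
  · exact sm79_chartData3 R K (Nat.lcm N 3) hπ hM (Nat.dvd_lcm_right N 3)

end Main

end Fermat.Agent.S18
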