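import Mathlib
import Fermat.Agent.S18.Purity

/-!
# S18 row A1, part (P3): fibre consequences of the purity lemma (generic, Mathlib only)

Setting: `O` a commutative ring, `C` a commutative `O`-algebra which is finite free with a
basis `b` of unit discriminant (this is the output `pl72_free` of `Purity.lean`; no fraction
fields are needed here).

* `pl72_mem_map_iff_repr` : `y ∈ I C ↔` all coordinates of `y` lie in `I`.
* `pl72_fibre_radical` / `pl72_fibre_reduced` : `C / I C` is reduced for a radical ideal `I`.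
* `pl72_maximal_generated` (`O` local) : a proper ideal `𝔫` of `C` is, locally at `𝔫`,
  contained in `𝔪_O C`.
* `pl72_local_structure`, `pl72_chain`, `pl72_local_prime` (`O` local Noetherian with
  `𝔪_O = (π, t)`, `𝔫` a maximal ideal of `C`): `C_𝔫 / π` is a discrete valuation ring with
  uniformiser `t`, in elementwise form (no localisation type appears).
-/

namespace Fermat.Agent.S18

open Polynomial

section Basis

variable {O : Type*} [CommRing O] {C : Type*} [CommRing C] [Algebra O C]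
  {ι : Type*} [Fintype ι] [DecidableEq ι] (b : Module.Basis ι O C)

omit [DecidableEq ι] in
/-- Membership in an extended ideal of a free algebra can be read off on coordinates. -/
theorem pl72_mem_map_iff_repr (I : Ideal O) (y : C) :
    y ∈ I.map (algebraMap O C) ↔ ∀ i, b.repr y i ∈ I := by
  constructor
  · intro hy
    refine Submodule.span_induction (p := fun y _ => ∀ i, b.repr y i ∈ I) ?_ ?_ ?_ ?_ hy
    · rintro _ ⟨a, ha, rfl⟩ i
      rw [Algebra.algebraMap_eq_smul_one, map_smul, Finsupp.smul_apply, smul_eq_mul]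
      exact I.mul_mem_right _ ha
    · intro i
      simp
    · intro x y _ _ hx hy i
      rw [map_add, Finsupp.add_apply]
      exact I.add_mem (hx i) (hy i)
    · intro c x _ hx i
      have h1 : c • x = ∑ j, b.repr x j • (c * b j) := by
        conv_lhs => rw [← b.sum_repr x]
        rw [smul_eq_mul, Finset.mul_sum]
        refine Finset.sum_congr rfl fun j _ => ?_
        rw [mul_smul_comm]
      rw [h1, map_sum, Finsupp.finsetSum_apply]
      refine I.sum_mem fun j _ => ?_
      rw [map_smul, Finsupp.smul_apply, smul_eq_mul]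
      exact I.mul_mem_right _ (hx j)
  · intro h
    rw [← b.sum_repr y]
    refine Ideal.sum_mem _ fun i _ => ?_
    rw [Algebra.smul_def]
    exact Ideal.mul_mem_right _ _ (Ideal.mem_map_of_mem _ (h i))

/-- **(P3a)** For a finite free algebra with unit discriminant, `C / I C` is reduced whenever
`I` is a radical ideal of the base. -/
theorem pl72_fibre_radical (hb : IsUnit (Algebra.discr O b)) {I : Ideal O} (hI : I.IsRadical)
    {x : C} {k : ℕ} (hx : x ^ k ∈ I.map (algebraMap O C)) : x ∈ I.map (algebraMap O C) := by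
  classical
  have htr : ∀ j, Algebra.trace O C (x * b j) ∈ I := by
    intro j
    have hpow : (x * b j) ^ k ∈ I.map (algebraMap O C) := by
      rw [mul_pow]
      exact Ideal.mul_mem_right _ _ hx
    have hM : ((Algebra.leftMulMatrix b (x * b j)).map (Ideal.Quotient.mk I)) ^ k = 0 := by
      have h1 : ((Algebra.leftMulMatrix b (x * b j)).map (Ideal.Quotient.mk I)) ^ k
          = (Algebra.leftMulMatrix b ((x * b j) ^ k)).map (Ideal.Quotient.mk I) := by
        rw [map_pow, ← RingHom.mapMatrix_apply, ← RingHom.mapMatrix_apply, map_pow]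
      rw [h1]
      ext i l
      rw [Matrix.map_apply, Matrix.zero_apply, Ideal.Quotient.eq_zero_iff_mem,
        Algebra.leftMulMatrix_eq_repr_mul]
      exact (pl72_mem_map_iff_repr b I _).mp (Ideal.mul_mem_right _ _ hpow) i
    have hnil : IsNilpotent ((Ideal.Quotient.mk I) (Algebra.trace O C (x * b j))) := by
      rw [Algebra.trace_eq_matrix_trace b, AddMonoidHom.map_trace]
      exact Matrix.isNilpotent_trace_of_isNilpotent ⟨k, hM⟩
    obtain ⟨n, hn⟩ := hnil
    rw [← map_pow, Ideal.Quotient.eq_zero_iff_mem] at hn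
    exact hI ⟨n, hn⟩
  rw [pl72_mem_map_iff_repr b]
  have hdet : IsUnit (Algebra.traceMatrix O b).det := by
    rwa [Algebra.discr_def] at hb
  have hvec : ∀ j, (Matrix.vecMul (fun i => b.repr x i) (Algebra.traceMatrix O b)) j ∈ I := by
    intro j
    have h1 : Matrix.vecMul (fun i => b.repr x i) (Algebra.traceMatrix O b) j
        = Algebra.trace O C (x * b j) := by
      conv_rhs => rw [← b.sum_repr x, Finset.sum_mul, map_sum]
      simp only [Matrix.vecMul, dotProduct, Algebra.traceMatrix_apply, Algebra.traceForm_apply]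
      refine Finset.sum_congr rfl fun i _ => ?_
      rw [smul_mul_assoc, map_smul, smul_eq_mul]
    rw [h1]
    exact htr j
  intro i
  have h1 : (fun i => b.repr x i)
      = Matrix.vecMul (Matrix.vecMul (fun i => b.repr x i) (Algebra.traceMatrix O b))
          (Algebra.traceMatrix O b)⁻¹ := by
    rw [Matrix.vecMul_vecMul, Matrix.mul_nonsing_inv _ hdet, Matrix.vecMul_one]
  have h2 : b.repr x i
      = Matrix.vecMul (Matrix.vecMul (fun i => b.repr x i) (Algebra.traceMatrix O b))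
          (Algebra.traceMatrix O b)⁻¹ i := congrFun h1 i
  rw [h2]
  simp only [Matrix.vecMul, dotProduct]
  exact I.sum_mem fun j _ => I.mul_mem_right _ (hvec j)

/-- **(P3a)**, local form: the closed fibre `C / 𝔪_O C` is reduced. -/
theorem pl72_fibre_reduced [IsLocalRing O] (hb : IsUnit (Algebra.discr O b))
    {x : C} {k : ℕ} (hx : x ^ k ∈ (IsLocalRing.maximalIdeal O).map (algebraMap O C)) :
    x ∈ (IsLocalRing.maximalIdeal O).map (algebraMap O C) :=
  pl72_fibre_radical b hb (IsLocalRing.maximalIdeal.isMaximal O).isPrime.isRadical hx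

/-- **(P3b)** Locally at a proper ideal `𝔫` of `C`, every element of `𝔫` lies in `𝔪_O C`:
the maximal ideals of `C` are locally generated by the maximal ideal of `O`
(`C` is unramified over `O`). -/
theorem pl72_maximal_generated [IsLocalRing O] (hb : IsUnit (Algebra.discr O b))
    {𝔫 : Ideal C} (h𝔫 : 𝔫 ≠ ⊤) {x : C} (hx : x ∈ 𝔫) :
    ∃ s : C, s ∉ 𝔫 ∧ s * x ∈ (IsLocalRing.maximalIdeal O).map (algebraMap O C) := by
  classical
  have hfin : Module.Finite O C := Module.Finite.of_basis b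
  obtain ⟨P, hPmonic, hPx⟩ := (Algebra.IsIntegral.isIntegral (R := O) x : IsIntegral O x)
  have hPx' : aeval x P = 0 := by rw [aeval_def]; exact hPx
  have h1 : (1 : O) ∉ IsLocalRing.maximalIdeal O := fun h =>
    (IsLocalRing.maximalIdeal.isMaximal O).ne_top ((Ideal.eq_top_iff_one _).mpr h)
  have hex : ∃ k, P.coeff k ∉ IsLocalRing.maximalIdeal O :=
    ⟨P.natDegree, by rw [hPmonic.coeff_natDegree]; exact h1⟩
  have hkP : P.coeff (Nat.find hex) ∉ IsLocalRing.maximalIdeal O := Nat.find_spec hex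
  have hlt : ∀ i < Nat.find hex, P.coeff i ∈ IsLocalRing.maximalIdeal O := fun i hi =>
    by_contra fun h => Nat.find_min hex hi h
  have hkn : Nat.find hex ≤ P.natDegree :=
    Nat.find_min' hex (by rw [hPmonic.coeff_natDegree]; exact h1)
  generalize Nat.find hex = k at hkP hlt hkn
  generalize hn : P.natDegree = n at hkn
  obtain ⟨s, hs⟩ : ∃ s : C, s = ∑ i ∈ Finset.range (n + 1 - k), P.coeff (k + i) • x ^ i :=
    ⟨_, rfl⟩
  have hsplit : (∑ i ∈ Finset.range k, P.coeff i • x ^ i) + x ^ k * s = 0 := by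
    rw [← hPx', aeval_eq_sum_range, hn,
      ← Finset.sum_range_add_sum_Ico _ (by omega : k ≤ n + 1), Finset.sum_Ico_eq_sum_range]
    congr 1
    rw [hs, Finset.mul_sum]
    refine Finset.sum_congr rfl fun i _ => ?_
    rw [mul_smul_comm, ← pow_add]
  have hlow : x ^ k * s ∈ (IsLocalRing.maximalIdeal O).map (algebraMap O C) := by
    rw [eq_neg_of_add_eq_zero_right hsplit]
    refine neg_mem (Ideal.sum_mem _ fun i hi => ?_)
    rw [Algebra.smul_def]
    exact Ideal.mul_mem_right _ _ (Ideal.mem_map_of_mem _ (hlt i (Finset.mem_range.mp hi)))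
  have hsn : s ∉ 𝔫 := by
    intro hsmem
    have h2 : s = x * (∑ i ∈ Finset.range (n - k), P.coeff (k + (i + 1)) • x ^ i)
        + algebraMap O C (P.coeff k) := by
      have h3 : n + 1 - k = (n - k) + 1 := by omega
      rw [hs, h3, Finset.sum_range_succ', Finset.mul_sum]
      congr 1
      · refine Finset.sum_congr rfl fun i _ => ?_
        rw [mul_smul_comm, pow_succ']
      · rw [add_zero, pow_zero, Algebra.algebraMap_eq_smul_one]
    have hu : IsUnit (algebraMap O C (P.coeff k)) :=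
      (IsLocalRing.notMem_maximalIdeal.mp hkP).map _
    have h4 : algebraMap O C (P.coeff k) ∈ 𝔫 := by
      have h5 := 𝔫.sub_mem hsmem (𝔫.mul_mem_right
        (∑ i ∈ Finset.range (n - k), P.coeff (k + (i + 1)) • x ^ i) hx)
      rwa [h2, add_sub_cancel_left] at h5
    exact h𝔫 (Ideal.eq_top_of_isUnit_mem _ h4 hu)
  refine ⟨s, hsn, ?_⟩
  apply pl72_fibre_reduced b hb (k := k + 1)
  have h6 : (s * x) ^ (k + 1) = s ^ k * x * (x ^ k * s) := by ring
  rw [h6]
  exact Ideal.mul_mem_left _ _ hlow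

omit [DecidableEq ι] in
/-- `C / π C` is torsion-free over `O / π`: an element `t` prime to the prime element `π` is a
non-zero-divisor modulo `π C`. -/
theorem pl72_regular_mod (b : Module.Basis ι O C) {π t : O} (hπ : Prime π) (hπt : ¬ π ∣ t)
    {x : C}
    (h : algebraMap O C t * x ∈ Ideal.span {algebraMap O C π}) :
    x ∈ Ideal.span {algebraMap O C π} := by
  have hmap : Ideal.span {algebraMap O C π} = (Ideal.span {π}).map (algebraMap O C) := by
    rw [Ideal.map_span, Set.image_singleton]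
  rw [hmap, pl72_mem_map_iff_repr b] at h ⊢
  intro i
  have h1 := h i
  rw [← Algebra.smul_def, map_smul, Finsupp.smul_apply, smul_eq_mul,
    Ideal.mem_span_singleton] at h1
  rw [Ideal.mem_span_singleton]
  exact (hπ.dvd_or_dvd h1).resolve_left hπt

omit [DecidableEq ι] in
/-- A maximal ideal of `C` lies over the maximal ideal of the local ring `O`. -/
theorem pl72_map_maximalIdeal_le [IsLocalRing O] (b : Module.Basis ι O C) (𝔫 : Ideal C)
    [𝔫.IsMaximal] :
    (IsLocalRing.maximalIdeal O).map (algebraMap O C) ≤ 𝔫 := by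
  have hfin : Module.Finite O C := Module.Finite.of_basis b
  have hmax : (𝔫.comap (algebraMap O C)).IsMaximal :=
    Ideal.isMaximal_comap_of_isIntegral_of_isMaximal 𝔫
  rw [Ideal.map_le_iff_le_comap, ← IsLocalRing.eq_maximalIdeal hmax]

end Basis

section Chain

variable {C : Type*} [CommRing C] (𝔫 : Ideal C) [𝔫.IsMaximal]

/-- Powers of a maximal ideal are primary: an ideal containing `𝔫 ^ i` is saturated with
respect to the complement of `𝔫`. -/
theorem pl72_mem_of_mul_mem_of_pow_le {J : Ideal C} {i : ℕ} (hJ : 𝔫 ^ i ≤ J) {s x : C}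
    (hs : s ∉ 𝔫) (hsx : s * x ∈ J) : x ∈ J := by
  obtain ⟨a, n, hn, han⟩ := Ideal.IsMaximal.exists_inv ‹𝔫.IsMaximal› hs
  obtain ⟨d, hd⟩ := sub_dvd_pow_sub_pow (a * s + n) n i
  have h2 : (a * s + n) ^ i = 1 := by rw [han, one_pow]
  have h1 : x = a * d * (s * x) + n ^ i * x := by
    linear_combination x * hd - x * h2
  rw [h1]
  exact J.add_mem (J.mul_mem_left _ hsx) (J.mul_mem_right _ (hJ (Ideal.pow_mem_pow hn i)))

variable [IsNoetherianRing C]

/-- Krull intersection, elementwise and localisation-free: if `x` lies in `(p, t ^ i)` locally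
at the maximal ideal `𝔫 ∋ t` for every `i`, then `x` lies in `(p)` locally at `𝔫`. -/
theorem pl72_krull {p t : C} (ht : t ∈ 𝔫) {x : C}
    (h : ∀ i : ℕ, ∃ s : C, s ∉ 𝔫 ∧ s * x ∈ Ideal.span {p, t ^ i}) :
    ∃ s : C, s ∉ 𝔫 ∧ s * x ∈ Ideal.span {p} := by
  have hmem : ∀ i : ℕ, x ∈ Ideal.span {p} ⊔ 𝔫 ^ i := by
    intro i
    obtain ⟨s, hs, hsx⟩ := h i
    refine pl72_mem_of_mul_mem_of_pow_le 𝔫 le_sup_right hs ?_
    refine (Ideal.span_le.mpr ?_) hsx
    rintro z (rfl | rfl)
    · exact Ideal.mem_sup_left (Ideal.subset_span rfl)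
    · exact Ideal.mem_sup_right (Ideal.pow_mem_pow ht i)
  have hx : (Ideal.Quotient.mk (Ideal.span {p}) x)
      ∈ (⨅ i : ℕ, 𝔫 ^ i • (⊤ : Submodule C (C ⧸ Ideal.span {p}))) := by
    rw [Submodule.mem_iInf]
    intro i
    obtain ⟨y, hy, z, hz, hyz⟩ := Submodule.mem_sup.mp (hmem i)
    have h1 : Ideal.Quotient.mk (Ideal.span {p}) x = z • (1 : C ⧸ Ideal.span {p}) := by
      rw [← hyz, map_add, Ideal.Quotient.eq_zero_iff_mem.mpr hy, zero_add, Algebra.smul_def,
        mul_one]
      rfl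
    rw [h1]
    exact Submodule.smul_mem_smul hz Submodule.mem_top
  obtain ⟨r, hr⟩ := (Ideal.mem_iInf_smul_pow_eq_bot_iff 𝔫 _).mp hx
  refine ⟨1 - r, ?_, ?_⟩
  · intro h1
    have h2 : (1 : C) ∈ 𝔫 := by
      have h3 := 𝔫.add_mem h1 r.2
      rwa [sub_add_cancel] at h3
    exact (Ideal.IsMaximal.ne_top ‹𝔫.IsMaximal›) ((Ideal.eq_top_iff_one _).mpr h2)
  · rw [← Ideal.Quotient.eq_zero_iff_mem, map_mul, map_sub, map_one, sub_mul, one_mul,
      sub_eq_zero]
    rw [Algebra.smul_def] at hr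
    exact hr.symm

/-- Structure of `C_𝔫 / p` when `𝔫` is locally generated by `p, t`: every element is, locally
at `𝔫` and modulo `p`, either `0` or a power of `t` times a unit. -/
theorem pl72_local_structure_of_gen {p t : C} (ht : t ∈ 𝔫)
    (hgen : ∀ u ∈ 𝔫, ∃ s : C, s ∉ 𝔫 ∧ s * u ∈ Ideal.span {p, t}) (x : C) :
    (∃ s : C, s ∉ 𝔫 ∧ s * x ∈ Ideal.span {p}) ∨
    ∃ (i : ℕ) (s u c : C), s ∉ 𝔫 ∧ u ∉ 𝔫 ∧ s * x = t ^ i * u + p * c := by
  classical
  have hprime : 𝔫.IsPrime := Ideal.IsMaximal.isPrime ‹𝔫.IsMaximal›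
  by_cases h0 : ∃ s : C, s ∉ 𝔫 ∧ s * x ∈ Ideal.span {p}
  · exact Or.inl h0
  right
  have hex : ∃ i : ℕ, ¬ ∃ s : C, s ∉ 𝔫 ∧ s * x ∈ Ideal.span {p, t ^ i} := by
    by_contra hcon
    push Not at hcon
    exact h0 (pl72_krull 𝔫 ht hcon)
  have hspec := Nat.find_spec hex
  have hmin : ∀ i < Nat.find hex, ∃ s : C, s ∉ 𝔫 ∧ s * x ∈ Ideal.span {p, t ^ i} := fun i hi =>
    not_not.mp (Nat.find_min hex hi)
  generalize Nat.find hex = m at hspec hmin
  cases m with
  | zero =>
    exfalso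
    refine hspec ⟨1, fun h1 => (Ideal.IsMaximal.ne_top ‹𝔫.IsMaximal›)
      ((Ideal.eq_top_iff_one _).mpr h1), ?_⟩
    rw [pow_zero, Ideal.mem_span_pair]
    exact ⟨0, 1 * x, by ring⟩
  | succ m =>
    obtain ⟨s, hs, hsx⟩ := hmin m (Nat.lt_succ_self m)
    obtain ⟨c, u, hcu⟩ := Ideal.mem_span_pair.mp hsx
    refine ⟨m, s, u, c, hs, ?_, by rw [← hcu]; ring⟩
    intro hu
    obtain ⟨s', hs', hs'u⟩ := hgen u hu
    obtain ⟨c', d', hcd'⟩ := Ideal.mem_span_pair.mp hs'u
    refine hspec ⟨s' * s, fun h1 => (hprime.mem_or_mem h1).elim hs' hs, ?_⟩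
    rw [Ideal.mem_span_pair]
    refine ⟨s' * c + c' * t ^ m, d', ?_⟩
    have h5 : s' * s * x = s' * (c * p + u * t ^ m) := by rw [hcu]; ring
    rw [h5]
    linear_combination t ^ m * hcd'

/-- **Chain condition** (`C_𝔫 / p` is a valuation ring) when `𝔫` is locally generated by
`p, t`, in elementwise form. -/
theorem pl72_chain_of_gen {p t : C} (ht : t ∈ 𝔫)
    (hgen : ∀ u ∈ 𝔫, ∃ s : C, s ∉ 𝔫 ∧ s * u ∈ Ideal.span {p, t}) (x y : C) :
    (∃ s : C, s ∉ 𝔫 ∧ ∃ a c : C, s * x = y * a + p * c) ∨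
    (∃ s : C, s ∉ 𝔫 ∧ ∃ a c : C, s * y = x * a + p * c) := by
  have hprime : 𝔫.IsPrime := Ideal.IsMaximal.isPrime ‹𝔫.IsMaximal›
  rcases pl72_local_structure_of_gen 𝔫 ht hgen x with ⟨s, hs, hsx⟩ | ⟨i, s, u, c, hs, hu, hx⟩
  · left
    obtain ⟨c, hc⟩ := Ideal.mem_span_singleton'.mp hsx
    exact ⟨s, hs, 0, c, by rw [← hc]; ring⟩
  rcases pl72_local_structure_of_gen 𝔫 ht hgen y with ⟨s', hs', hsy⟩ | ⟨j, s', u', c', hs', hu', hy⟩
  · right
    obtain ⟨c', hc'⟩ := Ideal.mem_span_singleton'.mp hsy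
    exact ⟨s', hs', 0, c', by rw [← hc']; ring⟩
  rcases le_total j i with hji | hij
  · left
    obtain ⟨k, rfl⟩ := Nat.exists_eq_add_of_le hji
    refine ⟨u' * s, fun h1 => (hprime.mem_or_mem h1).elim hu' hs, t ^ k * u * s',
      u' * c - t ^ k * u * c', ?_⟩
    linear_combination u' * hx - t ^ k * u * hy
  · right
    obtain ⟨k, rfl⟩ := Nat.exists_eq_add_of_le hij
    refine ⟨u * s', fun h1 => (hprime.mem_or_mem h1).elim hu hs', t ^ k * u' * s,
      u * c' - t ^ k * u' * c, ?_⟩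
    linear_combination u * hy - t ^ k * u' * hx

/-- `p` is a prime element of `C_𝔫` (elementwise form) when `𝔫` is locally generated by
`p, t` and `t` is a non-zero-divisor modulo `p`. -/
theorem pl72_local_prime_of_gen {p t : C} (hp : p ∈ 𝔫) (ht : t ∈ 𝔫)
    (hgen : ∀ u ∈ 𝔫, ∃ s : C, s ∉ 𝔫 ∧ s * u ∈ Ideal.span {p, t})
    (hreg : ∀ x : C, t * x ∈ Ideal.span {p} → x ∈ Ideal.span {p}) {x y : C}
    (hxy : ∃ s : C, s ∉ 𝔫 ∧ s * (x * y) ∈ Ideal.span {p}) :
    (∃ s : C, s ∉ 𝔫 ∧ s * x ∈ Ideal.span {p}) ∨ (∃ s : C, s ∉ 𝔫 ∧ s * y ∈ Ideal.span {p}) := by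
  have hprime : 𝔫.IsPrime := Ideal.IsMaximal.isPrime ‹𝔫.IsMaximal›
  rcases pl72_local_structure_of_gen 𝔫 ht hgen x with h | ⟨i, s₁, u, c, hs₁, hu, hx⟩
  · exact Or.inl h
  rcases pl72_local_structure_of_gen 𝔫 ht hgen y with h | ⟨j, s₂, u', c', hs₂, hu', hy⟩
  · exact Or.inr h
  exfalso
  obtain ⟨s, hs, hsxy⟩ := hxy
  have hregpow : ∀ (k : ℕ) (z : C), t ^ k * z ∈ Ideal.span {p} → z ∈ Ideal.span {p} := by
    intro k
    induction k with
    | zero => intro z hz; simpa using hz
    | succ k ih =>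
      intro z hz
      refine ih z (hreg _ ?_)
      have h1 : t * (t ^ k * z) = t ^ (k + 1) * z := by ring
      rw [h1]
      exact hz
  have h1 : t ^ (i + j) * (s * u * u') ∈ Ideal.span {p} := by
    obtain ⟨e, he⟩ := Ideal.mem_span_singleton'.mp hsxy
    rw [Ideal.mem_span_singleton']
    refine ⟨s₁ * s₂ * e - s * (t ^ i * u * c' + c * t ^ j * u' + c * c' * p), ?_⟩
    linear_combination s₁ * s₂ * he + s * (s₂ * y) * hx + s * (t ^ i * u + p * c) * hy
  have h2 : s * u * u' ∈ 𝔫 := by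
    have h3 := hregpow _ _ h1
    obtain ⟨e, he⟩ := Ideal.mem_span_singleton'.mp h3
    rw [← he]
    exact 𝔫.mul_mem_left _ hp
  rcases hprime.mem_or_mem h2 with h3 | h3
  · rcases hprime.mem_or_mem h3 with h4 | h4
    · exact hs h4
    · exact hu h4
  · exact hu' h3

end Chain

section Local

/-- If `O / π` is a principal ideal ring, the maximal ideal of the local ring `O` is generated
by `π` and one more element. -/
theorem pl72_exists_gen {O : Type*} [CommRing O] [IsLocalRing O] {π : O}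
    (hπ : π ∈ IsLocalRing.maximalIdeal O) [IsPrincipalIdealRing (O ⧸ Ideal.span {π})] :
    ∃ t : O, IsLocalRing.maximalIdeal O = Ideal.span {π, t} := by
  obtain ⟨g, hg⟩ := (IsPrincipalIdealRing.principal
    ((IsLocalRing.maximalIdeal O).map (Ideal.Quotient.mk (Ideal.span {π})))).principal
  obtain ⟨t, rfl⟩ := Ideal.Quotient.mk_surjective g
  have hg' : (IsLocalRing.maximalIdeal O).map (Ideal.Quotient.mk (Ideal.span {π}))
      = Ideal.span {Ideal.Quotient.mk (Ideal.span {π}) t} := hg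
  refine ⟨t, le_antisymm ?_ ?_⟩
  · intro x hx
    have h1 : Ideal.Quotient.mk (Ideal.span {π}) x
        ∈ (IsLocalRing.maximalIdeal O).map (Ideal.Quotient.mk (Ideal.span {π})) :=
      Ideal.mem_map_of_mem _ hx
    rw [hg'] at h1
    obtain ⟨a, ha⟩ := Ideal.mem_span_singleton'.mp h1
    obtain ⟨a, rfl⟩ := Ideal.Quotient.mk_surjective a
    rw [← map_mul, Ideal.Quotient.eq, Ideal.mem_span_singleton'] at ha
    obtain ⟨c, hc⟩ := ha
    rw [Ideal.mem_span_pair]
    exact ⟨-c, a, by linear_combination -hc⟩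
  · rw [Ideal.span_le]
    rintro z (rfl | rfl)
    · exact hπ
    · have h1 : Ideal.Quotient.mk (Ideal.span {π}) z
          ∈ (IsLocalRing.maximalIdeal O).map (Ideal.Quotient.mk (Ideal.span {π})) := by
        rw [hg']
        exact Ideal.mem_span_singleton_self _
      obtain ⟨m, hm, hmz⟩ :=
        (Ideal.mem_map_iff_of_surjective _ Ideal.Quotient.mk_surjective).mp h1
      rw [Ideal.Quotient.eq, Ideal.mem_span_singleton'] at hmz
      obtain ⟨c, hc⟩ := hmz
      have h2 : z = m - c * π := by linear_combination hc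
      rw [SetLike.mem_coe, h2]
      exact Ideal.sub_mem _ hm (Ideal.mul_mem_left _ _ hπ)

variable {O : Type*} [CommRing O] [IsLocalRing O] {C : Type*} [CommRing C] [Algebra O C]
  {ι : Type*} [Fintype ι] [DecidableEq ι] (b : Module.Basis ι O C)

/-- Local generation of the maximal ideals of `C` by generators `π, t` of `𝔪_O`. -/
theorem pl72_local_gen (hb : IsUnit (Algebra.discr O b)) {π t : O}
    (hgen : IsLocalRing.maximalIdeal O = Ideal.span {π, t}) (𝔫 : Ideal C) [𝔫.IsMaximal] :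
    algebraMap O C π ∈ 𝔫 ∧ algebraMap O C t ∈ 𝔫 ∧
      ∀ u ∈ 𝔫, ∃ s : C, s ∉ 𝔫 ∧ s * u ∈ Ideal.span {algebraMap O C π, algebraMap O C t} := by
  have hle := pl72_map_maximalIdeal_le b 𝔫
  have hmap : (IsLocalRing.maximalIdeal O).map (algebraMap O C)
      = Ideal.span {algebraMap O C π, algebraMap O C t} := by
    rw [hgen, Ideal.map_span, Set.image_pair]
  have hπ : π ∈ IsLocalRing.maximalIdeal O := by
    rw [hgen]
    exact Ideal.subset_span (Set.mem_insert _ _)
  have ht : t ∈ IsLocalRing.maximalIdeal O := by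
    rw [hgen]
    exact Ideal.subset_span (Set.mem_insert_of_mem _ rfl)
  refine ⟨hle (Ideal.mem_map_of_mem _ hπ), hle (Ideal.mem_map_of_mem _ ht), ?_⟩
  intro u hu
  obtain ⟨s, hs, hsu⟩ :=
    pl72_maximal_generated b hb (Ideal.IsMaximal.ne_top ‹𝔫.IsMaximal›) hu
  exact ⟨s, hs, hmap ▸ hsu⟩

variable [IsNoetherianRing O]

/-- **(P3c)** Structure of `C_𝔫 / π`: every element of `C` is, locally at the maximal ideal
`𝔫` and modulo `π`, either `0` or `t ^ i` times a unit (`𝔪_O = (π, t)`). -/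
theorem pl72_local_structure (hb : IsUnit (Algebra.discr O b)) {π t : O}
    (hgen : IsLocalRing.maximalIdeal O = Ideal.span {π, t}) (𝔫 : Ideal C) [𝔫.IsMaximal]
    (x : C) :
    (∃ s : C, s ∉ 𝔫 ∧ s * x ∈ Ideal.span {algebraMap O C π}) ∨
    ∃ (i : ℕ) (s u c : C), s ∉ 𝔫 ∧ u ∉ 𝔫 ∧
      s * x = algebraMap O C t ^ i * u + algebraMap O C π * c := by
  have hfin : Module.Finite O C := Module.Finite.of_basis b
  have hnoeth : IsNoetherianRing C := isNoetherian_of_tower O (inferInstance : IsNoetherian O C)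
  obtain ⟨-, ht, hg⟩ := pl72_local_gen b hb hgen 𝔫
  exact pl72_local_structure_of_gen 𝔫 ht hg x

/-- **(P3c)** Chain condition: `C_𝔫 / π` is a valuation ring, for every maximal ideal `𝔫` of
`C` (elementwise form, as consumed by `lg33_local`'s `hval` after localising). -/
theorem pl72_chain (hb : IsUnit (Algebra.discr O b)) {π t : O}
    (hgen : IsLocalRing.maximalIdeal O = Ideal.span {π, t}) (𝔫 : Ideal C) [𝔫.IsMaximal]
    (x y : C) :
    (∃ s : C, s ∉ 𝔫 ∧ ∃ a c : C, s * x = y * a + algebraMap O C π * c) ∨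
    (∃ s : C, s ∉ 𝔫 ∧ ∃ a c : C, s * y = x * a + algebraMap O C π * c) := by
  have hfin : Module.Finite O C := Module.Finite.of_basis b
  have hnoeth : IsNoetherianRing C := isNoetherian_of_tower O (inferInstance : IsNoetherian O C)
  obtain ⟨-, ht, hg⟩ := pl72_local_gen b hb hgen 𝔫
  exact pl72_chain_of_gen 𝔫 ht hg x y

/-- **(P3d)** `π` is a prime element of `C_𝔫` for every maximal ideal `𝔫` of `C`
(elementwise form): with `pl72_chain`, `C_𝔫 / π` is a discrete valuation ring (or a field). -/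
theorem pl72_local_prime (hb : IsUnit (Algebra.discr O b)) {π t : O} (hπ : Prime π)
    (hgen : IsLocalRing.maximalIdeal O = Ideal.span {π, t}) (𝔫 : Ideal C)
    [𝔫.IsMaximal] {x y : C}
    (hxy : ∃ s : C, s ∉ 𝔫 ∧ s * (x * y) ∈ Ideal.span {algebraMap O C π}) :
    (∃ s : C, s ∉ 𝔫 ∧ s * x ∈ Ideal.span {algebraMap O C π}) ∨
    (∃ s : C, s ∉ 𝔫 ∧ s * y ∈ Ideal.span {algebraMap O C π}) := by
  have hfin : Module.Finite O C := Module.Finite.of_basis b
  have hnoeth : IsNoetherianRing C := isNoetherian_of_tower O (inferInstance : IsNoetherian O C)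
  have hprime : 𝔫.IsPrime := Ideal.IsMaximal.isPrime ‹𝔫.IsMaximal›
  obtain ⟨hp, ht, hg⟩ := pl72_local_gen b hb hgen 𝔫
  by_cases hπt : π ∣ t
  · -- `𝔪_O = (π)`: the maximal ideal `𝔫` is locally generated by `π`
    have hle : Ideal.span {algebraMap O C π, algebraMap O C t}
        ≤ Ideal.span {algebraMap O C π} := by
      rw [Ideal.span_le]
      rintro z (rfl | rfl)
      · exact Ideal.subset_span rfl
      · obtain ⟨e, rfl⟩ := hπt
        rw [SetLike.mem_coe, map_mul]
        exact Ideal.mul_mem_right _ _ (Ideal.subset_span rfl)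
    obtain ⟨s, hs, hsxy⟩ := hxy
    have h1 : s * (x * y) ∈ 𝔫 := by
      obtain ⟨e, he⟩ := Ideal.mem_span_singleton'.mp hsxy
      rw [← he]
      exact 𝔫.mul_mem_left _ hp
    have h2 : x * y ∈ 𝔫 := (hprime.mem_or_mem h1).resolve_left hs
    rcases hprime.mem_or_mem h2 with h3 | h3
    · left
      obtain ⟨s', hs', h4⟩ := hg x h3
      exact ⟨s', hs', hle h4⟩
    · right
      obtain ⟨s', hs', h4⟩ := hg y h3
      exact ⟨s', hs', hle h4⟩
  · exact pl72_local_prime_of_gen 𝔫 hp ht hg (fun x hx => pl72_regular_mod b hπ hπt hx) hxy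

end Local

section FromPurity

variable {O : Type*} [CommRing O] [IsDomain O] [UniqueFactorizationMonoid O]
  {E : Type*} [Field E] [Algebra O E] [IsFractionRing O E]
  {L : Type*} [Field L] [Algebra E L] [Algebra O L] [IsScalarTower O E L]
  [FiniteDimensional E L] [Algebra.IsSeparable E L]
  {C : Type*} [CommRing C] [Algebra O C] [Algebra C L] [IsScalarTower O C L]
  [IsIntegralClosure C O L] [IsNoetherianRing O] [IsLocalRing O]

/-- **Purity ⟹ reduced closed fibre**, directly from the hypotheses of `pl72_free`. -/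
theorem pl72_fibre_reduced_of_hcodim
    (hcodim : ∀ p : O, Prime p → ∀ y ∈ pl72_dual O E L C, ∃ s : O, ¬ p ∣ s ∧
      algebraMap O L s * y ∈ (algebraMap C L).range)
    {π : O} (hπ : Prime π) [IsPrincipalIdealRing (O ⧸ Ideal.span {π})]
    {x : C} {k : ℕ} (hx : x ^ k ∈ (IsLocalRing.maximalIdeal O).map (algebraMap O C)) :
    x ∈ (IsLocalRing.maximalIdeal O).map (algebraMap O C) := by
  obtain ⟨n, b, -, hb⟩ := pl72_free (E := E) (L := L) hcodim hπ
  exact pl72_fibre_reduced b hb hx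

/-- **Purity ⟹ `C_𝔫 / π` is a valuation ring** at every maximal ideal `𝔫` of `C`
(elementwise chain condition), directly from the hypotheses of `pl72_free`. -/
theorem pl72_chain_of_hcodim
    (hcodim : ∀ p : O, Prime p → ∀ y ∈ pl72_dual O E L C, ∃ s : O, ¬ p ∣ s ∧
      algebraMap O L s * y ∈ (algebraMap C L).range)
    {π : O} (hπ : Prime π) [IsPrincipalIdealRing (O ⧸ Ideal.span {π})]
    (𝔫 : Ideal C) [𝔫.IsMaximal] (x y : C) :
    (∃ s : C, s ∉ 𝔫 ∧ ∃ a c : C, s * x = y * a + algebraMap O C π * c) ∨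
    (∃ s : C, s ∉ 𝔫 ∧ ∃ a c : C, s * y = x * a + algebraMap O C π * c) := by
  obtain ⟨n, b, -, hb⟩ := pl72_free (E := E) (L := L) hcodim hπ
  obtain ⟨t, hgen⟩ := pl72_exists_gen ((IsLocalRing.mem_maximalIdeal π).mpr hπ.not_isUnit)
  exact pl72_chain b hb hgen 𝔫 x y

/-- **Purity ⟹ `π` is prime in `C_𝔫`** at every maximal ideal `𝔫` of `C` (elementwise),
directly from the hypotheses of `pl72_free`. -/
theorem pl72_local_prime_of_hcodim
    (hcodim : ∀ p : O, Prime p → ∀ y ∈ pl72_dual O E L C, ∃ s : O, ¬ p ∣ s ∧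
      algebraMap O L s * y ∈ (algebraMap C L).range)
    {π : O} (hπ : Prime π) [IsPrincipalIdealRing (O ⧸ Ideal.span {π})]
    (𝔫 : Ideal C) [𝔫.IsMaximal] {x y : C}
    (hxy : ∃ s : C, s ∉ 𝔫 ∧ s * (x * y) ∈ Ideal.span {algebraMap O C π}) :
    (∃ s : C, s ∉ 𝔫 ∧ s * x ∈ Ideal.span {algebraMap O C π}) ∨
    (∃ s : C, s ∉ 𝔫 ∧ s * y ∈ Ideal.span {algebraMap O C π}) := by
  obtain ⟨n, b, -, hb⟩ := pl72_free (E := E) (L := L) hcodim hπ
  obtain ⟨t, hgen⟩ := pl72_exists_gen ((IsLocalRing.mem_maximalIdeal π).mpr hπ.not_isUnit)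
  exact pl72_local_prime b hb hπ hgen 𝔫 hxy

end FromPurity

end Fermat.Agent.S18
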