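import Mathlib
import Fermat.Prelude.Def_ModularCurve_ReductionModL

/-!
# S18: elimination of the place-reduction map `r` (helper41)

`re41_result` : the frozen statement S18 (for a fixed `m`) follows from the purely function-field
statement `re41_KummerStar A N m`:

  for `a b : A((q))` with `a_L, b_L ∈ F_L = Qbar(j(q^d))`, nonzero reductions `ā, b̄ ∈ F_k`,
  if `div(ā / b̄) = m · div(g)` for some `g ∈ F_k^×` and `m ∣ ord_P(a_L / b_L)` for every place `P`
  of `F_L`, then `div(a_L / b_L) = m · div(v)` for some `v ∈ F_L^×`.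

The map `r` of the hypothesis `ReductionInputsModL` is used only here.
No function-field theory is needed for this step.
-/

set_option autoImplicit false
set_option synthInstance.maxHeartbeats 400000

open HahnSeries IntermediateField AlgebraicCurve ModularCurve

namespace Fermat.Agent.S18

/-- The function-field core of S18 (no place reduction map involved). -/
def re41_KummerStar (A : ValuationSubring (AlgebraicClosure ℚ)) (N m : ℕ) : Prop :=
  ∀ (a b : LaurentSeries A)
    (ha : coeffMap A.subtype a ∈ modularFunctionFieldBar N)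
    (hb : coeffMap A.subtype b ∈ modularFunctionFieldBar N)
    (hak : coeffMap (IsLocalRing.residue A) a ∈
      modularFunctionFieldFullC (IsLocalRing.ResidueField A) N)
    (hbk : coeffMap (IsLocalRing.residue A) b ∈
      modularFunctionFieldFullC (IsLocalRing.ResidueField A) N),
    coeffMap (IsLocalRing.residue A) a ≠ 0 → coeffMap (IsLocalRing.residue A) b ≠ 0 →
    (∃ g : modularFunctionFieldFullC (IsLocalRing.ResidueField A) N, g ≠ 0 ∧
      ∀ Q : Place (IsLocalRing.ResidueField A)
          (modularFunctionFieldFullC (IsLocalRing.ResidueField A) N),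
        Q.ord ((⟨_, hak⟩ : modularFunctionFieldFullC (IsLocalRing.ResidueField A) N) / ⟨_, hbk⟩)
          = (m : ℤ) * Q.ord g) →
    (∀ P : Place (AlgebraicClosure ℚ) (modularFunctionFieldBar N),
      (m : ℤ) ∣ P.ord ((⟨_, ha⟩ : modularFunctionFieldBar N) / ⟨_, hb⟩)) →
    ∃ v : modularFunctionFieldBar N, v ≠ 0 ∧
      ∀ P : Place (AlgebraicClosure ℚ) (modularFunctionFieldBar N),
        P.ord ((⟨_, ha⟩ : modularFunctionFieldBar N) / ⟨_, hb⟩) = (m : ℤ) * P.ord v

section Aux

variable {K F : Type*} [Field K] [Field F] [Algebra K F]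

theorem re41_ord_div (P : Place K F) {x y : F} (hx : x ≠ 0) (hy : y ≠ 0) :
    P.ord (x / y) = P.ord x - P.ord y := by
  rw [div_eq_mul_inv, P.ord_mul hx (inv_ne_zero hy), P.ord_inv, sub_eq_add_neg]

end Aux

theorem re41_coeffMap_subtype_injective (A : ValuationSubring (AlgebraicClosure ℚ)) :
    Function.Injective (coeffMap (A.subtype : A →+* AlgebraicClosure ℚ)) := by
  intro x y hxy
  ext k
  have h := congrArg (fun s : LaurentSeries (AlgebraicClosure ℚ) => s.coeff k) hxy
  simp only [coeffMap_coeff] at h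
  exact h

theorem re41_ne_zero_of_residue_ne_zero {A : ValuationSubring (AlgebraicClosure ℚ)}
    {a : LaurentSeries A} (h : coeffMap (IsLocalRing.residue A) a ≠ 0) :
    coeffMap (A.subtype : A →+* AlgebraicClosure ℚ) a ≠ 0 := by
  intro h0
  apply h
  have : a = 0 := re41_coeffMap_subtype_injective A (by rw [h0, map_zero])
  rw [this, map_zero]


/-- The inductive predicate: `E` is the divisor of a quotient `a_L / b_L` of integral series with
nonzero reductions in `F_k`, and `r_* E` is the divisor of the reduced quotient. -/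
def re41_Good (A : ValuationSubring (AlgebraicClosure ℚ)) (N : ℕ)
    (r : Place (AlgebraicClosure ℚ) (modularFunctionFieldBar N) →
      Place (IsLocalRing.ResidueField A) (modularFunctionFieldFullC (IsLocalRing.ResidueField A) N))
    (E : Divisor (AlgebraicClosure ℚ) (modularFunctionFieldBar N)) : Prop :=
  ∃ (a b : LaurentSeries A)
    (ha : coeffMap A.subtype a ∈ modularFunctionFieldBar N)
    (hb : coeffMap A.subtype b ∈ modularFunctionFieldBar N)
    (hak : coeffMap (IsLocalRing.residue A) a ∈
      modularFunctionFieldFullC (IsLocalRing.ResidueField A) N)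
    (hbk : coeffMap (IsLocalRing.residue A) b ∈
      modularFunctionFieldFullC (IsLocalRing.ResidueField A) N),
    coeffMap (IsLocalRing.residue A) a ≠ 0 ∧ coeffMap (IsLocalRing.residue A) b ≠ 0 ∧
    (∀ P : Place (AlgebraicClosure ℚ) (modularFunctionFieldBar N),
      E P = P.ord (⟨_, ha⟩ : modularFunctionFieldBar N) -
        P.ord (⟨_, hb⟩ : modularFunctionFieldBar N)) ∧
    (∀ Q : Place (IsLocalRing.ResidueField A)
        (modularFunctionFieldFullC (IsLocalRing.ResidueField A) N),
      (Finsupp.mapDomain r E) Q =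
        Q.ord (⟨_, hak⟩ : modularFunctionFieldFullC (IsLocalRing.ResidueField A) N) -
          Q.ord (⟨_, hbk⟩ : modularFunctionFieldFullC (IsLocalRing.ResidueField A) N))

section Closure

variable {A : ValuationSubring (AlgebraicClosure ℚ)} {N : ℕ}
variable {r : Place (AlgebraicClosure ℚ) (modularFunctionFieldBar N) →
  Place (IsLocalRing.ResidueField A) (modularFunctionFieldFullC (IsLocalRing.ResidueField A) N)}

theorem re41_good_zero : re41_Good A N r 0 := by
  refine ⟨1, 1, ?_, ?_, ?_, ?_, ?_, ?_, ?_, ?_⟩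
  · rw [map_one]; exact one_mem _
  · rw [map_one]; exact one_mem _
  · rw [map_one]; exact one_mem _
  · rw [map_one]; exact one_mem _
  · rw [map_one]; exact one_ne_zero
  · rw [map_one]; exact one_ne_zero
  · intro P; simp
  · intro Q; simp

theorem re41_good_of_mem (hr : IsPlaceReductionModL A N r)
    {E : Divisor (AlgebraicClosure ℚ) (modularFunctionFieldBar N)}
    (hE : E ∈ integralPrincipalDivisors A (IsLocalRing.residue A) N) : re41_Good A N r E := by
  obtain ⟨y, hy, hyk, hne, hEy⟩ := hE
  refine ⟨y, 1, hy, ?_, hyk, ?_, hne, ?_, ?_, ?_⟩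
  · rw [map_one]; exact one_mem _
  · rw [map_one]; exact one_mem _
  · rw [map_one]; exact one_ne_zero
  · intro P
    have h1 : (⟨coeffMap A.subtype (1 : LaurentSeries A), by rw [map_one]; exact one_mem _⟩ :
        modularFunctionFieldBar N) = 1 := Subtype.ext (map_one _)
    rw [h1, Place.ord_one, sub_zero]
    exact hEy P
  · intro Q
    have h1 : (⟨coeffMap (IsLocalRing.residue A) (1 : LaurentSeries A),
        by rw [map_one]; exact one_mem _⟩ :
        modularFunctionFieldFullC (IsLocalRing.ResidueField A) N) = 1 := Subtype.ext (map_one _)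
    rw [h1, Place.ord_one, sub_zero]
    exact hr.2 y hy hyk hne E hEy Q

theorem re41_good_neg {E : Divisor (AlgebraicClosure ℚ) (modularFunctionFieldBar N)}
    (hE : re41_Good A N r E) : re41_Good A N r (-E) := by
  obtain ⟨a, b, ha, hb, hak, hbk, hane, hbne, hP, hQ⟩ := hE
  refine ⟨b, a, hb, ha, hbk, hak, hbne, hane, ?_, ?_⟩
  · intro P
    rw [Finsupp.neg_apply, hP P, neg_sub]
  · intro Q
    have h := hQ Q
    have hneg : Finsupp.mapDomain r (-E) = -Finsupp.mapDomain r E := by
      rw [← Finsupp.mapDomain.addMonoidHom_apply, map_neg, Finsupp.mapDomain.addMonoidHom_apply]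
    rw [hneg, Finsupp.neg_apply, h, neg_sub]

theorem re41_good_add {E E' : Divisor (AlgebraicClosure ℚ) (modularFunctionFieldBar N)}
    (hE : re41_Good A N r E) (hE' : re41_Good A N r E') : re41_Good A N r (E + E') := by
  obtain ⟨a, b, ha, hb, hak, hbk, hane, hbne, hP, hQ⟩ := hE
  obtain ⟨a', b', ha', hb', hak', hbk', hane', hbne', hP', hQ'⟩ := hE'
  have haL := re41_ne_zero_of_residue_ne_zero hane
  have hbL := re41_ne_zero_of_residue_ne_zero hbne
  have haL' := re41_ne_zero_of_residue_ne_zero hane'
  have hbL' := re41_ne_zero_of_residue_ne_zero hbne'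
  refine ⟨a * a', b * b', ?_, ?_, ?_, ?_, ?_, ?_, ?_, ?_⟩
  · rw [map_mul]; exact mul_mem ha ha'
  · rw [map_mul]; exact mul_mem hb hb'
  · rw [map_mul]; exact mul_mem hak hak'
  · rw [map_mul]; exact mul_mem hbk hbk'
  · rw [map_mul]; exact mul_ne_zero hane hane'
  · rw [map_mul]; exact mul_ne_zero hbne hbne'
  · intro P
    have e1 : (⟨coeffMap A.subtype (a * a'), by rw [map_mul]; exact mul_mem ha ha'⟩ :
        modularFunctionFieldBar N) = ⟨_, ha⟩ * ⟨_, ha'⟩ := Subtype.ext (map_mul _ _ _)
    have e2 : (⟨coeffMap A.subtype (b * b'), by rw [map_mul]; exact mul_mem hb hb'⟩ :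
        modularFunctionFieldBar N) = ⟨_, hb⟩ * ⟨_, hb'⟩ := Subtype.ext (map_mul _ _ _)
    have n1 : (⟨_, ha⟩ : modularFunctionFieldBar N) ≠ 0 := fun h => haL (congrArg Subtype.val h)
    have n2 : (⟨_, ha'⟩ : modularFunctionFieldBar N) ≠ 0 := fun h => haL' (congrArg Subtype.val h)
    have n3 : (⟨_, hb⟩ : modularFunctionFieldBar N) ≠ 0 := fun h => hbL (congrArg Subtype.val h)
    have n4 : (⟨_, hb'⟩ : modularFunctionFieldBar N) ≠ 0 := fun h => hbL' (congrArg Subtype.val h)
    rw [e1, e2, P.ord_mul n1 n2, P.ord_mul n3 n4, Finsupp.add_apply, hP P, hP' P]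
    ring
  · intro Q
    have e1 : (⟨coeffMap (IsLocalRing.residue A) (a * a'),
        by rw [map_mul]; exact mul_mem hak hak'⟩ :
        modularFunctionFieldFullC (IsLocalRing.ResidueField A) N) = ⟨_, hak⟩ * ⟨_, hak'⟩ :=
      Subtype.ext (map_mul _ _ _)
    have e2 : (⟨coeffMap (IsLocalRing.residue A) (b * b'),
        by rw [map_mul]; exact mul_mem hbk hbk'⟩ :
        modularFunctionFieldFullC (IsLocalRing.ResidueField A) N) = ⟨_, hbk⟩ * ⟨_, hbk'⟩ :=
      Subtype.ext (map_mul _ _ _)
    have n1 : (⟨_, hak⟩ : modularFunctionFieldFullC (IsLocalRing.ResidueField A) N) ≠ 0 :=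
      fun h => hane (congrArg Subtype.val h)
    have n2 : (⟨_, hak'⟩ : modularFunctionFieldFullC (IsLocalRing.ResidueField A) N) ≠ 0 :=
      fun h => hane' (congrArg Subtype.val h)
    have n3 : (⟨_, hbk⟩ : modularFunctionFieldFullC (IsLocalRing.ResidueField A) N) ≠ 0 :=
      fun h => hbne (congrArg Subtype.val h)
    have n4 : (⟨_, hbk'⟩ : modularFunctionFieldFullC (IsLocalRing.ResidueField A) N) ≠ 0 :=
      fun h => hbne' (congrArg Subtype.val h)
    rw [e1, e2, Q.ord_mul n1 n2, Q.ord_mul n3 n4, Finsupp.mapDomain_add, Finsupp.add_apply,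
      hQ Q, hQ' Q]
    ring

theorem re41_good_of_principal (hr : IsPlaceReductionModL A N r)
    (hgen : PrincipalGeneratedByIntegral A (IsLocalRing.residue A) N)
    {E : Divisor (AlgebraicClosure ℚ) (modularFunctionFieldBar N)}
    (hE : E ∈ Divisor.principal (K := AlgebraicClosure ℚ) (F := modularFunctionFieldBar N)) :
    re41_Good A N r E := by
  have hE' := hgen hE
  clear hE
  induction hE' using AddSubgroup.closure_induction with
  | mem E hE => exact re41_good_of_mem hr hE
  | zero => exact re41_good_zero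
  | add E E' _ _ hE hE' => exact re41_good_add hE hE'
  | neg E _ hE => exact re41_good_neg hE

end Closure

/-- **S18 from the Kummer statement.** -/
theorem re41_result (N : ℕ) [NeZero N] (A : ValuationSubring (AlgebraicClosure ℚ))
    (h : ModularCurve.ReductionInputsModL A N) (m : ℕ) (hm0 : m ≠ 0)
    (hK : re41_KummerStar A N m) (z : ModularCurve.JZero N)
    (hmz : m • z = 0) (hz : ModularCurve.reductionModL A N z = 0) : z = 0 := by
  obtain ⟨D, rfl⟩ := Pic0.mk_surjective z
  set r := placeReductionModL h with hr_def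
  have hr : IsPlaceReductionModL A N r := isPlaceReductionModL_placeReductionModL h
  have hgen : PrincipalGeneratedByIntegral A (IsLocalRing.residue A) N := h.choose_spec.2
  -- `m • D` is principal
  have hmD : ((m • D : Divisor.degZero (K := AlgebraicClosure ℚ) (F := modularFunctionFieldBar N)) :
      Divisor (AlgebraicClosure ℚ) (modularFunctionFieldBar N)) ∈
      Divisor.principal (K := AlgebraicClosure ℚ) (F := modularFunctionFieldBar N) := by
    have h1 : Pic0.mk (m • D) = (0 : Pic0 (AlgebraicClosure ℚ) (modularFunctionFieldBar N)) := by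
      rw [← hmz]; rfl
    have h2 := (QuotientAddGroup.eq_zero_iff _).mp h1
    exact AddSubgroup.mem_addSubgroupOf.mp h2
  -- the reduction of `D` is principal
  have hrD : Finsupp.mapDomain r (D : Divisor (AlgebraicClosure ℚ) (modularFunctionFieldBar N)) ∈
      Divisor.principal (K := IsLocalRing.ResidueField A)
        (F := modularFunctionFieldFullC (IsLocalRing.ResidueField A) N) := by
    rw [reductionModL_mk h D] at hz
    have h2 := (QuotientAddGroup.eq_zero_iff _).mp hz
    exact AddSubgroup.mem_addSubgroupOf.mp h2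
  obtain ⟨g, hg0, hg⟩ := hrD
  obtain ⟨a, b, ha, hb, hak, hbk, hane, hbne, hP, hQ⟩ := re41_good_of_principal hr hgen hmD
  have haL := re41_ne_zero_of_residue_ne_zero hane
  have hbL := re41_ne_zero_of_residue_ne_zero hbne
  have n1 : (⟨_, ha⟩ : modularFunctionFieldBar N) ≠ 0 := fun h => haL (congrArg Subtype.val h)
  have n3 : (⟨_, hb⟩ : modularFunctionFieldBar N) ≠ 0 := fun h => hbL (congrArg Subtype.val h)
  have k1 : (⟨_, hak⟩ : modularFunctionFieldFullC (IsLocalRing.ResidueField A) N) ≠ 0 :=
    fun h => hane (congrArg Subtype.val h)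
  have k3 : (⟨_, hbk⟩ : modularFunctionFieldFullC (IsLocalRing.ResidueField A) N) ≠ 0 :=
    fun h => hbne (congrArg Subtype.val h)
  have hcoe : ((m • D : Divisor.degZero (K := AlgebraicClosure ℚ) (F := modularFunctionFieldBar N)) :
      Divisor (AlgebraicClosure ℚ) (modularFunctionFieldBar N)) =
      m • (D : Divisor (AlgebraicClosure ℚ) (modularFunctionFieldBar N)) := rfl
  obtain ⟨v, hv0, hv⟩ := hK a b ha hb hak hbk hane hbne
    ⟨g, hg0, fun Q => by
      rw [re41_ord_div Q k1 k3, ← hQ Q, hcoe, Finsupp.mapDomain_smul, Finsupp.smul_apply, hg Q,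
        nsmul_eq_mul]⟩
    (fun P => by
      rw [re41_ord_div P n1 n3, ← hP P, hcoe, Finsupp.smul_apply, nsmul_eq_mul]
      exact dvd_mul_right _ _)
  -- `D` is principal
  have hDprin : (D : Divisor (AlgebraicClosure ℚ) (modularFunctionFieldBar N)) ∈
      Divisor.principal (K := AlgebraicClosure ℚ) (F := modularFunctionFieldBar N) := by
    refine ⟨v, hv0, fun P => ?_⟩
    have h1 := hv P
    rw [re41_ord_div P n1 n3, ← hP P, hcoe, Finsupp.smul_apply, nsmul_eq_mul] at h1
    exact mul_left_cancel₀ (by exact_mod_cast hm0) h1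
  exact (QuotientAddGroup.eq_zero_iff _).mpr (AddSubgroup.mem_addSubgroupOf.mpr hDprin)

end Fermat.Agent.S18
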