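import Fermat.Agent.S18.RElim41
import Fermat.Agent.S24.AsmBridgeB
import Fermat.Agent.S24.AsmDegree
import Fermat.Agent.S24.ModData
import Fermat.Agent.S24.PlacesBasic

/-!
# S18: the complete `r`-elimination wrapper (helper41, backup of row C3)

`re41_main` : the frozen statement S18 for a fixed `m` from the statement `re41_Star A N m`
(equal nonzero reductions, `m ∣ ord_P(a_L / b_L)` for all `P` ⟹ `a_L / b_L` is an `m`-th power).
The constants of `F_k` are handled with the place reduction `r` itself (degree argument), so no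
place theory in characteristic `ℓ` is needed.
-/

set_option autoImplicit false
set_option synthInstance.maxHeartbeats 400000

open HahnSeries IntermediateField AlgebraicCurve ModularCurve

namespace Fermat.Agent.S18

open Fermat.Agent.S24

/-- The residue field of a valuation subring of an algebraically closed field is algebraically
closed. -/
theorem re41_isAlgClosed_residueField {K : Type*} [Field K] [IsAlgClosed K]
    (A : ValuationSubring K) : IsAlgClosed (IsLocalRing.ResidueField A) := by
  apply IsAlgClosed.of_exists_root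
  intro p hpm hpirr
  have hlift : p ∈ Polynomial.lifts (IsLocalRing.residue A) :=
    (Polynomial.mem_lifts p).mpr (Polynomial.map_surjective _ IsLocalRing.residue_surjective p)
  obtain ⟨P, hP, -, hPm⟩ := Polynomial.lifts_and_natDegree_eq_and_monic hlift hpm
  have hdeg : (P.map (algebraMap A K)).degree ≠ 0 := by
    rw [Polynomial.degree_map_eq_of_injective (FaithfulSMul.algebraMap_injective A K)]
    intro h0
    have h1 : P.natDegree = 0 := Polynomial.natDegree_eq_zero_iff_degree_le_zero.mpr h0.le
    have h2 : P = 1 := by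
      rw [Polynomial.eq_C_of_natDegree_eq_zero h1] 
      have := hPm.leadingCoeff
      rw [Polynomial.leadingCoeff, h1] at this
      rw [this, map_one]
    rw [h2, Polynomial.map_one] at hP
    exact hpirr.not_isUnit (hP ▸ isUnit_one)
  obtain ⟨α, hα⟩ := IsAlgClosed.exists_root (P.map (algebraMap A K)) hdeg
  have hint : IsIntegral A α := ⟨P, hPm, by rwa [Polynomial.eval₂_eq_eval_map]⟩
  obtain ⟨a, rfl⟩ := IsIntegrallyClosed.isIntegral_iff.mp hint
  refine ⟨IsLocalRing.residue A a, ?_⟩
  rw [← hP, Polynomial.eval_map, Polynomial.eval₂_at_apply]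
  have h0 : P.eval a = 0 := by
    have := hα
    rw [Polynomial.IsRoot, Polynomial.eval_map, Polynomial.eval₂_at_apply] at this
    exact FaithfulSMul.algebraMap_injective A K (by rw [this, map_zero])
  rw [h0, map_zero]

/-- Elements of `F_k` obtained by reducing integral series of `F_L`. -/
def re41_Liftable (A : ValuationSubring (AlgebraicClosure ℚ)) (N : ℕ)
    (x : LaurentSeries (IsLocalRing.ResidueField A)) : Prop :=
  ∃ y : LaurentSeries A, coeffMap A.subtype y ∈ modularFunctionFieldBar N ∧
    coeffMap (IsLocalRing.residue A) y = x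

variable {A : ValuationSubring (AlgebraicClosure ℚ)} {N : ℕ}

theorem re41_liftable_gen {d : ℕ} [NeZero d] (hd : d ∣ N) :
    re41_Liftable A N (qExpand (IsLocalRing.ResidueField A) d (jqModC (IsLocalRing.ResidueField A))) := by
  refine ⟨qExpand A d (jqModC A), ?_, ?_⟩
  · rw [coeffMap_qExpand, coeffMap_jqModC]
    have h := coeffEmb_mem_laurentBaseChange (AlgebraicClosure ℚ) (jqd_mem_full N hd)
    have e : coeffEmb (AlgebraicClosure ℚ) (qExpand ℚ d jq) =
        qExpand (AlgebraicClosure ℚ) d (jqModC (AlgebraicClosure ℚ)) := by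
      show coeffMap (algebraMap ℚ (AlgebraicClosure ℚ)) (qExpand ℚ d (jqModC ℚ)) = _
      rw [coeffMap_qExpand, coeffMap_jqModC]
    rw [e] at h
    exact h
  · rw [coeffMap_qExpand, coeffMap_jqModC]

theorem re41_liftable_algebraMap (c : IsLocalRing.ResidueField A) :
    re41_Liftable A N (algebraMap (IsLocalRing.ResidueField A)
      (LaurentSeries (IsLocalRing.ResidueField A)) c) := by
  obtain ⟨a, rfl⟩ := IsLocalRing.residue_surjective c
  refine ⟨HahnSeries.single 0 a, ?_, ?_⟩
  · rw [coeffMap_single]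
    have h := (modularFunctionFieldBar N).algebraMap_mem (a : AlgebraicClosure ℚ)
    rw [algebraMap_laurentSeries_eq_single] at h
    exact h
  · rw [coeffMap_single, algebraMap_laurentSeries_eq_single]

theorem re41_liftable_add {x x' : LaurentSeries (IsLocalRing.ResidueField A)}
    (hx : re41_Liftable A N x) (hx' : re41_Liftable A N x') : re41_Liftable A N (x + x') := by
  obtain ⟨y, hy, rfl⟩ := hx
  obtain ⟨y', hy', rfl⟩ := hx'
  exact ⟨y + y', by rw [map_add]; exact add_mem hy hy', map_add _ _ _⟩

theorem re41_liftable_mul {x x' : LaurentSeries (IsLocalRing.ResidueField A)}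
    (hx : re41_Liftable A N x) (hx' : re41_Liftable A N x') : re41_Liftable A N (x * x') := by
  obtain ⟨y, hy, rfl⟩ := hx
  obtain ⟨y', hy', rfl⟩ := hx'
  exact ⟨y * y', by rw [map_mul]; exact mul_mem hy hy', map_mul _ _ _⟩

theorem re41_liftable_of_mem_adjoin [NeZero N] {x : LaurentSeries (IsLocalRing.ResidueField A)}
    (hx : x ∈ Algebra.adjoin (IsLocalRing.ResidueField A)
      (divisorExpansionsC (IsLocalRing.ResidueField A) N)) : re41_Liftable A N x := by
  induction hx using Algebra.adjoin_induction with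
  | mem x hx =>
    obtain ⟨d, hd0, hd, rfl⟩ := hx
    exact re41_liftable_gen hd
  | algebraMap c => exact re41_liftable_algebraMap c
  | add x y _ _ hx hy => exact re41_liftable_add hx hy
  | mul x y _ _ hx hy => exact re41_liftable_mul hx hy

/-- Every element of `F_k` is a quotient of reductions of integral series of `F_L`. -/
theorem re41_exists_lift [NeZero N] {x : LaurentSeries (IsLocalRing.ResidueField A)}
    (hx : x ∈ modularFunctionFieldFullC (IsLocalRing.ResidueField A) N) :
    ∃ P Q : LaurentSeries A, coeffMap A.subtype P ∈ modularFunctionFieldBar N ∧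
      coeffMap A.subtype Q ∈ modularFunctionFieldBar N ∧
      coeffMap (IsLocalRing.residue A) P ∈ modularFunctionFieldFullC (IsLocalRing.ResidueField A) N ∧
      coeffMap (IsLocalRing.residue A) Q ∈ modularFunctionFieldFullC (IsLocalRing.ResidueField A) N ∧
      coeffMap (IsLocalRing.residue A) Q ≠ 0 ∧
      x * coeffMap (IsLocalRing.residue A) Q = coeffMap (IsLocalRing.residue A) P := by
  obtain ⟨r, hr, s, hs, rfl⟩ := IntermediateField.mem_adjoin_iff_div.mp hx
  have hsub : ∀ t, t ∈ Algebra.adjoin (IsLocalRing.ResidueField A)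
      (divisorExpansionsC (IsLocalRing.ResidueField A) N) →
      t ∈ modularFunctionFieldFullC (IsLocalRing.ResidueField A) N := fun t ht =>
    IntermediateField.algebra_adjoin_le_adjoin _ _ ht
  by_cases hs0 : s = 0
  · refine ⟨0, 1, ?_, ?_, ?_, ?_, ?_, ?_⟩
    · rw [map_zero]; exact zero_mem _
    · rw [map_one]; exact one_mem _
    · rw [map_zero]; exact zero_mem _
    · rw [map_one]; exact one_mem _
    · rw [map_one]; exact one_ne_zero
    · rw [hs0, div_zero, zero_mul, map_zero]
  · obtain ⟨P, hP, rfl⟩ := re41_liftable_of_mem_adjoin (A := A) hr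
    obtain ⟨Q, hQ, rfl⟩ := re41_liftable_of_mem_adjoin (A := A) hs
    exact ⟨P, Q, hP, hQ, hsub _ hr, hsub _ hs, hs0, div_mul_cancel₀ _ hs0⟩

section Tot

/-- The sum of all coefficients of a finitely supported integer-valued function. -/
noncomputable def re41_tot {α : Type*} : (α →₀ ℤ) →+ ℤ := Finsupp.liftAddHom (fun _ => AddMonoidHom.id ℤ)

theorem re41_tot_apply {α : Type*} (D : α →₀ ℤ) : re41_tot D = ∑ x ∈ D.support, D x := by
  simp [re41_tot, Finsupp.sum]

theorem re41_tot_mapDomain {α β : Type*} (f : α → β) (D : α →₀ ℤ) :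
    re41_tot (Finsupp.mapDomain f D) = re41_tot D := by
  induction D using Finsupp.induction with
  | zero => simp
  | single_add a n D _ _ ih =>
    rw [Finsupp.mapDomain_add, map_add, map_add, ih, Finsupp.mapDomain_single]
    simp [re41_tot]

theorem re41_tot_pos {α : Type*} (D : α →₀ ℤ) (h : ∀ x, 0 ≤ D x) (x0 : α) (h0 : 0 < D x0) :
    0 < re41_tot D := by
  rw [re41_tot_apply]
  have hx0 : x0 ∈ D.support := Finsupp.mem_support_iff.mpr h0.ne'
  exact lt_of_lt_of_le h0 (Finset.single_le_sum (fun x _ => h x) hx0)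

end Tot

section CharZeroSide

variable (N : ℕ) [NeZero N]

theorem re41_finiteDimensional :
    FiniteDimensional
      (AlgebraicClosure ℚ)⟮(⟨JJ 1, asmAb_JJ_mem N 1 (one_dvd N)⟩ : modularFunctionFieldBar N)⟯
      (modularFunctionFieldBar N) := by
  obtain ⟨D⟩ := wpA_nonempty_modularData N
  let _ := D.fieldM
  let _ := D.algM
  let _ := D.actM
  obtain ⟨ι, hι, hΓ⟩ := asmAb_exists_iota N D
  exact (asmA_finrank N D ι ⟨JJ 1, asmAb_JJ_mem N 1 (one_dvd N)⟩
    ⟨JJ N, asmAb_JJ_mem N N dvd_rfl⟩ (hι 1 (one_dvd N)) (hι N dvd_rfl) hΓ).1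

/-- Every nonzero element of `F_L` has a divisor, of total degree zero. -/
theorem re41_exists_div (f : modularFunctionFieldBar N) (hf : f ≠ 0) :
    ∃ E : Divisor (AlgebraicClosure ℚ) (modularFunctionFieldBar N),
      (∀ P, E P = P.ord f) ∧ re41_tot E = 0 := by
  have := re41_finiteDimensional N
  have hx := asmAb_transcendental N
  have hfin := wp1_finite_ord_ne_zero _ hx f hf
  refine ⟨Finsupp.ofSupportFinite (fun P => P.ord f) hfin, fun P => rfl, ?_⟩
  rw [re41_tot_apply]
  exact wp1_sum_ord_eq_zero _ hx f hf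

theorem re41_deg_eq_one (P : Place (AlgebraicClosure ℚ) (modularFunctionFieldBar N)) :
    P.deg = 1 := by
  have := re41_finiteDimensional N
  exact wp1_deg_eq_one _ (asmAb_transcendental N) P

end CharZeroSide

section ResidueSide

variable {k F : Type*} [Field k] [Field F] [Algebra k F]

/-- At a place of degree one, every element of the valuation ring is congruent to a constant. -/
theorem re41_exists_const_of_deg_one (Q : Place k F) (hQ : Q.deg = 1) (f : F)
    (hf : 0 ≤ Q.ord f) :
    ∃ c : k, f = algebraMap k F c ∨ 0 < Q.ord (f - algebraMap k F c) := by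
  have hfmem : f ∈ Q.toValuationSubring := (wp1_mem_iff_ord_nonneg Q f).mpr hf
  have hsurj : ∀ w : Q.ResidueField, ∃ c : k, c • (1 : Q.ResidueField) = w :=
    (finrank_eq_one_iff_of_nonzero' (1 : Q.ResidueField) one_ne_zero).mp hQ
  obtain ⟨c, hc⟩ := hsurj (IsLocalRing.residue _ ⟨f, hfmem⟩)
  refine ⟨c, ?_⟩
  by_cases hfc : f = algebraMap k F c
  · exact Or.inl hfc
  right
  have hne : f - algebraMap k F c ≠ 0 := sub_ne_zero.mpr hfc
  rw [wp1b_ord_pos_iff Q hne]
  have hmem : (⟨f, hfmem⟩ - algebraMap k Q.toValuationSubring c : Q.toValuationSubring) ∈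
      IsLocalRing.maximalIdeal Q.toValuationSubring := by
    rw [← IsLocalRing.residue_eq_zero_iff, map_sub, ← hc, sub_eq_zero,
      ← Algebra.algebraMap_eq_smul_one]
    rfl
  have h1 := Q.adicValuation_coe (⟨f, hfmem⟩ - algebraMap k Q.toValuationSubring c)
  have h2 : ((⟨f, hfmem⟩ - algebraMap k Q.toValuationSubring c : Q.toValuationSubring) : F) =
      f - algebraMap k F c := rfl
  rw [h2] at h1
  rw [h1, IsDedekindDomain.HeightOneSpectrum.intValuation_lt_one_iff_mem]
  exact hmem

end ResidueSide

section Const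

variable {A : ValuationSubring (AlgebraicClosure ℚ)} {N : ℕ} [NeZero N]
variable {r : Place (AlgebraicClosure ℚ) (modularFunctionFieldBar N) →
  Place (IsLocalRing.ResidueField A) (modularFunctionFieldFullC (IsLocalRing.ResidueField A) N)}

theorem re41_single_mem_bar (N : ℕ) (c : AlgebraicClosure ℚ) :
    (HahnSeries.single 0 c : LaurentSeries (AlgebraicClosure ℚ)) ∈ modularFunctionFieldBar N := by
  have h := (modularFunctionFieldBar N).algebraMap_mem c
  rw [algebraMap_laurentSeries_eq_single] at h
  exact h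

set_option maxHeartbeats 3200000 in
/-- **Constants of `F_k` through the place reduction.** If the reduced quotient `ā / b̄` has
trivial divisor, then `ā = c̄ · b̄` for a constant `c̄`. -/
theorem re41_const (hr : IsPlaceReductionModL A N r)
    (P0 : Place (AlgebraicClosure ℚ) (modularFunctionFieldBar N))
    (a b : LaurentSeries A)
    (ha : coeffMap A.subtype a ∈ modularFunctionFieldBar N)
    (hb : coeffMap A.subtype b ∈ modularFunctionFieldBar N)
    (αk βk : modularFunctionFieldFullC (IsLocalRing.ResidueField A) N)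
    (hαk : (αk : LaurentSeries (IsLocalRing.ResidueField A)) = coeffMap (IsLocalRing.residue A) a)
    (hβk : (βk : LaurentSeries (IsLocalRing.ResidueField A)) = coeffMap (IsLocalRing.residue A) b)
    (hβ0 : βk ≠ 0)
    (h0 : ∀ Q : Place (IsLocalRing.ResidueField A)
        (modularFunctionFieldFullC (IsLocalRing.ResidueField A) N), Q.ord (αk / βk) = 0) :
    ∃ c : A, αk = algebraMap (IsLocalRing.ResidueField A)
      (modularFunctionFieldFullC (IsLocalRing.ResidueField A) N) (IsLocalRing.residue A c) * βk := by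
  have hQ0 : (r P0).deg = 1 := by rw [hr.1 P0]; exact re41_deg_eq_one N P0
  obtain ⟨cbar, hc⟩ := re41_exists_const_of_deg_one (r P0) hQ0 (αk / βk)
    (le_of_eq (h0 (r P0)).symm)
  obtain ⟨c, rfl⟩ := IsLocalRing.residue_surjective cbar
  refine ⟨c, ?_⟩
  generalize hγ : algebraMap (IsLocalRing.ResidueField A)
      (modularFunctionFieldFullC (IsLocalRing.ResidueField A) N) (IsLocalRing.residue A c) = γ
    at hc ⊢
  have hγv : (γ : LaurentSeries (IsLocalRing.ResidueField A)) =
      HahnSeries.single 0 (IsLocalRing.residue A c) := by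
    rw [← hγ, ← algebraMap_laurentSeries_eq_single]
    rfl
  have hγmem : ∀ Q : Place (IsLocalRing.ResidueField A)
      (modularFunctionFieldFullC (IsLocalRing.ResidueField A) N), γ ∈ Q.toValuationSubring := by
    intro Q
    rw [← hγ]
    exact Q.algebraMap_mem' _
  have hX : αk / βk = γ := by
    rcases hc with hc | hc
    · exact hc
    · exfalso
      have hXc : αk / βk - γ ≠ 0 := by
        intro h
        rw [h, Place.ord_zero] at hc
        exact lt_irrefl _ hc
      have hy : coeffMap A.subtype (a - HahnSeries.single 0 c * b) ∈ modularFunctionFieldBar N := by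
        rw [map_sub, map_mul, coeffMap_single]
        exact sub_mem ha (mul_mem (re41_single_mem_bar N _) hb)
      have hyv : ((βk * (αk / βk - γ) : modularFunctionFieldFullC (IsLocalRing.ResidueField A) N) :
          LaurentSeries (IsLocalRing.ResidueField A)) =
          coeffMap (IsLocalRing.residue A) (a - HahnSeries.single 0 c * b) := by
        rw [mul_sub, mul_div_cancel₀ _ hβ0, map_sub, map_mul, coeffMap_single, ← hαk, ← hβk, ← hγv,
          mul_comm βk γ]
        rfl
      have hbk : coeffMap (IsLocalRing.residue A) b ∈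
          modularFunctionFieldFullC (IsLocalRing.ResidueField A) N := hβk ▸ βk.2
      have hyk : coeffMap (IsLocalRing.residue A) (a - HahnSeries.single 0 c * b) ∈
          modularFunctionFieldFullC (IsLocalRing.ResidueField A) N := hyv ▸ (βk * (αk / βk - γ)).2
      have ebk : (⟨_, hbk⟩ : modularFunctionFieldFullC (IsLocalRing.ResidueField A) N) = βk :=
        Subtype.ext hβk.symm
      have eyk : (⟨_, hyk⟩ : modularFunctionFieldFullC (IsLocalRing.ResidueField A) N) =
          βk * (αk / βk - γ) := Subtype.ext hyv.symm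
      have hbne : coeffMap (IsLocalRing.residue A) b ≠ 0 := by
        intro h
        apply hβ0
        apply Subtype.ext
        rw [hβk, h]
        rfl
      have hyne : coeffMap (IsLocalRing.residue A) (a - HahnSeries.single 0 c * b) ≠ 0 := by
        intro h
        apply mul_ne_zero hβ0 hXc
        apply Subtype.ext
        rw [hyv, h]
        rfl
      have hyL0 : (⟨_, hy⟩ : modularFunctionFieldBar N) ≠ 0 :=
        fun h => re41_ne_zero_of_residue_ne_zero hyne (congrArg Subtype.val h)
      have hbL0 : (⟨_, hb⟩ : modularFunctionFieldBar N) ≠ 0 :=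
        fun h => re41_ne_zero_of_residue_ne_zero hbne (congrArg Subtype.val h)
      obtain ⟨E1, hE1, hE1t⟩ := re41_exists_div N ⟨_, hy⟩ hyL0
      obtain ⟨E2, hE2, hE2t⟩ := re41_exists_div N ⟨_, hb⟩ hbL0
      have h1 := hr.2 _ hy hyk hyne E1 hE1
      have h2 := hr.2 b hb hbk hbne E2 hE2
      rw [eyk] at h1
      rw [ebk] at h2
      have hD' : ∀ Q, (Finsupp.mapDomain r E1 - Finsupp.mapDomain r E2) Q =
          Q.ord (αk / βk - γ) := by
        intro Q
        rw [Finsupp.sub_apply, h1 Q, h2 Q, Q.ord_mul hβ0 hXc]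
        ring
      have hnn : ∀ Q, 0 ≤ (Finsupp.mapDomain r E1 - Finsupp.mapDomain r E2) Q := by
        intro Q
        rw [hD' Q, ← wp1_mem_iff_ord_nonneg]
        exact Q.toValuationSubring.sub_mem
          ((wp1_mem_iff_ord_nonneg Q _).mpr (le_of_eq (h0 Q).symm)) (hγmem Q)
      have hpos := re41_tot_pos _ hnn (r P0) (by rw [hD']; exact hc)
      rw [map_sub, re41_tot_mapDomain, re41_tot_mapDomain, hE1t, hE2t, sub_zero] at hpos
      exact lt_irrefl _ hpos
  rw [← hX, div_mul_cancel₀ _ hβ0]

end Const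

/-- The function-field statement `(**)`: integral series with equal nonzero reductions whose
quotient has divisor divisible by `m` have an `m`-th power quotient. -/
def re41_Star (A : ValuationSubring (AlgebraicClosure ℚ)) (N m : ℕ) : Prop :=
  ∀ (a b : LaurentSeries A)
    (ha : coeffMap A.subtype a ∈ modularFunctionFieldBar N)
    (hb : coeffMap A.subtype b ∈ modularFunctionFieldBar N),
    coeffMap (IsLocalRing.residue A) a ∈
      modularFunctionFieldFullC (IsLocalRing.ResidueField A) N →
    coeffMap (IsLocalRing.residue A) a = coeffMap (IsLocalRing.residue A) b →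
    coeffMap (IsLocalRing.residue A) a ≠ 0 →
    (∀ P : Place (AlgebraicClosure ℚ) (modularFunctionFieldBar N),
      (m : ℤ) ∣ P.ord ((⟨_, ha⟩ : modularFunctionFieldBar N) / ⟨_, hb⟩)) →
    ∃ v : modularFunctionFieldBar N, v ^ m = ⟨_, ha⟩ / ⟨_, hb⟩

section Assemble

variable {A : ValuationSubring (AlgebraicClosure ℚ)} {N : ℕ} [NeZero N] {m : ℕ}

set_option maxHeartbeats 6400000 in
/-- The Kummer form used by `re41_result` follows from `(**)`. -/
theorem re41_kummerStar_of_star (h : ReductionInputsModL A N) (hm0 : m ≠ 0)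
    (hStar : re41_Star A N m) : re41_KummerStar A N m := by
  intro a b ha hb hak hbk hane hbne hg hdiv
  obtain ⟨g, hg0, hg⟩ := hg
  rcases isEmpty_or_nonempty (Place (AlgebraicClosure ℚ) (modularFunctionFieldBar N)) with
    hemp | ⟨⟨P0⟩⟩
  · exact ⟨1, one_ne_zero, fun P => (hemp.false P).elim⟩
  have hr := isPlaceReductionModL_placeReductionModL h
  obtain ⟨p, q, hp, hq, hpk, hqk, hqne, hgq⟩ := re41_exists_lift (A := A) g.2
  have hpne : coeffMap (IsLocalRing.residue A) p ≠ 0 := by
    rw [← hgq]
    exact mul_ne_zero (fun h0 => hg0 (Subtype.ext h0)) hqne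
  -- names for the elements of the two fields
  generalize haL : (⟨_, ha⟩ : modularFunctionFieldBar N) = aL at hdiv ⊢
  generalize hbL : (⟨_, hb⟩ : modularFunctionFieldBar N) = bL at hdiv ⊢
  generalize hαk : (⟨_, hak⟩ : modularFunctionFieldFullC (IsLocalRing.ResidueField A) N) = αk at hg
  generalize hβk : (⟨_, hbk⟩ : modularFunctionFieldFullC (IsLocalRing.ResidueField A) N) = βk at hg
  have haLv : (aL : LaurentSeries (AlgebraicClosure ℚ)) = coeffMap A.subtype a := by rw [← haL]
  have hbLv : (bL : LaurentSeries (AlgebraicClosure ℚ)) = coeffMap A.subtype b := by rw [← hbL]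
  have hαkv : (αk : LaurentSeries (IsLocalRing.ResidueField A)) =
      coeffMap (IsLocalRing.residue A) a := by rw [← hαk]
  have hβkv : (βk : LaurentSeries (IsLocalRing.ResidueField A)) =
      coeffMap (IsLocalRing.residue A) b := by rw [← hβk]
  obtain ⟨pL, hpLv⟩ : ∃ x : modularFunctionFieldBar N,
      (x : LaurentSeries (AlgebraicClosure ℚ)) = coeffMap A.subtype p := ⟨⟨_, hp⟩, rfl⟩
  obtain ⟨qL, hqLv⟩ : ∃ x : modularFunctionFieldBar N,
      (x : LaurentSeries (AlgebraicClosure ℚ)) = coeffMap A.subtype q := ⟨⟨_, hq⟩, rfl⟩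
  obtain ⟨pk, hpkv⟩ : ∃ x : modularFunctionFieldFullC (IsLocalRing.ResidueField A) N,
      (x : LaurentSeries (IsLocalRing.ResidueField A)) = coeffMap (IsLocalRing.residue A) p :=
    ⟨⟨_, hpk⟩, rfl⟩
  obtain ⟨qk, hqkv⟩ : ∃ x : modularFunctionFieldFullC (IsLocalRing.ResidueField A) N,
      (x : LaurentSeries (IsLocalRing.ResidueField A)) = coeffMap (IsLocalRing.residue A) q :=
    ⟨⟨_, hqk⟩, rfl⟩
  -- nonvanishing
  have haL0 : aL ≠ 0 := by
    intro h0
    apply re41_ne_zero_of_residue_ne_zero hane
    rw [← haLv, h0]; rfl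
  have hbL0 : bL ≠ 0 := by
    intro h0
    apply re41_ne_zero_of_residue_ne_zero hbne
    rw [← hbLv, h0]; rfl
  have hpL0 : pL ≠ 0 := by
    intro h0
    apply re41_ne_zero_of_residue_ne_zero hpne
    rw [← hpLv, h0]; rfl
  have hqL0 : qL ≠ 0 := by
    intro h0
    apply re41_ne_zero_of_residue_ne_zero hqne
    rw [← hqLv, h0]; rfl
  have hα0 : αk ≠ 0 := by
    intro h0
    apply hane
    rw [← hαkv, h0]; rfl
  have hβ0 : βk ≠ 0 := by
    intro h0
    apply hbne
    rw [← hβkv, h0]; rfl
  have hpk0 : pk ≠ 0 := by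
    intro h0
    apply hpne
    rw [← hpkv, h0]; rfl
  have hqk0 : qk ≠ 0 := by
    intro h0
    apply hqne
    rw [← hqkv, h0]; rfl
  have hgqk : g * qk = pk := by
    apply Subtype.ext
    show (g : LaurentSeries (IsLocalRing.ResidueField A)) * qk = pk
    rw [hqkv, hpkv, hgq]
  -- the modified pair `a q^m`, `b p^m`
  have ha1 : coeffMap A.subtype (a * q ^ m) ∈ modularFunctionFieldBar N := by
    rw [map_mul, map_pow]; exact mul_mem ha (pow_mem hq m)
  have hb1 : coeffMap A.subtype (b * p ^ m) ∈ modularFunctionFieldBar N := by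
    rw [map_mul, map_pow]; exact mul_mem hb (pow_mem hp m)
  have hα1 : ((αk * qk ^ m : modularFunctionFieldFullC (IsLocalRing.ResidueField A) N) :
      LaurentSeries (IsLocalRing.ResidueField A)) = coeffMap (IsLocalRing.residue A) (a * q ^ m) := by
    rw [map_mul, map_pow, ← hαkv, ← hqkv]; rfl
  have hβ1 : ((βk * pk ^ m : modularFunctionFieldFullC (IsLocalRing.ResidueField A) N) :
      LaurentSeries (IsLocalRing.ResidueField A)) = coeffMap (IsLocalRing.residue A) (b * p ^ m) := by
    rw [map_mul, map_pow, ← hβkv, ← hpkv]; rfl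
  have h0 : ∀ Q : Place (IsLocalRing.ResidueField A)
      (modularFunctionFieldFullC (IsLocalRing.ResidueField A) N),
      Q.ord (αk * qk ^ m / (βk * pk ^ m)) = 0 := by
    intro Q
    have e : αk * qk ^ m / (βk * pk ^ m) = αk / βk * (g ^ m)⁻¹ := by
      rw [← hgqk, mul_pow]
      field_simp
    rw [e, Q.ord_mul (div_ne_zero hα0 hβ0) (inv_ne_zero (pow_ne_zero m hg0)), Q.ord_inv,
      ← zpow_natCast, Q.ord_zpow, hg Q]
    ring
  obtain ⟨c, hc⟩ := re41_const hr P0 (a * q ^ m) (b * p ^ m) ha1 hb1 (αk * qk ^ m) (βk * pk ^ m)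
    hα1 hβ1 (mul_ne_zero hβ0 (pow_ne_zero m hpk0)) h0
  have hc0 : IsLocalRing.residue A c ≠ 0 := by
    intro h0
    rw [h0, map_zero, zero_mul] at hc
    exact mul_ne_zero hα0 (pow_ne_zero m hqk0) hc
  have := re41_isAlgClosed_residueField A
  obtain ⟨dbar, hd⟩ := IsAlgClosed.exists_pow_nat_eq (IsLocalRing.residue A c)
    (Nat.pos_of_ne_zero hm0)
  obtain ⟨d, rfl⟩ := IsLocalRing.residue_surjective dbar
  have hd0 : IsLocalRing.residue A d ≠ 0 := by
    intro h0
    rw [h0, zero_pow hm0] at hd
    exact hc0 hd.symm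
  have hdA : (d : AlgebraicClosure ℚ) ≠ 0 := by
    intro h0
    apply hd0
    have : d = 0 := Subtype.ext h0
    rw [this, map_zero]
  obtain ⟨dL, hdLv⟩ : ∃ x : modularFunctionFieldBar N,
      (x : LaurentSeries (AlgebraicClosure ℚ)) = HahnSeries.single 0 (d : AlgebraicClosure ℚ) :=
    ⟨⟨_, re41_single_mem_bar N _⟩, rfl⟩
  have hdL0 : dL ≠ 0 := by
    intro h0
    apply HahnSeries.single_ne_zero (Γ := ℤ) (a := 0) hdA
    rw [← hdLv, h0]; rfl
  have hb2 : coeffMap A.subtype (HahnSeries.single 0 d ^ m * (b * p ^ m)) ∈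
      modularFunctionFieldBar N := by
    rw [map_mul, map_pow, coeffMap_single]
    exact mul_mem (pow_mem (re41_single_mem_bar N _) m) hb1
  have hak1 : coeffMap (IsLocalRing.residue A) (a * q ^ m) ∈
      modularFunctionFieldFullC (IsLocalRing.ResidueField A) N := by
    rw [map_mul, map_pow]; exact mul_mem hak (pow_mem hqk m)
  have hane1 : coeffMap (IsLocalRing.residue A) (a * q ^ m) ≠ 0 := by
    rw [map_mul, map_pow]; exact mul_ne_zero hane (pow_ne_zero m hqne)
  have hres : coeffMap (IsLocalRing.residue A) (a * q ^ m) =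
      coeffMap (IsLocalRing.residue A) (HahnSeries.single 0 d ^ m * (b * p ^ m)) := by
    have h4 := congrArg Subtype.val hc
    rw [map_mul (coeffMap (IsLocalRing.residue A)) (HahnSeries.single 0 d ^ m), map_pow,
      coeffMap_single, ← algebraMap_laurentSeries_eq_single, ← map_pow, hd, ← hα1, ← hβ1]
    exact h4
  have e1 : (⟨_, ha1⟩ : modularFunctionFieldBar N) = aL * qL ^ m := by
    apply Subtype.ext
    show coeffMap A.subtype (a * q ^ m) = (aL : LaurentSeries (AlgebraicClosure ℚ)) * qL ^ m
    rw [map_mul, map_pow, haLv, hqLv]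
  have e2 : (⟨_, hb2⟩ : modularFunctionFieldBar N) = dL ^ m * (bL * pL ^ m) := by
    apply Subtype.ext
    show coeffMap A.subtype (HahnSeries.single 0 d ^ m * (b * p ^ m)) =
      (dL : LaurentSeries (AlgebraicClosure ℚ)) ^ m * (bL * pL ^ m)
    rw [map_mul, map_pow, map_mul, map_pow, coeffMap_single, hbLv, hpLv, hdLv]
    rfl
  have e3 : aL * qL ^ m / (dL ^ m * (bL * pL ^ m)) = aL / bL * (qL / (dL * pL)) ^ m := by
    rw [div_pow, mul_pow]
    field_simp
  obtain ⟨v, hv⟩ := hStar (a * q ^ m) (HahnSeries.single 0 d ^ m * (b * p ^ m)) ha1 hb2 hak1 hres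
    hane1 (fun P => by
      rw [e1, e2, e3, P.ord_mul (div_ne_zero haL0 hbL0)
        (pow_ne_zero m (div_ne_zero hqL0 (mul_ne_zero hdL0 hpL0))), ← zpow_natCast, P.ord_zpow]
      exact dvd_add (hdiv P) (dvd_mul_right _ _))
  rw [e1, e2] at hv
  have hw : (v * (dL * pL / qL)) ^ m = aL / bL := by
    rw [mul_pow, hv, div_pow, mul_pow]
    field_simp
  refine ⟨v * (dL * pL / qL), ?_, fun P => ?_⟩
  · intro h0
    rw [h0, zero_pow hm0] at hw
    exact div_ne_zero haL0 hbL0 hw.symm
  · rw [← hw, ← zpow_natCast, P.ord_zpow]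

/-- **S18 for a fixed exponent `m` from the function-field statement `(**)`.** -/
theorem re41_main (h : ModularCurve.ReductionInputsModL A N) (hm0 : m ≠ 0)
    (hStar : re41_Star A N m) (z : ModularCurve.JZero N)
    (hmz : m • z = 0) (hz : ModularCurve.reductionModL A N z = 0) : z = 0 :=
  re41_result N A h m hm0 (re41_kummerStar_of_star h hm0 hStar) z hmz hz

/-- **S18 from `(**)` at the prime divisors of `m`.** -/
theorem re41_main_prime (h : ModularCurve.ReductionInputsModL A N) :
    ∀ m : ℕ, m ≠ 0 → (∀ p : ℕ, p.Prime → p ∣ m → re41_Star A N p) →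
      ∀ z : ModularCurve.JZero N, m • z = 0 → ModularCurve.reductionModL A N z = 0 → z = 0 := by
  intro m
  induction m using Nat.strong_induction_on with
  | _ m ih =>
    intro hm0 hStar z hmz hz
    by_cases hm1 : m = 1
    · rw [hm1, one_smul] at hmz
      exact hmz
    obtain ⟨p, hp, hpm⟩ := Nat.exists_prime_and_dvd hm1
    obtain ⟨m', rfl⟩ := hpm
    have hm'0 : m' ≠ 0 := by
      rintro rfl
      exact hm0 (mul_zero p)
    have hz' : m' • z = 0 := by
      apply re41_main h hp.ne_zero (hStar p hp (dvd_mul_right p m')) (m' • z)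
      · rw [smul_smul]
        exact hmz
      · rw [map_nsmul, hz, smul_zero]
    have hlt : m' < p * m' := by
      have h2 := hp.two_le
      have h1 := Nat.pos_of_ne_zero hm'0
      nlinarith
    exact ih m' hlt hm'0 (fun q hq hqm => hStar q hq (dvd_mul_of_dvd_right hqm p)) z hz' hz

/-- **The frozen statement S18 from `(**)` at the primes `p ≠ ℓ`.** -/
theorem re41_S18 {ℓ : ℕ} (hStar : ∀ p : ℕ, p.Prime → p ≠ ℓ → re41_Star A N p)
    (h : ModularCurve.ReductionInputsModL A N) (m : ℕ) (hm : ¬ ℓ ∣ m)
    (z : ModularCurve.JZero N) (hmz : m • z = 0)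
    (hz : ModularCurve.reductionModL A N z = 0) : z = 0 :=
  re41_main_prime h m (by rintro rfl; exact hm (dvd_zero _))
    (fun p hp hpm => hStar p hp (by rintro rfl; exact hm hpm)) z hmz hz

end Assemble

end Fermat.Agent.S18
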