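import Fermat.Agent.S18.RElim
import Fermat.Agent.S18.RElimFull41

/-!
# S18: the constants of `F_k` for free (helper41)

`re41_relim_const` : the hypothesis `relim_Const A N` of the `r`-elimination wrapper
`relim_main_of` / `relim_main_prime_of` (helper29, `RElim.lean`) follows from
`ReductionInputsModL A N` alone: an element of `F_k` without zeros and poles is a quotient of
reductions `ā / b̄`, and the place reduction `r` transports the degree-zero divisor
`div(a - c b) - div(b)` of `F_L` to the effective nonzero divisor of `ā / b̄ - c̄`.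

`re41_relim_main` : S18 for `m` from `relim_Star` at the prime divisors of `m`, with no
further hypothesis.
-/

set_option autoImplicit false
set_option synthInstance.maxHeartbeats 400000

open HahnSeries IntermediateField AlgebraicCurve ModularCurve

namespace Fermat.Agent.S18

open Fermat.Agent.S24

/-- The function field `F_L` has a place. -/
theorem re41_exists_place (N : ℕ) [NeZero N] :
    Nonempty (Place (AlgebraicClosure ℚ) (modularFunctionFieldBar N)) := by
  have := re41_finiteDimensional N
  have hx := asmAb_transcendental N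
  by_contra hne
  have hsum := wp1_sum_ord_zeros _ hx
  have h0 : (wp1_finite_zeros _ hx).toFinset = ∅ := by
    ext v
    exact (hne ⟨v⟩).elim
  rw [h0, Finset.sum_empty] at hsum
  have hpos : 0 < Module.finrank
      (AlgebraicClosure ℚ)⟮(⟨JJ 1, asmAb_JJ_mem N 1 (one_dvd N)⟩ : modularFunctionFieldBar N)⟯
      (modularFunctionFieldBar N) := Module.finrank_pos
  exact absurd hsum (by exact_mod_cast hpos.ne)

variable {A : ValuationSubring (AlgebraicClosure ℚ)} {N : ℕ} [NeZero N]

set_option maxHeartbeats 1600000 in
/-- **The constants of `F_k`**, from the place reduction. -/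
theorem re41_relim_const (h : ReductionInputsModL A N) : relim_Const A N := by
  intro x hx0 hx
  obtain ⟨P0⟩ := re41_exists_place N
  have hr := isPlaceReductionModL_placeReductionModL h
  obtain ⟨p, q, hp, hq, hpk, hqk, hqne, hxq⟩ := re41_exists_lift (A := A) x.2
  obtain ⟨pk, hpkv⟩ : ∃ y : modularFunctionFieldFullC (IsLocalRing.ResidueField A) N,
      (y : LaurentSeries (IsLocalRing.ResidueField A)) = coeffMap (IsLocalRing.residue A) p :=
    ⟨⟨_, hpk⟩, rfl⟩
  obtain ⟨qk, hqkv⟩ : ∃ y : modularFunctionFieldFullC (IsLocalRing.ResidueField A) N,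
      (y : LaurentSeries (IsLocalRing.ResidueField A)) = coeffMap (IsLocalRing.residue A) q :=
    ⟨⟨_, hqk⟩, rfl⟩
  have hqk0 : qk ≠ 0 := by
    intro h0
    apply hqne
    rw [← hqkv, h0]; rfl
  have hxqk : x * qk = pk := by
    apply Subtype.ext
    show (x : LaurentSeries (IsLocalRing.ResidueField A)) * qk = pk
    rw [hqkv, hpkv, hxq]
  have e : pk / qk = x := by
    rw [← hxqk, mul_div_cancel_right₀ _ hqk0]
  obtain ⟨c, hc⟩ := re41_const hr P0 p q hp hq pk qk hpkv hqkv hqk0
    (fun Q => by rw [e]; exact hx Q)
  refine ⟨IsLocalRing.residue A c, ?_⟩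
  rw [← e, hc, mul_div_cancel_right₀ _ hqk0]

/-- **S18 for `m` from `relim_Star` at the prime divisors of `m`** (no other hypothesis). -/
theorem re41_relim_main (h : ReductionInputsModL A N) :
    ∀ m : ℕ, m ≠ 0 → (∀ p : ℕ, p.Prime → p ∣ m → relim_Star A N p) →
      ∀ z : JZero N, m • z = 0 → reductionModL A N z = 0 → z = 0 :=
  relim_main_prime_of h (re41_relim_const h)

/-- **The frozen statement S18 from `relim_Star` at the primes `p ≠ ℓ`.** -/
theorem re41_relim_S18 {ℓ : ℕ} (hStar : ∀ p : ℕ, p.Prime → p ≠ ℓ → relim_Star A N p)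
    (h : ReductionInputsModL A N) (m : ℕ) (hm : ¬ ℓ ∣ m)
    (z : JZero N) (hmz : m • z = 0) (hz : reductionModL A N z = 0) : z = 0 :=
  re41_relim_main h m (by rintro rfl; exact hm (dvd_zero _))
    (fun p hp hpm => hStar p hp (by rintro rfl; exact hm hpm)) z hmz hz

end Fermat.Agent.S18
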