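import Fermat.Agent.S18.SepLaurent
import Fermat.Agent.S24.Places
import Fermat.Agent.S28.CharLBridge
import Fermat.Agent.S28.JdIntegral
import Fermat.Agent.S28.ModEq
import Fermat.Agent.S28.ChartBase

/-!
# S18, row C3b (helper5): the constants of the modular function field in characteristic `ℓ`

Main results.

* `rc5_const_of_ord_nonneg` (generic): `K` algebraically closed, `F / K` a field, `y : F`
  transcendental with `F / K(y)` finite separable.  An `x : F` with `0 ≤ ord_v x` at every place
  `v` of `F / K` is a constant.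
* `rc5_const`: for every algebraically closed field `k` (any characteristic) and every level `N`,
  an element of `modularFunctionFieldFullC k N` without poles is a constant.
-/

set_option autoImplicit false
set_option linter.style.haveILetI false

open ModularCurve AlgebraicCurve IntermediateField

namespace Fermat.Agent.S18

section Generic

open IsDedekindDomain IsDedekindDomain.HeightOneSpectrum WithZero
open scoped IntermediateField.algebraAdjoinAdjoin

variable {K F : Type*} [Field K] [Field F] [Algebra K F]

/-- `K[X] ≃ K[y]` for transcendental `y`. -/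
noncomputable def rc5_polyEquiv (y : F) (hy : Transcendental K y) :
    Polynomial K ≃ₐ[K] Algebra.adjoin K {y} :=
  (AlgEquiv.ofInjective (Polynomial.aeval y) (transcendental_iff_injective.mp hy)).trans
    (Subalgebra.equivOfEq _ _ (Algebra.adjoin_singleton_eq_range_aeval K y).symm)

theorem rc5_isPrincipalIdealRing (y : F) (hy : Transcendental K y) :
    IsPrincipalIdealRing (Algebra.adjoin K {y}) :=
  IsPrincipalIdealRing.of_surjective (rc5_polyEquiv y hy).toRingEquiv.toRingHom
    (rc5_polyEquiv y hy).surjective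

theorem rc5_isScalarTower (y : F) :
    IsScalarTower K (integralClosure (Algebra.adjoin K {y}) F) F :=
  IsScalarTower.of_algebraMap_eq (fun c => by
    rw [IsScalarTower.algebraMap_apply K (Algebra.adjoin K {y})
      (integralClosure (Algebra.adjoin K {y}) F)]
    rfl)

/-- An element of `F` which is regular at all places of the affine chart `y ≠ ∞` is integral
over `K[y]` (for `F / K(y)` finite separable). -/
theorem rc5_isIntegral_of_ord_nonneg (y : F) (hy : Transcendental K y)
    [FiniteDimensional K⟮y⟯ F] [Algebra.IsSeparable K⟮y⟯ F] (x : F)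
    (hx : ∀ v : Place K F, y ∈ v.toValuationSubring → 0 ≤ v.ord x) :
    IsIntegral (Algebra.adjoin K {y}) x := by
  haveI := rc5_isPrincipalIdealRing y hy
  haveI : IsDedekindDomain (integralClosure (Algebra.adjoin K {y}) F) :=
    integralClosure.isDedekindDomain (Algebra.adjoin K {y}) K⟮y⟯ F
  haveI : IsFractionRing (integralClosure (Algebra.adjoin K {y}) F) F :=
    integralClosure.isFractionRing_of_finite_extension K⟮y⟯ F
  haveI := rc5_isScalarTower (K := K) y
  rcases eq_or_ne x 0 with rfl | hx0
  · exact isIntegral_zero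
  have hmem : x ∈ (algebraMap (integralClosure (Algebra.adjoin K {y}) F) F).range := by
    apply mem_integers_of_valuation_le_one
    intro w
    have hyv : y ∈ (Place.ofHeightOneSpectrum (K := K) w).toValuationSubring := by
      rw [Place.ofHeightOneSpectrum_toValuationSubring, Valuation.mem_valuationSubring_iff]
      have hyB : y ∈ integralClosure (Algebra.adjoin K {y}) F :=
        (integralClosure (Algebra.adjoin K {y}) F).algebraMap_mem
          ⟨y, Algebra.self_mem_adjoin_singleton K y⟩
      exact w.valuation_le_one (⟨y, hyB⟩ : integralClosure (Algebra.adjoin K {y}) F)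
    have h1 := hx (Place.ofHeightOneSpectrum (K := K) w) hyv
    rw [Fermat.Agent.S24.wp1a_ord_ofHeightOneSpectrum] at h1
    have hne : w.valuation F x ≠ 0 := (Valuation.ne_zero_iff _).mpr hx0
    rw [← WithZero.exp_log hne, ← WithZero.exp_zero, WithZero.exp_le_exp]
    omega
  obtain ⟨b, rfl⟩ := hmem
  exact b.2

/-- `K[y] ∩ K[y⁻¹] = K` for transcendental `y`. -/
theorem rc5_mem_range_of_mem_adjoin_inv (y : F) (hy : Transcendental K y) (c : F)
    (h1 : c ∈ Algebra.adjoin K {y}) (h2 : c ∈ Algebra.adjoin K {y⁻¹}) :
    c ∈ (algebraMap K F).range := by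
  rw [Algebra.adjoin_singleton_eq_range_aeval] at h1 h2
  obtain ⟨P, hP⟩ := h1
  obtain ⟨Q, hQ⟩ := h2
  replace hP : Polynomial.aeval y P = c := hP
  replace hQ : Polynomial.aeval y⁻¹ Q = c := hQ
  have hy0 : y ≠ 0 := by
    rintro rfl
    exact hy isAlgebraic_zero
  have hrefl : Polynomial.aeval y⁻¹ Q * y ^ Q.natDegree
      = Polynomial.aeval y (Q.reflect Q.natDegree) := by
    letI : Invertible y⁻¹ := invertibleOfNonzero (inv_ne_zero hy0)
    have h := Polynomial.eval₂_reflect_mul_pow (algebraMap K F) y⁻¹ Q.natDegree Q le_rfl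
    rw [invOf_eq_inv, inv_inv] at h
    rw [Polynomial.aeval_def, Polynomial.aeval_def, ← h, mul_assoc, ← mul_pow,
      inv_mul_cancel₀ hy0, one_pow, mul_one]
  have heq : P * Polynomial.X ^ Q.natDegree = Q.reflect Q.natDegree := by
    apply transcendental_iff_injective.mp hy
    rw [map_mul, map_pow, Polynomial.aeval_X, ← hrefl]
    rw [hP, hQ]
  rcases eq_or_ne P 0 with rfl | hP0'
  · exact ⟨0, by rw [← hP]; simp⟩
  have hdeg : P.natDegree + Q.natDegree = (Q.reflect Q.natDegree).natDegree := by
    rw [← heq, Polynomial.natDegree_mul_X_pow _ hP0']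
  have hle : (Q.reflect Q.natDegree).natDegree ≤ Q.natDegree :=
    Polynomial.natDegree_reflect_le.trans (by simp)
  have hP0 : P.natDegree = 0 := by omega
  rw [← hP, Polynomial.eq_C_of_natDegree_eq_zero hP0, Polynomial.aeval_C]
  exact ⟨_, rfl⟩

theorem rc5_minpoly_map_eq {E E' : IntermediateField K F} (h : E = E') (x : F) :
    (minpoly E x).map (algebraMap E F) = (minpoly E' x).map (algebraMap E' F) := by
  subst h
  rfl

theorem rc5_coeff_minpoly_mem_adjoin (y : F) (hy : Transcendental K y) (x : F)
    (hx : IsIntegral (Algebra.adjoin K {y}) x) (i : ℕ) :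
    ((minpoly K⟮y⟯ x).map (algebraMap K⟮y⟯ F)).coeff i ∈ Algebra.adjoin K {y} := by
  haveI := rc5_isPrincipalIdealRing y hy
  rw [minpoly.isIntegrallyClosed_eq_field_fractions' K⟮y⟯ hx, Polynomial.map_map,
    Polynomial.coeff_map]
  exact ((minpoly (Algebra.adjoin K {y}) x).coeff i).2

theorem rc5_adjoin_inv (y : F) : K⟮y⁻¹⟯ = K⟮y⟯ := by
  apply le_antisymm
  · exact adjoin_simple_le_iff.mpr (inv_mem (mem_adjoin_simple_self K y))
  · refine adjoin_simple_le_iff.mpr ?_
    have h := inv_mem (mem_adjoin_simple_self K y⁻¹)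
    rwa [inv_inv] at h

/-- An element integral over `K[y]` and over `K[y⁻¹]` is algebraic over `K`. -/
theorem rc5_isAlgebraic_of_isIntegral (y : F) (hy : Transcendental K y) (x : F)
    (hx : IsIntegral (Algebra.adjoin K {y}) x) (hx' : IsIntegral (Algebra.adjoin K {y⁻¹}) x) :
    IsAlgebraic K x := by
  have hy' : Transcendental K y⁻¹ := fun h => hy (by simpa using h.inv)
  have hE : K⟮y⁻¹⟯ = K⟮y⟯ := rc5_adjoin_inv y
  have hxE : IsIntegral K⟮y⟯ x := hx.tower_top
  have hcoef : ∀ i, ((minpoly K⟮y⟯ x).map (algebraMap K⟮y⟯ F)).coeff i ∈ (algebraMap K F).range := by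
    intro i
    apply rc5_mem_range_of_mem_adjoin_inv y hy
    · exact rc5_coeff_minpoly_mem_adjoin y hy x hx i
    · rw [← rc5_minpoly_map_eq hE x]
      exact rc5_coeff_minpoly_mem_adjoin y⁻¹ hy' x hx' i
  obtain ⟨g, hg⟩ := (Polynomial.lifts_iff_coeff_lifts _).mpr hcoef
  replace hg : g.map (algebraMap K F) = (minpoly K⟮y⟯ x).map (algebraMap K⟮y⟯ F) := hg
  refine ⟨g, ?_, ?_⟩
  · rintro rfl
    rw [Polynomial.map_zero] at hg
    have h0 : minpoly K⟮y⟯ x = 0 :=
      Polynomial.map_injective _ (algebraMap K⟮y⟯ F).injective (by rw [← hg, Polynomial.map_zero])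
    exact minpoly.ne_zero hxE h0
  · rw [Polynomial.aeval_def, ← Polynomial.eval_map, hg, Polynomial.eval_map,
      ← Polynomial.aeval_def, minpoly.aeval]

/-- **A function without poles is constant** (generic form): `K` algebraically closed, `F / K(y)`
finite separable. -/
theorem rc5_const_of_ord_nonneg [IsAlgClosed K] (y : F) (hy : Transcendental K y)
    [FiniteDimensional K⟮y⟯ F] [Algebra.IsSeparable K⟮y⟯ F] (x : F)
    (hx : ∀ v : Place K F, 0 ≤ v.ord x) : x ∈ (algebraMap K F).range := by
  have hy' : Transcendental K y⁻¹ := fun h => hy (by simpa using h.inv)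
  have hE : K⟮y⁻¹⟯ = K⟮y⟯ := rc5_adjoin_inv y
  haveI : FiniteDimensional K⟮y⁻¹⟯ F := by
    rw [hE]
    infer_instance
  haveI : Algebra.IsSeparable K⟮y⁻¹⟯ F := by
    rw [hE]
    infer_instance
  have h1 := rc5_isIntegral_of_ord_nonneg y hy x (fun v _ => hx v)
  have h2 := rc5_isIntegral_of_ord_nonneg y⁻¹ hy' x (fun v _ => hx v)
  have halg : IsAlgebraic K x := rc5_isAlgebraic_of_isIntegral y hy x h1 h2
  exact minpoly.mem_range_of_degree_eq_one K x
    (IsAlgClosed.degree_eq_one_of_irreducible K (minpoly.irreducible halg.isIntegral))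

/-- A field generated over `K` by finitely many elements integral over `K(t)` is finite over
`K(t)`. -/
theorem rc5_finiteDimensional_of_adjoin_eq_top (t : F) (S : Set F) (hS : S.Finite)
    (hint : ∀ x ∈ S, IsIntegral K⟮t⟯ x) (htop : IntermediateField.adjoin K S = ⊤) :
    FiniteDimensional K⟮t⟯ F := by
  haveI : Finite S := hS.to_subtype
  have hfin : FiniteDimensional K⟮t⟯ (IntermediateField.adjoin K⟮t⟯ S) :=
    IntermediateField.finiteDimensional_adjoin hint
  have htop' : IntermediateField.adjoin K⟮t⟯ S = ⊤ := by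
    rw [← IntermediateField.restrictScalars_eq_top_iff (K := K),
      IntermediateField.restrictScalars_adjoin, ← top_le_iff, ← htop]
    exact IntermediateField.adjoin.mono K _ _ Set.subset_union_right
  rw [htop'] at hfin
  exact Module.Finite.equiv (IntermediateField.topEquiv (F := K⟮t⟯) (E := F)).toLinearEquiv

/-- Separability over `K(t)` of a finite extension embedded in `K((q))`, when `ord_q t = -1` and
`K` is algebraically closed (any characteristic). -/
theorem rc5_isSeparable_of_order [IsAlgClosed K] (ι : F →+* LaurentSeries K) (t : F)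
    (ht : (ι t).order = -1) [FiniteDimensional K⟮t⟯ F] : Algebra.IsSeparable K⟮t⟯ F := by
  obtain ⟨p, hp⟩ := CharP.exists K
  rcases CharP.char_is_prime_or_zero K p with hpr | rfl
  · haveI : Fact p.Prime := ⟨hpr⟩
    refine ⟨fun x => ?_⟩
    refine rc5_isSeparable p (fun a => IsAlgClosed.exists_pow_nat_eq a hpr.pos) ι t ?_ x
      (Algebra.IsIntegral.isIntegral x)
    rw [ht, Int.dvd_neg]
    intro h
    have h1 : p ∣ 1 := by exact_mod_cast h
    exact hpr.one_lt.ne' (Nat.dvd_one.mp h1)
  · haveI : CharZero K := CharP.charP_to_charZero K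
    haveI : CharZero K⟮t⟯ := charZero_of_injective_algebraMap (algebraMap K K⟮t⟯).injective
    infer_instance

end Generic

section Modular

open Fermat.Agent.S28

variable (k : Type*) [Field k] (N : ℕ) [NeZero N]

/-- `j` as an element of `F(N)_k`. -/
noncomputable def rc5_j : modularFunctionFieldFullC k N := ⟨jqModC k, jqModC_mem_full k N⟩

omit [NeZero N] in
theorem rc5_j_coe : ((rc5_j k N : modularFunctionFieldFullC k N) : LaurentSeries k) = jqModC k :=
  rfl

theorem rc5_order_jqModC : (jqModC k).order = -1 := by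
  have hne : jqModC k ≠ 0 := jqModC_ne_zero_of_nontrivial k
  apply le_antisymm
  · exact HahnSeries.order_le_of_coeff_ne_zero (by rw [coeff_jqModC_neg_one]; exact one_ne_zero)
  · rw [HahnSeries.le_order_iff_forall hne]
    intro j hj
    exact coeff_jqModC_of_lt k hj

omit [NeZero N] in
theorem rc5_j_transcendental : Transcendental k (rc5_j k N) := by
  intro h
  exact h63_transcendental_jqModC k (IntermediateField.isAlgebraic_iff.mp h)

omit [NeZero N] in
/-- The generators `J(q^d)`, `d ∣ N`, are integral over `k(j)`. -/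
theorem rc5_isIntegral_gen (x : modularFunctionFieldFullC k N)
    (hx : (x : LaurentSeries k) ∈ divisorExpansionsC k N) : IsIntegral k⟮rc5_j k N⟯ x := by
  obtain ⟨d, hd, hdN, hxd⟩ := hx
  haveI := hd
  obtain ⟨P, hP, hP0⟩ := exists_monic_JdC_of_modEq
    (fun p hp => let ⟨Φ, hΦ, _, h, _⟩ := exists_modular_equation p hp; ⟨Φ, hΦ, h⟩) d (NeZero.ne d)
  have hPk : P.eval₂ (evJ k) (x : LaurentSeries k) = 0 := by
    have := h58_eval₂_transfer (evJ ℤ) (evJ k) (h58_coeffMap_comp_evJ k) P _ hP0
    rwa [coeffMap_JdC, JdC_of_neZero, ← hxd] at this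
  let e : Polynomial ℤ →+* k⟮rc5_j k N⟯ :=
    Polynomial.eval₂RingHom (Int.castRingHom k⟮rc5_j k N⟯) (AdjoinSimple.gen k (rc5_j k N))
  refine ⟨P.map e, hP.map e, ?_⟩
  apply Subtype.val_injective
  rw [Polynomial.eval₂_map]
  have hcomp : ((modularFunctionFieldFullC k N).val.toRingHom.comp
      ((algebraMap k⟮rc5_j k N⟯ (modularFunctionFieldFullC k N)).comp e)) = evJ k :=
    h58_eq_evJ _ (by simp [e]; rfl)
  have h2 := Polynomial.hom_eval₂ P
    ((algebraMap k⟮rc5_j k N⟯ (modularFunctionFieldFullC k N)).comp e)
    (modularFunctionFieldFullC k N).val.toRingHom x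
  rw [hcomp] at h2
  exact h2.trans hPk

omit [NeZero N] in
theorem rc5_adjoin_gen_eq_top :
    IntermediateField.adjoin k
      (Subtype.val ⁻¹' (divisorExpansionsC k N) : Set (modularFunctionFieldFullC k N)) = ⊤ := by
  have hval : Subtype.val '' (Subtype.val ⁻¹' (divisorExpansionsC k N) :
      Set (modularFunctionFieldFullC k N)) = divisorExpansionsC k N := by
    ext x
    constructor
    · rintro ⟨y, hy, rfl⟩
      exact hy
    · intro hx
      exact ⟨⟨x, subset_adjoin k _ hx⟩, hx, rfl⟩
  apply IntermediateField.lift_injective (modularFunctionFieldFullC k N)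
  rw [IntermediateField.lift_adjoin, IntermediateField.lift_top, hval]
  rfl

theorem rc5_finite_gen :
    (Subtype.val ⁻¹' (divisorExpansionsC k N) : Set (modularFunctionFieldFullC k N)).Finite := by
  have hsub : divisorExpansionsC k N ⊆ (fun d : ℕ => JdC k d) '' (N.divisors : Set ℕ) := by
    rintro x ⟨d, hd, hdN, rfl⟩
    haveI := hd
    exact ⟨d, by simpa using ⟨hdN, NeZero.ne N⟩, JdC_of_neZero k d⟩
  have hfinD : (divisorExpansionsC k N).Finite :=
    ((N.divisors.finite_toSet).image _).subset hsub
  exact hfinD.preimage Subtype.val_injective.injOn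

theorem rc5_finiteDimensional :
    FiniteDimensional k⟮rc5_j k N⟯ (modularFunctionFieldFullC k N) :=
  rc5_finiteDimensional_of_adjoin_eq_top (rc5_j k N) _ (rc5_finite_gen k N)
    (fun x hx => rc5_isIntegral_gen k N x hx) (rc5_adjoin_gen_eq_top k N)

theorem rc5_isSeparable_full [IsAlgClosed k] :
    Algebra.IsSeparable k⟮rc5_j k N⟯ (modularFunctionFieldFullC k N) := by
  haveI := rc5_finiteDimensional k N
  exact rc5_isSeparable_of_order (modularFunctionFieldFullC k N).val.toRingHom (rc5_j k N)
    (rc5_order_jqModC k)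

/-- **The constants of `F(N)_k`.** For `k` algebraically closed (any characteristic), an element of
`modularFunctionFieldFullC k N` without poles is a constant. -/
theorem rc5_const_of_nonneg [IsAlgClosed k] (x : modularFunctionFieldFullC k N)
    (h : ∀ Q : Place k (modularFunctionFieldFullC k N), 0 ≤ Q.ord x) :
    ∃ c : k, x = algebraMap k (modularFunctionFieldFullC k N) c := by
  haveI := rc5_finiteDimensional k N
  haveI := rc5_isSeparable_full k N
  obtain ⟨c, hc⟩ := rc5_const_of_ord_nonneg (rc5_j k N) (rc5_j_transcendental k N) x h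
  exact ⟨c, hc.symm⟩

/-- The form used by the `r`-elimination wrapper: trivial divisor implies constant. -/
theorem rc5_const [IsAlgClosed k] (x : modularFunctionFieldFullC k N)
    (h : ∀ Q : Place k (modularFunctionFieldFullC k N), Q.ord x = 0) :
    ∃ c : k, x = algebraMap k (modularFunctionFieldFullC k N) c :=
  rc5_const_of_nonneg k N x fun Q => (h Q).ge

/-- The same for the residue field of a valuation subring of `ℚ̄` (the field `k` of the S18
statement): no `IsAlgClosed` instance is required from the caller. -/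
theorem rc5_const_residue (A : ValuationSubring (AlgebraicClosure ℚ))
    (x : modularFunctionFieldFullC (IsLocalRing.ResidueField A) N)
    (h : ∀ Q : Place (IsLocalRing.ResidueField A)
      (modularFunctionFieldFullC (IsLocalRing.ResidueField A) N), Q.ord x = 0) :
    ∃ c : IsLocalRing.ResidueField A,
      x = algebraMap (IsLocalRing.ResidueField A)
        (modularFunctionFieldFullC (IsLocalRing.ResidueField A) N) c := by
  haveI := rc5_isAlgClosed_residueField A
  exact rc5_const (IsLocalRing.ResidueField A) N x h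

end Modular

end Fermat.Agent.S18
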