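import Fermat.Agent.S18.RElim
import Fermat.Agent.S18.ResConst

/-!
# S18, row C3b (helper5): the hypothesis `relim_Const` of the `r`-elimination wrapper

`rc5_relim_Const`: for every valuation subring `A` of `ℚ̄` and every level `N ≠ 0`, an element of
`F_k = modularFunctionFieldFullC (ResidueField A) N` without zeros and poles is a constant.
-/

set_option autoImplicit false

open ModularCurve AlgebraicCurve

namespace Fermat.Agent.S18

theorem rc5_relim_Const (A : ValuationSubring (AlgebraicClosure ℚ)) (N : ℕ) [NeZero N] :
    relim_Const A N :=
  fun x _ h => rc5_const_residue N A x h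

end Fermat.Agent.S18
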