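import Mathlib
import Fermat.Prelude.Def_ModularCurve_X0ModL
import Fermat.Agent.S28.RedCore

/-!
# S18, row B3b (helper93): the reduction map and the unit discriminant at the vertical prime

Generic package (no modular input).  `R` a UFD with a prime `ϖ`, `K = Frac R`, `red : R → κ` a
ring hom to a field with kernel `(ϖ)`; `F ⊆ K((q))` a field, made an `R[X]`-algebra by `X ↦ g`.

* `rm_abs_discr` : abstract "unit discriminant at `(ℓ)`" on top of `S28/RedCore`;
* `rm_Setup` : the hypotheses of the concrete package;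
* `rm_exists_red` : the reduction map `φ : C → κ((q))` on the integral closure `C` of `R[X]` in
  `F`, with kernel `ϖ C`, coefficientwise on `R`-integral expansions;
* `rm_span`, `rm_span_of_mem_F0`, `rm_linearIndependent`, `rm_span_frac`, `rm_basis`;
* `rm_discr` : the discriminant of the basis `b` is an element of `R[X]` prime to `ϖ`.
-/

set_option autoImplicit false

namespace Fermat.Agent.S18
noncomputable section

open Fermat.Agent.S28

/-- Trace from structure constants. -/
theorem rm_trace_of_struct {E L ι : Type*} [Field E] [CommRing L] [Algebra E L] [Fintype ι]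
    [DecidableEq ι] (b : Module.Basis ι E L) (x : L) (t : E) (A : Matrix ι ι E)
    (h : ∀ k, t • (x * b k) = ∑ m, A k m • b m) :
    t * Algebra.trace E L x = A.trace := by
  have h1 : Algebra.trace E L (t • x) = A.trace := by
    rw [Algebra.trace_eq_matrix_trace b, Matrix.trace, Matrix.trace]
    refine Finset.sum_congr rfl fun k _ => ?_
    rw [Matrix.diag_apply, Matrix.diag_apply, Algebra.leftMulMatrix_eq_repr_mul, smul_mul_assoc,
      h k, map_sum, Finset.sum_apply']
    simp [Finsupp.single_apply]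
  rw [← h1, map_smul, smul_eq_mul]

/-- The span of a finite family closed under multiplication, with separable members, has
nondegenerate trace form, computed by structure constants. -/
theorem rm_res_discr {Eb Ω ι : Type*} [Field Eb] [Field Ω] [Algebra Eb Ω] [Fintype ι]
    [DecidableEq ι] (β : ι → Ω) (hli : LinearIndependent Eb β)
    (hone : (1 : Ω) ∈ Submodule.span Eb (Set.range β))
    (hmul : ∀ i j, β i * β j ∈ Submodule.span Eb (Set.range β))
    (hsep : ∀ i, IsSeparable Eb (β i)) :
    ∃ T : Matrix ι ι Eb, T.det ≠ 0 ∧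
      ∀ (i j : ι) (t : Eb) (A : Matrix ι ι Eb),
        (∀ k, t • (β i * β j * β k) = ∑ m, A k m • β m) → t * T i j = A.trace := by
  classical
  have hmul' : ∀ x y, x ∈ Submodule.span Eb (Set.range β) → y ∈ Submodule.span Eb (Set.range β) →
      x * y ∈ Submodule.span Eb (Set.range β) := by
    intro x y hx hy
    have h1 := Submodule.mul_mem_mul hx hy
    rw [Submodule.span_mul_span] at h1
    refine (Submodule.span_le.mpr ?_) h1
    rintro _ ⟨_, ⟨i, rfl⟩, _, ⟨j, rfl⟩, rfl⟩
    exact hmul i j
  let S0 : Subalgebra Eb Ω := (Submodule.span Eb (Set.range β)).toSubalgebra hone hmul'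
  let Lb : IntermediateField Eb Ω := IntermediateField.adjoin Eb (Set.range β)
  have hint : ∀ x ∈ Set.range β, IsIntegral Eb x := by
    rintro _ ⟨i, rfl⟩
    exact (hsep i).isIntegral
  have hle : ∀ x ∈ Lb, x ∈ Submodule.span Eb (Set.range β) := by
    intro x hx
    have h1 : x ∈ Lb.toSubalgebra := hx
    rw [IntermediateField.adjoin_toSubalgebra_of_isAlgebraic
      (fun y hy => (hint y hy).isAlgebraic)] at h1
    have h2 : Algebra.adjoin Eb (Set.range β) ≤ S0 :=
      Algebra.adjoin_le (fun y hy => Submodule.subset_span hy)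
    exact h2 h1
  have hmemL : ∀ i, β i ∈ Lb := fun i => IntermediateField.subset_adjoin Eb _ ⟨i, rfl⟩
  have : FiniteDimensional Eb Lb := IntermediateField.finiteDimensional_adjoin hint
  have : Algebra.IsSeparable Eb Lb :=
    (IntermediateField.isSeparable_adjoin_iff_isSeparable Eb Ω).mpr (by
      rintro _ ⟨i, rfl⟩
      exact hsep i)
  let v : ι → Lb := fun i => ⟨β i, hmemL i⟩
  have hvli : LinearIndependent Eb v := by
    refine LinearIndependent.of_comp Lb.val.toLinearMap ?_
    exact hli
  have hvsp : ⊤ ≤ Submodule.span Eb (Set.range v) := by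
    rintro y -
    have h1 := hle y.1 y.2
    have h2 : Submodule.span Eb (Set.range β) =
        (Submodule.span Eb (Set.range v)).map Lb.val.toLinearMap := by
      rw [Submodule.map_span, ← Set.range_comp]
      rfl
    rw [h2] at h1
    obtain ⟨z, hz, hzy⟩ := h1
    have : z = y := Subtype.ext hzy
    rwa [← this]
  let bb : Module.Basis ι Eb Lb := Module.Basis.mk hvli hvsp
  have hbb : ∀ i, bb i = v i := fun i => by rw [Module.Basis.mk_apply]
  refine ⟨Algebra.traceMatrix Eb bb, ?_, ?_⟩
  · have := Algebra.discr_not_zero_of_basis Eb bb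
    rwa [Algebra.discr_def] at this
  · intro i j t A h
    rw [Algebra.traceMatrix_apply, Algebra.traceForm_apply]
    refine rm_trace_of_struct bb (bb i * bb j) t A fun k => ?_
    apply Subtype.ext
    have e1 : ((t • (bb i * bb j * bb k) : Lb) : Ω) = t • (β i * β j * β k) := by
      rw [hbb, hbb, hbb]; rfl
    have e2 : ((∑ m, A k m • bb m : Lb) : Ω) = ∑ m, A k m • β m := by
      rw [← IntermediateField.coe_val, map_sum]
      refine Finset.sum_congr rfl fun m _ => ?_
      rw [hbb]; rfl
    rw [e1, e2]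
    exact h k


section Abstract

variable {O F Ω : Type*} [CommRing O] [IsDomain O] [Field F] [Algebra O F] [FaithfulSMul O F]
  [Field Ω]

omit [IsDomain O] in
/-- A family that is `O`-independent and spans `F` up to denominators is a basis of `F` over any
model `E` of the fraction field of `O`. -/
theorem rm_abs_basis {ι : Type*} [Fintype ι] (b : ι → F) (hli : LinearIndependent O b)
    (hspan : ∀ x : F, ∃ (d : O) (a : ι → O), d ≠ 0 ∧
      algebraMap O F d * x = ∑ i, algebraMap O F (a i) * b i)
    (E : Type*) [Field E] [Algebra O E] [IsFractionRing O E] [Algebra E F] [IsScalarTower O E F] :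
    ∃ bE : Module.Basis ι E F, ∀ i, bE i = b i := by
  have hinj : Function.Injective (algebraMap O F) := FaithfulSMul.algebraMap_injective O F
  have hliE : LinearIndependent E b := (LinearIndependent.iff_fractionRing O E).mp hli
  have hsp : ⊤ ≤ Submodule.span E (Set.range b) := by
    rintro x -
    obtain ⟨d, a, hd, hda⟩ := hspan x
    have hd' : algebraMap O F d ≠ 0 := fun h => hd (hinj (by rw [h, map_zero]))
    have hdE : algebraMap O E d ≠ 0 := fun h => hd (IsFractionRing.injective O E (by rw [h, map_zero]))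
    have hx : x = (algebraMap O E d)⁻¹ • ∑ i, algebraMap O E (a i) • b i := by
      rw [eq_inv_smul_iff₀ hdE, algebraMap_smul, Algebra.smul_def, hda]
      refine Finset.sum_congr rfl fun i _ => ?_
      rw [algebraMap_smul, Algebra.smul_def]
    rw [hx]
    refine Submodule.smul_mem _ _ (Submodule.sum_mem _ fun i _ => Submodule.smul_mem _ _ ?_)
    exact Submodule.subset_span ⟨i, rfl⟩
  exact ⟨Module.Basis.mk hliE hsp, fun i => Module.Basis.mk_apply hliE hsp i⟩


omit [IsDomain O] [FaithfulSMul O F] in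
/-- Common denominators: a finite family of elements which are `O_(ℓ)`-combinations of the `bᵢ`
has a common denominator prime to `ℓ`. -/
theorem rm_abs_common_den {ℓ : O} (hℓ : Prime ℓ) {ι : Type*} [Fintype ι] [DecidableEq ι]
    (b : ι → F) {κ' : Type*} [Fintype κ'] [DecidableEq κ'] (x : κ' → F)
    (hx : ∀ k, ∃ (s : O) (a : ι → O), ¬ ℓ ∣ s ∧
      algebraMap O F s * x k = ∑ i, algebraMap O F (a i) * b i) :
    ∃ (s : O) (A : κ' → ι → O), ¬ ℓ ∣ s ∧
      ∀ k, algebraMap O F s * x k = ∑ m, algebraMap O F (A k m) * b m := by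
  choose s a hs hsa using hx
  refine ⟨∏ k, s k, fun k m => (∏ k' ∈ Finset.univ.erase k, s k') * a k m, ?_, fun k => ?_⟩
  · rw [hℓ.dvd_finsetProd_iff]
    rintro ⟨k, _, hk⟩
    exact hs k hk
  · have e : (∏ k', s k') = (∏ k' ∈ Finset.univ.erase k, s k') * s k := by
      rw [mul_comm, Finset.mul_prod_erase _ _ (Finset.mem_univ k)]
    rw [e, map_mul, mul_assoc, hsa k, Finset.mul_sum]
    refine Finset.sum_congr rfl fun m _ => ?_
    rw [map_mul, mul_assoc]

omit [IsDomain O] [FaithfulSMul O F] in
/-- Reduction of an `O`-linear identity. -/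
theorem rm_abs_rho_identity (F0 : Subring F) (hmem : ∀ a : O, algebraMap O F a ∈ F0)
    (ρ : F0 →+* Ω) {ι : Type*} [Fintype ι] (b : ι → F) (hb : ∀ i, b i ∈ F0)
    {Eb : Type*} [Field Eb] [Algebra Eb Ω] (ρE : O →+* Eb)
    (hρE : ∀ a : O, algebraMap Eb Ω (ρE a) = ρ ⟨algebraMap O F a, hmem a⟩)
    {x : F} (hx : x ∈ F0) (s : O) (a : ι → O)
    (h : algebraMap O F s * x = ∑ i, algebraMap O F (a i) * b i) :
    ρE s • ρ ⟨x, hx⟩ = ∑ i, ρE (a i) • ρ ⟨b i, hb i⟩ := by
  have h1 := partD_rho_sum F0 hmem ρ b hb a (partD_sum_mem F0 hmem b hb a)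
  have h2 : (⟨∑ i, algebraMap O F (a i) * b i, partD_sum_mem F0 hmem b hb a⟩ : F0) =
      ⟨algebraMap O F s, hmem s⟩ * ⟨x, hx⟩ := Subtype.ext h.symm
  rw [h2, map_mul, ← hρE] at h1
  rw [Algebra.smul_def, h1]
  refine Finset.sum_congr rfl fun i _ => ?_
  rw [Algebra.smul_def, hρE]
  rfl


/-- **Unit discriminant at `(ℓ)`, abstract form.**  In the situation of `partD_exists_red`, with
the `bᵢ` integral over `O`, and the reductions `ρ(bᵢ)` linearly independent and separable over a
field `Eb` receiving `O/ℓ`: the discriminant of `b` over `Frac O` is an element of `O` that is not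
divisible by `ℓ`. -/
theorem rm_abs_discr [IsIntegrallyClosed O] [WfDvdMonoid O]
    {ℓ : O} (hℓ : Prime ℓ) (F0 : Subring F) (hmem : ∀ a : O, algebraMap O F a ∈ F0)
    (ρ : F0 →+* Ω) (hρℓ : ρ ⟨algebraMap O F ℓ, hmem ℓ⟩ = 0)
    {ι : Type*} [Fintype ι] [DecidableEq ι] (b : ι → F) (hb : ∀ i, b i ∈ F0)
    (hbint : ∀ i, IsIntegral O (b i))
    (hcard : ∀ (n : ℕ) (c : Fin n → F), LinearIndependent O c → n ≤ Fintype.card ι)
    {Eb : Type*} [Field Eb] [Algebra Eb Ω] (ρE : O →+* Eb)
    (hρE : ∀ a : O, algebraMap Eb Ω (ρE a) = ρ ⟨algebraMap O F a, hmem a⟩)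
    (hker : ∀ a : O, ρE a = 0 → ℓ ∣ a)
    (hli : LinearIndependent Eb (fun i => ρ ⟨b i, hb i⟩))
    (hsep : ∀ i, IsSeparable Eb (ρ ⟨b i, hb i⟩))
    (E : Type*) [Field E] [Algebra O E] [IsFractionRing O E] [Algebra E F] [IsScalarTower O E F] :
    ∃ d : O, ¬ ℓ ∣ d ∧ algebraMap O E d = Algebra.discr E b := by
  classical
  have hinjE : Function.Injective (algebraMap O E) := IsFractionRing.injective O E
  have hρEℓ : ρE ℓ = 0 := by
    apply (algebraMap Eb Ω).injective
    rw [hρE, hρℓ, map_zero]
  have hρE_ne : ∀ s : O, ¬ ℓ ∣ s → ρE s ≠ 0 := fun s hs h => hs (hker s h)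
  -- the `RedCore` form of independence
  have hind' : ∀ a : ι → O,
      ∑ i, partD_resR F0 hmem ρ (a i) * ρ ⟨b i, hb i⟩ = 0 → ∀ i, ℓ ∣ a i := by
    intro a ha i
    apply hker
    have h1 : ∑ i, ρE (a i) • ρ ⟨b i, hb i⟩ = 0 := by
      rw [← ha]
      refine Finset.sum_congr rfl fun i _ => ?_
      rw [Algebra.smul_def, hρE]
      rfl
    exact (Fintype.linearIndependent_iff.mp hli) (fun i => ρE (a i)) h1 i
  have hliO := partD_linearIndependent hℓ F0 hmem ρ b hb hind'
  have hspan := partD_hspan b hliO hcard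
  have hLam : ∀ x : F, IsIntegral O x → ∃ (s : O) (a : ι → O), ¬ ℓ ∣ s ∧
      algebraMap O F s * x = ∑ i, algebraMap O F (a i) * b i := fun x hx =>
    partD_span_of_isIntegral hℓ F0 hmem ρ hρℓ b hb hind' hspan hx
  -- reductions of integral elements of `F0` lie in the span of the reductions of the `bᵢ`
  have hRS : ∀ (x : F) (hx : x ∈ F0), IsIntegral O x →
      ρ ⟨x, hx⟩ ∈ Submodule.span Eb (Set.range fun i => ρ ⟨b i, hb i⟩) := by
    intro x hx hxi
    obtain ⟨s, a, hs, hsa⟩ := hLam x hxi
    have h1 := rm_abs_rho_identity F0 hmem ρ b hb ρE hρE hx s a hsa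
    have h2 : ρ ⟨x, hx⟩ = (ρE s)⁻¹ • ∑ i, ρE (a i) • ρ ⟨b i, hb i⟩ := by
      rw [← h1, smul_smul, inv_mul_cancel₀ (hρE_ne s hs), one_smul]
    rw [h2]
    refine Submodule.smul_mem _ _ (Submodule.sum_mem _ fun i _ => Submodule.smul_mem _ _ ?_)
    exact Submodule.subset_span ⟨i, rfl⟩
  -- the residue side
  obtain ⟨Tb, hTb, hTb'⟩ := rm_res_discr (fun i => ρ ⟨b i, hb i⟩) hli
    (by
      have h := hRS 1 F0.one_mem isIntegral_one
      have e : (⟨1, F0.one_mem⟩ : F0) = 1 := rfl
      rwa [e, map_one] at h)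
    (fun i j => by
      have h := hRS (b i * b j) (F0.mul_mem (hb i) (hb j)) ((hbint i).mul (hbint j))
      have e : (⟨b i * b j, F0.mul_mem (hb i) (hb j)⟩ : F0) = ⟨b i, hb i⟩ * ⟨b j, hb j⟩ := rfl
      rwa [e, map_mul] at h)
    hsep
  -- the generic side
  obtain ⟨bE, hbE⟩ := rm_abs_basis b hliO hspan E
  have hfd : FiniteDimensional E F := Module.Finite.of_basis bE
  have hT : ∀ i j, ∃ t : O, algebraMap O E t = Algebra.trace E F (b i * b j) := fun i j =>
    IsIntegrallyClosed.isIntegral_iff.mp (Algebra.isIntegral_trace ((hbint i).mul (hbint j)))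
  choose T hT using hT
  -- entries of the trace matrix reduce to the entries of the residue trace matrix
  have hred : ∀ i j, ρE (T i j) = Tb i j := by
    intro i j
    obtain ⟨s, A, hs, hsA⟩ := rm_abs_common_den hℓ b (fun k => b i * b j * b k)
      (fun k => hLam _ (((hbint i).mul (hbint j)).mul (hbint k)))
    -- generic side: `s * T i j = trace A`
    have h1 : algebraMap O E s * Algebra.trace E F (b i * b j) =
        (Matrix.of fun k m => algebraMap O E (A k m)).trace := by
      refine rm_trace_of_struct bE (b i * b j) _ _ fun k => ?_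
      rw [hbE, algebraMap_smul, Algebra.smul_def, hsA k]
      refine Finset.sum_congr rfl fun m _ => ?_
      rw [Matrix.of_apply, hbE, algebraMap_smul, Algebra.smul_def]
    have h2 : s * T i j = ∑ k, A k k := by
      apply hinjE
      rw [map_mul, hT, h1, Matrix.trace, map_sum]
      rfl
    -- residue side
    have h3 : ρE s * Tb i j = (Matrix.of fun k m => ρE (A k m)).trace := by
      refine hTb' i j _ _ fun k => ?_
      have hmem3 : b i * b j * b k ∈ F0 := F0.mul_mem (F0.mul_mem (hb i) (hb j)) (hb k)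
      have h4 := rm_abs_rho_identity F0 hmem ρ b hb ρE hρE hmem3 s (A k) (hsA k)
      have e : (⟨b i * b j * b k, hmem3⟩ : F0) = ⟨b i, hb i⟩ * ⟨b j, hb j⟩ * ⟨b k, hb k⟩ := rfl
      rw [e, map_mul, map_mul] at h4
      exact h4
    have h5 : ρE s * ρE (T i j) = ρE s * Tb i j := by
      rw [← map_mul, h2, h3, Matrix.trace, map_sum]
      rfl
    exact mul_left_cancel₀ (hρE_ne s hs) h5
  refine ⟨(Matrix.of T).det, ?_, ?_⟩
  · intro hdvd
    obtain ⟨c, hc⟩ := hdvd
    have h1 : ρE (Matrix.of T).det = 0 := by rw [hc, map_mul, hρEℓ, zero_mul]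
    rw [RingHom.map_det] at h1
    apply hTb
    rw [← h1]
    congr 1
    ext i j
    exact (hred i j).symm
  · rw [RingHom.map_det, Algebra.discr_def]
    congr 1
    ext i j
    rw [RingHom.mapMatrix_apply, Matrix.map_apply, Matrix.of_apply, hT, Algebra.traceMatrix_apply,
      Algebra.traceForm_apply]

end Abstract

/-! ## The concrete layer: function fields inside `K((q))`, base `R[X]` -/

section Laurent

open ModularCurve

variable {R K κ : Type*} [CommRing R] [IsDomain R] [Field K] [Algebra R K] [IsFractionRing R K]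
  [Field κ]

variable (R K) in
/-- Coefficientwise embedding `R((q)) → K((q))`. -/
def rm_iota : LaurentSeries R →+* LaurentSeries K := coeffMap (algebraMap R K)

omit [IsDomain R] in
theorem rm_iota_injective : Function.Injective (rm_iota R K) := by
  intro x y h
  refine HahnSeries.ext (funext fun k => IsFractionRing.injective R K ?_)
  exact congrArg (fun z : LaurentSeries K => z.coeff k) h

variable (F : IntermediateField K (LaurentSeries K))

variable (R) in
/-- The elements of `F` whose `q`-expansion has coefficients in `R`. -/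
def rm_F0 : Subring ↥F :=
  (rm_iota R K).range.comap (algebraMap ↥F (LaurentSeries K))

omit [IsDomain R] [IsFractionRing R K] in
theorem rm_mem_F0_iff (x : ↥F) :
    x ∈ rm_F0 R F ↔ ∃ y : LaurentSeries R, rm_iota R K y = (x : LaurentSeries K) := Iff.rfl

variable (R K) in
/-- `R((q))` is isomorphic to its image in `K((q))`. -/
def rm_iotaEquiv : LaurentSeries R ≃+* (rm_iota R K).range :=
  RingEquiv.ofBijective (rm_iota R K).rangeRestrict
    ⟨fun _ _ h => rm_iota_injective (congrArg Subtype.val h),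
      (rm_iota R K).rangeRestrict_surjective⟩

/-- The reduction map on elements of `F` with `R`-integral expansion. -/
def rm_rho (red : R →+* κ) : ↥(rm_F0 R F) →+* LaurentSeries κ :=
  (coeffMap red).comp (((rm_iotaEquiv R K).symm : (rm_iota R K).range →+* _).comp
    (RingHom.codRestrict ((algebraMap ↥F (LaurentSeries K)).comp
      (rm_F0 R F).subtype) (rm_iota R K).range (fun x => x.2)))

omit [IsDomain R] in
theorem rm_rho_spec (red : R →+* κ) (x : ↥(rm_F0 R F)) (y : LaurentSeries R)
    (h : rm_iota R K y = ((x : ↥F) : LaurentSeries K)) :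
    rm_rho F red x = coeffMap red y := by
  unfold rm_rho
  rw [RingHom.comp_apply, RingHom.comp_apply]
  congr 1
  change (rm_iotaEquiv R K).symm _ = y
  rw [RingEquiv.symm_apply_eq]
  exact Subtype.ext h.symm

omit [IsDomain R] in
theorem rm_rho_mk (red : R →+* κ) (x : ↥F) (hx : x ∈ rm_F0 R F) (y : LaurentSeries R)
    (h : rm_iota R K y = (x : LaurentSeries K)) :
    rm_rho F red ⟨x, hx⟩ = coeffMap red y :=
  rm_rho_spec F red ⟨x, hx⟩ y h

variable (R) in
/-- The structure map `R → F`. -/
def rm_toF : R →+* ↥F := (algebraMap K ↥F).comp (algebraMap R K)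

variable (R) in
/-- The `R[X]`-algebra structure on `F` given by `X ↦ g`. -/
@[reducible] def rm_polyAlgebra (g : ↥F) : Algebra (Polynomial R) ↥F :=
  (Polynomial.eval₂RingHom (rm_toF R F) g).toAlgebra

theorem rm_algebraMap_eq_C (S : Type*) [CommRing S] (c : S) :
    algebraMap S (LaurentSeries S) c = HahnSeries.C c := by
  have h1 : algebraMap S (PowerSeries S) c = PowerSeries.C c := by simp
  rw [HahnSeries.algebraMap_apply', h1, HahnSeries.ofPowerSeries_C]

omit [IsDomain R] [IsFractionRing R K] in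
theorem rm_iota_C (a : R) :
    rm_iota R K (HahnSeries.C a) = algebraMap K (LaurentSeries K) (algebraMap R K a) := by
  rw [rm_algebraMap_eq_C, rm_iota, HahnSeries.C_apply, coeffMap_single, HahnSeries.C_apply]

omit [IsDomain R] [IsFractionRing R K] in
theorem rm_coe_toF (a : R) :
    ((rm_toF R F a : ↥F) : LaurentSeries K) = rm_iota R K (HahnSeries.C a) := by
  rw [rm_iota_C]
  rfl

omit [IsDomain R] [IsFractionRing R K] in
/-- The `q`-expansion of a polynomial in `g` with coefficients in `R`. -/
theorem rm_coe_eval₂ (g : ↥F) (gh : LaurentSeries R)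
    (hg : rm_iota R K gh = (g : LaurentSeries K)) (P : Polynomial R) :
    ((P.eval₂ (rm_toF R F) g : ↥F) : LaurentSeries K) =
      rm_iota R K (P.eval₂ HahnSeries.C gh) := by
  have h1 : ((P.eval₂ (rm_toF R F) g : ↥F) : LaurentSeries K) =
      (algebraMap ↥F (LaurentSeries K)) (P.eval₂ (rm_toF R F) g) := rfl
  rw [h1, Polynomial.hom_eval₂, Polynomial.hom_eval₂, hg]
  congr 1
  ext a : 1
  rw [RingHom.comp_apply, RingHom.comp_apply, ← rm_coe_toF F a]
  rfl

omit [IsDomain R] [IsFractionRing R K] in
theorem rm_eval₂_mem_F0 (g : ↥F) (gh : LaurentSeries R)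
    (hg : rm_iota R K gh = (g : LaurentSeries K)) (P : Polynomial R) :
    P.eval₂ (rm_toF R F) g ∈ rm_F0 R F :=
  ⟨P.eval₂ HahnSeries.C gh, (rm_coe_eval₂ F g gh hg P).symm⟩

omit [IsDomain R] [IsFractionRing R K] [Field κ] in
theorem rm_coeffMap_C {κ : Type*} [CommRing κ] (red : R →+* κ) (a : R) :
    coeffMap red (HahnSeries.C a) = HahnSeries.C (red a) := by
  rw [HahnSeries.C_apply, coeffMap_single, HahnSeries.C_apply]

omit [IsDomain R] in
/-- The reduction of a polynomial in `g` is the reduced polynomial in the reduction of `g`. -/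
theorem rm_rho_eval₂ (red : R →+* κ) (g : ↥F) (gh : LaurentSeries R)
    (hg : rm_iota R K gh = (g : LaurentSeries K)) (P : Polynomial R) :
    rm_rho F red ⟨P.eval₂ (rm_toF R F) g, rm_eval₂_mem_F0 F g gh hg P⟩ =
      (P.map red).eval₂ HahnSeries.C (coeffMap red gh) := by
  rw [rm_rho_mk F red _ _ _ (rm_coe_eval₂ F g gh hg P).symm, Polynomial.hom_eval₂,
    Polynomial.eval₂_map]
  congr 1
  ext a : 1
  rw [RingHom.comp_apply, RingHom.comp_apply, rm_coeffMap_C]

omit [IsDomain R] [IsFractionRing R K] [Field K] [Algebra R K] in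
/-- A polynomial whose reduction vanishes is divisible by `ϖ`. -/
theorem rm_C_dvd_of_map_eq_zero {ϖ : R} (red : R →+* κ) (hred : ∀ a : R, red a = 0 → ϖ ∣ a)
    (P : Polynomial R) (hP : P.map red = 0) : Polynomial.C ϖ ∣ P := by
  rw [Polynomial.C_dvd_iff_dvd_coeff]
  intro i
  apply hred
  have h4 := congrArg (fun Q : Polynomial κ => Q.coeff i) hP
  simpa using h4

end Laurent

/-! ## The reduction package -/

section Setup

open ModularCurve

variable {R K κ : Type*} [CommRing R] [IsDomain R] [Field K] [Algebra R K] [IsFractionRing R K]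
  [Field κ]

/-- The hypotheses of the reduction package.  `F ⊆ K((q))` is a function field, made an
`R[X]`-algebra through `X ↦ g`; `g` and the `bᵢ` have `R`-integral expansions `gh`, `bh i`; the
reduction of `g` is transcendental over `κ`; the `bᵢ` are integral over `R[X]`, their reductions
are independent over `κ[ḡ]`, and their number bounds the rank of `F` over `R[X]`. -/
structure rm_Setup (F : IntermediateField K (LaurentSeries K)) [Algebra (Polynomial R) ↥F]
    (ϖ : R) (red : R →+* κ) (g : ↥F) (gh : LaurentSeries R) {ι : Type*} [Fintype ι]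
    (b : ι → ↥F) (bh : ι → LaurentSeries R) : Prop where
  prime : Prime ϖ
  red_iff : ∀ a : R, red a = 0 ↔ ϖ ∣ a
  algebraMap_eq : ∀ P : Polynomial R, algebraMap (Polynomial R) ↥F P = P.eval₂ (rm_toF R F) g
  coe_g : rm_iota R K gh = (g : LaurentSeries K)
  transc : ∀ Q : Polynomial κ, Q.eval₂ HahnSeries.C (coeffMap red gh) = 0 → Q = 0
  coe_b : ∀ i, rm_iota R K (bh i) = (b i : LaurentSeries K)
  indep : ∀ c : ι → Polynomial κ,
    ∑ i, (c i).eval₂ HahnSeries.C (coeffMap red gh) * coeffMap red (bh i) = 0 → ∀ i, c i = 0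
  integral : ∀ i, IsIntegral (Polynomial R) (b i)
  card_le : ∀ (n : ℕ) (c : Fin n → ↥F), LinearIndependent (Polynomial R) c → n ≤ Fintype.card ι

variable {F : IntermediateField K (LaurentSeries K)} [Algebra (Polynomial R) ↥F]
  {ϖ : R} {red : R →+* κ} {g : ↥F} {gh : LaurentSeries R} {ι : Type*} [Fintype ι]
  {b : ι → ↥F} {bh : ι → LaurentSeries R}

omit [IsDomain R] [IsFractionRing R K] in
theorem rm_hmem (h : rm_Setup F ϖ red g gh b bh) (a : Polynomial R) :
    algebraMap (Polynomial R) ↥F a ∈ rm_F0 R F := by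
  rw [h.algebraMap_eq]
  exact rm_eval₂_mem_F0 F g gh h.coe_g a

omit [IsDomain R] in
theorem rm_rho_algebraMap (h : rm_Setup F ϖ red g gh b bh) (a : Polynomial R) :
    rm_rho F red ⟨algebraMap (Polynomial R) ↥F a, rm_hmem h a⟩ =
      (a.map red).eval₂ HahnSeries.C (coeffMap red gh) := by
  rw [← rm_rho_eval₂ F red g gh h.coe_g a]
  congr 1
  exact Subtype.ext (h.algebraMap_eq a)

omit [IsDomain R] [IsFractionRing R K] in
theorem rm_hb (h : rm_Setup F ϖ red g gh b bh) (i : ι) : b i ∈ rm_F0 R F := ⟨bh i, h.coe_b i⟩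

omit [IsDomain R] in
theorem rm_rho_b (h : rm_Setup F ϖ red g gh b bh) (i : ι) :
    rm_rho F red ⟨b i, rm_hb h i⟩ = coeffMap red (bh i) :=
  rm_rho_mk F red _ _ _ (h.coe_b i)

omit [IsDomain R] in
theorem rm_rho_prime (h : rm_Setup F ϖ red g gh b bh) :
    rm_rho F red ⟨algebraMap (Polynomial R) ↥F (Polynomial.C ϖ), rm_hmem h _⟩ = 0 := by
  rw [rm_rho_algebraMap h, Polynomial.map_C, (h.red_iff ϖ).mpr dvd_rfl, Polynomial.C_0,
    Polynomial.eval₂_zero]

omit [IsDomain R] in
theorem rm_dvd_of_rho_eq_zero (h : rm_Setup F ϖ red g gh b bh) (a : Polynomial R)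
    (ha : rm_rho F red ⟨algebraMap (Polynomial R) ↥F a, rm_hmem h a⟩ = 0) :
    Polynomial.C ϖ ∣ a := by
  rw [rm_rho_algebraMap h] at ha
  exact rm_C_dvd_of_map_eq_zero red (fun a ha => (h.red_iff a).mp ha) a (h.transc _ ha)

omit [IsDomain R] in
theorem rm_hind (h : rm_Setup F ϖ red g gh b bh) (a : ι → Polynomial R)
    (ha : ∑ i, rm_rho F red ⟨algebraMap (Polynomial R) ↥F (a i), rm_hmem h (a i)⟩ *
      rm_rho F red ⟨b i, rm_hb h i⟩ = 0) : ∀ i, Polynomial.C ϖ ∣ a i := by
  have h1 : ∑ i, ((a i).map red).eval₂ HahnSeries.C (coeffMap red gh) * coeffMap red (bh i) =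
      0 := by
    rw [← ha]
    refine Finset.sum_congr rfl fun i _ => ?_
    rw [rm_rho_algebraMap h, rm_rho_b h]
  intro i
  exact rm_C_dvd_of_map_eq_zero red (fun a ha => (h.red_iff a).mp ha) _ (h.indep _ h1 i)

variable [UniqueFactorizationMonoid R]

omit [IsDomain R] [IsFractionRing R K] [UniqueFactorizationMonoid R] in
theorem rm_prime_C (h : rm_Setup F ϖ red g gh b bh) : Prime (Polynomial.C ϖ) :=
  Polynomial.prime_C_iff.mpr h.prime

omit [IsDomain R] [UniqueFactorizationMonoid R] in
theorem rm_algebraMap_C_ne_zero (h : rm_Setup F ϖ red g gh b bh) :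
    algebraMap (Polynomial R) ↥F (Polynomial.C ϖ) ≠ 0 := by
  rw [h.algebraMap_eq, Polynomial.eval₂_C]
  intro h0
  have h1 : algebraMap R K ϖ = 0 := (algebraMap K ↥F).injective (by rw [map_zero]; exact h0)
  exact h.prime.ne_zero (IsFractionRing.injective R K (by rw [h1, map_zero]))

/-- `g` is transcendental over `R`: the structure map `R[X] → F` is injective. -/
theorem rm_injective (h : rm_Setup F ϖ red g gh b bh) :
    Function.Injective (algebraMap (Polynomial R) ↥F) := by
  rw [injective_iff_map_eq_zero]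
  intro P hP
  by_contra hP0
  obtain ⟨m, P', hP', rfl⟩ := WfDvdMonoid.max_power_factor hP0 (rm_prime_C h).irreducible
  rw [map_mul, map_pow] at hP
  have h1 : algebraMap (Polynomial R) ↥F P' = 0 :=
    (mul_eq_zero.mp hP).resolve_left (pow_ne_zero m (rm_algebraMap_C_ne_zero h))
  apply hP'
  apply rm_dvd_of_rho_eq_zero h
  have e : (⟨algebraMap (Polynomial R) ↥F P', rm_hmem h P'⟩ : ↥(rm_F0 R F)) = 0 :=
    Subtype.ext h1
  rw [e, map_zero]

theorem rm_faithfulSMul (h : rm_Setup F ϖ red g gh b bh) : FaithfulSMul (Polynomial R) ↥F :=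
  (faithfulSMul_iff_algebraMap_injective _ _).mpr (rm_injective h)

/-- **The reduction map** on the integral closure `C` of `R[X]` (acting through `X ↦ g`) in
`F`: a ring homomorphism `φ : C → κ((q))` with kernel `ϖ C`, given by coefficientwise reduction
on the elements with `R`-integral expansion.  In particular `ϖ C` is a prime ideal. -/
theorem rm_exists_red (h : rm_Setup F ϖ red g gh b bh) :
    ∃ φ : ↥(integralClosure (Polynomial R) ↥F) →+* LaurentSeries κ,
      (∀ x, φ x = 0 ↔ ∃ y : ↥(integralClosure (Polynomial R) ↥F), x = Polynomial.C ϖ • y) ∧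
      (∀ (x : ↥(integralClosure (Polynomial R) ↥F)) (y : LaurentSeries R),
        rm_iota R K y = ((x : ↥F) : LaurentSeries K) → φ x = coeffMap red y) := by
  have : FaithfulSMul (Polynomial R) ↥F := rm_faithfulSMul h
  have hC := rm_prime_C h
  obtain ⟨φ, h1, h2⟩ := partD_exists_red_integralClosure hC (rm_F0 R F) (rm_hmem h)
    (rm_rho F red) (rm_rho_prime h) b (rm_hb h) (rm_hind h)
    (fun i => ⟨1, hC.not_dvd_one, by rw [map_one, one_mul]; exact h.integral i⟩) h.card_le
  refine ⟨φ, h1, fun x y hy => ?_⟩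
  rw [h2 x ⟨y, hy⟩]
  exact rm_rho_mk F red _ _ y hy

/-- The `bᵢ` are linearly independent over `R[X]`. -/
theorem rm_linearIndependent (h : rm_Setup F ϖ red g gh b bh) :
    LinearIndependent (Polynomial R) b := by
  have : FaithfulSMul (Polynomial R) ↥F := rm_faithfulSMul h
  exact partD_linearIndependent (rm_prime_C h) (rm_F0 R F) (rm_hmem h) (rm_rho F red) b
    (rm_hb h) (rm_hind h)

/-- Every element of `F` is a combination of the `bᵢ` with coefficients in `Frac R[X]`. -/
theorem rm_span_frac (h : rm_Setup F ϖ red g gh b bh) (x : ↥F) :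
    ∃ (d : Polynomial R) (a : ι → Polynomial R), d ≠ 0 ∧
      algebraMap (Polynomial R) ↥F d * x = ∑ i, algebraMap (Polynomial R) ↥F (a i) * b i :=
  partD_hspan b (rm_linearIndependent h) h.card_le x

/-- Integral elements are combinations of the `bᵢ` with coefficients in `R[X]_(ϖ)`. -/
theorem rm_span (h : rm_Setup F ϖ red g gh b bh) {x : ↥F} (hx : IsIntegral (Polynomial R) x) :
    ∃ (s : Polynomial R) (a : ι → Polynomial R), ¬ Polynomial.C ϖ ∣ s ∧
      algebraMap (Polynomial R) ↥F s * x = ∑ i, algebraMap (Polynomial R) ↥F (a i) * b i := by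
  have : FaithfulSMul (Polynomial R) ↥F := rm_faithfulSMul h
  exact partD_span_of_isIntegral (rm_prime_C h) (rm_F0 R F) (rm_hmem h) (rm_rho F red)
    (rm_rho_prime h) b (rm_hb h) (rm_hind h) (rm_span_frac h) hx

/-- Elements with `R`-integral expansion are combinations of the `bᵢ` with coefficients in
`R[X]_(ϖ)`: the Gauss valuation ring `C_(ϖ)` contains the `R`-integral expansions. -/
theorem rm_span_of_mem_F0 (h : rm_Setup F ϖ red g gh b bh) {x : ↥F} (hx : x ∈ rm_F0 R F) :
    ∃ (s : Polynomial R) (a : ι → Polynomial R), ¬ Polynomial.C ϖ ∣ s ∧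
      algebraMap (Polynomial R) ↥F s * x = ∑ i, algebraMap (Polynomial R) ↥F (a i) * b i := by
  obtain ⟨d, a, hd, hda⟩ := rm_span_frac h x
  obtain ⟨m, s, hs, rfl⟩ := WfDvdMonoid.max_power_factor hd (rm_prime_C h).irreducible
  clear hd
  induction m generalizing a with
  | zero => exact ⟨s, a, hs, by simpa using hda⟩
  | succ m ih =>
    have hzmem := partD_sum_mem (rm_F0 R F) (rm_hmem h) b (rm_hb h) a
    have e : (⟨∑ i, algebraMap (Polynomial R) ↥F (a i) * b i, hzmem⟩ : ↥(rm_F0 R F)) =
        ⟨algebraMap (Polynomial R) ↥F (Polynomial.C ϖ), rm_hmem h _⟩ *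
          (⟨algebraMap (Polynomial R) ↥F (Polynomial.C ϖ ^ m * s), rm_hmem h _⟩ * ⟨x, hx⟩) := by
      apply Subtype.ext
      change (∑ i, algebraMap (Polynomial R) ↥F (a i) * b i) =
        algebraMap (Polynomial R) ↥F (Polynomial.C ϖ) *
          (algebraMap (Polynomial R) ↥F (Polynomial.C ϖ ^ m * s) * x)
      rw [← hda, ← mul_assoc, ← map_mul, pow_succ']
      congr 2
      ring
    have h0 : rm_rho F red ⟨∑ i, algebraMap (Polynomial R) ↥F (a i) * b i, hzmem⟩ = 0 := by
      rw [e, map_mul, rm_rho_prime h, zero_mul]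
    rw [partD_rho_sum (rm_F0 R F) (rm_hmem h) (rm_rho F red) b (rm_hb h) a hzmem] at h0
    have hdiv := rm_hind h a h0
    choose a' ha' using hdiv
    refine ih a' ?_
    apply mul_left_cancel₀ (rm_algebraMap_C_ne_zero h)
    rw [← mul_assoc, ← map_mul, Finset.mul_sum]
    have e1 : Polynomial.C ϖ * (Polynomial.C ϖ ^ m * s) = Polynomial.C ϖ ^ (m + 1) * s := by ring
    rw [e1, hda]
    refine Finset.sum_congr rfl fun i _ => ?_
    rw [ha' i, map_mul, mul_assoc]

/-- The `bᵢ` form a basis of `F` over any model `E` of the fraction field of `R[X]`. -/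
theorem rm_basis (h : rm_Setup F ϖ red g gh b bh)
    (E : Type*) [Field E] [Algebra (Polynomial R) E] [IsFractionRing (Polynomial R) E]
    [Algebra E ↥F] [IsScalarTower (Polynomial R) E ↥F] :
    ∃ bE : Module.Basis ι E ↥F, ∀ i, bE i = b i := by
  have : FaithfulSMul (Polynomial R) ↥F := rm_faithfulSMul h
  exact rm_abs_basis b (rm_linearIndependent h) (rm_span_frac h) E

/-- The reduction `R[X] → κ(ḡ)`. -/
def rm_rhoE (red : R →+* κ) (gh : LaurentSeries R) :
    Polynomial R →+* ↥(IntermediateField.adjoin κ {coeffMap red gh}) :=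
  RingHom.codRestrict
    ((Polynomial.eval₂RingHom HahnSeries.C (coeffMap red gh)).comp (Polynomial.mapRingHom red))
    (IntermediateField.adjoin κ {coeffMap red gh}) (fun P => by
      change (P.map red).eval₂ HahnSeries.C (coeffMap red gh) ∈ _
      have e : (HahnSeries.C : κ →+* LaurentSeries κ) = algebraMap κ (LaurentSeries κ) :=
        RingHom.ext fun c => (rm_algebraMap_eq_C κ c).symm
      rw [e, ← Polynomial.aeval_def]
      exact IntermediateField.algebra_adjoin_le_adjoin κ _
        (Polynomial.aeval_mem_adjoin_singleton κ _))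

omit [IsDomain R] [UniqueFactorizationMonoid R] in
theorem rm_coe_rhoE (red : R →+* κ) (gh : LaurentSeries R) (P : Polynomial R) :
    ((rm_rhoE red gh P : ↥(IntermediateField.adjoin κ {coeffMap red gh})) : LaurentSeries κ) =
      (P.map red).eval₂ HahnSeries.C (coeffMap red gh) := rfl

/-- **Unit discriminant at `(ϖ)`.**  If the reductions of the `bᵢ` are linearly independent and
separable over the field `κ(ḡ)`, then the discriminant of the basis `b` of `F` over
`E = Frac R[X]` is (the image of) an element of `R[X]` not divisible by `ϖ`. -/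
theorem rm_discr [DecidableEq ι] (h : rm_Setup F ϖ red g gh b bh)
    (hli : LinearIndependent ↥(IntermediateField.adjoin κ {coeffMap red gh})
      (fun i => coeffMap red (bh i)))
    (hsep : ∀ i, IsSeparable ↥(IntermediateField.adjoin κ {coeffMap red gh})
      (coeffMap red (bh i)))
    (E : Type*) [Field E] [Algebra (Polynomial R) E] [IsFractionRing (Polynomial R) E]
    [Algebra E ↥F] [IsScalarTower (Polynomial R) E ↥F] :
    ∃ d : Polynomial R, ¬ Polynomial.C ϖ ∣ d ∧
      algebraMap (Polynomial R) E d = Algebra.discr E b := by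
  have : FaithfulSMul (Polynomial R) ↥F := rm_faithfulSMul h
  refine rm_abs_discr (rm_prime_C h) (rm_F0 R F) (rm_hmem h) (rm_rho F red) (rm_rho_prime h) b
    (rm_hb h) h.integral h.card_le (rm_rhoE red gh) (fun a => ?_) (fun a ha => ?_) ?_ ?_ E
  · rw [rm_rho_algebraMap h]
    rfl
  · have h1 := congrArg Subtype.val ha
    rw [rm_coe_rhoE] at h1
    exact rm_C_dvd_of_map_eq_zero red (fun a ha => (h.red_iff a).mp ha) a (h.transc _ h1)
  · have e : (fun i => rm_rho F red ⟨b i, rm_hb h i⟩) = fun i => coeffMap red (bh i) :=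
      funext (rm_rho_b h)
    rw [e]
    exact hli
  · intro i
    rw [rm_rho_b h i]
    exact hsep i

omit [IsDomain R] [UniqueFactorizationMonoid R] in
/-- Independence over the field `κ(ḡ)` implies the polynomial form `rm_Setup.indep`. -/
theorem rm_indep_of_field {red : R →+* κ} {gh : LaurentSeries R}
    {bh : ι → LaurentSeries R}
    (htr : ∀ Q : Polynomial κ, Q.eval₂ HahnSeries.C (coeffMap red gh) = 0 → Q = 0)
    (hli : LinearIndependent ↥(IntermediateField.adjoin κ {coeffMap red gh})
      (fun i => coeffMap red (bh i)))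
    (c : ι → Polynomial κ)
    (hc : ∑ i, (c i).eval₂ HahnSeries.C (coeffMap red gh) * coeffMap red (bh i) = 0) :
    ∀ i, c i = 0 := by
  have e : (HahnSeries.C : κ →+* LaurentSeries κ) = algebraMap κ (LaurentSeries κ) :=
    RingHom.ext fun c => (rm_algebraMap_eq_C κ c).symm
  have hmem : ∀ i, (c i).eval₂ HahnSeries.C (coeffMap red gh) ∈
      IntermediateField.adjoin κ {coeffMap red gh} := by
    intro i
    rw [e, ← Polynomial.aeval_def]
    exact IntermediateField.algebra_adjoin_le_adjoin κ _
      (Polynomial.aeval_mem_adjoin_singleton κ _)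
  have h1 : ∑ i, (⟨_, hmem i⟩ : ↥(IntermediateField.adjoin κ {coeffMap red gh})) •
      coeffMap red (bh i) = 0 := hc
  intro i
  have h2 := (Fintype.linearIndependent_iff.mp hli) _ h1 i
  exact htr _ (congrArg Subtype.val h2)

end Setup

end
end Fermat.Agent.S18
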