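import Mathlib

/-!
# S18 row A4b: self-duality toolbox, discriminant / tower half (helper62)

Everything is in the elementwise "hcodim" shape of the purity lemma: for a domain `O` with
fraction field `E`, a finite separable extension `L / E` and the integral closure `C` of `O`
in `L`, the trace dual of `C` is `{y : L | ∀ c : C, Tr_{L/E}(y * c) ∈ O}` and "`C` is
self-dual at the prime element `p`" reads
`∀ y ∈ dual, ∃ s : O, ¬ p ∣ s ∧ s * y ∈ C`.
-/

set_option autoImplicit false
set_option linter.unusedSectionVars false

namespace Fermat.Agent.S18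

open Polynomial

section Discr

variable {O : Type*} [CommRing O] [IsDomain O] [IsIntegrallyClosed O]
variable {E : Type*} [Field E] [Algebra O E] [IsFractionRing O E]
variable {L : Type*} [Field L] [Algebra E L] [Algebra O L] [IsScalarTower O E L]
  [FiniteDimensional E L] [Algebra.IsSeparable E L]
variable {C : Type*} [CommRing C] [Algebra O C] [Algebra C L] [IsScalarTower O C L]
  [IsIntegralClosure C O L]

omit [IsDomain O] [IsIntegrallyClosed O] [IsFractionRing O E] [FiniteDimensional E L]
  [Algebra.IsSeparable E L] [IsIntegralClosure C O L] in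
/-- The elementwise dual is Mathlib's `Submodule.traceDual` of `1`. -/
theorem sd62_mem_traceDual_one {y : L}
    (hy : ∀ c : C, Algebra.trace E L (y * algebraMap C L c) ∈ (algebraMap O E).range) :
    y ∈ Submodule.traceDual O E (1 : Submodule C L) := by
  rw [Submodule.mem_traceDual]
  intro a ha
  rw [Submodule.mem_one] at ha
  obtain ⟨c, rfl⟩ := ha
  rw [Algebra.traceForm_apply]
  exact hy c

/-- **Discriminant form (D1).** If `b : ι → C` is a family of `[L : E]` integral elements and
`d : O` is the determinant of its trace matrix, then `d` multiplies the trace dual of `C`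
into `C`. -/
theorem sd62_discr_mul_mem {ι : Type*} [Fintype ι] [DecidableEq ι] (b : ι → C)
    (hcard : Fintype.card ι = Module.finrank E L) (d : O)
    (hd : algebraMap O E d = (Algebra.traceMatrix E (fun i => algebraMap C L (b i))).det)
    (y : L)
    (hy : ∀ c : C, Algebra.trace E L (y * algebraMap C L c) ∈ (algebraMap O E).range) :
    algebraMap O L d * y ∈ (algebraMap C L).range := by
  classical
  by_cases hd0 : d = 0
  · subst hd0
    exact ⟨0, by simp⟩
  have hdE : algebraMap O E d ≠ 0 := by
    intro h
    exact hd0 ((IsFractionRing.injective O E) (by rw [h, map_zero]))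
  have hli : LinearIndependent E (fun i => algebraMap C L (b i)) := by
    by_contra hli
    have h0 := Algebra.discr_zero_of_not_linearIndependent E hli
    rw [Algebra.discr_def] at h0
    exact hdE (hd.trans h0)
  have : Nonempty ι := by
    rw [← Fintype.card_pos_iff, hcard]
    exact Module.finrank_pos
  let B := basisOfLinearIndependentOfCardEqFinrank hli hcard
  have hB : ⇑B = fun i => algebraMap C L (b i) :=
    coe_basisOfLinearIndependentOfCardEqFinrank hli hcard
  have hBint : ∀ i, IsIntegral O (B i) := by
    intro i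
    rw [hB]
    exact (IsIntegralClosure.isIntegral_iff (A := C)).mpr ⟨b i, rfl⟩
  have h1 : (1 : L) ∈ (1 : Submodule C L) := Submodule.one_le.mp le_rfl
  have key := isIntegral_discr_mul_of_mem_traceDual (A := O) (K := E) (1 : Submodule C L)
    hBint h1 (sd62_mem_traceDual_one hy)
  rw [hB, Algebra.discr_def, ← hd, Algebra.smul_def, mul_one,
    ← IsScalarTower.algebraMap_apply] at key
  exact (IsIntegralClosure.isIntegral_iff (A := C)).mp key

/-- **(D1), hcodim shape.** A family of `[L : E]` elements of `C` whose discriminant is prime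
to `p` makes `C` self-dual at `p`. -/
theorem sd62_of_discr {ι : Type*} [Fintype ι] [DecidableEq ι] (b : ι → C)
    (hcard : Fintype.card ι = Module.finrank E L) (d : O)
    (hd : algebraMap O E d = (Algebra.traceMatrix E (fun i => algebraMap C L (b i))).det)
    (p : O) (hp : ¬ p ∣ d) (y : L)
    (hy : ∀ c : C, Algebra.trace E L (y * algebraMap C L c) ∈ (algebraMap O E).range) :
    ∃ s : O, ¬ p ∣ s ∧ algebraMap O L s * y ∈ (algebraMap C L).range :=
  ⟨d, hp, sd62_discr_mul_mem b hcard d hd y hy⟩

end Discr

section Core

/-- **Euler's formula, elementwise.** `A` integrally closed with fraction field `K`, `L / K`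
finite separable, `x : L` integral over `A` generating `L`; if `z : L` has
`Tr_{L/K}(z * x ^ j) ∈ A` for all `j < deg x`, and `G : A[X]` kills `x`, then
`G'(x) * z ∈ A[x]`. -/
theorem sd62_core {A K L : Type*} [CommRing A] [IsDomain A] [IsIntegrallyClosed A]
    [Field K] [Algebra A K] [IsFractionRing A K] [Field L] [Algebra K L] [Algebra A L]
    [IsScalarTower A K L] [FiniteDimensional K L] [Algebra.IsSeparable K L]
    {x : L} (hx : IsIntegral A x) (hgen : Algebra.adjoin K {x} = ⊤) (z : L)
    (hz : ∀ j : ℕ, j < (minpoly A x).natDegree →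
      Algebra.trace K L (z * x ^ j) ∈ (algebraMap A K).range)
    (G : A[X]) (hG : aeval x G = 0) :
    aeval x (derivative G) * z ∈ Algebra.adjoin A {x} := by
  classical
  have hmem : z ∈ (Algebra.traceForm K L).dualSubmodule
      (Subalgebra.toSubmodule (Algebra.adjoin A {x})) := by
    rw [LinearMap.BilinForm.mem_dualSubmodule]
    intro a ha
    rw [← Submodule.span_range_natDegree_eq_adjoin (minpoly.monic hx) (minpoly.aeval A x)] at ha
    induction ha using Submodule.span_induction with
    | mem a h =>
      obtain ⟨j, hj, rfl⟩ := Finset.mem_image.mp (Finset.mem_coe.mp h)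
      rw [Algebra.traceForm_apply]
      exact Submodule.mem_one.mpr (hz j (Finset.mem_range.mp hj))
    | zero => simp
    | add a b _ _ ha hb =>
      rw [map_add]
      exact Submodule.add_mem _ ha hb
    | smul c a _ ha =>
      rw [LinearMap.map_smul_of_tower]
      exact Submodule.smul_mem _ c ha
  rw [traceForm_dualSubmodule_adjoin A K hgen hx] at hmem
  have hne : aeval x (derivative (minpoly K x)) ≠ 0 :=
    (Algebra.IsSeparable.isSeparable K x).aeval_derivative_ne_zero (minpoly.aeval _ _)
  rw [Submodule.mem_smul_iff_inv_mul_mem (inv_ne_zero hne), inv_inv] at hmem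
  have hfs : FaithfulSMul A L := by
    rw [faithfulSMul_iff_algebraMap_injective, IsScalarTower.algebraMap_eq A K L]
    exact (algebraMap K L).injective.comp (IsFractionRing.injective A K)
  obtain ⟨q, rfl⟩ := minpoly.isIntegrallyClosed_dvd hx hG
  have h1 : aeval x (derivative (minpoly A x * q)) * z
      = aeval x q * (aeval x (derivative (minpoly K x)) * z) := by
    rw [minpoly.isIntegrallyClosed_eq_field_fractions' K hx, derivative_map,
      aeval_map_algebraMap, derivative_mul, map_add, map_mul, map_mul, minpoly.aeval]
    ring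
  rw [h1]
  exact Subalgebra.mul_mem _ (aeval_mem_adjoin_singleton A x) hmem

end Core

section Monic

variable {O : Type*} [CommRing O] [IsDomain O] [IsIntegrallyClosed O]
variable {E : Type*} [Field E] [Algebra O E] [IsFractionRing O E]
variable {L : Type*} [Field L] [Algebra E L] [Algebra O L] [IsScalarTower O E L]
  [FiniteDimensional E L] [Algebra.IsSeparable E L]
variable {C : Type*} [CommRing C] [Algebra O C] [Algebra C L] [IsScalarTower O C L]
  [IsIntegralClosure C O L]

/-- **(D2) Monogenic form.** `x : L` integral over `O` with `E[x] = L`, `G : O[X]` with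
`G(x) = 0`, and `s : O` with `s = G'(x) * w`, `w` integral. Then `s` multiplies the trace dual
of `C` into `C`. (Kummer: `G = X ^ e - z`, `s = e * z`, `w = x`.) -/
theorem sd62_aeval_mul_mem {x : L} (hx : IsIntegral O x) (hgen : Algebra.adjoin E {x} = ⊤)
    (G : O[X]) (hG : aeval x G = 0) (s : O) {w : L} (hw : IsIntegral O w)
    (hsw : algebraMap O L s = aeval x (derivative G) * w) (y : L)
    (hy : ∀ c : C, Algebra.trace E L (y * algebraMap C L c) ∈ (algebraMap O E).range) :
    algebraMap O L s * y ∈ (algebraMap C L).range := by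
  have hz : ∀ j : ℕ, j < (minpoly O x).natDegree →
      Algebra.trace E L (y * x ^ j) ∈ (algebraMap O E).range := by
    intro j _
    obtain ⟨c, hc⟩ := (IsIntegralClosure.isIntegral_iff (A := C)).mp (hx.pow j)
    rw [← hc]
    exact hy c
  have h1 := sd62_core hx hgen y hz G hG
  have h2 : IsIntegral O (aeval x (derivative G) * y) :=
    adjoin_le_integralClosure hx h1
  have h3 : IsIntegral O (algebraMap O L s * y) := by
    rw [hsw, mul_assoc, mul_left_comm]
    exact hw.mul h2
  exact (IsIntegralClosure.isIntegral_iff (A := C)).mp h3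

/-- **(D2), hcodim shape.** -/
theorem sd62_of_aeval {x : L} (hx : IsIntegral O x) (hgen : Algebra.adjoin E {x} = ⊤)
    (G : O[X]) (hG : aeval x G = 0) (s : O) {w : L} (hw : IsIntegral O w)
    (hsw : algebraMap O L s = aeval x (derivative G) * w) (p : O) (hp : ¬ p ∣ s) (y : L)
    (hy : ∀ c : C, Algebra.trace E L (y * algebraMap C L c) ∈ (algebraMap O E).range) :
    ∃ s : O, ¬ p ∣ s ∧ algebraMap O L s * y ∈ (algebraMap C L).range :=
  ⟨s, hp, sd62_aeval_mul_mem hx hgen G hG s hw hsw y hy⟩

end Monic

section Tower

variable {O : Type*} [CommRing O] [IsDomain O] [IsIntegrallyClosed O]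
variable {E : Type*} [Field E] [Algebra O E] [IsFractionRing O E]
variable {F : Type*} [Field F] [Algebra E F] [Algebra O F] [IsScalarTower O E F]
  [FiniteDimensional E F] [Algebra.IsSeparable E F]
variable {C : Type*} [CommRing C] [Algebra O C] [Algebra C F] [IsScalarTower O C F]
  [IsIntegralClosure C O F]
variable {L : Type*} [Field L] [Algebra F L] [Algebra E L] [Algebra O L] [IsScalarTower E F L]
  [IsScalarTower O E L] [IsScalarTower O F L] [FiniteDimensional E L] [Algebra.IsSeparable E L]
variable {D : Type*} [CommRing D] [Algebra O D] [Algebra D L] [IsScalarTower O D L]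
  [IsIntegralClosure D O L]

/-- **(T1) Tower step.** Fields `E ⊆ F ⊆ L`, `C`, `D` the integral closures of `O` in `F`, `L`.
If `C` is self-dual at the prime element `p`, `x : L` is integral with `F[x] = L`, `G : O[X]`
kills `x` and `s₁ = G'(x) * w` with `w` integral and `¬ p ∣ s₁`, then `D` is self-dual at `p`
(over `O`). Kummer step: `G = X ^ e - z`, `s₁ = e * z`, `w = x`. -/
theorem sd62_tower (p : O) (hp : Prime p)
    (hC : ∀ y : F, (∀ c : C, Algebra.trace E F (y * algebraMap C F c) ∈ (algebraMap O E).range) →
      ∃ s : O, ¬ p ∣ s ∧ algebraMap O F s * y ∈ (algebraMap C F).range)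
    {x : L} (hx : IsIntegral O x) (hgen : Algebra.adjoin F {x} = ⊤)
    (G : O[X]) (hG : aeval x G = 0) (s₁ : O) (hs₁ : ¬ p ∣ s₁) {w : L} (hw : IsIntegral O w)
    (hsw : algebraMap O L s₁ = aeval x (derivative G) * w) (y : L)
    (hy : ∀ d : D, Algebra.trace E L (y * algebraMap D L d) ∈ (algebraMap O E).range) :
    ∃ s : O, ¬ p ∣ s ∧ algebraMap O L s * y ∈ (algebraMap D L).range := by
  classical
  let : Algebra C L := ((algebraMap F L).comp (algebraMap C F)).toAlgebra
  have hCL : ∀ c : C, algebraMap C L c = algebraMap F L (algebraMap C F c) := fun _ => rfl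
  have : IsScalarTower C F L := IsScalarTower.of_algebraMap_eq hCL
  have : IsScalarTower O C L := IsScalarTower.of_algebraMap_eq (fun a => by
    rw [hCL, ← IsScalarTower.algebraMap_apply O C F, ← IsScalarTower.algebraMap_apply O F L])
  have : IsDomain C := (IsIntegralClosure.algebraMap_injective C O F).isDomain _
  have : IsFractionRing C F := IsIntegralClosure.isFractionRing_of_finite_extension O E F C
  have : IsIntegrallyClosed (integralClosure O F) :=
    integralClosure.isIntegrallyClosedOfFiniteExtension E
  have : IsIntegrallyClosed C :=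
    IsIntegrallyClosed.of_equiv (IsIntegralClosure.equiv O (integralClosure O F) F C).toRingEquiv
  have : FiniteDimensional F L := FiniteDimensional.right E F L
  have : Algebra.IsSeparable F L := Algebra.isSeparable_tower_top_of_isSeparable E F L
  have : Algebra.IsIntegral O C := IsIntegralClosure.isIntegral_algebra O F
  have hxC : IsIntegral C x := hx.tower_top
  -- the finitely many traces
  have ht : ∀ j : ℕ, ∃ s : O, ¬ p ∣ s ∧
      algebraMap O F s * Algebra.trace F L (y * x ^ j) ∈ (algebraMap C F).range := by
    intro j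
    apply hC
    intro c
    have h1 : Algebra.trace F L (y * x ^ j) * algebraMap C F c
        = Algebra.trace F L (y * (x ^ j * algebraMap C L c)) := by
      rw [mul_comm, ← smul_eq_mul, ← map_smul, Algebra.smul_def, hCL]
      congr 1
      ring
    rw [h1, Algebra.trace_trace]
    have hcL : IsIntegral O (algebraMap C L c) :=
      (Algebra.IsIntegral.isIntegral (R := O) c).algebraMap
    obtain ⟨d, hd⟩ := (IsIntegralClosure.isIntegral_iff (A := D)).mp ((hx.pow j).mul hcL)
    rw [← hd]
    exact hy d
  choose sj hsj1 hsj2 using ht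
  set n := (minpoly C x).natDegree with hn
  have hs₂ : ¬ p ∣ ∏ j ∈ Finset.range n, sj j := by
    intro h
    obtain ⟨j, -, hj⟩ := (Prime.dvd_finsetProd_iff hp _).mp h
    exact hsj1 j hj
  have hz : ∀ j : ℕ, j < (minpoly C x).natDegree →
      Algebra.trace F L ((algebraMap O L (∏ j ∈ Finset.range n, sj j) * y) * x ^ j)
        ∈ (algebraMap C F).range := by
    intro j hj
    have hjm : j ∈ Finset.range n := Finset.mem_range.mpr hj
    obtain ⟨c, hc⟩ := hsj2 j
    refine ⟨algebraMap O C (∏ i ∈ (Finset.range n).erase j, sj i) * c, ?_⟩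
    rw [map_mul, hc, ← IsScalarTower.algebraMap_apply O C F, ← mul_assoc, ← map_mul,
      Finset.prod_erase_mul _ _ hjm, mul_assoc, ← Algebra.smul_def, ← Algebra.smul_def,
      LinearMap.map_smul_of_tower]
  have h1 := sd62_core hxC hgen _ hz (G.map (algebraMap O C))
    (by rw [aeval_map_algebraMap]; exact hG)
  rw [derivative_map, aeval_map_algebraMap] at h1
  have h2 : IsIntegral O (aeval x (derivative G) *
      (algebraMap O L (∏ j ∈ Finset.range n, sj j) * y)) :=
    isIntegral_trans _ (adjoin_le_integralClosure hxC h1)
  refine ⟨s₁ * ∏ j ∈ Finset.range n, sj j, fun h => (hp.dvd_or_dvd h).elim hs₁ hs₂, ?_⟩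
  have h3 : IsIntegral O (algebraMap O L (s₁ * ∏ j ∈ Finset.range n, sj j) * y) := by
    have e1 : (aeval x (derivative G) * w * algebraMap O L (∏ j ∈ Finset.range n, sj j)) * y
        = w * (aeval x (derivative G) *
          (algebraMap O L (∏ j ∈ Finset.range n, sj j) * y)) := by ring
    rw [map_mul, hsw, e1]
    exact hw.mul h2
  exact (IsIntegralClosure.isIntegral_iff (A := D)).mp h3

end Tower

section Restrict

variable {O : Type*} [CommRing O] [IsDomain O] [IsIntegrallyClosed O]
variable {E : Type*} [Field E] [Algebra O E] [IsFractionRing O E]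
variable {O' : Type*} [CommRing O'] [Algebra O O'] [Algebra.IsIntegral O O']
variable {E' : Type*} [Field E'] [Algebra O' E'] [Algebra E E'] [Algebra O E']
  [IsScalarTower O E E'] [IsScalarTower O O' E'] [FiniteDimensional E E']
variable {L : Type*} [Field L] [Algebra E' L] [Algebra E L] [Algebra O L] [Algebra O' L]
  [IsScalarTower E E' L] [IsScalarTower O O' L] [FiniteDimensional E' L]
variable {D : Type*} [CommRing D] [Algebra D L]

/-- **(T2) Change of base ring.** `O ⊆ O'` integral, `E ⊆ E' ⊆ L`. If `D` is self-dual at `p`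
over `O` and the element `p'` of `O'` lies over `p` (`p' ∣ s → p ∣ s` for `s : O`), then `D`
is self-dual at `p'` over `O'`. -/
theorem sd62_restrict_base (p : O) (p' : O') (hpp : ∀ s : O, p' ∣ algebraMap O O' s → p ∣ s)
    (hD : ∀ y : L, (∀ d : D, Algebra.trace E L (y * algebraMap D L d) ∈ (algebraMap O E).range) →
      ∃ s : O, ¬ p ∣ s ∧ algebraMap O L s * y ∈ (algebraMap D L).range)
    (y : L)
    (hy : ∀ d : D, Algebra.trace E' L (y * algebraMap D L d) ∈ (algebraMap O' E').range) :
    ∃ s' : O', ¬ p' ∣ s' ∧ algebraMap O' L s' * y ∈ (algebraMap D L).range := by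
  have h1 : ∀ d : D, Algebra.trace E L (y * algebraMap D L d) ∈ (algebraMap O E).range := by
    intro d
    obtain ⟨a, ha⟩ := hy d
    rw [← Algebra.trace_trace (S := E'), ← ha]
    have hint : IsIntegral O (algebraMap O' E' a) :=
      (Algebra.IsIntegral.isIntegral (R := O) a).algebraMap
    exact IsIntegrallyClosed.isIntegral_iff.mp (Algebra.isIntegral_trace (L := E) hint)
  obtain ⟨s, hs, hsy⟩ := hD y h1
  refine ⟨algebraMap O O' s, fun h => hs (hpp s h), ?_⟩
  rw [← IsScalarTower.algebraMap_apply O O' L]
  exact hsy

end Restrict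

section PrimeUnder

attribute [local instance] FractionRing.liftAlgebra FractionRing.isScalarTower_liftAlgebra

variable {O : Type*} [CommRing O] [IsDomain O] [UniqueFactorizationMonoid O]
variable {O' : Type*} [CommRing O'] [IsDomain O'] [IsIntegrallyClosed O'] [Algebra O O']
  [Module.Finite O O'] [Module.IsTorsionFree O O']

/-- **Prime elements lie over prime elements.** `O` a UFD, `O'` an integrally closed domain,
finite and torsion-free over `O`. Every prime element `p'` of `O'` divides a prime element `p`
of `O` such that `p' ∣ s → p ∣ s` for all `s : O` (the hypothesis of `sd62_restrict_base`). -/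
theorem sd62_prime_under (p' : O') (hp' : Prime p') :
    ∃ p : O, Prime p ∧ p' ∣ algebraMap O O' p ∧ ∀ s : O, p' ∣ algebraMap O O' s → p ∣ s := by
  classical
  have hfd : FiniteDimensional (FractionRing O) (FractionRing O') :=
    .of_isLocalization O O' (nonZeroDivisors O)
  set ν := Algebra.intNorm O O' p' with hν
  have hdvd : p' ∣ algebraMap O O' ν := Algebra.dvd_algebraMap_intNorm_self O O' p'
  have hν0 : ν ≠ 0 := Algebra.intNorm_ne_zero.mpr hp'.ne_zero
  obtain ⟨f, hf, hfν⟩ := UniqueFactorizationMonoid.exists_prime_factors ν hν0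
  have hdvd' : p' ∣ (f.map (algebraMap O O')).prod := by
    rw [Multiset.prod_hom]
    exact hdvd.trans (map_dvd _ hfν.symm.dvd)
  obtain ⟨p, hpf, hpp⟩ := hp'.exists_mem_multiset_map_dvd hdvd'
  refine ⟨p, hf p hpf, hpp, ?_⟩
  intro s hs
  obtain ⟨b, hb⟩ := hs
  have h1 : Algebra.intNorm O O' (algebraMap O O' s) = ν * Algebra.intNorm O O' b := by
    rw [hb, map_mul]
  have h2 : Algebra.intNorm O O' (algebraMap O O' s)
      = s ^ Module.finrank (FractionRing O) (FractionRing O') := by
    apply IsFractionRing.injective O (FractionRing O)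
    rw [Algebra.algebraMap_intNorm_fractionRing, ← IsScalarTower.algebraMap_apply,
      IsScalarTower.algebraMap_apply O (FractionRing O) (FractionRing O'),
      Algebra.norm_algebraMap, map_pow]
  have h3 : p ∣ s ^ Module.finrank (FractionRing O) (FractionRing O') := by
    rw [← h2, h1]
    exact ((Multiset.dvd_prod hpf).trans hfν.dvd).mul_right _
  exact (hf p hpf).dvd_of_dvd_pow h3

end PrimeUnder

end Fermat.Agent.S18
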