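import Fermat.Agent.S18.RedMap
import Fermat.Agent.S18.RedMap90
import Fermat.Agent.S18.SelfDualDiscr62

/-!
# S18, row B3b (helper93): the vertical package on the `j`-line

Instance of `RedMap.lean` for `F = F(M)_K = K(J(q^d) : d ∣ M)`, `g = j`, and helper90's family
(`vs_exists_independent`, `RedMap90.lean`): for `R` a UFD with a prime `ϖ`, `K = Frac R`,
`red : R → κ` with kernel `(ϖ)` and `(M : κ) ≠ 0`,

* `rmj_setup` : the `rm_Setup` package;
* `rmj_exists_red` : the reduction map on the integral closure of `R[j]`, kernel `(ϖ)`;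
* `rmj_discr` : a basis of `F(M)_K` over `Frac R[j]`, integral over `R[j]`, with discriminant in
  `R[j]` prime to `ϖ`;
* `rmj_finiteDimensional`, `rmj_isSeparable` : `F(M)_K` is finite separable over `Frac R[j]`;
* `rmj_hcodim` : the integral closure is trace-self-dual at the vertical prime `(ϖ)`.

The base ring is `Polynomial R` with ANY algebra structure on `F(M)_K` whose structure map is
`rm90_ev K R M` (`X ↦ j`); `E` is ANY model of the fraction field of `Polynomial R`.
-/

set_option autoImplicit false

open ModularCurve IntermediateField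

namespace Fermat.Agent.S18
noncomputable section

open Fermat.Agent.S28

section JLine

variable (K : Type) [Field K] {R : Type*} [CommRing R] [IsDomain R]
  [UniqueFactorizationMonoid R] [Algebra R K] [IsFractionRing R K] (M : ℕ) [NeZero M]

/-- The reductions of helper90's integral expressions lie in `F(M)_κ`. -/
theorem rmj_eval_mem (κ : Type) [Field κ] (P : MvPolynomial M.divisors ℤ) :
    MvPolynomial.eval₂ (Int.castRingHom (LaurentSeries κ)) (fun d : M.divisors => JdC κ d.1) P ∈
      modularFunctionFieldFullC κ M := by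
  rw [← rm90_coe_bF κ M P]
  exact (rm90_bF κ M P).2

omit [UniqueFactorizationMonoid R] in
/-- **The `rm_Setup` package on the `j`-line.** -/
theorem rmj_setup [Algebra (Polynomial R) ↥(modularFunctionFieldFullC K M)]
    (hO : algebraMap (Polynomial R) ↥(modularFunctionFieldFullC K M) = rm90_ev K R M)
    {ϖ : R} (hϖ : Prime ϖ) (κ : Type) [Field κ] (red : R →+* κ)
    (hred : ∀ a : R, red a = 0 ↔ ϖ ∣ a)
    (m : Fin (dedekindPsi M) → MvPolynomial M.divisors ℤ)
    (hm : LinearIndependent (IntermediateField.adjoin κ {jqModC κ})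
      (fun i => MvPolynomial.eval₂ (Int.castRingHom (LaurentSeries κ))
        (fun d : M.divisors => JdC κ d.1) (m i))) :
    rm_Setup (modularFunctionFieldFullC K M) ϖ red (rm90_j K M) (jqModC R)
      (fun i => rm90_bF K M (m i))
      (fun i => MvPolynomial.eval₂ (Int.castRingHom (LaurentSeries R))
        (fun d : M.divisors => JdC R d.1) (m i)) := by
  obtain rfl : ‹Algebra (Polynomial R) ↥(modularFunctionFieldFullC K M)› =
      (rm90_ev K R M).toAlgebra :=
    Algebra.algebra_ext _ _ (fun r => congrFun (congrArg DFunLike.coe hO) r)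
  letI : Algebra (Polynomial R) ↥(modularFunctionFieldFullC K M) := (rm90_ev K R M).toAlgebra
  have htr : ∀ Q : Polynomial κ,
      Q.eval₂ HahnSeries.C (coeffMap red (jqModC R)) = 0 → Q = 0 := by
    intro Q hQ
    rw [coeffMap_jqModC] at hQ
    exact h63_eval₂_jqModC_eq_zero κ Q hQ
  refine
    { prime := hϖ
      red_iff := hred
      algebraMap_eq := fun P => rfl
      coe_g := coeffMap_jqModC _
      transc := htr
      coe_b := fun i => ?_
      indep := ?_
      integral := fun i => rm90_isIntegral_bF K R M (m i)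
      card_le := fun n c hc => by
        rw [Fintype.card_fin]
        exact rm90_hcard K R M n c hc }
  · change coeffMap (algebraMap R K) _ = _
    rw [rm90_coeffMap_eval, rm90_coe_bF]
  · refine rm_indep_of_field htr ?_
    have e1 : coeffMap red (jqModC R) = jqModC κ := coeffMap_jqModC red
    have e2 : (fun i => coeffMap red (MvPolynomial.eval₂ (Int.castRingHom (LaurentSeries R))
        (fun d : M.divisors => JdC R d.1) (m i))) =
        fun i => MvPolynomial.eval₂ (Int.castRingHom (LaurentSeries κ))
          (fun d : M.divisors => JdC κ d.1) (m i) := funext fun i => rm90_coeffMap_eval red (m i)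
    rw [e1, e2]
    exact hm

variable [Algebra (Polynomial R) ↥(modularFunctionFieldFullC K M)]

/-- **The reduction map on the `j`-line**: on the integral closure `C_j` of `R[j]` in `F(M)_K`
there is a ring hom to `κ((q))` with kernel `ϖ C_j` (so `ϖ C_j` is prime), given by the
coefficientwise reduction on elements with `R`-integral `q`-expansion. -/
theorem rmj_exists_red
    (hO : algebraMap (Polynomial R) ↥(modularFunctionFieldFullC K M) = rm90_ev K R M)
    {ϖ : R} (hϖ : Prime ϖ) (κ : Type) [Field κ] (red : R →+* κ)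
    (hred : ∀ a : R, red a = 0 ↔ ϖ ∣ a) (hM : (M : κ) ≠ 0) :
    ∃ φ : ↥(integralClosure (Polynomial R) ↥(modularFunctionFieldFullC K M)) →+*
        LaurentSeries κ,
      (∀ x, φ x = 0 ↔ ∃ y : ↥(integralClosure (Polynomial R) ↥(modularFunctionFieldFullC K M)),
        x = Polynomial.C ϖ • y) ∧
      (∀ (x : ↥(integralClosure (Polynomial R) ↥(modularFunctionFieldFullC K M)))
        (y : LaurentSeries R),
        coeffMap (algebraMap R K) y =
          ((x : ↥(modularFunctionFieldFullC K M)) : LaurentSeries K) → φ x = coeffMap red y) := by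
  obtain ⟨m, hm⟩ := vs_exists_independent κ M hM
  exact rm_exists_red (rmj_setup K M hO hϖ κ red hred m hm)

/-- **Unit discriminant at the vertical prime, `j`-line.**  `F(M)_K` has a basis over
`E = Frac R[j]` consisting of `ψ(M)` elements integral over `R[j]`, whose discriminant is an
element of `R[j]` not divisible by `ϖ`. -/
theorem rmj_discr
    (hO : algebraMap (Polynomial R) ↥(modularFunctionFieldFullC K M) = rm90_ev K R M)
    {ϖ : R} (hϖ : Prime ϖ) (κ : Type) [Field κ] (red : R →+* κ)
    (hred : ∀ a : R, red a = 0 ↔ ϖ ∣ a) (hM : (M : κ) ≠ 0)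
    (E : Type*) [Field E] [Algebra (Polynomial R) E] [IsFractionRing (Polynomial R) E]
    [Algebra E ↥(modularFunctionFieldFullC K M)]
    [IsScalarTower (Polynomial R) E ↥(modularFunctionFieldFullC K M)] :
    ∃ (b : Fin (dedekindPsi M) → ↥(modularFunctionFieldFullC K M)) (d : Polynomial R),
      (∀ i, IsIntegral (Polynomial R) (b i)) ∧
      (∃ bE : Module.Basis (Fin (dedekindPsi M)) E ↥(modularFunctionFieldFullC K M),
        ∀ i, bE i = b i) ∧
      ¬ Polynomial.C ϖ ∣ d ∧ algebraMap (Polynomial R) E d = Algebra.discr E b := by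
  obtain ⟨m, hm⟩ := vs_exists_independent κ M hM
  have hS := rmj_setup K M hO hϖ κ red hred m hm
  have e1 : coeffMap red (jqModC R) = jqModC κ := coeffMap_jqModC red
  have e2 : (fun i => coeffMap red (MvPolynomial.eval₂ (Int.castRingHom (LaurentSeries R))
      (fun d : M.divisors => JdC R d.1) (m i))) =
      fun i => MvPolynomial.eval₂ (Int.castRingHom (LaurentSeries κ))
        (fun d : M.divisors => JdC κ d.1) (m i) := funext fun i => rm90_coeffMap_eval red (m i)
  have hli : LinearIndependent ↥(IntermediateField.adjoin κ {coeffMap red (jqModC R)})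
      (fun i => coeffMap red (MvPolynomial.eval₂ (Int.castRingHom (LaurentSeries R))
        (fun d : M.divisors => JdC R d.1) (m i))) := by
    rw [e1, e2]
    exact hm
  have hsep : ∀ i, IsSeparable ↥(IntermediateField.adjoin κ {coeffMap red (jqModC R)})
      (coeffMap red (MvPolynomial.eval₂ (Int.castRingHom (LaurentSeries R))
        (fun d : M.divisors => JdC R d.1) (m i))) := by
    intro i
    rw [e1, rm90_coeffMap_eval]
    exact vs_isSeparable κ M hM (rmj_eval_mem M κ (m i))
  obtain ⟨d, hd1, hd2⟩ := rm_discr hS hli hsep E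
  exact ⟨_, d, hS.integral, rm_basis hS E, hd1, hd2⟩

/-- `F(M)_K` is finite over `E = Frac R[j]`. -/
theorem rmj_finiteDimensional
    (hO : algebraMap (Polynomial R) ↥(modularFunctionFieldFullC K M) = rm90_ev K R M)
    {ϖ : R} (hϖ : Prime ϖ) (κ : Type) [Field κ] (red : R →+* κ)
    (hred : ∀ a : R, red a = 0 ↔ ϖ ∣ a) (hM : (M : κ) ≠ 0)
    (E : Type*) [Field E] [Algebra (Polynomial R) E] [IsFractionRing (Polynomial R) E]
    [Algebra E ↥(modularFunctionFieldFullC K M)]
    [IsScalarTower (Polynomial R) E ↥(modularFunctionFieldFullC K M)] :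
    FiniteDimensional E ↥(modularFunctionFieldFullC K M) := by
  obtain ⟨b, d, -, ⟨bE, -⟩, -, -⟩ := rmj_discr K M hO hϖ κ red hred hM E
  exact Module.Finite.of_basis bE

/-- `[F(M)_K : Frac R[j]] = ψ(M)`. -/
theorem rmj_finrank
    (hO : algebraMap (Polynomial R) ↥(modularFunctionFieldFullC K M) = rm90_ev K R M)
    {ϖ : R} (hϖ : Prime ϖ) (κ : Type) [Field κ] (red : R →+* κ)
    (hred : ∀ a : R, red a = 0 ↔ ϖ ∣ a) (hM : (M : κ) ≠ 0)
    (E : Type*) [Field E] [Algebra (Polynomial R) E] [IsFractionRing (Polynomial R) E]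
    [Algebra E ↥(modularFunctionFieldFullC K M)]
    [IsScalarTower (Polynomial R) E ↥(modularFunctionFieldFullC K M)] :
    Module.finrank E ↥(modularFunctionFieldFullC K M) = dedekindPsi M := by
  obtain ⟨b, d, -, ⟨bE, -⟩, -, -⟩ := rmj_discr K M hO hϖ κ red hred hM E
  rw [Module.finrank_eq_card_basis bE, Fintype.card_fin]

/-- `F(M)_K` is separable over `E = Frac R[j]` (in any characteristic of `K`): the discriminant
of a basis is nonzero. -/
theorem rmj_isSeparable
    (hO : algebraMap (Polynomial R) ↥(modularFunctionFieldFullC K M) = rm90_ev K R M)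
    {ϖ : R} (hϖ : Prime ϖ) (κ : Type) [Field κ] (red : R →+* κ)
    (hred : ∀ a : R, red a = 0 ↔ ϖ ∣ a) (hM : (M : κ) ≠ 0)
    (E : Type*) [Field E] [Algebra (Polynomial R) E] [IsFractionRing (Polynomial R) E]
    [Algebra E ↥(modularFunctionFieldFullC K M)]
    [IsScalarTower (Polynomial R) E ↥(modularFunctionFieldFullC K M)] :
    Algebra.IsSeparable E ↥(modularFunctionFieldFullC K M) := by
  classical
  obtain ⟨b, d, -, ⟨bE, hbE⟩, hd1, hd2⟩ := rmj_discr K M hO hϖ κ red hred hM E
  have : FiniteDimensional E ↥(modularFunctionFieldFullC K M) := Module.Finite.of_basis bE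
  have hd0 : d ≠ 0 := by
    rintro rfl
    exact hd1 (dvd_zero _)
  have hdE : algebraMap (Polynomial R) E d ≠ 0 := fun h =>
    hd0 (IsFractionRing.injective (Polynomial R) E (by rw [h, map_zero]))
  have hb : (bE : Fin (dedekindPsi M) → ↥(modularFunctionFieldFullC K M)) = b := funext hbE
  rw [hd2, ← hb, Algebra.discr_def, Algebra.traceMatrix_of_basis] at hdE
  have hnd : (Algebra.traceForm E ↥(modularFunctionFieldFullC K M)).Nondegenerate :=
    (LinearMap.BilinForm.nondegenerate_iff_det_ne_zero bE).mpr hdE
  exact ((traceForm_nondegenerate_tfae E ↥(modularFunctionFieldFullC K M)).out 2 0).mp hnd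

/-- **Vertical self-duality on the `j`-line** (the `hcodim` shape of the purity lemma at the
prime element `C ϖ` of `R[X]`): for `C` the integral closure of `R[j]` in `F(M)_K`, every
element of the trace dual of `C` has a multiple by some `s ∉ (ϖ)` in `C`. -/
theorem rmj_hcodim
    (hO : algebraMap (Polynomial R) ↥(modularFunctionFieldFullC K M) = rm90_ev K R M)
    {ϖ : R} (hϖ : Prime ϖ) (κ : Type) [Field κ] (red : R →+* κ)
    (hred : ∀ a : R, red a = 0 ↔ ϖ ∣ a) (hM : (M : κ) ≠ 0)
    {E : Type*} [Field E] [Algebra (Polynomial R) E] [IsFractionRing (Polynomial R) E]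
    [Algebra E ↥(modularFunctionFieldFullC K M)]
    [IsScalarTower (Polynomial R) E ↥(modularFunctionFieldFullC K M)]
    {C : Type*} [CommRing C] [Algebra (Polynomial R) C]
    [Algebra C ↥(modularFunctionFieldFullC K M)]
    [IsScalarTower (Polynomial R) C ↥(modularFunctionFieldFullC K M)]
    [IsIntegralClosure C (Polynomial R) ↥(modularFunctionFieldFullC K M)]
    (y : ↥(modularFunctionFieldFullC K M))
    (hy : ∀ c : C, Algebra.trace E ↥(modularFunctionFieldFullC K M)
      (y * algebraMap C ↥(modularFunctionFieldFullC K M) c) ∈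
        (algebraMap (Polynomial R) E).range) :
    ∃ s : Polynomial R, ¬ Polynomial.C ϖ ∣ s ∧
      algebraMap (Polynomial R) ↥(modularFunctionFieldFullC K M) s * y ∈
        (algebraMap C ↥(modularFunctionFieldFullC K M)).range := by
  classical
  obtain ⟨b, d, hint, ⟨bE, hbE⟩, hd1, hd2⟩ := rmj_discr K M hO hϖ κ red hred hM E
  have : FiniteDimensional E ↥(modularFunctionFieldFullC K M) := Module.Finite.of_basis bE
  have : Algebra.IsSeparable E ↥(modularFunctionFieldFullC K M) :=
    rmj_isSeparable K M hO hϖ κ red hred hM E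
  have hb : ∀ i, ∃ c : C, algebraMap C ↥(modularFunctionFieldFullC K M) c = b i := fun i =>
    IsIntegralClosure.isIntegral_iff.mp (hint i)
  choose bC hbC using hb
  have hfun : (fun i => algebraMap C ↥(modularFunctionFieldFullC K M) (bC i)) = b := funext hbC
  refine sd62_of_discr bC ?_ d ?_ (Polynomial.C ϖ) hd1 y hy
  · rw [Module.finrank_eq_card_basis bE]
  · rw [hfun, hd2, Algebra.discr_def]

end JLine

end
end Fermat.Agent.S18
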