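import Fermat.Agent.S18.RedMapJ
import Fermat.Agent.S18.Bridge51

/-!
# S18, row B3b (helper93): the `j`-line vertical package in the shapes of the transfer lemmas

* `rmj_purSelfDualAt` : `PurSelfDualAt (Polynomial R) E F (C ϖ)` for `F = F(M)_K` over `R[j]`;
* `rmj_span_prime` : `ϖ` generates a prime ideal of the integral closure of `R[j]` in `F(M)_K`.

These are the hypotheses `hSD`, `hdom` of `vt95_selfDual_transfer` / `vt95_prime_transfer`
(`VertTransfer95.lean`) on the `j`-line.
-/

set_option autoImplicit false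

open ModularCurve IntermediateField

namespace Fermat.Agent.S18
noncomputable section

section JLine

variable (K : Type) [Field K] {R : Type*} [CommRing R] [IsDomain R]
  [UniqueFactorizationMonoid R] [Algebra R K] [IsFractionRing R K] (M : ℕ) [NeZero M]
  [Algebra (Polynomial R) ↥(modularFunctionFieldFullC K M)]

/-- `ϖ` generates a prime ideal of the integral closure of `R[j]` in `F(M)_K`. -/
theorem rmj_span_prime
    (hO : algebraMap (Polynomial R) ↥(modularFunctionFieldFullC K M) = rm90_ev K R M)
    {ϖ : R} (hϖ : Prime ϖ) (κ : Type) [Field κ] (red : R →+* κ)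
    (hred : ∀ a : R, red a = 0 ↔ ϖ ∣ a) (hM : (M : κ) ≠ 0) :
    (Ideal.span {algebraMap (Polynomial R)
      (integralClosure (Polynomial R) ↥(modularFunctionFieldFullC K M))
        (Polynomial.C ϖ)}).IsPrime := by
  obtain ⟨φ, hφ, -⟩ := rmj_exists_red K M hO hϖ κ red hred hM
  have e : Ideal.span {algebraMap (Polynomial R)
      (integralClosure (Polynomial R) ↥(modularFunctionFieldFullC K M)) (Polynomial.C ϖ)} =
      RingHom.ker φ := by
    ext x
    rw [Ideal.mem_span_singleton, RingHom.mem_ker, hφ]
    constructor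
    · rintro ⟨y, rfl⟩
      exact ⟨y, by rw [Algebra.smul_def]⟩
    · rintro ⟨y, rfl⟩
      exact ⟨y, by rw [Algebra.smul_def]⟩
  rw [e]
  exact RingHom.ker_isPrime φ

/-- **Vertical self-duality on the `j`-line, `PurSelfDualAt` shape.** -/
theorem rmj_purSelfDualAt [IsNoetherianRing R]
    (hO : algebraMap (Polynomial R) ↥(modularFunctionFieldFullC K M) = rm90_ev K R M)
    {ϖ : R} (hϖ : Prime ϖ) (κ : Type) [Field κ] (red : R →+* κ)
    (hred : ∀ a : R, red a = 0 ↔ ϖ ∣ a) (hM : (M : κ) ≠ 0)
    (E : Type*) [Field E] [Algebra (Polynomial R) E] [IsFractionRing (Polynomial R) E]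
    [Algebra E ↥(modularFunctionFieldFullC K M)]
    [IsScalarTower (Polynomial R) E ↥(modularFunctionFieldFullC K M)] :
    PurSelfDualAt (Polynomial R) E ↥(modularFunctionFieldFullC K M) (Polynomial.C ϖ) := by
  have : FiniteDimensional E ↥(modularFunctionFieldFullC K M) :=
    rmj_finiteDimensional K M hO hϖ κ red hred hM E
  have : Algebra.IsSeparable E ↥(modularFunctionFieldFullC K M) :=
    rmj_isSeparable K M hO hϖ κ red hred hM E
  exact pur_selfDualAt_of_hcodim
    (C := ↥(integralClosure (Polynomial R) ↥(modularFunctionFieldFullC K M)))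
    (Polynomial.prime_C_iff.mpr hϖ)
    (fun y hy => rmj_hcodim K M hO hϖ κ red hred hM y hy)

end JLine

end
end Fermat.Agent.S18
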