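import Mathlib

/-!
# S18 row A4b (helper62): self-duality at a prime depends only on the localisation

Two domains `O₁`, `O₂` inside the same field `E` with prime elements `p₁`, `p₂` such that
`(O₁)_(p₁) = (O₂)_(p₂)` (stated elementwise).  If the integral closure `C₁` of `O₁` in `L` is
self-dual at `p₁` (hcodim shape), then the integral closure `C₂` of `O₂` in `L` is self-dual
at `p₂`.  Typical uses: pass between `R[h]`, `R[h, 1/h]` and the local rings `R[h]_𝔪`.
-/

set_option autoImplicit false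
set_option linter.unusedSectionVars false

namespace Fermat.Agent.S18

open Polynomial

section Transfer

variable {O₁ : Type*} [CommRing O₁] {O₂ : Type*} [CommRing O₂] [IsDomain O₂]
variable {E : Type*} [Field E] [Algebra O₁ E] [Algebra O₂ E]
variable {L : Type*} [Field L] [Algebra E L] [Algebra O₁ L] [IsScalarTower O₁ E L]
  [Algebra O₂ L] [IsScalarTower O₂ E L]

/-- Clearing denominators: if every element of `O₁` becomes an element of `O₂` after
multiplication by some `t : O₂` prime to `p₂`, then every `x` integral over `O₁` becomes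
integral over `O₂` after multiplication by such a `t`. -/
theorem sd62_clear_denom (p₂ : O₂) (hp₂ : Prime p₂)
    (h12 : ∀ a : O₁, ∃ t b : O₂, ¬ p₂ ∣ t ∧
      algebraMap O₂ E t * algebraMap O₁ E a = algebraMap O₂ E b)
    {x : L} (hx : IsIntegral O₁ x) :
    ∃ t : O₂, ¬ p₂ ∣ t ∧ IsIntegral O₂ (algebraMap O₂ L t * x) := by
  classical
  obtain ⟨P, hP, hPx⟩ := hx
  choose tt bb htt hbb using h12
  set n := P.natDegree with hn
  set t : O₂ := ∏ i ∈ Finset.range n, tt (P.coeff i) with ht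
  have htp : ¬ p₂ ∣ t := by
    intro h
    obtain ⟨i, -, hi⟩ := (Prime.dvd_finsetProd_iff hp₂ _).mp h
    exact htt _ hi
  refine ⟨t, htp, ?_⟩
  set Q : E[X] := scaleRoots (P.map (algebraMap O₁ E)) (algebraMap O₂ E t) with hQ
  have hPm : (P.map (algebraMap O₁ E)).Monic := hP.map _
  have hQm : Q.Monic := (monic_scaleRoots_iff _).mpr hPm
  have hnat : (P.map (algebraMap O₁ E)).natDegree = n := hP.natDegree_map _
  have hQl : Q ∈ lifts (algebraMap O₂ E) := by
    rw [lifts_iff_coeff_lifts]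
    intro i
    rw [hQ, coeff_scaleRoots, hnat, coeff_map]
    rcases lt_trichotomy i n with hi | hi | hi
    · have hi' : i ∈ Finset.range n := Finset.mem_range.mpr hi
      obtain ⟨m, hm⟩ : ∃ m, n - i = m + 1 := ⟨n - i - 1, by omega⟩
      refine ⟨bb (P.coeff i) * (∏ k ∈ (Finset.range n).erase i, tt (P.coeff k)) * t ^ m, ?_⟩
      have e2 : t = tt (P.coeff i) * ∏ k ∈ (Finset.range n).erase i, tt (P.coeff k) :=
        (Finset.mul_prod_erase (Finset.range n) (fun k => tt (P.coeff k)) hi').symm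
      have e3 : algebraMap O₂ E t = algebraMap O₂ E (tt (P.coeff i)) *
          algebraMap O₂ E (∏ k ∈ (Finset.range n).erase i, tt (P.coeff k)) := by
        rw [← map_mul, ← e2]
      rw [hm, pow_succ, map_mul, map_mul, ← hbb, map_pow, e3]
      ring
    · subst hi
      refine ⟨1, ?_⟩
      have : P.coeff n = 1 := hP.coeff_natDegree
      simp [this]
    · refine ⟨0, ?_⟩
      rw [coeff_eq_zero_of_natDegree_lt hi]
      simp
  obtain ⟨q, hq, -, hqm⟩ := lifts_and_natDegree_eq_and_monic hQl hQm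
  refine ⟨q, hqm, ?_⟩
  have h0 : aeval x (P.map (algebraMap O₁ E)) = 0 := by
    rw [aeval_map_algebraMap]
    rw [← aeval_def] at hPx
    exact hPx
  have h1 := scaleRoots_aeval_eq_zero (r := algebraMap O₂ E t) h0
  rw [← hQ, ← hq, aeval_map_algebraMap, ← IsScalarTower.algebraMap_apply] at h1
  rw [← aeval_def]
  exact h1

end Transfer

section Main

variable {O₁ : Type*} [CommRing O₁] [IsDomain O₁] {O₂ : Type*} [CommRing O₂] [IsDomain O₂]
variable {E : Type*} [Field E] [Algebra O₁ E] [Algebra O₂ E]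
variable {L : Type*} [Field L] [Algebra E L] [Algebra O₁ L] [IsScalarTower O₁ E L]
  [Algebra O₂ L] [IsScalarTower O₂ E L]
variable {C₁ : Type*} [CommRing C₁] [Algebra O₁ C₁] [Algebra C₁ L] [IsScalarTower O₁ C₁ L]
  [IsIntegralClosure C₁ O₁ L] [Module.Finite O₁ C₁]
variable {C₂ : Type*} [CommRing C₂] [Algebra O₂ C₂] [Algebra C₂ L] [IsScalarTower O₂ C₂ L]
  [IsIntegralClosure C₂ O₂ L]

/-- **Self-duality at a prime only depends on the localisation at that prime.**
`O₁`, `O₂ ⊆ E` with prime elements `p₁`, `p₂` such that `(O₁)_(p₁) = (O₂)_(p₂)`: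
every `a : O₁` is `b / t` with `t, b : O₂`, `¬ p₂ ∣ t` (and `¬ p₂ ∣ b` when `¬ p₁ ∣ a`), and
symmetrically.  Then hcodim at `p₁` for `(O₁, C₁)` implies hcodim at `p₂` for `(O₂, C₂)`. -/
theorem sd62_transfer (p₁ : O₁) (p₂ : O₂) (hp₁ : Prime p₁) (hp₂ : Prime p₂)
    (h12 : ∀ a : O₁, ∃ t b : O₂, ¬ p₂ ∣ t ∧
      algebraMap O₂ E t * algebraMap O₁ E a = algebraMap O₂ E b ∧ (¬ p₁ ∣ a → ¬ p₂ ∣ b))
    (h21 : ∀ a : O₂, ∃ t b : O₁, ¬ p₁ ∣ t ∧
      algebraMap O₁ E t * algebraMap O₂ E a = algebraMap O₁ E b ∧ (¬ p₂ ∣ a → ¬ p₁ ∣ b))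
    (h₁ : ∀ y : L,
      (∀ c : C₁, Algebra.trace E L (y * algebraMap C₁ L c) ∈ (algebraMap O₁ E).range) →
      ∃ s : O₁, ¬ p₁ ∣ s ∧ algebraMap O₁ L s * y ∈ (algebraMap C₁ L).range)
    (y : L)
    (hy : ∀ c : C₂, Algebra.trace E L (y * algebraMap C₂ L c) ∈ (algebraMap O₂ E).range) :
    ∃ s : O₂, ¬ p₂ ∣ s ∧ algebraMap O₂ L s * y ∈ (algebraMap C₂ L).range := by
  classical
  have h12' : ∀ a : O₁, ∃ t b : O₂, ¬ p₂ ∣ t ∧
      algebraMap O₂ E t * algebraMap O₁ E a = algebraMap O₂ E b := by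
    intro a
    obtain ⟨t, b, h1, h2, -⟩ := h12 a
    exact ⟨t, b, h1, h2⟩
  -- Step A: traces against `C₁` are in `(O₁)_(p₁)`
  have hA : ∀ c₁ : C₁, ∃ u : O₁, ¬ p₁ ∣ u ∧
      algebraMap O₁ E u * Algebra.trace E L (y * algebraMap C₁ L c₁) ∈ (algebraMap O₁ E).range := by
    intro c₁
    have hx : IsIntegral O₁ (algebraMap C₁ L c₁) :=
      (IsIntegralClosure.isIntegral_iff (A := C₁)).mpr ⟨c₁, rfl⟩
    obtain ⟨t, ht, hint⟩ := sd62_clear_denom (E := E) p₂ hp₂ h12' hx
    obtain ⟨c₂, hc₂⟩ := (IsIntegralClosure.isIntegral_iff (A := C₂)).mp hint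
    obtain ⟨a, ha⟩ := hy c₂
    have e1 : y * (algebraMap O₂ L t * algebraMap C₁ L c₁)
        = algebraMap O₂ E t • (y * algebraMap C₁ L c₁) := by
      rw [Algebra.smul_def, IsScalarTower.algebraMap_apply O₂ E L]
      ring
    rw [hc₂, e1, map_smul, smul_eq_mul] at ha
    obtain ⟨u, b, hu, hub, -⟩ := h21 a
    obtain ⟨u', b', hu', hub', hb'⟩ := h21 t
    refine ⟨u * b', fun h => (hp₁.dvd_or_dvd h).elim hu (hb' ht), u' * b, ?_⟩
    rw [map_mul, map_mul, ← hub, ← hub', ha]
    ring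
  choose uu huu1 huu2 using hA
  obtain ⟨S, hS⟩ := (Module.Finite.fg_top : (⊤ : Submodule O₁ C₁).FG)
  set U : O₁ := ∏ c ∈ S, uu c with hU
  have hUp : ¬ p₁ ∣ U := by
    intro h
    obtain ⟨c, -, hc⟩ := (Prime.dvd_finsetProd_iff hp₁ _).mp h
    exact huu1 c hc
  -- Step B: `U * y` is in the dual of `C₁`
  let φ : C₁ →ₗ[O₁] E :=
    ((Algebra.trace E L).restrictScalars O₁).comp
      ((LinearMap.mulLeft O₁ (algebraMap O₁ L U * y)).comp
        (IsScalarTower.toAlgHom O₁ C₁ L).toLinearMap)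
  have hφ : ∀ c : C₁, φ c = Algebra.trace E L (algebraMap O₁ L U * y * algebraMap C₁ L c) :=
    fun _ => rfl
  have hB : ∀ c : C₁, φ c ∈ (1 : Submodule O₁ E) := by
    have hle : Submodule.span O₁ (S : Set C₁) ≤ (1 : Submodule O₁ E).comap φ := by
      rw [Submodule.span_le]
      intro c hc
      have hc' : c ∈ S := hc
      rw [SetLike.mem_coe, Submodule.mem_comap, hφ, Submodule.mem_one]
      obtain ⟨b, hb⟩ := huu2 c
      refine ⟨(∏ k ∈ S.erase c, uu k) * b, ?_⟩
      have e2 : U = uu c * ∏ k ∈ S.erase c, uu k :=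
        (Finset.mul_prod_erase S uu hc').symm
      have e3 : algebraMap O₁ L U * y * algebraMap C₁ L c
          = algebraMap O₁ E U • (y * algebraMap C₁ L c) := by
        rw [Algebra.smul_def, IsScalarTower.algebraMap_apply O₁ E L]
        ring
      rw [e3, map_smul, smul_eq_mul, map_mul (algebraMap O₁ E), hb, e2,
        map_mul (algebraMap O₁ E)]
      ring
    intro c
    have : c ∈ Submodule.span O₁ (S : Set C₁) := by rw [hS]; trivial
    exact hle this
  have hdual : ∀ c : C₁, Algebra.trace E L (algebraMap O₁ L U * y * algebraMap C₁ L c)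
      ∈ (algebraMap O₁ E).range := by
    intro c
    have := hB c
    rw [hφ, Submodule.mem_one] at this
    exact this
  -- Step C
  obtain ⟨s, hs, hsy⟩ := h₁ (algebraMap O₁ L U * y) hdual
  have hint₁ : IsIntegral O₁ (algebraMap O₁ L s * (algebraMap O₁ L U * y)) :=
    (IsIntegralClosure.isIntegral_iff (A := C₁)).mpr hsy
  -- Step D
  obtain ⟨t, ht, hint₂⟩ := sd62_clear_denom (E := E) p₂ hp₂ h12' hint₁
  obtain ⟨t', b, ht', htb, hb⟩ := h12 (s * U)
  have hb' : ¬ p₂ ∣ b := hb (fun h => (hp₁.dvd_or_dvd h).elim hs hUp)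
  refine ⟨t * b, fun h => (hp₂.dvd_or_dvd h).elim ht hb', ?_⟩
  have e4 : algebraMap O₂ L (t * b) * y = algebraMap O₂ L t' *
      (algebraMap O₂ L t * (algebraMap O₁ L s * (algebraMap O₁ L U * y))) := by
    have := congrArg (algebraMap E L) htb
    rw [map_mul, ← IsScalarTower.algebraMap_apply, ← IsScalarTower.algebraMap_apply,
      ← IsScalarTower.algebraMap_apply, map_mul] at this
    rw [map_mul, ← this]
    ring
  have hint₃ : IsIntegral O₂ (algebraMap O₂ L (t * b) * y) := by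
    rw [e4]
    exact isIntegral_algebraMap.mul hint₂
  exact (IsIntegralClosure.isIntegral_iff (A := C₂)).mp hint₃

end Main

section Localize

variable {O : Type*} [CommRing O] [IsDomain O] {O' : Type*} [CommRing O'] [IsDomain O']
  [Algebra O O'] (M : Submonoid O) [IsLocalization M O']
variable {E : Type*} [Field E] [Algebra O E] [Algebra O' E] [IsScalarTower O O' E]
variable {L : Type*} [Field L] [Algebra E L] [Algebra O L] [IsScalarTower O E L]
  [Algebra O' L] [IsScalarTower O' E L]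
variable {C : Type*} [CommRing C] [Algebra O C] [Algebra C L] [IsScalarTower O C L]
  [IsIntegralClosure C O L]
variable {C' : Type*} [CommRing C'] [Algebra O' C'] [Algebra C' L] [IsScalarTower O' C' L]
  [IsIntegralClosure C' O' L]

omit [IsDomain O] [IsDomain O'] in
theorem sd62_loc_not_dvd (p : O) (hp : Prime p) (hM : ∀ m ∈ M, ¬ p ∣ m) (a : O)
    (ha : ¬ p ∣ a) : ¬ algebraMap O O' p ∣ algebraMap O O' a := by
  rintro ⟨z, hz⟩
  obtain ⟨⟨c, m⟩, hcm⟩ := IsLocalization.surj M z
  have h1 : algebraMap O O' (a * m) = algebraMap O O' (p * c) := by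
    rw [map_mul, map_mul, hz, ← hcm]
    ring
  obtain ⟨m', hm'⟩ := (IsLocalization.eq_iff_exists M O').mp h1
  have h2 : p ∣ (m' : O) * (a * m) := ⟨m' * c, by rw [hm']; ring⟩
  rcases hp.dvd_or_dvd h2 with h | h
  · exact hM _ m'.2 h
  · rcases hp.dvd_or_dvd h with h | h
    · exact ha h
    · exact hM _ m.2 h

omit [IsDomain O] [IsDomain O'] in
theorem sd62_loc_surj (p : O) (hM : ∀ m ∈ M, ¬ p ∣ m) (a' : O') :
    ∃ t b : O, ¬ p ∣ t ∧ algebraMap O E t * algebraMap O' E a' = algebraMap O E b ∧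
      (¬ algebraMap O O' p ∣ a' → ¬ p ∣ b) := by
  obtain ⟨⟨b, m⟩, hbm⟩ := IsLocalization.surj M a'
  refine ⟨m, b, hM _ m.2, ?_, ?_⟩
  · rw [IsScalarTower.algebraMap_apply O O' E, IsScalarTower.algebraMap_apply O O' E, ← hbm,
      map_mul]
    ring
  · intro h hpb
    apply h
    have hu : IsUnit (algebraMap O O' (m : O)) := IsLocalization.map_units O' m
    have h1 : algebraMap O O' p ∣ a' * algebraMap O O' (m : O) := by
      rw [hbm]
      exact map_dvd _ hpb
    exact (hu.dvd_mul_right).mp h1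

/-- **Localising the base (down).** `O' = M⁻¹ O` with `M` prime to `p`: self-duality of `C` at
`p` over `O` gives self-duality of `C'` at `p` over `O'`. -/
theorem sd62_localize_down [Module.Finite O C] (p : O) (hp : Prime p)
    (hp' : Prime (algebraMap O O' p)) (hM : ∀ m ∈ M, ¬ p ∣ m)
    (h : ∀ y : L,
      (∀ c : C, Algebra.trace E L (y * algebraMap C L c) ∈ (algebraMap O E).range) →
      ∃ s : O, ¬ p ∣ s ∧ algebraMap O L s * y ∈ (algebraMap C L).range)
    (y : L)
    (hy : ∀ c : C', Algebra.trace E L (y * algebraMap C' L c) ∈ (algebraMap O' E).range) :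
    ∃ s : O', ¬ algebraMap O O' p ∣ s ∧ algebraMap O' L s * y ∈ (algebraMap C' L).range := by
  refine sd62_transfer (E := E) (C₁ := C) (C₂ := C') p (algebraMap O O' p) hp hp' ?_ ?_ h y hy
  · intro a
    refine ⟨1, algebraMap O O' a, hp'.not_dvd_one, ?_, sd62_loc_not_dvd M p hp hM a⟩
    rw [map_one, one_mul, ← IsScalarTower.algebraMap_apply]
  · intro a'
    exact sd62_loc_surj M p hM a'

/-- **Localising the base (up).** `O' = M⁻¹ O` with `M` prime to `p`: self-duality of `C'` at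
`p` over `O'` gives self-duality of `C` at `p` over `O`. -/
theorem sd62_localize_up [Module.Finite O' C'] (p : O) (hp : Prime p)
    (hp' : Prime (algebraMap O O' p)) (hM : ∀ m ∈ M, ¬ p ∣ m)
    (h : ∀ y : L,
      (∀ c : C', Algebra.trace E L (y * algebraMap C' L c) ∈ (algebraMap O' E).range) →
      ∃ s : O', ¬ algebraMap O O' p ∣ s ∧ algebraMap O' L s * y ∈ (algebraMap C' L).range)
    (y : L)
    (hy : ∀ c : C, Algebra.trace E L (y * algebraMap C L c) ∈ (algebraMap O E).range) :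
    ∃ s : O, ¬ p ∣ s ∧ algebraMap O L s * y ∈ (algebraMap C L).range := by
  refine sd62_transfer (E := E) (C₁ := C') (C₂ := C) (algebraMap O O' p) p hp' hp ?_ ?_ h y hy
  · intro a'
    exact sd62_loc_surj M p hM a'
  · intro a
    refine ⟨1, algebraMap O O' a, hp'.not_dvd_one, ?_, sd62_loc_not_dvd M p hp hM a⟩
    rw [map_one, one_mul, ← IsScalarTower.algebraMap_apply]

end Localize

end Fermat.Agent.S18
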