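import Fermat.Agent.S18.SelfDual

/-!
# S18, row A4 (helper44), adapter: unramified in the language of height-one primes

`sd44_hcodim_of_heightOne`: the hypothesis of `sd44_hcodim_of_valuation` is checked on the
height-one primes `w` of ANY Dedekind domain `B0` with fraction field `L` which is integral
over a ring `A0` contained in `O_(p)` (e.g. `A0 = Algebra.adjoin K0 {h}`,
`B0 = integralClosure A0 L`): it suffices that `w.valuation L p = exp (-1)` for every `w`
whose valuation ring dominates `O_(p)`.
-/

set_option autoImplicit false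
set_option linter.style.haveILetI false
set_option linter.unusedSectionVars false
set_option linter.unusedVariables false

namespace Fermat.Agent.S18

open IsDedekindDomain IsDedekindDomain.HeightOneSpectrum WithZero

section

variable {O E L C : Type*} [CommRing O] [IsDomain O] [IsNoetherianRing O]
  [Field E] [Algebra O E] [IsFractionRing O E]
  [Field L] [Algebra E L] [Algebra O L] [IsScalarTower O E L] [FiniteDimensional E L]
  [Algebra.IsSeparable E L]
  [CommRing C] [Algebra O C] [Algebra C L] [IsScalarTower O C L] [IsIntegralClosure C O L]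

/-- A valuation subring of `L` containing the image of `A0` contains every element of `L`
integral over `A0`. -/
theorem sd44_mem_valuationSubring_of_isIntegral {A0 : Type*} [CommRing A0] [Algebra A0 L]
    (W : ValuationSubring L) (hA0 : ∀ a : A0, algebraMap A0 L a ∈ W) (b : L)
    (hb : IsIntegral A0 b) : b ∈ W := by
  let φ : A0 →+* W := RingHom.codRestrict (algebraMap A0 L) W hA0
  have h : (algebraMap W L).comp φ = (RingHom.id L).comp (algebraMap A0 L) := by
    ext a
    rfl
  have hint : IsIntegral W b := IsIntegral.map_of_comp_eq φ (RingHom.id L) h hb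
  obtain ⟨y, hy⟩ := IsIntegrallyClosed.isIntegral_iff.mp hint
  rw [← hy]
  exact y.2

/-- **Self-duality in codimension one at a characteristic-zero prime, height-one form.**
`B0` a Dedekind domain with fraction field `L`, integral over a ring `A0` whose image in `L`
lies in `O_(p)`.  If `p` is a uniformizer at every height-one prime `w` of `B0` whose
valuation ring dominates `O_(p)`, then the trace dual of `C` is contained in `C_(p)`. -/
theorem sd44_hcodim_of_heightOne {A0 B0 : Type*} [CommRing A0] [CommRing B0]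
    [IsDedekindDomain B0] [Algebra A0 B0] [Algebra A0 L] [Algebra B0 L] [IsScalarTower A0 B0 L]
    [IsFractionRing B0 L] [Algebra.IsIntegral A0 B0]
    (p : O) (hp : Prime p) (hchar : ∀ n : ℕ, n ≠ 0 → ¬ p ∣ (n : O))
    (hA0 : ∀ a : A0, ∃ s x : O, ¬ p ∣ s ∧
      algebraMap O L s * algebraMap A0 L a = algebraMap O L x)
    (hw : ∀ w : HeightOneSpectrum B0, (∀ x : O, w.valuation L (algebraMap O L x) ≤ 1) →
      (∀ s : O, ¬ p ∣ s → w.valuation L (algebraMap O L s) = 1) →
      w.valuation L (algebraMap O L p) < 1 →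
      w.valuation L (algebraMap O L p) = exp (-1 : ℤ)) :
    ∀ y : L, (∀ c : C, Algebra.trace E L (y * algebraMap C L c) ∈ (algebraMap O E).range) →
      ∃ s : O, ¬ p ∣ s ∧ algebraMap O L s * y ∈ (algebraMap C L).range := by
  refine sd44_hcodim_of_valuation (E := E) p hp hchar
    (fun W _ hO hunits hpW x hxW hxinv => ?_)
  have hinjOL : Function.Injective (algebraMap O L) := by
    rw [IsScalarTower.algebraMap_eq O E L]
    exact (algebraMap E L).injective.comp (IsFractionRing.injective O E)
  -- `A0 ⊆ W`
  have hA0W : ∀ a : A0, algebraMap A0 L a ∈ W := by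
    intro a
    obtain ⟨s, x', hs, hsx⟩ := hA0 a
    have hs0 : algebraMap O L s ≠ 0 := by
      intro h0
      apply hs
      have : s = 0 := hinjOL (by rw [h0, map_zero])
      rw [this]
      exact dvd_zero p
    have : algebraMap A0 L a = (algebraMap O L s)⁻¹ * algebraMap O L x' := by
      rw [← hsx, ← mul_assoc, inv_mul_cancel₀ hs0, one_mul]
    rw [this]
    exact W.mul_mem _ _ (hunits s hs) (hO x')
  -- `B0 ⊆ W`
  have hB0W : ∀ b : B0, algebraMap B0 L b ∈ W := by
    intro b
    refine sd44_mem_valuationSubring_of_isIntegral W hA0W _ ?_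
    have := (Algebra.IsIntegral.isIntegral (R := A0) b).map (IsScalarTower.toAlgHom A0 B0 L)
    exact this
  let ψ : B0 →+* W := RingHom.codRestrict (algebraMap B0 L) W hB0W
  have hψ : ∀ b : B0, ((ψ b : W) : L) = algebraMap B0 L b := fun b => rfl
  have hinjB0 : Function.Injective (algebraMap B0 L) := IsFractionRing.injective B0 L
  -- units of `W` among elements of `B0`
  have hunitW : ∀ b : B0, ψ b ∉ IsLocalRing.maximalIdeal W → (algebraMap B0 L b)⁻¹ ∈ W := by
    intro b hb
    have hu : IsUnit (ψ b) := by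
      by_contra hnu
      exact hb ((IsLocalRing.mem_maximalIdeal _).mpr hnu)
    obtain ⟨u, hu'⟩ := hu
    have h1 : ((u : W) : L) * (((u⁻¹ : Wˣ) : W) : L) = 1 :=
      congrArg (Subtype.val) u.mul_inv
    have h2 : ((u : W) : L) = algebraMap B0 L b := by rw [hu', hψ]
    have h3 : (algebraMap B0 L b)⁻¹ = (((u⁻¹ : Wˣ) : W) : L) := by
      rw [← h2]
      exact inv_eq_of_mul_eq_one_right h1
    rw [h3]
    exact ((u⁻¹ : Wˣ) : W).2
  have hWtop : W ≠ ⊤ := by
    rintro rfl
    exact hpW (ValuationSubring.mem_top _)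
  have hP0 : (IsLocalRing.maximalIdeal W).comap ψ ≠ ⊥ := by
    intro hbot
    apply hWtop
    refine SetLike.ext fun z => ⟨fun _ => ValuationSubring.mem_top z, fun _ => ?_⟩
    obtain ⟨n, d, hd, rfl⟩ := IsFractionRing.div_surjective (A := B0) z
    have hd0 : d ≠ 0 := nonZeroDivisors.ne_zero hd
    have hdW : (algebraMap B0 L d)⁻¹ ∈ W := by
      apply hunitW
      intro hmem
      have : d ∈ (IsLocalRing.maximalIdeal W).comap ψ := hmem
      rw [hbot] at this
      exact hd0 (by simpa using this)
    rw [div_eq_mul_inv]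
    exact W.mul_mem _ _ (hB0W n) hdW
  let w : HeightOneSpectrum B0 :=
    ⟨(IsLocalRing.maximalIdeal W).comap ψ, Ideal.comap_isPrime ψ _, hP0⟩
  -- `w(z) ≤ 1 → z ∈ W`
  have hle : ∀ z : L, w.valuation L z ≤ 1 → z ∈ W := by
    intro z hz
    obtain ⟨n, d, hnd⟩ := exists_primeCompl_mul_eq_of_integer w z hz
    have hdW : (algebraMap B0 L d)⁻¹ ∈ W := hunitW d d.2
    have hd0 : algebraMap B0 L (d : B0) ≠ 0 := by
      intro h0
      have hd0' : (d : B0) = 0 := hinjB0 (by rw [h0, map_zero])
      apply d.2
      show ψ d ∈ IsLocalRing.maximalIdeal W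
      rw [hd0', map_zero]
      exact Ideal.zero_mem _
    have : z = algebraMap B0 L n * (algebraMap B0 L (d : B0))⁻¹ := by
      rw [← hnd, mul_assoc, mul_inv_cancel₀ hd0, mul_one]
    rw [this]
    exact W.mul_mem _ _ (hB0W n) hdW
  -- `w(z) < 1 → z⁻¹ ∉ W` for `z ≠ 0`
  have hlt : ∀ z : L, z ≠ 0 → w.valuation L z < 1 → z⁻¹ ∉ W := by
    intro z hz0 hz hzinv
    obtain ⟨n, d, hnd⟩ := exists_primeCompl_mul_eq_of_integer w z hz.le
    have hvd : w.valuation L (algebraMap B0 L (d : B0)) = 1 :=
      (valuation_eq_one_iff_notMem (K := L) (v := w)).mpr d.2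
    have hvn : w.valuation L (algebraMap B0 L n) < 1 := by
      rw [← hnd, map_mul, hvd, mul_one]
      exact hz
    have hnP : n ∈ w.asIdeal := (w.valuation_lt_one_iff_mem n).mp hvn
    have hnm : ψ n ∈ IsLocalRing.maximalIdeal W := hnP
    -- but `n = z * d` is a unit of `W`
    apply (IsLocalRing.mem_maximalIdeal _).mp hnm
    have hdW : (algebraMap B0 L d)⁻¹ ∈ W := hunitW d d.2
    have hninv : (algebraMap B0 L n)⁻¹ ∈ W := by
      rw [← hnd, mul_inv]
      exact W.mul_mem _ _ hzinv hdW
    refine IsUnit.of_mul_eq_one ⟨(algebraMap B0 L n)⁻¹, hninv⟩ ?_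
    apply Subtype.ext
    show algebraMap B0 L n * (algebraMap B0 L n)⁻¹ = 1
    have hn0 : algebraMap B0 L n ≠ 0 := by
      rw [← hnd]
      exact mul_ne_zero hz0 (by
        intro h0
        rw [h0, map_zero] at hvd
        exact zero_ne_one hvd)
    exact mul_inv_cancel₀ hn0
  -- `z ∈ W → w(z) ≤ 1`
  have hge : ∀ z : L, z ∈ W → w.valuation L z ≤ 1 := by
    intro z hz
    by_contra hnot
    rw [not_le] at hnot
    have hz0 : z ≠ 0 := by
      rintro rfl
      rw [map_zero] at hnot
      exact not_lt_of_ge zero_le_one hnot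
    have hinv : w.valuation L z⁻¹ < 1 := by
      rw [map_inv₀]
      exact inv_lt_one_of_one_lt₀ hnot
    exact hlt z⁻¹ (inv_ne_zero hz0) hinv (by rwa [inv_inv])
  have hpL0 : algebraMap O L p ≠ 0 := fun h0 => hp.ne_zero (hinjOL (by rw [h0, map_zero]))
  have hvp : w.valuation L (algebraMap O L p) = exp (-1 : ℤ) := by
    refine hw w (fun x' => hge _ (hO x')) (fun s hs => ?_) ?_
    · refine le_antisymm (hge _ (hO s)) ?_
      have h1 := hge _ (hunits s hs)
      rw [map_inv₀] at h1
      by_contra hnot
      rw [not_le] at hnot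
      have hs0 : w.valuation L (algebraMap O L s) ≠ 0 := by
        intro h0
        rw [h0, inv_zero] at h1
        have hsz : algebraMap O L s = 0 := (Valuation.zero_iff _).mp h0
        have hs00 : s = 0 := hinjOL (by rw [hsz, map_zero])
        exact hs (hs00 ▸ dvd_zero p)
      have := (one_lt_inv₀ (zero_lt_iff.mpr hs0)).mpr hnot
      exact not_le_of_gt this h1
    · by_contra hnot
      rw [not_lt] at hnot
      apply hpW
      apply hle
      rw [map_inv₀]
      exact inv_le_one_of_one_le₀ hnot
  -- conclusion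
  have hx0 : x ≠ 0 := by
    rintro rfl
    apply hxinv
    rw [inv_zero]
    exact W.zero_mem
  have hvx : w.valuation L x < 1 := by
    refine lt_of_le_of_ne (hge x hxW) (fun h1 => ?_)
    apply hxinv
    apply hle
    rw [map_inv₀, h1, inv_one]
  apply hle
  rw [map_mul, map_inv₀, hvp]
  have hne : w.valuation L x ≠ 0 := (Valuation.ne_zero_iff _).mpr hx0
  rw [← WithZero.exp_log hne] at hvx ⊢
  rw [← WithZero.exp_zero, WithZero.exp_lt_exp] at hvx
  rw [← WithZero.exp_neg, ← WithZero.exp_add, ← WithZero.exp_zero, WithZero.exp_le_exp]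
  omega

end

end Fermat.Agent.S18
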