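import Mathlib

/-!
# S18, row C3b (helper5), generic part

* `rc5_isAlgClosed_residueField`: the residue field of a valuation subring of an algebraically
  closed field is algebraically closed.
* `rc5_isSeparable`: let `k` be a perfect field of characteristic `p`, `F / k` a field with an
  embedding `ι : F → k((q))` and `t : F` with `p ∤ ord_q (ι t)`.  Then every element of `F` that is
  algebraic over `k(t)` is separable over `k(t)`.
-/

set_option autoImplicit false

open Polynomial IntermediateField

namespace Fermat.Agent.S18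

/-- The residue field of a valuation subring of an algebraically closed field is algebraically
closed. -/
theorem rc5_isAlgClosed_residueField {L : Type*} [Field L] [IsAlgClosed L]
    (A : ValuationSubring L) : IsAlgClosed (IsLocalRing.ResidueField A) := by
  apply IsAlgClosed.of_exists_root
  intro p hp hirr
  obtain ⟨P, hPmap, hPdeg, hPmonic⟩ :=
    Polynomial.lifts_and_natDegree_eq_and_monic (f := IsLocalRing.residue A)
      ((Polynomial.mem_lifts p).mpr
        (Polynomial.map_surjective _ IsLocalRing.residue_surjective p)) hp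
  have hdeg : (P.map (algebraMap A L)).degree ≠ 0 := by
    have hnat : (P.map (algebraMap A L)).natDegree = p.natDegree := by
      rw [hPmonic.natDegree_map, hPdeg]
    have hpos : 0 < p.natDegree := hirr.natDegree_pos
    intro h
    have h0 : (P.map (algebraMap A L)).natDegree = 0 :=
      Polynomial.natDegree_eq_zero_iff_degree_le_zero.mpr h.le
    omega
  obtain ⟨z, hz⟩ := IsAlgClosed.exists_root (P.map (algebraMap A L)) hdeg
  have hzint : IsIntegral A z := ⟨P, hPmonic, by
    rw [Polynomial.IsRoot.def, Polynomial.eval_map] at hz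
    exact hz⟩
  obtain ⟨a, ha⟩ := IsIntegrallyClosed.isIntegral_iff.mp hzint
  refine ⟨IsLocalRing.residue A a, ?_⟩
  have hPa : P.eval a = 0 := by
    rw [Polynomial.IsRoot.def, Polynomial.eval_map, ← ha, Polynomial.eval₂_at_apply] at hz
    exact (map_eq_zero_iff _ (FaithfulSMul.algebraMap_injective A L)).mp hz
  rw [← hPmap, Polynomial.eval_map, Polynomial.eval₂_at_apply, hPa, map_zero]

section LaurentOrders

variable {k : Type*} [Field k]

/-- Finitely many nonzero Laurent series with pairwise distinct orders have a nonzero sum. -/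
theorem rc5_sum_ne_zero_of_order_injOn {ι : Type*} (s : Finset ι) (w : ι → LaurentSeries k)
    (hne : s.Nonempty) (hw : ∀ i ∈ s, w i ≠ 0)
    (hinj : ∀ i ∈ s, ∀ j ∈ s, (w i).order = (w j).order → i = j) :
    ∑ i ∈ s, w i ≠ 0 := by
  classical
  obtain ⟨i0, hi0, hmin⟩ := Finset.exists_min_image s (fun i => (w i).order) hne
  intro hsum
  have hc : (∑ i ∈ s, w i).coeff (w i0).order = (w i0).coeff (w i0).order := by
    rw [HahnSeries.coeff_sum, Finset.sum_eq_single i0]
    · intro j hj hji
      apply HahnSeries.coeff_eq_zero_of_lt_order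
      exact lt_of_le_of_ne (hmin j hj) (fun h => hji (hinj j hj i0 hi0 h.symm))
    · intro h
      exact absurd hi0 h
  rw [hsum, HahnSeries.coeff_zero] at hc
  exact hw i0 hi0 (HahnSeries.coeff_order_eq_zero.mp hc.symm)

/-- If `p ∤ ord t` and `∑_{r < p} t^r z_r^p = 0` then all `z_r` vanish. -/
theorem rc5_eq_zero_of_sum_pow_eq_zero (p : ℕ) [hp : Fact p.Prime] (t : LaurentSeries k)
    (ht : ¬ (p : ℤ) ∣ t.order) (z : ℕ → LaurentSeries k)
    (h : ∑ r ∈ Finset.range p, t ^ r * z r ^ p = 0) : ∀ r ∈ Finset.range p, z r = 0 := by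
  classical
  have ht0 : t ≠ 0 := by
    rintro rfl
    exact ht (by simp)
  by_contra hcon
  push Not at hcon
  obtain ⟨r0, hr0, hz0⟩ := hcon
  set s : Finset ℕ := (Finset.range p).filter (fun r => z r ≠ 0) with hs
  have hsne : s.Nonempty := ⟨r0, Finset.mem_filter.mpr ⟨hr0, hz0⟩⟩
  have hsum : ∑ r ∈ s, t ^ r * z r ^ p = ∑ r ∈ Finset.range p, t ^ r * z r ^ p := by
    rw [hs, Finset.sum_filter]
    refine Finset.sum_congr rfl fun r _ => ?_
    by_cases hzr : z r = 0
    · simp [hzr, hp.out.ne_zero]
    · simp [hzr]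
  have hord : ∀ r ∈ s, (t ^ r * z r ^ p).order = (r : ℤ) * t.order + (p : ℤ) * (z r).order := by
    intro r hr
    have hzr : z r ≠ 0 := (Finset.mem_filter.mp hr).2
    rw [HahnSeries.order_mul (pow_ne_zero _ ht0) (pow_ne_zero _ hzr), HahnSeries.order_pow,
      HahnSeries.order_pow, nsmul_eq_mul, nsmul_eq_mul]
  refine rc5_sum_ne_zero_of_order_injOn s (fun r => t ^ r * z r ^ p) hsne ?_ ?_ (hsum.trans h)
  · intro r hr
    exact mul_ne_zero (pow_ne_zero _ ht0) (pow_ne_zero _ (Finset.mem_filter.mp hr).2)
  · intro r hr r' hr' hrr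
    rw [hord r hr, hord r' hr'] at hrr
    have hlt : r < p := Finset.mem_range.mp (Finset.mem_filter.mp hr).1
    have hlt' : r' < p := Finset.mem_range.mp (Finset.mem_filter.mp hr').1
    have hdvd : (p : ℤ) ∣ ((r : ℤ) - r') * t.order :=
      ⟨(z r').order - (z r).order, by linear_combination hrr⟩
    have hpr : Prime (p : ℤ) := Nat.prime_iff_prime_int.mp hp.out
    rcases hpr.dvd_or_dvd hdvd with h1 | h1
    · have h2 : (r : ℤ) - r' = 0 := Int.eq_zero_of_abs_lt_dvd h1 (by rw [abs_lt]; omega)
      omega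
    · exact absurd h1 ht

end LaurentOrders

section Decomposition

variable {k F : Type*} [Field k] [Field F] [Algebra k F]

/-- `k(t) = ⊕_{r < p} t^r k(t)^p` (existence part), for `k` perfect of characteristic `p`. -/
theorem rc5_exists_pow_decomp (p : ℕ) [hp : Fact p.Prime] [CharP k p]
    (hperf : ∀ a : k, ∃ a' : k, a' ^ p = a) (t : F) (b : F) (hb : b ∈ k⟮t⟯) :
    ∃ c : ℕ → k⟮t⟯, b = ∑ r ∈ Finset.range p, t ^ r * ((c r : k⟮t⟯) : F) ^ p := by
  have : CharP F p := charP_of_injective_algebraMap (algebraMap k F).injective p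
  let φ : k⟮t⟯ →+* F := (frobenius F p).comp (algebraMap k⟮t⟯ F)
  have hφ : ∀ e : k⟮t⟯, φ e = ((e : k⟮t⟯) : F) ^ p := fun e => rfl
  let Φ : Polynomial k⟮t⟯ →+* F := Polynomial.eval₂RingHom φ t
  have hΦ : ∀ P : Polynomial k⟮t⟯, Φ P = P.eval₂ φ t := fun P => rfl
  -- Step 1: every element of `k(t)` is in the range of `Φ`.
  have h1 : b ∈ Φ.range := by
    induction hb using IntermediateField.adjoin_induction with
    | mem x hx =>
      rw [Set.mem_singleton_iff] at hx
      exact ⟨Polynomial.X, by rw [hΦ, Polynomial.eval₂_X, hx]⟩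
    | algebraMap a =>
      obtain ⟨a', rfl⟩ := hperf a
      refine ⟨Polynomial.C (algebraMap k k⟮t⟯ a'), ?_⟩
      rw [hΦ, Polynomial.eval₂_C, hφ, map_pow]
      rfl
    | add x y _ _ hx hy => exact Φ.range.add_mem hx hy
    | inv x hx hx' =>
      rcases eq_or_ne x 0 with rfl | hx0
      · rw [inv_zero]
        exact Φ.range.zero_mem
      · have hinv : x⁻¹ = x ^ (p - 1) * (x⁻¹) ^ p := by
          have hp1 : p = (p - 1) + 1 := (Nat.succ_pred_eq_of_pos hp.out.pos).symm
          conv_rhs => rw [hp1, pow_succ (x⁻¹)]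
          rw [Nat.add_sub_cancel, ← mul_assoc, ← mul_pow, mul_inv_cancel₀ hx0, one_pow, one_mul]
        rw [hinv]
        refine Φ.range.mul_mem (Φ.range.pow_mem hx' _) ?_
        exact ⟨Polynomial.C ⟨x⁻¹, inv_mem hx⟩, by rw [hΦ, Polynomial.eval₂_C, hφ]⟩
    | mul x y _ _ hx hy => exact Φ.range.mul_mem hx hy
  -- Step 2: reduce modulo `X^p - t`.
  obtain ⟨P, rfl⟩ := h1
  set m : Polynomial k⟮t⟯ := Polynomial.X ^ p - Polynomial.C (AdjoinSimple.gen k t) with hm
  have hmonic : m.Monic := Polynomial.monic_X_pow_sub_C _ hp.out.ne_zero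
  have hdeg : m.natDegree = p := Polynomial.natDegree_X_pow_sub_C
  have hm1 : m ≠ 1 := by
    intro h
    rw [h, Polynomial.natDegree_one] at hdeg
    exact hp.out.ne_zero hdeg.symm
  have hΦm : Φ m = 0 := by
    rw [hΦ, hm, Polynomial.eval₂_sub, Polynomial.eval₂_pow, Polynomial.eval₂_X,
      Polynomial.eval₂_C, hφ, AdjoinSimple.coe_gen, sub_self]
  have hmod : Φ P = Φ (P %ₘ m) := by
    conv_lhs => rw [← Polynomial.modByMonic_add_div P m]
    rw [map_add, map_mul, hΦm, zero_mul, add_zero]
  refine ⟨fun r => (P %ₘ m).coeff r, ?_⟩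
  rw [hmod, hΦ, Polynomial.eval₂_eq_sum_range' φ
    (lt_of_lt_of_eq (Polynomial.natDegree_modByMonic_lt P hmonic hm1) hdeg) t]
  refine Finset.sum_congr rfl fun r _ => ?_
  rw [hφ, mul_comm]

end Decomposition

section Separable

variable {k : Type*} [Field k]

/-- **Separability inside `k((q))`.** Let `k` be a perfect field of characteristic `p`, `F / k` a
field with a ring embedding `ι : F → k((q))`, and `t : F` with `p ∤ ord_q (ι t)`.  Then every
element of `F` that is algebraic over `k(t)` is separable over `k(t)`. -/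
theorem rc5_isSeparable (p : ℕ) [hp : Fact p.Prime] [CharP k p]
    (hperf : ∀ a : k, ∃ a' : k, a' ^ p = a)
    {F : Type*} [Field F] [Algebra k F] (ι : F →+* LaurentSeries k) (t : F)
    (ht : ¬ (p : ℤ) ∣ (ι t).order) (y : F) (hy : IsIntegral k⟮t⟯ y) :
    IsSeparable k⟮t⟯ y := by
  classical
  have : CharP F p := charP_of_injective_algebraMap (algebraMap k F).injective p
  have : CharP k⟮t⟯ p := charP_of_injective_algebraMap (algebraMap k k⟮t⟯).injective p
  have hirr := minpoly.irreducible hy
  rcases Polynomial.separable_or p hirr with h | ⟨_, g, hg, hgf⟩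
  · exact h
  exfalso
  have h0 : Polynomial.aeval (y ^ p) g = 0 := by
    rw [← Polynomial.expand_aeval, hgf, minpoly.aeval]
  choose c hc using fun i : ℕ => rc5_exists_pow_decomp p hperf t (g.coeff i : F) (g.coeff i).2
  let G : ℕ → Polynomial k⟮t⟯ := fun r =>
    ∑ i ∈ Finset.range (g.natDegree + 1), Polynomial.C (c i r) * Polynomial.X ^ i
  have hGeval : ∀ r, Polynomial.aeval y (G r) =
      ∑ i ∈ Finset.range (g.natDegree + 1), ((c i r : k⟮t⟯) : F) * y ^ i := by
    intro r
    simp only [G, map_sum, map_mul, Polynomial.aeval_C, map_pow, Polynomial.aeval_X]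
    rfl
  have hsum : ∑ r ∈ Finset.range p, t ^ r * (Polynomial.aeval y (G r)) ^ p = 0 := by
    rw [← h0, Polynomial.aeval_eq_sum_range]
    simp only [hGeval, sum_pow_char, Finset.mul_sum]
    rw [Finset.sum_comm]
    refine Finset.sum_congr rfl fun i _ => ?_
    rw [Algebra.smul_def, IntermediateField.algebraMap_apply, hc i, Finset.sum_mul]
    refine Finset.sum_congr rfl fun r _ => ?_
    ring
  have hsumι : ∑ r ∈ Finset.range p, (ι t) ^ r * (ι (Polynomial.aeval y (G r))) ^ p = 0 := by
    have := congrArg ι hsum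
    simpa only [map_sum, map_mul, map_pow, map_zero] using this
  have hz := rc5_eq_zero_of_sum_pow_eq_zero p (ι t) ht _ hsumι
  have hGz : ∀ r ∈ Finset.range p, G r = 0 := by
    intro r hr
    have hev : Polynomial.aeval y (G r) = 0 := (map_eq_zero ι).mp (hz r hr)
    by_contra hne
    have hle := minpoly.degree_le_of_ne_zero k⟮t⟯ y hne hev
    have hle' : (minpoly k⟮t⟯ y).natDegree ≤ (G r).natDegree :=
      Polynomial.natDegree_le_natDegree hle
    have hGdeg : (G r).natDegree ≤ g.natDegree := by
      refine Polynomial.natDegree_sum_le_of_forall_le _ _ fun i hi => ?_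
      refine (Polynomial.natDegree_C_mul_X_pow_le _ _).trans ?_
      exact Nat.lt_succ_iff.mp (Finset.mem_range.mp hi)
    have hfdeg : (minpoly k⟮t⟯ y).natDegree = g.natDegree * p := by
      rw [← hgf, Polynomial.natDegree_expand]
    have hgpos : 0 < g.natDegree := hg.natDegree_pos
    have hp2 : 2 ≤ p := hp.out.two_le
    nlinarith
  apply hg.ne_zero
  refine Polynomial.ext fun i => ?_
  rw [Polynomial.coeff_zero]
  by_cases hi : i ≤ g.natDegree
  · have hci : ∀ r ∈ Finset.range p, c i r = 0 := by
      intro r hr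
      have := congrArg (fun Q : Polynomial k⟮t⟯ => Q.coeff i) (hGz r hr)
      simp only [G, Polynomial.finsetSum_coeff, Polynomial.coeff_C_mul_X_pow,
        Polynomial.coeff_zero] at this
      rw [Finset.sum_eq_single i] at this
      · simpa using this
      · intro j _ hji
        rw [if_neg (Ne.symm hji)]
      · intro h
        exact absurd (Finset.mem_range.mpr (Nat.lt_succ_iff.mpr hi)) h
    have hcoe : ((g.coeff i : k⟮t⟯) : F) = 0 := by
      rw [hc i]
      refine Finset.sum_eq_zero fun r hr => ?_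
      rw [hci r hr]
      simp [hp.out.ne_zero]
    exact_mod_cast hcoe
  · exact Polynomial.coeff_eq_zero_of_natDegree_lt (not_le.mp hi)

end Separable

end Fermat.Agent.S18
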