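import Mathlib
import Fermat.Agent.S28.RedCore
import Fermat.Agent.S18.Purity

/-!
# S18 row B5 (helper79): smoothness core, global and elementwise

Setting (the one of `Purity.lean` / `SelfDualDiscr62.lean`): `O` a Noetherian UFD with fraction
field `E`, `L/E` finite separable, `C` the integral closure of `O` in `L`; `π : O` a prime element
with `O ⧸ (π)` a PID.

* `sm79_DivNorm O C π t` : "`(C/πC)[1/t]` is integrally closed", in divisibility form.
* `sm79_dual_pow_mem` : Hartogs relative to `t`: if `C` is trace-self-dual at every prime element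
  not dividing `t`, then `t ^ k • y ∈ C` for every `y` in the trace dual.
* `sm79_divNorm_of_hcodim` : ... then `sm79_DivNorm O C π t`.
* `sm79_divNorm_glue`, `sm79_divNorm_descent` : gluing two such statements / descent along a
  finite extension of degree prime to the residue characteristic (trace average).
-/

set_option autoImplicit false
set_option linter.unusedSectionVars false

namespace Fermat.Agent.S18

open Polynomial

section Defs

variable (O : Type*) [CommRing O] (C : Type*) [CommRing C] [Algebra O C]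

/-- `(C/πC)[1/t]` is integrally closed (divisibility form): if `y/f` is integral over `C` modulo
`π` (`f : O` not divisible by `π`), then `t ^ k * y ∈ f C + π C` for some `k`. -/
def sm79_DivNorm (π t : O) : Prop :=
  ∀ (y : C) (f : O), ¬ π ∣ f →
    (∃ (r : ℕ) (c : ℕ → C) (w : C),
      y ^ r + ∑ i ∈ Finset.range r, c i * algebraMap O C f ^ (r - i) * y ^ i
        = algebraMap O C π * w) →
    ∃ (k : ℕ) (u v : C),
      algebraMap O C t ^ k * y = algebraMap O C f * u + algebraMap O C π * v

end Defs

section Core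

variable {O : Type*} [CommRing O] [IsDomain O] [UniqueFactorizationMonoid O]
  {E : Type*} [Field E] [Algebra O E] [IsFractionRing O E]
  {L : Type*} [Field L] [Algebra E L] [Algebra O L] [IsScalarTower O E L]
  [FiniteDimensional E L]
  {C : Type*} [CommRing C] [Algebra O C] [Algebra C L] [IsScalarTower O C L]
  [IsIntegralClosure C O L]

omit [UniqueFactorizationMonoid O] [FiniteDimensional E L] in
theorem sm79_faithful (O E L : Type*) [CommRing O] [IsDomain O] [Field E] [Algebra O E]
    [IsFractionRing O E] [Field L] [Algebra E L] [Algebra O L] [IsScalarTower O E L] :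
    FaithfulSMul O L := by
  have h : Function.Injective (algebraMap O L) := by
    rw [IsScalarTower.algebraMap_eq O E L]
    exact (algebraMap E L).injective.comp (IsFractionRing.injective O E)
  exact (faithfulSMul_iff_algebraMap_injective O L).mpr h

omit [UniqueFactorizationMonoid O] in
/-- `p ^ j • y` and `s • y` integral, `p` prime, `p ∤ s` ⟹ `y` integral. -/
theorem sm79_isIntegral_of_pow_smul [IsIntegrallyClosed O] [FaithfulSMul O L]
    {p s : O} (hp : Prime p) (hs : ¬ p ∣ s) (j : ℕ) {y : L}
    (h1 : IsIntegral O (p ^ j • y)) (h2 : IsIntegral O (s • y)) : IsIntegral O y := by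
  induction j generalizing y with
  | zero => simpa using h1
  | succ j ih =>
    have h3 : IsIntegral O (p ^ j • y) := by
      refine Fermat.Agent.S28.partD_isIntegral_of_smul hp hs (y := p ^ j • y) ?_ ?_
      · rwa [smul_smul, ← pow_succ']
      · rw [smul_comm]
        exact IsIntegral.smul _ h2
    exact ih h3 h2

/-- **Hartogs relative to `t`.** If `C` is trace-self-dual at every prime element of `O` not
dividing `t` (elementwise `hcodim` of `Purity.lean`), every element of the trace dual of `C`
becomes integral after multiplication by a power of `t`. -/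
theorem sm79_dual_pow_mem (t : O)
    (hcodim : ∀ p : O, Prime p → ¬ p ∣ t → ∀ y : L,
      (∀ c : C, Algebra.trace E L (y * algebraMap C L c) ∈ (algebraMap O E).range) →
      ∃ s : O, ¬ p ∣ s ∧ algebraMap O L s * y ∈ (algebraMap C L).range)
    (y : L) (hy : ∀ c : C, Algebra.trace E L (y * algebraMap C L c) ∈ (algebraMap O E).range) :
    ∃ k : ℕ, algebraMap O L t ^ k * y ∈ (algebraMap C L).range := by
  have : FaithfulSMul O L := sm79_faithful O E L
  have hmem : ∀ z : L, z ∈ (algebraMap C L).range ↔ IsIntegral O z := fun z =>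
    (IsIntegralClosure.isIntegral_iff (A := C) (R := O) (B := L)).symm
  have halg : IsAlgebraic O y := by
    have h1 : IsAlgebraic E y := Algebra.IsAlgebraic.isAlgebraic y
    exact (IsFractionRing.isAlgebraic_iff O E L).mpr h1
  obtain ⟨o, ho0, ho⟩ := halg.exists_integral_multiple
  -- induction on the factorisation of the denominator
  have key : ∀ o : O, o ≠ 0 → ∀ y : L,
      (∀ c : C, Algebra.trace E L (y * algebraMap C L c) ∈ (algebraMap O E).range) →
      IsIntegral O (o • y) → ∃ k : ℕ, IsIntegral O (t ^ k • y) := by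
    intro o
    induction o using UniqueFactorizationMonoid.induction_on_prime with
    | h₁ => intro h; exact absurd rfl h
    | h₂ u hu =>
      intro _ y _ h
      refine ⟨0, ?_⟩
      obtain ⟨u, rfl⟩ := hu
      have : y = ((u⁻¹ : Oˣ) : O) • ((u : O) • y) := by
        rw [smul_smul, Units.inv_mul, one_smul]
      rw [pow_zero, one_smul, this]
      exact IsIntegral.smul _ h
    | h₃ a p ha hp ih =>
      intro _ y hy h
      by_cases hpt : p ∣ t
      · -- absorb `p` into `t`
        have hy' : ∀ c : C, Algebra.trace E L (p • y * algebraMap C L c)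
            ∈ (algebraMap O E).range := by
          intro c
          obtain ⟨x, hx⟩ := hy c
          refine ⟨p * x, ?_⟩
          have h0 : p • y * algebraMap C L c = algebraMap O E p • (y * algebraMap C L c) := by
            rw [smul_mul_assoc, algebraMap_smul]
          rw [h0, map_smul, smul_eq_mul, map_mul, hx]
        have h' : IsIntegral O (a • p • y) := by
          rwa [smul_smul, mul_comm]
        obtain ⟨k, hk⟩ := ih ha (p • y) hy' h'
        obtain ⟨t', rfl⟩ := hpt
        refine ⟨k + 1, ?_⟩
        have : (p * t') ^ (k + 1) • y = t' • ((p * t') ^ k • p • y) := by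
          rw [smul_smul, smul_smul]; congr 1; ring
        rw [this]
        exact IsIntegral.smul _ hk
      · obtain ⟨s, hs, hsy⟩ := hcodim p hp hpt y hy
        have hsy' : IsIntegral O (s • y) := by
          rw [Algebra.smul_def]; exact (hmem _).mp hsy
        have h1 : IsIntegral O (p ^ 1 • a • y) := by
          rwa [pow_one, smul_smul]
        have h2 : IsIntegral O (s • a • y) := by
          rw [smul_comm]; exact IsIntegral.smul _ hsy'
        exact ih ha y hy (sm79_isIntegral_of_pow_smul hp hs 1 h1 h2)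
  obtain ⟨k, hk⟩ := key o ho0 y hy ho
  refine ⟨k, (hmem _).mpr ?_⟩
  rwa [← map_pow, ← Algebra.smul_def]

include E L in
/-- `C/πC` is torsion-free over `O/π` (no self-duality needed: `O` is integrally closed). -/
theorem sm79_torsionfree {π g : O} (hπ : Prime π) (hg : ¬ π ∣ g) {c c' : C}
    (h : g • c = π • c') : ∃ c'' : C, c = π • c'' := by
  have : FaithfulSMul O L := sm79_faithful O E L
  have hπL : algebraMap O L π ≠ 0 := fun h0 =>
    hπ.ne_zero ((FaithfulSMul.algebraMap_injective O L) (by rw [h0, map_zero]))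
  set z : L := (algebraMap O L π)⁻¹ * algebraMap C L c with hz
  have h1 : IsIntegral O (π • z) := by
    have : π • z = algebraMap C L c := by
      rw [hz, Algebra.smul_def, ← mul_assoc, mul_inv_cancel₀ hπL, one_mul]
    rw [this]; exact (IsIntegralClosure.isIntegral_iff (A := C)).mpr ⟨c, rfl⟩
  have h2 : IsIntegral O (g • z) := by
    have : g • z = algebraMap C L c' := by
      have h' := congrArg (algebraMap C L) h
      rw [Algebra.smul_def, Algebra.smul_def, map_mul, map_mul,
        ← IsScalarTower.algebraMap_apply, ← IsScalarTower.algebraMap_apply] at h'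
      rw [hz, Algebra.smul_def, mul_left_comm, h', ← mul_assoc, inv_mul_cancel₀ hπL, one_mul]
    rw [this]; exact (IsIntegralClosure.isIntegral_iff (A := C)).mpr ⟨c', rfl⟩
  have h3 : IsIntegral O z := Fermat.Agent.S28.partD_isIntegral_of_smul hπ hg h1 h2
  obtain ⟨c'', hc''⟩ := (IsIntegralClosure.isIntegral_iff (A := C)).mp h3
  refine ⟨c'', IsIntegralClosure.algebraMap_injective C O L ?_⟩
  rw [Algebra.smul_def, map_mul, ← IsScalarTower.algebraMap_apply, hc'', hz, ← mul_assoc,
    mul_inv_cancel₀ hπL, one_mul]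

/-- **Fibre basis.** `C/πC` is free over the PID `O/π`; lifting a basis and applying Nakayama
gives `b : Fin n → C` and `a ≡ 1 mod π` with `a • C ⊆ ∑ O b i`, and the `b i` are independent
modulo `π`. -/
theorem sm79_exists_fibre_basis [IsNoetherianRing O] [Algebra.IsSeparable E L] {π : O}
    (hπ : Prime π) [IsPrincipalIdealRing (O ⧸ Ideal.span {π})] :
    ∃ (n : ℕ) (b : Fin n → C) (a : O), π ∣ a - 1 ∧
      (∀ c : C, ∃ o : Fin n → O, a • c = ∑ i, o i • b i) ∧
      (∀ (o : Fin n → O) (c' : C), ∑ i, o i • b i = π • c' → ∀ i, π ∣ o i) := by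
  classical
  have : Module.Finite O C := IsIntegralClosure.finite O E L C
  have hIprime : (Ideal.span {π}).IsPrime := (Ideal.span_singleton_prime hπ.ne_zero).mpr hπ
  have : Module.IsTorsionFree (O ⧸ Ideal.span {π})
      (C ⧸ (Ideal.span {π} • (⊤ : Submodule O C))) := by
    rw [Module.isTorsionFree_iff_smul_eq_zero]
    intro r m hrm
    obtain ⟨t, rfl⟩ := Ideal.Quotient.mk_surjective r
    obtain ⟨c, rfl⟩ := Submodule.Quotient.mk_surjective _ m
    by_cases ht : π ∣ t
    · left
      exact Ideal.Quotient.eq_zero_iff_mem.mpr (Ideal.mem_span_singleton.mpr ht)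
    · right
      rw [Module.Quotient.mk_smul_mk, Submodule.Quotient.mk_eq_zero,
        pl72_mem_span_smul_top_iff] at hrm
      obtain ⟨c', hc'⟩ := hrm
      obtain ⟨c'', rfl⟩ := sm79_torsionfree (E := E) (L := L) hπ ht hc'
      rw [Submodule.Quotient.mk_eq_zero, pl72_mem_span_smul_top_iff]
      exact ⟨c'', rfl⟩
  have : Module.Free (O ⧸ Ideal.span {π}) (C ⧸ (Ideal.span {π} • (⊤ : Submodule O C))) :=
    Module.free_of_finite_type_torsion_free'
  let β := Module.Free.chooseBasis (O ⧸ Ideal.span {π})
    (C ⧸ (Ideal.span {π} • (⊤ : Submodule O C)))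
  have hlift : ∀ i, ∃ c : C, Submodule.Quotient.mk c = β i := fun i =>
    Submodule.Quotient.mk_surjective _ (β i)
  choose v hv using hlift
  have hsum : ∀ g : Module.Free.ChooseBasisIndex (O ⧸ Ideal.span {π})
      (C ⧸ (Ideal.span {π} • (⊤ : Submodule O C))) → O,
      (Submodule.Quotient.mk (∑ i, g i • v i) : C ⧸ (Ideal.span {π} • (⊤ : Submodule O C)))
        = ∑ i, (Ideal.Quotient.mk (Ideal.span {π}) (g i)) • β i := by
    intro g
    rw [← Submodule.mkQ_apply, map_sum]
    refine Finset.sum_congr rfl fun i _ => ?_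
    rw [Submodule.mkQ_apply, ← hv i, Module.Quotient.mk_smul_mk]
  -- spanning up to `I • ⊤`
  have hspan : (⊤ : Submodule O C) ≤ Submodule.span O (Set.range v)
      ⊔ Ideal.span {π} • (⊤ : Submodule O C) := by
    intro c _
    have hc := β.sum_repr (Submodule.Quotient.mk c)
    choose g hg using fun i => Ideal.Quotient.mk_surjective (β.repr (Submodule.Quotient.mk c) i)
    have h1 : (Submodule.Quotient.mk (c - ∑ i, g i • v i) :
        C ⧸ (Ideal.span {π} • (⊤ : Submodule O C))) = 0 := by
      rw [Submodule.Quotient.mk_sub, sub_eq_zero, hsum]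
      conv_lhs => rw [← hc]
      exact Finset.sum_congr rfl fun i _ => by rw [hg i]
    rw [Submodule.Quotient.mk_eq_zero] at h1
    have h2 : c = ∑ i, g i • v i + (c - ∑ i, g i • v i) := by abel
    rw [h2]
    refine Submodule.add_mem_sup (Submodule.sum_mem _ fun i _ => ?_) h1
    exact Submodule.smul_mem _ _ (Submodule.subset_span ⟨i, rfl⟩)
  obtain ⟨a, ha1, ha⟩ := Submodule.exists_sub_one_mem_and_smul_le_of_fg_of_le_sup
    (I := Ideal.span {π}) (N := Submodule.span O (Set.range v)) (N' := ⊤) (P := ⊤)
    Module.Finite.fg_top le_rfl hspan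
  let e := Fintype.equivFin (Module.Free.ChooseBasisIndex (O ⧸ Ideal.span {π})
      (C ⧸ (Ideal.span {π} • (⊤ : Submodule O C))))
  refine ⟨_, v ∘ e.symm, a, Ideal.mem_span_singleton.mp ha1, ?_, ?_⟩
  · intro c
    have h1 : a • c ∈ Submodule.span O (Set.range v) :=
      ha (Submodule.smul_mem_pointwise_smul c a ⊤ Submodule.mem_top)
    obtain ⟨o, ho⟩ := (Submodule.mem_span_range_iff_exists_fun O).mp h1
    refine ⟨o ∘ e.symm, ?_⟩
    rw [← ho]
    exact (Equiv.sum_comp e.symm (fun i => o i • v i)).symm
  · intro o c' ho i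
    have h0 : ∑ j, (o ∘ e) j • v j = π • c' := by
      rw [← ho, ← Equiv.sum_comp e]
      refine Finset.sum_congr rfl fun j _ => ?_
      simp
    have h1 : ∑ j, (Ideal.Quotient.mk (Ideal.span {π}) ((o ∘ e) j)) • β j = 0 := by
      rw [← hsum, h0, Submodule.Quotient.mk_eq_zero, pl72_mem_span_smul_top_iff]
      exact ⟨c', rfl⟩
    have := Fintype.linearIndependent_iff.mp β.linearIndependent _ h1 (e.symm i)
    have h2 := Ideal.mem_span_singleton.mp (Ideal.Quotient.eq_zero_iff_mem.mp this)
    simpa using h2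

/-- The lifted fibre basis is a basis of `L` over `E`. -/
theorem sm79_exists_basis {π : O} (hπ : Prime π) {n : ℕ} (b : Fin n → C) (a : O)
    (ha1 : π ∣ a - 1)
    (hspan : ∀ c : C, ∃ o : Fin n → O, a • c = ∑ i, o i • b i)
    (hind : ∀ (o : Fin n → O) (c' : C), ∑ i, o i • b i = π • c' → ∀ i, π ∣ o i) :
    ∃ bE : Module.Basis (Fin n) E L, ∀ i, bE i = algebraMap C L (b i) := by
  classical
  have : FaithfulSMul O L := sm79_faithful O E L
  have hinjOL : Function.Injective (algebraMap O L) := FaithfulSMul.algebraMap_injective O L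
  have hinjCL : Function.Injective (algebraMap C L) := IsIntegralClosure.algebraMap_injective C O L
  have ha0 : a ≠ 0 := by
    rintro rfl
    rw [zero_sub, dvd_neg] at ha1
    exact hπ.not_isUnit (isUnit_of_dvd_one ha1)
  have hπ0 : π ≠ 0 := hπ.ne_zero
  -- `O`-torsion-freeness of `C`
  have htf : ∀ (x : O) (c : C), x ≠ 0 → x • c = 0 → c = 0 := by
    intro x c hx h
    apply hinjCL
    have h' := congrArg (algebraMap C L) h
    rw [Algebra.smul_def, map_mul, ← IsScalarTower.algebraMap_apply, map_zero] at h'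
    rcases mul_eq_zero.mp h' with h1 | h1
    · exact absurd (hinjOL (by rw [h1, map_zero])) hx
    · rw [h1, map_zero]
  -- independence over `O`
  have hpow : ∀ (k : ℕ) (o : Fin n → O), ∑ i, o i • b i = 0 → ∀ i, π ^ k ∣ o i := by
    intro k
    induction k with
    | zero => intro o _ i; simp
    | succ k ih =>
      intro o ho i
      have h1 : ∀ i, π ∣ o i := hind o 0 (by rw [ho, smul_zero])
      choose o' ho' using h1
      have h2 : ∑ i, o' i • b i = 0 := by
        apply htf π _ hπ0
        rw [Finset.smul_sum, ← ho]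
        refine Finset.sum_congr rfl fun i _ => ?_
        rw [smul_smul, ← ho' i]
      rw [ho' i, pow_succ']
      exact mul_dvd_mul_left π (ih o' h2 i)
  have hindO : ∀ o : Fin n → O, ∑ i, o i • b i = 0 → ∀ i, o i = 0 := by
    intro o ho i
    by_contra hne
    have hfin : FiniteMultiplicity π (o i) := FiniteMultiplicity.of_prime_left hπ hne
    obtain ⟨k, hk⟩ := hfin
    exact hk (hpow (k + 1) o ho i)
  have hliO : LinearIndependent O (fun i => algebraMap C L (b i)) := by
    rw [Fintype.linearIndependent_iff]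
    intro o ho i
    refine hindO o (hinjCL ?_) i
    rw [map_sum, map_zero, ← ho]
    refine Finset.sum_congr rfl fun i _ => ?_
    rw [Algebra.smul_def, map_mul, ← IsScalarTower.algebraMap_apply, Algebra.smul_def]
  have hliE : LinearIndependent E (fun i => algebraMap C L (b i)) :=
    (LinearIndependent.iff_fractionRing (R := O) (K := E)).mp hliO
  have hspE : ⊤ ≤ Submodule.span E (Set.range fun i => algebraMap C L (b i)) := by
    intro l _
    have halg : IsAlgebraic O l :=
      (IsFractionRing.isAlgebraic_iff O E L).mpr (Algebra.IsAlgebraic.isAlgebraic l)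
    obtain ⟨x, hx0, hx⟩ := halg.exists_integral_multiple
    obtain ⟨c, hc⟩ := (IsIntegralClosure.isIntegral_iff (A := C)).mp hx
    obtain ⟨o, ho⟩ := hspan c
    have hax : algebraMap O E (a * x) ≠ 0 := fun h0 =>
      mul_ne_zero ha0 hx0 (IsFractionRing.injective O E (by rw [h0, map_zero]))
    have h1 : l = (algebraMap O E (a * x))⁻¹ • ∑ i, algebraMap O E (o i) • algebraMap C L (b i) := by
      have h2 : ∑ i, algebraMap O E (o i) • algebraMap C L (b i) = algebraMap O E (a * x) • l := by
        have h3 := congrArg (algebraMap C L) ho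
        rw [map_sum, Algebra.smul_def, map_mul, ← IsScalarTower.algebraMap_apply, hc] at h3
        rw [algebraMap_smul, mul_smul, Algebra.smul_def a, h3]
        refine Finset.sum_congr rfl fun i _ => ?_
        rw [algebraMap_smul, Algebra.smul_def, Algebra.smul_def, map_mul,
          ← IsScalarTower.algebraMap_apply]
      rw [h2, smul_smul, inv_mul_cancel₀ hax, one_smul]
    rw [h1]
    refine Submodule.smul_mem _ _ (Submodule.sum_mem _ fun i _ => ?_)
    exact Submodule.smul_mem _ _ (Submodule.subset_span ⟨i, rfl⟩)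
  exact ⟨Module.Basis.mk hliE hspE, fun i => by rw [Module.Basis.mk_apply]⟩

/-- **Discriminant control.** If the trace dual of `C` is killed into `C` by powers of `t`,
the Gram matrix `g` of the lifted fibre basis satisfies `T * g = a ^ 2 * t ^ K` for an integral
matrix `T`; so `det g` divides a power of `a * t`. -/
theorem sm79_gram_mul [Algebra.IsSeparable E L] (t : O)
    (hSD : ∀ y : L, (∀ c : C, Algebra.trace E L (y * algebraMap C L c) ∈ (algebraMap O E).range) →
      ∃ k : ℕ, algebraMap O L t ^ k * y ∈ (algebraMap C L).range)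
    {n : ℕ} (b : Fin n → C) (a : O)
    (hspan : ∀ c : C, ∃ o : Fin n → O, a • c = ∑ i, o i • b i)
    (bE : Module.Basis (Fin n) E L) (hbE : ∀ i, bE i = algebraMap C L (b i))
    (g : Matrix (Fin n) (Fin n) O)
    (hg : ∀ i j, algebraMap O E (g i j) = Algebra.trace E L (bE i * bE j)) :
    ∃ (K : ℕ) (T : Matrix (Fin n) (Fin n) O),
      T * g = (a ^ 2 * t ^ K) • (1 : Matrix (Fin n) (Fin n) O) := by
  classical
  have hB := traceForm_nondegenerate E L
  set bd := (Algebra.traceForm E L).dualBasis hB bE with hbd_def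
  have hbd : ∀ i j, Algebra.trace E L (bd i * bE j) = if j = i then 1 else 0 := fun i j => by
    rw [← Algebra.traceForm_apply]
    exact LinearMap.BilinForm.apply_dualBasis_left hB bE i j
  -- expansion of `algebraMap C L (∑ o j • b j)`
  have hexp : ∀ o : Fin n → O, algebraMap C L (∑ j, o j • b j)
      = ∑ j, algebraMap O E (o j) • bE j := by
    intro o
    rw [map_sum]
    refine Finset.sum_congr rfl fun j _ => ?_
    rw [Algebra.smul_def, map_mul, ← IsScalarTower.algebraMap_apply, hbE, algebraMap_smul,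
      Algebra.smul_def]
  have htr : ∀ (i : Fin n) (o : Fin n → O),
      Algebra.trace E L (bd i * ∑ j, algebraMap O E (o j) • bE j) = algebraMap O E (o i) := by
    intro i o
    rw [Finset.mul_sum, map_sum]
    have : ∀ j ∈ Finset.univ, Algebra.trace E L (bd i * algebraMap O E (o j) • bE j)
        = if j = i then algebraMap O E (o j) else 0 := by
      intro j _
      rw [mul_smul_comm, map_smul, hbd, smul_eq_mul]
      split_ifs <;> simp
    rw [Finset.sum_congr rfl this, Finset.sum_ite_eq' Finset.univ i]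
    simp
  -- `a • bd i` lies in the dual
  have h1 : ∀ (i : Fin n) (c : C),
      Algebra.trace E L ((algebraMap O L a * bd i) * algebraMap C L c)
        ∈ (algebraMap O E).range := by
    intro i c
    obtain ⟨o, ho⟩ := hspan c
    refine ⟨o i, ?_⟩
    have h3 := congrArg (algebraMap C L) ho
    rw [Algebra.smul_def, map_mul, ← IsScalarTower.algebraMap_apply, hexp] at h3
    have h2 : (algebraMap O L a * bd i) * algebraMap C L c
        = bd i * (algebraMap O L a * algebraMap C L c) := by ring
    rw [h2, h3, htr]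
  choose k hk using fun i => hSD (algebraMap O L a * bd i) (h1 i)
  choose c hc using hk
  set K := ∑ i, k i with hK
  have h4 : ∀ i, algebraMap C L ((t ^ (K - k i)) • c i)
      = algebraMap O L t ^ K * (algebraMap O L a * bd i) := by
    intro i
    have hle : k i ≤ K := Finset.single_le_sum (fun _ _ => Nat.zero_le _) (Finset.mem_univ i)
    rw [Algebra.smul_def, map_mul, ← IsScalarTower.algebraMap_apply, hc i, map_pow, ← mul_assoc,
      ← pow_add, Nat.sub_add_cancel hle]
  choose T hT using fun i => hspan ((t ^ (K - k i)) • c i)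
  refine ⟨K, Matrix.of T, ?_⟩
  ext i l
  apply IsFractionRing.injective O E
  have h5 := congrArg (algebraMap C L) (hT i)
  rw [Algebra.smul_def, map_mul, ← IsScalarTower.algebraMap_apply, h4, hexp] at h5
  -- take the trace against `bE l`
  have h6 : Algebra.trace E L ((∑ j, algebraMap O E (T i j) • bE j) * bE l)
      = algebraMap O E ((Matrix.of T * g) i l) := by
    rw [Finset.sum_mul, map_sum, Matrix.mul_apply, map_sum]
    refine Finset.sum_congr rfl fun j _ => ?_
    rw [smul_mul_assoc, map_smul, smul_eq_mul, ← hg, map_mul, Matrix.of_apply]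
  have h7 : Algebra.trace E L ((algebraMap O L a * (algebraMap O L t ^ K *
      (algebraMap O L a * bd i))) * bE l)
      = algebraMap O E (((a ^ 2 * t ^ K) • (1 : Matrix (Fin n) (Fin n) O)) i l) := by
    have h8 : (algebraMap O L a * (algebraMap O L t ^ K * (algebraMap O L a * bd i))) * bE l
        = algebraMap O E (a ^ 2 * t ^ K) • (bd i * bE l) := by
      rw [Algebra.smul_def, ← IsScalarTower.algebraMap_apply, map_mul, map_pow, map_pow]
      ring
    rw [h8, map_smul, hbd, smul_eq_mul, Matrix.smul_apply, Matrix.one_apply, smul_eq_mul]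
    by_cases hil : i = l
    · rw [if_pos hil.symm, if_pos hil, mul_one, mul_one]
    · rw [if_neg (Ne.symm hil), if_neg hil, mul_zero, mul_zero, map_zero]
  rw [← h6, ← h5, h7]

/-- **Reduced fibres.** With the lifted fibre basis `b` (Gram matrix `g`), at a prime ideal `𝔫`
of `O` containing `a - 1` and not containing `det g`, the fibre algebra `C/𝔫C` is reduced:
nilpotent elements have trace zero against everything, and the trace form is perfect
modulo `𝔫`. -/
theorem sm79_fibre_reduced {n : ℕ} (b : Fin n → C) (a : O)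
    (hspan : ∀ c : C, ∃ o : Fin n → O, a • c = ∑ i, o i • b i)
    (bE : Module.Basis (Fin n) E L) (hbE : ∀ i, bE i = algebraMap C L (b i))
    (g : Matrix (Fin n) (Fin n) O)
    (hg : ∀ i j, algebraMap O E (g i j) = Algebra.trace E L (bE i * bE j))
    (𝔫 : Ideal O) [𝔫.IsPrime] (ha𝔫 : a - 1 ∈ 𝔫) (hd : g.det ∉ 𝔫)
    (ν : C) (r : ℕ) (hν : ν ^ r ∈ 𝔫 • (⊤ : Submodule O C)) :
    ν ∈ 𝔫 • (⊤ : Submodule O C) := by
  classical
  have hinjE : Function.Injective (algebraMap O E) := IsFractionRing.injective O E
  have ha : a ∉ 𝔫 := by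
    intro h
    have h1 : (1 : O) ∈ 𝔫 := by
      have := 𝔫.sub_mem h ha𝔫
      simpa using this
    exact (Ideal.IsPrime.ne_top ‹_›) ((Ideal.eq_top_iff_one _).mpr h1)
  -- expansion of `algebraMap C L (∑ o j • b j)`
  have hexp : ∀ o : Fin n → O, algebraMap C L (∑ j, o j • b j)
      = ∑ j, algebraMap O E (o j) • bE j := by
    intro o
    rw [map_sum]
    refine Finset.sum_congr rfl fun j _ => ?_
    rw [Algebra.smul_def, map_mul, ← IsScalarTower.algebraMap_apply, hbE, algebraMap_smul,
      Algebra.smul_def]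
  -- (a) `a • leftMulMatrix c` is integral
  have hMa : ∀ (c : C) (i j : Fin n), ∃ o : O, algebraMap O E o
      = algebraMap O E a * Algebra.leftMulMatrix bE (algebraMap C L c) i j := by
    intro c i j
    obtain ⟨o, ho⟩ := hspan (c * b j)
    refine ⟨o i, ?_⟩
    have h3 := congrArg (algebraMap C L) ho
    rw [Algebra.smul_def, map_mul, ← IsScalarTower.algebraMap_apply, hexp, map_mul, ← hbE] at h3
    rw [Algebra.leftMulMatrix_eq_repr_mul]
    have h4 : algebraMap O L a * (algebraMap C L c * bE j)
        = algebraMap O E a • (algebraMap C L c * bE j) := by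
      rw [Algebra.smul_def, ← IsScalarTower.algebraMap_apply]
    rw [h4] at h3
    have h5 := congrArg (fun z => bE.repr z i) h3
    simp only [map_smul, Finsupp.smul_apply, smul_eq_mul, map_sum, Finsupp.coe_finsetSum,
      Finset.sum_apply, Module.Basis.repr_self, Finsupp.single_apply, mul_ite, mul_one,
      mul_zero, Finset.sum_ite_eq', Finset.mem_univ, if_true] at h5
    exact h5.symm
  -- (b) for `c ∈ 𝔫 C` the entries lie in `𝔫`
  have hM𝔫 : ∀ c ∈ 𝔫 • (⊤ : Submodule O C), ∀ i j : Fin n, ∃ o ∈ 𝔫, algebraMap O E o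
      = algebraMap O E a * Algebra.leftMulMatrix bE (algebraMap C L c) i j := by
    intro c hc
    refine Submodule.smul_induction_on hc ?_ ?_
    · intro x hx c' _ i j
      obtain ⟨o, ho⟩ := hMa c' i j
      refine ⟨x * o, 𝔫.mul_mem_right _ hx, ?_⟩
      have h1 : algebraMap C L (x • c') = algebraMap O E x • algebraMap C L c' := by
        rw [Algebra.smul_def, map_mul, ← IsScalarTower.algebraMap_apply, Algebra.smul_def,
          ← IsScalarTower.algebraMap_apply]
      rw [h1, map_smul, Matrix.smul_apply, smul_eq_mul, map_mul, ho]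
      ring
    · intro c₁ c₂ h₁ h₂ i j
      obtain ⟨o₁, ho₁, h₁'⟩ := h₁ i j
      obtain ⟨o₂, ho₂, h₂'⟩ := h₂ i j
      refine ⟨o₁ + o₂, 𝔫.add_mem ho₁ ho₂, ?_⟩
      rw [map_add, map_add, map_add, Matrix.add_apply, h₁', h₂']
      ring
  -- (c) traces of nilpotents
  have htrace : ∀ c : C, c ^ r ∈ 𝔫 • (⊤ : Submodule O C) → ∃ τ ∈ 𝔫, algebraMap O E τ
      = algebraMap O E a * Algebra.trace E L (algebraMap C L c) := by
    intro c hc
    choose P hP using hMa c
    have hPM : (Matrix.of P).map (algebraMap O E)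
        = algebraMap O E a • Algebra.leftMulMatrix bE (algebraMap C L c) := by
      ext i j
      rw [Matrix.map_apply, Matrix.of_apply, hP, Matrix.smul_apply, smul_eq_mul]
    have hpow : ((Matrix.of P) ^ r).map (algebraMap O E)
        = algebraMap O E a ^ r • Algebra.leftMulMatrix bE (algebraMap C L (c ^ r)) := by
      have h1 : ((Matrix.of P) ^ r).map (algebraMap O E)
          = ((Matrix.of P).map (algebraMap O E)) ^ r :=
        map_pow (algebraMap O E).mapMatrix (Matrix.of P) r
      rw [h1, hPM, _root_.smul_pow, map_pow, map_pow]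
    have hent : ∀ i j, ((Matrix.of P) ^ r) i j ∈ 𝔫 := by
      intro i j
      obtain ⟨o, ho𝔫, ho⟩ := hM𝔫 (c ^ r) hc i j
      have h2 : a * ((Matrix.of P) ^ r) i j = a ^ r * o := by
        apply hinjE
        have h3 := congrFun (congrFun hpow i) j
        rw [Matrix.map_apply, Matrix.smul_apply, smul_eq_mul] at h3
        calc algebraMap O E (a * ((Matrix.of P) ^ r) i j)
            = algebraMap O E a * (algebraMap O E a ^ r
                * Algebra.leftMulMatrix bE (algebraMap C L (c ^ r)) i j) := by
              rw [map_mul, h3]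
          _ = algebraMap O E a ^ r * (algebraMap O E a
                * Algebra.leftMulMatrix bE (algebraMap C L (c ^ r)) i j) := by ring
          _ = algebraMap O E (a ^ r * o) := by
              rw [← ho, map_mul, map_pow (algebraMap O E) a r]
      have h4 : a * ((Matrix.of P) ^ r) i j ∈ 𝔫 := by
        rw [h2]; exact 𝔫.mul_mem_left _ ho𝔫
      exact (Ideal.IsPrime.mem_or_mem ‹_› h4).resolve_left ha
    have hnil : IsNilpotent ((Ideal.Quotient.mk 𝔫).mapMatrix (Matrix.of P)) := by
      refine ⟨r, ?_⟩
      rw [← map_pow]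
      ext i j
      rw [RingHom.mapMatrix_apply, Matrix.map_apply, Matrix.zero_apply]
      exact Ideal.Quotient.eq_zero_iff_mem.mpr (hent i j)
    have htr0 : ((Ideal.Quotient.mk 𝔫).mapMatrix (Matrix.of P)).trace = 0 :=
      (Matrix.isNilpotent_trace_of_isNilpotent hnil).eq_zero
    refine ⟨(Matrix.of P).trace, ?_, ?_⟩
    · rw [← Ideal.Quotient.eq_zero_iff_mem, ← htr0, RingHom.mapMatrix_apply]
      exact (AddMonoidHom.map_trace (Ideal.Quotient.mk 𝔫).toAddMonoidHom (Matrix.of P))
    · rw [Algebra.trace_eq_matrix_trace bE]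
      have h5 : algebraMap O E (Matrix.of P).trace
          = ((Matrix.of P).map (algebraMap O E)).trace :=
        AddMonoidHom.map_trace (algebraMap O E).toAddMonoidHom (Matrix.of P)
      rw [hPM, Matrix.trace_smul, smul_eq_mul] at h5
      exact h5
  -- (d) conclusion
  have hmul : ∀ l, (ν * b l) ^ r ∈ 𝔫 • (⊤ : Submodule O C) := by
    intro l
    rw [Ideal.smul_top_eq_map, Submodule.restrictScalars_mem] at hν ⊢
    rw [mul_pow]
    exact Ideal.mul_mem_right _ _ hν
  choose τ hτ𝔫 hτ using fun l => htrace (ν * b l) (hmul l)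
  obtain ⟨νo, hνo⟩ := hspan ν
  have h1 : ∀ l, τ l = ∑ i, νo i * g i l := by
    intro l
    apply hinjE
    rw [hτ l, map_sum]
    have h3 := congrArg (algebraMap C L) hνo
    rw [Algebra.smul_def, map_mul, ← IsScalarTower.algebraMap_apply, hexp] at h3
    have h4 : algebraMap O E a * Algebra.trace E L (algebraMap C L (ν * b l))
        = Algebra.trace E L ((algebraMap O L a * algebraMap C L ν) * bE l) := by
      rw [← smul_eq_mul, ← map_smul, map_mul, ← hbE, Algebra.smul_def,
        ← IsScalarTower.algebraMap_apply, mul_assoc]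
    rw [h4, h3, Finset.sum_mul, map_sum]
    refine Finset.sum_congr rfl fun i _ => ?_
    rw [smul_mul_assoc, map_smul, smul_eq_mul, ← hg, map_mul]
  have h2 : ∀ i, g.det * νo i ∈ 𝔫 := by
    intro i
    have h3 : Matrix.vecMul (Matrix.vecMul νo g) g.adjugate = g.det • νo := by
      rw [Matrix.vecMul_vecMul, Matrix.mul_adjugate, Matrix.vecMul_smul, Matrix.vecMul_one]
    have h4 := congrFun h3 i
    rw [Pi.smul_apply, smul_eq_mul] at h4
    rw [← h4]
    simp only [Matrix.vecMul, dotProduct]
    refine 𝔫.sum_mem fun l _ => 𝔫.mul_mem_right _ ?_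
    have : (fun j => ∑ i, νo i * g i j) l = τ l := (h1 l).symm
    simp only at this
    rw [this]
    exact hτ𝔫 l
  have h3 : ∀ i, νo i ∈ 𝔫 := fun i =>
    (Ideal.IsPrime.mem_or_mem ‹_› (h2 i)).resolve_left hd
  have h4 : a • ν ∈ 𝔫 • (⊤ : Submodule O C) := by
    rw [hνo]
    exact Submodule.sum_mem _ fun i _ => Submodule.smul_mem_smul (h3 i) Submodule.mem_top
  have h5 : (a - 1) • ν ∈ 𝔫 • (⊤ : Submodule O C) :=
    Submodule.smul_mem_smul ha𝔫 Submodule.mem_top
  have h6 : ν = a • ν - (a - 1) • ν := by
    rw [sub_smul, one_smul]; abel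
  rw [h6]
  exact Submodule.sub_mem _ h4 h5

/-- **Smoothness core (U').** `O` a Noetherian UFD, `π` prime with `O/π` a PID, `C` the integral
closure of `O` in a finite separable extension of `Frac O`.  If powers of `t` carry the trace
dual of `C` into `C`, then `(C/πC)[1/t]` is integrally closed (`sm79_DivNorm`). -/
theorem sm79_divNorm_of_SD [IsNoetherianRing O] [Algebra.IsSeparable E L] {π : O} (hπ : Prime π)
    [IsPrincipalIdealRing (O ⧸ Ideal.span {π})] (t : O)
    (hSD : ∀ y : L, (∀ c : C, Algebra.trace E L (y * algebraMap C L c) ∈ (algebraMap O E).range) →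
      ∃ k : ℕ, algebraMap O L t ^ k * y ∈ (algebraMap C L).range) :
    sm79_DivNorm O C π t := by
  classical
  obtain ⟨n, b, a, ha1, hspan, hind⟩ := sm79_exists_fibre_basis (E := E) (L := L) (C := C) hπ
  obtain ⟨bE, hbE⟩ := sm79_exists_basis (E := E) (L := L) hπ b a ha1 hspan hind
  have hgex : ∀ i j, ∃ x : O, algebraMap O E x = Algebra.trace E L (bE i * bE j) := by
    intro i j
    rw [hbE, hbE, ← map_mul]
    exact pl72_trace_mem (O := O) (E := E) (L := L) (b i * b j)
  choose g hg using hgex
  obtain ⟨K, T, hT⟩ := sm79_gram_mul t hSD b a hspan bE hbE (Matrix.of g) hg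
  have hIprime : (Ideal.span {π}).IsPrime := (Ideal.span_singleton_prime hπ.ne_zero).mpr hπ
  -- the quotient `C/πC`
  set J : Ideal C := Ideal.span {algebraMap O C π} with hJ
  set q : C →+* C ⧸ J := Ideal.Quotient.mk J with hq
  have hq0 : ∀ x : C, q x = 0 ↔ ∃ w : C, x = algebraMap O C π * w := by
    intro x
    rw [hq, Ideal.Quotient.eq_zero_iff_mem, hJ, Ideal.mem_span_singleton']
    constructor
    · rintro ⟨w, hw⟩; exact ⟨w, by rw [← hw, mul_comm]⟩
    · rintro ⟨w, hw⟩; exact ⟨w, by rw [hw, mul_comm]⟩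
  have hqπ : q (algebraMap O C π) = 0 := (hq0 _).mpr ⟨1, (mul_one _).symm⟩
  have hmk0 : ∀ x : O, Ideal.Quotient.mk (Ideal.span {π}) x = 0 ↔ π ∣ x := fun x => by
    rw [Ideal.Quotient.eq_zero_iff_mem, Ideal.mem_span_singleton]
  -- congruent elements of `O` have the same image
  have hqcongr : ∀ x x' : O, Ideal.Quotient.mk (Ideal.span {π}) x
      = Ideal.Quotient.mk (Ideal.span {π}) x' → q (algebraMap O C x) = q (algebraMap O C x') := by
    intro x x' h
    rw [← sub_eq_zero, ← map_sub, hmk0] at h
    obtain ⟨v, hv⟩ := h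
    rw [← sub_eq_zero, ← map_sub, ← map_sub, hv, map_mul, map_mul, hqπ, zero_mul]
  -- torsion-freeness in the quotient
  have hqtf : ∀ x : O, ¬ π ∣ x → ∀ z : C, q (algebraMap O C x * z) = 0 → q z = 0 := by
    intro x hx z hz
    obtain ⟨w, hw⟩ := (hq0 _).mp hz
    have h1 : x • z = π • w := by rw [Algebra.smul_def, Algebra.smul_def, hw]
    obtain ⟨c'', hc''⟩ := sm79_torsionfree (E := E) (L := L) hπ hx h1
    exact (hq0 _).mpr ⟨c'', by rw [hc'', Algebra.smul_def]⟩
  -- the prime case
  have hprime : ∀ p : O, Prime (Ideal.Quotient.mk (Ideal.span {π}) p) → ∀ (y : C) (r : ℕ) (s : C),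
      q (y ^ r) = q (algebraMap O C p * s) →
      ∃ (k : ℕ) (u : C), q (algebraMap O C t ^ k * y) = q (algebraMap O C p * u) := by
    intro p hp y r s hyr
    set 𝔫 : Ideal O := Ideal.comap (Ideal.Quotient.mk (Ideal.span {π}))
      (Ideal.span {Ideal.Quotient.mk (Ideal.span {π}) p}) with h𝔫
    have : (Ideal.span {Ideal.Quotient.mk (Ideal.span {π}) p}).IsPrime :=
      (Ideal.span_singleton_prime hp.ne_zero).mpr hp
    have h𝔫prime : 𝔫.IsPrime := Ideal.comap_isPrime _ _
    have hmem : ∀ x : O, x ∈ 𝔫 → ∃ u v : O, x = p * u + π * v := by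
      intro x hx
      rw [h𝔫, Ideal.mem_comap, Ideal.mem_span_singleton] at hx
      obtain ⟨ū, hū⟩ := hx
      obtain ⟨u, rfl⟩ := Ideal.Quotient.mk_surjective ū
      rw [← map_mul, ← sub_eq_zero, ← map_sub, hmk0] at hū
      obtain ⟨v, hv⟩ := hū
      exact ⟨u, v, by rw [← hv]; ring⟩
    have hp𝔫 : p ∈ 𝔫 := by
      rw [h𝔫, Ideal.mem_comap]; exact Ideal.mem_span_singleton_self _
    have hπ𝔫 : π ∈ 𝔫 := by
      rw [h𝔫, Ideal.mem_comap, (hmk0 π).mpr dvd_rfl]; exact Ideal.zero_mem _
    have ha𝔫 : a - 1 ∈ 𝔫 := by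
      obtain ⟨v, hv⟩ := ha1
      rw [hv]; exact 𝔫.mul_mem_right _ hπ𝔫
    have hqmem : ∀ z ∈ 𝔫 • (⊤ : Submodule O C), ∃ u : C, q z = q (algebraMap O C p * u) := by
      intro z hz
      refine Submodule.smul_induction_on hz ?_ ?_
      · intro x hx c' _
        obtain ⟨u, v, rfl⟩ := hmem x hx
        refine ⟨algebraMap O C u * c', ?_⟩
        have h0 : (p * u + π * v) • c' = algebraMap O C p * (algebraMap O C u * c')
            + algebraMap O C π * (algebraMap O C v * c') := by
          rw [Algebra.smul_def, map_add, map_mul, map_mul]; ring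
        rw [h0, map_add, map_mul q (algebraMap O C π), hqπ, zero_mul, add_zero]
      · rintro z₁ z₂ ⟨u₁, h₁⟩ ⟨u₂, h₂⟩
        exact ⟨u₁ + u₂, by rw [map_add, h₁, h₂, mul_add, map_add]⟩
    by_cases ht : t ∈ 𝔫
    · obtain ⟨u, v, rfl⟩ := hmem t ht
      refine ⟨1, algebraMap O C u * y, ?_⟩
      have h0 : algebraMap O C (p * u + π * v) ^ 1 * y = algebraMap O C p * (algebraMap O C u * y)
          + algebraMap O C π * (algebraMap O C v * y) := by
        rw [pow_one, map_add, map_mul, map_mul]; ring
      rw [h0, map_add, map_mul q (algebraMap O C π), hqπ, zero_mul, add_zero]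
    · have hd : (Matrix.of g).det ∉ 𝔫 := by
        intro hdet
        have h1 := congrArg Matrix.det hT
        rw [Matrix.det_mul, Matrix.det_smul, Matrix.det_one, mul_one, Fintype.card_fin] at h1
        have h2 : (a ^ 2 * t ^ K) ^ n ∈ 𝔫 := by
          rw [← h1]; exact 𝔫.mul_mem_left _ hdet
        have h3 : a ^ 2 * t ^ K ∈ 𝔫 := h𝔫prime.mem_of_pow_mem _ h2
        have ha : a ∉ 𝔫 := by
          intro h
          have h1 : (1 : O) ∈ 𝔫 := by
            have := 𝔫.sub_mem h ha𝔫
            simpa using this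
          exact h𝔫prime.ne_top ((Ideal.eq_top_iff_one _).mpr h1)
        rcases h𝔫prime.mem_or_mem h3 with h4 | h4
        · exact ha (h𝔫prime.mem_of_pow_mem _ h4)
        · exact ht (h𝔫prime.mem_of_pow_mem _ h4)
      have hyr' : y ^ r ∈ 𝔫 • (⊤ : Submodule O C) := by
        rw [← sub_eq_zero, ← map_sub, hq0] at hyr
        obtain ⟨w, hw⟩ := hyr
        have h1 : y ^ r = p • s + π • w := by
          rw [Algebra.smul_def, Algebra.smul_def, ← hw]; ring
        rw [h1]
        exact Submodule.add_mem _ (Submodule.smul_mem_smul hp𝔫 Submodule.mem_top)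
          (Submodule.smul_mem_smul hπ𝔫 Submodule.mem_top)
      have hy𝔫 := sm79_fibre_reduced (E := E) (L := L) b a hspan bE hbE (Matrix.of g) hg 𝔫
        ha𝔫 hd y r hyr'
      obtain ⟨u, hu⟩ := hqmem y hy𝔫
      exact ⟨0, u, by rw [pow_zero, one_mul, hu]⟩
  -- induction on the factorisation of `f` modulo `π`
  have hmain : ∀ φ : O ⧸ Ideal.span {π}, φ ≠ 0 → ∀ f : O,
      Ideal.Quotient.mk (Ideal.span {π}) f = φ → ∀ (y : C) (r : ℕ) (c : ℕ → C),
      q (y ^ r + ∑ i ∈ Finset.range r, c i * algebraMap O C f ^ (r - i) * y ^ i) = 0 →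
      ∃ (k : ℕ) (u : C), q (algebraMap O C t ^ k * y) = q (algebraMap O C f * u) := by
    intro φ
    induction φ using UniqueFactorizationMonoid.induction_on_prime with
    | h₁ => intro h; exact absurd rfl h
    | h₂ φ hφ =>
      intro _ f hf y r c _
      obtain ⟨ψ, hψ⟩ := hφ.exists_right_inv
      obtain ⟨f', rfl⟩ := Ideal.Quotient.mk_surjective ψ
      rw [← hf, ← map_mul] at hψ
      have h1 := hqcongr (f * f') 1 (by rw [hψ, map_one])
      refine ⟨0, algebraMap O C f' * y, ?_⟩
      rw [pow_zero, one_mul, ← mul_assoc, ← map_mul, map_mul q, h1, map_one, map_one, one_mul]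
    | h₃ α pbar hα hp ih =>
      intro _ f hf y r c hrel
      obtain ⟨p₀, rfl⟩ := Ideal.Quotient.mk_surjective pbar
      obtain ⟨α₀, rfl⟩ := Ideal.Quotient.mk_surjective α
      have hF : q (algebraMap O C f) = q (algebraMap O C p₀) * q (algebraMap O C α₀) := by
        rw [← map_mul, ← map_mul]
        exact hqcongr f (p₀ * α₀) (by rw [hf, map_mul])
      rw [map_add, map_sum, map_pow] at hrel
      have hrel2 : q y ^ r + ∑ i ∈ Finset.range r,
          q (c i) * q (algebraMap O C f) ^ (r - i) * q y ^ i = 0 := by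
        refine Eq.trans ?_ hrel
        refine congrArg₂ (· + ·) rfl (Finset.sum_congr rfl fun i _ => ?_)
        rw [map_mul, map_mul, map_pow, map_pow]
      -- step 1: `y ^ r ∈ p₀ C + π C`
      have hyr : q (y ^ r) = q (algebraMap O C p₀ *
          (-∑ i ∈ Finset.range r, c i * (algebraMap O C p₀ ^ (r - i - 1)
            * algebraMap O C α₀ ^ (r - i)) * y ^ i)) := by
        rw [map_pow, eq_neg_of_add_eq_zero_left hrel, map_mul, map_neg, mul_neg, map_sum,
          Finset.mul_sum]
        congr 1
        refine Finset.sum_congr rfl fun i hi => ?_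
        have hi' : r - i = (r - i - 1) + 1 := by
          have := Finset.mem_range.mp hi; omega
        rw [map_mul, map_mul, map_pow, map_pow, hF, map_mul, map_mul, map_mul, map_pow, map_pow,
          map_pow]
        conv_lhs => rw [hi', mul_pow, pow_succ]
        rw [← hi']
        ring
      obtain ⟨k₁, u₁, hu₁⟩ := hprime p₀ hp y r _ hyr
      have hu₁' : q (algebraMap O C t) ^ k₁ * q y = q (algebraMap O C p₀) * q u₁ := by
        rw [← map_pow, ← map_mul, hu₁, map_mul]
      -- step 2: the relation for `u₁`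
      have hp0 : ¬ π ∣ p₀ ^ r := by
        rw [← hmk0, map_pow]
        exact pow_ne_zero _ hp.ne_zero
      have hrel' : q (u₁ ^ r + ∑ i ∈ Finset.range r,
          (c i * algebraMap O C t ^ (k₁ * (r - i))) * algebraMap O C α₀ ^ (r - i) * u₁ ^ i)
          = 0 := by
        apply hqtf (p₀ ^ r) hp0
        have hexp : q (algebraMap O C (p₀ ^ r) * (u₁ ^ r + ∑ i ∈ Finset.range r,
            (c i * algebraMap O C t ^ (k₁ * (r - i))) * algebraMap O C α₀ ^ (r - i) * u₁ ^ i))
            = q (algebraMap O C t) ^ (k₁ * r) * (q y ^ r + ∑ i ∈ Finset.range r,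
              q (c i) * q (algebraMap O C f) ^ (r - i) * q y ^ i) := by
          rw [map_mul, map_add, map_sum, mul_add, mul_add, Finset.mul_sum, Finset.mul_sum,
            map_pow, map_pow, map_pow]
          congr 1
          · rw [← mul_pow, ← hu₁', mul_pow, ← pow_mul]
          · refine Finset.sum_congr rfl fun i hi => ?_
            have hi' : i ≤ r := (Finset.mem_range.mp hi).le
            have h1 : q (algebraMap O C p₀) ^ r
                = q (algebraMap O C p₀) ^ (r - i) * q (algebraMap O C p₀) ^ i :=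
              (pow_sub_mul_pow _ hi').symm
            have h2 : q (algebraMap O C t) ^ (k₁ * r)
                = q (algebraMap O C t) ^ (k₁ * (r - i)) * (q (algebraMap O C t) ^ k₁) ^ i := by
              rw [← pow_mul, ← pow_add, ← Nat.mul_add, Nat.sub_add_cancel hi']
            rw [map_mul, map_mul, map_mul, map_pow, map_pow, map_pow, hF, h1, h2]
            calc q (algebraMap O C p₀) ^ (r - i) * q (algebraMap O C p₀) ^ i
                  * (q (c i) * q (algebraMap O C t) ^ (k₁ * (r - i))
                    * q (algebraMap O C α₀) ^ (r - i) * q u₁ ^ i)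
                = q (algebraMap O C t) ^ (k₁ * (r - i)) * (q (c i)
                    * (q (algebraMap O C p₀) * q (algebraMap O C α₀)) ^ (r - i)
                    * (q (algebraMap O C p₀) * q u₁) ^ i) := by ring
              _ = q (algebraMap O C t) ^ (k₁ * (r - i)) * (q (algebraMap O C t) ^ k₁) ^ i
                  * (q (c i) * (q (algebraMap O C p₀) * q (algebraMap O C α₀)) ^ (r - i)
                    * q y ^ i) := by
                rw [← hu₁']; ring
        rw [hexp, hrel2, mul_zero]
      obtain ⟨k₂, u₂, hu₂⟩ := ih hα α₀ rfl u₁ r _ hrel'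
      have hu₂' : q (algebraMap O C t) ^ k₂ * q u₁ = q (algebraMap O C α₀) * q u₂ := by
        rw [← map_pow, ← map_mul, hu₂, map_mul]
      refine ⟨k₂ + k₁, u₂, ?_⟩
      calc q (algebraMap O C t ^ (k₂ + k₁) * y)
          = q (algebraMap O C t) ^ k₂ * (q (algebraMap O C t) ^ k₁ * q y) := by
            rw [map_mul, map_pow, pow_add, mul_assoc]
        _ = q (algebraMap O C p₀) * (q (algebraMap O C t) ^ k₂ * q u₁) := by
            rw [hu₁']; ring
        _ = q (algebraMap O C p₀) * q (algebraMap O C α₀) * q u₂ := by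
            rw [hu₂']; ring
        _ = q (algebraMap O C f * u₂) := by rw [map_mul, hF]
  -- conclusion
  intro y f hf hrel
  obtain ⟨r, c, w, hrel⟩ := hrel
  have h0 : q (y ^ r + ∑ i ∈ Finset.range r, c i * algebraMap O C f ^ (r - i) * y ^ i) = 0 := by
    rw [hrel, map_mul, hqπ, zero_mul]
  obtain ⟨k, u, hku⟩ := hmain _ (fun h => hf ((hmk0 f).mp h)) f rfl y r c h0
  rw [← sub_eq_zero, ← map_sub, hq0] at hku
  obtain ⟨v, hv⟩ := hku
  exact ⟨k, u, v, by rw [← hv]; ring⟩

/-- **Smoothness core (U).** As `sm79_divNorm_of_SD`, with the hypothesis in the `hcodim` shape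
of `Purity.lean`: `C` is trace-self-dual at every prime element of `O` not dividing `t`. -/
theorem sm79_divNorm_of_hcodim [IsNoetherianRing O] [Algebra.IsSeparable E L] {π : O}
    (hπ : Prime π) [IsPrincipalIdealRing (O ⧸ Ideal.span {π})] (t : O)
    (hcodim : ∀ p : O, Prime p → ¬ p ∣ t → ∀ y : L,
      (∀ c : C, Algebra.trace E L (y * algebraMap C L c) ∈ (algebraMap O E).range) →
      ∃ s : O, ¬ p ∣ s ∧ algebraMap O L s * y ∈ (algebraMap C L).range) :
    sm79_DivNorm O C π t :=
  sm79_divNorm_of_SD (E := E) (L := L) hπ t (sm79_dual_pow_mem t hcodim)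

end Core

section Glue

variable {O : Type*} [CommRing O] {C : Type*} [CommRing C] [Algebra O C]

/-- Weakening: `DivNorm π t` implies `DivNorm π (t * t')`. -/
theorem sm79_divNorm_mul_right {π t : O} (t' : O) (h : sm79_DivNorm O C π t) :
    sm79_DivNorm O C π (t * t') := by
  intro y f hf hrel
  obtain ⟨k, u, v, huv⟩ := h y f hf hrel
  refine ⟨k, algebraMap O C t' ^ k * u, algebraMap O C t' ^ k * v, ?_⟩
  rw [map_mul, mul_pow, mul_right_comm, huv]
  ring

/-- **Gluing.** If `(C/π)[1/t₁]` and `(C/π)[1/t₂]` are integrally closed and `t₁, t₂, π` generate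
the unit ideal of `O`, then `C/π` is integrally closed. -/
theorem sm79_divNorm_glue {π t₁ t₂ : O} (hcop : ∃ a₁ a₂ a₃ : O, a₁ * t₁ + a₂ * t₂ + a₃ * π = 1)
    (h₁ : sm79_DivNorm O C π t₁) (h₂ : sm79_DivNorm O C π t₂) : sm79_DivNorm O C π 1 := by
  intro y f hf hrel
  obtain ⟨k₁, u₁, v₁, huv₁⟩ := h₁ y f hf hrel
  obtain ⟨k₂, u₂, v₂, huv₂⟩ := h₂ y f hf hrel
  -- the ideal of multipliers
  let I : Ideal O :=
    { carrier := {x | ∃ u v : C, algebraMap O C x * y = algebraMap O C f * u + algebraMap O C π * v}
      add_mem' := by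
        rintro x x' ⟨u, v, h⟩ ⟨u', v', h'⟩
        exact ⟨u + u', v + v', by rw [map_add, add_mul, h, h']; ring⟩
      zero_mem' := ⟨0, 0, by simp⟩
      smul_mem' := by
        rintro c x ⟨u, v, h⟩
        exact ⟨algebraMap O C c * u, algebraMap O C c * v, by
          rw [smul_eq_mul, map_mul, mul_assoc, h]; ring⟩ }
  have hI₁ : t₁ ^ k₁ ∈ I := ⟨u₁, v₁, by rw [map_pow, huv₁]⟩
  have hI₂ : t₂ ^ k₂ ∈ I := ⟨u₂, v₂, by rw [map_pow, huv₂]⟩
  have hIπ : π ∈ I := ⟨0, y, by simp⟩
  have htop : I = ⊤ := by
    obtain ⟨a₁, a₂, a₃, h⟩ := hcop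
    -- `(a₁ t₁ + a₂ t₂) ^ (k₁ + k₂) ∈ I`, and it is `≡ 1` modulo `π`
    have h12 : (a₁ * t₁ + a₂ * t₂) ^ (k₁ + k₂) ∈ I := by
      rw [add_pow]
      refine I.sum_mem fun m _ => ?_
      by_cases hm : k₁ ≤ m
      · have : (a₁ * t₁) ^ m = t₁ ^ k₁ * (a₁ ^ m * t₁ ^ (m - k₁)) := by
          rw [mul_pow, mul_left_comm, ← pow_add, Nat.add_sub_cancel' hm]
        rw [this]
        exact I.mul_mem_right _ (I.mul_mem_right _ (I.mul_mem_right _ hI₁))
      · have hm' : k₂ ≤ k₁ + k₂ - m := by omega
        have : (a₂ * t₂) ^ (k₁ + k₂ - m)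
            = t₂ ^ k₂ * (a₂ ^ (k₁ + k₂ - m) * t₂ ^ (k₁ + k₂ - m - k₂)) := by
          rw [mul_pow, mul_left_comm, ← pow_add, Nat.add_sub_cancel' hm']
        rw [this]
        exact I.mul_mem_right _ (I.mul_mem_left _ (I.mul_mem_right _ hI₂))
    have h1 : ∀ N : ℕ, ∃ w : O, (a₁ * t₁ + a₂ * t₂) ^ N = 1 + π * w := by
      intro N
      induction N with
      | zero => exact ⟨0, by simp⟩
      | succ N ih =>
        obtain ⟨w, hw⟩ := ih
        refine ⟨w * (a₁ * t₁ + a₂ * t₂) - a₃, ?_⟩
        rw [pow_succ, hw]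
        linear_combination h
    obtain ⟨w, hw⟩ := h1 (k₁ + k₂)
    rw [Ideal.eq_top_iff_one]
    have : (1 : O) = (a₁ * t₁ + a₂ * t₂) ^ (k₁ + k₂) - π * w := by rw [hw]; ring
    rw [this]
    exact I.sub_mem h12 (I.mul_mem_right _ hIπ)
  have h1 : (1 : O) ∈ I := htop ▸ Submodule.mem_top
  obtain ⟨u, v, huv⟩ := h1
  exact ⟨0, u, v, by rw [pow_zero, ← huv, map_one]⟩

end Glue

section Descent

variable {O : Type*} [CommRing O] [IsDomain O] [IsIntegrallyClosed O]
  {E : Type*} [Field E] [Algebra O E] [IsFractionRing O E]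
  {F : Type*} [Field F] [Algebra E F] [Algebra O F] [IsScalarTower O E F]
  {C : Type*} [CommRing C] [Algebra O C] [Algebra C F] [IsScalarTower O C F]
  [IsIntegralClosure C O F]
  {L : Type*} [Field L] [Algebra F L] [Algebra O L] [IsScalarTower O F L] [FiniteDimensional F L]
  {D : Type*} [CommRing D] [Algebra O D] [Algebra D L] [IsScalarTower O D L]
  [IsIntegralClosure D O L]

/-- **Descent by the trace average.** `F ⊆ L` finite with `[L : F]` invertible in `O`; `C`, `D`
the integral closures of `O` in `F`, `L`.  If `(D/π)[1/t]` is integrally closed then so is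
`(C/π)[1/t]`. -/
theorem sm79_divNorm_descent {π t : O} (ε : O)
    (hε : (Module.finrank F L : O) * ε = 1)
    (h : sm79_DivNorm O D π t) : sm79_DivNorm O C π t := by
  classical
  have hCF : Function.Injective (algebraMap C F) := IsIntegralClosure.algebraMap_injective C O F
  -- the inclusion `C → D`
  have hCD : ∀ c : C, ∃ d : D, algebraMap D L d = algebraMap F L (algebraMap C F c) := by
    intro c
    have h1 : IsIntegral O (algebraMap C F c) :=
      (IsIntegralClosure.isIntegral_iff (A := C)).mpr ⟨c, rfl⟩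
    have h2 : IsIntegral O (algebraMap F L (algebraMap C F c)) := by
      have := h1.map (IsScalarTower.toAlgHom O F L)
      simpa using this
    exact (IsIntegralClosure.isIntegral_iff (A := D)).mp h2
  choose ι hι using hCD
  -- the average `D → C`
  have hDC : ∀ d : D, ∃ c : C, algebraMap C F c
      = algebraMap O F ε * Algebra.trace F L (algebraMap D L d) := by
    intro d
    have h1 : IsIntegral O (algebraMap D L d) :=
      (IsIntegralClosure.isIntegral_iff (A := D)).mpr ⟨d, rfl⟩
    have h2 : IsIntegral O (Algebra.trace F L (algebraMap D L d)) := Algebra.isIntegral_trace h1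
    have h3 : IsIntegral O (algebraMap O F ε * Algebra.trace F L (algebraMap D L d)) :=
      IsIntegral.mul isIntegral_algebraMap h2
    exact (IsIntegralClosure.isIntegral_iff (A := C)).mp h3
  choose av hav using hDC
  have hεF : algebraMap O F ε * (Module.finrank F L : F) = 1 := by
    have := congrArg (algebraMap O F) hε
    rw [map_mul, map_natCast, map_one] at this
    rw [mul_comm]; exact this
  have hOL : ∀ x : O, algebraMap O L x = algebraMap F L (algebraMap O F x) := fun x =>
    IsScalarTower.algebraMap_apply O F L x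
  have hOD : ∀ x : O, algebraMap D L (algebraMap O D x) = algebraMap F L (algebraMap O F x) :=
    fun x => by rw [← IsScalarTower.algebraMap_apply O D L, hOL]
  -- `av (ι c * d) = c * av d`
  have hav_mul : ∀ (c : C) (d : D), av (ι c * d) = c * av d := by
    intro c d
    apply hCF
    have h1 : algebraMap D L (ι c * d) = algebraMap C F c • algebraMap D L d := by
      rw [Algebra.smul_def, map_mul, hι]
    rw [hav, h1, map_smul, smul_eq_mul, map_mul, hav]
    ring
  have hav_add : ∀ d d' : D, av (d + d') = av d + av d' := by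
    intro d d'
    apply hCF
    rw [hav, map_add, map_add, map_add, hav, hav]
    ring
  have hav_ι : ∀ c : C, av (ι c) = c := by
    intro c
    apply hCF
    rw [hav, hι, Algebra.trace_algebraMap, nsmul_eq_mul, ← mul_assoc, hεF, one_mul]
  have hι_O : ∀ x : O, ι (algebraMap O C x) = algebraMap O D x := by
    intro x
    apply IsIntegralClosure.algebraMap_injective D O L
    rw [hι, hOD, ← IsScalarTower.algebraMap_apply O C F]
  have hι_mul : ∀ c c' : C, ι (c * c') = ι c * ι c' := by
    intro c c'
    apply IsIntegralClosure.algebraMap_injective D O L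
    rw [hι, map_mul, map_mul, map_mul, hι, hι]
  have hι_add : ∀ c c' : C, ι (c + c') = ι c + ι c' := by
    intro c c'
    apply IsIntegralClosure.algebraMap_injective D O L
    rw [hι, map_add, map_add, map_add, hι, hι]
  have hι_pow : ∀ (c : C) (m : ℕ), ι (c ^ m) = ι c ^ m := by
    intro c m
    apply IsIntegralClosure.algebraMap_injective D O L
    rw [hι, map_pow, map_pow, map_pow, hι]
  have hι_sum : ∀ (s : Finset ℕ) (g : ℕ → C), ι (∑ i ∈ s, g i) = ∑ i ∈ s, ι (g i) := by
    intro s g
    apply IsIntegralClosure.algebraMap_injective D O L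
    rw [hι, map_sum, map_sum, map_sum]
    exact Finset.sum_congr rfl fun i _ => (hι _).symm
  intro y f hf hrel
  obtain ⟨r, c, w, hrel⟩ := hrel
  have hrelD : ι y ^ r + ∑ i ∈ Finset.range r, ι (c i) * algebraMap O D f ^ (r - i) * ι y ^ i
      = algebraMap O D π * ι w := by
    have := congrArg ι hrel
    rw [hι_add, hι_pow, hι_sum, hι_mul, hι_O] at this
    rw [← this]
    refine congrArg₂ (· + ·) rfl (Finset.sum_congr rfl fun i _ => ?_)
    rw [hι_mul, hι_mul, hι_pow, hι_pow, hι_O]
  obtain ⟨k, u, v, huv⟩ := h (ι y) f hf ⟨r, fun i => ι (c i), ι w, hrelD⟩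
  refine ⟨k, av u, av v, ?_⟩
  have h1 := congrArg av huv
  have e1 : av (algebraMap O D t ^ k * ι y) = algebraMap O C t ^ k * y := by
    rw [← hι_O, ← hι_pow, hav_mul, hav_ι]
  have e2 : ∀ (x : O) (d : D), av (algebraMap O D x * d) = algebraMap O C x * av d := by
    intro x d
    rw [← hι_O, hav_mul]
  rw [e1, hav_add, e2, e2] at h1
  exact h1

end Descent

end Fermat.Agent.S18
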