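import Fermat.Agent.S18.StarTwin55

/-!
# S18, row C4 (helper27): the final reduction with the chart package over number fields

`StarTwin55` (helper55) reduces S18 to the chart package `c1t55_ChartData R K M π` for ALL
pairs `(R, K)`; the landed inputs of the package (horizontal ramification, tameness) exist only
for constant fields `K` embedded in `ℚ̄`.  This module restates the chain with the package
hypothesis quantified over `(R, K)` with `[Algebra K ℚ̄] [Algebra.IsAlgebraic K ℚ̄]`, and with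
the unit hypotheses `IsUnit (p₀ : R)`, `IsUnit (M : R)` of the package supplied inside.

* `sm27_star_aux`, `sm27_star`, `sm27_relim_star`: statement `(**)` at level `M`.
* `sm27_main`: the conclusion of the frozen statement S18 from the package hypothesis `hpack`.
-/

set_option autoImplicit false
set_option linter.style.haveILetI false

open ModularCurve AlgebraicCurve IntermediateField

namespace Fermat.Agent.S18

section Concrete

local notation "Q̄" => AlgebraicClosure ℚ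

/-- Core over an abstract number field `K` mapping to `ℚ̄`, `R = A ∩ K`: the package is needed
only for this one pair `(R, K)`. -/
theorem sm27_star_aux {K : Type} [Field K] [NumberField K] [Algebra K Q̄]
    (A : ValuationSubring Q̄) {ℓ : ℕ} (hℓ0 : ℓ ≠ 0) (hA : A.LiesOverPrime ℓ)
    (M : ℕ) [NeZero M] (m : ℕ) (hm0 : 0 < m) (hmℓ : Nat.Coprime m ℓ)
    (hpack : ∀ [IsDiscreteValuationRing ↥(A.comap (algebraMap K Q̄))]
      [Algebra ↥(A.comap (algebraMap K Q̄)) ↥(modularFunctionFieldFullC K M)]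
      [IsScalarTower ↥(A.comap (algebraMap K Q̄)) K ↥(modularFunctionFieldFullC K M)]
      (π : ↥(A.comap (algebraMap K Q̄))), Irreducible π →
      (∀ n : ℕ, Nat.Coprime n ℓ → IsUnit (n : ↥(A.comap (algebraMap K Q̄)))) →
      c1t55_ChartData ↥(A.comap (algebraMap K Q̄)) K M π)
    (a1 b1 : LaurentSeries ↥(A.comap (algebraMap K Q̄)))
    (ha1 : coeffMap (A.comap (algebraMap K Q̄)).subtype a1 ∈ modularFunctionFieldFullC K M)
    (hb1 : coeffMap (A.comap (algebraMap K Q̄)).subtype b1 ∈ modularFunctionFieldFullC K M)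
    (hab1 : coeffMap (IsLocalRing.residue ↥(A.comap (algebraMap K Q̄))) a1 =
      coeffMap (IsLocalRing.residue ↥(A.comap (algebraMap K Q̄))) b1)
    (ha10 : coeffMap (IsLocalRing.residue ↥(A.comap (algebraMap K Q̄))) a1 ≠ 0)
    (hP : ∀ P' : Place Q̄ ↥(modularFunctionFieldBar M),
      (m : ℤ) ∣ P'.ord (fd27_iota (algebraMap K Q̄) M ⟨_, ha1⟩ /
        fd27_iota (algebraMap K Q̄) M ⟨_, hb1⟩)) :
    ∃ v : ↥(modularFunctionFieldBar M),
      v ^ m = fd27_iota (algebraMap K Q̄) M ⟨_, ha1⟩ / fd27_iota (algebraMap K Q̄) M ⟨_, hb1⟩ := by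
  have hdvr : IsDiscreteValuationRing (A.comap (algebraMap K Q̄)) :=
    nf23_comap_isDVR_of_liesOverPrime (algebraMap K Q̄) A hℓ0 hA
  obtain ⟨π, hπ⟩ := IsDiscreteValuationRing.exists_irreducible (A.comap (algebraMap K Q̄))
  letI alg : Algebra (A.comap (algebraMap K Q̄)) ↥(modularFunctionFieldFullC K M) :=
    ((algebraMap K ↥(modularFunctionFieldFullC K M)).comp
      (algebraMap (A.comap (algebraMap K Q̄)) K)).toAlgebra
  have htower : IsScalarTower (A.comap (algebraMap K Q̄)) K ↥(modularFunctionFieldFullC K M) :=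
    IsScalarTower.of_algebraMap_eq (fun _ => rfl)
  have hunit : ∀ n : ℕ, Nat.Coprime n ℓ → IsUnit ((n : ℕ) : A.comap (algebraMap K Q̄)) := by
    intro n hn
    obtain ⟨μ, hμ⟩ := nf23_exists_natCast_mul_eq_one (algebraMap K Q̄) A hA hn
    exact IsUnit.of_mul_eq_one _ hμ
  have hpk := hpack π hπ hunit
  have hP1 : ∀ P : Place K ↥(modularFunctionFieldFullC K M),
      (m : ℤ) ∣ P.ord ((⟨_, ha1⟩ : ↥(modularFunctionFieldFullC K M)) / ⟨_, hb1⟩) := by
    intro P
    refine cx_modular_place_dvd (K0 := K) (fd27_iota (algebraMap K Q̄) M)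
      (fun f => fd27_iota_coe _ _ f) (m : ℤ) _ ?_ P
    intro P'
    rw [map_div₀]
    exact hP P'
  obtain ⟨f₀, c, hf0, hfc⟩ := c1t55_abs hπ hpk m hm0 (hunit m hmℓ) a1 b1 ha1 hb1 hab1 ha10 hP1
  have hι := congrArg (fd27_iota (algebraMap K Q̄) M) hfc
  rw [map_mul, map_pow, map_div₀] at hι
  have hc : fd27_iota (algebraMap K Q̄) M
      (algebraMap (A.comap (algebraMap K Q̄)) ↥(modularFunctionFieldFullC K M) c) =
      algebraMap Q̄ ↥(modularFunctionFieldBar M) (algebraMap K Q̄ (c : K)) :=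
    fd27_iota_algebraMap (algebraMap K Q̄) M (c : K)
  rw [hc] at hι
  obtain ⟨γ, hγ⟩ := IsAlgClosed.exists_pow_nat_eq (algebraMap K Q̄ (c : K)) hm0
  have hf0' : fd27_iota (algebraMap K Q̄) M f₀ ≠ 0 :=
    (map_ne_zero_iff _ (fd27_iota_injective (algebraMap K Q̄) M)).mpr hf0
  refine ⟨algebraMap Q̄ ↥(modularFunctionFieldBar M) γ * (fd27_iota (algebraMap K Q̄) M f₀)⁻¹, ?_⟩
  rw [mul_pow, ← map_pow, hγ, ← hι, inv_pow, mul_comm, ← mul_assoc,
    inv_mul_cancel₀ (pow_ne_zero m hf0'), one_mul]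
  rfl

/-- **C1.** Statement `(**)` over `(ℚ̄, A)` at level `M` for the exponent `m` prime to the
residue characteristic `ℓ`, from the chart packages over the discrete valuation rings `R` of
fields `K` algebraic over `ℚ` and embedded in `ℚ̄`. -/
theorem sm27_star (A : ValuationSubring Q̄) {ℓ : ℕ} (hℓ0 : ℓ ≠ 0) (hA : A.LiesOverPrime ℓ)
    (M : ℕ) [NeZero M] (m : ℕ) (hm0 : 0 < m) (hmℓ : Nat.Coprime m ℓ)
    (hpack : ∀ (R K : Type) [CommRing R] [IsDomain R] [IsDiscreteValuationRing R] [Field K]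
      [CharZero K] [Algebra R K] [IsFractionRing R K] [Algebra K Q̄] [Algebra.IsAlgebraic K Q̄]
      [Algebra R ↥(modularFunctionFieldFullC K M)]
      [IsScalarTower R K ↥(modularFunctionFieldFullC K M)] (π : R), Irreducible π →
      (∀ n : ℕ, Nat.Coprime n ℓ → IsUnit (n : R)) → c1t55_ChartData R K M π) :
    nd38_Star A M m := by
  intro a b ha hb hab ha0 hP
  obtain ⟨K0, hK0, -, -, a1, b1, ha1, hb1, haa, hbb, hιa, hιb, hra, hrb⟩ :=
    fd27_S0 A M a b ha hb ∅ ∅
  have hab1 : coeffMap (IsLocalRing.residue (A.comap (algebraMap K0 Q̄))) a1 =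
      coeffMap (IsLocalRing.residue (A.comap (algebraMap K0 Q̄))) b1 :=
    fd27_residue_eq (algebraMap K0 Q̄) A a1 b1 (by rw [haa, hbb]; exact hab)
  have ha10 : coeffMap (IsLocalRing.residue (A.comap (algebraMap K0 Q̄))) a1 ≠ 0 :=
    fd27_residue_ne_zero (algebraMap K0 Q̄) A a1 (by rw [haa]; exact ha0)
  have hQ : Algebra.IsAlgebraic ℚ Q̄ := AlgebraicClosure.isAlgebraic ℚ
  have halg : Algebra.IsAlgebraic K0 Q̄ :=
    Algebra.IsAlgebraic.tower_top (K := ℚ) (L := K0) (A := Q̄)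
  obtain ⟨v, hv⟩ := sm27_star_aux (K := K0) A hℓ0 hA M m hm0 hmℓ
    (fun π hπ hunit => hpack (A.comap (algebraMap K0 Q̄)) K0 π hπ hunit)
    a1 b1 ha1 hb1 hab1 ha10 (by rw [hιa, hιb]; exact hP)
  exact ⟨v, by rw [hv, hιa, hιb]⟩

/-- The same in the shape `relim_Star` consumed by `relim_main_prime_of`. -/
theorem sm27_relim_star (A : ValuationSubring Q̄) {ℓ : ℕ} (hℓ0 : ℓ ≠ 0) (hA : A.LiesOverPrime ℓ)
    (M : ℕ) [NeZero M] (m : ℕ) (hm0 : 0 < m) (hmℓ : Nat.Coprime m ℓ)
    (hpack : ∀ (R K : Type) [CommRing R] [IsDomain R] [IsDiscreteValuationRing R] [Field K]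
      [CharZero K] [Algebra R K] [IsFractionRing R K] [Algebra K Q̄] [Algebra.IsAlgebraic K Q̄]
      [Algebra R ↥(modularFunctionFieldFullC K M)]
      [IsScalarTower R K ↥(modularFunctionFieldFullC K M)] (π : R), Irreducible π →
      (∀ n : ℕ, Nat.Coprime n ℓ → IsUnit (n : R)) → c1t55_ChartData R K M π) :
    relim_Star A M m :=
  nd38_relim_of_star (sm27_star A hℓ0 hA M m hm0 hmℓ hpack)

/-- **S18 from the chart packages.**  The conclusion of the frozen statement S18 from the chart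
package `c1t55_ChartData R K M π` over discrete valuation rings `R` with fraction field `K`
algebraic over `ℚ` and embedded in `ℚ̄`, at levels `M` divisible by `p₀ ∈ {2, 3}` with `p₀` and
`M` units of `R`. -/
theorem sm27_main (N : ℕ) [NeZero N] {ℓ : ℕ} [Fact ℓ.Prime] (hℓN : ¬ ℓ ∣ N)
    (A : ValuationSubring Q̄) (hA : A.LiesOverPrime ℓ) (h : ModularCurve.ReductionInputsModL A N)
    (hpack : ∀ (R K : Type) [CommRing R] [IsDomain R] [IsDiscreteValuationRing R] [Field K]
      [CharZero K] [Algebra R K] [IsFractionRing R K] [Algebra K Q̄] [Algebra.IsAlgebraic K Q̄]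
      (M : ℕ) [NeZero M] [Algebra R ↥(modularFunctionFieldFullC K M)]
      [IsScalarTower R K ↥(modularFunctionFieldFullC K M)] (π : R), Irreducible π →
      ∀ p₀ : ℕ, (p₀ = 2 ∨ p₀ = 3) → p₀ ∣ M → IsUnit (p₀ : R) → IsUnit (M : R) →
      c1t55_ChartData R K M π)
    (m : ℕ) (hm : ¬ ℓ ∣ m) (z : ModularCurve.JZero N) (hmz : m • z = 0)
    (hz : ModularCurve.reductionModL A N z = 0) : z = 0 := by
  have hℓ : ℓ.Prime := Fact.out
  refine nd38_main_of_aux N A h (relim_const A N) (fun p hp hpℓ p₀ hp₀ hp₀ℓ => ?_) m hm z hmz hz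
  have hp₀p : p₀.Prime := by rcases hp₀ with rfl | rfl <;> norm_num
  haveI : NeZero (Nat.lcm N p₀) := ⟨Nat.lcm_ne_zero (NeZero.ne N) hp₀p.ne_zero⟩
  have hcop₀ : Nat.Coprime p₀ ℓ := (Nat.coprime_primes hp₀p hℓ).mpr hp₀ℓ
  have hcopM : Nat.Coprime (Nat.lcm N p₀) ℓ := by
    apply Nat.Coprime.symm
    rw [Nat.Prime.coprime_iff_not_dvd hℓ]
    intro hdvd
    rcases (Nat.Prime.dvd_mul hℓ).mp (hdvd.trans (Nat.lcm_dvd_mul N p₀)) with h1 | h1
    · exact hℓN h1
    · exact hp₀ℓ ((Nat.prime_dvd_prime_iff_eq hℓ hp₀p).mp h1).symm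
  exact sm27_relim_star A hℓ.ne_zero hA (Nat.lcm N p₀) p hp.pos
    ((Nat.coprime_primes hp hℓ).mpr hpℓ)
    (fun R K _ _ _ _ _ _ _ _ _ _ _ π hπ hunit =>
      hpack R K (Nat.lcm N p₀) π hπ p₀ hp₀ (Nat.dvd_lcm_right N p₀) (hunit p₀ hcop₀)
        (hunit _ hcopM))

end Concrete

end Fermat.Agent.S18
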