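import Mathlib

set_option autoImplicit false

/-!
# Tame ramification at the level of `ℤ`-valued order functions (S18, row A3 backup, helper75)

Everything is stated for a plain function `ord : F → ℤ` on a field `F` satisfying the two
valuation axioms `h75_IsOrd` (values at `0` are irrelevant), so that any formalism of places
(`Place.ord`, `HeightOneSpectrum.valuation`, ...) can be plugged in.

* `h75_ord_dvd_of_unit_root` (Kummer unramified step): if `ord` restricted to a subfield `L` has
  value group `e₁ ℤ`, and `y ^ n = u` with `u ∈ L` a unit and `n` a unit for `ord`, then `ord`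
  still has value group `e₁ ℤ` on `L(y)`.
* `h75_ord_dvd_of_root_uniformizer` (tame Abhyankar): if moreover `s ^ (eP * d) = h` with
  `ord h = eP * e₁` (i.e. `h` has order `eP` at the place of `L` below), then every value of `ord`
  on `L(s)` is a multiple of `ord s`, and `ord s * d = e₁`.
-/

namespace Fermat.Agent.S18

open Polynomial

section OrdBasics

variable {F : Type*} [Field F]

/-- `ord` is a `ℤ`-valued valuation in additive notation (the value at `0` is irrelevant). -/
def h75_IsOrd (ord : F → ℤ) : Prop :=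
  (∀ x y : F, x ≠ 0 → y ≠ 0 → ord (x * y) = ord x + ord y) ∧
  (∀ x y : F, x ≠ 0 → y ≠ 0 → x + y ≠ 0 → min (ord x) (ord y) ≤ ord (x + y))

/-- `x = 0` or `c ≤ ord x`. -/
def h75_Ge (ord : F → ℤ) (c : ℤ) (x : F) : Prop := x = 0 ∨ c ≤ ord x

variable {ord : F → ℤ}

theorem h75_ord_one (h : h75_IsOrd ord) : ord 1 = 0 := by
  have h1 := h.1 1 1 one_ne_zero one_ne_zero
  rw [one_mul] at h1
  linarith

theorem h75_ord_neg_one (h : h75_IsOrd ord) : ord (-1) = 0 := by
  have h1 := h.1 (-1) (-1) (neg_ne_zero.mpr one_ne_zero) (neg_ne_zero.mpr one_ne_zero)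
  rw [neg_mul_neg, one_mul, h75_ord_one h] at h1
  omega

theorem h75_ord_neg (h : h75_IsOrd ord) {x : F} (hx : x ≠ 0) : ord (-x) = ord x := by
  have h1 := h.1 (-1) x (neg_ne_zero.mpr one_ne_zero) hx
  rw [neg_one_mul, h75_ord_neg_one h, zero_add] at h1
  exact h1

theorem h75_ord_pow (h : h75_IsOrd ord) {x : F} (hx : x ≠ 0) (n : ℕ) :
    ord (x ^ n) = n * ord x := by
  induction n with
  | zero => simp [h75_ord_one h]
  | succ n ih =>
    rw [pow_succ, h.1 _ _ (pow_ne_zero n hx) hx, ih]
    push_cast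
    ring

theorem h75_ord_inv (h : h75_IsOrd ord) {x : F} (hx : x ≠ 0) : ord x⁻¹ = -ord x := by
  have h1 := h.1 x x⁻¹ hx (inv_ne_zero hx)
  rw [mul_inv_cancel₀ hx, h75_ord_one h] at h1
  omega

theorem h75_Ge_zero (c : ℤ) : h75_Ge ord c (0 : F) := Or.inl rfl

theorem h75_Ge_add (h : h75_IsOrd ord) {c : ℤ} {x y : F} (hx : h75_Ge ord c x)
    (hy : h75_Ge ord c y) : h75_Ge ord c (x + y) := by
  by_cases hx0 : x = 0
  · rw [hx0, zero_add]; exact hy
  by_cases hy0 : y = 0
  · rw [hy0, add_zero]; exact hx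
  by_cases hxy : x + y = 0
  · exact Or.inl hxy
  · right
    have hx' := hx.resolve_left hx0
    have hy' := hy.resolve_left hy0
    exact le_trans (le_min hx' hy') (h.2 x y hx0 hy0 hxy)

theorem h75_Ge_mul (h : h75_IsOrd ord) {c d : ℤ} {x y : F} (hx : h75_Ge ord c x)
    (hy : h75_Ge ord d y) : h75_Ge ord (c + d) (x * y) := by
  by_cases hx0 : x = 0
  · rw [hx0, zero_mul]; exact Or.inl rfl
  by_cases hy0 : y = 0
  · rw [hy0, mul_zero]; exact Or.inl rfl
  right
  rw [h.1 x y hx0 hy0]
  exact add_le_add (hx.resolve_left hx0) (hy.resolve_left hy0)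

theorem h75_Ge_neg (h : h75_IsOrd ord) {c : ℤ} {x : F} (hx : h75_Ge ord c x) :
    h75_Ge ord c (-x) := by
  by_cases hx0 : x = 0
  · rw [hx0, neg_zero]; exact Or.inl rfl
  · right
    rw [h75_ord_neg h hx0]
    exact hx.resolve_left hx0

theorem h75_Ge_mono {c d : ℤ} (hcd : d ≤ c) {x : F} (hx : h75_Ge ord c x) : h75_Ge ord d x :=
  hx.imp id (le_trans hcd)

theorem h75_Ge_pow (h : h75_IsOrd ord) {x : F} (hx : h75_Ge ord 0 x) (n : ℕ) :
    h75_Ge ord 0 (x ^ n) := by
  induction n with
  | zero => right; rw [pow_zero, h75_ord_one h]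
  | succ n ih =>
    rw [pow_succ]
    simpa using h75_Ge_mul h ih hx

theorem h75_Ge_sum (h : h75_IsOrd ord) {c : ℤ} {ι : Type*} (S : Finset ι) (f : ι → F)
    (hf : ∀ i ∈ S, h75_Ge ord c (f i)) : h75_Ge ord c (∑ i ∈ S, f i) := by
  classical
  induction S using Finset.induction_on with
  | empty => simp [h75_Ge_zero]
  | insert a S ha ih =>
    rw [Finset.sum_insert ha]
    exact h75_Ge_add h (hf a (Finset.mem_insert_self a S))
      (ih fun i hi => hf i (Finset.mem_insert_of_mem hi))

/-- Strict ultrametric inequality. -/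
theorem h75_ord_add_of_lt (h : h75_IsOrd ord) {x y : F} (hx : x ≠ 0) (hy : y ≠ 0)
    (hlt : ord x < ord y) : x + y ≠ 0 ∧ ord (x + y) = ord x := by
  have hne : x + y ≠ 0 := by
    intro h0
    have hxy : x = -y := eq_neg_of_add_eq_zero_left h0
    rw [hxy, h75_ord_neg h hy] at hlt
    exact lt_irrefl _ hlt
  refine ⟨hne, le_antisymm ?_ ?_⟩
  · -- x = (x + y) + (-y)
    have h1 := h.2 (x + y) (-y) hne (neg_ne_zero.mpr hy) (by simpa using hx)
    rw [add_neg_cancel_right, h75_ord_neg h hy] at h1
    rcases min_le_iff.mp h1 with h2 | h2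
    · exact h2
    · exact absurd h2 (not_le.mpr hlt)
  · have h1 := h.2 x y hx hy hne
    rwa [min_eq_left hlt.le] at h1

/-- A finite sum whose nonzero terms have pairwise distinct orders: if some term is nonzero, the
sum is nonzero and its order is the order of one of the nonzero terms. -/
theorem h75_ord_sum_distinct (h : h75_IsOrd ord) {ι : Type*} (S : Finset ι) (f : ι → F)
    (hdist : ∀ i ∈ S, ∀ j ∈ S, i ≠ j → f i ≠ 0 → f j ≠ 0 → ord (f i) ≠ ord (f j))
    (hex : ∃ i ∈ S, f i ≠ 0) :
    (∑ i ∈ S, f i) ≠ 0 ∧ ∃ i ∈ S, f i ≠ 0 ∧ ord (∑ i ∈ S, f i) = ord (f i) := by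
  classical
  induction S using Finset.induction_on with
  | empty => obtain ⟨i, hi, _⟩ := hex; simp at hi
  | insert a S ha ih =>
    rw [Finset.sum_insert ha]
    have hdist' : ∀ i ∈ S, ∀ j ∈ S, i ≠ j → f i ≠ 0 → f j ≠ 0 → ord (f i) ≠ ord (f j) :=
      fun i hi j hj => hdist i (Finset.mem_insert_of_mem hi) j (Finset.mem_insert_of_mem hj)
    by_cases hS : ∃ i ∈ S, f i ≠ 0
    · obtain ⟨hne, i, hi, hfi, hord⟩ := ih hdist' hS
      by_cases hfa : f a = 0
      · rw [hfa, zero_add]
        exact ⟨hne, i, Finset.mem_insert_of_mem hi, hfi, hord⟩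
      · have hai : a ≠ i := fun hh => ha (hh ▸ hi)
        have hd := hdist a (Finset.mem_insert_self a S) i (Finset.mem_insert_of_mem hi) hai hfa hfi
        rw [← hord] at hd
        rcases lt_or_gt_of_ne hd with hlt | hgt
        · obtain ⟨h1, h2⟩ := h75_ord_add_of_lt h hfa hne hlt
          exact ⟨h1, a, Finset.mem_insert_self a S, hfa, h2⟩
        · obtain ⟨h1, h2⟩ := h75_ord_add_of_lt h hne hfa hgt
          rw [add_comm] at h1 h2
          exact ⟨h1, i, Finset.mem_insert_of_mem hi, hfi, h2.trans hord⟩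
    · have hzero : ∑ i ∈ S, f i = 0 :=
        Finset.sum_eq_zero fun i hi => by
          by_contra hfi
          exact hS ⟨i, hi, hfi⟩
      rw [hzero, add_zero]
      obtain ⟨i, hi, hfi⟩ := hex
      rcases Finset.mem_insert.mp hi with rfl | hi'
      · exact ⟨hfi, i, Finset.mem_insert_self i S, hfi, rfl⟩
      · exact absurd ⟨i, hi', hfi⟩ hS

end OrdBasics

section Unramified

variable {F : Type*} [Field F] {L : Type*} [Field L] [Algebra L F] {ord : F → ℤ}

/-- The ring of `ord`-integers of the subfield `L`. -/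
def h75_intSubring (h : h75_IsOrd ord) : Subring L where
  carrier := {a | h75_Ge ord 0 (algebraMap L F a)}
  mul_mem' := fun {a b} ha hb => by
    show h75_Ge ord 0 (algebraMap L F (a * b))
    rw [map_mul]
    simpa using h75_Ge_mul h ha hb
  one_mem' := by
    show h75_Ge ord 0 (algebraMap L F 1)
    rw [map_one]
    exact Or.inr (h75_ord_one h).ge
  add_mem' := fun {a b} ha hb => by
    show h75_Ge ord 0 (algebraMap L F (a + b))
    rw [map_add]
    exact h75_Ge_add h ha hb
  zero_mem' := by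
    show h75_Ge ord 0 (algebraMap L F 0)
    rw [map_zero]
    exact Or.inl rfl
  neg_mem' := fun {a} ha => by
    show h75_Ge ord 0 (algebraMap L F (-a))
    rw [map_neg]
    exact h75_Ge_neg h ha

theorem h75_mem_intSubring (h : h75_IsOrd ord) (a : L) :
    a ∈ h75_intSubring (L := L) h ↔ h75_Ge ord 0 (algebraMap L F a) := Iff.rfl

/-- Core of the unramified step, for an arbitrary subring `A` of `L` that is the ring of
`ord`-integers: if `y` is a root of a polynomial `G` with coefficients in `A` whose derivative at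
`y` is an `ord`-unit, then every nonzero value at `y` of a polynomial with coefficients in `A` has
order in `e₁ ℤ` (the value group of `L`). -/
theorem h75_core_aux (h : h75_IsOrd ord) (A : Subring L)
    (hAmem : ∀ a : L, a ∈ A ↔ h75_Ge ord 0 (algebraMap L F a))
    {e₁ : ℤ} (he₁ : 0 < e₁) (t : L) (ht : t ≠ 0)
    (hte : ord (algebraMap L F t) = e₁)
    (hL : ∀ a : L, a ≠ 0 → e₁ ∣ ord (algebraMap L F a))
    (y : F) (hy : h75_Ge ord 0 y)
    (G : A[X])
    (hG : G.eval₂ ((algebraMap L F).comp A.subtype) y = 0)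
    (hG' : (derivative G).eval₂ ((algebraMap L F).comp A.subtype) y ≠ 0)
    (hG'0 : ord ((derivative G).eval₂ ((algebraMap L F).comp A.subtype) y) = 0) :
    ∀ P : A[X], P.eval₂ ((algebraMap L F).comp A.subtype) y ≠ 0 →
      e₁ ∣ ord (P.eval₂ ((algebraMap L F).comp A.subtype) y) := by
  classical
  set ψ : A →+* F := (algebraMap L F).comp A.subtype with hψ
  have hψinj : Function.Injective ψ :=
    (algebraMap L F).injective.comp Subtype.val_injective
  have hψint : ∀ a : A, h75_Ge ord 0 (ψ a) := fun a => (hAmem a).mp a.2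
  have hψ0 : ∀ a : A, a ≠ 0 → ψ a ≠ 0 := fun a ha => by
    rw [← map_zero ψ]
    exact fun hh => ha (hψinj hh)
  -- the uniformizer as an element of `A`
  have htF : algebraMap L F t ≠ 0 :=
    fun hh => ht ((algebraMap L F).injective (by rw [hh, map_zero]))
  have htA : t ∈ A := (hAmem t).mpr (Or.inr (by rw [hte]; exact he₁.le))
  set tA : A := ⟨t, htA⟩ with htAdef
  have hψt : ψ tA = algebraMap L F t := rfl
  have hψt0 : ψ tA ≠ 0 := htF
  set I : Ideal A := Ideal.span {tA} with hI
  -- elements outside `I` are units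
  have hunit : ∀ a : A, a ∉ I → IsUnit a := by
    intro a haI
    have ha0 : a ≠ 0 := fun hh => haI (hh ▸ I.zero_mem)
    have haL : (a : L) ≠ 0 := fun hh => ha0 (Subtype.ext hh)
    have haF : algebraMap L F (a : L) ≠ 0 := hψ0 a ha0
    have hge : 0 ≤ ord (algebraMap L F (a : L)) := (hψint a).resolve_left haF
    obtain ⟨c, hc⟩ := hL (a : L) haL
    have hlt : ord (algebraMap L F (a : L)) < e₁ := by
      by_contra hnot
      push Not at hnot
      apply haI
      have hmem : (a : L) * t⁻¹ ∈ A := by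
        rw [hAmem]
        right
        rw [map_mul, map_inv₀, h.1 _ _ haF (inv_ne_zero htF), h75_ord_inv h htF, hte]
        omega
      rw [hI, Ideal.mem_span_singleton']
      refine ⟨⟨(a : L) * t⁻¹, hmem⟩, Subtype.ext ?_⟩
      show (a : L) * t⁻¹ * t = a
      rw [mul_assoc, inv_mul_cancel₀ ht, mul_one]
    have hzero : ord (algebraMap L F (a : L)) = 0 := by
      rw [hc] at hge hlt ⊢
      have hc0 : c = 0 := by
        by_contra hc0
        rcases lt_or_gt_of_ne hc0 with hneg | hpos
        · have : e₁ * c < 0 := mul_neg_of_pos_of_neg he₁ hneg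
          omega
        · have : e₁ * 1 ≤ e₁ * c := mul_le_mul_of_nonneg_left (by omega) he₁.le
          omega
      rw [hc0, mul_zero]
    have hinv : (a : L)⁻¹ ∈ A := by
      rw [hAmem]
      right
      rw [map_inv₀, h75_ord_inv h haF, hzero]
      exact le_of_eq neg_zero.symm
    exact IsUnit.of_mul_eq_one (⟨(a : L)⁻¹, hinv⟩ : A) (Subtype.ext (mul_inv_cancel₀ haL))
  have hIne : I ≠ ⊤ := by
    intro htop
    have h1 : (1 : A) ∈ I := htop ▸ Submodule.mem_top
    rw [hI, Ideal.mem_span_singleton'] at h1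
    obtain ⟨b, hb⟩ := h1
    have hb0 : b ≠ 0 := by
      rintro rfl
      rw [zero_mul] at hb
      exact zero_ne_one hb
    have hbF := hψ0 b hb0
    have hge : 0 ≤ ord (ψ b) := (hψint b).resolve_left hbF
    have h2 : ψ b * ψ tA = 1 := by rw [← map_mul, hb, map_one]
    have h3 := h.1 _ _ hbF hψt0
    rw [h2, h75_ord_one h, hψt, hte] at h3
    omega
  have hImax : I.IsMaximal := by
    rw [Ideal.isMaximal_def]
    refine ⟨hIne, fun J hJ => ?_⟩
    obtain ⟨a, haJ, haI⟩ := SetLike.exists_of_lt hJ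
    exact Ideal.eq_top_of_isUnit_mem J haJ (hunit a haI)
  let _ : Field (A ⧸ I) := Ideal.Quotient.field I
  set red : A[X] →+* (A ⧸ I)[X] := Polynomial.mapRingHom (Ideal.Quotient.mk I) with hred
  have hsurj : ∀ Q : (A ⧸ I)[X], ∃ P : A[X], red P = Q := fun Q =>
    Polynomial.map_surjective _ Ideal.Quotient.mk_surjective Q
  have hker : ∀ P : A[X], red P = 0 → ∃ R : A[X], P = C tA * R := by
    intro P hP
    have h1 : P ∈ RingHom.ker (Polynomial.mapRingHom (Ideal.Quotient.mk I)) := hP
    rw [Polynomial.ker_mapRingHom, Ideal.mk_ker, hI, Ideal.map_span, Set.image_singleton,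
      Ideal.mem_span_singleton'] at h1
    obtain ⟨R, hR⟩ := h1
    exact ⟨R, by rw [← hR, mul_comm]⟩
  set ev : A[X] →+* F := Polynomial.eval₂RingHom ψ y with hev
  have hevdef : ∀ P : A[X], P.eval₂ ψ y = ev P := fun P => rfl
  have hevC : ∀ a : A, ev (C a) = ψ a := fun a => by
    rw [← hevdef, Polynomial.eval₂_C]
  have hint : ∀ P : A[X], h75_Ge ord 0 (ev P) := by
    intro P
    rw [← hevdef, Polynomial.eval₂_eq_sum_range]
    refine h75_Ge_sum h _ _ fun i _ => ?_
    simpa using h75_Ge_mul h (hψint (P.coeff i)) (h75_Ge_pow h hy i)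
  have htmul : ∀ R : A[X], h75_Ge ord 1 (ev (C tA * R)) := by
    intro R
    rw [map_mul, hevC]
    have h1 : h75_Ge ord e₁ (ψ tA) := Or.inr (by rw [hψt, hte])
    have h2 := h75_Ge_mul h h1 (hint R)
    exact h75_Ge_mono (by omega) h2
  rw [hevdef] at hG hG' hG'0
  -- main induction
  have key : ∀ k : ℕ, ∀ P : A[X], ev P ≠ 0 → ord (ev P) ≤ (k : ℤ) → e₁ ∣ ord (ev P) := by
    intro k
    induction k with
    | zero =>
      intro P hP hle
      have hge : 0 ≤ ord (ev P) := (hint P).resolve_left hP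
      have : ord (ev P) = 0 := le_antisymm (by simpa using hle) hge
      rw [this]
      exact dvd_zero _
    | succ k ih =>
      intro P hP hle
      have hge : 0 ≤ ord (ev P) := (hint P).resolve_left hP
      by_cases hzero : ord (ev P) = 0
      · rw [hzero]; exact dvd_zero _
      have hpos : 1 ≤ ord (ev P) := by omega
      obtain ⟨P₁b, hP₁b⟩ := EuclideanDomain.gcd_dvd_left (red P) (red G)
      obtain ⟨H₂b, hH₂b⟩ := EuclideanDomain.gcd_dvd_right (red P) (red G)
      have hbez := EuclideanDomain.gcd_eq_gcd_ab (red P) (red G)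
      obtain ⟨D, hD⟩ := hsurj (EuclideanDomain.gcd (red P) (red G))
      obtain ⟨P₁, hP₁⟩ := hsurj P₁b
      obtain ⟨H₂, hH₂⟩ := hsurj H₂b
      obtain ⟨A₀, hA₀⟩ := hsurj (EuclideanDomain.gcdA (red P) (red G))
      obtain ⟨B₀, hB₀⟩ := hsurj (EuclideanDomain.gcdB (red P) (red G))
      -- (1) `ev D` has positive order
      obtain ⟨R₁, hR₁⟩ := hker (D - (P * A₀ + G * B₀)) (by
        rw [map_sub, map_add, map_mul, map_mul, hD, hA₀, hB₀, ← hbez, sub_self])
      have hDpos : h75_Ge ord 1 (ev D) := by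
        have hDeq : D = P * A₀ + G * B₀ + C tA * R₁ := by rw [← hR₁]; ring
        rw [hDeq, map_add, map_add, map_mul, map_mul, hG, zero_mul, add_zero]
        refine h75_Ge_add h ?_ (htmul R₁)
        simpa using h75_Ge_mul h (Or.inr hpos : h75_Ge ord 1 (ev P)) (hint A₀)
      -- (2) `ev H₂` is a unit
      obtain ⟨R₂, hR₂⟩ := hker (G - D * H₂) (by
        rw [map_sub, map_mul, hD, hH₂, ← hH₂b, sub_self])
      have hGeq : G = D * H₂ + C tA * R₂ := by rw [← hR₂]; ring
      have hG'eq : ev (derivative G) =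
          ev (derivative D) * ev H₂ + (ev D * ev (derivative H₂) + ev (C tA * derivative R₂)) := by
        conv_lhs => rw [hGeq]
        rw [derivative_add, derivative_mul, derivative_C_mul]
        simp only [map_add, map_mul]
        ring
      have hrest : h75_Ge ord 1 (ev D * ev (derivative H₂) + ev (C tA * derivative R₂)) := by
        refine h75_Ge_add h ?_ (htmul _)
        simpa using h75_Ge_mul h hDpos (hint (derivative H₂))
      have hDH : ev (derivative D) * ev H₂ ≠ 0 ∧ ord (ev (derivative D) * ev H₂) = 0 := by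
        have hint2 : h75_Ge ord 0 (ev (derivative D) * ev H₂) := by
          simpa using h75_Ge_mul h (hint (derivative D)) (hint H₂)
        by_contra hcon
        have h1 : h75_Ge ord 1 (ev (derivative D) * ev H₂) := by
          by_cases h0 : ev (derivative D) * ev H₂ = 0
          · exact Or.inl h0
          · right
            have hge0 := hint2.resolve_left h0
            by_contra hlt
            exact hcon ⟨h0, by omega⟩
        have h2 := h75_Ge_add h h1 hrest
        rw [← hG'eq] at h2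
        rcases h2 with h2 | h2
        · exact hG' h2
        · omega
      have hH₂ne : ev H₂ ≠ 0 := right_ne_zero_of_mul hDH.1
      have hD'ne : ev (derivative D) ≠ 0 := left_ne_zero_of_mul hDH.1
      have hH₂0 : ord (ev H₂) = 0 := by
        have h1 := h.1 _ _ hD'ne hH₂ne
        rw [hDH.2] at h1
        have h2 := (hint (derivative D)).resolve_left hD'ne
        have h3 := (hint H₂).resolve_left hH₂ne
        omega
      -- (3) divide by `t`
      obtain ⟨R₃, hR₃⟩ := hker (P * H₂ - P₁ * G) (by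
        rw [map_sub, map_mul, map_mul, hH₂, hP₁]
        conv_lhs => rw [hP₁b]
        conv_lhs => enter [2, 2]; rw [hH₂b]
        ring)
      have hPH : ev P * ev H₂ = ψ tA * ev R₃ := by
        have hPeq : P * H₂ = P₁ * G + C tA * R₃ := by rw [← hR₃]; ring
        have := congrArg ev hPeq
        rwa [map_mul, map_add, map_mul, hG, mul_zero, zero_add, map_mul, hevC] at this
      have hR₃ne : ev R₃ ≠ 0 := by
        intro h0
        rw [h0, mul_zero] at hPH
        exact mul_ne_zero hP hH₂ne hPH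
      have hordeq : ord (ev P) = e₁ + ord (ev R₃) := by
        have h1 := h.1 _ _ hP hH₂ne
        have h2 := h.1 _ _ hψt0 hR₃ne
        rw [hPH, h2, hψt, hte, hH₂0] at h1
        omega
      have hR₃ge : 0 ≤ ord (ev R₃) := (hint R₃).resolve_left hR₃ne
      have hdvd := ih R₃ hR₃ne (by push_cast at hle; omega)
      rw [hordeq]
      exact dvd_add (dvd_refl _) hdvd
  intro P hP
  rw [hevdef] at hP ⊢
  exact key (ord (ev P)).toNat P hP (Int.self_le_toNat _)

/-- From polynomials with integral coefficients to all polynomials over `L` (clear denominators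
with a power of the uniformizer `t`). -/
theorem h75_ord_aeval_dvd (h : h75_IsOrd ord) {e₁ : ℤ} (he₁ : 0 < e₁) (t : L) (ht : t ≠ 0)
    (hte : ord (algebraMap L F t) = e₁) (y : F)
    (hcore : ∀ P : (h75_intSubring (L := L) h)[X],
      P.eval₂ ((algebraMap L F).comp (h75_intSubring (L := L) h).subtype) y ≠ 0 →
      e₁ ∣ ord (P.eval₂ ((algebraMap L F).comp (h75_intSubring (L := L) h).subtype) y)) :
    ∀ Q : L[X], aeval y Q ≠ 0 → e₁ ∣ ord (aeval y Q) := by
  classical
  intro Q hQ
  have htF : algebraMap L F t ≠ 0 :=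
    fun hh => ht ((algebraMap L F).injective (by rw [hh, map_zero]))
  set k : ℕ := Q.support.sup (fun i => (-ord (algebraMap L F (Q.coeff i))).toNat) with hk
  have hsub : (↑(C (t ^ k) * Q).coeffs : Set L) ⊆ h75_intSubring (L := L) h := by
    intro c hc
    rw [Finset.mem_coe, Polynomial.mem_coeffs_iff] at hc
    obtain ⟨i, hi, rfl⟩ := hc
    rw [Polynomial.mem_support_iff, Polynomial.coeff_C_mul] at hi
    rw [Polynomial.coeff_C_mul]
    have hci : Q.coeff i ≠ 0 := right_ne_zero_of_mul hi
    have hciF : algebraMap L F (Q.coeff i) ≠ 0 :=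
      fun hh => hci ((algebraMap L F).injective (by rw [hh, map_zero]))
    show h75_Ge ord 0 (algebraMap L F (t ^ k * Q.coeff i))
    right
    rw [map_mul, map_pow, h.1 _ _ (pow_ne_zero k htF) hciF, h75_ord_pow h htF, hte]
    have h1 : (-ord (algebraMap L F (Q.coeff i))).toNat ≤ k :=
      Finset.le_sup (f := fun i => (-ord (algebraMap L F (Q.coeff i))).toNat)
        (Polynomial.mem_support_iff.mpr hci)
    have h2 : -ord (algebraMap L F (Q.coeff i)) ≤ (k : ℤ) := by
      have := Int.self_le_toNat (-ord (algebraMap L F (Q.coeff i)))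
      omega
    have h3 : (k : ℤ) * 1 ≤ (k : ℤ) * e₁ :=
      mul_le_mul_of_nonneg_left (by omega) (by positivity)
    omega
  have hev : ((C (t ^ k) * Q).toSubring (h75_intSubring (L := L) h) hsub).eval₂
      ((algebraMap L F).comp (h75_intSubring (L := L) h).subtype) y =
      algebraMap L F t ^ k * aeval y Q := by
    rw [← Polynomial.eval₂_map, Polynomial.map_toSubring, Polynomial.eval₂_mul,
      Polynomial.eval₂_C, map_pow, Polynomial.aeval_def]
  have hne : algebraMap L F t ^ k * aeval y Q ≠ 0 := mul_ne_zero (pow_ne_zero k htF) hQ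
  have hd := hcore _ (by rw [hev]; exact hne)
  rw [hev, h.1 _ _ (pow_ne_zero k htF) hQ, h75_ord_pow h htF, hte] at hd
  exact (dvd_add_right (Dvd.intro_left _ rfl)).mp hd

/-- **Kummer unramified step.** Let `ord` be a `ℤ`-valued valuation on `F`, whose restriction to
the subfield `L` has value group `e₁ ℤ` (generated by `ord t`).  If `y ^ n = u` with `u ∈ L` an
`ord`-unit and `n` an `ord`-unit (tameness), then the value group of `ord` on `L(y)` is still
`e₁ ℤ`: the extension `L(y)/L` is unramified at `ord`. -/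
theorem h75_ord_dvd_of_unit_root (h : h75_IsOrd ord) {e₁ : ℤ} (he₁ : 0 < e₁) (t : L) (ht : t ≠ 0)
    (hte : ord (algebraMap L F t) = e₁)
    (hL : ∀ a : L, a ≠ 0 → e₁ ∣ ord (algebraMap L F a))
    (n : ℕ) (hn : (n : F) ≠ 0) (hn0 : ord (n : F) = 0)
    (u : L) (hu : u ≠ 0) (hu0 : ord (algebraMap L F u) = 0)
    (y : F) (hy : y ^ n = algebraMap L F u) :
    ∀ x ∈ IntermediateField.adjoin L {y}, x ≠ 0 → e₁ ∣ ord x := by
  classical
  have hn' : n ≠ 0 := by
    rintro rfl
    exact hn Nat.cast_zero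
  have huF : algebraMap L F u ≠ 0 :=
    fun hh => hu ((algebraMap L F).injective (by rw [hh, map_zero]))
  have hy0 : y ≠ 0 := by
    rintro rfl
    rw [zero_pow hn'] at hy
    exact huF hy.symm
  have hordy : ord y = 0 := by
    have h1 := h75_ord_pow h hy0 n
    rw [hy, hu0] at h1
    have h2 : (n : ℤ) ≠ 0 := by exact_mod_cast hn'
    rcases mul_eq_zero.mp h1.symm with h3 | h3
    · exact absurd h3 h2
    · exact h3
  set A := h75_intSubring (L := L) h with hA
  have huA : u ∈ A := Or.inr hu0.ge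
  set ψ : A →+* F := (algebraMap L F).comp A.subtype with hψ
  have hψn : ψ (n : A) = (n : F) := map_natCast ψ n
  have hcore := h75_core_aux h A (fun a => Iff.rfl) he₁ t ht hte hL y (Or.inr hordy.ge)
    (X ^ n - C (⟨u, huA⟩ : A))
    (by
      rw [Polynomial.eval₂_sub, Polynomial.eval₂_pow, Polynomial.eval₂_X, Polynomial.eval₂_C, hy]
      exact sub_self _)
    (by
      rw [derivative_sub, derivative_X_pow, derivative_C, sub_zero, Polynomial.eval₂_mul,
        Polynomial.eval₂_C, Polynomial.eval₂_pow, Polynomial.eval₂_X, hψn]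
      exact mul_ne_zero hn (pow_ne_zero _ hy0))
    (by
      rw [derivative_sub, derivative_X_pow, derivative_C, sub_zero, Polynomial.eval₂_mul,
        Polynomial.eval₂_C, Polynomial.eval₂_pow, Polynomial.eval₂_X, hψn,
        h.1 _ _ hn (pow_ne_zero _ hy0), h75_ord_pow h hy0, hn0, hordy]
      simp)
  have hQ := h75_ord_aeval_dvd h he₁ t ht hte y hcore
  have halg : IsAlgebraic L y := by
    refine ⟨X ^ n - C u, (monic_X_pow_sub_C u hn').ne_zero, ?_⟩
    rw [map_sub, map_pow, aeval_X, aeval_C, hy, sub_self]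
  intro x hx hx0
  have hx' : x ∈ (IntermediateField.adjoin L {y}).toSubalgebra := hx
  rw [IntermediateField.adjoin_simple_toSubalgebra_of_isAlgebraic halg,
    Algebra.adjoin_singleton_eq_range_aeval] at hx'
  obtain ⟨Q, rfl⟩ := hx'
  exact hQ Q hx0

/-- Elements of `L[s]` are combinations of `1, s, …, s^(d-1)` with coefficients in any
intermediate field containing `s ^ d`. -/
theorem h75_aeval_eq_sum_range (M : IntermediateField L F) (s : F) (d : ℕ) (hd : 0 < d)
    (hsd : s ^ d ∈ M) (Q : L[X]) :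
    ∃ m : ℕ → F, (∀ r, m r ∈ M) ∧ aeval s Q = ∑ r ∈ Finset.range d, m r * s ^ r := by
  classical
  refine ⟨fun r => ∑ i ∈ (Finset.range (Q.natDegree + 1)).filter (fun i => i % d = r),
    algebraMap L F (Q.coeff i) * (s ^ d) ^ (i / d), fun r => ?_, ?_⟩
  · exact M.sum_mem fun i _ => M.mul_mem (M.algebraMap_mem _) (pow_mem hsd _)
  · rw [Polynomial.aeval_eq_sum_range]
    rw [← Finset.sum_fiberwise_of_maps_to (s := Finset.range (Q.natDegree + 1))
      (t := Finset.range d) (g := fun i => i % d)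
      (fun i _ => Finset.mem_range.mpr (Nat.mod_lt i hd))]
    refine Finset.sum_congr rfl fun r _ => ?_
    rw [Finset.sum_mul]
    refine Finset.sum_congr rfl fun i hi => ?_
    have hir : i % d = r := (Finset.mem_filter.mp hi).2
    rw [Algebra.smul_def, mul_assoc, ← pow_mul, ← pow_add, ← hir, Nat.div_add_mod]

/-- **Tame Abhyankar lemma, valuation form.** Let `ord` be a `ℤ`-valued valuation on `F` whose
restriction to the subfield `L` has value group `e₁ ℤ` (generated by `ord t`).  Let `h ∈ L` have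
`ord h = eP * e₁` (i.e. `h` has order `eP` at the place of `L` below `ord`), where `eP` is an
`ord`-unit (tameness), and let `s ∈ F` satisfy `s ^ (eP * d) = h`.  Then `ord s * d = e₁` and
every value of `ord` on `L(s)` is a multiple of `ord s`: `s` is a uniformizer of `L(s)` at `ord`.
-/
theorem h75_ord_dvd_of_root_uniformizer (h : h75_IsOrd ord) {e₁ : ℤ} (he₁ : 0 < e₁) (t : L)
    (ht : t ≠ 0) (hte : ord (algebraMap L F t) = e₁)
    (hL : ∀ a : L, a ≠ 0 → e₁ ∣ ord (algebraMap L F a))
    (eP d : ℕ) (heP : (eP : F) ≠ 0) (heP0 : ord (eP : F) = 0) (hd : 0 < d)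
    (hh : L) (hh0 : hh ≠ 0) (hhord : ord (algebraMap L F hh) = eP * e₁)
    (s : F) (hs : s ^ (eP * d) = algebraMap L F hh) :
    ord s * d = e₁ ∧ ∀ x ∈ IntermediateField.adjoin L {s}, x ≠ 0 → ord s ∣ ord x := by
  classical
  have heP' : eP ≠ 0 := by
    rintro rfl
    exact heP Nat.cast_zero
  have hhF : algebraMap L F hh ≠ 0 :=
    fun hc => hh0 ((algebraMap L F).injective (by rw [hc, map_zero]))
  have htF : algebraMap L F t ≠ 0 :=
    fun hc => ht ((algebraMap L F).injective (by rw [hc, map_zero]))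
  have hs0 : s ≠ 0 := by
    rintro rfl
    rw [zero_pow (Nat.mul_ne_zero heP' hd.ne')] at hs
    exact hhF hs.symm
  -- `ord s * d = e₁`
  have hsd : ord s * d = e₁ := by
    have h1 := h75_ord_pow h hs0 (eP * d)
    rw [hs, hhord] at h1
    push_cast at h1
    have h2 : (eP : ℤ) ≠ 0 := by exact_mod_cast heP'
    have h3 : (eP : ℤ) * e₁ = (eP : ℤ) * (ord s * d) := by rw [h1]; ring
    exact (mul_left_cancel₀ h2 h3).symm
  have hspos : 0 < ord s := by
    by_contra hneg
    push Not at hneg
    have : ord s * (d : ℤ) ≤ 0 := mul_nonpos_of_nonpos_of_nonneg hneg (by positivity)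
    omega
  refine ⟨hsd, ?_⟩
  -- the unit `u = h / t ^ eP` and its `eP`-th root `y = s ^ d / t`
  set u : L := hh * (t ^ eP)⁻¹ with hu
  have hu0 : u ≠ 0 := mul_ne_zero hh0 (inv_ne_zero (pow_ne_zero _ ht))
  have huord : ord (algebraMap L F u) = 0 := by
    rw [hu, map_mul, map_inv₀, map_pow, h.1 _ _ hhF (inv_ne_zero (pow_ne_zero _ htF)),
      h75_ord_inv h (pow_ne_zero _ htF), h75_ord_pow h htF, hhord, hte]
    ring
  set y : F := s ^ d * (algebraMap L F t)⁻¹ with hy
  have hyu : y ^ eP = algebraMap L F u := by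
    rw [hy, mul_pow, ← pow_mul, mul_comm d eP, hs, hu, map_mul, map_inv₀, map_pow, inv_pow]
  have hM := h75_ord_dvd_of_unit_root h he₁ t ht hte hL eP heP heP0 u hu0 huord y hyu
  set M : IntermediateField L F := IntermediateField.adjoin L {y} with hMdef
  have hyM : y ∈ M := IntermediateField.mem_adjoin_simple_self L y
  have hsdM : s ^ d ∈ M := by
    have h1 : s ^ d = y * algebraMap L F t := by
      rw [hy, mul_assoc, inv_mul_cancel₀ htF, mul_one]
    rw [h1]
    exact M.mul_mem hyM (M.algebraMap_mem t)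
  have halg : IsAlgebraic L s := by
    refine ⟨X ^ (eP * d) - C hh, (monic_X_pow_sub_C hh (Nat.mul_ne_zero heP' hd.ne')).ne_zero, ?_⟩
    rw [map_sub, map_pow, aeval_X, aeval_C, hs, sub_self]
  intro x hx hx0
  have hx' : x ∈ (IntermediateField.adjoin L {s}).toSubalgebra := hx
  rw [IntermediateField.adjoin_simple_toSubalgebra_of_isAlgebraic halg,
    Algebra.adjoin_singleton_eq_range_aeval] at hx'
  obtain ⟨Q, hQ⟩ := hx'
  have hxQ : x = aeval s Q := hQ.symm
  obtain ⟨m, hmM, hsum⟩ := h75_aeval_eq_sum_range M s d hd hsdM Q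
  rw [hxQ, hsum] at hx0 ⊢
  -- orders of the nonzero terms
  have hterm : ∀ r : ℕ, m r * s ^ r ≠ 0 →
      ∃ k : ℤ, ord (m r * s ^ r) = ord s * (d * k + r) := by
    intro r hr
    have hm0 : m r ≠ 0 := left_ne_zero_of_mul hr
    obtain ⟨k, hk⟩ := hM (m r) (hmM r) hm0
    refine ⟨k, ?_⟩
    rw [h.1 _ _ hm0 (pow_ne_zero r hs0), h75_ord_pow h hs0, hk, ← hsd]
    ring
  have hdist : ∀ i ∈ Finset.range d, ∀ j ∈ Finset.range d, i ≠ j → m i * s ^ i ≠ 0 →
      m j * s ^ j ≠ 0 → ord (m i * s ^ i) ≠ ord (m j * s ^ j) := by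
    intro i hi j hj hij hfi hfj heq
    obtain ⟨k, hk⟩ := hterm i hfi
    obtain ⟨k', hk'⟩ := hterm j hfj
    rw [hk, hk'] at heq
    have h1 : (d : ℤ) * k + i = d * k' + j := mul_left_cancel₀ hspos.ne' heq
    have hi' : (i : ℤ) < d := by exact_mod_cast Finset.mem_range.mp hi
    have hj' : (j : ℤ) < d := by exact_mod_cast Finset.mem_range.mp hj
    have h2 : (i : ℤ) - j = d * (k' - k) := by linarith
    have h3 : k' - k = 0 := by
      by_contra hne
      rcases lt_or_gt_of_ne hne with hlt | hgt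
      · have : (d : ℤ) * (k' - k) ≤ d * (-1) :=
          mul_le_mul_of_nonneg_left (by omega) (by positivity)
        omega
      · have : (d : ℤ) * 1 ≤ d * (k' - k) :=
          mul_le_mul_of_nonneg_left (by omega) (by positivity)
        omega
    rw [h3, mul_zero] at h2
    exact hij (by omega)
  have hex : ∃ i ∈ Finset.range d, m i * s ^ i ≠ 0 := by
    by_contra hcon
    push Not at hcon
    exact hx0 (Finset.sum_eq_zero hcon)
  obtain ⟨-, i, -, hfi, hord⟩ := h75_ord_sum_distinct h (Finset.range d)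
    (fun r => m r * s ^ r) hdist hex
  obtain ⟨k, hk⟩ := hterm i hfi
  rw [hord, hk]
  exact Dvd.intro _ rfl

/-- Normalised form: if `ord` takes the value `1` on `L(s)`, then `ord s = 1`. -/
theorem h75_ord_root_eq_one (h : h75_IsOrd ord) {e₁ : ℤ} (he₁ : 0 < e₁) (t : L)
    (ht : t ≠ 0) (hte : ord (algebraMap L F t) = e₁)
    (hL : ∀ a : L, a ≠ 0 → e₁ ∣ ord (algebraMap L F a))
    (eP d : ℕ) (heP : (eP : F) ≠ 0) (heP0 : ord (eP : F) = 0) (hd : 0 < d)
    (hh : L) (hh0 : hh ≠ 0) (hhord : ord (algebraMap L F hh) = eP * e₁)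
    (s : F) (hs : s ^ (eP * d) = algebraMap L F hh)
    (hnorm : ∃ g ∈ IntermediateField.adjoin L {s}, g ≠ 0 ∧ ord g = 1) :
    ord s = 1 ∧ (d : ℤ) = e₁ := by
  obtain ⟨hsd, hdvd⟩ :=
    h75_ord_dvd_of_root_uniformizer h he₁ t ht hte hL eP d heP heP0 hd hh hh0 hhord s hs
  obtain ⟨g, hg, hg0, hg1⟩ := hnorm
  have h1 := hdvd g hg hg0
  rw [hg1] at h1
  have hspos : 0 < ord s := by
    by_contra hneg
    push Not at hneg
    have : ord s * (d : ℤ) ≤ 0 := mul_nonpos_of_nonpos_of_nonneg hneg (by positivity)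
    omega
  have h2 : ord s = 1 := Int.eq_one_of_dvd_one hspos.le h1
  exact ⟨h2, by rw [← hsd, h2, one_mul]⟩

end Unramified

section Instances

variable {F : Type*} [Field F]

/-- Any `ℤᵐ⁰`-valued valuation gives an order function (`ord = - log v`). -/
theorem h75_isOrd_of_valuation (v : Valuation F (WithZero (Multiplicative ℤ))) :
    h75_IsOrd (fun x : F => -WithZero.log (v x)) := by
  refine ⟨fun x y hx hy => ?_, fun x y hx hy hxy => ?_⟩
  · have hvx : v x ≠ 0 := (Valuation.ne_zero_iff v).mpr hx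
    have hvy : v y ≠ 0 := (Valuation.ne_zero_iff v).mpr hy
    show -WithZero.log (v (x * y)) = -WithZero.log (v x) + -WithZero.log (v y)
    rw [map_mul, WithZero.log_mul hvx hvy]
    ring
  · have hvx : v x ≠ 0 := (Valuation.ne_zero_iff v).mpr hx
    have hvy : v y ≠ 0 := (Valuation.ne_zero_iff v).mpr hy
    have hvxy : v (x + y) ≠ 0 := (Valuation.ne_zero_iff v).mpr hxy
    show min (-WithZero.log (v x)) (-WithZero.log (v y)) ≤ -WithZero.log (v (x + y))
    rcases le_max_iff.mp (Valuation.map_add v x y) with h1 | h1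
    · have := (WithZero.log_le_log hvxy hvx).mpr h1
      exact (min_le_left _ _).trans (neg_le_neg this)
    · have := (WithZero.log_le_log hvxy hvy).mpr h1
      exact (min_le_right _ _).trans (neg_le_neg this)

end Instances

end Fermat.Agent.S18
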