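import Fermat.Agent.S18.TameSection27
import Fermat.Agent.S18.HorizInst94

/-!
# S18, row B5 (A): the tameness hypotheses of the chart theorem, literal shapes (helper27)

`htame₀`, `htame₁` of `ca39_isDedekindDomain_fibre` (helper39) for a chart
`[Algebra R[X] F]`, `X ↦ x`, of a `K₀`-model `F` of `F(M)_ℚbar`, in the conventions of
`g94_hcodim2`, `g94_hcodim3` (helper94): `hC`, `ι`, `hι`, `hx : ι (algebraMap R[X] F X) = hb`
(chart `x = h`) resp. `= hb⁻¹` (chart `x = h⁻¹`).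

* level 2 (`j h² = (h + 256)³`): `ts27_htame2_X`, `ts27_htame2_c` (`c = -64`, index `2`),
  `ts27_htame2_inv_X`, `ts27_htame2_inv_c` (`c * 64 = -1`, index `2`);
* level 3 (`j h³ = (h + 27)(h + 243)³`): `ts27_htame3_X`, `ts27_htame3_c` (`c = -27`, index `3`),
  `ts27_htame3_inv_X`, `ts27_htame3_inv_c` (`c * 27 = -1`, index `3`).
The index at `X` (the sections `h = 0`, `h = ∞`) is `M`.

Second half (`ts27i_*`): the same on the `K₀`-model `F := ↥(modularFunctionFieldFullC K0 M)` with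
`ι = fd27_iota`, in the literal conventions of `HorizInst94` (helper94): generic Hauptmodul
element `hb` with `hX` on Laurent series (`ts27i_htame2_X`, `_c`, `_inv_X`, `_inv_c`,
`ts27i_htame3_*`), and the concrete Hauptmoduln `h70_h2 K0`, `h70_h2inv K0`
(`ts27i_htame_level2_*`), `h34_h2R K0`, `h34_h2Rinv K0` (`ts27i_htame_level2_*'`),
`h34_h3R K0`, `h34_h3Rinv K0` (`ts27i_htame_level3_*`).
-/

set_option autoImplicit false

open AlgebraicCurve IntermediateField Polynomial ModularCurve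

namespace Fermat.Agent.S18

open Fermat.Agent.S24

section Inst

variable {R : Type*} [CommRing R]
variable {K0 : Type*} [Field K0] [Algebra R K0]
variable {F : Type*} [Field F] [Algebra R[X] F] [Algebra K0 F]
variable [Algebra K0 Kbar] [Algebra.IsAlgebraic K0 Kbar]
variable (M : ℕ) [NeZero M]

omit [Algebra.IsAlgebraic K0 Kbar] [NeZero M] in
/-- The image in `F(M)_ℚbar` of the section `X - C c` of a chart. -/
theorem ts27_iota_section
    (hC : ∀ r : R, algebraMap R[X] F (C r) = algebraMap K0 F (algebraMap R K0 r))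
    (ι : F →+* ↥(modularFunctionFieldBar M))
    (hι : ∀ a : K0, ι (algebraMap K0 F a) =
      algebraMap Kbar ↥(modularFunctionFieldBar M) (algebraMap K0 Kbar a))
    (c : R) :
    ι (algebraMap R[X] F (X - C c)) = ι (algebraMap R[X] F X) -
      algebraMap Kbar ↥(modularFunctionFieldBar M) (algebraMap K0 Kbar (algebraMap R K0 c)) := by
  rw [map_sub, map_sub, hC, hι]

variable (hb : ↥(modularFunctionFieldBar M))
  (hC : ∀ r : R, algebraMap R[X] F (C r) = algebraMap K0 F (algebraMap R K0 r))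
  (ι : F →+* ↥(modularFunctionFieldBar M))
  (hι : ∀ a : K0, ι (algebraMap K0 F a) =
    algebraMap Kbar ↥(modularFunctionFieldBar M) (algebraMap K0 Kbar a))

omit [Algebra R K0] in
include hι in
/-- Level 2, chart `x = h`: `htame₀` (section `X`, index `M`). -/
theorem ts27_htame2_X
    (hrel : (⟨JJ 1, asmAb_JJ_mem M 1 (one_dvd M)⟩ : ↥(modularFunctionFieldBar M)) * hb ^ 2 =
      (hb + 256) ^ 3)
    (hx : ι (algebraMap R[X] F X) = hb) :
    ∀ v : Place K0 F, 0 < v.ord (algebraMap R[X] F X) →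
      v.ord (algebraMap R[X] F X) ∣ ((M : ℕ) : ℤ) :=
  ts27_tame2_zero M ι hι hb hrel _ hx

include hC hι in
/-- Level 2, chart `x = h`: `htame₁` (section `X - C (-64)`, index `2`). -/
theorem ts27_htame2_c
    (hrel : (⟨JJ 1, asmAb_JJ_mem M 1 (one_dvd M)⟩ : ↥(modularFunctionFieldBar M)) * hb ^ 2 =
      (hb + 256) ^ 3)
    (hx : ι (algebraMap R[X] F X) = hb) :
    ∀ v : Place K0 F, 0 < v.ord (algebraMap R[X] F (X - C (-64))) →
      v.ord (algebraMap R[X] F (X - C (-64))) ∣ ((2 : ℕ) : ℤ) := by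
  refine ts27_tame2_ell M ι hι hb hrel _ ?_
  rw [ts27_iota_section M hC ι hι, hx, map_neg, map_neg, map_neg, map_ofNat, map_ofNat,
    map_ofNat, sub_neg_eq_add]

omit [Algebra R K0] in
include hι in
/-- Level 2, chart `x = h⁻¹`: `htame₀` (section `X`, index `M`). -/
theorem ts27_htame2_inv_X
    (hrel : (⟨JJ 1, asmAb_JJ_mem M 1 (one_dvd M)⟩ : ↥(modularFunctionFieldBar M)) * hb ^ 2 =
      (hb + 256) ^ 3)
    (hx : ι (algebraMap R[X] F X) = hb⁻¹) :
    ∀ v : Place K0 F, 0 < v.ord (algebraMap R[X] F X) →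
      v.ord (algebraMap R[X] F X) ∣ ((M : ℕ) : ℤ) :=
  ts27_tame2_inv_zero M ι hι hb hrel _ hx

include hC hι in
/-- Level 2, chart `x = h⁻¹`: `htame₁` (section `X - C c`, `c * 64 = -1`, index `2`). -/
theorem ts27_htame2_inv_c
    (hrel : (⟨JJ 1, asmAb_JJ_mem M 1 (one_dvd M)⟩ : ↥(modularFunctionFieldBar M)) * hb ^ 2 =
      (hb + 256) ^ 3)
    (hx : ι (algebraMap R[X] F X) = hb⁻¹) (c : R) (hc : c * 64 = -1) :
    ∀ v : Place K0 F, 0 < v.ord (algebraMap R[X] F (X - C c)) →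
      v.ord (algebraMap R[X] F (X - C c)) ∣ ((2 : ℕ) : ℤ) := by
  refine ts27_tame2_inv_ell M ι hι hb hrel (algebraMap K0 Kbar (algebraMap R K0 c)) ?_ _ ?_
  · have h1 : algebraMap K0 Kbar (algebraMap R K0 (c * 64)) =
        algebraMap K0 Kbar (algebraMap R K0 (-1)) := by rw [hc]
    rw [map_mul, map_mul, map_ofNat, map_ofNat, map_neg, map_neg, map_one, map_one] at h1
    exact h1
  · rw [ts27_iota_section M hC ι hι, hx]

omit [Algebra R K0] in
include hι in
/-- Level 3, chart `x = h`: `htame₀` (section `X`, index `M`). -/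
theorem ts27_htame3_X
    (hrel : (⟨JJ 1, asmAb_JJ_mem M 1 (one_dvd M)⟩ : ↥(modularFunctionFieldBar M)) * hb ^ 3 =
      (hb + 27) * (hb + 243) ^ 3)
    (hx : ι (algebraMap R[X] F X) = hb) :
    ∀ v : Place K0 F, 0 < v.ord (algebraMap R[X] F X) →
      v.ord (algebraMap R[X] F X) ∣ ((M : ℕ) : ℤ) :=
  ts27_tame3_zero M ι hι hb hrel _ hx

include hC hι in
/-- Level 3, chart `x = h`: `htame₁` (section `X - C (-27)`, index `3`). -/
theorem ts27_htame3_c
    (hrel : (⟨JJ 1, asmAb_JJ_mem M 1 (one_dvd M)⟩ : ↥(modularFunctionFieldBar M)) * hb ^ 3 =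
      (hb + 27) * (hb + 243) ^ 3)
    (hx : ι (algebraMap R[X] F X) = hb) :
    ∀ v : Place K0 F, 0 < v.ord (algebraMap R[X] F (X - C (-27))) →
      v.ord (algebraMap R[X] F (X - C (-27))) ∣ ((3 : ℕ) : ℤ) := by
  refine ts27_tame3_ell M ι hι hb hrel _ ?_
  rw [ts27_iota_section M hC ι hι, hx, map_neg, map_neg, map_neg, map_ofNat, map_ofNat,
    map_ofNat, sub_neg_eq_add]

omit [Algebra R K0] in
include hι in
/-- Level 3, chart `x = h⁻¹`: `htame₀` (section `X`, index `M`). -/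
theorem ts27_htame3_inv_X
    (hrel : (⟨JJ 1, asmAb_JJ_mem M 1 (one_dvd M)⟩ : ↥(modularFunctionFieldBar M)) * hb ^ 3 =
      (hb + 27) * (hb + 243) ^ 3)
    (hx : ι (algebraMap R[X] F X) = hb⁻¹) :
    ∀ v : Place K0 F, 0 < v.ord (algebraMap R[X] F X) →
      v.ord (algebraMap R[X] F X) ∣ ((M : ℕ) : ℤ) :=
  ts27_tame3_inv_zero M ι hι hb hrel _ hx

include hC hι in
/-- Level 3, chart `x = h⁻¹`: `htame₁` (section `X - C c`, `c * 27 = -1`, index `3`). -/
theorem ts27_htame3_inv_c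
    (hrel : (⟨JJ 1, asmAb_JJ_mem M 1 (one_dvd M)⟩ : ↥(modularFunctionFieldBar M)) * hb ^ 3 =
      (hb + 27) * (hb + 243) ^ 3)
    (hx : ι (algebraMap R[X] F X) = hb⁻¹) (c : R) (hc : c * 27 = -1) :
    ∀ v : Place K0 F, 0 < v.ord (algebraMap R[X] F (X - C c)) →
      v.ord (algebraMap R[X] F (X - C c)) ∣ ((3 : ℕ) : ℤ) := by
  refine ts27_tame3_inv_ell M ι hι hb hrel (algebraMap K0 Kbar (algebraMap R K0 c)) ?_ _ ?_
  · have h1 : algebraMap K0 Kbar (algebraMap R K0 (c * 27)) =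
        algebraMap K0 Kbar (algebraMap R K0 (-1)) := by rw [hc]
    rw [map_mul, map_mul, map_ofNat, map_ofNat, map_neg, map_neg, map_one, map_one] at h1
    exact h1
  · rw [ts27_iota_section M hC ι hι, hx]

end Inst

section Modular

variable {R : Type*} [CommRing R]
variable {K0 : Type*} [Field K0] [Algebra R K0]
variable [Algebra K0 Kbar] [Algebra.IsAlgebraic K0 Kbar]
variable (M : ℕ) [NeZero M]
variable [Algebra R[X] ↥(modularFunctionFieldFullC K0 M)]

/-! ### Generic Hauptmodul element `hb`, level 2 -/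

omit [Algebra R K0] in
/-- `htame₀`, level 2, chart `x = h`. -/
theorem ts27i_htame2_X (hb : ↥(modularFunctionFieldBar M))
    (hrel : (⟨JJ 1, asmAb_JJ_mem M 1 (one_dvd M)⟩ : ↥(modularFunctionFieldBar M)) * hb ^ 2 =
      (hb + 256) ^ 3)
    (hX : coeffMap (algebraMap K0 Kbar)
      ((algebraMap R[X] ↥(modularFunctionFieldFullC K0 M) X : ↥(modularFunctionFieldFullC K0 M)) : LaurentSeries K0) = (hb : LaurentSeries Kbar)) :
    ∀ v : Place K0 ↥(modularFunctionFieldFullC K0 M), 0 < v.ord (algebraMap R[X] ↥(modularFunctionFieldFullC K0 M) X) →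
      v.ord (algebraMap R[X] ↥(modularFunctionFieldFullC K0 M) X) ∣ ((M : ℕ) : ℤ) :=
  ts27_htame2_X M hb (fd27_iota (algebraMap K0 Kbar) M)
    (fd27_iota_algebraMap (algebraMap K0 Kbar) M) hrel (hi94_iota_eq M _ hb hX)

/-- `htame₁`, level 2, chart `x = h` (`c = -64`, index `2`). -/
theorem ts27i_htame2_c (hb : ↥(modularFunctionFieldBar M))
    (hrel : (⟨JJ 1, asmAb_JJ_mem M 1 (one_dvd M)⟩ : ↥(modularFunctionFieldBar M)) * hb ^ 2 =
      (hb + 256) ^ 3)
    (hC : ∀ r : R, algebraMap R[X] ↥(modularFunctionFieldFullC K0 M) (C r) = algebraMap K0 ↥(modularFunctionFieldFullC K0 M) (algebraMap R K0 r))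
    (hX : coeffMap (algebraMap K0 Kbar)
      ((algebraMap R[X] ↥(modularFunctionFieldFullC K0 M) X : ↥(modularFunctionFieldFullC K0 M)) : LaurentSeries K0) = (hb : LaurentSeries Kbar)) :
    ∀ v : Place K0 ↥(modularFunctionFieldFullC K0 M), 0 < v.ord (algebraMap R[X] ↥(modularFunctionFieldFullC K0 M) (X - C (-64))) →
      v.ord (algebraMap R[X] ↥(modularFunctionFieldFullC K0 M) (X - C (-64))) ∣ ((2 : ℕ) : ℤ) :=
  ts27_htame2_c M hb hC (fd27_iota (algebraMap K0 Kbar) M)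
    (fd27_iota_algebraMap (algebraMap K0 Kbar) M) hrel (hi94_iota_eq M _ hb hX)

omit [Algebra R K0] in
/-- `htame₀`, level 2, chart `x = h⁻¹`. -/
theorem ts27i_htame2_inv_X (hb : ↥(modularFunctionFieldBar M))
    (hrel : (⟨JJ 1, asmAb_JJ_mem M 1 (one_dvd M)⟩ : ↥(modularFunctionFieldBar M)) * hb ^ 2 =
      (hb + 256) ^ 3)
    (hX : coeffMap (algebraMap K0 Kbar)
      ((algebraMap R[X] ↥(modularFunctionFieldFullC K0 M) X : ↥(modularFunctionFieldFullC K0 M)) : LaurentSeries K0) * (hb : LaurentSeries Kbar) = 1) :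
    ∀ v : Place K0 ↥(modularFunctionFieldFullC K0 M), 0 < v.ord (algebraMap R[X] ↥(modularFunctionFieldFullC K0 M) X) →
      v.ord (algebraMap R[X] ↥(modularFunctionFieldFullC K0 M) X) ∣ ((M : ℕ) : ℤ) :=
  ts27_htame2_inv_X M hb (fd27_iota (algebraMap K0 Kbar) M)
    (fd27_iota_algebraMap (algebraMap K0 Kbar) M) hrel (hi94_iota_eq_inv M _ hb hX)

/-- `htame₁`, level 2, chart `x = h⁻¹` (`c * 64 = -1`, index `2`). -/
theorem ts27i_htame2_inv_c (hb : ↥(modularFunctionFieldBar M))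
    (hrel : (⟨JJ 1, asmAb_JJ_mem M 1 (one_dvd M)⟩ : ↥(modularFunctionFieldBar M)) * hb ^ 2 =
      (hb + 256) ^ 3)
    (hC : ∀ r : R, algebraMap R[X] ↥(modularFunctionFieldFullC K0 M) (C r) = algebraMap K0 ↥(modularFunctionFieldFullC K0 M) (algebraMap R K0 r))
    (hX : coeffMap (algebraMap K0 Kbar)
      ((algebraMap R[X] ↥(modularFunctionFieldFullC K0 M) X : ↥(modularFunctionFieldFullC K0 M)) : LaurentSeries K0) * (hb : LaurentSeries Kbar) = 1)
    (c : R) (hc : c * 64 = -1) :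
    ∀ v : Place K0 ↥(modularFunctionFieldFullC K0 M), 0 < v.ord (algebraMap R[X] ↥(modularFunctionFieldFullC K0 M) (X - C c)) →
      v.ord (algebraMap R[X] ↥(modularFunctionFieldFullC K0 M) (X - C c)) ∣ ((2 : ℕ) : ℤ) :=
  ts27_htame2_inv_c M hb hC (fd27_iota (algebraMap K0 Kbar) M)
    (fd27_iota_algebraMap (algebraMap K0 Kbar) M) hrel (hi94_iota_eq_inv M _ hb hX) c hc

/-! ### Generic Hauptmodul element `hb`, level 3 -/

omit [Algebra R K0] in
/-- `htame₀`, level 3, chart `x = h`. -/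
theorem ts27i_htame3_X (hb : ↥(modularFunctionFieldBar M))
    (hrel : (⟨JJ 1, asmAb_JJ_mem M 1 (one_dvd M)⟩ : ↥(modularFunctionFieldBar M)) * hb ^ 3 =
      (hb + 27) * (hb + 243) ^ 3)
    (hX : coeffMap (algebraMap K0 Kbar)
      ((algebraMap R[X] ↥(modularFunctionFieldFullC K0 M) X : ↥(modularFunctionFieldFullC K0 M)) : LaurentSeries K0) = (hb : LaurentSeries Kbar)) :
    ∀ v : Place K0 ↥(modularFunctionFieldFullC K0 M), 0 < v.ord (algebraMap R[X] ↥(modularFunctionFieldFullC K0 M) X) →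
      v.ord (algebraMap R[X] ↥(modularFunctionFieldFullC K0 M) X) ∣ ((M : ℕ) : ℤ) :=
  ts27_htame3_X M hb (fd27_iota (algebraMap K0 Kbar) M)
    (fd27_iota_algebraMap (algebraMap K0 Kbar) M) hrel (hi94_iota_eq M _ hb hX)

/-- `htame₁`, level 3, chart `x = h` (`c = -27`, index `3`). -/
theorem ts27i_htame3_c (hb : ↥(modularFunctionFieldBar M))
    (hrel : (⟨JJ 1, asmAb_JJ_mem M 1 (one_dvd M)⟩ : ↥(modularFunctionFieldBar M)) * hb ^ 3 =
      (hb + 27) * (hb + 243) ^ 3)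
    (hC : ∀ r : R, algebraMap R[X] ↥(modularFunctionFieldFullC K0 M) (C r) = algebraMap K0 ↥(modularFunctionFieldFullC K0 M) (algebraMap R K0 r))
    (hX : coeffMap (algebraMap K0 Kbar)
      ((algebraMap R[X] ↥(modularFunctionFieldFullC K0 M) X : ↥(modularFunctionFieldFullC K0 M)) : LaurentSeries K0) = (hb : LaurentSeries Kbar)) :
    ∀ v : Place K0 ↥(modularFunctionFieldFullC K0 M), 0 < v.ord (algebraMap R[X] ↥(modularFunctionFieldFullC K0 M) (X - C (-27))) →
      v.ord (algebraMap R[X] ↥(modularFunctionFieldFullC K0 M) (X - C (-27))) ∣ ((3 : ℕ) : ℤ) :=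
  ts27_htame3_c M hb hC (fd27_iota (algebraMap K0 Kbar) M)
    (fd27_iota_algebraMap (algebraMap K0 Kbar) M) hrel (hi94_iota_eq M _ hb hX)

omit [Algebra R K0] in
/-- `htame₀`, level 3, chart `x = h⁻¹`. -/
theorem ts27i_htame3_inv_X (hb : ↥(modularFunctionFieldBar M))
    (hrel : (⟨JJ 1, asmAb_JJ_mem M 1 (one_dvd M)⟩ : ↥(modularFunctionFieldBar M)) * hb ^ 3 =
      (hb + 27) * (hb + 243) ^ 3)
    (hX : coeffMap (algebraMap K0 Kbar)
      ((algebraMap R[X] ↥(modularFunctionFieldFullC K0 M) X : ↥(modularFunctionFieldFullC K0 M)) : LaurentSeries K0) * (hb : LaurentSeries Kbar) = 1) :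
    ∀ v : Place K0 ↥(modularFunctionFieldFullC K0 M), 0 < v.ord (algebraMap R[X] ↥(modularFunctionFieldFullC K0 M) X) →
      v.ord (algebraMap R[X] ↥(modularFunctionFieldFullC K0 M) X) ∣ ((M : ℕ) : ℤ) :=
  ts27_htame3_inv_X M hb (fd27_iota (algebraMap K0 Kbar) M)
    (fd27_iota_algebraMap (algebraMap K0 Kbar) M) hrel (hi94_iota_eq_inv M _ hb hX)

/-- `htame₁`, level 3, chart `x = h⁻¹` (`c * 27 = -1`, index `3`). -/
theorem ts27i_htame3_inv_c (hb : ↥(modularFunctionFieldBar M))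
    (hrel : (⟨JJ 1, asmAb_JJ_mem M 1 (one_dvd M)⟩ : ↥(modularFunctionFieldBar M)) * hb ^ 3 =
      (hb + 27) * (hb + 243) ^ 3)
    (hC : ∀ r : R, algebraMap R[X] ↥(modularFunctionFieldFullC K0 M) (C r) = algebraMap K0 ↥(modularFunctionFieldFullC K0 M) (algebraMap R K0 r))
    (hX : coeffMap (algebraMap K0 Kbar)
      ((algebraMap R[X] ↥(modularFunctionFieldFullC K0 M) X : ↥(modularFunctionFieldFullC K0 M)) : LaurentSeries K0) * (hb : LaurentSeries Kbar) = 1)
    (c : R) (hc : c * 27 = -1) :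
    ∀ v : Place K0 ↥(modularFunctionFieldFullC K0 M), 0 < v.ord (algebraMap R[X] ↥(modularFunctionFieldFullC K0 M) (X - C c)) →
      v.ord (algebraMap R[X] ↥(modularFunctionFieldFullC K0 M) (X - C c)) ∣ ((3 : ℕ) : ℤ) :=
  ts27_htame3_inv_c M hb hC (fd27_iota (algebraMap K0 Kbar) M)
    (fd27_iota_algebraMap (algebraMap K0 Kbar) M) hrel (hi94_iota_eq_inv M _ hb hX) c hc

/-! ### Level 3: `x = h34_h3R K0`, `x = h34_h3Rinv K0` -/

omit [Algebra R K0] in
/-- `htame₀` of `ca39_isDedekindDomain_fibre`, level 3, chart `x = h`. -/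
theorem ts27i_htame_level3_X (h3 : 3 ∣ M)
    (hX : ((algebraMap R[X] ↥(modularFunctionFieldFullC K0 M) X : ↥(modularFunctionFieldFullC K0 M)) : LaurentSeries K0) = h34_h3R K0) :
    ∀ v : Place K0 ↥(modularFunctionFieldFullC K0 M), 0 < v.ord (algebraMap R[X] ↥(modularFunctionFieldFullC K0 M) X) →
      v.ord (algebraMap R[X] ↥(modularFunctionFieldFullC K0 M) X) ∣ ((M : ℕ) : ℤ) :=
  ts27i_htame3_X M (h53m_h3bar M h3) (h53m_h3bar_rel M h3)
    (by rw [hX, h34_coeffMap_h3R]; rfl)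

/-- `htame₁` of `ca39_isDedekindDomain_fibre`, level 3, chart `x = h` (`c = -27`). -/
theorem ts27i_htame_level3_c (h3 : 3 ∣ M)
    (hC : ∀ r : R, algebraMap R[X] ↥(modularFunctionFieldFullC K0 M) (C r) = algebraMap K0 ↥(modularFunctionFieldFullC K0 M) (algebraMap R K0 r))
    (hX : ((algebraMap R[X] ↥(modularFunctionFieldFullC K0 M) X : ↥(modularFunctionFieldFullC K0 M)) : LaurentSeries K0) = h34_h3R K0) :
    ∀ v : Place K0 ↥(modularFunctionFieldFullC K0 M), 0 < v.ord (algebraMap R[X] ↥(modularFunctionFieldFullC K0 M) (X - C (-27))) →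
      v.ord (algebraMap R[X] ↥(modularFunctionFieldFullC K0 M) (X - C (-27))) ∣ ((3 : ℕ) : ℤ) :=
  ts27i_htame3_c M (h53m_h3bar M h3) (h53m_h3bar_rel M h3) hC
    (by rw [hX, h34_coeffMap_h3R]; rfl)

omit [Algebra R K0] in
/-- `htame₀` of `ca39_isDedekindDomain_fibre`, level 3, chart `x = h⁻¹`. -/
theorem ts27i_htame_level3_inv_X (h3 : 3 ∣ M)
    (hX : ((algebraMap R[X] ↥(modularFunctionFieldFullC K0 M) X : ↥(modularFunctionFieldFullC K0 M)) : LaurentSeries K0) = h34_h3Rinv K0) :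
    ∀ v : Place K0 ↥(modularFunctionFieldFullC K0 M), 0 < v.ord (algebraMap R[X] ↥(modularFunctionFieldFullC K0 M) X) →
      v.ord (algebraMap R[X] ↥(modularFunctionFieldFullC K0 M) X) ∣ ((M : ℕ) : ℤ) :=
  ts27i_htame3_inv_X M (h53m_h3bar M h3) (h53m_h3bar_rel M h3)
    (by
      rw [hX, h34_coeffMap_h3Rinv, mul_comm]
      exact h34_h3R_mul_inv Kbar)

/-- `htame₁` of `ca39_isDedekindDomain_fibre`, level 3, chart `x = h⁻¹` (`c = -1/27`). -/
theorem ts27i_htame_level3_inv_c (h3 : 3 ∣ M)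
    (hC : ∀ r : R, algebraMap R[X] ↥(modularFunctionFieldFullC K0 M) (C r) = algebraMap K0 ↥(modularFunctionFieldFullC K0 M) (algebraMap R K0 r))
    (hX : ((algebraMap R[X] ↥(modularFunctionFieldFullC K0 M) X : ↥(modularFunctionFieldFullC K0 M)) : LaurentSeries K0) = h34_h3Rinv K0)
    (c : R) (hc : c * 27 = -1) :
    ∀ v : Place K0 ↥(modularFunctionFieldFullC K0 M), 0 < v.ord (algebraMap R[X] ↥(modularFunctionFieldFullC K0 M) (X - C c)) →
      v.ord (algebraMap R[X] ↥(modularFunctionFieldFullC K0 M) (X - C c)) ∣ ((3 : ℕ) : ℤ) :=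
  ts27i_htame3_inv_c M (h53m_h3bar M h3) (h53m_h3bar_rel M h3) hC
    (by
      rw [hX, h34_coeffMap_h3Rinv, mul_comm]
      exact h34_h3R_mul_inv Kbar) c hc

/-! ### Level 2: `x = h70_h2 K0`, `x = h70_h2inv K0` -/

omit [Algebra R K0] in
/-- `htame₀` of `ca39_isDedekindDomain_fibre`, level 2, chart `x = h`. -/
theorem ts27i_htame_level2_X (h2 : 2 ∣ M)
    (hX : ((algebraMap R[X] ↥(modularFunctionFieldFullC K0 M) X : ↥(modularFunctionFieldFullC K0 M)) : LaurentSeries K0) = h70_h2 K0) :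
    ∀ v : Place K0 ↥(modularFunctionFieldFullC K0 M), 0 < v.ord (algebraMap R[X] ↥(modularFunctionFieldFullC K0 M) X) →
      v.ord (algebraMap R[X] ↥(modularFunctionFieldFullC K0 M) X) ∣ ((M : ℕ) : ℤ) :=
  ts27i_htame2_X M (g94_h2bar M h2) (g94_h2bar_rel M h2)
    (by rw [hX, h70_coeffMap_h2]; rfl)

/-- `htame₁` of `ca39_isDedekindDomain_fibre`, level 2, chart `x = h` (`c = -64`). -/
theorem ts27i_htame_level2_c (h2 : 2 ∣ M)
    (hC : ∀ r : R, algebraMap R[X] ↥(modularFunctionFieldFullC K0 M) (C r) = algebraMap K0 ↥(modularFunctionFieldFullC K0 M) (algebraMap R K0 r))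
    (hX : ((algebraMap R[X] ↥(modularFunctionFieldFullC K0 M) X : ↥(modularFunctionFieldFullC K0 M)) : LaurentSeries K0) = h70_h2 K0) :
    ∀ v : Place K0 ↥(modularFunctionFieldFullC K0 M), 0 < v.ord (algebraMap R[X] ↥(modularFunctionFieldFullC K0 M) (X - C (-64))) →
      v.ord (algebraMap R[X] ↥(modularFunctionFieldFullC K0 M) (X - C (-64))) ∣ ((2 : ℕ) : ℤ) :=
  ts27i_htame2_c M (g94_h2bar M h2) (g94_h2bar_rel M h2) hC
    (by rw [hX, h70_coeffMap_h2]; rfl)

omit [Algebra R K0] in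
/-- `htame₀` of `ca39_isDedekindDomain_fibre`, level 2, chart `x = h⁻¹`. -/
theorem ts27i_htame_level2_inv_X (h2 : 2 ∣ M)
    (hX : ((algebraMap R[X] ↥(modularFunctionFieldFullC K0 M) X : ↥(modularFunctionFieldFullC K0 M)) : LaurentSeries K0) = h70_h2inv K0) :
    ∀ v : Place K0 ↥(modularFunctionFieldFullC K0 M), 0 < v.ord (algebraMap R[X] ↥(modularFunctionFieldFullC K0 M) X) →
      v.ord (algebraMap R[X] ↥(modularFunctionFieldFullC K0 M) X) ∣ ((M : ℕ) : ℤ) :=
  ts27i_htame2_inv_X M (g94_h2bar M h2) (g94_h2bar_rel M h2)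
    (by
      rw [hX, h70_coeffMap_h2inv, mul_comm]
      exact h70_h2_mul_h2inv Kbar)

/-- `htame₁` of `ca39_isDedekindDomain_fibre`, level 2, chart `x = h⁻¹` (`c = -1/64`). -/
theorem ts27i_htame_level2_inv_c (h2 : 2 ∣ M)
    (hC : ∀ r : R, algebraMap R[X] ↥(modularFunctionFieldFullC K0 M) (C r) = algebraMap K0 ↥(modularFunctionFieldFullC K0 M) (algebraMap R K0 r))
    (hX : ((algebraMap R[X] ↥(modularFunctionFieldFullC K0 M) X : ↥(modularFunctionFieldFullC K0 M)) : LaurentSeries K0) = h70_h2inv K0)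
    (c : R) (hc : c * 64 = -1) :
    ∀ v : Place K0 ↥(modularFunctionFieldFullC K0 M), 0 < v.ord (algebraMap R[X] ↥(modularFunctionFieldFullC K0 M) (X - C c)) →
      v.ord (algebraMap R[X] ↥(modularFunctionFieldFullC K0 M) (X - C c)) ∣ ((2 : ℕ) : ℤ) :=
  ts27i_htame2_inv_c M (g94_h2bar M h2) (g94_h2bar_rel M h2) hC
    (by
      rw [hX, h70_coeffMap_h2inv, mul_comm]
      exact h70_h2_mul_h2inv Kbar) c hc

/-! ### Level 2, helper34's presentation: `x = h34_h2R K0`, `x = h34_h2Rinv K0` -/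

omit [Algebra R K0] in
/-- `htame₀`, level 2, chart `x = h34_h2R K0`. -/
theorem ts27i_htame_level2_X' (h2 : 2 ∣ M)
    (hX : ((algebraMap R[X] ↥(modularFunctionFieldFullC K0 M) X : ↥(modularFunctionFieldFullC K0 M)) : LaurentSeries K0) = h34_h2R K0) :
    ∀ v : Place K0 ↥(modularFunctionFieldFullC K0 M), 0 < v.ord (algebraMap R[X] ↥(modularFunctionFieldFullC K0 M) X) →
      v.ord (algebraMap R[X] ↥(modularFunctionFieldFullC K0 M) X) ∣ ((M : ℕ) : ℤ) :=
  ts27i_htame2_X M (hi94_h2Rbar M h2) (hi94_h2Rbar_rel M h2)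
    (by rw [hX, h34_coeffMap_h2R]; rfl)

/-- `htame₁`, level 2, chart `x = h34_h2R K0` (`c = -64`). -/
theorem ts27i_htame_level2_c' (h2 : 2 ∣ M)
    (hC : ∀ r : R, algebraMap R[X] ↥(modularFunctionFieldFullC K0 M) (C r) = algebraMap K0 ↥(modularFunctionFieldFullC K0 M) (algebraMap R K0 r))
    (hX : ((algebraMap R[X] ↥(modularFunctionFieldFullC K0 M) X : ↥(modularFunctionFieldFullC K0 M)) : LaurentSeries K0) = h34_h2R K0) :
    ∀ v : Place K0 ↥(modularFunctionFieldFullC K0 M), 0 < v.ord (algebraMap R[X] ↥(modularFunctionFieldFullC K0 M) (X - C (-64))) →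
      v.ord (algebraMap R[X] ↥(modularFunctionFieldFullC K0 M) (X - C (-64))) ∣ ((2 : ℕ) : ℤ) :=
  ts27i_htame2_c M (hi94_h2Rbar M h2) (hi94_h2Rbar_rel M h2) hC
    (by rw [hX, h34_coeffMap_h2R]; rfl)

omit [Algebra R K0] in
/-- `htame₀`, level 2, chart `x = h34_h2Rinv K0`. -/
theorem ts27i_htame_level2_inv_X' (h2 : 2 ∣ M)
    (hX : ((algebraMap R[X] ↥(modularFunctionFieldFullC K0 M) X : ↥(modularFunctionFieldFullC K0 M)) : LaurentSeries K0) = h34_h2Rinv K0) :
    ∀ v : Place K0 ↥(modularFunctionFieldFullC K0 M), 0 < v.ord (algebraMap R[X] ↥(modularFunctionFieldFullC K0 M) X) →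
      v.ord (algebraMap R[X] ↥(modularFunctionFieldFullC K0 M) X) ∣ ((M : ℕ) : ℤ) :=
  ts27i_htame2_inv_X M (hi94_h2Rbar M h2) (hi94_h2Rbar_rel M h2)
    (by
      rw [hX, h34_coeffMap_h2Rinv, mul_comm]
      exact h34_h2R_mul_inv Kbar)

/-- `htame₁`, level 2, chart `x = h34_h2Rinv K0` (`c = -1/64`). -/
theorem ts27i_htame_level2_inv_c' (h2 : 2 ∣ M)
    (hC : ∀ r : R, algebraMap R[X] ↥(modularFunctionFieldFullC K0 M) (C r) = algebraMap K0 ↥(modularFunctionFieldFullC K0 M) (algebraMap R K0 r))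
    (hX : ((algebraMap R[X] ↥(modularFunctionFieldFullC K0 M) X : ↥(modularFunctionFieldFullC K0 M)) : LaurentSeries K0) = h34_h2Rinv K0)
    (c : R) (hc : c * 64 = -1) :
    ∀ v : Place K0 ↥(modularFunctionFieldFullC K0 M), 0 < v.ord (algebraMap R[X] ↥(modularFunctionFieldFullC K0 M) (X - C c)) →
      v.ord (algebraMap R[X] ↥(modularFunctionFieldFullC K0 M) (X - C c)) ∣ ((2 : ℕ) : ℤ) :=
  ts27i_htame2_inv_c M (hi94_h2Rbar M h2) (hi94_h2Rbar_rel M h2) hC
    (by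
      rw [hX, h34_coeffMap_h2Rinv, mul_comm]
      exact h34_h2R_mul_inv Kbar) c hc

end Modular

end Fermat.Agent.S18
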