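import Mathlib

/-!
# S18, module (TC): the two-chart lemma (helper95; formulation (4) of helper51's plan)

`F` a field over a noetherian ring `R`, `π ∈ R` nonzero in `F`, `m` invertible in `R`,
`B₁, B₂ ≤ B₁₂` three `R`-subalgebras of `F` closed under `m`-th roots (e.g. integrally closed
with fraction field `F`), `u ∈ F`.  Put `I B = {f | f ^ m * u ∈ B}` (a `B`-module).  If

* there are `f₁ ∈ I B₁`, `f₂ ∈ I B₂` with `f₁ ^ m u ≡ 1 mod π B₁`, `f₂ ^ m u ≡ 1 mod π B₂`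
  and `f₂ f₁ ^ (m-1) u ≡ 1 mod π B₁₂` (the reductions of `f₁`, `f₂` are both `1`),
* `I B₁₂ ⊆ I B₁ + I B₂ + N` for a finitely generated `R`-module `N`,

then there is `f₀ ∈ I B₁ ∩ I B₂` with `f₀ ^ m u ≡ 1 mod π B₁`: `tc95_main`.
No completion, no cohomology.
-/

set_option autoImplicit false

namespace Fermat.Agent.S18

section Ring

variable {S : Type*} [CommRing S]

theorem tc95_one_add_pow (y : S) (m : ℕ) : ∃ c : S, (1 + y) ^ m = 1 + m * y + y ^ 2 * c := by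
  induction m with
  | zero => exact ⟨0, by simp⟩
  | succ m ih =>
    obtain ⟨c, hc⟩ := ih
    refine ⟨c + m + y * c, ?_⟩
    rw [pow_succ, hc]; push_cast; ring

/-- Approximate `m`-th roots of `1 + π b`. -/
theorem tc95_root_approx (π μ : S) (m : ℕ) (hμ : (m : S) * μ = 1) (a b : S) (ha : a = 1 + π * b)
    (n : ℕ) : ∃ g : S, (∃ b', g = 1 + π * b') ∧ ∃ d, g ^ m * a = 1 + π ^ (n + 1) * d := by
  induction n with
  | zero => exact ⟨1, ⟨0, by simp⟩, b, by simp [ha]⟩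
  | succ n ih =>
    obtain ⟨g, ⟨b', hb'⟩, d, hd⟩ := ih
    obtain ⟨c, hc⟩ := tc95_one_add_pow (-(π ^ (n + 1) * (μ * d))) m
    refine ⟨g * (1 + -(π ^ (n + 1) * (μ * d))), ⟨b' - π ^ n * (μ * d) - π ^ (n + 1) * b' * (μ * d),
      ?_⟩, ?_⟩
    · rw [hb']; ring
    · refine ⟨-(d ^ 2 * π ^ n) + (1 + π ^ (n + 1) * d) * (π ^ n * (μ * d) ^ 2 * c), ?_⟩
      have h1 : (g * (1 + -(π ^ (n + 1) * (μ * d)))) ^ m * a =
          (g ^ m * a) * (1 + -(π ^ (n + 1) * (μ * d))) ^ m := by rw [mul_pow]; ring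
      rw [h1, hd, hc]
      have h2 : (m : S) * -(π ^ (n + 1) * (μ * d)) = -(π ^ (n + 1) * d) * ((m : S) * μ) := by ring
      rw [h2, hμ]
      ring

/-- Uniqueness of approximate `m`-th roots congruent to `1`. -/
theorem tc95_root_unique [IsDomain S] (π μ : S) (hπ : π ≠ 0) (m : ℕ) (hμ : (m : S) * μ = 1)
    (y : S) (hy : ∃ d, y = 1 + π * d) (n : ℕ) (hyn : ∃ d, y ^ m = 1 + π ^ (n + 1) * d) :
    ∃ d, y = 1 + π ^ (n + 1) * d := by
  have key : ∀ k : ℕ, k ≤ n → ∃ d, y = 1 + π ^ (k + 1) * d := by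
    intro k
    induction k with
    | zero =>
      intro _
      obtain ⟨d, hd⟩ := hy
      exact ⟨d, by rw [hd]; ring⟩
    | succ k ih =>
      intro hk
      obtain ⟨d, hd⟩ := ih (by omega)
      obtain ⟨d', hd'⟩ := hyn
      obtain ⟨c, hc⟩ := tc95_one_add_pow (π ^ (k + 1) * d) m
      rw [hd, hc] at hd'
      obtain ⟨j, rfl⟩ := Nat.exists_eq_add_of_le hk
      -- π^(k+1) * (m d + π^(k+1) d² c - π^(j+1) d') = 0
      have h1 : π ^ (k + 1) * ((m : S) * d + π ^ (k + 1) * d ^ 2 * c - π ^ (j + 1) * d') = 0 := by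
        have : π ^ (k + 1 + j + 1) = π ^ (k + 1) * π ^ (j + 1) := by
          rw [add_assoc, pow_add]
        rw [this] at hd'
        linear_combination hd'
      have h2 : (m : S) * d + π ^ (k + 1) * d ^ 2 * c - π ^ (j + 1) * d' = 0 := by
        rcases mul_eq_zero.mp h1 with h | h
        · exact absurd h (pow_ne_zero _ hπ)
        · exact h
      refine ⟨μ * (π ^ j * d' - π ^ k * d ^ 2 * c), ?_⟩
      have h3 : d = μ * ((m : S) * d) := by
        rw [← mul_assoc, mul_comm μ, hμ, one_mul]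
      have h4 : (m : S) * d = π * (π ^ j * d' - π ^ k * d ^ 2 * c) := by
        linear_combination h2
      rw [hd]
      conv_lhs => rw [h3, h4]
      ring
  exact key n le_rfl

theorem tc95_unit_ideal (X : S) (m : ℕ) :
    ∃ s : S, 1 = (1 + X) * s + (-X) ^ m := by
  refine ⟨∑ i ∈ Finset.range m, (-X) ^ i, ?_⟩
  have h := geom_sum_mul (-X) m
  linear_combination h

end Ring

end Fermat.Agent.S18

namespace Fermat.Agent.S18

section Module

variable {R F : Type*} [CommRing R] [Field F] [Algebra R F]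

/-- Mixed monomials of two elements of `I B` lie in `B`. -/
theorem tc95_mixed (B : Subalgebra R F) (m : ℕ) (hn : ∀ z : F, z ^ m ∈ B → z ∈ B) (u f g : F)
    (hf : f ^ m * u ∈ B) (hg : g ^ m * u ∈ B) (k : ℕ) (hk : k ≤ m) :
    f ^ k * g ^ (m - k) * u ∈ B := by
  apply hn
  have : (f ^ k * g ^ (m - k) * u) ^ m = (f ^ m * u) ^ k * (g ^ m * u) ^ (m - k) := by
    have hu : u ^ m = u ^ k * u ^ (m - k) := by rw [← pow_add]; congr 1; omega
    rw [mul_pow, mul_pow, mul_pow, mul_pow, hu, ← pow_mul, ← pow_mul, ← pow_mul, ← pow_mul,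
      mul_comm k m, mul_comm (m - k) m]
    ring
  rw [this]
  exact B.mul_mem (B.pow_mem hf k) (B.pow_mem hg (m - k))

/-- `I B` is closed under addition. -/
theorem tc95_add (B : Subalgebra R F) (m : ℕ) (hn : ∀ z : F, z ^ m ∈ B → z ∈ B) (u f g : F)
    (hf : f ^ m * u ∈ B) (hg : g ^ m * u ∈ B) : (f + g) ^ m * u ∈ B := by
  rw [add_pow, Finset.sum_mul]
  refine B.sum_mem fun k hk => ?_
  have hk' : k ≤ m := Nat.lt_succ_iff.mp (Finset.mem_range.mp hk)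
  have : f ^ k * g ^ (m - k) * (m.choose k : F) * u =
      (f ^ k * g ^ (m - k) * u) * (m.choose k : F) := by ring
  rw [this]
  exact B.mul_mem (tc95_mixed B m hn u f g hf hg k hk') (B.natCast_mem _)

theorem tc95_smul (B : Subalgebra R F) (m : ℕ) (u b f : F) (hb : b ∈ B)
    (hf : f ^ m * u ∈ B) : (b * f) ^ m * u ∈ B := by
  have : (b * f) ^ m * u = b ^ m * (f ^ m * u) := by ring
  rw [this]
  exact B.mul_mem (B.pow_mem hb m) hf

/-- The `B`-module `I B = {f | f ^ m * u ∈ B}` as an `R`-submodule of `F`. -/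
def tc95_I (B : Subalgebra R F) (m : ℕ) (hm0 : m ≠ 0) (hn : ∀ z : F, z ^ m ∈ B → z ∈ B) (u : F) :
    Submodule R F where
  carrier := {f | f ^ m * u ∈ B}
  add_mem' := fun {f g} hf hg => tc95_add B m hn u f g hf hg
  zero_mem' := by
    show (0 : F) ^ m * u ∈ B
    rw [zero_pow hm0, zero_mul]; exact B.zero_mem
  smul_mem' := fun r f hf => by
    show (r • f) ^ m * u ∈ B
    rw [Algebra.smul_def]
    exact tc95_smul B m u _ f (B.algebraMap_mem r) hf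

theorem tc95_mem_I (B : Subalgebra R F) (m : ℕ) (hm0 : m ≠ 0) (hn : ∀ z : F, z ^ m ∈ B → z ∈ B)
    (u f : F) : f ∈ tc95_I B m hm0 hn u ↔ f ^ m * u ∈ B := Iff.rfl

/-- Perturbing an element of `I B` by `π` times another one changes `f ^ m u` by `π B`. -/
theorem tc95_add_pi (B : Subalgebra R F) (m : ℕ) (hm0 : m ≠ 0) (hn : ∀ z : F, z ^ m ∈ B → z ∈ B)
    (π : R) (u f β : F) (hf : f ^ m * u ∈ B) (hβ : β ^ m * u ∈ B) :
    ∃ b ∈ B, (f + π • β) ^ m * u = f ^ m * u + π • b := by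
  obtain ⟨m, rfl⟩ := Nat.exists_eq_succ_of_ne_zero hm0
  refine ⟨∑ k ∈ Finset.range (m + 1), π ^ (m - k) • (f ^ k * β ^ (m + 1 - k) * u *
    ((m + 1).choose k : F)), ?_, ?_⟩
  · refine B.sum_mem fun k hk => B.smul_mem (B.mul_mem ?_ (B.natCast_mem _)) _
    have hk' : k ≤ m + 1 := (Finset.mem_range.mp hk).le
    exact tc95_mixed B (m + 1) hn u f β hf hβ k hk'
  · rw [add_pow, Finset.sum_range_succ, add_mul, Finset.sum_mul, Finset.smul_sum]
    have h1 : f ^ (m + 1) * (π • β) ^ (m + 1 - (m + 1)) * ((m + 1).choose (m + 1) : F) * u =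
        f ^ (m + 1) * u := by simp
    rw [h1, add_comm]
    congr 1
    refine Finset.sum_congr rfl fun k hk => ?_
    have hk' : k < m + 1 := Finset.mem_range.mp hk
    have h2 : m + 1 - k = (m - k) + 1 := by omega
    rw [h2, Algebra.smul_def, Algebra.smul_def, Algebra.smul_def, mul_pow, map_pow]
    ring

end Module

end Fermat.Agent.S18

namespace Fermat.Agent.S18

section Main

variable {R F : Type*} [CommRing R] [Field F] [Algebra R F]

/-- Approximate `m`-th roots inside a subalgebra, stated in the ambient field: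
if `a = 1 + π b` with `b ∈ B` then some `g ∈ 1 + π B` has `g ^ m a ∈ 1 + π ^ (n+1) B`. -/
theorem tc95_root_in (B : Subalgebra R F) (π μ : R) (m : ℕ) (hμ : (m : R) * μ = 1) (a : F)
    (ha : ∃ b ∈ B, a = 1 + π • b) (n : ℕ) :
    ∃ g ∈ B, (∃ b' ∈ B, g = 1 + π • b') ∧ ∃ d ∈ B, g ^ m * a = 1 + π ^ (n + 1) • d := by
  obtain ⟨b, hb, hab⟩ := ha
  have haB : a ∈ B := by
    rw [hab]; exact B.add_mem B.one_mem (B.smul_mem hb _)
  have hμ' : ((m : ℕ) : B) * algebraMap R B μ = 1 := by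
    have : ((m : ℕ) : B) = algebraMap R B (m : R) := by simp
    rw [this, ← map_mul, hμ, map_one]
  obtain ⟨g, ⟨b', hb'⟩, d, hd⟩ := tc95_root_approx (algebraMap R B π) (algebraMap R B μ) m hμ'
    (⟨a, haB⟩ : B) ⟨b, hb⟩ (by
      apply Subtype.ext
      simp only [Subalgebra.coe_add, Subalgebra.coe_one, Subalgebra.coe_mul,
        Subalgebra.coe_algebraMap]
      rw [hab, Algebra.smul_def]) n
  refine ⟨g, g.2, ⟨b', b'.2, ?_⟩, ⟨d, d.2, ?_⟩⟩
  · have := congrArg Subtype.val hb'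
    simp only [Subalgebra.coe_add, Subalgebra.coe_one, Subalgebra.coe_mul,
      Subalgebra.coe_algebraMap] at this
    rw [this, Algebra.smul_def]
  · have := congrArg Subtype.val hd
    simp only [Subalgebra.coe_add, Subalgebra.coe_one, Subalgebra.coe_mul, Subalgebra.coe_pow,
      Subalgebra.coe_algebraMap] at this
    rw [this, Algebra.smul_def, map_pow]

/-- Uniqueness of approximate roots inside a subalgebra of a field. -/
theorem tc95_unique_in (B : Subalgebra R F) (π μ : R) (hπ : algebraMap R F π ≠ 0) (m : ℕ)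
    (hμ : (m : R) * μ = 1) (y : F) (hy : ∃ d ∈ B, y = 1 + π • d) (n : ℕ)
    (hyn : ∃ d ∈ B, y ^ m = 1 + π ^ (n + 1) • d) : ∃ d ∈ B, y = 1 + π ^ (n + 1) • d := by
  obtain ⟨d, hd, hyd⟩ := hy
  obtain ⟨d', hd', hyd'⟩ := hyn
  have hyB : y ∈ B := by rw [hyd]; exact B.add_mem B.one_mem (B.smul_mem hd _)
  have hμ' : ((m : ℕ) : B) * algebraMap R B μ = 1 := by
    have : ((m : ℕ) : B) = algebraMap R B (m : R) := by simp
    rw [this, ← map_mul, hμ, map_one]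
  have hπ' : algebraMap R B π ≠ 0 := by
    intro h
    apply hπ
    have := congrArg Subtype.val h
    simpa using this
  obtain ⟨D, hD⟩ := tc95_root_unique (algebraMap R B π) (algebraMap R B μ) hπ' m hμ' (⟨y, hyB⟩ : B)
    ⟨⟨d, hd⟩, by
      apply Subtype.ext
      simp only [Subalgebra.coe_add, Subalgebra.coe_one, Subalgebra.coe_mul,
        Subalgebra.coe_algebraMap]
      rw [hyd, Algebra.smul_def]⟩ n
    ⟨⟨d', hd'⟩, by
      apply Subtype.ext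
      simp only [Subalgebra.coe_add, Subalgebra.coe_one, Subalgebra.coe_mul, Subalgebra.coe_pow,
        Subalgebra.coe_algebraMap]
      rw [hyd', Algebra.smul_def, map_pow]⟩
  refine ⟨D, D.2, ?_⟩
  have := congrArg Subtype.val hD
  simp only [Subalgebra.coe_add, Subalgebra.coe_one, Subalgebra.coe_mul, Subalgebra.coe_pow,
    Subalgebra.coe_algebraMap] at this
  rw [this, Algebra.smul_def, map_pow]

theorem tc95_one_add_mul (B : Subalgebra R F) (π : R) (x y : F) (hx : ∃ b ∈ B, x = 1 + π • b)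
    (hy : ∃ b ∈ B, y = 1 + π • b) : ∃ b ∈ B, x * y = 1 + π • b := by
  obtain ⟨b, hb, rfl⟩ := hx
  obtain ⟨b', hb', rfl⟩ := hy
  refine ⟨b + b' + π • (b * b'), B.add_mem (B.add_mem hb hb') (B.smul_mem (B.mul_mem hb hb') _), ?_⟩
  simp only [Algebra.smul_def]; ring

theorem tc95_one_add_pow_mem (B : Subalgebra R F) (π : R) (x : F) (hx : ∃ b ∈ B, x = 1 + π • b)
    (k : ℕ) : ∃ b ∈ B, x ^ k = 1 + π • b := by
  induction k with
  | zero => exact ⟨0, B.zero_mem, by simp⟩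
  | succ k ih =>
    rw [pow_succ]
    exact tc95_one_add_mul B π _ _ ih hx

theorem tc95_mono (B B' : Subalgebra R F) (h : B ≤ B') (π : R) (x : F)
    (hx : ∃ b ∈ B, x = 1 + π • b) : ∃ b ∈ B', x = 1 + π • b := by
  obtain ⟨b, hb, rfl⟩ := hx
  exact ⟨b, h hb, rfl⟩

end Main

end Fermat.Agent.S18

namespace Fermat.Agent.S18

section Final

variable {R F : Type*} [CommRing R] [Field F] [Algebra R F]

theorem tc95_pow_split (m : ℕ) (hm0 : m ≠ 0) (a b u : F) :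
    (a * b ^ (m - 1) * u) ^ m = (a ^ m * u) * (b ^ m * u) ^ (m - 1) := by
  obtain ⟨k, rfl⟩ := Nat.exists_eq_succ_of_ne_zero hm0
  have hk : k.succ - 1 = k := Nat.succ_sub_one k
  rw [hk]
  have e1 : (a * b ^ k * u) ^ k.succ = a ^ k.succ * (b ^ k.succ) ^ k * u ^ k.succ := by
    rw [mul_pow, mul_pow, ← pow_mul, ← pow_mul, mul_comm k k.succ]
  have e2 : (b ^ k.succ * u) ^ k = (b ^ k.succ) ^ k * u ^ k := mul_pow _ _ _
  rw [e1, e2, pow_succ u k]
  ring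

/-- **The two-chart lemma.** -/
theorem tc95_main [IsNoetherianRing R] (π μ : R) (hπ : algebraMap R F π ≠ 0) (m : ℕ) (hm0 : m ≠ 0)
    (hμ : (m : R) * μ = 1)
    (B₁ B₂ B₁₂ : Subalgebra R F) (h₁ : B₁ ≤ B₁₂) (h₂ : B₂ ≤ B₁₂)
    (hn₁ : ∀ z : F, z ^ m ∈ B₁ → z ∈ B₁) (hn₂ : ∀ z : F, z ^ m ∈ B₂ → z ∈ B₂)
    (hn₁₂ : ∀ z : F, z ^ m ∈ B₁₂ → z ∈ B₁₂)
    (u f₁ f₂ : F)
    (hf₁ : ∃ b ∈ B₁, f₁ ^ m * u = 1 + π • b)
    (hf₂ : ∃ b ∈ B₂, f₂ ^ m * u = 1 + π • b)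
    (hf₁₂ : ∃ b ∈ B₁₂, f₂ * f₁ ^ (m - 1) * u = 1 + π • b)
    (N : Submodule R F) (hN : N.FG)
    (hsplit : ∀ z : F, z ^ m * u ∈ B₁₂ →
      ∃ i₁ i₂ s, i₁ ^ m * u ∈ B₁ ∧ i₂ ^ m * u ∈ B₂ ∧ s ∈ N ∧ z = i₁ + i₂ + s) :
    ∃ f₀ : F, f₀ ^ m * u ∈ B₂ ∧ ∃ b ∈ B₁, f₀ ^ m * u = 1 + π • b := by
  classical
  set I₁ : Submodule R F := tc95_I B₁ m hm0 hn₁ u with hI₁
  set I₂ : Submodule R F := tc95_I B₂ m hm0 hn₂ u with hI₂
  set I₁₂ : Submodule R F := tc95_I B₁₂ m hm0 hn₁₂ u with hI₁₂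
  set J : Submodule R N := (I₁ ⊔ I₂).comap N.subtype with hJ
  have hNoeth : IsNoetherian R N := isNoetherian_of_fg_of_noetherian N hN
  let ch : ℕ →o Submodule R N :=
    { toFun := fun k => J.comap ((π ^ k) • (LinearMap.id : N →ₗ[R] N))
      monotone' := by
        intro k l hkl s hs
        simp only [Submodule.mem_comap, LinearMap.smul_apply, LinearMap.id_coe, id_eq] at hs ⊢
        obtain ⟨d, rfl⟩ := Nat.exists_eq_add_of_le hkl
        rw [pow_add, mul_comm, mul_smul]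
        exact J.smul_mem _ hs }
  obtain ⟨c, hc⟩ := monotone_stabilizes_iff_noetherian.mpr hNoeth ch
  -- approximate roots on both charts
  obtain ⟨g₁, hg₁, hg₁', d₁, hd₁, hgd₁⟩ := tc95_root_in B₁ π μ m hμ (f₁ ^ m * u) hf₁ c
  obtain ⟨g₂, hg₂, hg₂', d₂, hd₂, hgd₂⟩ := tc95_root_in B₂ π μ m hμ (f₂ ^ m * u) hf₂ c
  set e₁ : F := f₁ * g₁ with he₁
  set e₂ : F := f₂ * g₂ with he₂
  have he₁u : e₁ ^ m * u = 1 + π ^ (c + 1) • d₁ := by
    rw [← hgd₁, he₁]; ring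
  have he₂u : e₂ ^ m * u = 1 + π ^ (c + 1) • d₂ := by
    rw [← hgd₂, he₂]; ring
  have he₁B : e₁ ^ m * u ∈ B₁ := by
    rw [he₁u]; exact B₁.add_mem B₁.one_mem (B₁.smul_mem hd₁ _)
  have he₂B : e₂ ^ m * u ∈ B₂ := by
    rw [he₂u]; exact B₂.add_mem B₂.one_mem (B₂.smul_mem hd₂ _)
  have he₁I : e₁ ∈ I₁ := he₁B
  have he₂I : e₂ ∈ I₂ := he₂B
  -- the comparison function on the overlap
  set y : F := e₂ * e₁ ^ (m - 1) * u with hy
  have hy1 : ∃ d ∈ B₁₂, y = 1 + π • d := by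
    have : y = (g₂ * g₁ ^ (m - 1)) * (f₂ * f₁ ^ (m - 1) * u) := by
      rw [hy, he₁, he₂, mul_pow]; ring
    rw [this]
    exact tc95_one_add_mul B₁₂ π _ _
      (tc95_one_add_mul B₁₂ π _ _ (tc95_mono B₂ B₁₂ h₂ π g₂ hg₂')
        (tc95_one_add_pow_mem B₁₂ π g₁ (tc95_mono B₁ B₁₂ h₁ π g₁ hg₁') (m - 1))) hf₁₂
  have hym : ∃ d ∈ B₁₂, y ^ m = 1 + π ^ (c + 1) • d := by
    rw [hy, tc95_pow_split m hm0]
    exact tc95_one_add_mul B₁₂ (π ^ (c + 1)) _ _ ⟨d₂, h₂ hd₂, he₂u⟩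
      (tc95_one_add_pow_mem B₁₂ (π ^ (c + 1)) _ ⟨d₁, h₁ hd₁, he₁u⟩ (m - 1))
  obtain ⟨D, hD, hyD⟩ := tc95_unique_in B₁₂ π μ hπ m hμ y hy1 c hym
  -- the difference quotient
  have hπc : (algebraMap R F π) ^ (c + 1) ≠ 0 := pow_ne_zero _ hπ
  set z : F := ((algebraMap R F π) ^ (c + 1))⁻¹ * (e₂ - e₁) with hz
  have hzπ : π ^ (c + 1) • z = e₂ - e₁ := by
    rw [Algebra.smul_def, map_pow, hz, ← mul_assoc, mul_inv_cancel₀ hπc, one_mul]
  have hee : e₁ * e₁ ^ (m - 1) = e₁ ^ m := by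
    rw [← pow_succ']; congr 1; omega
  have hbval : z * e₁ ^ (m - 1) * u = D - d₁ := by
    have h1 : π ^ (c + 1) • (z * e₁ ^ (m - 1) * u) = π ^ (c + 1) • (D - d₁) := by
      have : π ^ (c + 1) • (z * e₁ ^ (m - 1) * u) = (π ^ (c + 1) • z) * e₁ ^ (m - 1) * u := by
        simp only [Algebra.smul_def]; ring
      rw [this, hzπ, smul_sub]
      have h2 : (e₂ - e₁) * e₁ ^ (m - 1) * u = y - e₁ ^ m * u := by
        rw [hy, ← hee]; ring
      rw [h2, hyD, he₁u]; ring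
    simp only [Algebra.smul_def, map_pow] at h1
    exact mul_left_cancel₀ hπc h1
  have hbB : z * e₁ ^ (m - 1) * u ∈ B₁₂ := by
    rw [hbval]; exact B₁₂.sub_mem hD (h₁ hd₁)
  -- `z ∈ I₁₂`
  have hzI : z ^ m * u ∈ B₁₂ := by
    have ht : (e₂ - e₁) ^ m * u ∈ B₁₂ := by
      have h1 : e₁ ∈ I₁₂ := h₁ he₁B
      have h2 : e₂ ∈ I₁₂ := h₂ he₂B
      exact I₁₂.sub_mem h2 h1
    have htz : (e₂ - e₁) ^ m * u = (π ^ (c + 1)) ^ m • (z ^ m * u) := by
      rw [← hzπ]; simp only [Algebra.smul_def, map_pow]; rw [mul_pow]; ring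
    obtain ⟨x', hx', hxe⟩ := tc95_one_add_pow_mem B₁₂ (π ^ (c + 1)) (e₁ ^ m * u)
      ⟨d₁, h₁ hd₁, he₁u⟩ (m - 1)
    have hXB : π ^ (c + 1) • x' ∈ B₁₂ := B₁₂.smul_mem hx' _
    obtain ⟨s, hs⟩ := tc95_unit_ideal (⟨π ^ (c + 1) • x', hXB⟩ : B₁₂) m
    have hs' : (1 : F) = (1 + π ^ (c + 1) • x') * (s : F) + (-(π ^ (c + 1) • x')) ^ m := by
      have := congrArg Subtype.val hs
      simpa using this
    have hbm : (z * e₁ ^ (m - 1) * u) ^ m = (z ^ m * u) * (1 + π ^ (c + 1) • x') := by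
      rw [tc95_pow_split m hm0, hxe]
    have key : z ^ m * u = (s : F) * (z * e₁ ^ (m - 1) * u) ^ m +
        (-x') ^ m * ((e₂ - e₁) ^ m * u) := by
      rw [hbm, htz]
      have h3 : (-(π ^ (c + 1) • x')) ^ m = (π ^ (c + 1)) ^ m • (-x') ^ m := by
        simp only [Algebra.smul_def, map_pow]; ring
      rw [h3] at hs'
      calc z ^ m * u = (z ^ m * u) * 1 := by ring
        _ = (z ^ m * u) * ((1 + π ^ (c + 1) • x') * (s : F) +
              (π ^ (c + 1)) ^ m • (-x') ^ m) := by rw [← hs']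
        _ = _ := by simp only [Algebra.smul_def, map_pow]; ring
    rw [key]
    exact B₁₂.add_mem (B₁₂.mul_mem s.2 (B₁₂.pow_mem hbB m))
      (B₁₂.mul_mem (B₁₂.pow_mem (B₁₂.neg_mem hx') m) ht)
  -- split `z` and use the stabilised chain
  obtain ⟨i₁, i₂, s, hi₁, hi₂, hs, hzs⟩ := hsplit z hzI
  have hi₁I : i₁ ∈ I₁ := hi₁
  have hi₂I : i₂ ∈ I₂ := hi₂
  have hsJ : (⟨s, hs⟩ : N) ∈ ch (c + 1) := by
    show (π ^ (c + 1) • (LinearMap.id : N →ₗ[R] N)) ⟨s, hs⟩ ∈ J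
    rw [hJ, Submodule.mem_comap]
    simp only [LinearMap.smul_apply, LinearMap.id_coe, id_eq, Submodule.subtype_apply,
      Submodule.coe_smul]
    have : π ^ (c + 1) • s = -(e₁ + π ^ (c + 1) • i₁) + (e₂ - π ^ (c + 1) • i₂) := by
      have h4 : s = z - i₁ - i₂ := by rw [hzs]; ring
      rw [h4, smul_sub, smul_sub, hzπ]; ring
    rw [this]
    exact Submodule.add_mem _
      (Submodule.mem_sup_left (I₁.neg_mem (I₁.add_mem he₁I (I₁.smul_mem _ hi₁I))))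
      (Submodule.mem_sup_right (I₂.sub_mem he₂I (I₂.smul_mem _ hi₂I)))
  have hsc : (⟨s, hs⟩ : N) ∈ ch c := by
    rw [hc (c + 1) (Nat.le_succ c)]; exact hsJ
  have hsc' : π ^ c • s ∈ I₁ ⊔ I₂ := by
    have : (π ^ c • (LinearMap.id : N →ₗ[R] N)) ⟨s, hs⟩ ∈ J := hsc
    rw [hJ, Submodule.mem_comap] at this
    simpa using this
  obtain ⟨α₁, hα₁, α₂, hα₂, hαs⟩ := Submodule.mem_sup.mp hsc'
  -- the global section
  have hβ₁ : π ^ c • i₁ + α₁ ∈ I₁ := I₁.add_mem (I₁.smul_mem _ hi₁I) hα₁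
  have hβ₂ : π ^ c • i₂ + α₂ ∈ I₂ := I₂.add_mem (I₂.smul_mem _ hi₂I) hα₂
  refine ⟨e₁ + π • (π ^ c • i₁ + α₁), ?_, ?_⟩
  · have hf₀ : e₁ + π • (π ^ c • i₁ + α₁) = e₂ - π • (π ^ c • i₂ + α₂) := by
      have h5 : e₂ - e₁ = π • (π ^ c • i₁ + α₁) + π • (π ^ c • i₂ + α₂) := by
        rw [← hzπ, hzs, ← smul_add]
        have : π ^ c • i₁ + α₁ + (π ^ c • i₂ + α₂) = π ^ c • (i₁ + i₂ + s) := by
          rw [smul_add, smul_add, ← hαs]; ring
        rw [this, smul_smul, pow_succ, mul_comm]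
      linear_combination -h5
    rw [hf₀]
    exact I₂.sub_mem he₂I (I₂.smul_mem _ hβ₂)
  · obtain ⟨b, hb, hbe⟩ := tc95_add_pi B₁ m hm0 hn₁ π u e₁ (π ^ c • i₁ + α₁) he₁B hβ₁
    refine ⟨π ^ c • d₁ + b, B₁.add_mem (B₁.smul_mem hd₁ _) hb, ?_⟩
    rw [hbe, he₁u, smul_add, smul_smul, pow_succ, mul_comm]
    ring

end Final

end Fermat.Agent.S18
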