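import Mathlib
import Fermat.Agent.S18.TwoChart95

/-!
# The two-chart lemma: wrapper (S18, row A6)

`tc95_main` (file `TwoChart95.lean`) is the Hensel + torsion-exponent core of the two-chart
lemma.  This file derives its hypotheses from checkable "geometric" ones:

* `tcw95_core`      : the core again, recording `f₀ = f₁ * g + π • j`;
* `tcw95_root_loc`  : ROOT passes to `B₁₂ = B₁[1/h]`;
* `tcw95_exists_one`: LP + NBAR + SAT give `f ∈ 1 + π V` with `f ^ m * u ∈ 1 + π B`;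
* `tcw95_split`     : `I₁₂ = I₁ + I₂ + N` with `N` finitely generated over `R`;
* `tcw95_main`      : the assembled statement.
-/

namespace Fermat.Agent.S18

section Core

variable {R F : Type*} [CommRing R] [Field F] [Algebra R F]

/-- The two-chart lemma `tc95_main`, with the shape of the global section recorded:
`f₀ = f₁ * g + π • j` with `g ∈ 1 + π B₁` and `j ∈ I₁`. -/
theorem tcw95_core [IsNoetherianRing R] (π μ : R) (hπ : algebraMap R F π ≠ 0) (m : ℕ) (hm0 : m ≠ 0)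
    (hμ : (m : R) * μ = 1)
    (B₁ B₂ B₁₂ : Subalgebra R F) (h₁ : B₁ ≤ B₁₂) (h₂ : B₂ ≤ B₁₂)
    (hn₁ : ∀ z : F, z ^ m ∈ B₁ → z ∈ B₁) (hn₂ : ∀ z : F, z ^ m ∈ B₂ → z ∈ B₂)
    (hn₁₂ : ∀ z : F, z ^ m ∈ B₁₂ → z ∈ B₁₂)
    (u f₁ f₂ : F)
    (hf₁ : ∃ b ∈ B₁, f₁ ^ m * u = 1 + π • b)
    (hf₂ : ∃ b ∈ B₂, f₂ ^ m * u = 1 + π • b)
    (hf₁₂ : ∃ b ∈ B₁₂, f₂ * f₁ ^ (m - 1) * u = 1 + π • b)
    (N : Submodule R F) (hN : N.FG)
    (hsplit : ∀ z : F, z ^ m * u ∈ B₁₂ →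
      ∃ i₁ i₂ s, i₁ ^ m * u ∈ B₁ ∧ i₂ ^ m * u ∈ B₂ ∧ s ∈ N ∧ z = i₁ + i₂ + s) :
    ∃ f₀ : F, f₀ ^ m * u ∈ B₂ ∧ (∃ b ∈ B₁, f₀ ^ m * u = 1 + π • b) ∧
      ∃ g ∈ B₁, (∃ b ∈ B₁, g = 1 + π • b) ∧ ∃ j : F, j ^ m * u ∈ B₁ ∧ f₀ = f₁ * g + π • j := by
  classical
  set I₁ : Submodule R F := tc95_I B₁ m hm0 hn₁ u with hI₁
  set I₂ : Submodule R F := tc95_I B₂ m hm0 hn₂ u with hI₂
  set I₁₂ : Submodule R F := tc95_I B₁₂ m hm0 hn₁₂ u with hI₁₂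
  set J : Submodule R N := (I₁ ⊔ I₂).comap N.subtype with hJ
  have hNoeth : IsNoetherian R N := isNoetherian_of_fg_of_noetherian N hN
  let ch : ℕ →o Submodule R N :=
    { toFun := fun k => J.comap ((π ^ k) • (LinearMap.id : N →ₗ[R] N))
      monotone' := by
        intro k l hkl s hs
        simp only [Submodule.mem_comap, LinearMap.smul_apply, LinearMap.id_coe, id_eq] at hs ⊢
        obtain ⟨d, rfl⟩ := Nat.exists_eq_add_of_le hkl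
        rw [pow_add, mul_comm, mul_smul]
        exact J.smul_mem _ hs }
  obtain ⟨c, hc⟩ := monotone_stabilizes_iff_noetherian.mpr hNoeth ch
  -- approximate roots on both charts
  obtain ⟨g₁, hg₁, hg₁', d₁, hd₁, hgd₁⟩ := tc95_root_in B₁ π μ m hμ (f₁ ^ m * u) hf₁ c
  obtain ⟨g₂, hg₂, hg₂', d₂, hd₂, hgd₂⟩ := tc95_root_in B₂ π μ m hμ (f₂ ^ m * u) hf₂ c
  set e₁ : F := f₁ * g₁ with he₁
  set e₂ : F := f₂ * g₂ with he₂
  have he₁u : e₁ ^ m * u = 1 + π ^ (c + 1) • d₁ := by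
    rw [← hgd₁, he₁]; ring
  have he₂u : e₂ ^ m * u = 1 + π ^ (c + 1) • d₂ := by
    rw [← hgd₂, he₂]; ring
  have he₁B : e₁ ^ m * u ∈ B₁ := by
    rw [he₁u]; exact B₁.add_mem B₁.one_mem (B₁.smul_mem hd₁ _)
  have he₂B : e₂ ^ m * u ∈ B₂ := by
    rw [he₂u]; exact B₂.add_mem B₂.one_mem (B₂.smul_mem hd₂ _)
  have he₁I : e₁ ∈ I₁ := he₁B
  have he₂I : e₂ ∈ I₂ := he₂B
  -- the comparison function on the overlap
  set y : F := e₂ * e₁ ^ (m - 1) * u with hy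
  have hy1 : ∃ d ∈ B₁₂, y = 1 + π • d := by
    have : y = (g₂ * g₁ ^ (m - 1)) * (f₂ * f₁ ^ (m - 1) * u) := by
      rw [hy, he₁, he₂, mul_pow]; ring
    rw [this]
    exact tc95_one_add_mul B₁₂ π _ _
      (tc95_one_add_mul B₁₂ π _ _ (tc95_mono B₂ B₁₂ h₂ π g₂ hg₂')
        (tc95_one_add_pow_mem B₁₂ π g₁ (tc95_mono B₁ B₁₂ h₁ π g₁ hg₁') (m - 1))) hf₁₂
  have hym : ∃ d ∈ B₁₂, y ^ m = 1 + π ^ (c + 1) • d := by
    rw [hy, tc95_pow_split m hm0]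
    exact tc95_one_add_mul B₁₂ (π ^ (c + 1)) _ _ ⟨d₂, h₂ hd₂, he₂u⟩
      (tc95_one_add_pow_mem B₁₂ (π ^ (c + 1)) _ ⟨d₁, h₁ hd₁, he₁u⟩ (m - 1))
  obtain ⟨D, hD, hyD⟩ := tc95_unique_in B₁₂ π μ hπ m hμ y hy1 c hym
  -- the difference quotient
  have hπc : (algebraMap R F π) ^ (c + 1) ≠ 0 := pow_ne_zero _ hπ
  set z : F := ((algebraMap R F π) ^ (c + 1))⁻¹ * (e₂ - e₁) with hz
  have hzπ : π ^ (c + 1) • z = e₂ - e₁ := by
    rw [Algebra.smul_def, map_pow, hz, ← mul_assoc, mul_inv_cancel₀ hπc, one_mul]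
  have hee : e₁ * e₁ ^ (m - 1) = e₁ ^ m := by
    rw [← pow_succ']; congr 1; omega
  have hbval : z * e₁ ^ (m - 1) * u = D - d₁ := by
    have h1 : π ^ (c + 1) • (z * e₁ ^ (m - 1) * u) = π ^ (c + 1) • (D - d₁) := by
      have : π ^ (c + 1) • (z * e₁ ^ (m - 1) * u) = (π ^ (c + 1) • z) * e₁ ^ (m - 1) * u := by
        simp only [Algebra.smul_def]; ring
      rw [this, hzπ, smul_sub]
      have h2 : (e₂ - e₁) * e₁ ^ (m - 1) * u = y - e₁ ^ m * u := by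
        rw [hy, ← hee]; ring
      rw [h2, hyD, he₁u]; ring
    simp only [Algebra.smul_def, map_pow] at h1
    exact mul_left_cancel₀ hπc h1
  have hbB : z * e₁ ^ (m - 1) * u ∈ B₁₂ := by
    rw [hbval]; exact B₁₂.sub_mem hD (h₁ hd₁)
  -- `z ∈ I₁₂`
  have hzI : z ^ m * u ∈ B₁₂ := by
    have ht : (e₂ - e₁) ^ m * u ∈ B₁₂ := by
      have h1 : e₁ ∈ I₁₂ := h₁ he₁B
      have h2 : e₂ ∈ I₁₂ := h₂ he₂B
      exact I₁₂.sub_mem h2 h1
    have htz : (e₂ - e₁) ^ m * u = (π ^ (c + 1)) ^ m • (z ^ m * u) := by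
      rw [← hzπ]; simp only [Algebra.smul_def, map_pow]; rw [mul_pow]; ring
    obtain ⟨x', hx', hxe⟩ := tc95_one_add_pow_mem B₁₂ (π ^ (c + 1)) (e₁ ^ m * u)
      ⟨d₁, h₁ hd₁, he₁u⟩ (m - 1)
    have hXB : π ^ (c + 1) • x' ∈ B₁₂ := B₁₂.smul_mem hx' _
    obtain ⟨s, hs⟩ := tc95_unit_ideal (⟨π ^ (c + 1) • x', hXB⟩ : B₁₂) m
    have hs' : (1 : F) = (1 + π ^ (c + 1) • x') * (s : F) + (-(π ^ (c + 1) • x')) ^ m := by
      have := congrArg Subtype.val hs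
      simpa using this
    have hbm : (z * e₁ ^ (m - 1) * u) ^ m = (z ^ m * u) * (1 + π ^ (c + 1) • x') := by
      rw [tc95_pow_split m hm0, hxe]
    have key : z ^ m * u = (s : F) * (z * e₁ ^ (m - 1) * u) ^ m +
        (-x') ^ m * ((e₂ - e₁) ^ m * u) := by
      rw [hbm, htz]
      have h3 : (-(π ^ (c + 1) • x')) ^ m = (π ^ (c + 1)) ^ m • (-x') ^ m := by
        simp only [Algebra.smul_def, map_pow]; ring
      rw [h3] at hs'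
      calc z ^ m * u = (z ^ m * u) * 1 := by ring
        _ = (z ^ m * u) * ((1 + π ^ (c + 1) • x') * (s : F) +
              (π ^ (c + 1)) ^ m • (-x') ^ m) := by rw [← hs']
        _ = _ := by simp only [Algebra.smul_def, map_pow]; ring
    rw [key]
    exact B₁₂.add_mem (B₁₂.mul_mem s.2 (B₁₂.pow_mem hbB m))
      (B₁₂.mul_mem (B₁₂.pow_mem (B₁₂.neg_mem hx') m) ht)
  -- split `z` and use the stabilised chain
  obtain ⟨i₁, i₂, s, hi₁, hi₂, hs, hzs⟩ := hsplit z hzI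
  have hi₁I : i₁ ∈ I₁ := hi₁
  have hi₂I : i₂ ∈ I₂ := hi₂
  have hsJ : (⟨s, hs⟩ : N) ∈ ch (c + 1) := by
    show (π ^ (c + 1) • (LinearMap.id : N →ₗ[R] N)) ⟨s, hs⟩ ∈ J
    rw [hJ, Submodule.mem_comap]
    simp only [LinearMap.smul_apply, LinearMap.id_coe, id_eq, Submodule.subtype_apply,
      Submodule.coe_smul]
    have : π ^ (c + 1) • s = -(e₁ + π ^ (c + 1) • i₁) + (e₂ - π ^ (c + 1) • i₂) := by
      have h4 : s = z - i₁ - i₂ := by rw [hzs]; ring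
      rw [h4, smul_sub, smul_sub, hzπ]; ring
    rw [this]
    exact Submodule.add_mem _
      (Submodule.mem_sup_left (I₁.neg_mem (I₁.add_mem he₁I (I₁.smul_mem _ hi₁I))))
      (Submodule.mem_sup_right (I₂.sub_mem he₂I (I₂.smul_mem _ hi₂I)))
  have hsc : (⟨s, hs⟩ : N) ∈ ch c := by
    rw [hc (c + 1) (Nat.le_succ c)]; exact hsJ
  have hsc' : π ^ c • s ∈ I₁ ⊔ I₂ := by
    have : (π ^ c • (LinearMap.id : N →ₗ[R] N)) ⟨s, hs⟩ ∈ J := hsc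
    rw [hJ, Submodule.mem_comap] at this
    simpa using this
  obtain ⟨α₁, hα₁, α₂, hα₂, hαs⟩ := Submodule.mem_sup.mp hsc'
  -- the global section
  have hβ₁ : π ^ c • i₁ + α₁ ∈ I₁ := I₁.add_mem (I₁.smul_mem _ hi₁I) hα₁
  have hβ₂ : π ^ c • i₂ + α₂ ∈ I₂ := I₂.add_mem (I₂.smul_mem _ hi₂I) hα₂
  refine ⟨e₁ + π • (π ^ c • i₁ + α₁), ?_, ?_, ⟨g₁, hg₁, hg₁', π ^ c • i₁ + α₁, hβ₁, rfl⟩⟩
  · have hf₀ : e₁ + π • (π ^ c • i₁ + α₁) = e₂ - π • (π ^ c • i₂ + α₂) := by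
      have h5 : e₂ - e₁ = π • (π ^ c • i₁ + α₁) + π • (π ^ c • i₂ + α₂) := by
        rw [← hzπ, hzs, ← smul_add]
        have : π ^ c • i₁ + α₁ + (π ^ c • i₂ + α₂) = π ^ c • (i₁ + i₂ + s) := by
          rw [smul_add, smul_add, ← hαs]; ring
        rw [this, smul_smul, pow_succ, mul_comm]
      linear_combination -h5
    rw [hf₀]
    exact I₂.sub_mem he₂I (I₂.smul_mem _ hβ₂)
  · obtain ⟨b, hb, hbe⟩ := tc95_add_pi B₁ m hm0 hn₁ π u e₁ (π ^ c • i₁ + α₁) he₁B hβ₁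
    refine ⟨π ^ c • d₁ + b, B₁.add_mem (B₁.smul_mem hd₁ _) hb, ?_⟩
    rw [hbe, he₁u, smul_add, smul_smul, pow_succ, mul_comm]
    ring

end Core

end Fermat.Agent.S18

namespace Fermat.Agent.S18

section Wrap

variable {R F : Type*} [CommRing R] [Field F] [Algebra R F]

/-- ROOT passes to the localisation `B₁₂ = B₁[1/h]`. -/
theorem tcw95_root_loc (B₁ B₂ B₁₂ : Subalgebra R F) (h₁ : B₁ ≤ B₁₂) (h₂ : B₂ ≤ B₁₂) (m : ℕ)
    (hm0 : m ≠ 0) (hn₁ : ∀ z : F, z ^ m ∈ B₁ → z ∈ B₁) (h : F) (hh0 : h ≠ 0) (hh₁ : h ∈ B₁)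
    (hh₂ : h⁻¹ ∈ B₂) (hloc₁ : ∀ x ∈ B₁₂, ∃ k : ℕ, h ^ k * x ∈ B₁) (z : F) (hz : z ^ m ∈ B₁₂) :
    z ∈ B₁₂ := by
  obtain ⟨k, hk⟩ := hloc₁ _ hz
  have h1 : (h ^ k * z) ^ m ∈ B₁ := by
    obtain ⟨n, rfl⟩ := Nat.exists_eq_succ_of_ne_zero hm0
    have : (h ^ k * z) ^ (n + 1) = (h ^ k) ^ n * (h ^ k * z ^ (n + 1)) := by
      rw [mul_pow, pow_succ (h ^ k) n]; ring
    rw [this]
    exact B₁.mul_mem (B₁.pow_mem (B₁.pow_mem hh₁ k) n) hk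
  have h2 : h ^ k * z ∈ B₁₂ := h₁ (hn₁ _ h1)
  have h3 : z = h⁻¹ ^ k * (h ^ k * z) := by
    rw [← mul_assoc, ← mul_pow, inv_mul_cancel₀ hh0, one_pow, one_mul]
  rw [h3]
  exact B₁₂.mul_mem (B₁₂.pow_mem (h₂ hh₂) k) h2

/-- Elements of `1 + p V` (`p` a non-unit of the valuation ring `V`) are units of `V`, and their
inverses are again in `1 + p V`. -/
theorem tcw95_inv_mem (V : ValuationSubring F) (p : F) (hpV : p⁻¹ ∉ V) (v : F)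
    (hv : v ∈ V) : 1 + p * v ≠ 0 ∧ ∃ w ∈ V, (1 + p * v)⁻¹ = 1 + p * w := by
  have hp0 : p ≠ 0 := by
    rintro rfl
    exact hpV (by rw [inv_zero]; exact zero_mem V)
  have hx0 : 1 + p * v ≠ 0 := by
    intro h0
    apply hpV
    have : p⁻¹ = -v := by
      apply inv_eq_of_mul_eq_one_right
      linear_combination -h0
    rw [this]; exact neg_mem hv
  refine ⟨hx0, ?_⟩
  have key : (1 + p * v)⁻¹ ∈ V := by
    by_cases hv0 : v = 0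
    · rw [hv0]; simp
    have hpv : p * v ≠ 0 := mul_ne_zero hp0 hv0
    rcases V.mem_or_inv_mem ((1 + p * v) * (p * v)⁻¹) with h | h
    · exfalso
      apply hpV
      have : p⁻¹ = v * ((1 + p * v) * (p * v)⁻¹ - 1) := by
        field_simp
        ring
      rw [this]
      exact mul_mem hv (sub_mem h (one_mem V))
    · have : (1 + p * v)⁻¹ = 1 - ((1 + p * v) * (p * v)⁻¹)⁻¹ := by
        field_simp
        ring
      rw [this]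
      exact sub_mem (one_mem V) h
  refine ⟨-(v * (1 + p * v)⁻¹), neg_mem (mul_mem hv key), ?_⟩
  field_simp
  ring

/-- A valuation ring is closed under `m`-th roots. -/
theorem tcw95_pow_mem_V (V : ValuationSubring F) (x : F) (m : ℕ) (hm0 : m ≠ 0)
    (hx : x ^ m ∈ V) : x ∈ V := by
  rcases V.mem_or_inv_mem x with h | h
  · exact h
  · obtain ⟨n, rfl⟩ := Nat.exists_eq_succ_of_ne_zero hm0
    by_cases hx0 : x = 0
    · rw [hx0]; exact zero_mem V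
    · have : x ^ (n + 1) * x⁻¹ ^ n = x := by
        rw [pow_succ, mul_right_comm, ← mul_pow, mul_inv_cancel₀ hx0, one_pow, one_mul]
      rw [← this]; exact mul_mem hx (pow_mem h n)

/-- The valuation ring as an `R`-subalgebra. -/
def tcw95_VR (V : ValuationSubring F) (hRV : ∀ r : R, algebraMap R F r ∈ V) : Subalgebra R F :=
  { V.toSubring.toSubsemiring with algebraMap_mem' := hRV }

theorem tcw95_mem_VR (V : ValuationSubring F) (hRV : ∀ r : R, algebraMap R F r ∈ V) (x : F) :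
    x ∈ tcw95_VR V hRV ↔ x ∈ V := Iff.rfl

/-- LP + NBAR + SAT: the ideal of reductions of `I B` is the unit ideal, so some `f ∈ 1 + π V`
has `f ^ m * u ∈ 1 + π B`. -/
theorem tcw95_exists_one (V : ValuationSubring F) (hRV : ∀ r : R, algebraMap R F r ∈ V)
    (π : R) (hπV : (algebraMap R F π)⁻¹ ∉ V) (m : ℕ) (hm0 : m ≠ 0)
    (B : Subalgebra R F) (hBV : ∀ x ∈ B, x ∈ V)
    (hn : ∀ z : F, z ^ m ∈ B → z ∈ B)
    (u : F) (hu : ∃ v ∈ V, u = 1 + π • v)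
    (hsat : ∀ x ∈ B, ∀ y ∈ V, x = π • y → y ∈ B)
    (hnbar : ∀ x ∈ V, (∃ b ∈ B, ∃ v ∈ V, x ^ m = b + π • v) → ∃ b ∈ B, ∃ v ∈ V, x = b + π • v)
    (hLP : ∀ n : Ideal B, n.IsMaximal → algebraMap R B π ∈ n →
      ∃ f : F, ∃ hf : f ^ m * u ∈ B, (⟨f ^ m * u, hf⟩ : B) ∉ n) :
    ∃ f : F, (∃ v ∈ V, f = 1 + π • v) ∧ ∃ b ∈ B, f ^ m * u = 1 + π • b := by
  classical
  obtain ⟨v₀, hv₀, huv⟩ := hu
  have hpV : algebraMap R F π ∈ V := hRV π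
  obtain ⟨hu0', w₀, hw₀, huw'⟩ := tcw95_inv_mem V _ hπV v₀ hv₀
  have hu0 : u ≠ 0 := by rw [huv, Algebra.smul_def]; exact hu0'
  have huw : u⁻¹ = 1 + π • w₀ := by rw [huv, Algebra.smul_def, Algebra.smul_def]; exact huw'
  -- the ideal of reductions
  let J : Ideal B :=
    { carrier := {b | ∃ f : F, f ^ m * u ∈ B ∧ ∃ v ∈ V, f = (b : F) + π • v}
      add_mem' := by
        rintro b b' ⟨f, hf, v, hv, e⟩ ⟨f', hf', v', hv', e'⟩
        refine ⟨f + f', tc95_add B m hn u f f' hf hf', v + v', add_mem hv hv', ?_⟩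
        rw [e, e', Subalgebra.coe_add, smul_add]; ring
      zero_mem' := ⟨0, by rw [zero_pow hm0, zero_mul]; exact B.zero_mem, 0, zero_mem V, by simp⟩
      smul_mem' := by
        rintro c b ⟨f, hf, v, hv, e⟩
        refine ⟨c * f, tc95_smul B m u c f c.2 hf, c * v, mul_mem (hBV c c.2) hv, ?_⟩
        rw [e, smul_eq_mul, Subalgebra.coe_mul, Algebra.smul_def, Algebra.smul_def]; ring }
  have hπJ : algebraMap R B π ∈ J := by
    refine ⟨0, by rw [zero_pow hm0, zero_mul]; exact B.zero_mem, -1, neg_mem (one_mem V), ?_⟩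
    rw [Subalgebra.coe_algebraMap, Algebra.smul_def]; ring
  have hJ : J = ⊤ := by
    by_contra hJne
    obtain ⟨n, hnmax, hJn⟩ := Ideal.exists_le_maximal J hJne
    obtain ⟨f, hfB, hfn⟩ := hLP n hnmax (hJn hπJ)
    have hfmV : f ^ m ∈ V := by
      have : f ^ m = (f ^ m * u) * u⁻¹ := by
        rw [mul_assoc, mul_inv_cancel₀ hu0, mul_one]
      rw [this, huw]
      exact mul_mem (hBV _ hfB) (add_mem (one_mem V) (by
        rw [Algebra.smul_def]; exact mul_mem hpV hw₀))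
    have hfV : f ∈ V := tcw95_pow_mem_V V f m hm0 hfmV
    obtain ⟨b, hb, v, hv, hfbv⟩ := hnbar f hfV ⟨f ^ m * u, hfB, f ^ m * u * w₀,
      mul_mem (hBV _ hfB) hw₀, by
        have : f ^ m = (f ^ m * u) * u⁻¹ := by
          rw [mul_assoc, mul_inv_cancel₀ hu0, mul_one]
        rw [Algebra.smul_def]
        nth_rewrite 1 [this]
        rw [huw, Algebra.smul_def]; ring⟩
    have hbJ : (⟨b, hb⟩ : B) ∈ J := ⟨f, hfB, v, hv, hfbv⟩
    have hbn : (⟨b, hb⟩ : B) ∈ n := hJn hbJ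
    have hbV : b ∈ V := hBV b hb
    -- `f ^ m - b ^ m ∈ π V`
    obtain ⟨c, hc⟩ := sub_dvd_pow_sub_pow (⟨f, hfV⟩ : V) ⟨b, hbV⟩ m
    have hc' : f ^ m - b ^ m = (f - b) * (c : F) := by
      have := congrArg Subtype.val hc
      simpa using this
    have hdiff : f ^ m * u - b ^ m = π • (v * (c : F) + f ^ m * v₀) := by
      have h1 : f - b = π • v := by rw [hfbv]; ring
      rw [h1] at hc'
      have h2 : f ^ m * u - b ^ m = (f ^ m - b ^ m) + f ^ m * (u - 1) := by ring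
      rw [h2, hc', huv]
      simp only [Algebra.smul_def]; ring
    have hyB : v * (c : F) + f ^ m * v₀ ∈ B :=
      hsat _ (B.sub_mem hfB (B.pow_mem hb m)) _
        (add_mem (mul_mem hv c.2) (mul_mem hfmV hv₀)) hdiff
    apply hfn
    have : (⟨f ^ m * u, hfB⟩ : B) = (⟨b, hb⟩ : B) ^ m +
        algebraMap R B π * ⟨v * (c : F) + f ^ m * v₀, hyB⟩ := by
      apply Subtype.ext
      simp only [Subalgebra.coe_add, Subalgebra.coe_mul, Subalgebra.coe_pow,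
        Subalgebra.coe_algebraMap]
      rw [← Algebra.smul_def, ← hdiff]; ring
    rw [this]
    obtain ⟨k, rfl⟩ := Nat.exists_eq_succ_of_ne_zero hm0
    exact n.add_mem (by rw [pow_succ]; exact n.mul_mem_left _ hbn) (n.mul_mem_right _ (hJn hπJ))
  have h1J : (1 : B) ∈ J := by rw [hJ]; trivial
  obtain ⟨f, hfB, v, hv, hfv⟩ := h1J
  rw [Subalgebra.coe_one] at hfv
  refine ⟨f, ⟨v, hv, hfv⟩, ?_⟩
  obtain ⟨y, hy, hfy⟩ := tc95_one_add_mul (tcw95_VR V hRV) π (f ^ m) u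
    (tc95_one_add_pow_mem (tcw95_VR V hRV) π f ⟨v, hv, hfv⟩ m) ⟨v₀, hv₀, huv⟩
  refine ⟨y, hsat (f ^ m * u - 1) (B.sub_mem hfB B.one_mem) y hy (by rw [hfy]; ring), hfy⟩

/-- `I₁₂ = I₁ + I₂ + N` with `N` finitely generated over `R`, when `B₁₂ = B₁[1/h] = B₂[h]`,
`B₁` lies in a finite `R[h]`-span and `u = a / b` with `a, b ∈ B₁`. -/
theorem tcw95_split [IsNoetherianRing R] (B₁ B₂ B₁₂ : Subalgebra R F) (h₁ : B₁ ≤ B₁₂)
    (m : ℕ) (hm0 : m ≠ 0)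
    (hn₁ : ∀ z : F, z ^ m ∈ B₁ → z ∈ B₁) (hn₂ : ∀ z : F, z ^ m ∈ B₂ → z ∈ B₂)
    (h : F) (hh0 : h ≠ 0) (hh₁ : h ∈ B₁) (hh₂ : h⁻¹ ∈ B₂)
    (hloc₁ : ∀ x ∈ B₁₂, ∃ k : ℕ, h ^ k * x ∈ B₁)
    (hloc₂ : ∀ x ∈ B₁₂, ∃ k : ℕ, h⁻¹ ^ k * x ∈ B₂)
    (u a b : F) (ha : a ∈ B₁) (hb : b ∈ B₁) (ha0 : a ≠ 0) (hab : u * b = a)
    (S : Finset F)
    (hfin : ∀ x ∈ B₁, ∃ c : F → Polynomial R, x = ∑ s ∈ S, Polynomial.aeval h (c s) * s) :
    ∃ N : Submodule R F, N.FG ∧ ∀ z : F, z ^ m * u ∈ B₁₂ →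
      ∃ i₁ i₂ s, i₁ ^ m * u ∈ B₁ ∧ i₂ ^ m * u ∈ B₂ ∧ s ∈ N ∧ z = i₁ + i₂ + s := by
  classical
  set P : Subalgebra R F := (Polynomial.aeval h : Polynomial R →ₐ[R] F).range with hP
  have hPB : ∀ p : F, p ∈ P → p ∈ B₁ := by
    rintro p ⟨q, rfl⟩
    show Polynomial.aeval h q ∈ B₁
    rw [Polynomial.aeval_eq_sum_range]
    exact B₁.sum_mem fun i _ => B₁.smul_mem (B₁.pow_mem hh₁ i) _
  have : IsNoetherianRing P :=
    isNoetherianRing_of_surjective (Polynomial R) P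
      (Polynomial.aeval h : Polynomial R →ₐ[R] F).rangeRestrict.toRingHom
      (AlgHom.rangeRestrict_surjective _)
  -- `I₁` as a `P`-submodule
  let I₁P : Submodule P F :=
    { carrier := {f | f ^ m * u ∈ B₁}
      add_mem' := fun {f g} hf hg => tc95_add B₁ m hn₁ u f g hf hg
      zero_mem' := by
        show (0 : F) ^ m * u ∈ B₁
        rw [zero_pow hm0, zero_mul]; exact B₁.zero_mem
      smul_mem' := fun p f hf => by
        show (p • f) ^ m * u ∈ B₁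
        rw [Subalgebra.smul_def, smul_eq_mul]
        exact tc95_smul B₁ m u _ f (hPB _ p.2) hf }
  let M : Submodule P F := Submodule.span P (S : Set F)
  have hB₁M : ∀ x ∈ B₁, x ∈ M := by
    intro x hx
    obtain ⟨c, rfl⟩ := hfin x hx
    refine Submodule.sum_mem _ fun s hs => ?_
    have : Polynomial.aeval h (c s) * s =
        (⟨Polynomial.aeval h (c s), ⟨c s, rfl⟩⟩ : P) • s := by
      rw [Subalgebra.smul_def, smul_eq_mul]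
    rw [this]
    exact Submodule.smul_mem _ _ (Submodule.subset_span hs)
  have hMnoeth : IsNoetherian P M :=
    isNoetherian_of_fg_of_noetherian M (Submodule.fg_span S.finite_toSet)
  have hmap : I₁P.map (LinearMap.mulLeft P a) ≤ M := by
    rintro x ⟨f, hf, rfl⟩
    apply hB₁M
    show a * f ∈ B₁
    apply hn₁
    obtain ⟨n, rfl⟩ := Nat.exists_eq_succ_of_ne_zero hm0
    have : (a * f) ^ (n + 1) = (f ^ (n + 1) * u) * a ^ n * b := by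
      rw [mul_pow, pow_succ a n, ← hab]; ring
    rw [this]
    exact B₁.mul_mem (B₁.mul_mem hf (B₁.pow_mem ha n)) hb
  have hmapfg : (I₁P.map (LinearMap.mulLeft P a)).FG := by
    have : IsNoetherian P (I₁P.map (LinearMap.mulLeft P a)) := isNoetherian_of_le hmap
    exact (Submodule.fg_top _).mp (IsNoetherian.noetherian ⊤)
  have hI₁fg : I₁P.FG :=
    Submodule.fg_of_fg_map_injective (LinearMap.mulLeft P a) (mul_right_injective₀ ha0) hmapfg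
  obtain ⟨G, hG⟩ := hI₁fg
  -- exponents for chart 2
  have hk : ∀ g ∈ G, ∃ k : ℕ, ∀ n, k ≤ n → (h⁻¹ ^ n * g) ^ m * u ∈ B₂ := by
    intro g hg
    have hgI : g ∈ I₁P := by rw [← hG]; exact Submodule.subset_span hg
    obtain ⟨k, hk⟩ := hloc₂ _ (h₁ hgI)
    refine ⟨k, fun n hn => ?_⟩
    obtain ⟨d, rfl⟩ := Nat.exists_eq_add_of_le hn
    obtain ⟨j, rfl⟩ := Nat.exists_eq_succ_of_ne_zero hm0
    have : (h⁻¹ ^ (k + d) * g) ^ (j + 1) * u =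
        (h⁻¹ ^ (k + d)) ^ j * h⁻¹ ^ d * (h⁻¹ ^ k * (g ^ (j + 1) * u)) := by
      rw [mul_pow, pow_succ (h⁻¹ ^ (k + d)) j, pow_add]; ring
    rw [this]
    exact B₂.mul_mem (B₂.mul_mem (B₂.pow_mem (B₂.pow_mem hh₂ _) _) (B₂.pow_mem hh₂ _)) hk
  choose! kf hkf using hk
  set n₀ : ℕ := G.sup kf with hn₀
  let N : Submodule R F := Submodule.span R
    ((fun p : F × ℕ => h⁻¹ ^ p.2 * p.1) '' ((G ×ˢ Finset.range n₀ : Finset (F × ℕ)) : Set (F × ℕ)))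
  refine ⟨N, Submodule.fg_span (Set.Finite.image _ (Finset.finite_toSet _)), ?_⟩
  set I₁ : Submodule R F := tc95_I B₁ m hm0 hn₁ u with hI₁
  set I₂ : Submodule R F := tc95_I B₂ m hm0 hn₂ u with hI₂
  set W : Submodule R F := I₁ ⊔ I₂ ⊔ N with hW
  have claimA : ∀ g ∈ G, ∀ e : ℤ, h ^ e * g ∈ W := by
    intro g hg e
    have hgI : g ^ m * u ∈ B₁ := by
      have : g ∈ I₁P := by rw [← hG]; exact Submodule.subset_span hg
      exact this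
    rcases le_or_gt 0 e with he | he
    · obtain ⟨n, rfl⟩ := Int.eq_ofNat_of_zero_le he
      rw [zpow_natCast]
      exact Submodule.mem_sup_left (Submodule.mem_sup_left
        (tc95_smul B₁ m u _ g (B₁.pow_mem hh₁ n) hgI))
    · obtain ⟨n, rfl⟩ : ∃ n : ℕ, e = -(n : ℤ) := ⟨(-e).toNat, by omega⟩
      rw [zpow_neg, zpow_natCast, ← inv_pow]
      rcases lt_or_ge n n₀ with hn | hn
      · exact Submodule.mem_sup_right (Submodule.subset_span ⟨(g, n), by simp [hg, hn], rfl⟩)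
      · exact Submodule.mem_sup_left (Submodule.mem_sup_right
          (hkf g hg n (le_trans (Finset.le_sup hg) hn)))
  have claimB : ∀ x ∈ I₁P, ∀ e : ℤ, h ^ e * x ∈ W := by
    intro x hx
    rw [← hG] at hx
    induction hx using Submodule.span_induction with
    | mem x hx => exact claimA x hx
    | zero => intro e; rw [mul_zero]; exact W.zero_mem
    | add x y _ _ hx hy => intro e; rw [mul_add]; exact W.add_mem (hx e) (hy e)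
    | smul p x _ hx =>
      intro e
      obtain ⟨q, hq⟩ := p.2
      have : h ^ e * (p • x) =
          ∑ i ∈ Finset.range (q.natDegree + 1), q.coeff i • (h ^ (e + (i : ℤ)) * x) := by
        rw [Subalgebra.smul_def, smul_eq_mul, ← hq]
        show h ^ e * (Polynomial.aeval h q * x) = _
        rw [Polynomial.aeval_eq_sum_range, Finset.sum_mul, Finset.mul_sum]
        refine Finset.sum_congr rfl fun i _ => ?_
        rw [zpow_add₀ hh0, zpow_natCast]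
        simp only [Algebra.smul_def]; ring
      rw [this]
      exact W.sum_mem fun i _ => W.smul_mem _ (hx _)
  intro z hz
  obtain ⟨k, hk⟩ := hloc₁ _ hz
  have hkz : h ^ k * z ∈ I₁P := by
    show (h ^ k * z) ^ m * u ∈ B₁
    obtain ⟨j, rfl⟩ := Nat.exists_eq_succ_of_ne_zero hm0
    have : (h ^ k * z) ^ (j + 1) * u = (h ^ k) ^ j * (h ^ k * (z ^ (j + 1) * u)) := by
      rw [mul_pow, pow_succ (h ^ k) j]; ring
    rw [this]
    exact B₁.mul_mem (B₁.pow_mem (B₁.pow_mem hh₁ _) _) hk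
  have hzW : z ∈ W := by
    have := claimB _ hkz (-(k : ℤ))
    rwa [zpow_neg, zpow_natCast, ← mul_assoc, inv_mul_cancel₀ (pow_ne_zero _ hh0), one_mul] at this
  obtain ⟨y, hy, s, hs, rfl⟩ := Submodule.mem_sup.mp hzW
  obtain ⟨i₁, hi₁, i₂, hi₂, rfl⟩ := Submodule.mem_sup.mp hy
  exact ⟨i₁, i₂, s, hi₁, hi₂, hs, rfl⟩

/-- **The two-chart lemma, assembled.**  `R` noetherian, `m` a unit of `R`, `V` a valuation
ring of `F` over `R` in which `π` is a non-unit; two charts `B₁ ∋ h`, `B₂ ∋ h⁻¹` with common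
localisation `B₁₂ ⊆ V`; `B₁` inside a finite `R[h]`-span; `u = a / b ∈ 1 + π V`.  If the charts
are `π`-saturated in `V` (SAT), closed under `m`-th roots (ROOT) and so are their reductions
(NBAR), and if locally at every closed point of the special fibre `u` is a unit times an `m`-th
power (LP), then there is a global `f₀ ∈ 1 + π V` with `f₀ ^ m * u ∈ B₁ ∩ B₂`. -/
theorem tcw95_main [IsNoetherianRing R] (π μ : R) (m : ℕ) (hm0 : m ≠ 0) (hμ : (m : R) * μ = 1)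
    (V : ValuationSubring F) (hRV : ∀ r : R, algebraMap R F r ∈ V)
    (hπV : (algebraMap R F π)⁻¹ ∉ V)
    (B₁ B₂ B₁₂ : Subalgebra R F) (h₁ : B₁ ≤ B₁₂) (h₂ : B₂ ≤ B₁₂) (h₁₂V : ∀ x ∈ B₁₂, x ∈ V)
    (u : F) (hu : ∃ v ∈ V, u = 1 + π • v)
    (h : F) (hh0 : h ≠ 0) (hh₁ : h ∈ B₁) (hh₂ : h⁻¹ ∈ B₂)
    (hloc₁ : ∀ x ∈ B₁₂, ∃ k : ℕ, h ^ k * x ∈ B₁)
    (hloc₂ : ∀ x ∈ B₁₂, ∃ k : ℕ, h⁻¹ ^ k * x ∈ B₂)
    (S : Finset F)
    (hfin : ∀ x ∈ B₁, ∃ c : F → Polynomial R, x = ∑ s ∈ S, Polynomial.aeval h (c s) * s)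
    (a b : F) (ha : a ∈ B₁) (hb : b ∈ B₁) (hb0 : b ≠ 0) (hab : u * b = a)
    (hsat₁ : ∀ x ∈ B₁, ∀ y ∈ V, x = π • y → y ∈ B₁)
    (hsat₂ : ∀ x ∈ B₂, ∀ y ∈ V, x = π • y → y ∈ B₂)
    (hsat₁₂ : ∀ x ∈ B₁₂, ∀ y ∈ V, x = π • y → y ∈ B₁₂)
    (hn₁ : ∀ z : F, z ^ m ∈ B₁ → z ∈ B₁) (hn₂ : ∀ z : F, z ^ m ∈ B₂ → z ∈ B₂)
    (hnbar₁ : ∀ x ∈ V, (∃ b ∈ B₁, ∃ v ∈ V, x ^ m = b + π • v) → ∃ b ∈ B₁, ∃ v ∈ V, x = b + π • v)
    (hnbar₂ : ∀ x ∈ V, (∃ b ∈ B₂, ∃ v ∈ V, x ^ m = b + π • v) → ∃ b ∈ B₂, ∃ v ∈ V, x = b + π • v)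
    (hLP₁ : ∀ n : Ideal B₁, n.IsMaximal → algebraMap R B₁ π ∈ n →
      ∃ f : F, ∃ hf : f ^ m * u ∈ B₁, (⟨f ^ m * u, hf⟩ : B₁) ∉ n)
    (hLP₂ : ∀ n : Ideal B₂, n.IsMaximal → algebraMap R B₂ π ∈ n →
      ∃ f : F, ∃ hf : f ^ m * u ∈ B₂, (⟨f ^ m * u, hf⟩ : B₂) ∉ n) :
    ∃ f₀ : F, f₀ ^ m * u ∈ B₁ ∧ f₀ ^ m * u ∈ B₂ ∧ ∃ v ∈ V, f₀ = 1 + π • v := by
  classical
  have hπ : algebraMap R F π ≠ 0 := by
    intro h0; apply hπV; rw [h0, inv_zero]; exact zero_mem V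
  have hpV : algebraMap R F π ∈ V := hRV π
  have hB₁V : ∀ x ∈ B₁, x ∈ V := fun x hx => h₁₂V x (h₁ hx)
  have hB₂V : ∀ x ∈ B₂, x ∈ V := fun x hx => h₁₂V x (h₂ hx)
  have hn₁₂ : ∀ z : F, z ^ m ∈ B₁₂ → z ∈ B₁₂ :=
    tcw95_root_loc B₁ B₂ B₁₂ h₁ h₂ m hm0 hn₁ h hh0 hh₁ hh₂ hloc₁
  obtain ⟨f₁, ⟨v₁, hv₁, hf₁v⟩, hf₁⟩ :=
    tcw95_exists_one V hRV π hπV m hm0 B₁ hB₁V hn₁ u hu hsat₁ hnbar₁ hLP₁
  obtain ⟨f₂, ⟨v₂, hv₂, hf₂v⟩, hf₂⟩ :=
    tcw95_exists_one V hRV π hπV m hm0 B₂ hB₂V hn₂ u hu hsat₂ hnbar₂ hLP₂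
  have hf₁₂ : ∃ b ∈ B₁₂, f₂ * f₁ ^ (m - 1) * u = 1 + π • b := by
    have hmem : f₂ * f₁ ^ (m - 1) * u ∈ B₁₂ := by
      apply hn₁₂
      rw [tc95_pow_split m hm0]
      obtain ⟨b₁, hb₁, e₁⟩ := hf₁
      obtain ⟨b₂, hb₂, e₂⟩ := hf₂
      have hB1 : f₁ ^ m * u ∈ B₁ := by
        rw [e₁]; exact B₁.add_mem B₁.one_mem (B₁.smul_mem hb₁ _)
      have hB2 : f₂ ^ m * u ∈ B₂ := by
        rw [e₂]; exact B₂.add_mem B₂.one_mem (B₂.smul_mem hb₂ _)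
      exact B₁₂.mul_mem (h₂ hB2) (B₁₂.pow_mem (h₁ hB1) _)
    obtain ⟨y, hy, hye⟩ := tc95_one_add_mul (tcw95_VR V hRV) π (f₂ * f₁ ^ (m - 1)) u
      (tc95_one_add_mul (tcw95_VR V hRV) π f₂ (f₁ ^ (m - 1)) ⟨v₂, hv₂, hf₂v⟩
        (tc95_one_add_pow_mem (tcw95_VR V hRV) π f₁ ⟨v₁, hv₁, hf₁v⟩ (m - 1))) hu
    exact ⟨y, hsat₁₂ _ (B₁₂.sub_mem hmem B₁₂.one_mem) y hy (by rw [hye]; ring), hye⟩
  obtain ⟨v₀, hv₀, huv⟩ := hu
  obtain ⟨hu0', w₀, hw₀, huw'⟩ := tcw95_inv_mem V _ hπV v₀ hv₀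
  have hu0 : u ≠ 0 := by rw [huv, Algebra.smul_def]; exact hu0'
  have huinvV : u⁻¹ ∈ V := by
    rw [huv, Algebra.smul_def, huw']
    exact add_mem (one_mem V) (mul_mem hpV hw₀)
  have ha0 : a ≠ 0 := by rw [← hab]; exact mul_ne_zero hu0 hb0
  obtain ⟨N, hNfg, hsplit⟩ := tcw95_split B₁ B₂ B₁₂ h₁ m hm0 hn₁ hn₂ h hh0 hh₁ hh₂ hloc₁ hloc₂
    u a b ha hb ha0 hab S hfin
  obtain ⟨f₀, hf₀B₂, ⟨b₀, hb₀, hf₀e⟩, g, hg, ⟨bg, hbg, hge⟩, j, hj, hf₀j⟩ :=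
    tcw95_core π μ hπ m hm0 hμ B₁ B₂ B₁₂ h₁ h₂ hn₁ hn₂ hn₁₂ u f₁ f₂ hf₁ hf₂ hf₁₂ N hNfg hsplit
  refine ⟨f₀, by rw [hf₀e]; exact B₁.add_mem B₁.one_mem (B₁.smul_mem hb₀ _), hf₀B₂, ?_⟩
  have hjV : j ∈ V := by
    apply tcw95_pow_mem_V V j m hm0
    have : j ^ m = (j ^ m * u) * u⁻¹ := by
      rw [mul_assoc, mul_inv_cancel₀ hu0, mul_one]
    rw [this]
    exact mul_mem (hB₁V _ hj) huinvV
  obtain ⟨y, hy, hye⟩ := tc95_one_add_mul (tcw95_VR V hRV) π f₁ g ⟨v₁, hv₁, hf₁v⟩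
    ⟨bg, hB₁V _ hbg, hge⟩
  exact ⟨y + j, add_mem hy hjV, by rw [hf₀j, hye, smul_add]; ring⟩

end Wrap

end Fermat.Agent.S18
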