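import Fermat.Agent.S18.Purity51

/-!
# S18, row B5-(V), abstract core (helper90): vertical self-duality from a reduction map

`O` a UFD, `E = Frac O`, `L / E` a field extension, `p` a prime element of `O`, `B` the integral
closure of `O` in `L` (as a subring of `L`).  Suppose there are a "residue" field extension
`Lb / Eb`, ring homs `ρ : O → Eb` (kernel `(p)`) and `φ : B → Lb` compatible with `ρ`, and a
family `b : Fin n → B` whose reductions form an `Eb`-basis of `Lb`, where `n` bounds the size of
`O`-independent families in `L`.  If `Lb / Eb` is separable, then the integral closure of `O` in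
`L` is trace-self-dual at `p` (`PurSelfDualAt O E L p`).

All names are prefixed `va90_`.
-/

set_option autoImplicit false
set_option linter.unusedSectionVars false

namespace Fermat.Agent.S18

section Abstract

variable {O E L : Type*} [CommRing O] [IsDomain O] [UniqueFactorizationMonoid O]
  [Field E] [Algebra O E] [IsFractionRing O E]
  [Field L] [Algebra E L] [Algebra O L] [IsScalarTower O E L]

include E in
theorem va90_algebraMap_injective : Function.Injective (algebraMap O L) := by
  rw [IsScalarTower.algebraMap_eq O E L]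
  exact (algebraMap E L).injective.comp (IsFractionRing.injective O E)

/-- Divisibility induction: if `p ∣ d` and `d w = ∑ a i b i` always force `p ∣ a i`, then
`p ^ m ∣ d` forces `p ^ m ∣ a i`. -/
theorem va90_pow_dvd (hinj : Function.Injective (algebraMap O L))
    {p : O} (hp : Prime p) {n : ℕ} (b : Fin n → L) (w : L)
    (hQ : ∀ (d : O) (a : Fin n → O), p ∣ d →
      algebraMap O L d * w = ∑ i, algebraMap O L (a i) * b i → ∀ i, p ∣ a i)
    (m : ℕ) : ∀ (d : O) (a : Fin n → O), p ^ m ∣ d →
      algebraMap O L d * w = ∑ i, algebraMap O L (a i) * b i → ∀ i, p ^ m ∣ a i := by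
  induction m with
  | zero => intro d a _ _ i; simp
  | succ m ih =>
    intro d a hd h i
    have hpd : p ∣ d := dvd_trans (dvd_pow_self p (Nat.succ_ne_zero m)) hd
    have h1 := hQ d a hpd h
    choose a' ha' using h1
    obtain ⟨d', hd'⟩ := hd
    have h2 : algebraMap O L (p ^ m * d') * w = ∑ i, algebraMap O L (a' i) * b i := by
      have hp0 : algebraMap O L p ≠ 0 := fun h0 => hp.ne_zero (hinj (by rw [h0, map_zero]))
      apply mul_left_cancel₀ hp0
      rw [Finset.mul_sum, ← mul_assoc, ← map_mul, ← mul_assoc, ← pow_succ', ← hd', h]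
      refine Finset.sum_congr rfl fun i _ => ?_
      rw [ha' i, map_mul, mul_assoc]
    rw [ha' i, pow_succ']
    exact mul_dvd_mul_left p (ih _ a' (dvd_mul_right _ _) h2 i)

/-- Consequence: a denominator can be chosen prime to `p`. -/
theorem va90_exists_not_dvd (hinj : Function.Injective (algebraMap O L))
    {p : O} (hp : Prime p) {n : ℕ} (b : Fin n → L) (w : L)
    (hQ : ∀ (d : O) (a : Fin n → O), p ∣ d →
      algebraMap O L d * w = ∑ i, algebraMap O L (a i) * b i → ∀ i, p ∣ a i)
    (d : O) (hd : d ≠ 0) (a : Fin n → O)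
    (h : algebraMap O L d * w = ∑ i, algebraMap O L (a i) * b i) :
    ∃ (s : O) (a' : Fin n → O), ¬ p ∣ s ∧
      algebraMap O L s * w = ∑ i, algebraMap O L (a' i) * b i := by
  obtain ⟨k, s, hs, rfl⟩ := WfDvdMonoid.max_power_factor hd hp.irreducible
  have h1 := va90_pow_dvd hinj hp b w hQ k _ a (dvd_mul_right _ _) h
  choose a' ha' using h1
  refine ⟨s, a', hs, ?_⟩
  have hpk : algebraMap O L (p ^ k) ≠ 0 := fun h0 =>
    pow_ne_zero k hp.ne_zero (hinj (by rw [h0, map_zero]))
  apply mul_left_cancel₀ hpk
  rw [← mul_assoc, ← map_mul, h, Finset.mul_sum]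
  refine Finset.sum_congr rfl fun i _ => ?_
  rw [ha' i, map_mul, mul_assoc]

/-- The trace of an element whose multiplication matrix in a basis is known. -/
theorem va90_trace_eq_sum {R₁ S₁ : Type*} [CommRing R₁] [CommRing S₁] [Algebra R₁ S₁]
    {ι : Type*} [Fintype ι] [DecidableEq ι] (b : Module.Basis ι R₁ S₁) (x : S₁)
    (A : ι → ι → R₁) (h : ∀ k, x * b k = ∑ i, A i k • b i) :
    Algebra.trace R₁ S₁ x = ∑ i, A i i := by
  rw [Algebra.trace_eq_matrix_trace b x, Matrix.trace]
  refine Finset.sum_congr rfl fun i _ => ?_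
  rw [Matrix.diag_apply, Algebra.leftMulMatrix_eq_repr_mul, h i, b.repr_sum_self]

/-- **Vertical self-duality from a reduction map.** -/
theorem va90_selfDual {Eb Lb : Type*} [Field Eb] [Field Lb] [Algebra Eb Lb]
    [Algebra.IsSeparable Eb Lb]
    (p : O) (hp : Prime p)
    (ρ : O →+* Eb) (hρ : ∀ a, ρ a = 0 ↔ p ∣ a)
    (B : Subring L) (hB : ∀ x, x ∈ B ↔ IsIntegral O x)
    (φ : ↥B →+* Lb)
    (hφρ : ∀ (a : O) (h : algebraMap O L a ∈ B),
      φ ⟨algebraMap O L a, h⟩ = algebraMap Eb Lb (ρ a))
    {n : ℕ} (b : Fin n → ↥B)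
    (hli : LinearIndependent Eb (fun i => φ (b i)))
    (hspan : ⊤ ≤ Submodule.span Eb (Set.range fun i => φ (b i)))
    (hcard : ∀ (n' : ℕ) (c : Fin n' → L), LinearIndependent O c → n' ≤ n) :
    PurSelfDualAt O E L p := by
  classical
  have hinj : Function.Injective (algebraMap O L) := va90_algebraMap_injective (E := E)
  have hmemO : ∀ a : O, algebraMap O L a ∈ B := fun a => (hB _).mpr isIntegral_algebraMap
  -- the coefficient embedding `O → B`
  let cB : O →+* ↥B := (algebraMap O L).codRestrict B hmemO
  have hcB : ∀ a, ((cB a : ↥B) : L) = algebraMap O L a := fun a => rfl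
  have hφc : ∀ a : O, φ (cB a) = algebraMap Eb Lb (ρ a) := fun a => hφρ a _
  -- reductions of combinations
  have hcomb : ∀ a : Fin n → O, φ (∑ i, cB (a i) * b i) = ∑ i, ρ (a i) • φ (b i) := by
    intro a
    rw [map_sum]
    refine Finset.sum_congr rfl fun i _ => ?_
    rw [map_mul, hφc, Algebra.smul_def]
  have hdiv : ∀ a : Fin n → O, φ (∑ i, cB (a i) * b i) = 0 → ∀ i, p ∣ a i := by
    intro a h i
    rw [hcomb] at h
    exact (hρ _).mp (Fintype.linearIndependent_iff.mp hli (fun i => ρ (a i)) h i)
  have hcoe : ∀ a : Fin n → O,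
      ((∑ i, cB (a i) * b i : ↥B) : L) = ∑ i, algebraMap O L (a i) * (b i : L) := by
    intro a
    change B.subtype (∑ i, cB (a i) * b i) = _
    rw [map_sum]
    rfl
  -- `Q` for integral elements
  have hQint : ∀ w : ↥B, ∀ (d : O) (a : Fin n → O), p ∣ d →
      algebraMap O L d * (w : L) = ∑ i, algebraMap O L (a i) * (b i : L) → ∀ i, p ∣ a i := by
    intro w d a hd h
    apply hdiv
    have h1 : ∑ i, cB (a i) * b i = cB d * w := Subtype.ext (by rw [hcoe, ← h]; rfl)
    rw [h1, map_mul, hφc, (hρ d).mpr hd, map_zero, zero_mul]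
  -- `O`-linear independence of `b`
  have hliO : LinearIndependent O (fun i => (b i : L)) := by
    rw [Fintype.linearIndependent_iff]
    intro g hg i
    by_contra hgi
    obtain ⟨m, hm⟩ := FiniteMultiplicity.of_not_isUnit hp.not_isUnit hgi
    refine hm (va90_pow_dvd hinj hp (fun i => (b i : L)) ((0 : ↥B) : L) (hQint 0) (m + 1) 0 g
      (dvd_zero _) ?_ i)
    rw [map_zero, zero_mul, ← hg]
    refine Finset.sum_congr rfl fun i _ => ?_
    rw [Algebra.smul_def]
  have hliE : LinearIndependent E (fun i => (b i : L)) :=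
    (LinearIndependent.iff_fractionRing O E).mp hliO
  have hspanE : ⊤ ≤ Submodule.span E (Set.range fun i => (b i : L)) := by
    intro x _
    by_contra hx
    have h1 : LinearIndependent E (Fin.cons x (fun i => (b i : L)) : Fin (n + 1) → L) :=
      linearIndependent_finCons.mpr ⟨hliE, hx⟩
    have h2 := hcard _ _ ((LinearIndependent.iff_fractionRing O E).mpr h1)
    omega
  let bE : Module.Basis (Fin n) E L := Module.Basis.mk hliE hspanE
  have hbE : ∀ i, bE i = (b i : L) := fun i => Module.Basis.mk_apply hliE hspanE i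
  let bb : Module.Basis (Fin n) Eb Lb := Module.Basis.mk hli hspan
  have hbb : ∀ i, bb i = φ (b i) := fun i => Module.Basis.mk_apply hli hspan i
  have : Module.Finite E L := Module.Finite.of_basis bE
  have : Module.Finite Eb Lb := Module.Finite.of_basis bb
  -- every element has a representation with a nonzero denominator
  have hrep : ∀ w : L, ∃ (d : O) (a : Fin n → O), d ≠ 0 ∧
      algebraMap O L d * w = ∑ i, algebraMap O L (a i) * (b i : L) := by
    intro w
    obtain ⟨⟨d, hd⟩, hda⟩ := IsLocalization.exist_integer_multiples_of_finite (nonZeroDivisors O)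
      (fun i => bE.repr w i)
    choose a ha using hda
    refine ⟨d, a, nonZeroDivisors.ne_zero hd, ?_⟩
    conv_lhs => rw [← bE.sum_repr w]
    rw [Finset.mul_sum]
    refine Finset.sum_congr rfl fun i _ => ?_
    have h1 : algebraMap O E (a i) = algebraMap O E d * bE.repr w i := by
      rw [ha i, Algebra.smul_def]
    rw [hbE, IsScalarTower.algebraMap_apply O E L (a i), h1, map_mul, Algebra.smul_def,
      ← IsScalarTower.algebraMap_apply, mul_assoc]
  -- integral elements: denominators prime to `p`
  have hstruct : ∀ w : ↥B, ∃ (s : O) (a : Fin n → O), ¬ p ∣ s ∧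
      algebraMap O L s * (w : L) = ∑ i, algebraMap O L (a i) * (b i : L) := by
    intro w
    obtain ⟨d, a, hd, h⟩ := hrep w
    exact va90_exists_not_dvd hinj hp _ _ (hQint w) d hd a h
  have hρne : ∀ s : O, ¬ p ∣ s → ρ s ≠ 0 := fun s hs h0 => hs ((hρ s).mp h0)
  -- trace reduction
  have htred : ∀ (w : ↥B) (t : O), algebraMap O E t = Algebra.trace E L (w : L) →
      ρ t = Algebra.trace Eb Lb (φ w) := by
    intro w t ht
    choose s a hs ha using fun k => hstruct (w * b k)
    have hE : Algebra.trace E L (w : L) =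
        ∑ i, algebraMap O E (a i i) / algebraMap O E (s i) := by
      apply va90_trace_eq_sum bE (w : L) (fun i k => algebraMap O E (a k i) / algebraMap O E (s k))
      intro k
      have hsk : algebraMap O L (s k) ≠ 0 := fun h0 =>
        hs k (by rw [hinj (h0.trans (map_zero _).symm)]; exact dvd_zero p)
      have h1 : ∀ i, (algebraMap O E (a k i) / algebraMap O E (s k)) • bE i =
          (algebraMap O L (s k))⁻¹ * (algebraMap O L (a k i) * (b i : L)) := by
        intro i
        rw [Algebra.smul_def, map_div₀, ← IsScalarTower.algebraMap_apply,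
          ← IsScalarTower.algebraMap_apply, hbE, div_eq_inv_mul, mul_assoc]
      rw [Finset.sum_congr rfl (fun i _ => h1 i), ← Finset.mul_sum, ← ha k, ← mul_assoc,
        inv_mul_cancel₀ hsk, one_mul, hbE]
      rfl
    have hEb : Algebra.trace Eb Lb (φ w) = ∑ i, ρ (a i i) / ρ (s i) := by
      apply va90_trace_eq_sum bb (φ w) (fun i k => ρ (a k i) / ρ (s k))
      intro k
      have hsk : ρ (s k) ≠ 0 := hρne _ (hs k)
      have h1 : cB (s k) * (w * b k) = ∑ i, cB (a k i) * b i :=
        Subtype.ext (by rw [hcoe, ← ha k]; rfl)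
      have h2 := congrArg φ h1
      rw [hcomb, map_mul, hφc, map_mul] at h2
      have h3 : ∀ i, (ρ (a k i) / ρ (s k)) • bb i = (ρ (s k))⁻¹ • (ρ (a k i) • φ (b i)) := by
        intro i
        rw [smul_smul, hbb, div_eq_inv_mul]
      rw [Finset.sum_congr rfl (fun i _ => h3 i), ← Finset.smul_sum, ← h2, ← Algebra.smul_def,
        smul_smul, inv_mul_cancel₀ hsk, one_smul, hbb]
    rw [hEb]
    rw [hE] at ht
    set S : O := ∏ i, s i with hS
    have hST : ∀ i, s i * ∏ j ∈ Finset.univ.erase i, s j = S := fun i =>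
      Finset.mul_prod_erase Finset.univ s (Finset.mem_univ i)
    have hSp : ¬ p ∣ S := by
      rw [hS, hp.dvd_finsetProd_iff]
      rintro ⟨i, -, hi⟩
      exact hs i hi
    have hsE : ∀ i, algebraMap O E (s i) ≠ 0 := fun i h0 =>
      hs i (by rw [IsFractionRing.injective O E (h0.trans (map_zero _).symm)]; exact dvd_zero p)
    have h1 : S * t = ∑ i, (∏ j ∈ Finset.univ.erase i, s j) * a i i := by
      apply IsFractionRing.injective O E
      rw [map_mul, ht, Finset.mul_sum, map_sum]
      refine Finset.sum_congr rfl fun i _ => ?_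
      rw [← hST i, map_mul, map_mul]
      field_simp [hsE i]
    have h2 := congrArg ρ h1
    rw [map_mul, map_sum] at h2
    apply mul_left_cancel₀ (hρne S hSp)
    rw [h2, Finset.mul_sum]
    refine Finset.sum_congr rfl fun i _ => ?_
    rw [← hST i, map_mul, map_mul]
    field_simp [hρne _ (hs i)]
  -- the main argument
  intro y hy
  have hQy : ∀ (d : O) (a : Fin n → O), p ∣ d →
      algebraMap O L d * y = ∑ i, algebraMap O L (a i) * (b i : L) → ∀ i, p ∣ a i := by
    intro d a hd h
    apply hdiv
    set z : ↥B := ∑ i, cB (a i) * b i with hz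
    have hzL : (z : L) = algebraMap O L d * y := by rw [hz, hcoe, h]
    have htr : ∀ k, Algebra.trace Eb Lb (φ z * φ (b k)) = 0 := by
      intro k
      obtain ⟨a', s', hs', h'⟩ := hy (b k : L) ((hB _).mp (b k).2)
      obtain ⟨t, ht⟩ := pur_trace_mem (O := O) (E := E) (L := L) ((hB _).mp (z * b k).2)
      have h1 : Algebra.trace E L ((z * b k : ↥B) : L) =
          algebraMap O E d * Algebra.trace E L (y * (b k : L)) := by
        rw [← pur_trace_smul, ← mul_assoc, ← hzL]
        rfl
      have h2 : t * s' = d * a' := by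
        apply IsFractionRing.injective O E
        rw [map_mul, map_mul, ht, h1, mul_assoc, h']
      have h3 : p ∣ t := by
        have h4 : p ∣ t * s' := h2 ▸ Dvd.dvd.mul_right hd a'
        exact (hp.dvd_or_dvd h4).resolve_right hs'
      rw [← map_mul, ← htred (z * b k) t ht, (hρ t).mpr h3]
    have h0 : Algebra.traceForm Eb Lb (φ z) = 0 := by
      apply bb.ext
      intro k
      rw [hbb, Algebra.traceForm_apply, htr k]
      rfl
    exact (traceForm_nondegenerate Eb Lb).1 (φ z) (fun x => by rw [h0]; rfl)
  obtain ⟨d, a, hd, h⟩ := hrep y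
  obtain ⟨s, a', hs, h'⟩ := va90_exists_not_dvd hinj hp _ y hQy d hd a h
  refine ⟨s, hs, (hB _).mp ?_⟩
  rw [h', ← hcoe]
  exact Subtype.property _

end Abstract

end Fermat.Agent.S18
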