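import Mathlib
import Fermat.Agent.S18.VertTransfer95

/-!
# S18, row B3c: the vertical package on a chart `R[g]` from the `j`-line (helper95)

Instantiation of `VertTransfer95` for polynomial rings: `O₀ = R[X]` acting on the field `L`
through `X ↦ j` and the chart `O = R[X]` acting through `X ↦ g` (`g` = a Hauptmodul `h` or its
inverse), related by `j * g ^ a = N(g)`, with `g` and `g⁻¹` integral over `R[j]`.

* `vt95_chart_selfDual` : `PurSelfDualAt R[X] E L (C π)` on the chart from the `j`-line;
* `vt95_chart_prime`    : `π C` is a prime ideal of the integral closure `C` of the chart;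
* `vt95_chart_sat`      : `π`-saturation of `C` inside the integral closure of `R[j]`.

The two `R[X]`-algebra structures on `L` are kept apart by the type copy `vt95_Jline c j`.
-/

set_option autoImplicit false
set_option linter.style.haveILetI false

open Polynomial

namespace Fermat.Agent.S18

universe u v

/-- A copy of `R[X]`, acting on `L` through `c : R → L` and `X ↦ j`. -/
def vt95_Jline {R : Type u} {L : Type v} [CommRing R] [Field L] (_c : R →+* L) (_j : L) :
    Type u := Polynomial R

section Inst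

variable {R : Type u} {L : Type v} [CommRing R] [Field L] (c : R →+* L) (j : L)

noncomputable instance vt95_instCommRing : CommRing (vt95_Jline c j) :=
  inferInstanceAs (CommRing (Polynomial R))

instance vt95_instIsDomain [IsDomain R] : IsDomain (vt95_Jline c j) :=
  inferInstanceAs (IsDomain (Polynomial R))

instance vt95_instUFM [IsDomain R] [UniqueFactorizationMonoid R] :
    UniqueFactorizationMonoid (vt95_Jline c j) :=
  inferInstanceAs (UniqueFactorizationMonoid (Polynomial R))

noncomputable instance vt95_instAlgebra : Algebra (vt95_Jline c j) L :=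
  (Polynomial.eval₂RingHom c j).toAlgebra

theorem vt95_algebraMap_J (P : Polynomial R) :
    algebraMap (vt95_Jline c j) L P = P.eval₂ c j := rfl

end Inst

section Rel

variable {R : Type u} {L : Type v} [CommRing R] [Field L] (c : R →+* L) (j g : L)

/-- `R[j] ⊆ R[g][1/g]` when `j * g ^ a = N(g)`. -/
theorem vt95_rel_h1 (N : Polynomial R) (a : ℕ) (hrel : j * g ^ a = N.eval₂ c g)
    (p : Polynomial R) :
    ∃ (k : ℕ) (o : Polynomial R), p.eval₂ c j * g ^ k = o.eval₂ c g := by
  induction p using Polynomial.induction_on with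
  | C r => exact ⟨0, C r, by simp⟩
  | add p q hp hq =>
    obtain ⟨k₁, o₁, h₁⟩ := hp
    obtain ⟨k₂, o₂, h₂⟩ := hq
    refine ⟨k₁ + k₂, o₁ * X ^ k₂ + o₂ * X ^ k₁, ?_⟩
    rw [eval₂_add, eval₂_add, eval₂_mul, eval₂_mul, eval₂_X_pow, eval₂_X_pow, ← h₁, ← h₂,
      pow_add]
    ring
  | monomial n r ih =>
    obtain ⟨k, o, h⟩ := ih
    refine ⟨k + a, o * N, ?_⟩
    have e1 : (C r * X ^ (n + 1) : Polynomial R).eval₂ c j = c r * j ^ n * j := by
      rw [eval₂_mul, eval₂_C, eval₂_X_pow, pow_succ, mul_assoc]
    have e2 : (C r * X ^ n : Polynomial R).eval₂ c j = c r * j ^ n := by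
      rw [eval₂_mul, eval₂_C, eval₂_X_pow]
    rw [e2] at h
    rw [e1, eval₂_mul (f := c) (x := g), ← h, ← hrel, pow_add]
    ring

/-- `R[g]` is integral over `R[j]` when `g` is. -/
theorem vt95_rel_h2 (hint : IsIntegral (vt95_Jline c j) g) (o : Polynomial R) :
    IsIntegral (vt95_Jline c j) (o.eval₂ c g) := by
  rw [eval₂_eq_sum_range]
  refine IsIntegral.sum _ fun i _ => ?_
  refine IsIntegral.mul ?_ (hint.pow i)
  have : c (o.coeff i) = algebraMap (vt95_Jline c j) L (C (o.coeff i) : Polynomial R) := by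
    rw [vt95_algebraMap_J, eval₂_C]
  rw [this]
  exact isIntegral_algebraMap

end Rel

section Chart

variable {R : Type u} {L : Type v} [CommRing R] [IsDomain R] [UniqueFactorizationMonoid R]
  [Field L]

omit [IsDomain R] [UniqueFactorizationMonoid R] in
theorem vt95_not_C_dvd_X {π : R} (hπ : Prime π) : ¬ (C π : Polynomial R) ∣ X := by
  intro h
  have h1 := (Polynomial.C_dvd_iff_dvd_coeff π X).mp h 1
  rw [coeff_X_one] at h1
  exact hπ.not_isUnit (isUnit_of_dvd_one h1)

/-- **(V) on a chart.**  `c : R → L` the constants, `j g : L` with `j * g ^ a = N(g)`, `g` and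
`g⁻¹` integral over `R[j]`.  If the integral closure of `R[j]` in `L` is trace-self-dual at the
vertical prime `π` (`instJ`, `E₀`: any `R[X]`-algebra structure on `L` with `X ↦ j` and any
model of `Frac R[X]` for it), then so is the integral closure of the chart `R[g]` (the ambient
`R[X]`-algebra structure on `L`, `X ↦ g`, with any model `E`). -/
theorem vt95_chart_selfDual (c : R →+* L) (j g : L) (π : R) (hπ : Prime π)
    (instJ : Algebra (Polynomial R) L)
    (hJ : ∀ P : Polynomial R, @algebraMap _ _ _ _ instJ P = P.eval₂ c j)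
    (E₀ : Type*) [Field E₀] [Algebra (Polynomial R) E₀] [IsFractionRing (Polynomial R) E₀]
    [Algebra E₀ L]
    (htowJ : ∀ P : Polynomial R, algebraMap E₀ L (algebraMap (Polynomial R) E₀ P) = P.eval₂ c j)
    [FiniteDimensional E₀ L]
    (hSDj : @PurSelfDualAt (Polynomial R) E₀ L _ _ _ _ _ instJ (C π))
    [instG : Algebra (Polynomial R) L]
    (halg : ∀ P : Polynomial R, @algebraMap _ _ _ _ instG P = P.eval₂ c g)
    (E : Type*) [Field E] [Algebra (Polynomial R) E] [IsFractionRing (Polynomial R) E]
    [Algebra E L] [IsScalarTower (Polynomial R) E L]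
    (hg : g ≠ 0) (N : Polynomial R) (a : ℕ) (hrel : j * g ^ a = N.eval₂ c g)
    (hint : (Polynomial.eval₂RingHom c j).IsIntegralElem g)
    (hint' : (Polynomial.eval₂RingHom c j).IsIntegralElem g⁻¹) :
    @PurSelfDualAt (Polynomial R) E L _ _ _ _ _ instG (C π) := by
  classical
  obtain rfl : instJ = (Polynomial.eval₂RingHom c j).toAlgebra :=
    Algebra.algebra_ext _ _ (fun P => by rw [hJ]; rfl)
  -- the `j`-line copy
  letI iE₀ : Algebra (vt95_Jline c j) E₀ := (inferInstance : Algebra (Polynomial R) E₀)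
  haveI : IsFractionRing (vt95_Jline c j) E₀ :=
    (inferInstance : IsFractionRing (Polynomial R) E₀)
  haveI : IsScalarTower (vt95_Jline c j) E₀ L :=
    IsScalarTower.of_algebraMap_eq (fun P => (htowJ P).symm)
  have hSD₀ : PurSelfDualAt (vt95_Jline c j) E₀ L (C π : Polynomial R) := hSDj
  -- the map `R[j] → E`
  have hgE : algebraMap E L (algebraMap (Polynomial R) E X) = g := by
    rw [← IsScalarTower.algebraMap_apply, halg, eval₂_X]
  have hXE : algebraMap (Polynomial R) E X ≠ 0 := by
    intro h0
    rw [h0, map_zero] at hgE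
    exact hg hgE.symm
  set cE : R →+* E := (algebraMap (Polynomial R) E).comp C with hcE
  set jE : E := algebraMap (Polynomial R) E N * ((algebraMap (Polynomial R) E X) ^ a)⁻¹ with hjE
  set ψ : Polynomial R →+* E := Polynomial.eval₂RingHom cE jE with hψ
  have hcomp : (algebraMap E L).comp cE = c := by
    ext r
    rw [RingHom.comp_apply, hcE, RingHom.comp_apply, ← IsScalarTower.algebraMap_apply, halg,
      eval₂_C]
  have hjEL : algebraMap E L jE = j := by
    rw [hjE, map_mul, map_inv₀, map_pow, hgE, ← IsScalarTower.algebraMap_apply, halg, ← hrel,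
      mul_assoc, mul_inv_cancel₀ (pow_ne_zero _ hg), mul_one]
  have hψL : ∀ P : Polynomial R, algebraMap E L (ψ P) = P.eval₂ c j := by
    intro P
    rw [hψ, Polynomial.coe_eval₂RingHom, Polynomial.hom_eval₂, hcomp, hjEL]
  letI iJE : Algebra (vt95_Jline c j) E := ψ.toAlgebra
  haveI tJEL : IsScalarTower (vt95_Jline c j) E L :=
    IsScalarTower.of_algebraMap_eq (fun P => (hψL P).symm)
  have hinjJL : Function.Injective (algebraMap (vt95_Jline c j) L) := by
    rw [IsScalarTower.algebraMap_eq (vt95_Jline c j) E₀ L]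
    exact (algebraMap E₀ L).injective.comp (IsFractionRing.injective (vt95_Jline c j) E₀)
  have hψinj : Function.Injective (algebraMap (vt95_Jline c j) E) := by
    intro x y hxy
    apply hinjJL
    rw [IsScalarTower.algebraMap_apply (vt95_Jline c j) E L, hxy,
      ← IsScalarTower.algebraMap_apply (vt95_Jline c j) E L]
  letI iE₀E : Algebra E₀ E := (IsFractionRing.lift hψinj).toAlgebra
  haveI tJE₀E : IsScalarTower (vt95_Jline c j) E₀ E :=
    IsScalarTower.of_algebraMap_eq (fun P => (IsFractionRing.lift_algebraMap hψinj P).symm)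
  haveI tE₀EL : IsScalarTower E₀ E L := by
    refine IsScalarTower.of_algebraMap_eq (fun x => ?_)
    have hhom : (algebraMap E₀ L) = (algebraMap E L).comp (algebraMap E₀ E) := by
      refine IsLocalization.ringHom_ext (nonZeroDivisors (vt95_Jline c j)) ?_
      ext P
      simp only [RingHom.comp_apply]
      rw [← IsScalarTower.algebraMap_apply (vt95_Jline c j) E₀ L,
        ← IsScalarTower.algebraMap_apply (vt95_Jline c j) E₀ E,
        ← IsScalarTower.algebraMap_apply (vt95_Jline c j) E L]
    rw [hhom]; rfl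
  -- the transfer
  have hπC : Prime (C π : Polynomial R) := Polynomial.prime_C_iff.mpr hπ
  refine vt95_selfDual_transfer (O₀ := vt95_Jline c j) (E₀ := E₀) (O := Polynomial R) (E := E)
    (L := L) (C π : Polynomial R) (C π) X hπC (vt95_not_C_dvd_X hπ) ?_ ?_ ?_ ?_ hSD₀
  · rw [vt95_algebraMap_J, halg]
    simp
  · intro p
    obtain ⟨k, o, hko⟩ := vt95_rel_h1 c j g N a hrel p
    refine ⟨k, o, ?_⟩
    have e1 : algebraMap (vt95_Jline c j) L p = Polynomial.eval₂ c j (p : Polynomial R) := rfl
    rw [e1, halg, halg, eval₂_X]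
    exact hko
  · intro o
    rw [halg]
    exact vt95_rel_h2 c j g hint o
  · rw [halg, eval₂_X]
    exact hint'

/-- Elementwise primality of `π₀` on integral elements gives primality of `π₀` in the integral
closure. -/
theorem vt95_prime_of_elementwise {O₀ : Type*} {L : Type*} [CommRing O₀] [Field L] [Algebra O₀ L]
    (π₀ : O₀) (h0 : algebraMap O₀ L π₀ ≠ 0)
    (hnu : ¬ IsIntegral O₀ (algebraMap O₀ L π₀)⁻¹)
    (hdvd : ∀ x y : L, IsIntegral O₀ x → IsIntegral O₀ y →
      IsIntegral O₀ ((algebraMap O₀ L π₀)⁻¹ * (x * y)) →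
      IsIntegral O₀ ((algebraMap O₀ L π₀)⁻¹ * x) ∨ IsIntegral O₀ ((algebraMap O₀ L π₀)⁻¹ * y)) :
    (Ideal.span {algebraMap O₀ (integralClosure O₀ L) π₀}).IsPrime := by
  have hcoe : ((algebraMap O₀ (integralClosure O₀ L) π₀ : integralClosure O₀ L) : L) =
      algebraMap O₀ L π₀ := rfl
  have hne : algebraMap O₀ (integralClosure O₀ L) π₀ ≠ 0 := fun h => h0 (by rw [← hcoe, h]; rfl)
  rw [Ideal.span_singleton_prime hne]
  have key : ∀ x : integralClosure O₀ L, IsIntegral O₀ ((algebraMap O₀ L π₀)⁻¹ * (x : L)) →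
      algebraMap O₀ (integralClosure O₀ L) π₀ ∣ x := by
    intro x hx
    refine ⟨⟨_, hx⟩, ?_⟩
    apply Subtype.ext
    rw [Subalgebra.coe_mul, hcoe]
    show (x : L) = algebraMap O₀ L π₀ * ((algebraMap O₀ L π₀)⁻¹ * (x : L))
    rw [← mul_assoc, mul_inv_cancel₀ h0, one_mul]
  refine ⟨hne, ?_, ?_⟩
  · intro hunit
    obtain ⟨v, hv⟩ := isUnit_iff_exists_inv.mp hunit
    apply hnu
    have h1 : algebraMap O₀ L π₀ * (v : L) = 1 := by
      have := congrArg Subtype.val hv
      rwa [Subalgebra.coe_mul, hcoe] at this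
    have h2 : (algebraMap O₀ L π₀)⁻¹ = (v : L) := inv_eq_of_mul_eq_one_right h1
    rw [h2]; exact v.2
  · intro a b ⟨d, hd⟩
    have hdL : (a : L) * (b : L) = algebraMap O₀ L π₀ * (d : L) := by
      have := congrArg Subtype.val hd
      rwa [Subalgebra.coe_mul, Subalgebra.coe_mul, hcoe] at this
    have hint : IsIntegral O₀ ((algebraMap O₀ L π₀)⁻¹ * ((a : L) * (b : L))) := by
      rw [hdL, ← mul_assoc, inv_mul_cancel₀ h0, one_mul]; exact d.2
    rcases hdvd a b a.2 b.2 hint with h | h
    · exact Or.inl (key a h)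
    · exact Or.inr (key b h)

/-- **`hdom` on a chart.**  If `π` is prime on the integral closure of `R[j]` (elementwise form),
then `π` generates a prime ideal of the integral closure of the chart `R[g]`. -/
theorem vt95_chart_prime (c : R →+* L) (j g : L) (π : R) (hπ : Prime π) (hcπ : c π ≠ 0)
    (hnu : ¬ (Polynomial.eval₂RingHom c j).IsIntegralElem (c π)⁻¹)
    (hdvd : ∀ x y : L, (Polynomial.eval₂RingHom c j).IsIntegralElem x →
      (Polynomial.eval₂RingHom c j).IsIntegralElem y →
      (Polynomial.eval₂RingHom c j).IsIntegralElem ((c π)⁻¹ * (x * y)) →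
      (Polynomial.eval₂RingHom c j).IsIntegralElem ((c π)⁻¹ * x) ∨
        (Polynomial.eval₂RingHom c j).IsIntegralElem ((c π)⁻¹ * y))
    [Algebra (Polynomial R) L]
    (halg : ∀ P : Polynomial R, algebraMap (Polynomial R) L P = P.eval₂ c g)
    (E : Type*) [Field E] [Algebra (Polynomial R) E] [IsFractionRing (Polynomial R) E]
    [Algebra E L] [IsScalarTower (Polynomial R) E L] [FiniteDimensional E L]
    (N : Polynomial R) (a : ℕ) (hrel : j * g ^ a = N.eval₂ c g)
    (hint : (Polynomial.eval₂RingHom c j).IsIntegralElem g)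
    (hSD : PurSelfDualAt (Polynomial R) E L (C π)) :
    (Ideal.span {algebraMap (Polynomial R) (integralClosure (Polynomial R) L) (C π)}).IsPrime := by
  have e : algebraMap (vt95_Jline c j) L (C π : Polynomial R) = c π := by
    rw [vt95_algebraMap_J, eval₂_C]
  have hdom₀ : (Ideal.span {algebraMap (vt95_Jline c j) (integralClosure (vt95_Jline c j) L)
      (C π : Polynomial R)}).IsPrime := by
    refine vt95_prime_of_elementwise (O₀ := vt95_Jline c j) (C π : Polynomial R) ?_ ?_ ?_
    · rw [e]; exact hcπ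
    · rw [e]; exact hnu
    · intro x y hx hy hxy
      rw [e] at hxy ⊢
      exact hdvd x y hx hy hxy
  have hπC : Prime (C π : Polynomial R) := Polynomial.prime_C_iff.mpr hπ
  refine vt95_prime_transfer (O₀ := vt95_Jline c j) (O := Polynomial R) (E := E) (L := L)
    (C π : Polynomial R) (C π) X hπC (vt95_not_C_dvd_X hπ) ?_ ?_ ?_ hSD hdom₀
  · rw [e, halg, eval₂_C]
  · intro p
    obtain ⟨k, o, hko⟩ := vt95_rel_h1 c j g N a hrel p
    refine ⟨k, o, ?_⟩
    have e1 : algebraMap (vt95_Jline c j) L p = Polynomial.eval₂ c j (p : Polynomial R) := rfl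
    rw [e1, halg, halg, eval₂_X]
    exact hko
  · intro o
    rw [halg]
    exact vt95_rel_h2 c j g hint o

/-- **SAT on a chart.**  If `x` is integral over the chart `R[g]` and `x = π y` with `y`
integral over `R[j]`, then `y` is integral over the chart. -/
theorem vt95_chart_sat (c : R →+* L) (j g : L) (π : R) (hπ : Prime π)
    [Algebra (Polynomial R) L]
    (halg : ∀ P : Polynomial R, algebraMap (Polynomial R) L P = P.eval₂ c g)
    (E : Type*) [Field E] [Algebra (Polynomial R) E] [IsFractionRing (Polynomial R) E]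
    [Algebra E L] [IsScalarTower (Polynomial R) E L] [FiniteDimensional E L]
    (N : Polynomial R) (a : ℕ) (hrel : j * g ^ a = N.eval₂ c g)
    (hSD : PurSelfDualAt (Polynomial R) E L (C π))
    (x y : L) (hx : IsIntegral (Polynomial R) x)
    (hy : (Polynomial.eval₂RingHom c j).IsIntegralElem y) (hxy : x = c π * y) :
    IsIntegral (Polynomial R) y := by
  have hπC : Prime (C π : Polynomial R) := Polynomial.prime_C_iff.mpr hπ
  refine vt95_sat_transfer (O₀ := vt95_Jline c j) (O := Polynomial R) (E := E) (L := L)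
    (C π) X hπC (vt95_not_C_dvd_X hπ) ?_ hSD x y hx hy (by rw [hxy, halg, eval₂_C])
  intro p
  obtain ⟨k, o, hko⟩ := vt95_rel_h1 c j g N a hrel p
  refine ⟨k, o, ?_⟩
  have e1 : algebraMap (vt95_Jline c j) L p = Polynomial.eval₂ c j (p : Polynomial R) := rfl
  rw [e1, halg, halg, eval₂_X]
  exact hko

end Chart

end Fermat.Agent.S18
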