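import Mathlib
import Fermat.Agent.S18.VertChart95

/-!
# S18, row B3c: the chart data for the Hauptmodul lines of levels 2 and 3 (helper95)

For `j * h ^ 2 = (h + 256) ^ 3` (level 2, `2` invertible) and
`j * h ^ 3 = (h + 27) * (h + 243) ^ 3` (level 3, `3` invertible): the relation / integrality
inputs of `vt95_chart_selfDual`, `vt95_chart_prime`, `vt95_chart_sat` for the two charts
`g = h` and `g = h⁻¹`, and the packaged statements.
-/

set_option autoImplicit false
set_option linter.style.haveILetI false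
set_option linter.unusedSimpArgs false

open Polynomial

namespace Fermat.Agent.S18

universe u v

section Generic

variable {R : Type u} {L : Type v} [CommRing R] [Field L] (c : R →+* L) (j g : L)

theorem vt95_comp_C : (Polynomial.eval₂RingHom c j).comp (C : R →+* Polynomial R) = c := by
  ext r
  simp

/-- `g` is integral over `R[j]` when `j * g ^ a = N(g)` with `N` monic of degree `> a`. -/
theorem vt95_integral_of_rel (N : Polynomial R) (hN : N.Monic) (a : ℕ) (ha : a < N.natDegree)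
    (hrel : j * g ^ a = N.eval₂ c g) : (Polynomial.eval₂RingHom c j).IsIntegralElem g := by
  haveI : Nontrivial R := RingHom.domain_nontrivial c
  refine ⟨N.map C - C X * X ^ a, ?_, ?_⟩
  · apply Polynomial.Monic.sub_of_left (hN.map C)
    calc (C (X : Polynomial R) * (X : Polynomial (Polynomial R)) ^ a).degree
        ≤ (a : WithBot ℕ) := degree_C_mul_X_pow_le a _
      _ < (N.natDegree : WithBot ℕ) := by exact_mod_cast ha
      _ = (N.map C).degree := by
          rw [degree_eq_natDegree (hN.map C).ne_zero, hN.natDegree_map]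
  · rw [eval₂_sub, eval₂_map, vt95_comp_C, eval₂_mul, eval₂_C, eval₂_X_pow, ← hrel]
    simp

/-- `g⁻¹` is integral over `R[j]` when moreover the constant term of `N` is a unit. -/
theorem vt95_integral_inv_of_rel (N : Polynomial R) (a : ℕ) (ha : 0 < a) (w : R)
    (hw : w * N.coeff 0 = 1) (hrel : j * g ^ a = N.eval₂ c g)
    (hint : (Polynomial.eval₂RingHom c j).IsIntegralElem g) :
    (Polynomial.eval₂RingHom c j).IsIntegralElem g⁻¹ := by
  have hint' : IsIntegral (vt95_Jline c j) g := hint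
  have hdec : N.eval₂ c g = N.divX.eval₂ c g * g + c (N.coeff 0) := by
    conv_lhs => rw [← Polynomial.divX_mul_X_add N]
    rw [eval₂_add, eval₂_mul, eval₂_X, eval₂_C]
  obtain ⟨b, rfl⟩ := Nat.exists_eq_succ_of_ne_zero ha.ne'
  have hcw : c w * c (N.coeff 0) = 1 := by rw [← map_mul, hw, map_one]
  have hinv : g⁻¹ = c w * (j * g ^ b - N.divX.eval₂ c g) := by
    have h1 : c (N.coeff 0) = g * (j * g ^ b - N.divX.eval₂ c g) := by
      have : j * g ^ (b + 1) = N.divX.eval₂ c g * g + c (N.coeff 0) := by rw [hrel, hdec]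
      rw [pow_succ] at this
      linear_combination -this
    have h2 : g * (c w * (j * g ^ b - N.divX.eval₂ c g)) = 1 := by
      rw [mul_left_comm, ← h1, hcw]
    exact inv_eq_of_mul_eq_one_right h2
  have hcw' : IsIntegral (vt95_Jline c j) (c w) := by
    have h3 : IsIntegral (vt95_Jline c j)
        (algebraMap (vt95_Jline c j) L (C w : Polynomial R)) := isIntegral_algebraMap
    rwa [vt95_algebraMap_J, eval₂_C] at h3
  have hj' : IsIntegral (vt95_Jline c j) j := by
    have h3 : IsIntegral (vt95_Jline c j)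
        (algebraMap (vt95_Jline c j) L (X : Polynomial R)) := isIntegral_algebraMap
    rwa [vt95_algebraMap_J, eval₂_X] at h3
  have hres : IsIntegral (vt95_Jline c j) g⁻¹ := by
    rw [hinv]
    exact hcw'.mul ((hj'.mul (hint'.pow b)).sub (vt95_rel_h2 c j g hint' _))
  exact hres

end Generic


/-! ### Level 2 -/

section Level2

/-- numerator of `j` on the chart `h` (level 2). -/
noncomputable def vt95_N2 (R : Type u) [CommRing R] : Polynomial R := (X + C 256) ^ 3

/-- numerator of `j` on the chart `h⁻¹` (level 2). -/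
noncomputable def vt95_N2' (R : Type u) [CommRing R] : Polynomial R := (1 + C 256 * X) ^ 3

variable {R : Type u} {L : Type v} [CommRing R] [Field L] (c : R →+* L) (j h : L)

theorem vt95_N2_eval (x : L) : (vt95_N2 R).eval₂ c x = (x + 256) ^ 3 := by
  simp only [vt95_N2, eval₂_pow, eval₂_mul, eval₂_add, eval₂_X, eval₂_C]
  simp only [map_ofNat]

theorem vt95_N2'_eval (x : L) : (vt95_N2' R).eval₂ c x = (1 + 256 * x) ^ 3 := by
  simp only [vt95_N2', eval₂_pow, eval₂_mul, eval₂_add, eval₂_one, eval₂_X, eval₂_C]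
  simp only [map_ofNat]

theorem vt95_level2_rel (hjh : j * h ^ 2 = (h + 256) ^ 3) :
    j * h ^ 2 = (vt95_N2 R).eval₂ c h := by
  rw [vt95_N2_eval]; exact hjh

theorem vt95_level2_rel' (hh : h ≠ 0) (hjh : j * h ^ 2 = (h + 256) ^ 3) :
    j * h⁻¹ ^ 1 = (vt95_N2' R).eval₂ c h⁻¹ := by
  rw [vt95_N2'_eval, pow_one]
  have hj : j = ((h + 256) ^ 3) * (h⁻¹) ^ 2 := by
    rw [← hjh, mul_assoc, ← mul_pow, mul_inv_cancel₀ hh, one_pow, mul_one]
  rw [hj]
  field_simp

theorem vt95_level2_int (hjh : j * h ^ 2 = (h + 256) ^ 3) :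
    (Polynomial.eval₂RingHom c j).IsIntegralElem h := by
  haveI : Nontrivial R := RingHom.domain_nontrivial c
  refine vt95_integral_of_rel c j h (vt95_N2 R) ((monic_X_add_C (256 : R)).pow 3) 2 ?_
    (vt95_level2_rel c j h hjh)
  rw [vt95_N2, ((monic_X_add_C (256 : R)).natDegree_pow 3), natDegree_X_add_C]
  norm_num

theorem vt95_level2_int_inv (w : R) (hw : w * 2 = 1)
    (hjh : j * h ^ 2 = (h + 256) ^ 3) :
    (Polynomial.eval₂RingHom c j).IsIntegralElem h⁻¹ := by
  refine vt95_integral_inv_of_rel c j h (vt95_N2 R) 2 (by norm_num) (w ^ 24) ?_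
    (vt95_level2_rel c j h hjh) (vt95_level2_int c j h hjh)
  have h0 : (vt95_N2 R).coeff 0 = (2 : R) ^ 24 := by
    rw [coeff_zero_eq_eval_zero, vt95_N2]
    simp
    norm_num
  rw [h0, ← mul_pow, hw, one_pow]

variable [IsDomain R] [UniqueFactorizationMonoid R]

/-- **(V), level 2, chart `h`.** -/
theorem vt95_level2_selfDual (π : R) (hπ : Prime π) (w : R) (hw : w * 2 = 1)
    (hh : h ≠ 0) (hjh : j * h ^ 2 = (h + 256) ^ 3)
    (instJ : Algebra (Polynomial R) L)
    (hJ : ∀ P : Polynomial R, @algebraMap _ _ _ _ instJ P = P.eval₂ c j)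
    (E₀ : Type*) [Field E₀] [Algebra (Polynomial R) E₀] [IsFractionRing (Polynomial R) E₀]
    [Algebra E₀ L]
    (htowJ : ∀ P : Polynomial R, algebraMap E₀ L (algebraMap (Polynomial R) E₀ P) = P.eval₂ c j)
    [FiniteDimensional E₀ L]
    (hSDj : @PurSelfDualAt (Polynomial R) E₀ L _ _ _ _ _ instJ (C π))
    [instG : Algebra (Polynomial R) L]
    (halg : ∀ P : Polynomial R, @algebraMap _ _ _ _ instG P = P.eval₂ c h)
    (E : Type*) [Field E] [Algebra (Polynomial R) E] [IsFractionRing (Polynomial R) E]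
    [Algebra E L] [IsScalarTower (Polynomial R) E L] :
    @PurSelfDualAt (Polynomial R) E L _ _ _ _ _ instG (C π) :=
  vt95_chart_selfDual c j h π hπ instJ hJ E₀ htowJ hSDj halg E hh (vt95_N2 R) 2
    (vt95_level2_rel c j h hjh) (vt95_level2_int c j h hjh)
    (vt95_level2_int_inv c j h w hw hjh)

/-- **(V), level 2, chart `h⁻¹`.** -/
theorem vt95_level2_selfDual_inv (π : R) (hπ : Prime π) (w : R) (hw : w * 2 = 1)
    (hh : h ≠ 0) (hjh : j * h ^ 2 = (h + 256) ^ 3)
    (instJ : Algebra (Polynomial R) L)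
    (hJ : ∀ P : Polynomial R, @algebraMap _ _ _ _ instJ P = P.eval₂ c j)
    (E₀ : Type*) [Field E₀] [Algebra (Polynomial R) E₀] [IsFractionRing (Polynomial R) E₀]
    [Algebra E₀ L]
    (htowJ : ∀ P : Polynomial R, algebraMap E₀ L (algebraMap (Polynomial R) E₀ P) = P.eval₂ c j)
    [FiniteDimensional E₀ L]
    (hSDj : @PurSelfDualAt (Polynomial R) E₀ L _ _ _ _ _ instJ (C π))
    [instG : Algebra (Polynomial R) L]
    (halg : ∀ P : Polynomial R, @algebraMap _ _ _ _ instG P = P.eval₂ c h⁻¹)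
    (E : Type*) [Field E] [Algebra (Polynomial R) E] [IsFractionRing (Polynomial R) E]
    [Algebra E L] [IsScalarTower (Polynomial R) E L] :
    @PurSelfDualAt (Polynomial R) E L _ _ _ _ _ instG (C π) :=
  vt95_chart_selfDual c j h⁻¹ π hπ instJ hJ E₀ htowJ hSDj halg E (inv_ne_zero hh)
    (vt95_N2' R) 1 (vt95_level2_rel' c j h hh hjh)
    (vt95_level2_int_inv c j h w hw hjh)
    (by rw [inv_inv]; exact vt95_level2_int c j h hjh)

/-- **`hdom`, level 2, chart `h`.** -/
theorem vt95_level2_prime (π : R) (hπ : Prime π) (hcπ : c π ≠ 0)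
    (hjh : j * h ^ 2 = (h + 256) ^ 3)
    (hnu : ¬ (Polynomial.eval₂RingHom c j).IsIntegralElem (c π)⁻¹)
    (hdvd : ∀ x y : L, (Polynomial.eval₂RingHom c j).IsIntegralElem x →
      (Polynomial.eval₂RingHom c j).IsIntegralElem y →
      (Polynomial.eval₂RingHom c j).IsIntegralElem ((c π)⁻¹ * (x * y)) →
      (Polynomial.eval₂RingHom c j).IsIntegralElem ((c π)⁻¹ * x) ∨
        (Polynomial.eval₂RingHom c j).IsIntegralElem ((c π)⁻¹ * y))
    [Algebra (Polynomial R) L]
    (halg : ∀ P : Polynomial R, algebraMap (Polynomial R) L P = P.eval₂ c h)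
    (E : Type*) [Field E] [Algebra (Polynomial R) E] [IsFractionRing (Polynomial R) E]
    [Algebra E L] [IsScalarTower (Polynomial R) E L] [FiniteDimensional E L]
    (hSD : PurSelfDualAt (Polynomial R) E L (C π)) :
    (Ideal.span {algebraMap (Polynomial R) (integralClosure (Polynomial R) L) (C π)}).IsPrime :=
  vt95_chart_prime c j h π hπ hcπ hnu hdvd halg E (vt95_N2 R) 2
    (vt95_level2_rel c j h hjh) (vt95_level2_int c j h hjh) hSD

/-- **`hdom`, level 2, chart `h⁻¹`.** -/
theorem vt95_level2_prime_inv (π : R) (hπ : Prime π) (hcπ : c π ≠ 0) (w : R)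
    (hw : w * 2 = 1) (hh : h ≠ 0) (hjh : j * h ^ 2 = (h + 256) ^ 3)
    (hnu : ¬ (Polynomial.eval₂RingHom c j).IsIntegralElem (c π)⁻¹)
    (hdvd : ∀ x y : L, (Polynomial.eval₂RingHom c j).IsIntegralElem x →
      (Polynomial.eval₂RingHom c j).IsIntegralElem y →
      (Polynomial.eval₂RingHom c j).IsIntegralElem ((c π)⁻¹ * (x * y)) →
      (Polynomial.eval₂RingHom c j).IsIntegralElem ((c π)⁻¹ * x) ∨
        (Polynomial.eval₂RingHom c j).IsIntegralElem ((c π)⁻¹ * y))
    [Algebra (Polynomial R) L]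
    (halg : ∀ P : Polynomial R, algebraMap (Polynomial R) L P = P.eval₂ c h⁻¹)
    (E : Type*) [Field E] [Algebra (Polynomial R) E] [IsFractionRing (Polynomial R) E]
    [Algebra E L] [IsScalarTower (Polynomial R) E L] [FiniteDimensional E L]
    (hSD : PurSelfDualAt (Polynomial R) E L (C π)) :
    (Ideal.span {algebraMap (Polynomial R) (integralClosure (Polynomial R) L) (C π)}).IsPrime :=
  vt95_chart_prime c j h⁻¹ π hπ hcπ hnu hdvd halg E (vt95_N2' R) 1
    (vt95_level2_rel' c j h hh hjh) (vt95_level2_int_inv c j h w hw hjh) hSD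

/-- **SAT, level 2, chart `h`.** -/
theorem vt95_level2_sat (π : R) (hπ : Prime π)
    (hjh : j * h ^ 2 = (h + 256) ^ 3)
    [Algebra (Polynomial R) L]
    (halg : ∀ P : Polynomial R, algebraMap (Polynomial R) L P = P.eval₂ c h)
    (E : Type*) [Field E] [Algebra (Polynomial R) E] [IsFractionRing (Polynomial R) E]
    [Algebra E L] [IsScalarTower (Polynomial R) E L] [FiniteDimensional E L]
    (hSD : PurSelfDualAt (Polynomial R) E L (C π))
    (x y : L) (hx : IsIntegral (Polynomial R) x)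
    (hy : (Polynomial.eval₂RingHom c j).IsIntegralElem y) (hxy : x = c π * y) :
    IsIntegral (Polynomial R) y :=
  vt95_chart_sat c j h π hπ halg E (vt95_N2 R) 2 (vt95_level2_rel c j h hjh) hSD x y hx hy
    hxy

/-- **SAT, level 2, chart `h⁻¹`.** -/
theorem vt95_level2_sat_inv (π : R) (hπ : Prime π) (hh : h ≠ 0)
    (hjh : j * h ^ 2 = (h + 256) ^ 3)
    [Algebra (Polynomial R) L]
    (halg : ∀ P : Polynomial R, algebraMap (Polynomial R) L P = P.eval₂ c h⁻¹)
    (E : Type*) [Field E] [Algebra (Polynomial R) E] [IsFractionRing (Polynomial R) E]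
    [Algebra E L] [IsScalarTower (Polynomial R) E L] [FiniteDimensional E L]
    (hSD : PurSelfDualAt (Polynomial R) E L (C π))
    (x y : L) (hx : IsIntegral (Polynomial R) x)
    (hy : (Polynomial.eval₂RingHom c j).IsIntegralElem y) (hxy : x = c π * y) :
    IsIntegral (Polynomial R) y :=
  vt95_chart_sat c j h⁻¹ π hπ halg E (vt95_N2' R) 1 (vt95_level2_rel' c j h hh hjh) hSD x y
    hx hy hxy

end Level2

/-! ### Level 3 -/

section Level3

/-- numerator of `j` on the chart `h` (level 3). -/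
noncomputable def vt95_N3 (R : Type u) [CommRing R] : Polynomial R := (X + C 27) * (X + C 243) ^ 3

/-- numerator of `j` on the chart `h⁻¹` (level 3). -/
noncomputable def vt95_N3' (R : Type u) [CommRing R] : Polynomial R := (1 + C 27 * X) * (1 + C 243 * X) ^ 3

variable {R : Type u} {L : Type v} [CommRing R] [Field L] (c : R →+* L) (j h : L)

theorem vt95_N3_eval (x : L) : (vt95_N3 R).eval₂ c x = (x + 27) * (x + 243) ^ 3 := by
  simp only [vt95_N3, eval₂_pow, eval₂_mul, eval₂_add, eval₂_X, eval₂_C]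
  simp only [map_ofNat]

theorem vt95_N3'_eval (x : L) : (vt95_N3' R).eval₂ c x = (1 + 27 * x) * (1 + 243 * x) ^ 3 := by
  simp only [vt95_N3', eval₂_pow, eval₂_mul, eval₂_add, eval₂_one, eval₂_X, eval₂_C]
  simp only [map_ofNat]

theorem vt95_level3_rel (hjh : j * h ^ 3 = (h + 27) * (h + 243) ^ 3) :
    j * h ^ 3 = (vt95_N3 R).eval₂ c h := by
  rw [vt95_N3_eval]; exact hjh

theorem vt95_level3_rel' (hh : h ≠ 0) (hjh : j * h ^ 3 = (h + 27) * (h + 243) ^ 3) :
    j * h⁻¹ ^ 1 = (vt95_N3' R).eval₂ c h⁻¹ := by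
  rw [vt95_N3'_eval, pow_one]
  have hj : j = ((h + 27) * (h + 243) ^ 3) * (h⁻¹) ^ 3 := by
    rw [← hjh, mul_assoc, ← mul_pow, mul_inv_cancel₀ hh, one_pow, mul_one]
  rw [hj]
  field_simp

theorem vt95_level3_int (hjh : j * h ^ 3 = (h + 27) * (h + 243) ^ 3) :
    (Polynomial.eval₂RingHom c j).IsIntegralElem h := by
  haveI : Nontrivial R := RingHom.domain_nontrivial c
  refine vt95_integral_of_rel c j h (vt95_N3 R) ((monic_X_add_C (27 : R)).mul ((monic_X_add_C (243 : R)).pow 3)) 3 ?_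
    (vt95_level3_rel c j h hjh)
  rw [vt95_N3, ((monic_X_add_C (27 : R)).natDegree_mul ((monic_X_add_C (243 : R)).pow 3)),
    ((monic_X_add_C (243 : R)).natDegree_pow 3), natDegree_X_add_C, natDegree_X_add_C]
  norm_num

theorem vt95_level3_int_inv (w : R) (hw : w * 3 = 1)
    (hjh : j * h ^ 3 = (h + 27) * (h + 243) ^ 3) :
    (Polynomial.eval₂RingHom c j).IsIntegralElem h⁻¹ := by
  refine vt95_integral_inv_of_rel c j h (vt95_N3 R) 3 (by norm_num) (w ^ 18) ?_
    (vt95_level3_rel c j h hjh) (vt95_level3_int c j h hjh)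
  have h0 : (vt95_N3 R).coeff 0 = (3 : R) ^ 18 := by
    rw [coeff_zero_eq_eval_zero, vt95_N3]
    simp
    norm_num
  rw [h0, ← mul_pow, hw, one_pow]

variable [IsDomain R] [UniqueFactorizationMonoid R]

/-- **(V), level 3, chart `h`.** -/
theorem vt95_level3_selfDual (π : R) (hπ : Prime π) (w : R) (hw : w * 3 = 1)
    (hh : h ≠ 0) (hjh : j * h ^ 3 = (h + 27) * (h + 243) ^ 3)
    (instJ : Algebra (Polynomial R) L)
    (hJ : ∀ P : Polynomial R, @algebraMap _ _ _ _ instJ P = P.eval₂ c j)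
    (E₀ : Type*) [Field E₀] [Algebra (Polynomial R) E₀] [IsFractionRing (Polynomial R) E₀]
    [Algebra E₀ L]
    (htowJ : ∀ P : Polynomial R, algebraMap E₀ L (algebraMap (Polynomial R) E₀ P) = P.eval₂ c j)
    [FiniteDimensional E₀ L]
    (hSDj : @PurSelfDualAt (Polynomial R) E₀ L _ _ _ _ _ instJ (C π))
    [instG : Algebra (Polynomial R) L]
    (halg : ∀ P : Polynomial R, @algebraMap _ _ _ _ instG P = P.eval₂ c h)
    (E : Type*) [Field E] [Algebra (Polynomial R) E] [IsFractionRing (Polynomial R) E]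
    [Algebra E L] [IsScalarTower (Polynomial R) E L] :
    @PurSelfDualAt (Polynomial R) E L _ _ _ _ _ instG (C π) :=
  vt95_chart_selfDual c j h π hπ instJ hJ E₀ htowJ hSDj halg E hh (vt95_N3 R) 3
    (vt95_level3_rel c j h hjh) (vt95_level3_int c j h hjh)
    (vt95_level3_int_inv c j h w hw hjh)

/-- **(V), level 3, chart `h⁻¹`.** -/
theorem vt95_level3_selfDual_inv (π : R) (hπ : Prime π) (w : R) (hw : w * 3 = 1)
    (hh : h ≠ 0) (hjh : j * h ^ 3 = (h + 27) * (h + 243) ^ 3)
    (instJ : Algebra (Polynomial R) L)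
    (hJ : ∀ P : Polynomial R, @algebraMap _ _ _ _ instJ P = P.eval₂ c j)
    (E₀ : Type*) [Field E₀] [Algebra (Polynomial R) E₀] [IsFractionRing (Polynomial R) E₀]
    [Algebra E₀ L]
    (htowJ : ∀ P : Polynomial R, algebraMap E₀ L (algebraMap (Polynomial R) E₀ P) = P.eval₂ c j)
    [FiniteDimensional E₀ L]
    (hSDj : @PurSelfDualAt (Polynomial R) E₀ L _ _ _ _ _ instJ (C π))
    [instG : Algebra (Polynomial R) L]
    (halg : ∀ P : Polynomial R, @algebraMap _ _ _ _ instG P = P.eval₂ c h⁻¹)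
    (E : Type*) [Field E] [Algebra (Polynomial R) E] [IsFractionRing (Polynomial R) E]
    [Algebra E L] [IsScalarTower (Polynomial R) E L] :
    @PurSelfDualAt (Polynomial R) E L _ _ _ _ _ instG (C π) :=
  vt95_chart_selfDual c j h⁻¹ π hπ instJ hJ E₀ htowJ hSDj halg E (inv_ne_zero hh)
    (vt95_N3' R) 1 (vt95_level3_rel' c j h hh hjh)
    (vt95_level3_int_inv c j h w hw hjh)
    (by rw [inv_inv]; exact vt95_level3_int c j h hjh)

/-- **`hdom`, level 3, chart `h`.** -/
theorem vt95_level3_prime (π : R) (hπ : Prime π) (hcπ : c π ≠ 0)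
    (hjh : j * h ^ 3 = (h + 27) * (h + 243) ^ 3)
    (hnu : ¬ (Polynomial.eval₂RingHom c j).IsIntegralElem (c π)⁻¹)
    (hdvd : ∀ x y : L, (Polynomial.eval₂RingHom c j).IsIntegralElem x →
      (Polynomial.eval₂RingHom c j).IsIntegralElem y →
      (Polynomial.eval₂RingHom c j).IsIntegralElem ((c π)⁻¹ * (x * y)) →
      (Polynomial.eval₂RingHom c j).IsIntegralElem ((c π)⁻¹ * x) ∨
        (Polynomial.eval₂RingHom c j).IsIntegralElem ((c π)⁻¹ * y))
    [Algebra (Polynomial R) L]
    (halg : ∀ P : Polynomial R, algebraMap (Polynomial R) L P = P.eval₂ c h)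
    (E : Type*) [Field E] [Algebra (Polynomial R) E] [IsFractionRing (Polynomial R) E]
    [Algebra E L] [IsScalarTower (Polynomial R) E L] [FiniteDimensional E L]
    (hSD : PurSelfDualAt (Polynomial R) E L (C π)) :
    (Ideal.span {algebraMap (Polynomial R) (integralClosure (Polynomial R) L) (C π)}).IsPrime :=
  vt95_chart_prime c j h π hπ hcπ hnu hdvd halg E (vt95_N3 R) 3
    (vt95_level3_rel c j h hjh) (vt95_level3_int c j h hjh) hSD

/-- **`hdom`, level 3, chart `h⁻¹`.** -/
theorem vt95_level3_prime_inv (π : R) (hπ : Prime π) (hcπ : c π ≠ 0) (w : R)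
    (hw : w * 3 = 1) (hh : h ≠ 0) (hjh : j * h ^ 3 = (h + 27) * (h + 243) ^ 3)
    (hnu : ¬ (Polynomial.eval₂RingHom c j).IsIntegralElem (c π)⁻¹)
    (hdvd : ∀ x y : L, (Polynomial.eval₂RingHom c j).IsIntegralElem x →
      (Polynomial.eval₂RingHom c j).IsIntegralElem y →
      (Polynomial.eval₂RingHom c j).IsIntegralElem ((c π)⁻¹ * (x * y)) →
      (Polynomial.eval₂RingHom c j).IsIntegralElem ((c π)⁻¹ * x) ∨
        (Polynomial.eval₂RingHom c j).IsIntegralElem ((c π)⁻¹ * y))
    [Algebra (Polynomial R) L]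
    (halg : ∀ P : Polynomial R, algebraMap (Polynomial R) L P = P.eval₂ c h⁻¹)
    (E : Type*) [Field E] [Algebra (Polynomial R) E] [IsFractionRing (Polynomial R) E]
    [Algebra E L] [IsScalarTower (Polynomial R) E L] [FiniteDimensional E L]
    (hSD : PurSelfDualAt (Polynomial R) E L (C π)) :
    (Ideal.span {algebraMap (Polynomial R) (integralClosure (Polynomial R) L) (C π)}).IsPrime :=
  vt95_chart_prime c j h⁻¹ π hπ hcπ hnu hdvd halg E (vt95_N3' R) 1
    (vt95_level3_rel' c j h hh hjh) (vt95_level3_int_inv c j h w hw hjh) hSD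

/-- **SAT, level 3, chart `h`.** -/
theorem vt95_level3_sat (π : R) (hπ : Prime π)
    (hjh : j * h ^ 3 = (h + 27) * (h + 243) ^ 3)
    [Algebra (Polynomial R) L]
    (halg : ∀ P : Polynomial R, algebraMap (Polynomial R) L P = P.eval₂ c h)
    (E : Type*) [Field E] [Algebra (Polynomial R) E] [IsFractionRing (Polynomial R) E]
    [Algebra E L] [IsScalarTower (Polynomial R) E L] [FiniteDimensional E L]
    (hSD : PurSelfDualAt (Polynomial R) E L (C π))
    (x y : L) (hx : IsIntegral (Polynomial R) x)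
    (hy : (Polynomial.eval₂RingHom c j).IsIntegralElem y) (hxy : x = c π * y) :
    IsIntegral (Polynomial R) y :=
  vt95_chart_sat c j h π hπ halg E (vt95_N3 R) 3 (vt95_level3_rel c j h hjh) hSD x y hx hy
    hxy

/-- **SAT, level 3, chart `h⁻¹`.** -/
theorem vt95_level3_sat_inv (π : R) (hπ : Prime π) (hh : h ≠ 0)
    (hjh : j * h ^ 3 = (h + 27) * (h + 243) ^ 3)
    [Algebra (Polynomial R) L]
    (halg : ∀ P : Polynomial R, algebraMap (Polynomial R) L P = P.eval₂ c h⁻¹)
    (E : Type*) [Field E] [Algebra (Polynomial R) E] [IsFractionRing (Polynomial R) E]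
    [Algebra E L] [IsScalarTower (Polynomial R) E L] [FiniteDimensional E L]
    (hSD : PurSelfDualAt (Polynomial R) E L (C π))
    (x y : L) (hx : IsIntegral (Polynomial R) x)
    (hy : (Polynomial.eval₂RingHom c j).IsIntegralElem y) (hxy : x = c π * y) :
    IsIntegral (Polynomial R) y :=
  vt95_chart_sat c j h⁻¹ π hπ halg E (vt95_N3' R) 1 (vt95_level3_rel' c j h hh hjh) hSD x y
    hx hy hxy

end Level3

end Fermat.Agent.S18
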