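import Fermat.Agent.S18.VertChart90

/-!
# S18 (helper90): the vertical package on the Hauptmodul charts, DVR / `ChartInst39` form

`R` a DVR with uniformiser `π`, `K0 = Frac R`, `F = F(M)_{K0}` with ANY `R[X]`-algebra structure
compatible with the constants (`hC`, as in `ChartInst39` / `HorizInst94`), chart coordinate
`x := algebraMap R[X] F X` with `q`-expansion `H` (chart `h`) resp. `x * H = 1` (chart `h⁻¹`),
where `H` satisfies the level-2 relation `j H² = (H + 256)³` (resp. the level-3 relation
`j H³ = (H + 27)(H + 243)³`), `M` and `2` (resp. `3`) units of `R`.  Then, for every model `E`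
of `Frac R[X]`:

* `PurSelfDualAt R[X] E F (C π)`            (`hV` of `ci39_isDedekindDomain_fibre`),
* `(Ideal.span {algebraMap R[X] (integralClosure R[X] F) (C π)}).IsPrime`   (`hdom`),
* saturation w.r.t. the integral closure of `R[j]`, and `FiniteDimensional E F`.
-/

set_option autoImplicit false
set_option linter.unusedSectionVars false

open ModularCurve Polynomial

namespace Fermat.Agent.S18

noncomputable section

section DVR

variable {R : Type} [CommRing R] [IsDomain R] [IsDiscreteValuationRing R] {π : R}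

/-- The residue map of a DVR kills exactly the multiples of a uniformiser. -/
theorem vi90_residue_eq_zero_iff (hπ : Irreducible π) (a : R) :
    IsLocalRing.residue R a = 0 ↔ π ∣ a := by
  rw [IsLocalRing.residue_eq_zero_iff, (IsDiscreteValuationRing.irreducible_iff_uniformizer _).mp hπ,
    Ideal.mem_span_singleton]

theorem vi90_natCast_residue_ne_zero {n : ℕ} (hn : IsUnit (n : R)) :
    ((n : ℕ) : IsLocalRing.ResidueField R) ≠ 0 := by
  have h1 : ((n : ℕ) : IsLocalRing.ResidueField R) = IsLocalRing.residue R (n : R) :=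
    (map_natCast (IsLocalRing.residue R) n).symm
  rw [h1]
  exact (hn.map (IsLocalRing.residue R)).ne_zero

end DVR

section Inst

variable {R : Type} [CommRing R] [IsDomain R] [IsDiscreteValuationRing R] {π : R}
variable {K0 : Type} [Field K0] [Algebra R K0] [IsFractionRing R K0]
variable (M : ℕ) [NeZero M]
variable [Algebra R[X] ↥(modularFunctionFieldFullC K0 M)]
variable {E : Type*} [Field E] [Algebra R[X] E] [IsFractionRing R[X] E]
  [Algebra E ↥(modularFunctionFieldFullC K0 M)] [IsScalarTower R[X] E ↥(modularFunctionFieldFullC K0 M)]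

/-- The structure map is `eval₂` at the chart coordinate. -/
theorem vi90_halg
    (hC : ∀ r : R, algebraMap R[X] ↥(modularFunctionFieldFullC K0 M) (C r) =
      algebraMap K0 ↥(modularFunctionFieldFullC K0 M) (algebraMap R K0 r)) :
    algebraMap R[X] ↥(modularFunctionFieldFullC K0 M) =
      Polynomial.eval₂RingHom (rm90_c K0 R M)
        (algebraMap R[X] ↥(modularFunctionFieldFullC K0 M) X) := by
  refine Polynomial.ringHom_ext (fun r => ?_) ?_
  · rw [hC, Polynomial.coe_eval₂RingHom, Polynomial.eval₂_C]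
    rfl
  · rw [Polynomial.coe_eval₂RingHom, Polynomial.eval₂_X]

omit [Algebra R[X] ↥(modularFunctionFieldFullC K0 M)] in
theorem vi90_rel2 (x : ↥(modularFunctionFieldFullC K0 M)) (H : LaurentSeries K0)
    (hH : jqModC K0 * H ^ 2 = (H + 256) ^ 3) (hX : (x : LaurentSeries K0) = H) :
    rm90_j K0 M * x ^ 2 = (x + 256) ^ 3 := by
  have hφ : ∀ y : ↥(modularFunctionFieldFullC K0 M),
      algebraMap ↥(modularFunctionFieldFullC K0 M) (LaurentSeries K0) y =
        (y : LaurentSeries K0) := fun _ => rfl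
  apply (algebraMap ↥(modularFunctionFieldFullC K0 M) (LaurentSeries K0)).injective
  rw [map_mul, map_pow, map_pow, map_add, map_ofNat, hφ, hφ, hX]
  exact hH

omit [Algebra R[X] ↥(modularFunctionFieldFullC K0 M)] in
theorem vi90_rel3 (x : ↥(modularFunctionFieldFullC K0 M)) (H : LaurentSeries K0)
    (hH : jqModC K0 * H ^ 3 = (H + 27) * (H + 243) ^ 3) (hX : (x : LaurentSeries K0) = H) :
    rm90_j K0 M * x ^ 3 = (x + 27) * (x + 243) ^ 3 := by
  have hφ : ∀ y : ↥(modularFunctionFieldFullC K0 M),
      algebraMap ↥(modularFunctionFieldFullC K0 M) (LaurentSeries K0) y =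
        (y : LaurentSeries K0) := fun _ => rfl
  apply (algebraMap ↥(modularFunctionFieldFullC K0 M) (LaurentSeries K0)).injective
  rw [map_mul, map_pow, map_mul, map_pow, map_add, map_add, map_ofNat, map_ofNat, hφ, hφ, hX]
  exact hH

omit [Algebra R[X] ↥(modularFunctionFieldFullC K0 M)] in
theorem vi90_coe_inv (x : ↥(modularFunctionFieldFullC K0 M)) (H : LaurentSeries K0)
    (hX : (x : LaurentSeries K0) * H = 1) :
    ((x⁻¹ : ↥(modularFunctionFieldFullC K0 M)) : LaurentSeries K0) = H := by
  have h1 : ((x⁻¹ : ↥(modularFunctionFieldFullC K0 M)) : LaurentSeries K0) =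
      (x : LaurentSeries K0)⁻¹ :=
    map_inv₀ (algebraMap ↥(modularFunctionFieldFullC K0 M) (LaurentSeries K0)) x
  rw [h1]
  exact inv_eq_of_mul_eq_one_right hX

/-- **Level 2, chart `h`**: `x := algebraMap R[X] F X` has `q`-expansion `H` with
`j H² = (H + 256)³`. -/
theorem vi90_level2 (hπ : Irreducible π) (hMu : IsUnit (M : R)) (h2u : IsUnit (2 : R))
    (hC : ∀ r : R, algebraMap R[X] ↥(modularFunctionFieldFullC K0 M) (C r) =
      algebraMap K0 ↥(modularFunctionFieldFullC K0 M) (algebraMap R K0 r))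
    (H : LaurentSeries K0) (hH : jqModC K0 * H ^ 2 = (H + 256) ^ 3)
    (hX : ((algebraMap R[X] ↥(modularFunctionFieldFullC K0 M) X :
        ↥(modularFunctionFieldFullC K0 M)) : LaurentSeries K0) = H) :
    PurSelfDualAt R[X] E ↥(modularFunctionFieldFullC K0 M) (C π) ∧
    (Ideal.span {algebraMap R[X] ↥(integralClosure R[X] ↥(modularFunctionFieldFullC K0 M))
      (C π)}).IsPrime ∧
    (∀ y z : ↥(modularFunctionFieldFullC K0 M), IsIntegral R[X] y →
      (rm90_ev K0 R M).IsIntegralElem z →
      y = algebraMap R[X] ↥(modularFunctionFieldFullC K0 M) (C π) * z → IsIntegral R[X] z) ∧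
    FiniteDimensional E ↥(modularFunctionFieldFullC K0 M) :=
  vc90_level2 K0 M π hπ.prime (IsLocalRing.ResidueField R) (IsLocalRing.residue R)
    (vi90_residue_eq_zero_iff hπ) (vi90_natCast_residue_ne_zero hMu) _
    (vi90_rel2 M _ H hH hX) h2u (vi90_halg M hC)

/-- **Level 2, chart `h⁻¹`**: `x := algebraMap R[X] F X` is the inverse of the series `H` with
`j H² = (H + 256)³`. -/
theorem vi90_level2_inv (hπ : Irreducible π) (hMu : IsUnit (M : R)) (h2u : IsUnit (2 : R))
    (hC : ∀ r : R, algebraMap R[X] ↥(modularFunctionFieldFullC K0 M) (C r) =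
      algebraMap K0 ↥(modularFunctionFieldFullC K0 M) (algebraMap R K0 r))
    (H : LaurentSeries K0) (hH : jqModC K0 * H ^ 2 = (H + 256) ^ 3)
    (hX : ((algebraMap R[X] ↥(modularFunctionFieldFullC K0 M) X :
        ↥(modularFunctionFieldFullC K0 M)) : LaurentSeries K0) * H = 1) :
    PurSelfDualAt R[X] E ↥(modularFunctionFieldFullC K0 M) (C π) ∧
    (Ideal.span {algebraMap R[X] ↥(integralClosure R[X] ↥(modularFunctionFieldFullC K0 M))
      (C π)}).IsPrime ∧
    (∀ y z : ↥(modularFunctionFieldFullC K0 M), IsIntegral R[X] y →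
      (rm90_ev K0 R M).IsIntegralElem z →
      y = algebraMap R[X] ↥(modularFunctionFieldFullC K0 M) (C π) * z → IsIntegral R[X] z) ∧
    FiniteDimensional E ↥(modularFunctionFieldFullC K0 M) :=
  vc90_level2_inv K0 M π hπ.prime (IsLocalRing.ResidueField R) (IsLocalRing.residue R)
    (vi90_residue_eq_zero_iff hπ) (vi90_natCast_residue_ne_zero hMu)
    (algebraMap R[X] ↥(modularFunctionFieldFullC K0 M) X)⁻¹
    (vi90_rel2 M _ H hH (vi90_coe_inv M _ H hX)) h2u (by rw [inv_inv]; exact vi90_halg M hC)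

/-- **Level 3, chart `h`**: `x := algebraMap R[X] F X` has `q`-expansion `H` with
`j H³ = (H + 27)(H + 243)³`. -/
theorem vi90_level3 (hπ : Irreducible π) (hMu : IsUnit (M : R)) (h3u : IsUnit (3 : R))
    (hC : ∀ r : R, algebraMap R[X] ↥(modularFunctionFieldFullC K0 M) (C r) =
      algebraMap K0 ↥(modularFunctionFieldFullC K0 M) (algebraMap R K0 r))
    (H : LaurentSeries K0) (hH : jqModC K0 * H ^ 3 = (H + 27) * (H + 243) ^ 3)
    (hX : ((algebraMap R[X] ↥(modularFunctionFieldFullC K0 M) X :
        ↥(modularFunctionFieldFullC K0 M)) : LaurentSeries K0) = H) :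
    PurSelfDualAt R[X] E ↥(modularFunctionFieldFullC K0 M) (C π) ∧
    (Ideal.span {algebraMap R[X] ↥(integralClosure R[X] ↥(modularFunctionFieldFullC K0 M))
      (C π)}).IsPrime ∧
    (∀ y z : ↥(modularFunctionFieldFullC K0 M), IsIntegral R[X] y →
      (rm90_ev K0 R M).IsIntegralElem z →
      y = algebraMap R[X] ↥(modularFunctionFieldFullC K0 M) (C π) * z → IsIntegral R[X] z) ∧
    FiniteDimensional E ↥(modularFunctionFieldFullC K0 M) :=
  vc90_level3 K0 M π hπ.prime (IsLocalRing.ResidueField R) (IsLocalRing.residue R)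
    (vi90_residue_eq_zero_iff hπ) (vi90_natCast_residue_ne_zero hMu) _
    (vi90_rel3 M _ H hH hX) h3u (vi90_halg M hC)

/-- **Level 3, chart `h⁻¹`**. -/
theorem vi90_level3_inv (hπ : Irreducible π) (hMu : IsUnit (M : R)) (h3u : IsUnit (3 : R))
    (hC : ∀ r : R, algebraMap R[X] ↥(modularFunctionFieldFullC K0 M) (C r) =
      algebraMap K0 ↥(modularFunctionFieldFullC K0 M) (algebraMap R K0 r))
    (H : LaurentSeries K0) (hH : jqModC K0 * H ^ 3 = (H + 27) * (H + 243) ^ 3)
    (hX : ((algebraMap R[X] ↥(modularFunctionFieldFullC K0 M) X :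
        ↥(modularFunctionFieldFullC K0 M)) : LaurentSeries K0) * H = 1) :
    PurSelfDualAt R[X] E ↥(modularFunctionFieldFullC K0 M) (C π) ∧
    (Ideal.span {algebraMap R[X] ↥(integralClosure R[X] ↥(modularFunctionFieldFullC K0 M))
      (C π)}).IsPrime ∧
    (∀ y z : ↥(modularFunctionFieldFullC K0 M), IsIntegral R[X] y →
      (rm90_ev K0 R M).IsIntegralElem z →
      y = algebraMap R[X] ↥(modularFunctionFieldFullC K0 M) (C π) * z → IsIntegral R[X] z) ∧
    FiniteDimensional E ↥(modularFunctionFieldFullC K0 M) :=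
  vc90_level3_inv K0 M π hπ.prime (IsLocalRing.ResidueField R) (IsLocalRing.residue R)
    (vi90_residue_eq_zero_iff hπ) (vi90_natCast_residue_ne_zero hMu)
    (algebraMap R[X] ↥(modularFunctionFieldFullC K0 M) X)⁻¹
    (vi90_rel3 M _ H hH (vi90_coe_inv M _ H hX)) h3u (by rw [inv_inv]; exact vi90_halg M hC)

omit [IsDiscreteValuationRing R] in
/-- To prove a statement not mentioning the fraction field, one may assume a model `E` of
`Frac R[X]` inside `F` (when `R[X] → F` is injective). -/
theorem vi90_exists_model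
    (hinj : Function.Injective (algebraMap R[X] ↥(modularFunctionFieldFullC K0 M))) {P : Prop}
    (h : ∀ (E : Type) [Field E] [Algebra R[X] E] [IsFractionRing R[X] E]
      [Algebra E ↥(modularFunctionFieldFullC K0 M)]
      [IsScalarTower R[X] E ↥(modularFunctionFieldFullC K0 M)], P) : P := by
  have : FaithfulSMul R[X] ↥(modularFunctionFieldFullC K0 M) :=
    (faithfulSMul_iff_algebraMap_injective _ _).mpr hinj
  let _ : Algebra (FractionRing R[X]) ↥(modularFunctionFieldFullC K0 M) :=
    FractionRing.liftAlgebra _ _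
  exact h (FractionRing R[X])

/-- `E`-free part of `vi90_level2`: `hdom` and saturation. -/
theorem vi90_level2_hdom (hπ : Irreducible π) (hMu : IsUnit (M : R)) (h2u : IsUnit (2 : R))
    (hC : ∀ r : R, algebraMap R[X] ↥(modularFunctionFieldFullC K0 M) (C r) =
      algebraMap K0 ↥(modularFunctionFieldFullC K0 M) (algebraMap R K0 r))
    (hinj : Function.Injective (algebraMap R[X] ↥(modularFunctionFieldFullC K0 M)))
    (H : LaurentSeries K0) (hH : jqModC K0 * H ^ 2 = (H + 256) ^ 3)
    (hX : ((algebraMap R[X] ↥(modularFunctionFieldFullC K0 M) X :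
        ↥(modularFunctionFieldFullC K0 M)) : LaurentSeries K0) = H) :
    (Ideal.span {algebraMap R[X] ↥(integralClosure R[X] ↥(modularFunctionFieldFullC K0 M))
      (C π)}).IsPrime ∧
    (∀ y z : ↥(modularFunctionFieldFullC K0 M), IsIntegral R[X] y →
      (rm90_ev K0 R M).IsIntegralElem z →
      y = algebraMap R[X] ↥(modularFunctionFieldFullC K0 M) (C π) * z → IsIntegral R[X] z) :=
  vi90_exists_model M hinj fun E _ _ _ _ _ =>
    let h := vi90_level2 (E := E) M hπ hMu h2u hC H hH hX
    ⟨h.2.1, h.2.2.1⟩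

/-- `E`-free part of `vi90_level2_inv`: `hdom` and saturation. -/
theorem vi90_level2_inv_hdom (hπ : Irreducible π) (hMu : IsUnit (M : R)) (h2u : IsUnit (2 : R))
    (hC : ∀ r : R, algebraMap R[X] ↥(modularFunctionFieldFullC K0 M) (C r) =
      algebraMap K0 ↥(modularFunctionFieldFullC K0 M) (algebraMap R K0 r))
    (hinj : Function.Injective (algebraMap R[X] ↥(modularFunctionFieldFullC K0 M)))
    (H : LaurentSeries K0) (hH : jqModC K0 * H ^ 2 = (H + 256) ^ 3)
    (hX : ((algebraMap R[X] ↥(modularFunctionFieldFullC K0 M) X :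
        ↥(modularFunctionFieldFullC K0 M)) : LaurentSeries K0) * H = 1) :
    (Ideal.span {algebraMap R[X] ↥(integralClosure R[X] ↥(modularFunctionFieldFullC K0 M))
      (C π)}).IsPrime ∧
    (∀ y z : ↥(modularFunctionFieldFullC K0 M), IsIntegral R[X] y →
      (rm90_ev K0 R M).IsIntegralElem z →
      y = algebraMap R[X] ↥(modularFunctionFieldFullC K0 M) (C π) * z → IsIntegral R[X] z) :=
  vi90_exists_model M hinj fun E _ _ _ _ _ =>
    let h := vi90_level2_inv (E := E) M hπ hMu h2u hC H hH hX
    ⟨h.2.1, h.2.2.1⟩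

/-- `E`-free part of `vi90_level3`: `hdom` and saturation. -/
theorem vi90_level3_hdom (hπ : Irreducible π) (hMu : IsUnit (M : R)) (h3u : IsUnit (3 : R))
    (hC : ∀ r : R, algebraMap R[X] ↥(modularFunctionFieldFullC K0 M) (C r) =
      algebraMap K0 ↥(modularFunctionFieldFullC K0 M) (algebraMap R K0 r))
    (hinj : Function.Injective (algebraMap R[X] ↥(modularFunctionFieldFullC K0 M)))
    (H : LaurentSeries K0) (hH : jqModC K0 * H ^ 3 = (H + 27) * (H + 243) ^ 3)
    (hX : ((algebraMap R[X] ↥(modularFunctionFieldFullC K0 M) X :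
        ↥(modularFunctionFieldFullC K0 M)) : LaurentSeries K0) = H) :
    (Ideal.span {algebraMap R[X] ↥(integralClosure R[X] ↥(modularFunctionFieldFullC K0 M))
      (C π)}).IsPrime ∧
    (∀ y z : ↥(modularFunctionFieldFullC K0 M), IsIntegral R[X] y →
      (rm90_ev K0 R M).IsIntegralElem z →
      y = algebraMap R[X] ↥(modularFunctionFieldFullC K0 M) (C π) * z → IsIntegral R[X] z) :=
  vi90_exists_model M hinj fun E _ _ _ _ _ =>
    let h := vi90_level3 (E := E) M hπ hMu h3u hC H hH hX
    ⟨h.2.1, h.2.2.1⟩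

/-- `E`-free part of `vi90_level3_inv`: `hdom` and saturation. -/
theorem vi90_level3_inv_hdom (hπ : Irreducible π) (hMu : IsUnit (M : R)) (h3u : IsUnit (3 : R))
    (hC : ∀ r : R, algebraMap R[X] ↥(modularFunctionFieldFullC K0 M) (C r) =
      algebraMap K0 ↥(modularFunctionFieldFullC K0 M) (algebraMap R K0 r))
    (hinj : Function.Injective (algebraMap R[X] ↥(modularFunctionFieldFullC K0 M)))
    (H : LaurentSeries K0) (hH : jqModC K0 * H ^ 3 = (H + 27) * (H + 243) ^ 3)
    (hX : ((algebraMap R[X] ↥(modularFunctionFieldFullC K0 M) X :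
        ↥(modularFunctionFieldFullC K0 M)) : LaurentSeries K0) * H = 1) :
    (Ideal.span {algebraMap R[X] ↥(integralClosure R[X] ↥(modularFunctionFieldFullC K0 M))
      (C π)}).IsPrime ∧
    (∀ y z : ↥(modularFunctionFieldFullC K0 M), IsIntegral R[X] y →
      (rm90_ev K0 R M).IsIntegralElem z →
      y = algebraMap R[X] ↥(modularFunctionFieldFullC K0 M) (C π) * z → IsIntegral R[X] z) :=
  vi90_exists_model M hinj fun E _ _ _ _ _ =>
    let h := vi90_level3_inv (E := E) M hπ hMu h3u hC H hH hX
    ⟨h.2.1, h.2.2.1⟩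

end Inst

end

end Fermat.Agent.S18
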