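import Fermat.Agent.S18.RedMap90
import Fermat.Agent.S18.VertAbs90

/-!
# S18, row B5-(V) on the `j`-line (helper90): vertical self-duality

`O = R₀[X]` acting on `F = F(M)_K = K(J(q^d) : d ∣ M)` through `X ↦ j`, `E = Frac O`.

* `vj90_purSelfDualAt` : the integral closure of `R₀[j]` in `F(M)_K` is trace-self-dual at the
  vertical prime `C π` (`PurSelfDualAt (Polynomial R₀) E F (C π)`), for ANY instance
  `Algebra (Polynomial R₀) F` whose `algebraMap` is `rm90_ev K R₀ M` (`X ↦ j`) and any model `E`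
  of the fraction field.
* `vj90_span_isPrime` : `C π` generates a prime ideal of `integralClosure (Polynomial R₀) F`.

Proof: the `ψ(M)` integral expressions `b i` of `rm90_package` have reductions forming a
`κ(J)`-basis of `F(M)_κ`, which is separable over `κ(J)` (`vs_isSeparable`); then
`va90_selfDual`.
-/

set_option autoImplicit false
set_option linter.unusedSectionVars false

open ModularCurve IntermediateField

namespace Fermat.Agent.S18

open Fermat.Agent.S28

noncomputable section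

/-! ### The residue extension `F(M)_κ / κ(J)` -/

section Kappa

variable (κ : Type) [Field κ] (M : ℕ) [NeZero M]

theorem vj90_le : κ⟮jqModC κ⟯ ≤ modularFunctionFieldFullC κ M :=
  adjoin_simple_le_iff.mpr (jqModC_mem_full κ M)

/-- `F(M)_κ` as an intermediate field of `κ((q)) / κ(J)`. -/
def vj90_L : IntermediateField ↥(κ⟮jqModC κ⟯) (LaurentSeries κ) :=
  IntermediateField.extendScalars (vj90_le κ M)

theorem vj90_mem_L {x : LaurentSeries κ} :
    x ∈ vj90_L κ M ↔ x ∈ modularFunctionFieldFullC κ M := Iff.rfl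

/-- A `κ(J)`-independent family of `ψ(M)` elements of `F(M)_κ` spans it. -/
theorem vj90_span_top (c : Fin (dedekindPsi M) → ↥(vj90_L κ M))
    (hli : LinearIndependent ↥(κ⟮jqModC κ⟯) c) :
    ⊤ ≤ Submodule.span ↥(κ⟮jqModC κ⟯) (Set.range c) := by
  intro x _
  by_contra hx
  have h1 : LinearIndependent ↥(κ⟮jqModC κ⟯) (Fin.cons x c : Fin (dedekindPsi M + 1) → _) :=
    linearIndependent_finCons.mpr ⟨hli, hx⟩
  have h2 : LinearIndependent ↥(κ⟮jqModC κ⟯)
      (fun i => (((Fin.cons x c : Fin (dedekindPsi M + 1) → ↥(vj90_L κ M)) i :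
        ↥(vj90_L κ M)) : LaurentSeries κ)) :=
    h1.map' (vj90_L κ M).val.toLinearMap (LinearMap.ker_eq_bot.mpr Subtype.val_injective)
  have h3 := vs_card_le M κ _ _ (fun i => (vj90_mem_L κ M).mp (Subtype.property _)) h2
  omega

/-- The basis of `F(M)_κ` over `κ(J)` given by an independent family of `ψ(M)` elements. -/
def vj90_basis (c : Fin (dedekindPsi M) → ↥(vj90_L κ M))
    (hli : LinearIndependent ↥(κ⟮jqModC κ⟯) c) :
    Module.Basis (Fin (dedekindPsi M)) ↥(κ⟮jqModC κ⟯) ↥(vj90_L κ M) :=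
  Module.Basis.mk hli (vj90_span_top κ M c hli)

theorem vj90_basis_apply (c : Fin (dedekindPsi M) → ↥(vj90_L κ M))
    (hli : LinearIndependent ↥(κ⟮jqModC κ⟯) c) (i : Fin (dedekindPsi M)) :
    vj90_basis κ M c hli i = c i := by
  rw [vj90_basis, Module.Basis.mk_apply]

theorem vj90_isSeparable (hM : (M : κ) ≠ 0) :
    Algebra.IsSeparable ↥(κ⟮jqModC κ⟯) ↥(vj90_L κ M) :=
  ⟨fun x => by
    have h := vs_isSeparable κ M hM (x := (x : LaurentSeries κ)) ((vj90_mem_L κ M).mp x.2)
    rw [IsSeparable] at h ⊢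
    rwa [IntermediateField.minpoly_eq]⟩

end Kappa

/-! ### The `j`-line -/

section Main

variable (K : Type) [Field K] {R₀ : Type*} [CommRing R₀] [IsDomain R₀]
  [UniqueFactorizationMonoid R₀] [Algebra R₀ K] [IsFractionRing R₀ K] (M : ℕ) [NeZero M]

/-- Reduction of polynomials in `j`: `R₀[X] → κ(J)`, `X ↦ J`. -/
def vj90_rho (κ : Type) [Field κ] (red : R₀ →+* κ) : Polynomial R₀ →+* ↥(κ⟮jqModC κ⟯) :=
  Polynomial.eval₂RingHom ((algebraMap κ ↥(κ⟮jqModC κ⟯)).comp red)
    ⟨jqModC κ, mem_adjoin_simple_self κ (jqModC κ)⟩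

theorem vj90_coe_rho (κ : Type) [Field κ] (red : R₀ →+* κ) (a : Polynomial R₀) :
    ((vj90_rho κ red a : ↥(κ⟮jqModC κ⟯)) : LaurentSeries κ) =
      Polynomial.aeval (jqModC κ) (a.map red) := by
  have h : (algebraMap ↥(κ⟮jqModC κ⟯) (LaurentSeries κ)).comp (vj90_rho κ red) =
      ((Polynomial.aeval (jqModC κ) : Polynomial κ →ₐ[κ] LaurentSeries κ).toRingHom).comp
        (Polynomial.mapRingHom red) := by
    refine Polynomial.ringHom_ext (fun r => ?_) ?_
    · simp [vj90_rho]
    · simp [vj90_rho]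
  exact congrFun (congrArg DFunLike.coe h) a

theorem vj90_rho_eq_zero_iff (π : R₀) (κ : Type) [Field κ] (red : R₀ →+* κ)
    (hred : ∀ a : R₀, red a = 0 ↔ π ∣ a) (a : Polynomial R₀) :
    vj90_rho κ red a = 0 ↔ Polynomial.C π ∣ a := by
  have h0 : vj90_rho κ red a = 0 ↔ Polynomial.aeval (jqModC κ) (a.map red) = 0 := by
    rw [← vj90_coe_rho]
    exact ⟨fun h => by rw [h]; rfl, fun h => Subtype.ext h⟩
  rw [h0]
  constructor
  · intro h
    have h2 := (transcendental_iff.mp (rm90_transcendental κ)) _ h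
    rw [Polynomial.C_dvd_iff_dvd_coeff]
    intro n
    rw [← hred, ← Polynomial.coeff_map, h2, Polynomial.coeff_zero]
  · rintro ⟨c, rfl⟩
    rw [Polynomial.map_mul, Polynomial.map_C, (hred π).mpr dvd_rfl, map_zero, zero_mul, map_zero]

/-- **(V) on the `j`-line.** The integral closure of `R₀[j]` in `F(M)_K` is trace-self-dual at
the vertical prime `C π`. -/
theorem vj90_purSelfDualAt (π : R₀) (hπ : Prime π) (κ : Type) [Field κ] (red : R₀ →+* κ)
    (hred : ∀ a : R₀, red a = 0 ↔ π ∣ a) (hM : (M : κ) ≠ 0)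
    [iA : Algebra (Polynomial R₀) ↥(modularFunctionFieldFullC K M)]
    (halg : algebraMap (Polynomial R₀) ↥(modularFunctionFieldFullC K M) = rm90_ev K R₀ M)
    {E : Type*} [Field E] [Algebra (Polynomial R₀) E] [IsFractionRing (Polynomial R₀) E]
    [Algebra E ↥(modularFunctionFieldFullC K M)]
    [IsScalarTower (Polynomial R₀) E ↥(modularFunctionFieldFullC K M)] :
    PurSelfDualAt (Polynomial R₀) E ↥(modularFunctionFieldFullC K M) (Polynomial.C π) := by
  classical
  have hiA : iA = (rm90_ev K R₀ M).toAlgebra :=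
    Algebra.algebra_ext _ _ (fun r => by rw [halg]; rfl)
  subst hiA
  let _ : Algebra (Polynomial R₀) ↥(modularFunctionFieldFullC K M) := (rm90_ev K R₀ M).toAlgebra
  set B : Subring ↥(modularFunctionFieldFullC K M) :=
    (integralClosure (Polynomial R₀) ↥(modularFunctionFieldFullC K M)).toSubring with hBdef
  have hB : ∀ x, x ∈ B ↔ IsIntegral (Polynomial R₀) x := fun x => Iff.rfl
  have hB' : ∀ x, x ∈ B ↔ (rm90_ev K R₀ M).IsIntegralElem x := fun x => Iff.rfl
  obtain ⟨m, φ, hm, -, hspec, hrange, -⟩ := rm90_package K M π hπ κ red hred hM B hB'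
  have : Algebra.IsSeparable ↥(κ⟮jqModC κ⟯) ↥(vj90_L κ M) := vj90_isSeparable κ M hM
  let φ' : ↥B →+* ↥(vj90_L κ M) := φ.codRestrict (vj90_L κ M) (fun x => hrange x)
  let b : Fin (dedekindPsi M) → ↥B := fun i =>
    ⟨rm90_bF K M (m i), rm90_bF_mem K M B hB' (m i)⟩
  have hφb : ∀ i, ((φ' (b i) : ↥(vj90_L κ M)) : LaurentSeries κ) =
      MvPolynomial.eval₂ (Int.castRingHom (LaurentSeries κ))
        (fun d : M.divisors => JdC κ d.1) (m i) := by
    intro i
    change φ (b i) = _
    rw [hspec (b i) (MvPolynomial.eval₂ (Int.castRingHom (LaurentSeries R₀))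
      (fun d : M.divisors => JdC R₀ d.1) (m i))
      (by rw [rm90_coeffMap_eval]; exact (rm90_coe_bF K M (m i)).symm), rm90_coeffMap_eval]
  have hli : LinearIndependent ↥(κ⟮jqModC κ⟯) (fun i => φ' (b i)) := by
    apply LinearIndependent.of_comp (vj90_L κ M).val.toLinearMap
    have h1 : ((vj90_L κ M).val.toLinearMap ∘ fun i => φ' (b i)) =
        fun i => MvPolynomial.eval₂ (Int.castRingHom (LaurentSeries κ))
          (fun d : M.divisors => JdC κ d.1) (m i) := funext hφb
    rw [h1]
    exact hm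
  refine va90_selfDual (Polynomial.C π) (Polynomial.prime_C_iff.mpr hπ) (vj90_rho κ red)
    (vj90_rho_eq_zero_iff π κ red hred) B hB φ' ?_ b hli (vj90_span_top κ M _ hli) ?_
  · intro a h
    apply Subtype.ext
    change φ ⟨rm90_ev K R₀ M a, h⟩ = ((vj90_rho κ red a : ↥(κ⟮jqModC κ⟯)) : LaurentSeries κ)
    rw [vj90_coe_rho, hspec _ (Polynomial.aeval (jqModC R₀) a) (rm90_coe_ev K R₀ M a).symm,
      rm90_coeffMap_aeval]
  · intro n' c hc
    exact rm90_hcard K R₀ M n' c hc

/-- `C π` generates a prime ideal of the integral closure of `R₀[j]` in `F(M)_K`. -/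
theorem vj90_span_isPrime (π : R₀) (hπ : Prime π) (κ : Type) [Field κ] (red : R₀ →+* κ)
    (hred : ∀ a : R₀, red a = 0 ↔ π ∣ a) (hM : (M : κ) ≠ 0)
    [iA : Algebra (Polynomial R₀) ↥(modularFunctionFieldFullC K M)]
    (halg : algebraMap (Polynomial R₀) ↥(modularFunctionFieldFullC K M) = rm90_ev K R₀ M) :
    (Ideal.span {algebraMap (Polynomial R₀)
      ↥(integralClosure (Polynomial R₀) ↥(modularFunctionFieldFullC K M))
      (Polynomial.C π)}).IsPrime := by
  classical
  have hiA : iA = (rm90_ev K R₀ M).toAlgebra :=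
    Algebra.algebra_ext _ _ (fun r => by rw [halg]; rfl)
  subst hiA
  let _ : Algebra (Polynomial R₀) ↥(modularFunctionFieldFullC K M) := (rm90_ev K R₀ M).toAlgebra
  set B : Subring ↥(modularFunctionFieldFullC K M) :=
    (integralClosure (Polynomial R₀) ↥(modularFunctionFieldFullC K M)).toSubring with hBdef
  have hB' : ∀ x, x ∈ B ↔ (rm90_ev K R₀ M).IsIntegralElem x := fun x => Iff.rfl
  obtain ⟨φ, hker, -, -⟩ := rm90_exists_red K M π hπ κ red hred hM B hB'
  let e : ↥(integralClosure (Polynomial R₀) ↥(modularFunctionFieldFullC K M)) →+* ↥B :=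
    RingHom.codRestrict
      (integralClosure (Polynomial R₀) ↥(modularFunctionFieldFullC K M)).val.toRingHom B
      (fun x => x.2)
  have hcπ : ((algebraMap (Polynomial R₀)
      ↥(integralClosure (Polynomial R₀) ↥(modularFunctionFieldFullC K M)) (Polynomial.C π) :
        ↥(integralClosure (Polynomial R₀) ↥(modularFunctionFieldFullC K M))) :
        ↥(modularFunctionFieldFullC K M)) = rm90_c K R₀ M π := by
    change rm90_ev K R₀ M (Polynomial.C π) = _
    rw [rm90_ev, Polynomial.coe_eval₂RingHom, Polynomial.eval₂_C]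
  have hk : Ideal.span {algebraMap (Polynomial R₀)
      ↥(integralClosure (Polynomial R₀) ↥(modularFunctionFieldFullC K M)) (Polynomial.C π)} =
      RingHom.ker (φ.comp e) := by
    ext x
    rw [Ideal.mem_span_singleton', RingHom.mem_ker, RingHom.comp_apply, hker]
    constructor
    · rintro ⟨y, rfl⟩
      refine ⟨e y, ?_⟩
      change ((y * _ : ↥(integralClosure (Polynomial R₀) ↥(modularFunctionFieldFullC K M))) :
        ↥(modularFunctionFieldFullC K M)) = _
      rw [MulMemClass.coe_mul, hcπ, mul_comm]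
      rfl
    · rintro ⟨y, hy⟩
      refine ⟨⟨y.1, y.2⟩, Subtype.ext ?_⟩
      rw [MulMemClass.coe_mul, hcπ, mul_comm]
      exact hy.symm
  rw [hk]
  exact RingHom.ker_isPrime _

end Main

end

end Fermat.Agent.S18
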