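import Fermat.Agent.S28.CharL
import Fermat.Agent.S28.DegreeBound
import Fermat.Agent.S28.ChartBase

/-!
# S18, row B3a (helper90): the vertical package, characteristic-free side

For an arbitrary field `κ` (of type `Type`) and a level `M` invertible in `κ`:

* `vs_exists_independent` : `ψ(M)` integer polynomial expressions in the `J(q^d)`, `d ∣ M`,
  linearly independent over `κ(J)` inside `κ((q))`  (S28 `exists_independent` for every field);
* `vs_isSeparable` : every element of `κ(J(q^d) : d ∣ M)` is separable over `κ(J)`;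
* `vs_card_le` : `[κ(J(q^d) : d ∣ M) : κ(J)] ≤ ψ(M)` (no hypothesis on the characteristic).
-/

set_option autoImplicit false

open ModularCurve IntermediateField

namespace Fermat.Agent.S18

open Fermat.Agent.S28

/-- `ψ(M) ≤ [κ(J(q^d) : d ∣ M) : κ(J)]` for every field `κ` in which `M` is invertible, witnessed
by integral polynomial expressions in the `J(q^d)`. -/
theorem vs_exists_independent (κ : Type) [Field κ] (M : ℕ) [NeZero M] (hM : (M : κ) ≠ 0) :
    ∃ b : Fin (dedekindPsi M) → MvPolynomial M.divisors ℤ,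
      LinearIndependent (IntermediateField.adjoin κ {jqModC κ})
        (fun i => MvPolynomial.eval₂ (Int.castRingHom (LaurentSeries κ))
          (fun d : M.divisors => JdC κ d.1) (b i)) := by
  have hMk : (M : AlgebraicClosure κ) ≠ 0 := by
    intro h
    apply hM
    have h2 : algebraMap κ (AlgebraicClosure κ) (M : κ) = 0 := by rw [map_natCast]; exact h
    exact (algebraMap κ (AlgebraicClosure κ)).injective (by rw [h2, map_zero])
  have hA1 : ∀ p : ℕ, p.Prime → ∃ Φ : Polynomial (Polynomial ℤ), Φ.Monic ∧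
      Φ.natDegree = p + 1 ∧ Φ.eval₂ (evJ ℤ) (JdC ℤ p) = 0 ∧
      Φ.eval₂ (evJd ℤ p) (jqModC ℤ) = 0 := exists_modular_equation
  have hA2 : ∀ p : ℕ, p.Prime → ∃ P : Polynomial (Polynomial ℤ), P.Monic ∧
      P.eval₂ (evJ ℤ) ((p : LaurentSeries ℤ) ^ 12 * (qE ℤ p (DeltaSer ℤ) * DeltaInv ℤ)) = 0 :=
    exists_unit_equation
  have hB1 : ∀ d : ℕ, d ≠ 0 → ∃ P : Polynomial (Polynomial ℤ), P.Monic ∧
      P.eval₂ (evJ ℤ) (JdC ℤ d) = 0 :=
    exists_monic_JdC_of_modEq fun p hp => let ⟨Φ, hΦ, _, h, _⟩ := hA1 p hp; ⟨Φ, hΦ, h⟩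
  have hrank := partC_igusa (jqModC (AlgebraicClosure κ)) (DeltaSer (AlgebraicClosure κ))
      (theta (jqModC (AlgebraicClosure κ)))
      (coeff_jqModC_neg_one _) (fun n hn => coeff_jqModC_of_lt _ hn)
      (h58_DeltaSer_coeff_one _) (h58_DeltaSer_coeff_of_lt _)
      (fun n => rfl) (h58_theta_pow_six theta_J_pow_six) M hMk
      (fun p _ hp _ => ⟨h58_level_modEq p (hA1 p hp), h58_level_unit p (hA2 p hp)⟩)
  obtain ⟨b, hb⟩ := h58_monomials_of_relrank (k := AlgebraicClosure κ) M (dedekindPsi M)
    (fun d hd => h58_isIntegral_JdC hB1 d hd) hrank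
  refine ⟨b, h58_descent (algebraMap κ (AlgebraicClosure κ)) _ ?_⟩
  convert hb using 2 with i
  rw [MvPolynomial.eval₂_comp_left]
  congr 1
  · exact RingHom.ext_int _ _
  · funext d
    exact coeffMap_JdC _ _


/-! ### Separability of the modular equation -/

/-- `partC_poly` along a composite coefficient map. -/
theorem vs_partC_poly_comp {k k' : Type*} [Field k] [Field k'] {R : Type*} [CommRing R]
    (φ : k →+* k') (c : k' →+* R) (Φ : Polynomial (Polynomial k)) (B : R) :
    partC_poly (c.comp φ) Φ B = partC_poly c (Φ.map (Polynomial.mapRingHom φ)) B := by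
  rw [partC_poly, partC_poly, Polynomial.map_map]
  congr 1
  refine Polynomial.ringHom_ext (fun a => ?_) ?_
  · simp
  · simp

/-- Over a field with a primitive `p`-th root of unity, `Φ_p(X, J)` is separable: its image
`Φ_p(X, J(q^p))` under `q ↦ q^p` has the `p + 1` distinct roots `J(q^(p^2))`, `J(ω^c q)`. -/
theorem vs_sep_of_root {k : Type*} [Field k] (J : LaurentSeries k) (hJ1 : J.coeff (-1) = 1)
    (p : ℕ) [NeZero p] (hp : 2 ≤ p) (Φ : Polynomial (Polynomial k)) (hΦ : Φ.Monic)
    (hdeg : Φ.natDegree = p + 1)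
    (h1 : (partC_poly (algebraMap k (LaurentSeries k)) Φ J).eval (qExpand k p J) = 0)
    (h2 : (partC_poly (algebraMap k (LaurentSeries k)) Φ (qExpand k p J)).eval J = 0)
    (ω : kˣ) (hω : IsPrimitiveRoot ω p) :
    (partC_poly (algebraMap k (LaurentSeries k)) Φ J).Separable := by
  classical
  set G' := partC_poly (algebraMap k (LaurentSeries k)) Φ (qExpand k p J) with hG'
  have hmon : G'.Monic := partC_poly_monic _ hΦ _
  have hdeg' : G'.natDegree = p + 1 := by rw [hG', partC_poly_natDegree _ hΦ, hdeg]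
  have hcard := partC_roots_card J hJ1 p ω hp hω
  have hroots := partC_roots_eval J p Φ h1 h2 ω hω.pow_eq_one
  have hsub : (partC_roots J p ω).val ⊆ G'.roots := by
    intro z hz
    rw [Polynomial.mem_roots hmon.ne_zero, Polynomial.IsRoot.def]
    exact hroots z hz
  have hle : (partC_roots J p ω).val ≤ G'.roots :=
    (Multiset.le_iff_subset (partC_roots J p ω).nodup).mpr hsub
  have hcr : Multiset.card G'.roots ≤ Multiset.card (partC_roots J p ω).val := by
    rw [Finset.card_val, hcard, ← hdeg']
    exact Polynomial.card_roots' G'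
  have heq : (partC_roots J p ω).val = G'.roots := Multiset.eq_of_le_of_card_le hle hcr
  have hprod : G' = ∏ z ∈ partC_roots J p ω, (Polynomial.X - Polynomial.C z) := by
    have h := Polynomial.prod_multiset_X_sub_C_of_monic_of_roots_card_eq hmon
      (by rw [← heq, Finset.card_val, hcard, hdeg'])
    rw [← h, ← heq]
    rfl
  have hsepG' : G'.Separable := by
    rw [hprod]
    exact Polynomial.separable_prod_X_sub_C_iff'.mpr (fun x _ y _ h => h)
  have hmap : (partC_poly (algebraMap k (LaurentSeries k)) Φ J).map (qExpand k p) = G' := by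
    rw [partC_poly_map, partC_qExpand_comp_algebraMap]
  rw [← hmap] at hsepG'
  exact (Polynomial.separable_map (qExpand k p)).mp hsepG'

/-- Over any field in which `p` is invertible, `Φ_p(X, J)` is separable. -/
theorem vs_modEq_separable {κ : Type*} [Field κ] (J : LaurentSeries κ) (hJ1 : J.coeff (-1) = 1)
    (p : ℕ) [NeZero p] (hp : 2 ≤ p) (hpκ : (p : κ) ≠ 0)
    (Φ : Polynomial (Polynomial κ)) (hΦ : Φ.Monic) (hdeg : Φ.natDegree = p + 1)
    (h1 : (partC_poly (algebraMap κ (LaurentSeries κ)) Φ J).eval (qExpand κ p J) = 0)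
    (h2 : (partC_poly (algebraMap κ (LaurentSeries κ)) Φ (qExpand κ p J)).eval J = 0) :
    (partC_poly (algebraMap κ (LaurentSeries κ)) Φ J).Separable := by
  let φ : κ →+* AlgebraicClosure κ := algebraMap κ (AlgebraicClosure κ)
  have hpk : (p : AlgebraicClosure κ) ≠ 0 := by
    intro h
    apply hpκ
    have h2 : φ (p : κ) = 0 := by rw [map_natCast]; exact h
    exact φ.injective (by rw [h2, map_zero])
  have : NeZero (p : AlgebraicClosure κ) := ⟨hpk⟩
  obtain ⟨ζ, hζ⟩ := HasEnoughRootsOfUnity.exists_primitiveRoot (AlgebraicClosure κ) p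
  have hu : IsUnit ζ := hζ.isUnit (NeZero.ne p)
  have hω : IsPrimitiveRoot hu.unit p := IsPrimitiveRoot.coe_units_iff.mp (by simpa using hζ)
  have hcomp : (coeffMap φ).comp (algebraMap κ (LaurentSeries κ)) =
      (algebraMap (AlgebraicClosure κ) (LaurentSeries (AlgebraicClosure κ))).comp φ :=
    RingHom.ext fun a => h58_coeffMap_algebraMap φ a
  have hJ1' : (coeffMap φ J).coeff (-1) = 1 := by rw [coeffMap_coeff, hJ1, map_one]
  have h1' := partC_poly_eval_map (algebraMap κ (LaurentSeries κ)) (coeffMap φ) Φ _ _ h1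
  have h2' := partC_poly_eval_map (algebraMap κ (LaurentSeries κ)) (coeffMap φ) Φ _ _ h2
  rw [hcomp, vs_partC_poly_comp, coeffMap_qExpand] at h1' h2'
  have hsep := vs_sep_of_root (coeffMap φ J) hJ1' p hp (Φ.map (Polynomial.mapRingHom φ))
    (hΦ.map _) (by rw [hΦ.natDegree_map, hdeg]) h1' h2' hu.unit hω
  rw [← vs_partC_poly_comp, ← hcomp, ← partC_poly_map] at hsep
  exact (Polynomial.separable_map (coeffMap φ)).mp hsep


/-- `J(q^d)` is separable over `κ(J)` when `d` is invertible in `κ`. -/
theorem vs_isSeparable_Jd {κ : Type*} [Field κ] :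
    ∀ (d : ℕ) [NeZero d], (d : κ) ≠ 0 →
      IsSeparable (IntermediateField.adjoin κ {jqModC κ}) (qExpand κ d (jqModC κ)) := by
  intro d
  induction d using Nat.strong_induction_on with
  | _ d ih =>
    intro hd0 hdκ
    by_cases h1 : d = 1
    · subst h1
      rw [qExpand_one_apply]
      exact isSeparable_algebraMap
        (⟨jqModC κ, mem_adjoin_simple_self κ _⟩ : ↥(IntermediateField.adjoin κ {jqModC κ}))
    · have hpp : d.minFac.Prime := Nat.minFac_prime h1
      obtain ⟨d', hd'⟩ := Nat.minFac_dvd d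
      set p := d.minFac with hp
      have hd'0 : d' ≠ 0 := by
        rintro rfl
        exact (NeZero.ne d) (by rw [hd', mul_zero])
      have : NeZero d' := ⟨hd'0⟩
      have : NeZero p := ⟨hpp.ne_zero⟩
      have hpκ : (p : κ) ≠ 0 := by
        intro h
        apply hdκ
        rw [hd', Nat.cast_mul, h, zero_mul]
      have hd'κ : (d' : κ) ≠ 0 := by
        intro h
        apply hdκ
        rw [hd', Nat.cast_mul, h, mul_zero]
      have hlt : d' < d := by
        rw [hd']
        exact lt_mul_of_one_lt_left (Nat.pos_of_ne_zero hd'0) hpp.one_lt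
      have hIH := ih d' hlt hd'κ
      obtain ⟨Φ, hΦ, hdeg, h1, h2⟩ := h58_level_modEq (k := κ) p (exists_modular_equation p hpp)
      rw [partC_eval₂_aeval_eq] at h1 h2
      have hG := vs_modEq_separable (jqModC κ) (coeff_jqModC_neg_one κ) p hpp.two_le hpκ Φ hΦ hdeg
        h1 h2
      -- transport along `q ↦ q^d'`
      have hG' : (partC_poly (algebraMap κ (LaurentSeries κ)) Φ
          (qExpand κ d' (jqModC κ))).Separable := by
        have h := hG.map (f := qExpand κ d')
        rwa [partC_poly_map, partC_qExpand_comp_algebraMap] at h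
      have hroot : (partC_poly (algebraMap κ (LaurentSeries κ)) Φ
          (qExpand κ d' (jqModC κ))).eval (qExpand κ d (jqModC κ)) = 0 := by
        have h := partC_poly_eval_map (algebraMap κ (LaurentSeries κ)) (qExpand κ d') Φ _ _ h1
        rw [partC_qExpand_comp_algebraMap, qExpand_qExpand,
          qExpand_congr (show d' * p = d by rw [mul_comm]; exact hd'.symm)] at h
        exact h
      -- the intermediate field `κ(J)(J(q^d'))`
      let K0 := IntermediateField.adjoin κ {jqModC κ}
      let L : IntermediateField K0 (LaurentSeries κ) :=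
        IntermediateField.adjoin K0 {qExpand κ d' (jqModC κ)}
      have : Algebra.IsSeparable K0 L :=
        (isSeparable_adjoin_simple_iff_isSeparable K0 (LaurentSeries κ)).mpr hIH
      let c : κ →+* L := (algebraMap K0 L).comp (algebraMap κ K0)
      let g : Polynomial L := partC_poly c Φ
        ⟨qExpand κ d' (jqModC κ), mem_adjoin_simple_self K0 _⟩
      have hcomp : (algebraMap L (LaurentSeries κ)).comp c = algebraMap κ (LaurentSeries κ) :=
        RingHom.ext fun a => rfl
      have hgmap : g.map (algebraMap L (LaurentSeries κ)) =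
          partC_poly (algebraMap κ (LaurentSeries κ)) Φ (qExpand κ d' (jqModC κ)) := by
        rw [partC_poly_map, hcomp]
        rfl
      have hgsep : g.Separable := by
        rw [← Polynomial.separable_map (algebraMap L (LaurentSeries κ)), hgmap]
        exact hG'
      have hgroot : Polynomial.aeval (qExpand κ d (jqModC κ)) g = 0 := by
        rw [Polynomial.aeval_def, ← Polynomial.eval_map, hgmap]
        exact hroot
      have hsepL : IsSeparable L (qExpand κ d (jqModC κ)) :=
        hgsep.of_dvd (minpoly.dvd L _ hgroot)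
      exact IsSeparable.of_algebra_isSeparable_of_isSeparable K0 hsepL

/-- **B3a (3).** Every element of `κ(J(q^d) : d ∣ M)` is separable over `κ(J)` when `M` is
invertible in `κ`. -/
theorem vs_isSeparable (κ : Type*) [Field κ] (M : ℕ) [NeZero M] (hM : (M : κ) ≠ 0)
    {x : LaurentSeries κ} (hx : x ∈ modularFunctionFieldFullC κ M) :
    IsSeparable (IntermediateField.adjoin κ {jqModC κ}) x := by
  unfold modularFunctionFieldFullC at hx
  induction hx using IntermediateField.adjoin_induction with
  | mem x hx =>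
    obtain ⟨d, hd, hdM, rfl⟩ := hx
    exact vs_isSeparable_Jd d (fun h => hM (by
      obtain ⟨c, rfl⟩ := hdM
      rw [Nat.cast_mul, h, zero_mul]))
  | algebraMap c =>
    rw [IsScalarTower.algebraMap_apply κ (IntermediateField.adjoin κ {jqModC κ})
      (LaurentSeries κ)]
    exact isSeparable_algebraMap _
  | add x y _ _ hx hy => exact Field.isSeparable_add hx hy
  | inv x _ hx => exact Field.isSeparable_inv hx
  | mul x y _ _ hx hy => exact Field.isSeparable_mul hx hy


/-! ### The upper bound `[κ(J(q^d) : d ∣ M) : κ(J)] ≤ ψ(M)` over an arbitrary field -/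

section Upper

variable (M : ℕ) [NeZero M]

/-- The value of a `ℤ[J]`-linear combination of integral polynomial expressions in the
`J(q^d)`, over a coefficient ring `R`. -/
noncomputable def vs_val (R : Type*) [CommRing R] {n : ℕ} (P : Fin n → Polynomial ℤ)
    (m : Fin n → MvPolynomial M.divisors ℤ) : LaurentSeries R :=
  ∑ i, (P i).eval₂ (Int.castRingHom (LaurentSeries R)) (jqModC R) *
    MvPolynomial.eval₂ (Int.castRingHom (LaurentSeries R)) (fun d : M.divisors => JdC R d.1) (m i)

omit [NeZero M] in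
theorem vs_coeffMap_val {R S : Type*} [CommRing R] [CommRing S] (f : R →+* S) {n : ℕ}
    (P : Fin n → Polynomial ℤ) (m : Fin n → MvPolynomial M.divisors ℤ) :
    coeffMap f (vs_val M R P m) = vs_val M S P m := by
  unfold vs_val
  rw [map_sum]
  refine Finset.sum_congr rfl fun i _ => ?_
  rw [map_mul, Polynomial.hom_eval₂, MvPolynomial.eval₂_comp_left, coeffMap_jqModC]
  have e : (coeffMap f).comp (Int.castRingHom (LaurentSeries R)) =
      Int.castRingHom (LaurentSeries S) := RingHom.ext_int _ _
  rw [e]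
  congr 2
  funext d
  exact coeffMap_JdC _ _

theorem vs_exists_rel_int {n : ℕ} (hn : dedekindPsi M < n)
    (m : Fin n → MvPolynomial M.divisors ℤ) :
    ∃ P : Fin n → Polynomial ℤ, (∃ i, P i ≠ 0) ∧ vs_val M ℤ P m = 0 := by
  by_contra hcon
  have hv : ∀ P : Fin n → Polynomial ℤ, vs_val M ℚ P m = 0 → ∀ i, P i = 0 := by
    intro P hP i
    by_contra hne
    apply hcon
    refine ⟨P, ⟨i, hne⟩, ?_⟩
    have h := vs_coeffMap_val M (Int.castRingHom ℚ) P m
    rw [hP] at h
    ext k
    have h2 := congrArg (fun z : LaurentSeries ℚ => z.coeff k) h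
    simp only [coeffMap_coeff, HahnSeries.coeff_zero] at h2
    rw [HahnSeries.coeff_zero]
    have h3 : (((vs_val M ℤ P m).coeff k : ℤ) : ℚ) = 0 := h2
    exact_mod_cast h3
  have h := h81B_card_le M n
    (fun i => MvPolynomial.eval₂ (Int.castRingHom (LaurentSeries ℚ))
      (fun d : M.divisors => JdC ℚ d.1) (m i))
    (fun i => by
      rw [← h63_coe_bF]
      exact (h63_bF M (m i)).2)
    (fun P hP => hv P hP)
  omega

omit [NeZero M] in
/-- Normalisation: a nontrivial integral relation can be made nonzero modulo the characteristic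
of any given field. -/
theorem vs_exists_rel_primitive (κ : Type*) [Field κ] {n : ℕ}
    (m : Fin n → MvPolynomial M.divisors ℤ) :
    ∀ (N : ℕ) (P : Fin n → Polynomial ℤ) (i0 : Fin n) (k0 : ℕ),
      ((P i0).coeff k0).natAbs = N → N ≠ 0 → vs_val M ℤ P m = 0 →
      ∃ P' : Fin n → Polynomial ℤ, vs_val M ℤ P' m = 0 ∧
        ∃ i, (P' i).map (Int.castRingHom κ) ≠ 0 := by
  intro N
  induction N using Nat.strong_induction_on with
  | _ N ih =>
    intro P i0 k0 hN hN0 hP
    by_cases hex : ∃ i, (P i).map (Int.castRingHom κ) ≠ 0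
    · exact ⟨P, hP, hex⟩
    · push Not at hex
      have hchar : CharP κ (ringChar κ) := ringChar.charP κ
      set ℓ := ringChar κ with hℓ
      have hdvd : ∀ i k, (ℓ : ℤ) ∣ (P i).coeff k := by
        intro i k
        have h := congrArg (fun Q : Polynomial κ => Q.coeff k) (hex i)
        simp only [Polynomial.coeff_map, Polynomial.coeff_zero, eq_intCast] at h
        exact (CharP.intCast_eq_zero_iff κ ℓ _).mp h
      have hc0 : (P i0).coeff k0 ≠ 0 := by
        intro h
        rw [h] at hN
        exact hN0 (by rw [← hN]; rfl)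
      have hℓ0 : ℓ ≠ 0 := by
        intro h
        have := hdvd i0 k0
        rw [h, Nat.cast_zero, zero_dvd_iff] at this
        exact hc0 this
      have hℓ1 : ℓ ≠ 1 := CharP.ringChar_ne_one
      have hℓ2 : 2 ≤ ℓ := by omega
      have hC : ∀ i, Polynomial.C (ℓ : ℤ) ∣ P i := fun i =>
        (Polynomial.C_dvd_iff_dvd_coeff _ _).mpr (hdvd i)
      choose Q hQ using hC
      have hval : vs_val M ℤ P m = (ℓ : LaurentSeries ℤ) * vs_val M ℤ Q m := by
        unfold vs_val
        rw [Finset.mul_sum]
        refine Finset.sum_congr rfl fun i _ => ?_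
        rw [hQ i, Polynomial.eval₂_mul, Polynomial.eval₂_C]
        simp only [eq_intCast, Int.cast_natCast]
        ring
      have hQ0 : vs_val M ℤ Q m = 0 := by
        rw [hP] at hval
        ext k
        have h2 := congrArg (fun z : LaurentSeries ℤ => z.coeff k) hval
        simp only [HahnSeries.coeff_zero] at h2
        rw [← nsmul_eq_mul, HahnSeries.coeff_smul] at h2
        rw [HahnSeries.coeff_zero]
        rcases smul_eq_zero.mp h2.symm with h | h
        · exact absurd h hℓ0
        · exact h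
      have hcoeff : (P i0).coeff k0 = (ℓ : ℤ) * (Q i0).coeff k0 := by
        rw [hQ i0, Polynomial.coeff_C_mul]
      have hQc0 : (Q i0).coeff k0 ≠ 0 := by
        intro h
        rw [h, mul_zero] at hcoeff
        exact hc0 hcoeff
      have hlt : ((Q i0).coeff k0).natAbs < N := by
        rw [← hN, hcoeff, Int.natAbs_mul, Int.natAbs_natCast]
        have hpos : 0 < ((Q i0).coeff k0).natAbs := Int.natAbs_pos.mpr hQc0
        nlinarith
      exact ih _ hlt Q i0 k0 rfl (Int.natAbs_ne_zero.mpr hQc0) hQ0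

/-- More than `ψ(M)` integral polynomial expressions in the `J(q^d)`, `d ∣ M`, satisfy a relation
with coefficients in `ℤ[J]` that is nontrivial over `κ`. -/
theorem vs_exists_rel (κ : Type*) [Field κ] {n : ℕ} (hn : dedekindPsi M < n)
    (m : Fin n → MvPolynomial M.divisors ℤ) :
    ∃ P : Fin n → Polynomial ℤ, (∃ i, (P i).map (Int.castRingHom κ) ≠ 0) ∧
      vs_val M κ P m = 0 := by
  obtain ⟨P, ⟨i0, hi0⟩, hP⟩ := vs_exists_rel_int M hn m
  obtain ⟨k0, hk0⟩ : ∃ k0, (P i0).coeff k0 ≠ 0 := by
    by_contra h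
    push Not at h
    exact hi0 (Polynomial.ext fun k => by rw [h k, Polynomial.coeff_zero])
  obtain ⟨P', hP', hex⟩ := vs_exists_rel_primitive M κ m _ P i0 k0 rfl
    (Int.natAbs_ne_zero.mpr hk0) hP
  refine ⟨P', hex, ?_⟩
  rw [← vs_coeffMap_val M (Int.castRingHom κ), hP', map_zero]


omit [NeZero M] in
theorem vs_eval₂_mem (κ : Type*) [Field κ] (P : Polynomial ℤ) :
    P.eval₂ (Int.castRingHom (LaurentSeries κ)) (jqModC κ) ∈
      IntermediateField.adjoin κ {jqModC κ} := by
  rw [Polynomial.eval₂_eq_sum_range]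
  refine sum_mem fun i _ => mul_mem ?_ (pow_mem (mem_adjoin_simple_self κ _) i)
  rw [eq_intCast]
  exact intCast_mem _ _

omit [NeZero M] in
theorem vs_eval₂_ne_zero (κ : Type*) [Field κ] (P : Polynomial ℤ)
    (hP : P.map (Int.castRingHom κ) ≠ 0) :
    P.eval₂ (Int.castRingHom (LaurentSeries κ)) (jqModC κ) ≠ 0 := by
  intro h
  apply hP
  have htr : Transcendental κ (jqModC κ) :=
    partC_transcendental (jqModC κ) (coeff_jqModC_neg_one κ) (fun n hn => coeff_jqModC_of_lt κ hn)
  have e : (algebraMap κ (LaurentSeries κ)).comp (Int.castRingHom κ) =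
      Int.castRingHom (LaurentSeries κ) := RingHom.ext_int _ _
  have h2 : Polynomial.aeval (jqModC κ) (P.map (Int.castRingHom κ)) = 0 := by
    rw [Polynomial.aeval_def, Polynomial.eval₂_map, e]
    exact h
  exact (transcendental_iff.mp htr) _ h2

/-- **B3a (2).** `[κ(J(q^d) : d ∣ M) : κ(J)] ≤ ψ(M)` for every field `κ`. -/
theorem vs_card_le (κ : Type) [Field κ] (n : ℕ) (c : Fin n → LaurentSeries κ)
    (hc : ∀ i, c i ∈ modularFunctionFieldFullC κ M)
    (hli : LinearIndependent (IntermediateField.adjoin κ {jqModC κ}) c) :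
    n ≤ dedekindPsi M := by
  classical
  by_contra hn
  rw [not_le] at hn
  have hA1 : ∀ p : ℕ, p.Prime → ∃ Φ : Polynomial (Polynomial ℤ), Φ.Monic ∧
      Φ.natDegree = p + 1 ∧ Φ.eval₂ (evJ ℤ) (JdC ℤ p) = 0 ∧
      Φ.eval₂ (evJd ℤ p) (jqModC ℤ) = 0 := exists_modular_equation
  have hB1 : ∀ d : ℕ, d ≠ 0 → ∃ P : Polynomial (Polynomial ℤ), P.Monic ∧
      P.eval₂ (evJ ℤ) (JdC ℤ d) = 0 :=
    exists_monic_JdC_of_modEq fun p hp => let ⟨Φ, hΦ, _, h, _⟩ := hA1 p hp; ⟨Φ, hΦ, h⟩
  have hint : ∀ d : ℕ, d ≠ 0 →
      IsIntegral (IntermediateField.adjoin κ {jqModC κ}) (JdC κ d) :=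
    fun d hd => h58_isIntegral_JdC hB1 d hd
  set K0 := IntermediateField.adjoin κ {jqModC κ} with hK0
  set W : Submodule K0 (LaurentSeries κ) := Submodule.span K0
    (Submonoid.closure (partC_divSet (jqModC κ) M) : Set (LaurentSeries κ)) with hWdef
  have hW : ∀ i, c i ∈ W := fun i => h58_adjoin_le_span M hint (hc i)
  obtain ⟨s, hsM, hspan, hlis⟩ := exists_linearIndependent K0
    (Submonoid.closure (partC_divSet (jqModC κ) M) : Set (LaurentSeries κ))
  have h2 : Module.rank K0 W = Cardinal.mk s := by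
    rw [hWdef, ← hspan]
    exact rank_span_set hlis
  have h1 : (n : Cardinal) ≤ Module.rank K0 W := by
    let c' : Fin n → W := fun i => ⟨c i, hW i⟩
    have hli' : LinearIndependent K0 c' :=
      LinearIndependent.of_comp W.subtype (by exact hli)
    have h := hli'.cardinal_le_rank
    rwa [Cardinal.mk_fin] at h
  have h3 : Cardinal.mk (Fin (dedekindPsi M + 1)) ≤ Cardinal.mk s := by
    rw [Cardinal.mk_fin, ← h2]
    refine le_trans ?_ h1
    exact_mod_cast hn
  obtain ⟨f⟩ := (Cardinal.le_def _ _).mp h3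
  have hev : ∀ x ∈ Submonoid.closure (partC_divSet (jqModC κ) M),
      ∃ m : MvPolynomial M.divisors ℤ, MvPolynomial.eval₂ (Int.castRingHom (LaurentSeries κ))
          (fun d : M.divisors => JdC κ d.1) m = x := fun x hx => h58_exists_mvPolynomial M hx
  choose! m hm using hev
  have hli2 : LinearIndependent K0 (fun i => ((f i : s) : LaurentSeries κ)) :=
    hlis.comp f f.injective
  obtain ⟨P, ⟨i1, hi1⟩, hP⟩ := vs_exists_rel M κ (Nat.lt_succ_self (dedekindPsi M))
    (fun i => m ((f i : s) : LaurentSeries κ))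
  rw [linearIndependent_iff'] at hli2
  have h4 := hli2 Finset.univ (fun i => ⟨_, vs_eval₂_mem κ (P i)⟩) (by
    rw [← hP]
    unfold vs_val
    refine Finset.sum_congr rfl fun i _ => ?_
    rw [IntermediateField.smul_def, smul_eq_mul, hm _ (hsM (f i).2)]) i1 (Finset.mem_univ i1)
  exact vs_eval₂_ne_zero κ (P i1) hi1 (congrArg Subtype.val h4)

end Upper

end Fermat.Agent.S18
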