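import Mathlib

/-!
# S18, module (Z): Zariski connectedness for two-chart models (helper95)

Abstract commutative algebra.  `C` is a commutative `A`-algebra (think: the functions on the
overlap `x ≠ 0, ∞` of a normal model over a discrete valuation ring `A`), `B`, `B'` are two
`A`-subalgebras (the functions on the charts `x ≠ ∞` and `x ≠ 0`), `x ∈ B` is invertible in `C`
with inverse `y ∈ B'`.  If

* `C = B + x ^ n B'` for some `n` (vanishing of an `H¹`),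
* `x ^ n B' ⊆ B' + N` for a finitely generated `A`-module `N` (finiteness of principal parts),
* `B ∩ B' = A` (the only global functions are the constants),

then an idempotent of the special fibre (a pair `e₀ ∈ B`, `e₁ ∈ B'`, both idempotent modulo `ϖ`,
congruent modulo `ϖ` on the overlap) is constant modulo `ϖ`; if `A ⧸ ϖ` has only the trivial
idempotents it is trivial: `zc95_main`.
-/

set_option autoImplicit false

namespace Fermat.Agent.S18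

section Lift

variable {R : Type*} [CommRing R]

/-- One Newton step for idempotents. -/
theorem zc95_newton_sq (e : R) :
    (3 * e ^ 2 - 2 * e ^ 3) ^ 2 - (3 * e ^ 2 - 2 * e ^ 3) =
      (e ^ 2 - e) ^ 2 * (4 * e ^ 2 - 4 * e - 3) := by ring

theorem zc95_newton_sub (e : R) :
    (3 * e ^ 2 - 2 * e ^ 3) - e = (e ^ 2 - e) * (1 - 2 * e) := by ring

/-- Idempotents lift along powers of `ϖ`. -/
theorem zc95_lift_idem (ϖ e₀ : R) (h : ϖ ∣ e₀ ^ 2 - e₀) (j : ℕ) :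
    ∃ e : R, ϖ ∣ e - e₀ ∧ ϖ ^ (j + 1) ∣ e ^ 2 - e := by
  induction j with
  | zero => exact ⟨e₀, by simp, by simpa using h⟩
  | succ j ih =>
    obtain ⟨e, he0, hej⟩ := ih
    refine ⟨3 * e ^ 2 - 2 * e ^ 3, ?_, ?_⟩
    · have h1 : ϖ ∣ (3 * e ^ 2 - 2 * e ^ 3) - e := by
        rw [zc95_newton_sub]
        exact Dvd.dvd.mul_right ((dvd_pow_self ϖ (Nat.succ_ne_zero j)).trans hej) _
      have : (3 * e ^ 2 - 2 * e ^ 3) - e₀ = ((3 * e ^ 2 - 2 * e ^ 3) - e) + (e - e₀) := by ring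
      rw [this]
      exact dvd_add h1 he0
    · rw [zc95_newton_sq]
      have h2 : ϖ ^ (j + 1 + 1) ∣ (e ^ 2 - e) ^ 2 := by
        have : ϖ ^ (j + 1 + 1) ∣ (ϖ ^ (j + 1)) ^ 2 := by
          rw [← pow_mul]
          exact pow_dvd_pow ϖ (by omega)
        exact this.trans (pow_dvd_pow_of_dvd hej 2)
      exact Dvd.dvd.mul_right h2 _

theorem zc95_cube_sub (e f : R) :
    (e - f) ^ 3 - (e - f) =
      (e ^ 2 - e) * (1 + e - 3 * f) + (f ^ 2 - f) * (3 * e - 1 - f) := by ring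

/-- Uniqueness of idempotent lifting. -/
theorem zc95_unique_idem (ϖ e f : R) (j : ℕ) (he : ϖ ^ j ∣ e ^ 2 - e) (hf : ϖ ^ j ∣ f ^ 2 - f)
    (hef : ϖ ∣ e - f) : ϖ ^ j ∣ e - f := by
  have hcube : ϖ ^ j ∣ (e - f) ^ 3 - (e - f) := by
    rw [zc95_cube_sub]
    exact dvd_add (Dvd.dvd.mul_right he _) (Dvd.dvd.mul_right hf _)
  have key : ∀ i : ℕ, i ≤ j → ϖ ^ i ∣ e - f := by
    intro i
    induction i with
    | zero => intro _; simp
    | succ i ih =>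
      intro hi
      rcases Nat.eq_zero_or_pos i with rfl | hipos
      · simpa using hef
      · have hi' := ih (by omega)
        have h3 : ϖ ^ (i + 1) ∣ (e - f) ^ 3 := by
          have : ϖ ^ (i + 1) ∣ (ϖ ^ i) ^ 3 := by
            rw [← pow_mul]
            exact pow_dvd_pow ϖ (by omega)
          exact this.trans (pow_dvd_pow_of_dvd hi' 3)
        have h4 : ϖ ^ (i + 1) ∣ (e - f) ^ 3 - (e - f) := (pow_dvd_pow ϖ hi).trans hcube
        have : e - f = (e - f) ^ 3 - ((e - f) ^ 3 - (e - f)) := by ring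
        rw [this]
        exact dvd_sub h3 h4
  exact key j le_rfl

end Lift

end Fermat.Agent.S18

namespace Fermat.Agent.S18

section Main

variable {A C : Type*} [CommRing A] [CommRing C] [Algebra A C] [IsNoetherianRing A]

omit [IsNoetherianRing A] in
/-- Idempotent lifting inside a subalgebra, stated in the ambient ring. -/
theorem zc95_lift_in (ϖ : A) (B : Subalgebra A C) (e₀ : C) (he₀ : e₀ ∈ B)
    (h₀ : ∃ b ∈ B, e₀ ^ 2 - e₀ = ϖ • b) (j : ℕ) :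
    ∃ e ∈ B, (∃ b ∈ B, e - e₀ = ϖ • b) ∧ ∃ b ∈ B, e ^ 2 - e = ϖ ^ (j + 1) • b := by
  obtain ⟨b, hb, hb0⟩ := h₀
  have hdiv : (algebraMap A B ϖ) ∣ (⟨e₀, he₀⟩ : B) ^ 2 - ⟨e₀, he₀⟩ := by
    refine ⟨⟨b, hb⟩, ?_⟩
    apply Subtype.ext
    simp only [Subalgebra.coe_sub, Subalgebra.coe_pow, Subalgebra.coe_mul, Subalgebra.coe_algebraMap]
    rw [hb0, Algebra.smul_def]
  obtain ⟨e, h1, h2⟩ := zc95_lift_idem (algebraMap A B ϖ) ⟨e₀, he₀⟩ hdiv j
  obtain ⟨c1, hc1⟩ := h1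
  obtain ⟨c2, hc2⟩ := h2
  refine ⟨e, e.2, ⟨c1, c1.2, ?_⟩, ⟨c2, c2.2, ?_⟩⟩
  · have := congrArg (Subtype.val) hc1
    simp only [Subalgebra.coe_sub, Subalgebra.coe_mul, Subalgebra.coe_algebraMap] at this
    rw [this, Algebra.smul_def]
  · have := congrArg (Subtype.val) hc2
    simp only [Subalgebra.coe_sub, Subalgebra.coe_pow, Subalgebra.coe_mul,
      Subalgebra.coe_algebraMap] at this
    rw [this, Algebra.smul_def, map_pow]

/-- **Zariski connectedness, core form.**  A pair of idempotents modulo `ϖ` on the two charts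
which agree modulo `ϖ` on the overlap is constant modulo `ϖ`. -/
theorem zc95_const (ϖ : A) (B B' : Subalgebra A C) (x y : C) (_hx : x ∈ B) (hy : y ∈ B')
    (hxy : x * y = 1) (n : ℕ)
    (hsum : ∀ c : C, ∃ b ∈ B, ∃ b' ∈ B', c = b + x ^ n * b')
    (N : Submodule A C) (hN : N.FG)
    (hNsub : ∀ b' ∈ B', ∃ b'' ∈ B', ∃ s ∈ N, x ^ n * b' = b'' + s)
    (hcap : ∀ c : C, c ∈ B → c ∈ B' → ∃ a : A, algebraMap A C a = c)
    (e₀ e₁ : C) (he₀ : e₀ ∈ B) (he₁ : e₁ ∈ B')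
    (h₀ : ∃ b ∈ B, e₀ ^ 2 - e₀ = ϖ • b) (h₁ : ∃ b' ∈ B', e₁ ^ 2 - e₁ = ϖ • b')
    (h₀₁ : ∃ c : C, e₀ - e₁ = ϖ • c) :
    ∃ a : A, ∃ b ∈ B, e₀ = algebraMap A C a + ϖ • b := by
  classical
  -- the lattice `Λ = B ∩ x ^ n B'`
  set Λ : Submodule A C :=
    B.toSubmodule ⊓ Submodule.map (LinearMap.mulLeft A (x ^ n)) B'.toSubmodule with hΛ
  -- the submodule `J = (Λ + B') ∩ N` of `N`, as a submodule of `↥N`
  set J : Submodule A N := (Λ ⊔ B'.toSubmodule).comap N.subtype with hJ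
  have hNoeth : IsNoetherian A N := isNoetherian_of_fg_of_noetherian N hN
  -- the saturation chain
  let I : ℕ →o Submodule A N :=
    { toFun := fun k => J.comap ((ϖ ^ k) • (LinearMap.id : N →ₗ[A] N))
      monotone' := by
        intro k m hkm s hs
        simp only [Submodule.mem_comap, LinearMap.smul_apply, LinearMap.id_coe, id_eq] at hs ⊢
        obtain ⟨d, rfl⟩ := Nat.exists_eq_add_of_le hkm
        rw [pow_add, mul_comm, mul_smul]
        exact J.smul_mem _ hs }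
  obtain ⟨c, hc⟩ := monotone_stabilizes_iff_noetherian.mpr hNoeth I
  -- lift both idempotents modulo `ϖ ^ (c + 1)`
  obtain ⟨E₀, hE₀, ⟨b₄, hb₄, hE₀e⟩, ⟨u₀, hu₀, hE₀sq⟩⟩ := zc95_lift_in ϖ B e₀ he₀ h₀ c
  obtain ⟨E₁, hE₁, ⟨b₅, hb₅, hE₁e⟩, ⟨u₁, hu₁, hE₁sq⟩⟩ := zc95_lift_in ϖ B' e₁ he₁ h₁ c
  obtain ⟨c₀₁, hc₀₁⟩ := h₀₁
  -- they agree modulo `ϖ ^ (c + 1)` on the overlap
  have hdvd : (algebraMap A C ϖ) ^ (c + 1) ∣ E₀ - E₁ := by
    apply zc95_unique_idem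
    · exact ⟨u₀, by rw [hE₀sq, Algebra.smul_def, map_pow]⟩
    · exact ⟨u₁, by rw [hE₁sq, Algebra.smul_def, map_pow]⟩
    · refine ⟨b₄ + c₀₁ - b₅, ?_⟩
      have : E₀ - E₁ = (E₀ - e₀) + (e₀ - e₁) - (E₁ - e₁) := by ring
      rw [this, hE₀e, hc₀₁, hE₁e, Algebra.smul_def, Algebra.smul_def, Algebra.smul_def]
      ring
  obtain ⟨h, hh⟩ := hdvd
  obtain ⟨g₀, hg₀, g₁, hg₁, hsplit⟩ := hsum h
  obtain ⟨b'', hb'', s, hs, hxs⟩ := hNsub g₁ hg₁
  -- the global section `ε`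
  set ε : C := E₀ - ϖ ^ (c + 1) • g₀ with hε
  have hεB : ε ∈ B := B.sub_mem hE₀ (B.smul_mem hg₀ _)
  have hε' : ε = E₁ + ϖ ^ (c + 1) • (x ^ n * g₁) := by
    have h1 : E₀ = E₁ + (algebraMap A C ϖ) ^ (c + 1) * h := by rw [← hh]; ring
    rw [hε, h1, hsplit, Algebra.smul_def, Algebra.smul_def, map_pow]
    ring
  have hxyn : x ^ n * y ^ n = 1 := by rw [← mul_pow, hxy, one_pow]
  have hεΛ : ε ∈ Λ := by
    refine ⟨hεB, ?_⟩
    refine ⟨y ^ n * E₁ + ϖ ^ (c + 1) • g₁, ?_, ?_⟩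
    · exact B'.add_mem (B'.mul_mem (B'.pow_mem hy n) hE₁) (B'.smul_mem hg₁ _)
    · simp only [LinearMap.mulLeft_apply]
      rw [hε', mul_add, ← mul_assoc, hxyn, one_mul, mul_smul_comm]
  -- `ϖ ^ (c + 1) • s` lies in `(Λ + B') ∩ N`
  have hsJ : (⟨s, hs⟩ : N) ∈ I (c + 1) := by
    show (ϖ ^ (c + 1) • (LinearMap.id : N →ₗ[A] N)) ⟨s, hs⟩ ∈ J
    rw [hJ, Submodule.mem_comap]
    simp only [LinearMap.smul_apply, LinearMap.id_coe, id_eq, Submodule.subtype_apply,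
      Submodule.coe_smul]
    have : ϖ ^ (c + 1) • s = ε - (E₁ + ϖ ^ (c + 1) • b'') := by
      rw [hε', hxs, smul_add]; ring
    rw [this]
    exact Submodule.sub_mem _ (Submodule.mem_sup_left hεΛ)
      (Submodule.mem_sup_right (B'.add_mem hE₁ (B'.smul_mem hb'' _)))
  have hsc : (⟨s, hs⟩ : N) ∈ I c := by
    rw [hc (c + 1) (Nat.le_succ c)]; exact hsJ
  have hsc' : ϖ ^ c • s ∈ Λ ⊔ B'.toSubmodule := by
    have : (ϖ ^ c • (LinearMap.id : N →ₗ[A] N)) ⟨s, hs⟩ ∈ J := hsc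
    rw [hJ, Submodule.mem_comap] at this
    simpa using this
  obtain ⟨g, hg, b₃, hb₃, hgb⟩ := Submodule.mem_sup.mp hsc'
  -- `ε - ϖ • g` is a global function, hence a constant
  have hεg : ε - ϖ • g = E₁ + ϖ ^ (c + 1) • b'' + ϖ • b₃ := by
    have h2 : ϖ ^ (c + 1) • s = ϖ • (g + b₃) := by
      rw [hgb, pow_succ, mul_comm, mul_smul]
    rw [hε', hxs, smul_add, h2, smul_add]; ring
  have hmemB : ε - ϖ • g ∈ B := B.sub_mem hεB (B.smul_mem hg.1 _)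
  have hmemB' : ε - ϖ • g ∈ B' := by
    rw [hεg]
    exact B'.add_mem (B'.add_mem hE₁ (B'.smul_mem hb'' _)) (B'.smul_mem hb₃ _)
  obtain ⟨a, ha⟩ := hcap _ hmemB hmemB'
  refine ⟨a, g + ϖ ^ c • g₀ - b₄, ?_, ?_⟩
  · exact B.sub_mem (B.add_mem hg.1 (B.smul_mem hg₀ _)) hb₄
  · have h3 : e₀ = E₀ - ϖ • b₄ := by rw [← hE₀e]; ring
    have h4 : E₀ = ε + ϖ ^ (c + 1) • g₀ := by rw [hε]; ring
    have h5 : ε = algebraMap A C a + ϖ • g := by rw [ha]; ring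
    rw [h3, h4, h5, smul_sub, smul_add, pow_succ, mul_comm, mul_smul]
    ring

/-- **Zariski connectedness.**  If moreover `A ⧸ ϖ` has only trivial idempotents and
`ϖ B ∩ A = ϖ A`, an idempotent of the special fibre is trivial. -/
theorem zc95_main (ϖ : A) (B B' : Subalgebra A C) (x y : C) (hx : x ∈ B) (hy : y ∈ B')
    (hxy : x * y = 1) (n : ℕ)
    (hsum : ∀ c : C, ∃ b ∈ B, ∃ b' ∈ B', c = b + x ^ n * b')
    (N : Submodule A C) (hN : N.FG)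
    (hNsub : ∀ b' ∈ B', ∃ b'' ∈ B', ∃ s ∈ N, x ^ n * b' = b'' + s)
    (hcap : ∀ c : C, c ∈ B → c ∈ B' → ∃ a : A, algebraMap A C a = c)
    (hsat : ∀ a : A, (∃ b ∈ B, algebraMap A C a = ϖ • b) → ϖ ∣ a)
    (hidem : ∀ a : A, ϖ ∣ a ^ 2 - a → ϖ ∣ a ∨ ϖ ∣ a - 1)
    (e₀ e₁ : C) (he₀ : e₀ ∈ B) (he₁ : e₁ ∈ B')
    (h₀ : ∃ b ∈ B, e₀ ^ 2 - e₀ = ϖ • b) (h₁ : ∃ b' ∈ B', e₁ ^ 2 - e₁ = ϖ • b')
    (h₀₁ : ∃ c : C, e₀ - e₁ = ϖ • c) :
    (∃ b ∈ B, e₀ = ϖ • b) ∨ ∃ b ∈ B, e₀ - 1 = ϖ • b := by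
  obtain ⟨a, b, hb, hab⟩ :=
    zc95_const ϖ B B' x y hx hy hxy n hsum N hN hNsub hcap e₀ e₁ he₀ he₁ h₀ h₁ h₀₁
  obtain ⟨b₀, hb₀, hb₀e⟩ := h₀
  have hsq : ϖ ∣ a ^ 2 - a := by
    apply hsat
    refine ⟨b₀ - (algebraMap A C (2 * a) * b + ϖ • b ^ 2 - b), ?_, ?_⟩
    · exact B.sub_mem hb₀ (B.sub_mem (B.add_mem (B.mul_mem (B.algebraMap_mem _) hb)
        (B.smul_mem (B.pow_mem hb 2) _)) hb)
    · have h1 : algebraMap A C (a ^ 2 - a) = (e₀ - ϖ • b) ^ 2 - (e₀ - ϖ • b) := by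
        rw [hab]; simp only [map_sub, map_pow]; ring
      have h2 : (e₀ - ϖ • b) ^ 2 - (e₀ - ϖ • b) =
          (e₀ ^ 2 - e₀) - ϖ • (2 * e₀ * b - ϖ • b ^ 2 - b) := by
        simp only [Algebra.smul_def]; ring
      rw [h1, h2, hb₀e, ← smul_sub]
      congr 1
      rw [hab]
      simp only [Algebra.smul_def, map_mul, map_ofNat]; ring
  rcases hidem a hsq with ⟨a', ha'⟩ | ⟨a', ha'⟩
  · left
    refine ⟨algebraMap A C a' + b, B.add_mem (B.algebraMap_mem a') hb, ?_⟩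
    rw [hab, ha', map_mul, smul_add, Algebra.smul_def ϖ (algebraMap A C a')]
  · right
    refine ⟨algebraMap A C a' + b, B.add_mem (B.algebraMap_mem a') hb, ?_⟩
    have : algebraMap A C a = algebraMap A C (ϖ * a') + 1 := by
      rw [← ha']; simp
    rw [hab, this, map_mul, smul_add, Algebra.smul_def ϖ (algebraMap A C a')]
    ring

end Main

end Fermat.Agent.S18
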